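import Fermat.Agent.S17.h94_ExistsRep

/-!
# S17 route R55, row MV, part 1: `h55_exists_rep` (closed form)
-/

set_option autoImplicit false

open AlgebraicCurve

namespace Fermat.Agent.S17

open Fermat.Agent.S18 Fermat.Agent.S27

local notation "Qbar" => AlgebraicClosure ℚ
local notation "GQ" => (AlgebraicClosure ℚ ≃ₐ[ℚ] AlgebraicClosure ℚ)

variable {F : Type} [Field F] [Algebra Qbar F] (fr : h55_Frame F)

/-- **Moving lemma** (row MV (1)). -/
theorem h55_exists_rep (e : ℕ) (he : 2 * fr.g + 1 ≤ e) (c : Pic0 Qbar F) (hc : fr.IsFixed c)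
    (T : Finset (Place Qbar F)) :
    ∃ A : Fin e → Place Qbar F, fr.IsAdm A ∧ fr.IsStable A ∧ fr.Rep A c ∧ ∀ j, A j ∉ T :=
  h94_exists_rep fr e he c hc T

end Fermat.Agent.S17
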