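import Mathlib

/-!
# Galois descent for semilinear actions (S17 foundation, Mathlib only)

`L / K` a (possibly infinite) Galois extension, `V` an `L`-vector space with a semilinear action of
`Gal(L/K)` given as a plain function `act`.  If every vector is fixed by the automorphisms fixing
some finite subextension (`h32_Smooth`), then `V` is spanned over `L` by the fixed vectors
(`h32_descent_span`), a finite-dimensional `V` has a basis of fixed vectors
(`h32_descent_basis`), a line has a fixed generator (`h32_descent_line`), and `K`-linearly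
independent fixed vectors are `L`-linearly independent (`h32_descent_indep`).
-/

set_option autoImplicit false

namespace Fermat.Agent.S17

open IntermediateField

variable {K L : Type*} [Field K] [Field L] [Algebra K L]
variable {V : Type*} [AddCommGroup V] [Module L V]

/-- A semilinear action of `Gal(L/K)` on an `L`-vector space, as a plain function. -/
structure h32_IsSemiAct (act : (L ≃ₐ[K] L) → V → V) : Prop where
  map_add : ∀ σ v w, act σ (v + w) = act σ v + act σ w
  map_smul : ∀ σ (a : L) v, act σ (a • v) = σ a • act σ v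
  mul : ∀ σ τ v, act (σ * τ) v = act σ (act τ v)

/-- Every vector is fixed by the automorphisms fixing a finite subextension. -/
def h32_Smooth (act : (L ≃ₐ[K] L) → V → V) : Prop :=
  ∀ v, ∃ E : IntermediateField K L, FiniteDimensional K E ∧
    ∀ σ : L ≃ₐ[K] L, (∀ a ∈ E, σ a = a) → act σ v = v

/-- The fixed vectors. -/
def h32_fixed (act : (L ≃ₐ[K] L) → V → V) : Set V := {v | ∀ σ, act σ v = v}

omit [AddCommGroup V] [Module L V] in
theorem h32_mem_fixed {act : (L ≃ₐ[K] L) → V → V} {v : V} :
    v ∈ h32_fixed act ↔ ∀ σ, act σ v = v := Iff.rfl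

namespace h32_IsSemiAct

variable {act : (L ≃ₐ[K] L) → V → V} (h : h32_IsSemiAct act)
include h

theorem map_zero (σ : L ≃ₐ[K] L) : act σ 0 = 0 := by
  have := h.map_add σ 0 0
  rw [add_zero] at this
  exact left_eq_add.mp this

theorem map_sum {ι : Type*} (σ : L ≃ₐ[K] L) (s : Finset ι) (f : ι → V) :
    act σ (∑ i ∈ s, f i) = ∑ i ∈ s, act σ (f i) := by
  classical
  induction s using Finset.induction_on with
  | empty => simp [h.map_zero]
  | insert a s ha ih => rw [Finset.sum_insert ha, Finset.sum_insert ha, h.map_add, ih]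

theorem map_neg (σ : L ≃ₐ[K] L) (v : V) : act σ (-v) = -act σ v := by
  have := h.map_add σ v (-v)
  rw [add_neg_cancel, h.map_zero] at this
  exact eq_neg_of_add_eq_zero_right this.symm

theorem map_sub (σ : L ≃ₐ[K] L) (v w : V) : act σ (v - w) = act σ v - act σ w := by
  rw [sub_eq_add_neg, h.map_add, h.map_neg, sub_eq_add_neg]

/-- Two automorphisms agreeing on `E` act in the same way on `a • v` when `a ∈ E` and `v` is
fixed by the automorphisms fixing `E`. -/
theorem act_eq_of_agree (E : IntermediateField K L) {v : V}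
    (hv : ∀ σ : L ≃ₐ[K] L, (∀ a ∈ E, σ a = a) → act σ v = v)
    {σ₁ σ₂ : L ≃ₐ[K] L} (h12 : ∀ x ∈ E, σ₁ x = σ₂ x) {a : L} (ha : a ∈ E) :
    act σ₁ (a • v) = act σ₂ (a • v) := by
  have hη : ∀ x ∈ E, (σ₂⁻¹ * σ₁) x = x := by
    intro x hx
    rw [AlgEquiv.mul_apply, h12 x hx]
    exact σ₂.symm_apply_apply x
  have h1 : σ₁ = σ₂ * (σ₂⁻¹ * σ₁) := by group
  have h2 : act (σ₂⁻¹ * σ₁) (a • v) = a • v := by
    rw [h.map_smul, hη a ha, hv _ hη]
  conv_lhs => rw [h1]
  rw [h.mul, h2]

end h32_IsSemiAct

/-- Trace-dual identity for a finite Galois extension: there are families `b`, `c` indexed by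
the Galois group with `∑ i, c i * γ (b i) = δ_{γ,1}`. -/
theorem h32_exists_dual (E : Type*) [Field E] [Algebra K E] [FiniteDimensional K E]
    [IsGalois K E] :
    ∃ b c : (E ≃ₐ[K] E) → E, (∑ i, c i * b i = 1) ∧
      ∀ γ : E ≃ₐ[K] E, γ ≠ 1 → ∑ i, c i * γ (b i) = 0 := by
  classical
  have hcard : Module.finrank K E = Fintype.card (E ≃ₐ[K] E) := by
    rw [← Nat.card_eq_fintype_card]; exact (IsGalois.card_aut_eq_finrank K E).symm
  let b₀ : Module.Basis (Fin (Module.finrank K E)) K E := Module.finBasis K E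
  let e : Fin (Module.finrank K E) ≃ (E ≃ₐ[K] E) := Fintype.equivOfCardEq (by simp [hcard])
  let b : Module.Basis (E ≃ₐ[K] E) K E := b₀.reindex e
  have hnd : (Algebra.traceForm K E).Nondegenerate := traceForm_nondegenerate K E
  let d : Module.Basis (E ≃ₐ[K] E) K E := (Algebra.traceForm K E).dualBasis hnd b
  -- matrices
  let P : Matrix (E ≃ₐ[K] E) (E ≃ₐ[K] E) E := Matrix.of fun γ i => γ (b i)
  let Q : Matrix (E ≃ₐ[K] E) (E ≃ₐ[K] E) E := Matrix.of fun i γ => γ (d i)
  have hQP : Q * P = 1 := by
    ext i k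
    have h1 : Algebra.traceForm K E (d i) (b k) = if k = i then 1 else 0 :=
      LinearMap.BilinForm.apply_dualBasis_left hnd b i k
    rw [Algebra.traceForm_apply] at h1
    have h2 := trace_eq_sum_automorphisms (K := K) (L := E) (d i * b k)
    rw [h1] at h2
    simp only [map_mul] at h2
    rw [Matrix.mul_apply, Matrix.one_apply]
    show ∑ γ : E ≃ₐ[K] E, γ (d i) * γ (b k) = _
    rw [← h2]
    split_ifs with hki hik hik
    · simp
    · exact absurd hki.symm hik
    · exact absurd hik.symm hki
    · simp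
  have hPQ : P * Q = 1 := mul_eq_one_comm.mp hQP
  have key : ∀ γ : E ≃ₐ[K] E, ∑ i, d i * γ (b i) = if γ = 1 then 1 else 0 := by
    intro γ
    have := congrFun (congrFun hPQ γ) 1
    rw [Matrix.mul_apply, Matrix.one_apply] at this
    rw [← this]
    exact Finset.sum_congr rfl fun i _ => mul_comm _ _
  refine ⟨b, d, ?_, fun γ hγ => ?_⟩
  · have := key 1
    simpa using this
  · rw [key γ, if_neg hγ]

variable [IsGalois K L]

/-- **Galois descent, finite level.** If `v` is fixed by the automorphisms fixing the finite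
normal subextension `E`, then `v` lies in the `L`-span of the fixed vectors. -/
theorem h32_mem_span_fixed_of_normal {act : (L ≃ₐ[K] L) → V → V} (h : h32_IsSemiAct act)
    (E : IntermediateField K L) [FiniteDimensional K E] [Normal K E] {v : V}
    (hv : ∀ σ : L ≃ₐ[K] L, (∀ a ∈ E, σ a = a) → act σ v = v) :
    v ∈ Submodule.span L (h32_fixed act) := by
  classical
  have : Algebra.IsSeparable K E := Algebra.isSeparable_tower_bot_of_isSeparable K E L
  have : IsGalois K E := ⟨⟩
  obtain ⟨b, c, hbc1, hbc⟩ := h32_exists_dual (K := K) E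
  have hsurj := AlgEquiv.restrictNormalHom_surjective (F := K) (K₁ := E) L
  let s : (E ≃ₐ[K] E) → (L ≃ₐ[K] L) := fun γ => (hsurj γ).choose
  have hs : ∀ γ, AlgEquiv.restrictNormalHom E (s γ) = γ := fun γ => (hsurj γ).choose_spec
  have hs' : ∀ γ (x : E), s γ (x : L) = ((γ x : E) : L) := by
    intro γ x
    have h2 : (s γ).restrictNormal E = γ := hs γ
    have := AlgEquiv.restrictNormal_commutes (s γ) E x
    rw [h2] at this
    exact this.symm
  -- the averaged vectors
  let w : E → V := fun a => ∑ γ : E ≃ₐ[K] E, act (s γ) ((a : L) • v)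
  have hw : ∀ a, w a ∈ h32_fixed act := by
    intro a σ
    show act σ (∑ γ : E ≃ₐ[K] E, act (s γ) ((a : L) • v)) = _
    rw [h.map_sum]
    let ρ : E ≃ₐ[K] E := AlgEquiv.restrictNormalHom E σ
    have key : ∀ γ, act σ (act (s γ) ((a : L) • v)) = act (s (ρ * γ)) ((a : L) • v) := by
      intro γ
      rw [← h.mul]
      refine h.act_eq_of_agree E hv ?_ a.2
      intro x hx
      have e1 : (σ * s γ) x = ((ρ (γ ⟨x, hx⟩) : E) : L) := by
        rw [AlgEquiv.mul_apply, hs' γ ⟨x, hx⟩]
        exact (AlgEquiv.restrictNormal_commutes σ E (γ ⟨x, hx⟩)).symm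
      have e2 : s (ρ * γ) x = ((ρ (γ ⟨x, hx⟩) : E) : L) := by
        rw [hs' (ρ * γ) ⟨x, hx⟩]; rfl
      rw [e1, e2]
    rw [Finset.sum_congr rfl fun γ _ => key γ]
    exact Fintype.sum_equiv (Equiv.mulLeft ρ) _ _ fun γ => rfl
  -- `v` as a combination of the `w (b i)`
  have hv1 : act (s 1) v = v := by
    apply hv
    intro x hx
    have := hs' 1 ⟨x, hx⟩
    simpa using this
  have hexp : ∀ i, w (b i) = ∑ γ : E ≃ₐ[K] E, ((γ (b i) : E) : L) • act (s γ) v := by
    intro i
    refine Finset.sum_congr rfl fun γ _ => ?_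
    rw [h.map_smul, hs' γ (b i)]
  have hsum : v = ∑ i, ((c i : E) : L) • w (b i) := by
    simp only [hexp, Finset.smul_sum, smul_smul]
    rw [Finset.sum_comm]
    have : ∀ γ : E ≃ₐ[K] E, ∑ i, (((c i : E) : L) * ((γ (b i) : E) : L)) • act (s γ) v
        = if γ = 1 then v else 0 := by
      intro γ
      rw [← Finset.sum_smul]
      have h3 : ∑ i, ((c i : E) : L) * ((γ (b i) : E) : L)
          = (((∑ i, c i * γ (b i) : E)) : L) := by
        push_cast; rfl
      rw [h3]
      split_ifs with hγ
      · subst hγ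
        have : ∑ i, c i * (1 : E ≃ₐ[K] E) (b i) = 1 := by simpa using hbc1
        rw [this]; simp [hv1]
      · rw [hbc γ hγ]; simp
    rw [Finset.sum_congr rfl fun γ _ => this γ]
    simp
  rw [hsum]
  exact Submodule.sum_mem _ fun i _ => Submodule.smul_mem _ _ (Submodule.subset_span (hw _))

/-- **Galois descent**: the fixed vectors span. -/
theorem h32_descent_span {act : (L ≃ₐ[K] L) → V → V} (h : h32_IsSemiAct act)
    (hs : h32_Smooth act) : Submodule.span L (h32_fixed act) = ⊤ := by
  rw [eq_top_iff]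
  intro v _
  obtain ⟨E₀, hfd, hE₀⟩ := hs v
  have := hfd
  have : Normal K L := IsGalois.to_normal
  let E : IntermediateField K L := normalClosure K E₀ L
  have : FiniteDimensional K E := normalClosure.is_finiteDimensional K E₀ L
  have : Normal K E := normalClosure.normal K E₀ L
  refine h32_mem_span_fixed_of_normal h E ?_
  intro σ hσ
  exact hE₀ σ fun a ha => hσ a (E₀.le_normalClosure ha)

/-- A finite-dimensional space has a basis of fixed vectors. -/
theorem h32_descent_basis [FiniteDimensional L V] {act : (L ≃ₐ[K] L) → V → V}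
    (h : h32_IsSemiAct act) (hs : h32_Smooth act) :
    ∃ b : Module.Basis (Fin (Module.finrank L V)) L V, ∀ i σ, act σ (b i) = b i := by
  classical
  have hspan : ⊤ ≤ Submodule.span L (h32_fixed act) := (h32_descent_span h hs).ge
  let b₀ := Module.Basis.ofSpan hspan
  have hb₀ : ∀ i, b₀ i ∈ h32_fixed act := fun i =>
    Module.Basis.ofSpan_subset hspan (Set.mem_range_self i)
  let _ := FiniteDimensional.fintypeBasisIndex b₀
  have hc : Fintype.card _ = Module.finrank L V := (Module.finrank_eq_card_basis b₀).symm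
  let e := Fintype.equivFinOfCardEq hc
  refine ⟨b₀.reindex e, fun i σ => ?_⟩
  rw [Module.Basis.reindex_apply]
  exact hb₀ _ σ

/-- A line has a fixed generator (Hilbert 90 in this form). -/
theorem h32_descent_line {act : (L ≃ₐ[K] L) → V → V} (h : h32_IsSemiAct act)
    (hs : h32_Smooth act) (hV : Module.finrank L V = 1) :
    ∃ v : V, v ≠ 0 ∧ ∀ σ, act σ v = v := by
  have : FiniteDimensional L V := Module.finite_of_finrank_eq_succ hV
  obtain ⟨b, hb⟩ := h32_descent_basis h hs
  exact ⟨b ⟨0, by rw [hV]; exact one_pos⟩, b.ne_zero _, hb _⟩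

/-- Fixed vectors that are independent over `K` are independent over `L`. -/
theorem h32_descent_indep {act : (L ≃ₐ[K] L) → V → V} (h : h32_IsSemiAct act)
    {ι : Type*} (v : ι → V) (hv : ∀ i σ, act σ (v i) = v i)
    (hind : ∀ (s : Finset ι) (c : ι → K),
      ∑ i ∈ s, (algebraMap K L (c i)) • v i = 0 → ∀ i ∈ s, c i = 0) :
    LinearIndependent L v := by
  classical
  rw [linearIndependent_iff']
  suffices H : ∀ n : ℕ, ∀ s : Finset ι, s.card ≤ n → ∀ g : ι → L,
      ∑ i ∈ s, g i • v i = 0 → ∀ i ∈ s, g i = 0 from fun s g hg i hi => H s.card s le_rfl g hg i hi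
  intro n
  induction n with
  | zero =>
    intro s hs g _ i hi
    rw [Nat.le_zero, Finset.card_eq_zero] at hs
    simp [hs] at hi
  | succ n ih =>
    intro s hs g hg
    by_contra hne
    simp only [not_forall] at hne
    obtain ⟨i₀, hi₀, hgi₀⟩ := hne
    -- normalise
    let g' : ι → L := fun i => (g i₀)⁻¹ * g i
    have hg' : ∑ i ∈ s, g' i • v i = 0 := by
      have : ∑ i ∈ s, g' i • v i = (g i₀)⁻¹ • ∑ i ∈ s, g i • v i := by
        rw [Finset.smul_sum]; exact Finset.sum_congr rfl fun i _ => by rw [smul_smul]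
      rw [this, hg, smul_zero]
    have hg'0 : g' i₀ = 1 := inv_mul_cancel₀ hgi₀
    -- every coefficient is fixed
    have hfix : ∀ σ : L ≃ₐ[K] L, ∀ i ∈ s, σ (g' i) = g' i := by
      intro σ
      have h1 : ∑ i ∈ s, σ (g' i) • v i = 0 := by
        have := congrArg (act σ) hg'
        rw [h.map_sum, h.map_zero] at this
        rw [← this]
        exact Finset.sum_congr rfl fun i _ => by rw [h.map_smul, hv]
      have h2 : ∑ i ∈ s.erase i₀, (σ (g' i) - g' i) • v i = 0 := by
        have h3 : ∑ i ∈ s, (σ (g' i) - g' i) • v i = 0 := by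
          simp only [sub_smul, Finset.sum_sub_distrib, h1, hg', sub_zero]
        rw [← Finset.add_sum_erase s _ hi₀] at h3
        rw [hg'0, map_one, sub_self, zero_smul, zero_add] at h3
        exact h3
      have hcard : (s.erase i₀).card ≤ n := by
        rw [Finset.card_erase_of_mem hi₀]; omega
      intro i hi
      by_cases hii : i = i₀
      · subst hii; rw [hg'0, map_one]
      · exact sub_eq_zero.mp (ih (s.erase i₀) hcard _ h2 i (Finset.mem_erase.mpr ⟨hii, hi⟩))
    -- so they come from `K`
    have hK : ∀ i ∈ s, ∃ c : K, algebraMap K L c = g' i := by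
      intro i hi
      have : g' i ∈ (⊥ : IntermediateField K L) :=
        (InfiniteGalois.mem_bot_iff_fixed (g' i)).mpr fun σ => hfix σ i hi
      exact IntermediateField.mem_bot.mp this
    choose! c hc using hK
    have := hind s c (by
      rw [← hg']
      exact Finset.sum_congr rfl fun i hi => by rw [hc i hi])
    have h0 := this i₀ hi₀
    have : g' i₀ = 0 := by rw [← hc i₀ hi₀, h0, map_zero]
    rw [hg'0] at this
    exact one_ne_zero this

/-- The coordinates of a fixed vector in a basis of fixed vectors lie in `K`. -/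
theorem h32_repr_mem_of_fixed {act : (L ≃ₐ[K] L) → V → V} (h : h32_IsSemiAct act)
    {ι : Type*} (b : Module.Basis ι L V) (hb : ∀ i σ, act σ (b i) = b i)
    {v : V} (hv : ∀ σ, act σ v = v) (i : ι) :
    ∃ c : K, algebraMap K L c = b.repr v i := by
  classical
  have hfix : ∀ σ : L ≃ₐ[K] L, σ (b.repr v i) = b.repr v i := by
    intro σ
    have h1 : v = ∑ j ∈ (b.repr v).support, (b.repr v j) • b j := by
      conv_lhs => rw [← b.linearCombination_repr v]
      rw [Finsupp.linearCombination_apply, Finsupp.sum]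
    have h2 : v = ∑ j ∈ (b.repr v).support, σ (b.repr v j) • b j := by
      conv_lhs => rw [← hv σ, h1]
      rw [h.map_sum]
      exact Finset.sum_congr rfl fun j _ => by rw [h.map_smul, hb]
    have h3 := congrArg (fun w => b.repr w i) h2
    simp only [map_sum, map_smul, Module.Basis.repr_self, Finsupp.coe_finsetSum,
      Finsupp.coe_smul, Finset.sum_apply, Pi.smul_apply, smul_eq_mul,
      Finsupp.single_apply, mul_ite, mul_one, mul_zero] at h3
    rw [Finset.sum_ite_eq'] at h3
    by_cases hi : i ∈ (b.repr v).support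
    · rw [if_pos hi] at h3; exact h3.symm
    · have : b.repr v i = 0 := Finsupp.notMem_support_iff.mp hi
      rw [this, map_zero]
  have : b.repr v i ∈ (⊥ : IntermediateField K L) :=
    (InfiniteGalois.mem_bot_iff_fixed _).mpr hfix
  exact IntermediateField.mem_bot.mp this

/-- `ℚ ⊂ AlgebraicClosure ℚ` is Galois (for consumers: `haveI := h32_isGaloisQbar`). -/
theorem h32_isGaloisQbar : IsGalois ℚ (AlgebraicClosure ℚ) := by
  have h1 : Algebra.IsAlgebraic ℚ (AlgebraicClosure ℚ) := AlgebraicClosure.isAlgebraic ℚ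
  have h2 : IsAlgClosure ℚ (AlgebraicClosure ℚ) := ⟨inferInstance, inferInstance⟩
  have h3 : Normal ℚ (AlgebraicClosure ℚ) := IsAlgClosure.normal ℚ (AlgebraicClosure ℚ)
  exact { }

end Fermat.Agent.S17
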