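import Mathlib

set_option autoImplicit false
set_option linter.unusedSectionVars false

namespace Fermat.Agent.S17

local notation "Qbar" => AlgebraicClosure ℚ

abbrev h55_Pl : Type := Option Nat.Primes

noncomputable def h55_embC : Qbar →+* ℂ :=
  haveI : Algebra.IsAlgebraic ℚ Qbar := AlgebraicClosure.isAlgebraic ℚ
  (IsAlgClosed.lift (R := ℚ) (S := Qbar) (M := ℂ)).toRingHom

noncomputable def h55_embP (p : ℕ) [Fact p.Prime] : Qbar →+* PadicAlgCl p :=
  haveI : Algebra.IsAlgebraic ℚ Qbar := AlgebraicClosure.isAlgebraic ℚ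
  (IsAlgClosed.lift (R := ℚ) (S := Qbar) (M := PadicAlgCl p)).toRingHom

noncomputable def h55_av : h55_Pl → AbsoluteValue Qbar ℝ
  | none => (NormedField.toAbsoluteValue ℂ).comp h55_embC.injective
  | some p =>
      haveI : Fact (p : ℕ).Prime := ⟨p.2⟩
      (NormedField.toAbsoluteValue (PadicAlgCl (p : ℕ))).comp (h55_embP (p : ℕ)).injective

theorem h55_av_none (x : Qbar) : h55_av none x = ‖h55_embC x‖ := rfl

theorem h55_av_some (p : Nat.Primes) (x : Qbar) :
    h55_av (some p) x = (haveI : Fact (p : ℕ).Prime := ⟨p.2⟩; ‖h55_embP (p : ℕ) x‖) := rfl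

theorem h55_av_none_rat (q : ℚ) : h55_av none (q : Qbar) = |(q : ℝ)| := by
  rw [h55_av_none, map_ratCast]
  simp

theorem h55_av_some_rat (p : Nat.Primes) (q : ℚ) :
    h55_av (some p) (q : Qbar) = (padicNorm (p : ℕ) q : ℝ) := by
  have : Fact (p : ℕ).Prime := ⟨p.2⟩
  rw [h55_av_some, map_ratCast]
  have h1 : ((q : PadicAlgCl (p : ℕ))) = algebraMap ℚ_[(p : ℕ)] (PadicAlgCl (p : ℕ)) (q : ℚ_[(p : ℕ)]) := by
    rw [map_ratCast]
  rw [h1]
  have h2 := PadicAlgCl.norm_extends (p : ℕ) (q : ℚ_[(p : ℕ)])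
  rw [h2, Padic.eq_padicNorm]

theorem h55_av_nonarch (p : Nat.Primes) : IsNonarchimedean (h55_av (some p)) := by
  have : Fact (p : ℕ).Prime := ⟨p.2⟩
  intro x y
  rw [h55_av_some, h55_av_some, h55_av_some, map_add]
  exact PadicAlgCl.isNonarchimedean (p : ℕ) _ _


/-! ### Integral elements and almost-everywhere triviality -/

/-- A nonarchimedean absolute value is `≤ 1` on elements integral over `ℤ`. -/
theorem h55_le_one_of_isIntegral {K : Type*} [Field K] (v : AbsoluteValue K ℝ)
    (hv : IsNonarchimedean v) {x : K} (hx : IsIntegral ℤ x) : v x ≤ 1 := by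
  by_contra hlt
  rw [not_le] at hlt
  obtain ⟨P, hP, hPx⟩ := hx
  have hint : ∀ n : ℤ, v (n : K) ≤ 1 := fun n => IsNonarchimedean.apply_intCast_le_one hv
  have hx0 : x ≠ 0 := by
    rintro rfl
    rw [map_zero] at hlt
    linarith
  have hdeg : P.natDegree ≠ 0 := by
    intro h0
    have h1 : P = 1 := by
      have := Polynomial.eq_C_of_natDegree_eq_zero h0
      rw [this]
      have hc : P.coeff 0 = 1 := by
        have := hP.coeff_natDegree
        rwa [h0] at this
      rw [hc, Polynomial.C_1]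
    rw [h1] at hPx
    simp at hPx
  have hsum := hP.as_sum
  have hev : x ^ P.natDegree = -∑ i ∈ Finset.range P.natDegree, ((P.coeff i : ℤ) : K) * x ^ i := by
    have h2 : Polynomial.eval₂ (algebraMap ℤ K) x P = 0 := hPx
    rw [hsum] at h2
    simp only [Polynomial.eval₂_add, Polynomial.eval₂_pow, Polynomial.eval₂_X,
      Polynomial.eval₂_finsetSum, Polynomial.eval₂_mul, Polynomial.eval₂_C] at h2
    rw [eq_neg_iff_add_eq_zero]
    simpa using h2
  have hne : (Finset.range P.natDegree).Nonempty := Finset.nonempty_range_iff.mpr hdeg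
  have hle : v (∑ i ∈ Finset.range P.natDegree, ((P.coeff i : ℤ) : K) * x ^ i)
      ≤ v x ^ (P.natDegree - 1) := by
    refine (IsNonarchimedean.apply_sum_le_sup hv hne).trans ?_
    refine Finset.sup'_le _ _ fun i hi => ?_
    rw [map_mul, map_pow]
    have hi' : i ≤ P.natDegree - 1 := by
      have := Finset.mem_range.mp hi
      omega
    calc v ((P.coeff i : ℤ) : K) * v x ^ i ≤ 1 * v x ^ i := by
          gcongr
          exact hint _
      _ = v x ^ i := one_mul _
      _ ≤ v x ^ (P.natDegree - 1) := pow_le_pow_right₀ hlt.le hi'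
  have h3 : v x ^ P.natDegree ≤ v x ^ (P.natDegree - 1) := by
    rw [← map_pow, hev, map_neg_eq_map]
    exact hle
  have h4 : v x ^ (P.natDegree - 1) < v x ^ P.natDegree :=
    pow_lt_pow_right₀ hlt (by omega)
  linarith

theorem h55_av_int_le_one (p : Nat.Primes) (n : ℤ) : h55_av (some p) (n : Qbar) ≤ 1 :=
  IsNonarchimedean.apply_intCast_le_one (h55_av_nonarch p)

theorem h55_av_some_int (p : Nat.Primes) (n : ℤ) :
    h55_av (some p) (n : Qbar) = (padicNorm (p : ℕ) (n : ℚ) : ℝ) := by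
  have := h55_av_some_rat p (n : ℚ)
  rwa [Rat.cast_intCast] at this

theorem h55_av_le_one_of_isIntegral (p : Nat.Primes) {x : Qbar} (hx : IsIntegral ℤ x) :
    h55_av (some p) x ≤ 1 :=
  h55_le_one_of_isIntegral _ (h55_av_nonarch p) hx

/-- For every `α : ℚ̄`, `|α|_w ≤ 1` for all but finitely many places. -/
theorem h55_finite_one_lt (α : Qbar) : {w : h55_Pl | 1 < h55_av w α}.Finite := by
  have halg : IsAlgebraic ℤ α := by
    have h1 : IsAlgebraic ℚ α := (AlgebraicClosure.isAlgebraic ℚ).isAlgebraic α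
    exact (IsFractionRing.isAlgebraic_iff ℤ ℚ Qbar).mpr h1
  obtain ⟨d, hd0, hd⟩ := halg.exists_integral_multiple
  have hfin : {p : Nat.Primes | (p : ℕ) ∣ d.natAbs}.Finite := by
    have h1 : (d.natAbs.primeFactors : Set ℕ).Finite := Finset.finite_toSet _
    refine Set.Finite.of_finite_image (f := fun p : Nat.Primes => (p : ℕ)) (h1.subset ?_)
      (fun a _ b _ h => Subtype.ext h)
    rintro _ ⟨p, hp, rfl⟩
    simp only [Finset.mem_coe, Nat.mem_primeFactors]
    exact ⟨p.2, hp, by simpa using hd0⟩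
  refine ((hfin.image some).union (Set.finite_singleton none)).subset ?_
  intro w hw
  rcases w with _ | p
  · exact Or.inr rfl
  · left
    refine ⟨p, ?_, rfl⟩
    by_contra hnd
    have hnd' : ¬ ((p : ℕ) : ℤ) ∣ d := by
      rwa [Int.natCast_dvd] 
    have : Fact (p : ℕ).Prime := ⟨p.2⟩
    have h1 : h55_av (some p) (d : Qbar) = 1 := by
      rw [h55_av_some_int]
      have := (padicNorm.int_eq_one_iff (p := (p : ℕ)) d).mpr hnd'
      rw [this]; simp
    have h2 : h55_av (some p) (d • α) ≤ 1 := h55_av_le_one_of_isIntegral p hd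
    rw [zsmul_eq_mul, map_mul, h1, one_mul] at h2
    exact absurd hw (not_lt.mpr h2)

/-- For every `α ≠ 0` in `ℚ̄`, `|α|_w = 1` for all but finitely many places. -/
theorem h55_finite_ne_one {α : Qbar} (hα : α ≠ 0) : {w : h55_Pl | h55_av w α ≠ 1}.Finite := by
  refine ((h55_finite_one_lt α).union (h55_finite_one_lt α⁻¹)).subset ?_
  intro w hw
  rcases lt_or_gt_of_ne hw with h | h
  · right
    show 1 < h55_av w α⁻¹
    rw [map_inv₀]
    exact (one_lt_inv₀ ((h55_av w).pos hα)).mpr h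
  · left; exact h

/-- The support of `w ↦ log |α|_w` is finite. -/
theorem h55_finite_support_log {α : Qbar} (hα : α ≠ 0) :
    (Function.support fun w : h55_Pl => Real.log (h55_av w α)).Finite := by
  refine (h55_finite_ne_one hα).subset ?_
  intro w hw
  simp only [Function.mem_support, ne_eq] at hw
  intro h1
  exact hw (by rw [h1, Real.log_one])


/-! ### The product formula -/

/-- `log |α|_w`. -/
noncomputable def h55_lg (w : h55_Pl) (α : Qbar) : ℝ := Real.log (h55_av w α)

theorem h55_lg_mul (w : h55_Pl) {α β : Qbar} (hα : α ≠ 0) (hβ : β ≠ 0) :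
    h55_lg w (α * β) = h55_lg w α + h55_lg w β := by
  unfold h55_lg
  rw [map_mul, Real.log_mul ((h55_av w).pos hα).ne' ((h55_av w).pos hβ).ne']

theorem h55_lg_one (w : h55_Pl) : h55_lg w 1 = 0 := by
  unfold h55_lg; rw [map_one, Real.log_one]

theorem h55_lg_inv (w : h55_Pl) (α : Qbar) : h55_lg w α⁻¹ = -h55_lg w α := by
  unfold h55_lg; rw [map_inv₀, Real.log_inv]

theorem h55_lg_pow (w : h55_Pl) (α : Qbar) (n : ℕ) : h55_lg w (α ^ n) = n * h55_lg w α := by
  unfold h55_lg; rw [map_pow, Real.log_pow]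

theorem h55_lg_neg (w : h55_Pl) (α : Qbar) : h55_lg w (-α) = h55_lg w α := by
  unfold h55_lg; rw [map_neg_eq_map]

theorem h55_finite_support_lg {α : Qbar} (hα : α ≠ 0) :
    (Function.support fun w : h55_Pl => h55_lg w α).Finite :=
  h55_finite_support_log hα

/-- The global sum `∑_w log |α|_w`. -/
noncomputable def h55_gl (α : Qbar) : ℝ := ∑ᶠ w, h55_lg w α

theorem h55_gl_mul {α β : Qbar} (hα : α ≠ 0) (hβ : β ≠ 0) :
    h55_gl (α * β) = h55_gl α + h55_gl β := by
  unfold h55_gl
  rw [← finsum_add_distrib (h55_finite_support_lg hα) (h55_finite_support_lg hβ)]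
  exact finsum_congr fun w => h55_lg_mul w hα hβ

theorem h55_gl_one : h55_gl 1 = 0 := by
  unfold h55_gl
  simp [h55_lg_one]

theorem h55_gl_neg (α : Qbar) : h55_gl (-α) = h55_gl α := by
  unfold h55_gl
  exact finsum_congr fun w => h55_lg_neg w α

theorem h55_gl_inv (α : Qbar) : h55_gl α⁻¹ = -h55_gl α := by
  unfold h55_gl
  rw [← finsum_neg_distrib]
  exact finsum_congr fun w => h55_lg_inv w α

theorem h55_gl_pow (α : Qbar) (n : ℕ) : h55_gl (α ^ n) = n * h55_gl α := by
  unfold h55_gl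
  rw [mul_finsum]
  exact finsum_congr fun w => h55_lg_pow w α n

theorem h55_gl_prime (p : ℕ) (hp : p.Prime) : h55_gl (p : Qbar) = 0 := by
  unfold h55_gl
  let P : Nat.Primes := ⟨p, hp⟩
  have hsub : (Function.support fun w : h55_Pl => h55_lg w (p : Qbar)) ⊆
      (({none, some P} : Finset h55_Pl) : Set h55_Pl) := by
    intro w hw
    rcases w with _ | q
    · simp
    · by_cases hq : q = P
      · subst hq; simp
      · exfalso
        apply hw
        show h55_lg (some q) (p : Qbar) = 0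
        unfold h55_lg
        have h1 := h55_av_some_rat q (p : ℚ)
        rw [Rat.cast_natCast] at h1
        rw [h1]
        have : Fact (q : ℕ).Prime := ⟨q.2⟩
        have : Fact p.Prime := ⟨hp⟩
        have hne : (q : ℕ) ≠ p := fun h => hq (Subtype.ext h)
        rw [padicNorm.padicNorm_of_prime_of_ne hne]
        simp
  rw [finsum_eq_sum_of_support_subset _ hsub]
  have hne : (none : h55_Pl) ≠ some P := by simp
  rw [Finset.sum_pair hne]
  unfold h55_lg
  have h1 := h55_av_none_rat (p : ℚ)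
  have h2 := h55_av_some_rat P (p : ℚ)
  rw [Rat.cast_natCast] at h1 h2
  rw [h1, h2]
  have : Fact p.Prime := ⟨hp⟩
  have h3 : padicNorm (P : ℕ) (p : ℚ) = (p : ℚ)⁻¹ := padicNorm.padicNorm_p_of_prime
  rw [h3]
  have hp0 : (0 : ℝ) < p := by exact_mod_cast hp.pos
  simp only [Rat.cast_natCast, Rat.cast_inv, abs_of_pos hp0, Real.log_inv]
  ring

theorem h55_gl_natCast (n : ℕ) (hn : n ≠ 0) : h55_gl (n : Qbar) = 0 := by
  induction n using Nat.recOnMul with
  | zero => exact absurd rfl hn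
  | one => simpa using h55_gl_one
  | prime p hp => exact h55_gl_prime p hp
  | mul a b ha hb =>
    have ha0 : a ≠ 0 := fun h => hn (by simp [h])
    have hb0 : b ≠ 0 := fun h => hn (by simp [h])
    rw [Nat.cast_mul, h55_gl_mul (by exact_mod_cast ha0) (by exact_mod_cast hb0), ha ha0, hb hb0,
      add_zero]

theorem h55_gl_intCast (n : ℤ) (hn : n ≠ 0) : h55_gl (n : Qbar) = 0 := by
  obtain ⟨m, rfl | rfl⟩ := Int.eq_nat_or_neg n
  · simpa using h55_gl_natCast m (by simpa using hn)
  · have := h55_gl_natCast m (by simpa using hn)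
    simpa [h55_gl_neg] using this

/-- **Product formula** on `ℚˣ` for the chosen absolute values on `ℚ̄`. -/
theorem h55_product_formula (q : ℚ) (hq : q ≠ 0) : h55_gl (q : Qbar) = 0 := by
  have hnum : q.num ≠ 0 := Rat.num_ne_zero.mpr hq
  have hden : (q.den : ℤ) ≠ 0 := by exact_mod_cast q.den_ne_zero
  have h1 : (q : Qbar) = (q.num : Qbar) * ((q.den : ℤ) : Qbar)⁻¹ := by
    conv_lhs => rw [← Rat.num_div_den q]
    push_cast
    rw [div_eq_mul_inv]
  rw [h1, h55_gl_mul (by exact_mod_cast hnum) (inv_ne_zero (by exact_mod_cast hden)), h55_gl_inv,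
    h55_gl_intCast _ hnum, h55_gl_intCast _ hden]
  simp

/-- Product formula for `α` with `α ^ n ∈ ℚ` (e.g. square roots of rationals). -/
theorem h55_product_formula_pow {α : Qbar} (hα : α ≠ 0) {n : ℕ} (hn : n ≠ 0) {q : ℚ}
    (h : α ^ n = (q : Qbar)) : h55_gl α = 0 := by
  have hq : q ≠ 0 := by
    rintro rfl
    rw [Rat.cast_zero] at h
    exact hα (pow_eq_zero_iff hn |>.mp h)
  have h1 := h55_gl_pow α n
  rw [h, h55_product_formula q hq] at h1
  have hn' : (n : ℝ) ≠ 0 := by exact_mod_cast hn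
  exact (mul_eq_zero.mp h1.symm).resolve_left hn'


/-! ### Max-norms of vectors -/

/-- The max-norm of a vector at the place `w`. -/
noncomputable def h55_nrm (w : h55_Pl) {ι : Type*} (x : ι → Qbar) : ℝ := ⨆ i, h55_av w (x i)

section nrm

variable {ι : Type*} [Finite ι] (w : h55_Pl)

theorem h55_nrm_nonneg (x : ι → Qbar) : 0 ≤ h55_nrm w x :=
  Real.iSup_nonneg fun _ => (h55_av w).nonneg _

theorem h55_le_nrm (x : ι → Qbar) (i : ι) : h55_av w (x i) ≤ h55_nrm w x :=
  Finite.le_ciSup (fun j => h55_av w (x j)) i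

theorem h55_nrm_le {x : ι → Qbar} {B : ℝ} (hB : 0 ≤ B) (h : ∀ i, h55_av w (x i) ≤ B) :
    h55_nrm w x ≤ B :=
  Real.iSup_le h hB

theorem h55_exists_eq_nrm [Nonempty ι] (x : ι → Qbar) : ∃ i, h55_av w (x i) = h55_nrm w x :=
  exists_eq_ciSup_of_finite

theorem h55_nrm_zero : h55_nrm w (0 : ι → Qbar) = 0 := by
  unfold h55_nrm
  simp

theorem h55_nrm_pos {x : ι → Qbar} (hx : x ≠ 0) : 0 < h55_nrm w x := by
  obtain ⟨i, hi⟩ : ∃ i, x i ≠ 0 := by
    by_contra h
    push Not at h
    exact hx (funext h)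
  exact lt_of_lt_of_le ((h55_av w).pos hi) (h55_le_nrm w x i)

theorem h55_nrm_smul (c : Qbar) (x : ι → Qbar) :
    h55_nrm w (c • x) = h55_av w c * h55_nrm w x := by
  unfold h55_nrm
  rw [Real.mul_iSup_of_nonneg ((h55_av w).nonneg c)]
  congr 1
  funext i
  rw [Pi.smul_apply, smul_eq_mul, map_mul]

/-- For `x ≠ 0` the norm `‖x‖_w` is `1` for all but finitely many `w`. -/
theorem h55_finite_nrm_ne_one {x : ι → Qbar} (hx : x ≠ 0) :
    {w : h55_Pl | h55_nrm w x ≠ 1}.Finite := by
  have hfin : (⋃ i : {i : ι // x i ≠ 0}, {w : h55_Pl | h55_av w (x i) ≠ 1}).Finite :=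
    Set.finite_iUnion fun i => h55_finite_ne_one i.2
  refine hfin.subset ?_
  intro w hw
  by_contra hcon
  simp only [Set.mem_iUnion, Set.mem_ofPred_eq, not_exists, not_not] at hcon
  apply hw
  obtain ⟨i, hi⟩ : ∃ i, x i ≠ 0 := by
    by_contra h
    push Not at h
    exact hx (funext h)
  apply le_antisymm
  · refine h55_nrm_le w zero_le_one fun j => ?_
    by_cases hj : x j = 0
    · rw [hj, map_zero]; exact zero_le_one
    · exact (hcon ⟨j, hj⟩).le
  · rw [← hcon ⟨i, hi⟩]
    exact h55_le_nrm w x i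

theorem h55_finite_support_log_nrm (x : ι → Qbar) :
    (Function.support fun w : h55_Pl => Real.log (h55_nrm w x)).Finite := by
  by_cases hx : x = 0
  · subst hx
    refine Set.finite_empty.subset ?_
    intro w hw
    simp [h55_nrm_zero] at hw
  · refine (h55_finite_nrm_ne_one hx).subset ?_
    intro w hw h1
    simp only [Function.mem_support, ne_eq] at hw
    exact hw (by rw [h1, Real.log_one])

end nrm

/-! ### Global heights -/

/-- The global logarithmic height `∑_w log ‖x‖_w` of a vector with coordinates in `ℚ̄`.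
It is a projective invariant only for vectors proportional to rational ones. -/
noncomputable def h55_hgt {ι : Type*} (x : ι → Qbar) : ℝ := ∑ᶠ w, Real.log (h55_nrm w x)

/-- The height of a rational vector. -/
noncomputable def h55_ht {ι : Type*} (x : ι → ℚ) : ℝ := h55_hgt fun i => (x i : Qbar)

section hgt

variable {ι : Type*} [Finite ι]

theorem h55_hgt_smul {c : Qbar} (hc : c ≠ 0) {x : ι → Qbar} (hx : x ≠ 0) :
    h55_hgt (c • x) = h55_gl c + h55_hgt x := by
  unfold h55_hgt h55_gl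
  rw [← finsum_add_distrib (h55_finite_support_lg hc) (h55_finite_support_log_nrm x)]
  refine finsum_congr fun w => ?_
  rw [h55_nrm_smul, Real.log_mul ((h55_av w).pos hc).ne' (h55_nrm_pos w hx).ne']
  rfl

theorem h55_ht_smul {c : ℚ} (hc : c ≠ 0) (x : ι → ℚ) : h55_ht (c • x) = h55_ht x := by
  by_cases hx : x = 0
  · subst hx; simp
  unfold h55_ht
  have hx' : (fun i => (x i : Qbar)) ≠ 0 := by
    intro h
    apply hx
    funext i
    have := congrFun h i
    simpa using this
  have h1 : (fun i => (((c • x) i : ℚ) : Qbar)) = (c : Qbar) • fun i => (x i : Qbar) := by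
    funext i
    simp
  rw [h1, h55_hgt_smul (by exact_mod_cast hc) hx', h55_product_formula c hc, zero_add]

/-- monotonicity of finite sums over the places -/
theorem h55_finsum_le {f g : h55_Pl → ℝ} (hf : (Function.support f).Finite)
    (hg : (Function.support g).Finite) (h : ∀ w, f w ≤ g w) : ∑ᶠ w, f w ≤ ∑ᶠ w, g w :=
  finsum_le_finsum' hf hg h

theorem h55_hgt_nonneg_of_rat (x : ι → ℚ) : 0 ≤ h55_ht x := by
  by_cases hx : x = 0
  · subst hx
    unfold h55_ht h55_hgt
    have : (fun i : ι => ((0 : ι → ℚ) i : Qbar)) = 0 := by funext i; simp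
    rw [this]
    simp [h55_nrm_zero]
  obtain ⟨i, hi⟩ : ∃ i, x i ≠ 0 := by
    by_contra h
    push Not at h
    exact hx (funext h)
  have hi' : ((x i : ℚ) : Qbar) ≠ 0 := by exact_mod_cast hi
  have h0 := h55_product_formula (x i) hi
  unfold h55_ht h55_hgt
  rw [← h0]
  unfold h55_gl
  refine h55_finsum_le (h55_finite_support_lg hi') (h55_finite_support_log_nrm _) fun w => ?_
  unfold h55_lg
  exact Real.log_le_log ((h55_av w).pos hi') (h55_le_nrm w (fun j => (x j : Qbar)) i)

end hgt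

/-- **Summation lemma.** Local bounds `f w ≤ g w + log (c w)` with `c w = 1` for almost all `w`
sum to a global bound with an `O(1)` depending only on `c`. -/
theorem h55_finsum_le_add {f g c : h55_Pl → ℝ} (hf : (Function.support f).Finite)
    (hg : (Function.support g).Finite) (hc : {w | c w ≠ 1}.Finite)
    (h : ∀ w, f w ≤ g w + Real.log (c w)) :
    ∑ᶠ w, f w ≤ ∑ᶠ w, g w + ∑ᶠ w, Real.log (c w) := by
  have hc' : (Function.support fun w => Real.log (c w)).Finite := by
    refine hc.subset ?_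
    intro w hw h1
    simp only [Function.mem_support, ne_eq] at hw
    exact hw (by rw [h1, Real.log_one])
  rw [← finsum_add_distrib hg hc']
  exact finsum_le_finsum' hf (hg.union hc' |>.subset (Function.support_add _ _)) h


/-! ### Rational vectors: coprime integer representatives, Northcott -/

section primitive

variable {ι : Type*} [Fintype ι]

theorem h55_nrm_some_of_gcd [Nonempty ι] (x : ι → ℤ) (hx : Finset.univ.gcd x = 1)
    (p : Nat.Primes) : h55_nrm (some p) (fun i => ((x i : ℚ) : Qbar)) = 1 := by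
  have hv := h55_av_nonarch p
  have H (n : ℤ) : h55_av (some p) (n : Qbar) ≤ 1 := h55_av_int_le_one p n
  obtain ⟨f, hf⟩ := Finset.gcd_eq_sum_mul .univ x
  have h1 : (1 : Qbar) = ∑ i, ((x i : ℤ) : Qbar) * ((f i : ℤ) : Qbar) := by
    rw [hx] at hf
    exact_mod_cast congrArg (Int.cast : ℤ → Qbar) hf
  have h2 : (1 : ℝ) ≤ ⨆ i, h55_av (some p) (((x i : ℤ) : Qbar) * ((f i : ℤ) : Qbar)) := by
    have := hv.apply_sum_univ_le (l := fun i => ((x i : ℤ) : Qbar) * ((f i : ℤ) : Qbar))
    rwa [← h1, map_one] at this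
  obtain ⟨i, hi⟩ := exists_eq_ciSup_of_finite
    (f := fun i => h55_av (some p) (((x i : ℤ) : Qbar) * ((f i : ℤ) : Qbar)))
  rw [← hi, map_mul] at h2
  have h3 : 1 ≤ h55_av (some p) ((x i : ℤ) : Qbar) :=
    h2.trans (mul_le_of_le_one_right ((h55_av _).nonneg _) (H _))
  apply le_antisymm
  · refine h55_nrm_le _ zero_le_one fun j => ?_
    simpa using H (x j)
  · refine le_trans ?_ (h55_le_nrm (some p) _ i)
    simpa using h3

theorem h55_nrm_none_int [Nonempty ι] (x : ι → ℤ) :
    h55_nrm none (fun i => ((x i : ℚ) : Qbar)) = ⨆ i, |(x i : ℝ)| := by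
  unfold h55_nrm
  congr 1
  funext i
  rw [h55_av_none_rat]
  simp

/-- The height of a coprime integer vector is `log max |x i|`. -/
theorem h55_ht_of_gcd [Nonempty ι] (x : ι → ℤ) (hx : Finset.univ.gcd x = 1) :
    h55_ht (fun i => (x i : ℚ)) = Real.log (⨆ i, |(x i : ℝ)|) := by
  unfold h55_ht h55_hgt
  rw [finsum_eq_single _ (none : h55_Pl)]
  · rw [h55_nrm_none_int]
  · intro w hw
    rcases w with _ | p
    · exact absurd rfl hw
    · rw [h55_nrm_some_of_gcd x hx p, Real.log_one]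

/-- Every nonzero rational vector is a nonzero rational multiple of a coprime integer vector. -/
theorem h55_exists_primitive (x : ι → ℚ) (hx : x ≠ 0) :
    ∃ (c : ℚ) (z : ι → ℤ), c ≠ 0 ∧ Finset.univ.gcd z = 1 ∧ x = c • fun i => (z i : ℚ) := by
  obtain ⟨i₀, hi₀⟩ : ∃ i, x i ≠ 0 := by
    by_contra h
    push Not at h
    exact hx (funext h)
  let D : ℕ := ∏ i, (x i).den
  have hD : D ≠ 0 := Finset.prod_ne_zero_iff.mpr fun i _ => (x i).den_ne_zero
  have hy : ∀ i, ∃ y : ℤ, (y : ℚ) = x i * D := by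
    intro i
    have hdvd : (x i).den ∣ D := Finset.dvd_prod_of_mem _ (Finset.mem_univ i)
    obtain ⟨k, hk⟩ := hdvd
    refine ⟨(x i).num * k, ?_⟩
    rw [hk]
    push_cast
    have hx1 : ((x i).num : ℚ) = x i * (x i).den := (Rat.mul_den_eq_num (x i)).symm
    rw [hx1]
    ring
  choose y hy using hy
  obtain ⟨g, hg, hg1⟩ := Finset.extract_gcd y (s := Finset.univ) ⟨i₀, Finset.mem_univ _⟩
  have hgcd : Finset.univ.gcd y ≠ 0 := by
    intro h0
    have := Finset.gcd_eq_zero_iff.mp h0 i₀ (Finset.mem_univ _)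
    have h2 := hy i₀
    rw [this] at h2
    have hD' : (D : ℚ) ≠ 0 := by exact_mod_cast hD
    simp only [Int.cast_zero] at h2
    exact hi₀ ((mul_eq_zero.mp h2.symm).resolve_right hD')
  refine ⟨((Finset.univ.gcd y : ℤ) : ℚ) / D, g, ?_, hg1, ?_⟩
  · exact div_ne_zero (by exact_mod_cast hgcd) (by exact_mod_cast hD)
  · funext i
    have h1 := hy i
    have h2 := hg i (Finset.mem_univ _)
    have hD' : (D : ℚ) ≠ 0 := by exact_mod_cast hD
    rw [Pi.smul_apply, smul_eq_mul]
    have h3 : (y i : ℚ) = ((Finset.univ.gcd y : ℤ) : ℚ) * (g i : ℚ) := by exact_mod_cast congrArg (Int.cast : ℤ → ℚ) h2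
    field_simp
    rw [← h1, h3]

/-- **Northcott** for rational vectors up to scaling. -/
theorem h55_northcott (B : ℝ) : ∃ S : Finset (ι → ℚ), ∀ x : ι → ℚ, x ≠ 0 → h55_ht x ≤ B →
    ∃ y ∈ S, ∃ c : ℚ, c ≠ 0 ∧ x = c • y := by
  classical
  rcases isEmpty_or_nonempty ι with hι | hι
  · exact ⟨∅, fun x hx => absurd (Subsingleton.elim x 0) hx⟩
  let N : ℤ := ⌊Real.exp B⌋
  let T : Finset (ι → ℤ) := Fintype.piFinset fun _ => Finset.Icc (-N) N
  refine ⟨T.image fun z i => (z i : ℚ), fun x hx hB => ?_⟩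
  obtain ⟨c, z, hc, hz, rfl⟩ := h55_exists_primitive x hx
  refine ⟨fun i => (z i : ℚ), ?_, c, hc, rfl⟩
  rw [Finset.mem_image]
  refine ⟨z, ?_, rfl⟩
  rw [Fintype.mem_piFinset]
  intro i
  rw [h55_ht_smul hc, h55_ht_of_gcd z hz] at hB
  have hz0 : z ≠ 0 := by
    rintro rfl
    rw [Finset.gcd_eq_zero_iff.mpr (by simp)] at hz
    exact zero_ne_one hz
  obtain ⟨j, hj⟩ : ∃ j, z j ≠ 0 := by
    by_contra h
    push Not at h
    exact hz0 (funext h)
  have hpos : 0 < ⨆ i, |(z i : ℝ)| := by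
    refine lt_of_lt_of_le ?_ (Finite.le_ciSup (fun i => |(z i : ℝ)|) j)
    exact abs_pos.mpr (by exact_mod_cast hj)
  have hle : (⨆ i, |(z i : ℝ)|) ≤ Real.exp B := by
    rw [← Real.exp_log hpos]
    exact Real.exp_le_exp.mpr hB
  have hi : |(z i : ℝ)| ≤ Real.exp B := (Finite.le_ciSup (fun i => |(z i : ℝ)|) i).trans hle
  have hi' : |z i| ≤ N := by
    rw [Int.le_floor]
    exact_mod_cast hi
  rw [Finset.mem_Icc]
  exact abs_le.mp hi'

/-- Comparison with Mathlib's logarithmic height over `ℚ`. -/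
theorem h55_ht_eq_logHeight (x : ι → ℚ) (hx : x ≠ 0) : h55_ht x = Height.logHeight x := by
  rcases isEmpty_or_nonempty ι with hι | hι
  · exact absurd (Subsingleton.elim x 0) hx
  obtain ⟨c, z, hc, hz, rfl⟩ := h55_exists_primitive x hx
  rw [h55_ht_smul hc, Height.logHeight_smul_eq_logHeight _ hc, h55_ht_of_gcd z hz]
  have h1 := Rat.logHeight_eq_max_abs_of_gcd_eq_one hz
  have h2 : (fun i => (z i : ℚ)) = ((↑) : ℤ → ℚ) ∘ z := rfl
  rw [h2, h1]
  congr 1
  rw [Finite.map_iSup_of_monotone _ Int.cast_mono]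
  congr 1
  funext i
  simp

end primitive

end Fermat.Agent.S17
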