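import Mathlib

/-!
# S17 / L2: max-norm minor calculus over a valued field (Mathlib only)

For a field `K` with an absolute value `v : AbsoluteValue K ℝ`:

* `h86_vnorm v t` : sup norm of a vector;
* `h86_mnorm v E` : the maximum of the `v`-values of the maximal minors of an `r × n` matrix
  (minors indexed by ALL column selections `f : Fin r → Fin n`);
* `h86_rnorm v r M` : the maximum of the `v`-values of ALL `r × r` minors of `M`;
* `h86_consRow lam E` : the matrix `E` with the row `lam` put on top;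
* chain rule `‖[lam; E]‖ ~ ‖E‖ * sup_{t ∈ ker E} |lam t| / ‖t‖`, both directions
  (`h86_chain_le`, `h86_chain_ge`, `h86_chain_ge_nonarch`);
* left multiplication (`h86_mnorm_mul`) and echelon normalisation on a `v`-maximal minor
  (`h86_ech`, `h86_ech_apply`, `h86_ech_entry_le`, `h86_mnorm_ech`, ...);
* Cauchy-Binet type bounds (`h86_mnorm_mul_right_le`, `h86_mnorm_mul_right_le_nonarch`);
* complementary minors (`h86_compl_minors`, `h86_mnorm_eq_of_compl`, `h86_mnorm_compl`);
* small cases and Leibniz bounds (`h86_mnorm_zero_rows`, `h86_mnorm_row`, `h86_det_le`,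
  `h86_det_le_nonarch`).
-/

set_option autoImplicit false

namespace Fermat.Agent.S17

open Matrix

variable {K : Type*} [Field K]

/-- Sup norm of a vector (`0` on an empty index type). -/
noncomputable def h86_vnorm (v : AbsoluteValue K ℝ) {ι : Type*} (t : ι → K) : ℝ :=
  ⨆ i, v (t i)

/-- The maximum of the `v`-values of the `r × r` minors of an `r × n` matrix. -/
noncomputable def h86_mnorm (v : AbsoluteValue K ℝ) {r n : ℕ} (E : Matrix (Fin r) (Fin n) K) : ℝ :=
  ⨆ f : Fin r → Fin n, v ((E.submatrix id f).det)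

/-- The matrix `E` with the row `lam` put on top. -/
def h86_consRow {r n : ℕ} (lam : Fin n → K) (E : Matrix (Fin r) (Fin n) K) :
    Matrix (Fin (r + 1)) (Fin n) K :=
  Matrix.of (Matrix.vecCons lam E)

section basics

variable (v : AbsoluteValue K ℝ)

theorem h86_vnorm_nonneg {ι : Type*} (t : ι → K) : 0 ≤ h86_vnorm v t :=
  Real.iSup_nonneg fun _ => v.nonneg _

theorem h86_le_vnorm {ι : Type*} [Finite ι] (t : ι → K) (i : ι) : v (t i) ≤ h86_vnorm v t :=
  le_ciSup (f := fun i => v (t i)) (Set.finite_range _).bddAbove i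

theorem h86_vnorm_le {ι : Type*} (t : ι → K) {B : ℝ} (hB : 0 ≤ B) (h : ∀ i, v (t i) ≤ B) :
    h86_vnorm v t ≤ B :=
  Real.iSup_le h hB

theorem h86_mnorm_nonneg {r n : ℕ} (E : Matrix (Fin r) (Fin n) K) : 0 ≤ h86_mnorm v E :=
  Real.iSup_nonneg fun _ => v.nonneg _

theorem h86_le_mnorm {r n : ℕ} (E : Matrix (Fin r) (Fin n) K) (f : Fin r → Fin n) :
    v ((E.submatrix id f).det) ≤ h86_mnorm v E :=
  le_ciSup (f := fun f : Fin r → Fin n => v ((E.submatrix id f).det))
    (Set.finite_range _).bddAbove f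

theorem h86_mnorm_le {r n : ℕ} (E : Matrix (Fin r) (Fin n) K) {B : ℝ} (hB : 0 ≤ B)
    (h : ∀ f : Fin r → Fin n, v ((E.submatrix id f).det) ≤ B) : h86_mnorm v E ≤ B :=
  Real.iSup_le h hB

end basics

section chain

variable (v : AbsoluteValue K ℝ) {r n : ℕ}

/-- Laplace expansion of a maximal minor of `[lam; E]` along the row `lam`. -/
theorem h86_consRow_minor (lam : Fin n → K) (E : Matrix (Fin r) (Fin n) K)
    (g : Fin (r + 1) → Fin n) :
    ((h86_consRow lam E).submatrix id g).det =
      ∑ j : Fin (r + 1), (-1) ^ (j : ℕ) * lam (g j) * (E.submatrix id (g ∘ j.succAbove)).det := by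
  rw [Matrix.det_succ_row_zero]
  refine Finset.sum_congr rfl fun j _ => ?_
  have h1 : ((h86_consRow lam E).submatrix id g) 0 j = lam (g j) := rfl
  have h2 : ((h86_consRow lam E).submatrix id g).submatrix Fin.succ j.succAbove =
      E.submatrix id (g ∘ j.succAbove) := by
    ext a b
    rfl
  rw [h1, h2]

/-- The Cramer vector of `r + 1` columns of `E`: it lies in the kernel of `E` and its entries are
signed `r`-minors of `E`. -/
def h86_cramerVec (E : Matrix (Fin r) (Fin n) K) (g : Fin (r + 1) → Fin n) : Fin n → K :=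
  fun l => ∑ j : Fin (r + 1),
    if g j = l then (-1) ^ (j : ℕ) * (E.submatrix id (g ∘ j.succAbove)).det else 0

theorem h86_dot_cramerVec (lam : Fin n → K) (E : Matrix (Fin r) (Fin n) K)
    (g : Fin (r + 1) → Fin n) :
    lam ⬝ᵥ h86_cramerVec E g = ((h86_consRow lam E).submatrix id g).det := by
  rw [h86_consRow_minor]
  simp only [dotProduct, h86_cramerVec, Finset.mul_sum]
  rw [Finset.sum_comm]
  refine Finset.sum_congr rfl fun j _ => ?_
  simp only [mul_ite, mul_zero]
  rw [Finset.sum_ite_eq]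
  simp only [Finset.mem_univ, if_true]
  ring

theorem h86_mulVec_cramerVec (E : Matrix (Fin r) (Fin n) K) (g : Fin (r + 1) → Fin n) :
    E.mulVec (h86_cramerVec E g) = 0 := by
  funext i
  have h := h86_dot_cramerVec (E i) E g
  have h0 : ((h86_consRow (E i) E).submatrix id g).det = 0 := by
    apply Matrix.det_zero_of_row_eq (i := 0) (j := i.succ) (Fin.succ_ne_zero i).symm
    funext b
    rfl
  rw [h0] at h
  exact h

theorem h86_cramerVec_le (E : Matrix (Fin r) (Fin n) K) (g : Fin (r + 1) → Fin n)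
    (hg : Function.Injective g) (l : Fin n) :
    v (h86_cramerVec E g l) ≤ h86_mnorm v E := by
  unfold h86_cramerVec
  by_cases h : ∃ j, g j = l
  · obtain ⟨j₀, hj₀⟩ := h
    rw [Finset.sum_eq_single j₀]
    · rw [if_pos hj₀, v.map_mul]
      have : v ((-1 : K) ^ (j₀ : ℕ)) = 1 := by
        rw [v.map_pow, v.map_neg, v.map_one, one_pow]
      rw [this, one_mul]
      exact h86_le_mnorm v E _
    · intro j _ hj
      rw [if_neg]
      intro hjl
      exact hj (hg (hjl.trans hj₀.symm))
    · intro h'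
      exact absurd (Finset.mem_univ _) h'
  · rw [Finset.sum_eq_zero]
    · rw [v.map_zero]; exact h86_mnorm_nonneg v E
    · intro j _
      rw [if_neg]
      intro hjl
      exact h ⟨j, hjl⟩

/-- **Chain rule, upper bound** (no constant, any absolute value): if `|lam t| ≤ M ‖t‖` on the
kernel of `E`, then every maximal minor of `[lam; E]` is bounded by `M * ‖E‖`. -/
theorem h86_chain_le (E : Matrix (Fin r) (Fin n) K) (lam : Fin n → K) (M : ℝ) (hM0 : 0 ≤ M)
    (hM : ∀ t : Fin n → K, E.mulVec t = 0 → v (lam ⬝ᵥ t) ≤ M * h86_vnorm v t) :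
    h86_mnorm v (h86_consRow lam E) ≤ M * h86_mnorm v E := by
  refine h86_mnorm_le v _ (mul_nonneg hM0 (h86_mnorm_nonneg v E)) fun g => ?_
  by_cases hg : Function.Injective g
  · rw [← h86_dot_cramerVec]
    refine (hM _ (h86_mulVec_cramerVec E g)).trans ?_
    refine mul_le_mul_of_nonneg_left ?_ hM0
    exact h86_vnorm_le v _ (h86_mnorm_nonneg v E) fun l => h86_cramerVec_le v E g hg l
  · have : ((h86_consRow lam E).submatrix id g).det = 0 := by
      obtain ⟨a, b, hab, hne⟩ := Function.not_injective_iff.mp hg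
      apply Matrix.det_zero_of_column_eq hne
      intro i
      simp [hab]
    rw [this, v.map_zero]
    exact mul_nonneg hM0 (h86_mnorm_nonneg v E)

/-- For `t` in the kernel of `E`: `(lam ⬝ᵥ t) * (minor of E)` is a combination of minors of
`[lam; E]` with coefficients the entries of `t`. -/
theorem h86_dot_mul_minor (E : Matrix (Fin r) (Fin n) K) (lam t : Fin n → K)
    (ht : E.mulVec t = 0) (f : Fin r → Fin n) :
    (lam ⬝ᵥ t) * (E.submatrix id f).det =
      ∑ l : Fin n, t l * ((h86_consRow lam E).submatrix id (Fin.cons l f : Fin (r + 1) → Fin n)).det := by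
  have key : ∀ l : Fin n,
      ((h86_consRow lam E).submatrix id (Fin.cons l f : Fin (r + 1) → Fin n)).det =
      ∑ i : Fin (r + 1), (-1) ^ (i : ℕ) * h86_consRow lam E i l *
        ((h86_consRow lam E).submatrix i.succAbove f).det := by
    intro l
    rw [Matrix.det_succ_column_zero]
    refine Finset.sum_congr rfl fun i _ => ?_
    rfl
  have key2 : ∀ i : Fin (r + 1),
      ∑ l, t l * ((-1) ^ (i : ℕ) * h86_consRow lam E i l *
        ((h86_consRow lam E).submatrix i.succAbove f).det) =
      (-1) ^ (i : ℕ) * ((h86_consRow lam E).mulVec t i) *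
        ((h86_consRow lam E).submatrix i.succAbove f).det := by
    intro i
    simp only [Matrix.mulVec, dotProduct, Finset.mul_sum, Finset.sum_mul]
    refine Finset.sum_congr rfl fun l _ => by ring
  simp only [key, Finset.mul_sum]
  rw [Finset.sum_comm]
  simp only [key2]
  rw [Fin.sum_univ_succ]
  have h0 : (h86_consRow lam E).mulVec t 0 = lam ⬝ᵥ t := rfl
  have hs : ∀ a : Fin r, (h86_consRow lam E).mulVec t a.succ = 0 := fun a => congrFun ht a
  have h1 : (h86_consRow lam E).submatrix (Fin.succAbove (0 : Fin (r + 1))) f = E.submatrix id f := by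
    ext a b
    rfl
  simp only [h0, hs, h1, mul_zero, zero_mul, Finset.sum_const_zero, add_zero, Fin.val_zero,
    pow_zero, one_mul]

/-- **Chain rule, lower bound** (any absolute value; constant `n`). -/
theorem h86_chain_ge (E : Matrix (Fin r) (Fin n) K) (lam t : Fin n → K)
    (ht : E.mulVec t = 0) :
    v (lam ⬝ᵥ t) * h86_mnorm v E ≤ n * h86_mnorm v (h86_consRow lam E) * h86_vnorm v t := by
  have hR : 0 ≤ (n : ℝ) * h86_mnorm v (h86_consRow lam E) * h86_vnorm v t :=
    mul_nonneg (mul_nonneg (Nat.cast_nonneg n) (h86_mnorm_nonneg v _)) (h86_vnorm_nonneg v t)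
  unfold h86_mnorm
  rw [Real.mul_iSup_of_nonneg (v.nonneg _)]
  refine Real.iSup_le (fun f => ?_) hR
  rw [← v.map_mul, h86_dot_mul_minor E lam t ht f]
  refine (v.sum_le _ _).trans ?_
  have hb : ∀ l ∈ (Finset.univ : Finset (Fin n)),
      v (t l * ((h86_consRow lam E).submatrix id (Fin.cons l f : Fin (r + 1) → Fin n)).det) ≤
        h86_mnorm v (h86_consRow lam E) * h86_vnorm v t := by
    intro l _
    rw [v.map_mul, mul_comm]
    exact mul_le_mul (h86_le_mnorm v _ _) (h86_le_vnorm v t l) (v.nonneg _) (h86_mnorm_nonneg v _)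
  refine (Finset.sum_le_sum hb).trans ?_
  rw [Finset.sum_const, Finset.card_univ, Fintype.card_fin, nsmul_eq_mul, mul_assoc]
  rfl

/-- **Chain rule, lower bound**, non-archimedean case: no constant. -/
theorem h86_chain_ge_nonarch (hv : IsNonarchimedean v) (E : Matrix (Fin r) (Fin n) K)
    (lam t : Fin n → K) (ht : E.mulVec t = 0) :
    v (lam ⬝ᵥ t) * h86_mnorm v E ≤ h86_mnorm v (h86_consRow lam E) * h86_vnorm v t := by
  have hR : 0 ≤ h86_mnorm v (h86_consRow lam E) * h86_vnorm v t :=
    mul_nonneg (h86_mnorm_nonneg v _) (h86_vnorm_nonneg v t)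
  unfold h86_mnorm
  rw [Real.mul_iSup_of_nonneg (v.nonneg _)]
  refine Real.iSup_le (fun f => ?_) hR
  rw [← v.map_mul, h86_dot_mul_minor E lam t ht f]
  refine (hv.apply_sum_univ_le).trans ?_
  refine Real.iSup_le (fun l => ?_) hR
  rw [v.map_mul, mul_comm]
  exact mul_le_mul (h86_le_mnorm v _ _) (h86_le_vnorm v t l) (v.nonneg _) (h86_mnorm_nonneg v _)

end chain

section ech

variable (v : AbsoluteValue K ℝ) {r n : ℕ}

theorem h86_submatrix_mul (G : Matrix (Fin r) (Fin r) K) (E : Matrix (Fin r) (Fin n) K) {m : ℕ}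
    (f : Fin m → Fin n) : (G * E).submatrix id f = G * E.submatrix id f := rfl

/-- Left multiplication by a square matrix multiplies all maximal minors by its determinant. -/
theorem h86_mnorm_mul (G : Matrix (Fin r) (Fin r) K) (E : Matrix (Fin r) (Fin n) K) :
    h86_mnorm v (G * E) = v G.det * h86_mnorm v E := by
  unfold h86_mnorm
  rw [Real.mul_iSup_of_nonneg (v.nonneg _)]
  refine congrArg _ (funext fun f => ?_)
  rw [h86_submatrix_mul, Matrix.det_mul, v.map_mul]

/-- There is a maximal minor of largest `v`-value, and it is nonzero if some minor is. -/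
theorem h86_exists_max_minor (E : Matrix (Fin r) (Fin n) K)
    (hE : ∃ f : Fin r → Fin n, (E.submatrix id f).det ≠ 0) :
    ∃ f0 : Fin r → Fin n, (E.submatrix id f0).det ≠ 0 ∧
      ∀ f : Fin r → Fin n, v ((E.submatrix id f).det) ≤ v ((E.submatrix id f0).det) := by
  obtain ⟨f1, hf1⟩ := hE
  have : Nonempty (Fin r → Fin n) := ⟨f1⟩
  obtain ⟨f0, hf0⟩ := Finite.exists_max (fun f : Fin r → Fin n => v ((E.submatrix id f).det))
  refine ⟨f0, ?_, hf0⟩
  intro h0
  have := hf0 f1
  rw [h0, v.map_zero] at this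
  exact hf1 (v.eq_zero.mp (le_antisymm this (v.nonneg _)))

theorem h86_mnorm_eq_of_max (E : Matrix (Fin r) (Fin n) K) (f0 : Fin r → Fin n)
    (hmax : ∀ f : Fin r → Fin n, v ((E.submatrix id f).det) ≤ v ((E.submatrix id f0).det)) :
    h86_mnorm v E = v ((E.submatrix id f0).det) :=
  le_antisymm (h86_mnorm_le v E (v.nonneg _) hmax) (h86_le_mnorm v E f0)

theorem h86_mnorm_pos (E : Matrix (Fin r) (Fin n) K)
    (hE : ∃ f : Fin r → Fin n, (E.submatrix id f).det ≠ 0) : 0 < h86_mnorm v E := by
  obtain ⟨f, hf⟩ := hE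
  exact lt_of_lt_of_le (v.pos hf) (h86_le_mnorm v E f)

/-- The echelon form of `E` with respect to the columns `f0`: `E_{f0}⁻¹ * E`. -/
noncomputable def h86_ech (E : Matrix (Fin r) (Fin n) K) (f0 : Fin r → Fin n) :
    Matrix (Fin r) (Fin n) K :=
  (E.submatrix id f0)⁻¹ * E

theorem h86_ech_mul (E : Matrix (Fin r) (Fin n) K) (f0 : Fin r → Fin n)
    (h0 : (E.submatrix id f0).det ≠ 0) : E.submatrix id f0 * h86_ech E f0 = E := by
  unfold h86_ech
  rw [← Matrix.mul_assoc, Matrix.mul_nonsing_inv _ (IsUnit.mk0 _ h0), Matrix.one_mul]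

theorem h86_ech_submatrix (E : Matrix (Fin r) (Fin n) K) (f0 : Fin r → Fin n)
    (h0 : (E.submatrix id f0).det ≠ 0) : (h86_ech E f0).submatrix id f0 = 1 := by
  unfold h86_ech
  rw [h86_submatrix_mul, Matrix.nonsing_inv_mul _ (IsUnit.mk0 _ h0)]

/-- Cramer: the entries of the echelon form are quotients of maximal minors of `E`. -/
theorem h86_ech_apply (E : Matrix (Fin r) (Fin n) K) (f0 : Fin r → Fin n) (i : Fin r)
    (j : Fin n) :
    h86_ech E f0 i j =
      (E.submatrix id (Function.update f0 i j)).det / (E.submatrix id f0).det := by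
  have h1 : h86_ech E f0 i j = ((E.submatrix id f0)⁻¹.mulVec fun k => E k j) i := rfl
  have h2 : (E.submatrix id f0).updateCol i (fun k => E k j) =
      E.submatrix id (Function.update f0 i j) := by
    ext a b
    by_cases hb : b = i
    · subst hb
      simp
    · simp [hb]
  rw [h1, Matrix.inv_def, Ring.inverse_eq_inv', Matrix.smul_mulVec, ← Matrix.cramer_eq_adjugate_mulVec,
    Pi.smul_apply, Matrix.cramer_apply, h2, smul_eq_mul, div_eq_inv_mul]

theorem h86_ech_mulVec (E : Matrix (Fin r) (Fin n) K) (f0 : Fin r → Fin n)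
    (h0 : (E.submatrix id f0).det ≠ 0) (t : Fin n → K) :
    (h86_ech E f0).mulVec t = 0 ↔ E.mulVec t = 0 := by
  constructor
  · intro h
    rw [← h86_ech_mul E f0 h0, ← Matrix.mulVec_mulVec, h, Matrix.mulVec_zero]
  · intro h
    unfold h86_ech
    rw [← Matrix.mulVec_mulVec, h, Matrix.mulVec_zero]

/-- At a `v`-maximal nonzero minor, all entries of the echelon form have `v`-value `≤ 1`. -/
theorem h86_ech_entry_le (E : Matrix (Fin r) (Fin n) K) (f0 : Fin r → Fin n)
    (h0 : (E.submatrix id f0).det ≠ 0)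
    (hmax : ∀ f : Fin r → Fin n, v ((E.submatrix id f).det) ≤ v ((E.submatrix id f0).det))
    (i : Fin r) (j : Fin n) : v (h86_ech E f0 i j) ≤ 1 := by
  rw [h86_ech_apply, map_div₀, div_le_one (v.pos h0)]
  exact hmax _

theorem h86_mnorm_eq_mul_ech (E : Matrix (Fin r) (Fin n) K) (f0 : Fin r → Fin n)
    (h0 : (E.submatrix id f0).det ≠ 0) :
    h86_mnorm v E = v ((E.submatrix id f0).det) * h86_mnorm v (h86_ech E f0) := by
  conv_lhs => rw [← h86_ech_mul E f0 h0]
  exact h86_mnorm_mul v _ _

theorem h86_mnorm_ech (E : Matrix (Fin r) (Fin n) K) (f0 : Fin r → Fin n)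
    (h0 : (E.submatrix id f0).det ≠ 0)
    (hmax : ∀ f : Fin r → Fin n, v ((E.submatrix id f).det) ≤ v ((E.submatrix id f0).det)) :
    h86_mnorm v (h86_ech E f0) = 1 := by
  have h1 := h86_mnorm_eq_mul_ech v E f0 h0
  rw [h86_mnorm_eq_of_max v E f0 hmax] at h1
  have hpos : 0 < v ((E.submatrix id f0).det) := v.pos h0
  have : v ((E.submatrix id f0).det) * 1 = v ((E.submatrix id f0).det) * h86_mnorm v (h86_ech E f0) := by
    rw [mul_one]; exact h1
  exact (mul_left_cancel₀ hpos.ne' this).symm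

end ech

section cb

variable (v : AbsoluteValue K ℝ) {r n m : ℕ}

/-- The maximum of the `v`-values of ALL `r × r` minors of an `n × m` matrix. -/
noncomputable def h86_rnorm (v : AbsoluteValue K ℝ) (r : ℕ) {n m : ℕ}
    (M : Matrix (Fin n) (Fin m) K) : ℝ :=
  ⨆ p : (Fin r → Fin n) × (Fin r → Fin m), v ((M.submatrix p.1 p.2).det)

theorem h86_rnorm_nonneg (M : Matrix (Fin n) (Fin m) K) : 0 ≤ h86_rnorm v r M :=
  Real.iSup_nonneg fun _ => v.nonneg _

theorem h86_le_rnorm (M : Matrix (Fin n) (Fin m) K) (f : Fin r → Fin n) (g : Fin r → Fin m) :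
    v ((M.submatrix f g).det) ≤ h86_rnorm v r M :=
  le_ciSup (f := fun p : (Fin r → Fin n) × (Fin r → Fin m) => v ((M.submatrix p.1 p.2).det))
    (Set.finite_range _).bddAbove (f, g)

theorem h86_rnorm_le (M : Matrix (Fin n) (Fin m) K) {B : ℝ} (hB : 0 ≤ B)
    (h : ∀ (f : Fin r → Fin n) (g : Fin r → Fin m), v ((M.submatrix f g).det) ≤ B) :
    h86_rnorm v r M ≤ B :=
  Real.iSup_le (fun p => h p.1 p.2) hB

/-- Multilinear expansion of `det (B * M)` along the rows of `B` (a weak form of Cauchy–Binet). -/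
theorem h86_det_mul_expand (B : Matrix (Fin r) (Fin n) K) (M : Matrix (Fin n) (Fin r) K) :
    (B * M).det = ∑ f : Fin r → Fin n, (∏ i, B i (f i)) * (M.submatrix f id).det := by
  have h : B * M = fun i => ∑ k, B i k • M k := by
    funext i j
    simp [Matrix.mul_apply, Finset.sum_apply]
  rw [h]
  have h1 := (Matrix.detRowAlternating (R := K) (n := Fin r)).toMultilinearMap.map_sum
    (fun (i : Fin r) (k : Fin n) => B i k • M k)
  have h2 : ∀ f : Fin r → Fin n,
      (Matrix.detRowAlternating (R := K) (n := Fin r)).toMultilinearMap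
        (fun i => B i (f i) • M (f i)) = (∏ i, B i (f i)) * (M.submatrix f id).det := by
    intro f
    have := (Matrix.detRowAlternating (R := K) (n := Fin r)).toMultilinearMap.map_smul_univ
      (fun i => B i (f i)) (fun i => M (f i))
    rw [this, smul_eq_mul]
    rfl
  simp only [h2] at h1
  exact h1

/-- Weak Cauchy–Binet bound when the entries of `B` are `v`-integral. -/
theorem h86_minor_mul_le_of_entries (B : Matrix (Fin r) (Fin n) K) (M : Matrix (Fin n) (Fin m) K)
    (hB : ∀ i j, v (B i j) ≤ 1) (g : Fin r → Fin m) :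
    v (((B * M).submatrix id g).det) ≤ (n : ℝ) ^ r * h86_rnorm v r M := by
  have h : (B * M).submatrix id g = B * M.submatrix id g := rfl
  rw [h, h86_det_mul_expand]
  refine (v.sum_le _ _).trans ?_
  have hb : ∀ f ∈ (Finset.univ : Finset (Fin r → Fin n)),
      v ((∏ i, B i (f i)) * ((M.submatrix id g).submatrix f id).det) ≤ h86_rnorm v r M := by
    intro f _
    rw [v.map_mul, map_prod]
    have h1 : ∏ i, v (B i (f i)) ≤ 1 :=
      Finset.prod_le_one (fun i _ => v.nonneg _) (fun i _ => hB i (f i))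
    have h2 : v (((M.submatrix id g).submatrix f id).det) ≤ h86_rnorm v r M :=
      h86_le_rnorm v M f g
    calc (∏ i, v (B i (f i))) * v (((M.submatrix id g).submatrix f id).det)
        ≤ 1 * h86_rnorm v r M :=
          mul_le_mul h1 h2 (v.nonneg _) zero_le_one
      _ = h86_rnorm v r M := one_mul _
  refine (Finset.sum_le_sum hb).trans ?_
  rw [Finset.sum_const, Finset.card_univ, Fintype.card_fun, Fintype.card_fin, Fintype.card_fin,
    nsmul_eq_mul, Nat.cast_pow]

theorem h86_minor_mul_le_of_entries_nonarch (hv : IsNonarchimedean v)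
    (B : Matrix (Fin r) (Fin n) K) (M : Matrix (Fin n) (Fin m) K)
    (hB : ∀ i j, v (B i j) ≤ 1) (g : Fin r → Fin m) :
    v (((B * M).submatrix id g).det) ≤ h86_rnorm v r M := by
  have h : (B * M).submatrix id g = B * M.submatrix id g := rfl
  rw [h, h86_det_mul_expand]
  refine (hv.apply_sum_univ_le).trans ?_
  refine Real.iSup_le (fun f => ?_) (h86_rnorm_nonneg v M)
  rw [v.map_mul, map_prod]
  have h1 : ∏ i, v (B i (f i)) ≤ 1 :=
    Finset.prod_le_one (fun i _ => v.nonneg _) (fun i _ => hB i (f i))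
  have h2 : v (((M.submatrix id g).submatrix f id).det) ≤ h86_rnorm v r M :=
    h86_le_rnorm v M f g
  calc (∏ i, v (B i (f i))) * v (((M.submatrix id g).submatrix f id).det)
      ≤ 1 * h86_rnorm v r M :=
        mul_le_mul h1 h2 (v.nonneg _) zero_le_one
    _ = h86_rnorm v r M := one_mul _

/-- **Cauchy–Binet bound**: `‖B * M‖ ≤ n ^ r * ‖B‖ * (max r-minor of M)` for `B` of full rank. -/
theorem h86_mnorm_mul_right_le (B : Matrix (Fin r) (Fin n) K) (M : Matrix (Fin n) (Fin m) K)
    (hB : ∃ f : Fin r → Fin n, (B.submatrix id f).det ≠ 0) :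
    h86_mnorm v (B * M) ≤ (n : ℝ) ^ r * h86_mnorm v B * h86_rnorm v r M := by
  obtain ⟨f0, h0, hmax⟩ := h86_exists_max_minor v B hB
  have h1 : B * M = B.submatrix id f0 * (h86_ech B f0 * M) := by
    rw [← Matrix.mul_assoc, h86_ech_mul B f0 h0]
  rw [h1, h86_mnorm_mul, h86_mnorm_eq_of_max v B f0 hmax, mul_comm ((n : ℝ) ^ r), mul_assoc]
  refine mul_le_mul_of_nonneg_left ?_ (v.nonneg _)
  refine h86_mnorm_le v _ (mul_nonneg (pow_nonneg (Nat.cast_nonneg n) r) (h86_rnorm_nonneg v M))
    fun g => ?_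
  exact h86_minor_mul_le_of_entries v _ M (h86_ech_entry_le v B f0 h0 hmax) g

theorem h86_mnorm_mul_right_le_nonarch (hv : IsNonarchimedean v)
    (B : Matrix (Fin r) (Fin n) K) (M : Matrix (Fin n) (Fin m) K)
    (hB : ∃ f : Fin r → Fin n, (B.submatrix id f).det ≠ 0) :
    h86_mnorm v (B * M) ≤ h86_mnorm v B * h86_rnorm v r M := by
  obtain ⟨f0, h0, hmax⟩ := h86_exists_max_minor v B hB
  have h1 : B * M = B.submatrix id f0 * (h86_ech B f0 * M) := by
    rw [← Matrix.mul_assoc, h86_ech_mul B f0 h0]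
  rw [h1, h86_mnorm_mul, h86_mnorm_eq_of_max v B f0 hmax]
  refine mul_le_mul_of_nonneg_left ?_ (v.nonneg _)
  refine h86_mnorm_le v _ (h86_rnorm_nonneg v M) fun g => ?_
  exact h86_minor_mul_le_of_entries_nonarch v hv _ M (h86_ech_entry_le v B f0 h0 hmax) g

end cb

section compl

variable {r m n : ℕ}

/-- An injective `h : Fin m → Fin n` extends to an equivalence `Fin r ⊕ Fin m ≃ Fin n`
(`r + m = n`) whose second component is `h`. -/
theorem h86_exists_equiv_inr (hn : r + m = n) (h : Fin m → Fin n) (hh : Function.Injective h) :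
    ∃ e : Fin r ⊕ Fin m ≃ Fin n, ∀ b, e (Sum.inr b) = h b := by
  classical
  have hc : Fintype.card (↥(Set.range h)ᶜ) = r := by
    rw [Fintype.card_compl_set, Fintype.card_fin,
      ← Fintype.card_congr (Equiv.ofInjective h hh), Fintype.card_fin]
    omega
  refine ⟨((Equiv.sumCongr (Fintype.equivFinOfCardEq hc).symm (Equiv.ofInjective h hh)).trans
    (Equiv.sumComm _ _)).trans (Equiv.Set.sumCompl (Set.range h)), ?_⟩
  intro b
  simp

/-- An injective `f : Fin r → Fin n` extends to an equivalence `Fin r ⊕ Fin m ≃ Fin n`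
(`r + m = n`) whose first component is `f`. -/
theorem h86_exists_equiv_inl (hn : r + m = n) (f : Fin r → Fin n) (hf : Function.Injective f) :
    ∃ e : Fin r ⊕ Fin m ≃ Fin n, ∀ a, e (Sum.inl a) = f a := by
  obtain ⟨e, he⟩ := h86_exists_equiv_inr (r := m) (m := r) (by omega) f hf
  exact ⟨(Equiv.sumComm _ _).trans e, fun a => by simpa using he a⟩

theorem h86_minor_eq_zero_of_not_injective {p : ℕ} (E : Matrix (Fin p) (Fin n) K)
    (f : Fin p → Fin n) (hf : ¬ Function.Injective f) : (E.submatrix id f).det = 0 := by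
  obtain ⟨a, b, hab, hne⟩ := Function.not_injective_iff.mp hf
  apply Matrix.det_zero_of_column_eq hne
  intro i
  simp [hab]

/-- A matrix with a nonzero maximal minor has a right inverse. -/
theorem h86_exists_right_inv (E : Matrix (Fin r) (Fin n) K)
    (hE : ∃ f : Fin r → Fin n, (E.submatrix id f).det ≠ 0) :
    ∃ R : Matrix (Fin n) (Fin r) K, E * R = 1 := by
  obtain ⟨f0, h0⟩ := hE
  refine ⟨(Matrix.of fun l a => if f0 a = l then (1 : K) else 0) * (E.submatrix id f0)⁻¹, ?_⟩
  have hP : E * (Matrix.of fun l a => if f0 a = l then (1 : K) else 0) = E.submatrix id f0 := by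
    ext i a
    simp [Matrix.mul_apply]
  rw [← Matrix.mul_assoc, hP, Matrix.mul_nonsing_inv _ (IsUnit.mk0 _ h0)]

theorem h86_mul_split {p q : ℕ} (X : Matrix (Fin p) (Fin n) K) (Y : Matrix (Fin n) (Fin q) K)
    (e : Fin r ⊕ Fin m ≃ Fin n) :
    X.submatrix id (e ∘ Sum.inl) * Y.submatrix (e ∘ Sum.inl) id +
      X.submatrix id (e ∘ Sum.inr) * Y.submatrix (e ∘ Sum.inr) id = X * Y := by
  ext i j
  simp only [Matrix.add_apply, Matrix.mul_apply, Matrix.submatrix_apply, id, Function.comp]
  rw [← Fintype.sum_sum_type (fun x => X i (e x) * Y (e x) j)]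
  exact Equiv.sum_comp e (fun l => X i l * Y l j)

/-- Key identity for complementary minors. -/
theorem h86_compl_key (E : Matrix (Fin r) (Fin n) K) (B : Matrix (Fin m) (Fin n) K)
    (hEB : E * Bᵀ = 0) (R : Matrix (Fin n) (Fin r) K) (hR : E * R = 1)
    (e : Fin r ⊕ Fin m ≃ Fin n) :
    (E.submatrix id (e ∘ Sum.inl)).det * ((Matrix.fromCols R Bᵀ).submatrix e id).det =
      (B.submatrix id (e ∘ Sum.inr)).det := by
  have hQ : (Matrix.fromCols R Bᵀ).submatrix e id =
      Matrix.fromBlocks (R.submatrix (e ∘ Sum.inl) id) (Bᵀ.submatrix (e ∘ Sum.inl) id)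
        (R.submatrix (e ∘ Sum.inr) id) (Bᵀ.submatrix (e ∘ Sum.inr) id) := by
    ext x y
    rcases x with a | b <;> rcases y with a' | b' <;> rfl
  have hN : Matrix.fromBlocks (E.submatrix id (e ∘ Sum.inl)) (E.submatrix id (e ∘ Sum.inr))
        (0 : Matrix (Fin m) (Fin r) K) (1 : Matrix (Fin m) (Fin m) K) *
        (Matrix.fromCols R Bᵀ).submatrix e id =
      Matrix.fromBlocks (1 : Matrix (Fin r) (Fin r) K) 0 (R.submatrix (e ∘ Sum.inr) id)
        ((B.submatrix id (e ∘ Sum.inr))ᵀ) := by
    rw [hQ, Matrix.fromBlocks_multiply, h86_mul_split, h86_mul_split, hR, hEB]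
    simp only [Matrix.zero_mul, Matrix.one_mul, zero_add]
    rfl
  have h := congrArg Matrix.det hN
  rw [Matrix.det_mul, Matrix.det_fromBlocks_zero₂₁, Matrix.det_fromBlocks_zero₁₂, Matrix.det_one,
    Matrix.det_one, mul_one, one_mul, Matrix.det_transpose] at h
  exact h

/-- **Complementary minors.** If `E` (`r × n`) and `B` (`m × n`) have full rank, `r + m = n` and
`E * Bᵀ = 0`, then there is ONE nonzero constant `c` such that every maximal minor of `B` is `± c`
times the complementary maximal minor of `E`; the sign is the sign of the shuffle relative to a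
reference bijection `e₀`. -/
theorem h86_compl_minors (E : Matrix (Fin r) (Fin n) K) (B : Matrix (Fin m) (Fin n) K)
    (hEB : E * Bᵀ = 0) (hE : ∃ f : Fin r → Fin n, (E.submatrix id f).det ≠ 0)
    (hB : ∃ h : Fin m → Fin n, (B.submatrix id h).det ≠ 0) (e₀ : Fin r ⊕ Fin m ≃ Fin n) :
    ∃ c : K, c ≠ 0 ∧ ∀ e : Fin r ⊕ Fin m ≃ Fin n,
      (B.submatrix id (e ∘ Sum.inr)).det =
        c * (((Equiv.Perm.sign (e.trans e₀.symm) : ℤˣ) : ℤ) : K) *
          (E.submatrix id (e ∘ Sum.inl)).det := by
  obtain ⟨R, hR⟩ := h86_exists_right_inv E hE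
  have hn : r + m = n := by
    have := Fintype.card_congr e₀
    simpa using this
  have key : ∀ e : Fin r ⊕ Fin m ≃ Fin n,
      (B.submatrix id (e ∘ Sum.inr)).det =
        ((Matrix.fromCols R Bᵀ).submatrix e₀ id).det *
          (((Equiv.Perm.sign (e.trans e₀.symm) : ℤˣ) : ℤ) : K) *
          (E.submatrix id (e ∘ Sum.inl)).det := by
    intro e
    rw [← h86_compl_key E B hEB R hR e]
    have h1 : (Matrix.fromCols R Bᵀ).submatrix e id =
        ((Matrix.fromCols R Bᵀ).submatrix e₀ id).submatrix (e.trans e₀.symm) id := by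
      ext x y
      simp
    rw [h1, Matrix.det_permute]
    ring
  refine ⟨((Matrix.fromCols R Bᵀ).submatrix e₀ id).det, ?_, key⟩
  obtain ⟨h, hh⟩ := hB
  have hinj : Function.Injective h := by
    by_contra hni
    exact hh (h86_minor_eq_zero_of_not_injective B h hni)
  obtain ⟨e, he⟩ := h86_exists_equiv_inr (r := r) hn h hinj
  have he' : e ∘ Sum.inr = h := funext he
  intro hc
  have := key e
  rw [he', hc, zero_mul, zero_mul] at this
  exact hh this

theorem h86_abv_sign (v : AbsoluteValue K ℝ) (s : ℤˣ) : v (((s : ℤ) : K)) = 1 := by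
  rcases Int.units_eq_one_or s with h | h
  · rw [h]; simp
  · rw [h]; simp

/-- Consequence of the complementary-minor relation for the max-norms, at every absolute value. -/
theorem h86_mnorm_eq_of_compl (E : Matrix (Fin r) (Fin n) K) (B : Matrix (Fin m) (Fin n) K)
    (c : K) (e₀ : Fin r ⊕ Fin m ≃ Fin n)
    (hc : ∀ e : Fin r ⊕ Fin m ≃ Fin n,
      (B.submatrix id (e ∘ Sum.inr)).det =
        c * (((Equiv.Perm.sign (e.trans e₀.symm) : ℤˣ) : ℤ) : K) *
          (E.submatrix id (e ∘ Sum.inl)).det)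
    (v : AbsoluteValue K ℝ) : h86_mnorm v B = v c * h86_mnorm v E := by
  have hn : r + m = n := by
    have := Fintype.card_congr e₀
    simpa using this
  have hv : ∀ e : Fin r ⊕ Fin m ≃ Fin n,
      v ((B.submatrix id (e ∘ Sum.inr)).det) = v c * v ((E.submatrix id (e ∘ Sum.inl)).det) := by
    intro e
    rw [hc e, v.map_mul, v.map_mul, h86_abv_sign, mul_one]
  apply le_antisymm
  · refine h86_mnorm_le v B (mul_nonneg (v.nonneg _) (h86_mnorm_nonneg v E)) fun h => ?_
    by_cases hinj : Function.Injective h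
    · obtain ⟨e, he⟩ := h86_exists_equiv_inr (r := r) hn h hinj
      have he' : e ∘ Sum.inr = h := funext he
      rw [← he', hv e]
      exact mul_le_mul_of_nonneg_left (h86_le_mnorm v E _) (v.nonneg _)
    · rw [h86_minor_eq_zero_of_not_injective B h hinj, v.map_zero]
      exact mul_nonneg (v.nonneg _) (h86_mnorm_nonneg v E)
  · unfold h86_mnorm
    rw [Real.mul_iSup_of_nonneg (v.nonneg _)]
    refine Real.iSup_le (fun f => ?_) (h86_mnorm_nonneg v B)
    by_cases hinj : Function.Injective f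
    · obtain ⟨e, he⟩ := h86_exists_equiv_inl (m := m) hn f hinj
      have he' : e ∘ Sum.inl = f := funext he
      rw [← he', ← hv e]
      exact h86_le_mnorm v B _
    · rw [h86_minor_eq_zero_of_not_injective E f hinj, v.map_zero, mul_zero]
      exact h86_mnorm_nonneg v B

/-- **Complementary minors, norm form**: one constant `c ≠ 0` with `‖B‖_v = |c|_v ‖E‖_v` for
every absolute value `v` of `K`. -/
theorem h86_mnorm_compl (E : Matrix (Fin r) (Fin n) K) (B : Matrix (Fin m) (Fin n) K)
    (hEB : E * Bᵀ = 0) (hE : ∃ f : Fin r → Fin n, (E.submatrix id f).det ≠ 0)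
    (hB : ∃ h : Fin m → Fin n, (B.submatrix id h).det ≠ 0) (hn : r + m = n) :
    ∃ c : K, c ≠ 0 ∧ ∀ v : AbsoluteValue K ℝ, h86_mnorm v B = v c * h86_mnorm v E := by
  have e₀ : Fin r ⊕ Fin m ≃ Fin n := finSumFinEquiv.trans (finCongr hn)
  obtain ⟨c, hc0, hc⟩ := h86_compl_minors E B hEB hE hB e₀
  exact ⟨c, hc0, fun v => h86_mnorm_eq_of_compl E B c e₀ hc v⟩

end compl

section small

variable (v : AbsoluteValue K ℝ) {r n : ℕ}

/-- A matrix with no rows has max-norm `1` (the empty minor). -/
theorem h86_mnorm_zero_rows (E : Matrix (Fin 0) (Fin n) K) : h86_mnorm v E = 1 := by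
  apply le_antisymm
  · refine h86_mnorm_le v E zero_le_one fun f => ?_
    rw [Matrix.det_fin_zero, v.map_one]
  · have h := h86_le_mnorm v E (fun i => i.elim0)
    rwa [Matrix.det_fin_zero, v.map_one] at h

/-- The max-norm of a one-row matrix is the sup norm of the row. -/
theorem h86_mnorm_row (lam : Fin n → K) (E : Matrix (Fin 0) (Fin n) K) :
    h86_mnorm v (h86_consRow lam E) = h86_vnorm v lam := by
  apply le_antisymm
  · refine h86_mnorm_le v _ (h86_vnorm_nonneg v lam) fun g => ?_
    rw [Matrix.det_fin_one]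
    exact h86_le_vnorm v lam (g 0)
  · refine h86_vnorm_le v lam (h86_mnorm_nonneg v _) fun i => ?_
    have h := h86_le_mnorm v (h86_consRow lam E) (fun _ => i)
    rwa [Matrix.det_fin_one] at h

/-- Leibniz bound for a determinant, non-archimedean case: no constant. -/
theorem h86_det_le_nonarch (hv : IsNonarchimedean v) (A : Matrix (Fin r) (Fin r) K) {x : ℝ}
    (hx : ∀ i j, v (A i j) ≤ x) : v A.det ≤ x ^ r := by
  have hx0 : 0 ≤ x ^ r := by
    rcases Nat.eq_zero_or_pos r with h | h
    · subst h; simp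
    · exact pow_nonneg ((v.nonneg _).trans (hx ⟨0, h⟩ ⟨0, h⟩)) r
  rw [Matrix.det_apply]
  refine (hv.apply_sum_univ_le).trans ?_
  refine Real.iSup_le (fun σ => ?_) hx0
  rw [AbsoluteValue.map_units_int_smul, map_prod]
  calc ∏ i, v (A (σ i) i) ≤ ∏ _i : Fin r, x :=
        Finset.prod_le_prod (fun i _ => v.nonneg _) (fun i _ => hx (σ i) i)
    _ = x ^ r := by rw [Finset.prod_const, Finset.card_univ, Fintype.card_fin]

/-- Leibniz bound for a determinant, any absolute value (Mathlib's `Matrix.det_le`). -/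
theorem h86_det_le (A : Matrix (Fin r) (Fin r) K) {x : ℝ}
    (hx : ∀ i j, v (A i j) ≤ x) : v A.det ≤ (r.factorial : ℝ) * x ^ r := by
  have h := Matrix.det_le (abv := v) hx
  rw [Fintype.card_fin, nsmul_eq_mul] at h
  exact h

end small

end Fermat.Agent.S17
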