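import Mathlib
import Fermat.Agent.S17.h55_Places
import Fermat.Agent.S17.h86_Minors
import Fermat.Agent.S17.h32_GalDescent

/-!
# S17 (route R55, row G3, curve-free core)

The Schmidt height of a rational subspace which is the kernel of a *Galois-permuted* matrix over
`ℚ̄` is the sum over the places of the logarithms of the local max-minor norms of that matrix.

* `h32_minor_galois`     : a Galois automorphism permuting the rows multiplies every maximal
                            minor by the sign of the permutation;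
* `h32_gl_eq_zero_of_sign`: product formula for `c` with `σ c = ± c` for all `σ`;
* `h32_schmidt_local`    : one constant `c` with `∑_w log |c|_w = 0` and
                            `‖B‖_w = |c|_w ‖E‖_w` at every place;
* `h32_schmidt_global`   : `∑_w log ‖B‖_w = ∑_w log ‖E‖_w`;
* `h32_finsum_log_two_sided`: summation of two-sided local bounds.
-/

set_option autoImplicit false

namespace Fermat.Agent.S17

open scoped Matrix

local notation "Qbar" => AlgebraicClosure ℚ

/-- **(S1)** If `σ` permutes the rows of `E` by `π`, every maximal minor of `E` is multiplied by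
the sign of `π`. -/
theorem h32_minor_galois {a n : ℕ} (E : Matrix (Fin a) (Fin n) Qbar) (σ : Qbar ≃ₐ[ℚ] Qbar)
    (π : Equiv.Perm (Fin a)) (h : ∀ i j, σ (E i j) = E (π i) j) (f : Fin a → Fin n) :
    σ ((E.submatrix id f).det) =
      (((Equiv.Perm.sign π : ℤˣ) : ℤ) : Qbar) * (E.submatrix id f).det := by
  have h1 : σ ((E.submatrix id f).det) = ((E.submatrix id f).map σ).det :=
    AlgEquiv.map_det σ _
  have h2 : (E.submatrix id f).map σ = (E.submatrix id f).submatrix π id := by
    ext i j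
    simp [h]
  rw [h1, h2, Matrix.det_permute]

/-- An element of `ℚ̄` fixed by the whole Galois group is rational. -/
theorem h32_rat_of_fixed {x : Qbar} (h : ∀ σ : Qbar ≃ₐ[ℚ] Qbar, σ x = x) :
    ∃ q : ℚ, x = (q : Qbar) := by
  have := h32_isGaloisQbar
  have hx : x ∈ (⊥ : IntermediateField ℚ Qbar) := (InfiniteGalois.mem_bot_iff_fixed x).mpr h
  obtain ⟨q, hq⟩ := IntermediateField.mem_bot.mp hx
  exact ⟨q, by rw [← hq]; simp⟩

/-- **(S2)** Product formula for a number which is Galois-invariant up to sign. -/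
theorem h32_gl_eq_zero_of_sign {c : Qbar} (hc : c ≠ 0)
    (h : ∀ σ : Qbar ≃ₐ[ℚ] Qbar, σ c = c ∨ σ c = -c) : h55_gl c = 0 := by
  have hfix : ∀ σ : Qbar ≃ₐ[ℚ] Qbar, σ (c ^ 2) = c ^ 2 := by
    intro σ
    rw [map_pow]
    rcases h σ with h1 | h1 <;> rw [h1]
    ring
  obtain ⟨q, hq⟩ := h32_rat_of_fixed hfix
  exact h55_product_formula_pow hc two_ne_zero hq

/-- The minors of a rational matrix, seen in `ℚ̄`. -/
theorem h32_minor_map {m n : ℕ} (B : Matrix (Fin m) (Fin n) ℚ) (h : Fin m → Fin n) :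
    ((B.map (algebraMap ℚ Qbar)).submatrix id h).det =
      algebraMap ℚ Qbar ((B.submatrix id h).det) := by
  rw [RingHom.map_det]
  rfl

/-- **(S3)** Local form: there is ONE constant `c ≠ 0` with `∑_w log |c|_w = 0` such that
`‖B‖_w = |c|_w ‖E‖_w` at every place `w`, for a full-rank matrix `E` over `ℚ̄` whose rows are
permuted by the Galois group and a full-rank rational matrix `B` whose rows span its kernel. -/
theorem h32_schmidt_local {a m n : ℕ} (hn : a + m = n) (E : Matrix (Fin a) (Fin n) Qbar)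
    (hE : ∃ f : Fin a → Fin n, (E.submatrix id f).det ≠ 0)
    (hgal : ∀ σ : Qbar ≃ₐ[ℚ] Qbar, ∃ π : Equiv.Perm (Fin a), ∀ i j, σ (E i j) = E (π i) j)
    (B : Matrix (Fin m) (Fin n) ℚ) (hB : ∃ h : Fin m → Fin n, (B.submatrix id h).det ≠ 0)
    (hEB : E * (B.map (algebraMap ℚ Qbar))ᵀ = 0) :
    ∃ c : Qbar, c ≠ 0 ∧ h55_gl c = 0 ∧ ∀ w : h55_Pl,
      h86_mnorm (h55_av w) (B.map (algebraMap ℚ Qbar)) =
        h55_av w c * h86_mnorm (h55_av w) E := by
  have e₀ : Fin a ⊕ Fin m ≃ Fin n := finSumFinEquiv.trans (finCongr hn)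
  have hB' : ∃ h : Fin m → Fin n, ((B.map (algebraMap ℚ Qbar)).submatrix id h).det ≠ 0 := by
    obtain ⟨h, hh⟩ := hB
    refine ⟨h, ?_⟩
    rw [h32_minor_map]
    exact (map_ne_zero (algebraMap ℚ Qbar)).mpr hh
  obtain ⟨c, hc0, hc⟩ := h86_compl_minors E (B.map (algebraMap ℚ Qbar)) hEB hE hB' e₀
  refine ⟨c, hc0, ?_, fun w => h86_mnorm_eq_of_compl E _ c e₀ hc (h55_av w)⟩
  apply h32_gl_eq_zero_of_sign hc0
  intro σ
  obtain ⟨π, hπ⟩ := hgal σ
  obtain ⟨f, hf⟩ := hE
  have hinj : Function.Injective f := by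
    by_contra hni
    exact hf (h86_minor_eq_zero_of_not_injective E f hni)
  obtain ⟨e, he⟩ := h86_exists_equiv_inl (m := m) hn f hinj
  have he' : e ∘ Sum.inl = f := funext he
  have key := hc e
  rw [he'] at key
  have key2 := congrArg σ key
  rw [h32_minor_map, AlgEquiv.commutes, ← h32_minor_map, key, map_mul, map_mul,
    h32_minor_galois E σ π hπ f, map_intCast] at key2
  -- key2 : c * s * d = σ c * s * (sπ * d)
  set s : Qbar := (((Equiv.Perm.sign (e.trans e₀.symm) : ℤˣ) : ℤ) : Qbar) with hs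
  set d : Qbar := (E.submatrix id f).det with hd
  have hs0 : s ≠ 0 := by
    rcases Int.units_eq_one_or (Equiv.Perm.sign (e.trans e₀.symm)) with h1 | h1 <;>
      simp [hs, h1]
  rcases Int.units_eq_one_or (Equiv.Perm.sign π) with h1 | h1
  · left
    rw [h1] at key2
    have : c * (s * d) = σ c * (s * d) := by
      have := key2
      simp only [Units.val_one, Int.cast_one, one_mul] at this
      linear_combination this
    exact (mul_right_cancel₀ (mul_ne_zero hs0 hf) this).symm
  · right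
    rw [h1] at key2
    have : (-c) * (s * d) = σ c * (s * d) := by
      have := key2
      simp only [Units.val_neg, Units.val_one, Int.cast_neg, Int.cast_one, neg_mul, one_mul,
        mul_neg] at this
      linear_combination (-1 : Qbar) * this
    exact (mul_right_cancel₀ (mul_ne_zero hs0 hf) this).symm

/-- The max-minor norm of a matrix over `ℚ̄` is the `h55_nrm` of its vector of minors. -/
theorem h32_mnorm_eq_nrm {r n : ℕ} (w : h55_Pl) (E : Matrix (Fin r) (Fin n) Qbar) :
    h86_mnorm (h55_av w) E = h55_nrm w fun f : Fin r → Fin n => (E.submatrix id f).det :=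
  rfl

/-- For a matrix over `ℚ̄` with a nonzero maximal minor, `‖E‖_w = 1` for almost all `w`. -/
theorem h32_finite_mnorm_ne_one {r n : ℕ} (E : Matrix (Fin r) (Fin n) Qbar)
    (hE : ∃ f : Fin r → Fin n, (E.submatrix id f).det ≠ 0) :
    {w : h55_Pl | h86_mnorm (h55_av w) E ≠ 1}.Finite := by
  have hx : (fun f : Fin r → Fin n => (E.submatrix id f).det) ≠ 0 := by
    obtain ⟨f, hf⟩ := hE
    intro h0
    exact hf (congrFun h0 f)
  exact h55_finite_nrm_ne_one hx

theorem h32_finite_support_log_mnorm {r n : ℕ} (E : Matrix (Fin r) (Fin n) Qbar) :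
    (Function.support fun w : h55_Pl => Real.log (h86_mnorm (h55_av w) E)).Finite :=
  h55_finite_support_log_nrm fun f : Fin r → Fin n => (E.submatrix id f).det

theorem h32_mnorm_pos {r n : ℕ} (w : h55_Pl) (E : Matrix (Fin r) (Fin n) Qbar)
    (hE : ∃ f : Fin r → Fin n, (E.submatrix id f).det ≠ 0) : 0 < h86_mnorm (h55_av w) E := by
  have hx : (fun f : Fin r → Fin n => (E.submatrix id f).det) ≠ 0 := by
    obtain ⟨f, hf⟩ := hE
    intro h0
    exact hf (congrFun h0 f)
  exact h55_nrm_pos w hx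

/-- **(S4)** Global form: the Schmidt height `∑_w log ‖B‖_w` of the rational kernel equals
`∑_w log ‖E‖_w`. -/
theorem h32_schmidt_global {a m n : ℕ} (hn : a + m = n) (E : Matrix (Fin a) (Fin n) Qbar)
    (hE : ∃ f : Fin a → Fin n, (E.submatrix id f).det ≠ 0)
    (hgal : ∀ σ : Qbar ≃ₐ[ℚ] Qbar, ∃ π : Equiv.Perm (Fin a), ∀ i j, σ (E i j) = E (π i) j)
    (B : Matrix (Fin m) (Fin n) ℚ) (hB : ∃ h : Fin m → Fin n, (B.submatrix id h).det ≠ 0)
    (hEB : E * (B.map (algebraMap ℚ Qbar))ᵀ = 0) :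
    ∑ᶠ w : h55_Pl, Real.log (h86_mnorm (h55_av w) (B.map (algebraMap ℚ Qbar))) =
      ∑ᶠ w : h55_Pl, Real.log (h86_mnorm (h55_av w) E) := by
  obtain ⟨c, hc0, hgl, hloc⟩ := h32_schmidt_local hn E hE hgal B hB hEB
  have h1 : ∀ w : h55_Pl, Real.log (h86_mnorm (h55_av w) (B.map (algebraMap ℚ Qbar))) =
      h55_lg w c + Real.log (h86_mnorm (h55_av w) E) := by
    intro w
    rw [hloc w, Real.log_mul ((h55_av w).pos hc0).ne' (h32_mnorm_pos w E hE).ne']
    rfl
  rw [finsum_congr h1, finsum_add_distrib (h55_finite_support_lg hc0)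
    (h32_finite_support_log_mnorm E)]
  have : ∑ᶠ w : h55_Pl, h55_lg w c = 0 := hgl
  rw [this, zero_add]

/-- **(S5)** Summation of two-sided local bounds: if `X w` and `R w` are positive, equal to `1`
for almost all `w`, and `(c w)⁻¹ R w ≤ X w ≤ c w R w` with constants `c w ≥ 1` equal to `1` for
almost all `w`, then `|∑_w log X w - ∑_w log R w| ≤ ∑_w log c w`. -/
theorem h32_finsum_log_two_sided {X R c : h55_Pl → ℝ} (hX : ∀ w, 0 < X w) (hR : ∀ w, 0 < R w)
    (hc1 : ∀ w, 1 ≤ c w) (hXf : {w | X w ≠ 1}.Finite) (hRf : {w | R w ≠ 1}.Finite)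
    (hcf : {w | c w ≠ 1}.Finite) (hlow : ∀ w, R w ≤ c w * X w) (hup : ∀ w, X w ≤ c w * R w) :
    |∑ᶠ w, Real.log (X w) - ∑ᶠ w, Real.log (R w)| ≤ ∑ᶠ w, Real.log (c w) := by
  have hsupp : ∀ {f : h55_Pl → ℝ}, {w | f w ≠ 1}.Finite →
      (Function.support fun w => Real.log (f w)).Finite := by
    intro f hf
    refine hf.subset ?_
    intro w hw h1
    simp only [Function.mem_support, ne_eq] at hw
    exact hw (by rw [h1, Real.log_one])
  have hc0 : ∀ w, 0 < c w := fun w => lt_of_lt_of_le zero_lt_one (hc1 w)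
  rw [abs_le]
  constructor
  · have h1 : ∑ᶠ w, Real.log (R w) ≤ ∑ᶠ w, Real.log (X w) + ∑ᶠ w, Real.log (c w) := by
      refine h55_finsum_le_add (hsupp hRf) (hsupp hXf) hcf fun w => ?_
      rw [← Real.log_mul (hX w).ne' (hc0 w).ne', mul_comm]
      exact Real.log_le_log (hR w) (hlow w)
    linarith
  · have h1 : ∑ᶠ w, Real.log (X w) ≤ ∑ᶠ w, Real.log (R w) + ∑ᶠ w, Real.log (c w) := by
      refine h55_finsum_le_add (hsupp hXf) (hsupp hRf) hcf fun w => ?_
      rw [← Real.log_mul (hR w).ne' (hc0 w).ne', mul_comm]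
      exact Real.log_le_log (hX w) (hup w)
    linarith

end Fermat.Agent.S17
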