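import Fermat.Agent.S17.h55_Frame
import Fermat.Agent.S17.h32_SchmidtGal

/-!
# S17 height block (route R55), row FB, norm half (owner helper56)

Tuples of places (`h55_dv`, stability under concatenation) and the local terms `fr.Gloc`,
`fr.pairLoc`: invariance under permutation of the points and finiteness of the supports.
Statements `h55_*` verbatim from the skeleton of helper55.
-/

set_option autoImplicit false

open AlgebraicCurve

namespace Fermat.Agent.S17

open Fermat.Agent.S18 Fermat.Agent.S27

local notation "Qbar" => AlgebraicClosure ℚ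
local notation "GQ" => (AlgebraicClosure ℚ ≃ₐ[ℚ] AlgebraicClosure ℚ)

variable {F : Type} [Field F] [Algebra Qbar F] (fr : h55_Frame F)

/-! ## tuples of places -/

theorem h55_dv_append {a b : ℕ} (A : Fin a → Place Qbar F) (B : Fin b → Place Qbar F) :
    h55_dv (Fin.append A B) = h55_dv A + h55_dv B := by
  unfold h55_dv
  rw [Fin.sum_univ_add]
  simp only [Fin.append_left, Fin.append_right]

theorem h55_isStable_append {a b : ℕ} {A : Fin a → Place Qbar F} {B : Fin b → Place Qbar F}
    (hA : fr.IsStable A) (hB : fr.IsStable B) : fr.IsStable (Fin.append A B) := by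
  intro σ
  obtain ⟨πA, hπA⟩ := hA σ
  obtain ⟨πB, hπB⟩ := hB σ
  refine ⟨finSumFinEquiv.symm.trans ((Equiv.sumCongr πA πB).trans finSumFinEquiv), fun j => ?_⟩
  induction j using Fin.addCases with
  | left i =>
    have h1 : (finSumFinEquiv.symm.trans ((Equiv.sumCongr πA πB).trans finSumFinEquiv))
        (Fin.castAdd b i) = Fin.castAdd b (πA i) := by
      simp [finSumFinEquiv_symm_apply_castAdd]
    rw [h1, Fin.append_left, Fin.append_left]
    exact hπA i
  | right i =>
    have h1 : (finSumFinEquiv.symm.trans ((Equiv.sumCongr πA πB).trans finSumFinEquiv))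
        (Fin.natAdd a i) = Fin.natAdd a (πB i) := by
      simp [finSumFinEquiv_symm_apply_natAdd]
    rw [h1, Fin.append_right, Fin.append_right]
    exact hπB i

/-! ## the local terms: permutation invariance and finiteness of supports -/

theorem h56_mn_eq_mnorm (w : h55_Pl) {r n : ℕ} (E : Matrix (Fin r) (Fin n) Qbar) :
    h55_mn w E = h86_mnorm (h55_av w) E := rfl

/-- permuting the rows does not change the maximal-minor norm. -/
theorem h56_mn_perm (w : h55_Pl) {r n : ℕ} (E : Matrix (Fin r) (Fin n) Qbar)
    (e : Equiv.Perm (Fin r)) : h55_mn w (E.submatrix e id) = h55_mn w E := by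
  unfold h55_mn
  congr 1
  funext f
  have h1 : (E.submatrix e id).submatrix id f = (E.submatrix id f).submatrix e id := rfl
  rw [h1, Matrix.det_permute, map_mul]
  have h2 : h55_av w (((Equiv.Perm.sign e : ℤˣ) : ℤ) : Qbar) = 1 := by
    rcases Int.units_eq_one_or (Equiv.Perm.sign e) with h | h <;> rw [h] <;> simp
  rw [h2, one_mul]

theorem h55_Gloc_equiv (M : ℕ) (w : h55_Pl) {a b : ℕ} (e : Fin a ≃ Fin b)
    (P : Fin b → Place Qbar F) : fr.Gloc M w (P ∘ e) = fr.Gloc M w P := by
  obtain rfl : a = b := Fin.equiv_iff_eq.mp ⟨e⟩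
  unfold h55_Frame.Gloc
  have h1 : fr.E M (P ∘ e) = (fr.E M P).submatrix e id := rfl
  rw [h1, h56_mn_perm]

theorem h55_G_equiv (M : ℕ) {a b : ℕ} (e : Fin a ≃ Fin b) (P : Fin b → Place Qbar F) :
    fr.G M (P ∘ e) = fr.G M P := by
  unfold h55_Frame.G
  congr 1
  funext w
  exact h55_Gloc_equiv fr M w e P

theorem h55_finite_support_Gloc (M : ℕ) {a : ℕ} (P : Fin a → Place Qbar F) :
    (Function.support fun w => fr.Gloc M w P).Finite :=
  h32_finite_support_log_mnorm (fr.E M P)

/-- the chordal distance is `1` at almost all places, or identically `0`. -/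
theorem h56_finite_support_log_dist (M0 : ℕ) (P Q : Place Qbar F) :
    (Function.support fun w => Real.log (fr.dist M0 w P Q)).Finite := by
  by_cases hE : ∃ f : Fin 2 → Fin (fr.n M0), ((fr.E M0 ![P, Q]).submatrix id f).det ≠ 0
  · by_cases hP : fr.pt M0 P = 0
    · refine Set.Finite.subset Set.finite_empty fun w hw => hw ?_
      show Real.log (fr.dist M0 w P Q) = 0
      unfold h55_Frame.dist
      rw [hP, h55_nrm_zero, zero_mul, div_zero, Real.log_zero]
    by_cases hQ : fr.pt M0 Q = 0
    · refine Set.Finite.subset Set.finite_empty fun w hw => hw ?_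
      show Real.log (fr.dist M0 w P Q) = 0
      unfold h55_Frame.dist
      rw [hQ, h55_nrm_zero, mul_zero, div_zero, Real.log_zero]
    refine ((h32_finite_mnorm_ne_one _ hE).union
      ((h55_finite_nrm_ne_one hP).union (h55_finite_nrm_ne_one hQ))).subset fun w hw => ?_
    by_contra hcon
    simp only [Set.mem_union, Set.mem_ofPred_eq, not_or, not_not] at hcon
    apply hw
    show Real.log (fr.dist M0 w P Q) = 0
    unfold h55_Frame.dist
    rw [h56_mn_eq_mnorm, hcon.1, hcon.2.1, hcon.2.2, mul_one, div_one, Real.log_one]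
  · refine Set.Finite.subset Set.finite_empty fun w hw => hw ?_
    show Real.log (fr.dist M0 w P Q) = 0
    have h0 : h55_mn w (fr.E M0 ![P, Q]) = 0 := by
      unfold h55_mn
      have : ∀ f : Fin 2 → Fin (fr.n M0),
          h55_av w (((fr.E M0 ![P, Q]).submatrix id f).det) = 0 := by
        intro f
        have hf : ((fr.E M0 ![P, Q]).submatrix id f).det = 0 := by
          by_contra hne
          exact hE ⟨f, hne⟩
        rw [hf, map_zero]
      simp only [this]
      exact Real.iSup_const_zero
    unfold h55_Frame.dist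
    rw [h0, zero_div, Real.log_zero]

theorem h55_finite_support_pairLoc (M0 : ℕ) {a b : ℕ} (A : Fin a → Place Qbar F)
    (B : Fin b → Place Qbar F) : (Function.support fun w => fr.pairLoc M0 w A B).Finite := by
  have hfin : (⋃ i : Fin a, ⋃ j : Fin b,
      Function.support fun w => Real.log (fr.dist M0 w (A i) (B j))).Finite :=
    Set.finite_iUnion fun i => Set.finite_iUnion fun j =>
      h56_finite_support_log_dist fr M0 (A i) (B j)
  refine hfin.subset fun w hw => ?_
  by_contra hcon
  apply hw
  simp only [Set.mem_iUnion, Function.mem_support, not_exists, not_not] at hcon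
  show fr.pairLoc M0 w A B = 0
  unfold h55_Frame.pairLoc
  simp only [hcon, Finset.sum_const_zero, neg_zero]

end Fermat.Agent.S17
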