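import Mathlib
import Fermat.Prelude.Def_AlgebraicCurve_BaseChangeGalois
import Fermat.Agent.S18.RR_Riemann

/-!
# S17: canonical effective representatives of divisor classes

Generic function field `F / K` with a chart (`K` algebraically closed), a base place `P0`.
For a class `c : Pic0 K F` let `i` be the least natural number such that `c + i P0` contains an
effective divisor.  That effective divisor `A` is unique, `i ≤ g`, and therefore `A` is fixed
by every semilinear automorphism fixing `P0` and `c`:

* `h6_rr_line`          : if `L(D - P) = 0` then `L(D)` is at most a line;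
* `h6_exists_canon`     : the minimal `i` and a nonzero `f ∈ L(D₀ + i P0)` with
                          `L(D₀ + i P0 - P0) = 0`;
* `h6_exists_unique_rep`: existence and uniqueness of the canonical effective representative;
* `h6_exists_stable_rep`: a class fixed by a set `G` of semilinear automorphisms fixing `P0`
                          has a `G`-stable effective representative `A` of degree `i ≤ g`
                          with `[A - i P0] = c`.
-/

set_option autoImplicit false

noncomputable section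

namespace Fermat.Agent.S17

open AlgebraicCurve IntermediateField Fermat.Agent.S18 Fermat.Agent.S24

variable {K F : Type*} [Field K] [Field F] [Algebra K F]

/-- equality of classes of degree-zero divisors -/
theorem h6_mk_eq_mk_iff (a b : Divisor.degZero (K := K) (F := F)) :
    Pic0.mk a = Pic0.mk b ↔
      ((a : Divisor K F) - (b : Divisor K F)) ∈ Divisor.principal (K := K) (F := F) := by
  unfold Pic0.mk
  rw [QuotientAddGroup.eq, AddSubgroup.mem_addSubgroupOf]
  have h1 : (((-a + b : Divisor.degZero (K := K) (F := F)) : Divisor K F)) =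
      -((a : Divisor K F) - (b : Divisor K F)) := by
    rw [AddSubgroup.coe_add, AddSubgroup.coe_neg]
    abel
  rw [h1, neg_mem_iff]

variable [IsAlgClosed K]

/-- If `L(D - P) = 0`, any two elements of `L(D)` are proportional. -/
theorem h6_rr_line {x : F} (hx : h75_IsChart K x) (D : Divisor K F) (P : Place K F)
    (hbot : riemannRochSpace (D - Finsupp.single P 1) = ⊥) {f f' : F}
    (hf : f ∈ riemannRochSpace D) (hf0 : f ≠ 0) (hf' : f' ∈ riemannRochSpace D) :
    ∃ c : K, f' = algebraMap K F c * f := by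
  classical
  have key : ∀ w : F, w ∈ riemannRochSpace D → w ≠ 0 → P.ord w = -D P := by
    intro w hw hw0
    rw [mem_riemannRochSpace_iff] at hw
    have h1 : -D P ≤ P.ord w := (hw P).resolve_left hw0
    by_contra hne
    have hlt : -D P < P.ord w := lt_of_le_of_ne h1 (Ne.symm hne)
    have hmem : w ∈ riemannRochSpace (D - Finsupp.single P 1) := by
      rw [mem_riemannRochSpace_iff]
      intro v
      refine Or.inr ?_
      rw [Finsupp.coe_sub, Pi.sub_apply]
      by_cases hv : v = P
      · subst hv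
        rw [Finsupp.single_eq_same]
        omega
      · rw [Finsupp.single_apply, if_neg (Ne.symm hv)]
        have := (hw v).resolve_left hw0
        omega
    rw [hbot, Submodule.mem_bot] at hmem
    exact hw0 hmem
  by_cases hf'0 : f' = 0
  · exact ⟨0, by rw [hf'0, map_zero, zero_mul]⟩
  have hu0 : f' / f ≠ 0 := div_ne_zero hf'0 hf0
  have hu : f' / f ∈ P.toValuationSubring := by
    rw [h35_mem_iff_ord_nonneg P hu0, h35_ord_div P hf'0 hf0, key f hf hf0, key f' hf' hf'0]
    omega
  obtain ⟨a, ha | ha⟩ := h75_exists_const hx P (f' / f) hu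
  · exact ⟨a, by rw [← ha, div_mul_cancel₀ _ hf0]⟩
  · refine ⟨a, ?_⟩
    by_contra hne
    have hw0 : f' - algebraMap K F a * f ≠ 0 := sub_ne_zero.mpr hne
    have hwmem : f' - algebraMap K F a * f ∈ riemannRochSpace D :=
      Submodule.sub_mem _ hf' (by
        rw [← Algebra.smul_def]
        exact Submodule.smul_mem _ a hf)
    have h1 := key _ hwmem hw0
    have h2 : f' - algebraMap K F a * f = (f' / f - algebraMap K F a) * f := by
      field_simp
    have h3 : f' / f - algebraMap K F a ≠ 0 := by
      intro h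
      rw [h, zero_mul] at h2
      exact hw0 h2
    rw [h2, P.ord_mul h3 hf0, key f hf hf0] at h1
    omega

/-- degree of `D₀ + i P0` -/
theorem h6_degree_add_nsmul {x : F} (hx : h75_IsChart K x) (P0 : Place K F) (D₀ : Divisor K F)
    (i : ℤ) :
    Divisor.degree (D₀ + i • Finsupp.single P0 1) = Divisor.degree D₀ + i := by
  rw [map_add, map_zsmul, Divisor.degree_single, h75_deg_eq_one hx P0]
  simp

/-- **Minimal twist**: for a divisor `D₀` of degree `0` there is a least `i ≤ g` such that
`L(D₀ + i P0) ≠ 0`; then `L(D₀ + i P0 - P0) = 0`. -/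
theorem h6_exists_canon {x : F} (hx : h75_IsChart K x) (P0 : Place K F) (D₀ : Divisor K F)
    (hD₀ : Divisor.degree D₀ = 0) :
    ∃ (i : ℕ) (f : F), i ≤ h75_genus K x ∧ f ≠ 0 ∧
      f ∈ riemannRochSpace (D₀ + (i : ℤ) • Finsupp.single P0 1) ∧
      riemannRochSpace (D₀ + (i : ℤ) • Finsupp.single P0 1 - Finsupp.single P0 1) = ⊥ := by
  classical
  have hex : ∃ i : ℕ, riemannRochSpace (D₀ + (i : ℤ) • Finsupp.single P0 1) ≠ ⊥ := by
    refine ⟨h75_genus K x, fun hbot => ?_⟩
    obtain ⟨hfin, hle⟩ := h75_riemann hx (D₀ + ((h75_genus K x : ℕ) : ℤ) • Finsupp.single P0 1)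
    rw [h6_degree_add_nsmul hx, hD₀, hbot, finrank_bot] at hle
    simp at hle
  have hmin : ∀ m : ℕ, m < Nat.find hex →
      ¬ riemannRochSpace (D₀ + (m : ℤ) • Finsupp.single P0 1) ≠ ⊥ :=
    fun m hm => Nat.find_min hex hm
  have hspec := Nat.find_spec hex
  set i := Nat.find hex with hi
  obtain ⟨f, hf, hf0⟩ := (Submodule.ne_bot_iff _).mp hspec
  refine ⟨i, f, Nat.find_min' hex ?_, hf0, hf, ?_⟩
  · intro hbot
    obtain ⟨hfin, hle⟩ := h75_riemann hx (D₀ + ((h75_genus K x : ℕ) : ℤ) • Finsupp.single P0 1)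
    rw [h6_degree_add_nsmul hx, hD₀, hbot, finrank_bot] at hle
    simp at hle
  · rcases Nat.eq_zero_or_pos i with h0 | hpos
    · apply h75_rr_eq_bot_of_neg hx
      rw [map_sub, h6_degree_add_nsmul hx, hD₀, Divisor.degree_single, h75_deg_eq_one hx P0, h0]
      simp
    · have hlt : i - 1 < i := Nat.sub_lt hpos Nat.one_pos
      have h1 := hmin _ hlt
      rw [not_not] at h1
      have h2 : D₀ + (i : ℤ) • Finsupp.single P0 1 - Finsupp.single P0 1 =
          D₀ + ((i - 1 : ℕ) : ℤ) • Finsupp.single P0 1 := by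
        rw [Nat.cast_sub hpos, sub_smul, Nat.cast_one, one_smul]
        abel
      rw [h2]
      exact h1

/-- **The canonical effective representative** of a class: existence and uniqueness. -/
theorem h6_exists_unique_rep {x : F} (hx : h75_IsChart K x) (P0 : Place K F) (c : Pic0 K F) :
    ∃ (i : ℕ) (A : Divisor K F), i ≤ h75_genus K x ∧ (∀ v, 0 ≤ A v) ∧
      Divisor.degree A = i ∧
      (∃ h : A - (i : ℤ) • Finsupp.single P0 1 ∈ Divisor.degZero (K := K) (F := F),
        Pic0.mk ⟨A - (i : ℤ) • Finsupp.single P0 1, h⟩ = c) ∧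
      ∀ A' : Divisor K F, (∀ v, 0 ≤ A' v) →
        ∀ h' : A' - (i : ℤ) • Finsupp.single P0 1 ∈ Divisor.degZero (K := K) (F := F),
          Pic0.mk ⟨A' - (i : ℤ) • Finsupp.single P0 1, h'⟩ = c → A' = A := by
  classical
  obtain ⟨⟨D₀, hD₀⟩, rfl⟩ := Pic0.mk_surjective c
  rw [Divisor.mem_degZero] at hD₀
  obtain ⟨i, f, hig, hf0, hf, hbot⟩ := h6_exists_canon hx P0 D₀ hD₀
  obtain ⟨Df, hDf⟩ := h7_exists_div hx f hf0
  have hdegDf := h7_degree_div hx hf0 Df hDf
  set E := D₀ + (i : ℤ) • Finsupp.single P0 1 with hE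
  clear_value E
  have hdegE : Divisor.degree E = i := by rw [hE, h6_degree_add_nsmul hx, hD₀, zero_add]
  have hAdeg : E + Df - (i : ℤ) • Finsupp.single P0 1 ∈ Divisor.degZero (K := K) (F := F) := by
    rw [Divisor.mem_degZero, map_sub, map_add, hdegE, hdegDf, map_zsmul, Divisor.degree_single,
      h75_deg_eq_one hx P0]
    simp
  refine ⟨i, E + Df, hig, ?_, by rw [map_add, hdegE, hdegDf, add_zero], ⟨hAdeg, ?_⟩, ?_⟩
  · intro v
    rw [Finsupp.add_apply, hDf v]
    have := ((mem_riemannRochSpace_iff.mp hf) v).resolve_left hf0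
    omega
  · rw [h6_mk_eq_mk_iff]
    refine ⟨f, hf0, fun v => ?_⟩
    show ((E + Df - (i : ℤ) • Finsupp.single P0 1 - D₀ : Divisor K F)) v = v.ord f
    rw [hE, ← hDf v]
    simp only [Finsupp.coe_sub, Finsupp.coe_add, Pi.sub_apply, Pi.add_apply]
    ring
  · intro A' hA' h' hc
    rw [h6_mk_eq_mk_iff] at hc
    obtain ⟨h, hh0, hh⟩ := hc
    have hA'v : ∀ v, A' v = E v + v.ord h := by
      intro v
      have := hh v
      have h2 : ((A' - (i : ℤ) • Finsupp.single P0 1 - D₀ : Divisor K F)) v = A' v - E v := by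
        rw [hE]
        simp only [Finsupp.coe_sub, Finsupp.coe_add, Pi.sub_apply, Pi.add_apply]
        ring
      rw [h2] at this
      omega
    have hhmem : h ∈ riemannRochSpace E := by
      rw [mem_riemannRochSpace_iff]
      intro v
      refine Or.inr ?_
      have := hA' v
      rw [hA'v v] at this
      omega
    obtain ⟨a, ha⟩ := h6_rr_line hx E P0 hbot hf hf0 hhmem
    have ha0 : algebraMap K F a ≠ 0 := by
      intro h0
      rw [h0, zero_mul] at ha
      exact hh0 ha
    ext v
    rw [hA'v v, Finsupp.add_apply, hDf v, ha, v.ord_mul ha0 hf0, h35_ord_algebraMap, zero_add]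

/-- **Stable representatives**: a class fixed by a set `G` of semilinear automorphisms which
fix the base place `P0` is represented by `A - i P0` with `A` effective of degree `i ≤ g`
and `g • A = A` for all `g ∈ G`. -/
theorem h6_exists_stable_rep {x : F} (hx : h75_IsChart K x) (P0 : Place K F)
    (G : Set (SemilinearAut K F)) (hP0 : ∀ g ∈ G, g • P0 = P0) (c : Pic0 K F)
    (hc : ∀ g ∈ G, g • c = c) :
    ∃ (i : ℕ) (A : Divisor K F), i ≤ h75_genus K x ∧ (∀ v, 0 ≤ A v) ∧
      Divisor.degree A = i ∧ (∀ g ∈ G, g • A = A) ∧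
      ∃ h : A - (i : ℤ) • Finsupp.single P0 1 ∈ Divisor.degZero (K := K) (F := F),
        Pic0.mk ⟨A - (i : ℤ) • Finsupp.single P0 1, h⟩ = c := by
  obtain ⟨i, A, hig, hA, hdeg, ⟨h, hmk⟩, huniq⟩ := h6_exists_unique_rep hx P0 c
  refine ⟨i, A, hig, hA, hdeg, fun g hg => ?_, h, hmk⟩
  have hsm : g • (A - (i : ℤ) • Finsupp.single P0 1) =
      g • A - (i : ℤ) • Finsupp.single P0 1 := by
    have h1 : g • ((i : ℤ) • (Finsupp.single P0 1 : Divisor K F)) =
        (i : ℤ) • g • (Finsupp.single P0 1 : Divisor K F) :=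
      map_zsmul (DistribSMul.toAddMonoidHom (Divisor K F) g) _ _
    rw [smul_sub, h1, SemilinearAut.smul_single, hP0 g hg]
  have h' : g • A - (i : ℤ) • Finsupp.single P0 1 ∈ Divisor.degZero (K := K) (F := F) := by
    rw [← hsm]
    exact SemilinearAut.smul_mem_degZero g h
  refine huniq (g • A) (fun v => ?_) h' ?_
  · rw [SemilinearAut.divisor_smul_apply]
    exact hA _
  · rw [← hc g hg, ← hmk, SemilinearAut.pic0_smul_mk]
    congr 1
    apply Subtype.ext
    rw [SemilinearAut.coe_degZeroSMulHom]
    exact hsm.symm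

end Fermat.Agent.S17
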