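import Mathlib
import Fermat.Prelude.Def_ModularCurve_ArithmeticGalois
import Fermat.Prelude.Def_AlgebraicCurve_Repartitions

/-!
# S17 foundation: Galois descent for coordinate spaces

`K / k` a field extension such that every element of `K` fixed by all `k`-automorphisms of `K`
lies in `k` (e.g. a Galois extension, `ℚ̄ / ℚ`).  A finite-dimensional `K`-subspace `V` of a
coordinate space `ι → K` (any index type `ι`) which is stable under the coordinatewise action of
every automorphism has a `K`-basis consisting of vectors with coordinates in `k`.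

Proof: choose `finrank`-many coordinates on which `V` projects isomorphically; the dual basis
is unique, hence fixed by every automorphism.  No Hilbert 90, no continuity.
-/

set_option autoImplicit false

noncomputable section

namespace Fermat.Agent.S17

section Generic

variable {k K : Type*} [Field k] [Field K] [Algebra k K] {ι : Type*}

/-- A finite-dimensional subspace of a coordinate space projects isomorphically onto
`finrank`-many suitable coordinates. -/
theorem h35_exists_coords (V : Submodule K (ι → K)) [FiniteDimensional K V] :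
    ∃ J : Fin (Module.finrank K V) → ι,
      Function.Bijective
        (fun (v : V) (j : Fin (Module.finrank K V)) => (v : ι → K) (J j)) := by
  classical
  let ev : ι → Module.Dual K V := fun i => (LinearMap.proj i).comp V.subtype
  have hev : ∀ i (v : V), ev i v = (v : ι → K) i := fun i v => rfl
  let Φ : Submodule K (Module.Dual K V) := Submodule.span K (Set.range ev)
  have hco : Φ.dualCoannihilator = ⊥ := by
    rw [eq_bot_iff]
    intro v hv
    rw [Submodule.mem_dualCoannihilator] at hv
    have h0 : (v : ι → K) = 0 := by
      funext i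
      exact hv (ev i) (Submodule.subset_span ⟨i, rfl⟩)
    rw [Submodule.mem_bot]
    exact Subtype.ext h0
  have hΦ : Φ = ⊤ := by
    have h1 := Subspace.finrank_add_finrank_dualCoannihilator_eq Φ
    rw [hco, finrank_bot, add_zero] at h1
    apply Submodule.eq_top_of_finrank_eq
    rw [h1, Subspace.dual_finrank_eq]
  obtain ⟨b, hb1, hb2, hb3⟩ := exists_linearIndependent K (Set.range ev)
  have hb2' : Submodule.span K b = ⊤ := hb2.trans hΦ
  let B : Module.Basis b K (Module.Dual K V) :=
    Module.Basis.mk hb3 (by rw [Subtype.range_coe]; exact hb2'.ge)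
  have : Finite b := Module.Finite.finite_basis B
  let _ : Fintype b := Fintype.ofFinite b
  have hcard : Fintype.card b = Module.finrank K V := by
    rw [← Module.finrank_eq_card_basis B, Subspace.dual_finrank_eq]
  let e : Fin (Module.finrank K V) ≃ b := (Fintype.equivFinOfCardEq hcard).symm
  have hg : ∀ x : b, ∃ i, ev i = (x : Module.Dual K V) := fun x => hb1 x.2
  choose g hg using hg
  refine ⟨fun j => g (e j), ?_⟩
  let π : V →ₗ[K] (Fin (Module.finrank K V) → K) := LinearMap.pi (fun j => ev (g (e j)))
  have hπ : (fun (v : V) (j : Fin (Module.finrank K V)) => (v : ι → K) (g (e j))) = π := by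
    funext v j
    rfl
  rw [hπ]
  have hinj : Function.Injective π := by
    rw [← LinearMap.ker_eq_bot, eq_bot_iff]
    intro v hv
    rw [LinearMap.mem_ker] at hv
    rw [Submodule.mem_bot]
    rw [← Module.forall_dual_apply_eq_zero_iff K v]
    intro φ
    have hφ : φ ∈ Submodule.span K b := by rw [hb2']; trivial
    induction hφ using Submodule.span_induction with
    | mem x hx =>
        have h1 := congrFun hv (e.symm ⟨x, hx⟩)
        have h2 : π v (e.symm ⟨x, hx⟩) = ev (g (e (e.symm ⟨x, hx⟩))) v := rfl
        rw [h2, Equiv.apply_symm_apply, hg] at h1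
        exact h1
    | zero => rfl
    | add x y _ _ hx hy => rw [LinearMap.add_apply, hx, hy, add_zero]
    | smul a x _ hx => rw [LinearMap.smul_apply, hx, smul_zero]
  refine ⟨hinj, ?_⟩
  exact (LinearMap.injective_iff_surjective_of_finrank_eq_finrank
    (by rw [Module.finrank_fin_fun])).mp hinj

/-- **Galois descent for coordinate spaces.** -/
theorem h35_descent_basis
    (hfix : ∀ x : K, (∀ σ : K ≃ₐ[k] K, σ x = x) → x ∈ Set.range (algebraMap k K))
    (V : Submodule K (ι → K)) [FiniteDimensional K V]
    (hV : ∀ (σ : K ≃ₐ[k] K), ∀ v ∈ V, (fun i => σ (v i)) ∈ V) :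
    ∃ b : Fin (Module.finrank K V) → ι → k,
      LinearIndependent K (fun j => (fun i => algebraMap k K (b j i))) ∧
      Submodule.span K (Set.range fun j => (fun i => algebraMap k K (b j i))) = V := by
  classical
  obtain ⟨J, hJ⟩ := h35_exists_coords V
  -- the dual basis
  have hw : ∀ j : Fin (Module.finrank K V), ∃ w : V,
      (fun j' : Fin (Module.finrank K V) => (w : ι → K) (J j')) = Pi.single j (1 : K) :=
    fun j => hJ.2 (Pi.single j 1)
  choose w hw using hw
  -- every coordinate of `w j` is fixed
  have hfixed : ∀ (j : Fin (Module.finrank K V)) (σ : K ≃ₐ[k] K) (i : ι),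
      σ ((w j : ι → K) i) = (w j : ι → K) i := by
    intro j σ i
    have hmem : (fun i => σ ((w j : ι → K) i)) ∈ V := hV σ _ (w j).2
    have heq : (⟨_, hmem⟩ : V) = w j := by
      apply hJ.1
      funext j'
      show σ ((w j : ι → K) (J j')) = (w j : ι → K) (J j')
      have h1 : (w j : ι → K) (J j') =
          (Pi.single j (1 : K) : Fin (Module.finrank K V) → K) j' := congrFun (hw j) j'
      rw [h1]
      by_cases hjj : j' = j
      · subst hjj
        rw [Pi.single_eq_same, map_one]
      · rw [Pi.single_eq_of_ne hjj, map_zero]
    exact congrFun (congrArg Subtype.val heq) i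
  have hb : ∀ (j : Fin (Module.finrank K V)) (i : ι), ∃ c : k,
      algebraMap k K c = (w j : ι → K) i :=
    fun j i => hfix _ (fun σ => hfixed j σ i)
  choose b hb using hb
  have hbw : (fun j => (fun i => algebraMap k K (b j i))) = fun j => (w j : ι → K) := by
    funext j i
    exact hb j i
  have hli : LinearIndependent K w := by
    let π : V →ₗ[K] (Fin (Module.finrank K V) → K) :=
      LinearMap.pi (fun j => (LinearMap.proj (J j)).comp V.subtype)
    have hπw : ∀ j, π (w j) = Pi.single j (1 : K) := fun j => hw j
    have h1 : LinearIndependent K (fun j => π (w j)) := by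
      have h2 : (fun j => π (w j)) = fun j => Pi.single j (1 : K) := funext hπw
      rw [h2]
      exact Pi.linearIndependent_single_one (Fin (Module.finrank K V)) K
    exact LinearIndependent.of_comp π h1
  refine ⟨b, ?_, ?_⟩
  · rw [hbw]
    exact hli.map' V.subtype (Submodule.ker_subtype V)
  · rw [hbw]
    have hspan : Submodule.span K (Set.range w) = ⊤ :=
      hli.span_eq_top_of_card_eq_finrank' (by simp)
    have h3 : Set.range (fun j => (w j : ι → K)) = V.subtype '' Set.range w := by
      rw [← Set.range_comp]
      rfl
    rw [h3, Submodule.span_image, hspan, Submodule.map_top, Submodule.range_subtype]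

/-- Galois descent for coordinate spaces, for a Galois extension (finite or infinite). -/
theorem h35_descent_basis_galois [IsGalois k K]
    (V : Submodule K (ι → K)) [FiniteDimensional K V]
    (hV : ∀ (σ : K ≃ₐ[k] K), ∀ v ∈ V, (fun i => σ (v i)) ∈ V) :
    ∃ b : Fin (Module.finrank K V) → ι → k,
      LinearIndependent K (fun j => (fun i => algebraMap k K (b j i))) ∧
      Submodule.span K (Set.range fun j => (fun i => algebraMap k K (b j i))) = V :=
  h35_descent_basis
    (fun x hx => (InfiniteGalois.mem_range_algebraMap_iff_fixed x).mpr hx) V hV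

/-- The `k`-rational basis of the descent is `k`-linearly independent. -/
theorem h35_linearIndependent_of_map {n : ℕ} (b : Fin n → ι → k)
    (h : LinearIndependent K (fun j => (fun i => algebraMap k K (b j i)))) :
    LinearIndependent k b := by
  rw [Fintype.linearIndependent_iff] at h ⊢
  intro c hc j
  have h1 := h (fun j => algebraMap k K (c j)) (by
    funext i
    have h2 := congrFun hc i
    simp only [Finset.sum_apply, Pi.smul_apply, smul_eq_mul, Pi.zero_apply] at h2 ⊢
    rw [← map_zero (algebraMap k K), ← h2, map_sum]
    exact Finset.sum_congr rfl fun j _ => (map_mul _ _ _).symm) j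
  exact (algebraMap k K).injective (by rw [h1, map_zero])

end Generic

section Laurent

open ModularCurve

variable {L : Type*} [Field L] [Algebra ℚ L]

/-- the coefficient map `LaurentSeries L → (ℤ → L)` as a linear map -/
def h35_coeffLin (L : Type*) [Field L] : LaurentSeries L →ₗ[L] (ℤ → L) where
  toFun x := x.coeff
  map_add' x y := by funext i; simp
  map_smul' c x := by funext i; simp

omit [Algebra ℚ L] in
theorem h35_coeffLin_apply (x : LaurentSeries L) (i : ℤ) : h35_coeffLin L x i = x.coeff i := rfl

omit [Algebra ℚ L] in
theorem h35_coeffLin_injective : Function.Injective (h35_coeffLin L) := by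
  intro x y h
  ext i
  exact congrFun h i

/-- **Galois descent for Laurent series**: a finite-dimensional subspace of `L((q))` stable under
the coefficientwise action of `Gal(L/ℚ)` (`L/ℚ` Galois, e.g. `L = ℚ̄`) has a basis of series
with rational coefficients. -/
theorem h35_descent_laurent [IsGalois ℚ L]
    (V : Submodule L (LaurentSeries L)) [FiniteDimensional L V]
    (hV : ∀ (σ : L ≃ₐ[ℚ] L), ∀ v ∈ V, coeffMap (σ : L →+* L) v ∈ V) :
    ∃ b : Fin (Module.finrank L V) → LaurentSeries ℚ,
      LinearIndependent L (fun j => coeffEmb L (b j)) ∧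
      Submodule.span L (Set.range fun j => coeffEmb L (b j)) = V := by
  classical
  let V' : Submodule L (ℤ → L) := V.map (h35_coeffLin L)
  have hfr : Module.finrank L V' = Module.finrank L V :=
    (Submodule.equivMapOfInjective (h35_coeffLin L) h35_coeffLin_injective V).finrank_eq.symm
  have : FiniteDimensional L V' :=
    LinearEquiv.finiteDimensional
      (Submodule.equivMapOfInjective (h35_coeffLin L) h35_coeffLin_injective V)
  have hV' : ∀ (σ : L ≃ₐ[ℚ] L), ∀ v ∈ V', (fun i => σ (v i)) ∈ V' := by
    rintro σ _ ⟨x, hx, rfl⟩
    exact ⟨coeffMap (σ : L →+* L) x, hV σ x hx, rfl⟩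
  obtain ⟨b', hb1, hb2⟩ := h35_descent_basis_galois V' hV'
  -- each basis vector is the coefficient vector of an element of `V`
  have hx : ∀ j : Fin (Module.finrank L V'), ∃ x : LaurentSeries L, x ∈ V ∧
      h35_coeffLin L x = fun i => algebraMap ℚ L (b' j i) := by
    intro j
    have hmem : (fun i => algebraMap ℚ L (b' j i)) ∈ V' := by
      rw [← hb2]
      exact Submodule.subset_span ⟨j, rfl⟩
    obtain ⟨x, hx, hxe⟩ := hmem
    exact ⟨x, hx, hxe⟩
  choose x hxV hxc using hx
  have hsupp : ∀ j, Function.support (b' j) = (x j).support := by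
    intro j
    ext i
    have h1 := congrFun (hxc j) i
    rw [h35_coeffLin_apply] at h1
    rw [Function.mem_support, HahnSeries.mem_support, h1]
    constructor
    · intro h h0
      exact h ((algebraMap ℚ L).injective (by rw [h0, map_zero]))
    · intro h h0
      exact h (by rw [h0, map_zero])
  let z : Fin (Module.finrank L V') → LaurentSeries ℚ := fun j =>
    ⟨b' j, by rw [hsupp j]; exact (x j).isPWO_support⟩
  have hz : ∀ j, coeffEmb L (z j) = x j := by
    intro j
    ext i
    have h1 := congrFun (hxc j) i
    rw [h35_coeffLin_apply] at h1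
    rw [coeffEmb_coeff, h1]
  let e : Fin (Module.finrank L V) ≃ Fin (Module.finrank L V') := finCongr hfr.symm
  refine ⟨fun j => z (e j), ?_, ?_⟩
  · have h1 : LinearIndependent L (fun j => coeffEmb L (z j)) := by
      apply LinearIndependent.of_comp (h35_coeffLin L)
      have h2 : (⇑(h35_coeffLin L) ∘ fun j => coeffEmb L (z j)) =
          fun j => (fun i => algebraMap ℚ L (b' j i)) := by
        funext j
        show h35_coeffLin L (coeffEmb L (z j)) = _
        rw [hz, hxc]
      rw [h2]
      exact hb1
    exact h1.comp e e.injective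
  · have h1 : Set.range (fun j => coeffEmb L (z (e j))) = Set.range (fun j => coeffEmb L (z j)) :=
      e.surjective.range_comp (fun j => coeffEmb L (z j))
    rw [h1]
    apply Submodule.map_injective_of_injective (f := h35_coeffLin L) h35_coeffLin_injective
    rw [Submodule.map_span, ← Set.range_comp]
    have h2 : (⇑(h35_coeffLin L) ∘ fun j => coeffEmb L (z j)) =
        fun j => (fun i => algebraMap ℚ L (b' j i)) := by
      funext j
      show h35_coeffLin L (coeffEmb L (z j)) = _
      rw [hz, hxc]
    rw [h2, hb2]

end Laurent

section FunctionField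

open ModularCurve AlgebraicCurve

variable {L : Type*} [Field L] [Algebra ℚ L]
variable (F₀ : IntermediateField ℚ (LaurentSeries ℚ))

/-- **Galois descent in the arithmetic function field**: a finite-dimensional `L`-subspace of
`laurentBaseChange L F₀` stable under the arithmetic Galois action has a basis of Galois-fixed
functions, each with rational `q`-expansion. -/
theorem h35_descent_functionField [IsGalois ℚ L]
    (W : Submodule L (laurentBaseChange L F₀)) [FiniteDimensional L W]
    (hW : ∀ (σ : L ≃ₐ[ℚ] L), ∀ w ∈ W, arithmeticGalois F₀ σ • w ∈ W) :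
    ∃ b : Fin (Module.finrank L W) → laurentBaseChange L F₀,
      (∀ j, b j ∈ W) ∧
      (∀ j (σ : L ≃ₐ[ℚ] L), arithmeticGalois F₀ σ • b j = b j) ∧
      (∀ j, ∃ z : LaurentSeries ℚ, ((b j : laurentBaseChange L F₀) : LaurentSeries L) =
        coeffEmb L z) ∧
      LinearIndependent L b ∧ Submodule.span L (Set.range b) = W := by
  classical
  let ι : laurentBaseChange L F₀ →ₗ[L] LaurentSeries L :=
    { toFun := fun x => (x : LaurentSeries L)
      map_add' := fun _ _ => rfl
      map_smul' := fun c x => by
        show ((c • x : laurentBaseChange L F₀) : LaurentSeries L) = c • (x : LaurentSeries L)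
        rw [IntermediateField.coe_smul, Algebra.smul_def,
          ModularCurve.algebraMap_laurentSeries_eq_single]
        show HahnSeries.C c * (x : LaurentSeries L) = c • (x : LaurentSeries L)
        rw [HahnSeries.C_mul_eq_smul] }
  have hι : Function.Injective ι := fun x y h => Subtype.ext h
  let V : Submodule L (LaurentSeries L) := W.map ι
  have hfr : Module.finrank L V = Module.finrank L W :=
    (Submodule.equivMapOfInjective ι hι W).finrank_eq.symm
  have : FiniteDimensional L V :=
    LinearEquiv.finiteDimensional (Submodule.equivMapOfInjective ι hι W)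
  have hV : ∀ (σ : L ≃ₐ[ℚ] L), ∀ v ∈ V, coeffMap (σ : L →+* L) v ∈ V := by
    rintro σ _ ⟨w, hw, rfl⟩
    exact ⟨arithmeticGalois F₀ σ • w, hW σ w hw, rfl⟩
  obtain ⟨z, hz1, hz2⟩ := h35_descent_laurent V hV
  have hw : ∀ j : Fin (Module.finrank L V), ∃ w : laurentBaseChange L F₀, w ∈ W ∧
      ι w = coeffEmb L (z j) := by
    intro j
    have hmem : coeffEmb L (z j) ∈ V := by
      rw [← hz2]
      exact Submodule.subset_span ⟨j, rfl⟩
    exact hmem
  choose w hwW hwz using hw
  let e : Fin (Module.finrank L W) ≃ Fin (Module.finrank L V) := finCongr hfr.symm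
  have hcomp : (⇑ι ∘ w) = fun j => coeffEmb L (z j) := funext hwz
  refine ⟨fun j => w (e j), fun j => hwW _, ?_, fun j => ⟨z (e j), hwz _⟩, ?_, ?_⟩
  · intro j σ
    apply Subtype.ext
    rw [coe_arithmeticGalois_smul]
    have h1 : ((w (e j) : laurentBaseChange L F₀) : LaurentSeries L) = coeffEmb L (z (e j)) :=
      hwz _
    rw [h1, coeffMap_coeffEmb]
  · have h1 : LinearIndependent L w := by
      apply LinearIndependent.of_comp ι
      rw [hcomp]
      exact hz1
    exact h1.comp e e.injective
  · have h1 : Set.range (fun j => w (e j)) = Set.range w := e.surjective.range_comp w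
    rw [h1]
    apply Submodule.map_injective_of_injective (f := ι) hι
    rw [Submodule.map_span, ← Set.range_comp, hcomp, hz2]

end FunctionField

section RR

open AlgebraicCurve

variable {K F : Type*} [Field K] [Field F] [Algebra K F]

/-- A semilinear automorphism maps `L(D)` onto `L(g • D)`. -/
theorem h35_smul_mem_rr (g : SemilinearAut K F) (D : Divisor K F) {f : F}
    (hf : f ∈ riemannRochSpace D) : g • f ∈ riemannRochSpace (g • D) := by
  rw [mem_riemannRochSpace_iff] at hf ⊢
  intro v
  have hv : g • (g⁻¹ • v) = v := smul_inv_smul g v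
  rcases hf (g⁻¹ • v) with h0 | h1
  · left
    rw [h0, smul_zero]
  · right
    rw [← hv, SemilinearAut.divisor_smul_apply_smul, SemilinearAut.ord_smul]
    exact h1

/-- If `g` fixes `D` then `L(D)` is stable under `g`. -/
theorem h35_smul_mem_rr_of_fix (g : SemilinearAut K F) (D : Divisor K F) (hD : g • D = D)
    {f : F} (hf : f ∈ riemannRochSpace D) : g • f ∈ riemannRochSpace D := by
  have := h35_smul_mem_rr g D hf
  rwa [hD] at this

end RR

section RRDescent

open ModularCurve AlgebraicCurve

variable {L : Type*} [Field L] [Algebra ℚ L]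
variable (F₀ : IntermediateField ℚ (LaurentSeries ℚ))

/-- **Rational bases of Riemann–Roch spaces**: for a divisor `D` of the arithmetic function field
fixed by the Galois action, `L(D)` (if finite-dimensional) has a basis of Galois-fixed functions
with rational `q`-expansions. -/
theorem h35_rr_rational_basis [IsGalois ℚ L] (D : Divisor L (laurentBaseChange L F₀))
    [FiniteDimensional L (riemannRochSpace D)]
    (hD : ∀ σ : L ≃ₐ[ℚ] L, arithmeticGalois F₀ σ • D = D) :
    ∃ b : Fin (Module.finrank L (riemannRochSpace D)) → laurentBaseChange L F₀,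
      (∀ j, b j ∈ riemannRochSpace D) ∧
      (∀ j (σ : L ≃ₐ[ℚ] L), arithmeticGalois F₀ σ • b j = b j) ∧
      (∀ j, ∃ z : LaurentSeries ℚ, ((b j : laurentBaseChange L F₀) : LaurentSeries L) =
        coeffEmb L z) ∧
      LinearIndependent L b ∧ Submodule.span L (Set.range b) = riemannRochSpace D :=
  h35_descent_functionField F₀ (riemannRochSpace D)
    (fun σ _ hw => h35_smul_mem_rr_of_fix (arithmeticGalois F₀ σ) D (hD σ) hw)

end RRDescent

section CoordsAbs

variable {k K : Type*} [Field k] [Field K] [Algebra k K]

/-- **Galois-stable subspaces are rational in the coordinates of a fixed basis** (abstract form):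
`M` a `K`-vector space with a semilinear action `act` of `Gal(K/k)`, `b` a linearly independent
family of fixed vectors, `W ≤ span b` a stable subspace.  Then `W` has a basis of `k`-rational
linear combinations of the `b i`. -/
theorem h35_descent_coords_abs [IsGalois k K] {M : Type*} [AddCommGroup M] [Module K M]
    (act : (K ≃ₐ[k] K) → M → M)
    (hact_add : ∀ σ x y, act σ (x + y) = act σ x + act σ y)
    (hact_smul : ∀ σ (a : K) x, act σ (a • x) = σ a • act σ x)
    {n : ℕ} (b : Fin n → M) (hb : LinearIndependent K b)
    (hbfix : ∀ j σ, act σ (b j) = b j)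
    (W : Submodule K M) (hWb : W ≤ Submodule.span K (Set.range b))
    (hW : ∀ σ, ∀ w ∈ W, act σ w ∈ W) :
    ∃ c : Fin (Module.finrank K W) → Fin n → k,
      LinearIndependent K (fun j => ∑ i, (algebraMap k K (c j i)) • b i) ∧
      Submodule.span K (Set.range fun j => ∑ i, (algebraMap k K (c j i)) • b i) = W := by
  classical
  obtain ⟨T, hT⟩ : ∃ T : (Fin n → K) →ₗ[K] M, ∀ a : Fin n → K, T a = ∑ i, a i • b i :=
    ⟨Fintype.linearCombination K b, fun a => Fintype.linearCombination_apply K b a⟩
  have hact_sum : ∀ σ (a : Fin n → K), act σ (T a) = T (fun i => σ (a i)) := by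
    intro σ a
    rw [hT, hT]
    have hgen : ∀ s : Finset (Fin n),
        act σ (∑ i ∈ s, a i • b i) = ∑ i ∈ s, σ (a i) • b i := by
      intro s
      induction s using Finset.induction_on with
      | empty =>
          simp only [Finset.sum_empty]
          have h0 := hact_smul σ 0 (0 : M)
          rw [zero_smul, map_zero, zero_smul] at h0
          exact h0
      | insert i s hi ih =>
          rw [Finset.sum_insert hi, Finset.sum_insert hi, hact_add, ih, hact_smul, hbfix]
    exact hgen Finset.univ
  have hTinj : Function.Injective T := by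
    rw [← LinearMap.ker_eq_bot, eq_bot_iff]
    intro a ha
    rw [LinearMap.mem_ker, hT] at ha
    rw [Submodule.mem_bot]
    funext i
    exact (Fintype.linearIndependent_iff.mp hb) a ha i
  have hTsurj : ∀ x ∈ W, ∃ a : Fin n → K, T a = x := by
    intro x hx
    have h1 : x ∈ Submodule.span K (Set.range b) := hWb hx
    rw [← Fintype.range_linearCombination] at h1
    obtain ⟨a, rfl⟩ := h1
    exact ⟨a, by rw [hT, Fintype.linearCombination_apply]⟩
  obtain ⟨V', hV'def⟩ : ∃ V' : Submodule K (Fin n → K), ∀ a, a ∈ V' ↔ T a ∈ W :=
    ⟨W.comap T, fun a => Iff.rfl⟩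
  have hfr : Module.finrank K V' = Module.finrank K W := by
    let f : V' →ₗ[K] W := T.restrict (fun a ha => (hV'def a).mp ha)
    have hf1 : Function.Injective f := fun x y h =>
      Subtype.ext (hTinj (congrArg Subtype.val h))
    have hf2 : Function.Surjective f := by
      rintro ⟨x, hx⟩
      obtain ⟨a, rfl⟩ := hTsurj x hx
      exact ⟨⟨a, (hV'def a).mpr hx⟩, rfl⟩
    exact (LinearEquiv.ofBijective f ⟨hf1, hf2⟩).finrank_eq
  have hV' : ∀ (σ : K ≃ₐ[k] K), ∀ v ∈ V', (fun i => σ (v i)) ∈ V' := by
    intro σ v hv
    rw [hV'def] at hv ⊢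
    rw [← hact_sum]
    exact hW σ _ hv
  have hfin : FiniteDimensional K V' :=
    Module.Finite.of_injective V'.subtype (Submodule.injective_subtype V')
  obtain ⟨c', hc1, hc2⟩ := h35_descent_basis_galois V' hV'
  obtain ⟨w, hwdef⟩ : ∃ w : Fin (Module.finrank K V') → M,
      ∀ j, w j = T (fun i => algebraMap k K (c' j i)) := ⟨_, fun j => rfl⟩
  have hw1 : LinearIndependent K w := by
    have h1 := hc1.map' T (LinearMap.ker_eq_bot.mpr hTinj)
    have h2 : w = ⇑T ∘ fun j => (fun i => algebraMap k K (c' j i)) := funext hwdef
    rw [h2]
    exact h1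
  have hmemV' : ∀ j, (fun i => algebraMap k K (c' j i)) ∈ V' := by
    intro j
    rw [← hc2]
    exact Submodule.subset_span ⟨j, rfl⟩
  have hw2 : Submodule.span K (Set.range w) = W := by
    apply le_antisymm
    · rw [Submodule.span_le]
      rintro _ ⟨j, rfl⟩
      rw [hwdef]
      exact (hV'def _).mp (hmemV' j)
    · have key : ∀ a ∈ Submodule.span K (Set.range fun j => (fun i => algebraMap k K (c' j i))),
          T a ∈ Submodule.span K (Set.range w) := by
        intro a ha
        induction ha using Submodule.span_induction with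
        | mem y hy =>
            obtain ⟨j, rfl⟩ := hy
            rw [← hwdef]
            exact Submodule.subset_span ⟨j, rfl⟩
        | zero => rw [map_zero]; exact Submodule.zero_mem _
        | add y z _ _ hy hz => rw [map_add]; exact Submodule.add_mem _ hy hz
        | smul r y _ hy => rw [map_smul]; exact Submodule.smul_mem _ r hy
      intro x hx
      obtain ⟨a, rfl⟩ := hTsurj x hx
      have ha : a ∈ V' := (hV'def a).mpr hx
      rw [← hc2] at ha
      exact key a ha
  obtain ⟨e, -⟩ : ∃ e : Fin (Module.finrank K W) ≃ Fin (Module.finrank K V'), True :=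
    ⟨finCongr hfr.symm, trivial⟩
  have hwe : ∀ j, w (e j) = ∑ i, (algebraMap k K (c' (e j) i)) • b i := fun j => by
    rw [hwdef, hT]
  have h2 : (fun j => ∑ i, (algebraMap k K (c' (e j) i)) • b i) = w ∘ e :=
    funext fun j => (hwe j).symm
  refine ⟨fun j => c' (e j), ?_, ?_⟩
  · rw [h2]
    exact hw1.comp e e.injective
  · rw [h2, e.surjective.range_comp w]
    exact hw2

end CoordsAbs

section Coords

open ModularCurve AlgebraicCurve

variable {L : Type*} [Field L] [Algebra ℚ L]
variable (F₀ : IntermediateField ℚ (LaurentSeries ℚ))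

set_option synthInstance.maxHeartbeats 400000 in
/-- semilinearity of the arithmetic Galois action -/
theorem h35_arith_smul_smul (σ : L ≃ₐ[ℚ] L) (a : L) (x : laurentBaseChange L F₀) :
    arithmeticGalois F₀ σ • (a • x) = σ a • (arithmeticGalois F₀ σ • x) := by
  rw [Algebra.smul_def, Algebra.smul_def, smul_mul', SemilinearAut.smul_algebraMap]
  rfl

set_option synthInstance.maxHeartbeats 400000 in
set_option maxHeartbeats 1000000 in
/-- **Galois-stable subspaces are rational in the coordinates of a fixed basis**: if `b` is a
linearly independent family of Galois-fixed functions and `W ≤ span b` is Galois-stable, then `W`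
has a basis of RATIONAL linear combinations of the `b i`. -/
theorem h35_descent_coords [IsGalois ℚ L] {n : ℕ} (b : Fin n → laurentBaseChange L F₀)
    (hb : LinearIndependent L b)
    (hbfix : ∀ j (σ : L ≃ₐ[ℚ] L), arithmeticGalois F₀ σ • b j = b j)
    (W : Submodule L (laurentBaseChange L F₀)) (hWb : W ≤ Submodule.span L (Set.range b))
    (hW : ∀ (σ : L ≃ₐ[ℚ] L), ∀ w ∈ W, arithmeticGalois F₀ σ • w ∈ W) :
    ∃ c : Fin (Module.finrank L W) → Fin n → ℚ,
      LinearIndependent L (fun j => ∑ i, (algebraMap ℚ L (c j i)) • b i) ∧
      Submodule.span L (Set.range fun j => ∑ i, (algebraMap ℚ L (c j i)) • b i) = W :=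
  h35_descent_coords_abs (fun σ x => arithmeticGalois F₀ σ • x)
    (fun _ x y => smul_add _ x y) (fun σ a x => h35_arith_smul_smul F₀ σ a x)
    b hb hbfix W hWb hW

end Coords

section Values

open AlgebraicCurve

variable {K F : Type*} [Field K] [Field F] [Algebra K F]

/-- **Values are Galois-equivariant**: if `f` has the value `b` at `P` (in the sense of the S18
predicate `h39_Val`, written out), then `g • f` has the value `g b` at `g • P`. -/
theorem h35_val_smul (g : SemilinearAut K F) (P : Place K F) (f : F) (b : K)
    (h : f = algebraMap K F b ∨ 0 < P.ord (f - algebraMap K F b)) :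
    g • f = algebraMap K F (SemilinearAut.baseAut g b) ∨
      0 < (g • P).ord (g • f - algebraMap K F (SemilinearAut.baseAut g b)) := by
  rcases h with h | h
  · left
    rw [h, SemilinearAut.smul_algebraMap]
  · right
    rw [← SemilinearAut.smul_algebraMap, ← smul_sub, SemilinearAut.ord_smul]
    exact h

/-- the pole order is Galois-equivariant (restatement of the prelude `ord_smul`) -/
theorem h35_ord_smul_inv (g : SemilinearAut K F) (P : Place K F) (f : F) :
    P.ord (g • f) = (g⁻¹ • P).ord f := by
  have h := SemilinearAut.ord_smul (g := g) (v := g⁻¹ • P) f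
  rwa [smul_inv_smul] at h

end Values

end Fermat.Agent.S17
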