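import Mathlib
import Fermat.Prelude.Def_AlgebraicCurve_BaseChangeGalois
import Fermat.Agent.S27.RRFull
import Fermat.Agent.S27.h92_Eval
import Fermat.Agent.S17.h55_Places

/-!
# S17 height block (route R55): the frame and the definitions

A *frame* `fr : h55_Frame F` is a function field `F` over `ℚ̄` with a chart, a semilinear action
of `Gal(ℚ̄/ℚ)`, a Galois-fixed place `fr.inf` ("the rational cusp") and, for every `M`, a basis
`fr.b M` of `L(M·inf)` consisting of Galois-fixed functions.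

Definitions (no proofs needed, no choices hidden):

* `fr.V M = L(M·inf)`, `fr.vec M c = ∑ c i • b M i`, `fr.pt M P = (b M i (P))_i`,
  `fr.E M P` the evaluation matrix of a tuple of places, `h55_mn w E` the max of the maximal
  minors at the place `w`, `fr.Gloc M w P = log ‖E‖_w`, `fr.G M P = ∑_w fr.Gloc M w P`;
* `fr.dist M0 w P Q` the chordal distance, `fr.pair M0 A B = -∑_w ∑_{i,j} log dist`;
* `fr.IsAdm`, `fr.IsStable`, `h55_dv`, `fr.IsPair e c A B s`, `fr.qraw M e A B s`.
-/

set_option autoImplicit false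

open AlgebraicCurve

namespace Fermat.Agent.S17

open Fermat.Agent.S18 Fermat.Agent.S27

local notation "Qbar" => AlgebraicClosure ℚ
local notation "GQ" => (AlgebraicClosure ℚ ≃ₐ[ℚ] AlgebraicClosure ℚ)

/-- The maximum of the absolute values at `w` of the `r × r` minors of an `r × n` matrix
(minors indexed by ALL maps `Fin r → Fin n`; equal to `1` for `r = 0`). -/
noncomputable def h55_mn (w : h55_Pl) {r n : ℕ} (E : Matrix (Fin r) (Fin n) Qbar) : ℝ :=
  ⨆ f : Fin r → Fin n, h55_av w ((E.submatrix id f).det)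

/-- the divisor `∑ P_j` of a tuple of places -/
noncomputable def h55_dv {F : Type} [Field F] [Algebra Qbar F] {a : ℕ}
    (P : Fin a → Place Qbar F) : Divisor Qbar F :=
  ∑ j, Finsupp.single (P j) (1 : ℤ)

/-- A pointed curve over `ℚ̄` with a `ℚ`-structure. -/
structure h55_Frame (F : Type) [Field F] [Algebra Qbar F] where
  /-- a chart (for the Riemann–Roch library) -/
  x : F
  chart : h75_IsChart Qbar x
  /-- the semilinear Galois action -/
  act : GQ →* SemilinearAut Qbar F
  base : ∀ σ : GQ, SemilinearAut.baseAut (act σ) = σ.toRingEquiv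
  /-- the rational point -/
  inf : Place Qbar F
  inf_fix : ∀ σ : GQ, act σ • inf = inf
  /-- `n M = dim L(M·inf)` -/
  n : ℕ → ℕ
  /-- Galois-fixed bases of the spaces `L(M·inf)` -/
  b : (M : ℕ) → Fin (n M) → F
  b_fix : ∀ (M : ℕ) (i : Fin (n M)) (σ : GQ), act σ • b M i = b M i
  b_li : ∀ M : ℕ, LinearIndependent Qbar (b M)
  b_span : ∀ M : ℕ, Submodule.span Qbar (Set.range (b M)) =
    riemannRochSpace ((M : ℤ) • Finsupp.single inf (1 : ℤ))

namespace h55_Frame

variable {F : Type} [Field F] [Algebra Qbar F] (fr : h55_Frame F)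

/-- the genus -/
noncomputable def g : ℕ := h75_genus Qbar fr.x

/-- `V_M = L(M·inf)` -/
noncomputable def V (M : ℕ) : Submodule Qbar F :=
  riemannRochSpace ((M : ℤ) • Finsupp.single fr.inf (1 : ℤ))

/-- the function in `V_M` with coordinate vector `c` -/
noncomputable def vec (M : ℕ) (c : Fin (fr.n M) → Qbar) : F := ∑ i, c i • fr.b M i

/-- the coordinate vector `(b M i (P))_i` of a place `P ≠ inf` -/
noncomputable def pt (M : ℕ) (P : Place Qbar F) : Fin (fr.n M) → Qbar :=
  fun i => h92_ev P (fr.b M i)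

/-- the evaluation matrix of a tuple of places -/
noncomputable def E (M : ℕ) {a : ℕ} (P : Fin a → Place Qbar F) :
    Matrix (Fin a) (Fin (fr.n M)) Qbar :=
  Matrix.of fun j i => h92_ev (P j) (fr.b M i)

/-- the local term `log ‖E_M(P)‖_w` -/
noncomputable def Gloc (M : ℕ) (w : h55_Pl) {a : ℕ} (P : Fin a → Place Qbar F) : ℝ :=
  Real.log (h55_mn w (fr.E M P))

/-- `G_M(P) = ∑_w log ‖E_M(P)‖_w` (for a Galois-stable admissible tuple: the Schmidt height of
the `ℚ`-subspace `L(M·inf - ∑ P_j)` of `V_M`). -/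
noncomputable def G (M : ℕ) {a : ℕ} (P : Fin a → Place Qbar F) : ℝ := ∑ᶠ w, fr.Gloc M w P

/-- the chordal distance of two places in the embedding by `V_{M0}` -/
noncomputable def dist (M0 : ℕ) (w : h55_Pl) (P Q : Place Qbar F) : ℝ :=
  h55_mn w (fr.E M0 ![P, Q]) / (h55_nrm w (fr.pt M0 P) * h55_nrm w (fr.pt M0 Q))

/-- the local pairing term -/
noncomputable def pairLoc (M0 : ℕ) (w : h55_Pl) {a b : ℕ} (A : Fin a → Place Qbar F)
    (B : Fin b → Place Qbar F) : ℝ :=
  -∑ i, ∑ j, Real.log (fr.dist M0 w (A i) (B j))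

/-- the global pairing `⟨A, B⟩ = -∑_w ∑_{i,j} log d_w(A i, B j)` -/
noncomputable def pair (M0 : ℕ) {a b : ℕ} (A : Fin a → Place Qbar F)
    (B : Fin b → Place Qbar F) : ℝ :=
  ∑ᶠ w, fr.pairLoc M0 w A B

/-- admissible tuple: pairwise distinct places different from `inf`
(a reduced effective divisor avoiding `inf`) -/
def IsAdm {a : ℕ} (P : Fin a → Place Qbar F) : Prop :=
  Function.Injective P ∧ ∀ j, P j ≠ fr.inf

/-- Galois-stable tuple -/
def IsStable {a : ℕ} (P : Fin a → Place Qbar F) : Prop :=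
  ∀ σ : GQ, ∃ π : Equiv.Perm (Fin a), ∀ j, fr.act σ • P j = P (π j)


/-- `c` is a Galois-fixed class -/
def IsFixed (c : Pic0 Qbar F) : Prop := ∀ σ : GQ, fr.act σ • c = c

/-- the tuple `A` (of length `e`) represents the class `c`: `[∑ A_j - e·inf] = c` -/
def Rep {e : ℕ} (A : Fin e → Place Qbar F) (c : Pic0 Qbar F) : Prop :=
  ∃ D : Divisor.degZero (K := Qbar) (F := F),
    (D : Divisor Qbar F) = h55_dv A - (e : ℤ) • Finsupp.single fr.inf (1 : ℤ) ∧ Pic0.mk D = c

/-- `s` (a rational coordinate vector in `V_k`) cuts out the tuple `Z` of length `k`: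
`div(s) = ∑ Z_j - k·inf`. -/
def Cuts {k : ℕ} (s : Fin (fr.n k) → ℚ) (Z : Fin k → Place Qbar F) : Prop :=
  fr.vec k (fun i => (s i : Qbar)) ≠ 0 ∧
    ∀ P : Place Qbar F, P.ord (fr.vec k (fun i => (s i : Qbar))) =
      (h55_dv Z - (k : ℤ) • Finsupp.single fr.inf (1 : ℤ)) P

/-- a complementary pair of degree `e` for the class `c` -/
structure IsPair (e : ℕ) (c : Pic0 Qbar F) (A B : Fin e → Place Qbar F)
    (s : Fin (fr.n (e + e)) → ℚ) : Prop where
  adm : fr.IsAdm (Fin.append A B)
  stA : fr.IsStable A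
  stB : fr.IsStable B
  repA : fr.Rep A c
  cuts : fr.Cuts s (Fin.append A B)

/-- the raw height of a pair: `G_M(A) + G_M(B) - (n M - e) · h(s)` -/
noncomputable def qraw (M : ℕ) {e : ℕ} (A B : Fin e → Place Qbar F)
    (s : Fin (fr.n (e + e)) → ℚ) : ℝ :=
  fr.G M A + fr.G M B - ((fr.n M : ℝ) - e) * h55_ht s

end h55_Frame

end Fermat.Agent.S17
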