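import Mathlib
import Fermat.Agent.S17.h55_Frame
import Fermat.Agent.S17.h6_Canon

/-!
# S17: canonical Galois-stable representatives, in the vocabulary of `h55_Frame`

* `h6_frame_canon_unique` : for every class `c` there are `d ≤ fr.g` and a unique effective
  divisor `E` of degree `d` with `[E - d·inf] = c` (`d` = the least twist with a section);
* `h6_frame_canon` : if `c` is Galois-fixed (`fr.IsFixed c`), that `E` is Galois-stable.
  This is the hypothesis `hcanon` of the moving lemma / general-position pairs.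
-/

set_option autoImplicit false

open AlgebraicCurve

namespace Fermat.Agent.S17

open Fermat.Agent.S18 Fermat.Agent.S27

local notation "Qbar" => AlgebraicClosure ℚ
local notation "GQ" => (AlgebraicClosure ℚ ≃ₐ[ℚ] AlgebraicClosure ℚ)

variable {F : Type} [Field F] [Algebra Qbar F]

/-- existence and uniqueness of the canonical effective representative relative to `fr.inf` -/
theorem h6_frame_canon_unique (fr : h55_Frame F) (c : Pic0 Qbar F) :
    ∃ (d : ℕ) (E : Divisor Qbar F), d ≤ fr.g ∧ 0 ≤ E ∧ Divisor.degree E = d ∧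
      (∃ D : Divisor.degZero (K := Qbar) (F := F),
        (D : Divisor Qbar F) = E - (d : ℤ) • Finsupp.single fr.inf (1 : ℤ) ∧ Pic0.mk D = c) ∧
      ∀ E' : Divisor Qbar F, 0 ≤ E' →
        ∀ D' : Divisor.degZero (K := Qbar) (F := F),
          (D' : Divisor Qbar F) = E' - (d : ℤ) • Finsupp.single fr.inf (1 : ℤ) →
          Pic0.mk D' = c → E' = E := by
  obtain ⟨d, E, hd, hE, hdeg, ⟨h, hmk⟩, huniq⟩ := h6_exists_unique_rep fr.chart fr.inf c
  refine ⟨d, E, hd, fun v => hE v, hdeg, ⟨⟨_, h⟩, rfl, hmk⟩, ?_⟩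
  intro E' hE' D' hD' hc
  have h' : E' - (d : ℤ) • Finsupp.single fr.inf (1 : ℤ) ∈
      Divisor.degZero (K := Qbar) (F := F) := by
    rw [← hD']
    exact D'.2
  refine huniq E' (fun v => hE' v) h' ?_
  rw [← hc]
  congr 1
  exact Subtype.ext hD'.symm

/-- **(CANON)** a Galois-fixed class is `[E - d·inf]` with `E` effective, Galois-stable, of
degree `d ≤ g`. -/
theorem h6_frame_canon (fr : h55_Frame F) (c : Pic0 Qbar F) (hc : fr.IsFixed c) :
    ∃ (d : ℕ) (E : Divisor Qbar F), d ≤ fr.g ∧ 0 ≤ E ∧ Divisor.degree E = d ∧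
      (∀ σ : GQ, fr.act σ • E = E) ∧
      ∃ D : Divisor.degZero (K := Qbar) (F := F),
        (D : Divisor Qbar F) = E - (d : ℤ) • Finsupp.single fr.inf (1 : ℤ) ∧ Pic0.mk D = c := by
  obtain ⟨d, E, hd, hE, hdeg, hstab, h, hmk⟩ :=
    h6_exists_stable_rep fr.chart fr.inf (Set.range fr.act)
      (by
        rintro _ ⟨σ, rfl⟩
        exact fr.inf_fix σ) c
      (by
        rintro _ ⟨σ, rfl⟩
        exact hc σ)
  exact ⟨d, E, hd, fun v => hE v, hdeg, fun σ => hstab _ ⟨σ, rfl⟩, ⟨_, h⟩, rfl, hmk⟩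

/-- (CANON) with a prescribed bound `e ≥ g` on the degree (the shape used by the moving lemma) -/
theorem h6_frame_canon_le (fr : h55_Frame F) (e : ℕ) (he : fr.g ≤ e) (c : Pic0 Qbar F)
    (hc : fr.IsFixed c) :
    ∃ (d : ℕ) (E : Divisor Qbar F), d ≤ e ∧ 0 ≤ E ∧ Divisor.degree E = d ∧
      (∀ σ : GQ, fr.act σ • E = E) ∧
      ∃ D : Divisor.degZero (K := Qbar) (F := F),
        (D : Divisor Qbar F) = E - (d : ℤ) • Finsupp.single fr.inf (1 : ℤ) ∧ Pic0.mk D = c := by
  obtain ⟨d, E, hd, h⟩ := h6_frame_canon fr c hc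
  exact ⟨d, E, hd.trans he, h⟩

end Fermat.Agent.S17
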