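import Fermat.Agent.S27.Branch
import Fermat.Agent.S27.h6w_Sep
import Fermat.Agent.S27.h70_WtOrd
import Fermat.Agent.S18.GR_ChartPt

/-!
# S17 (helper94): generic members of a pencil are reduced and avoid a finite set

`K` algebraically closed of characteristic `0`, `F / K` a function field with a chart.
`f₁, f₂ ∈ F` with `f₁ / f₂` non-constant, `D` a divisor with
`-D P = min (ord_P f₁) (ord_P f₂)` for all `P` (the pencil `⟨f₁, f₂⟩ ⊆ L(D)` has no base
point).  Then for all but finitely many `t : K` the divisor `A_t = D + div (f₁ - t f₂)` is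
effective, **reduced**, and disjoint from a prescribed finite set of places
(`h94_pencil_generic`); in particular this holds for some rational `t`
(`h94_pencil_generic_rat`).

`A_t` is the fibre of the chart `φ = f₁ / f₂` over `t`; reducedness is the finiteness of the
branch values (`h97_branch_finite`).
-/

set_option autoImplicit false

open AlgebraicCurve IntermediateField

namespace Fermat.Agent.S17

open Fermat.Agent.S18 Fermat.Agent.S24 Fermat.Agent.S27

variable {K F : Type*} [Field K] [Field F] [Algebra K F]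

/-- The order of `f₁ - t f₂` at a place in terms of the chart `φ = f₁ / f₂`. -/
theorem h94_pencil_ord (P : Place K F) (f₁ f₂ : F) (hf₂ : f₂ ≠ 0) (t : K)
    (hne : f₁ / f₂ - algebraMap K F t ≠ 0) :
    f₁ - t • f₂ ≠ 0 ∧
      P.ord (f₁ - t • f₂) = P.ord f₂ + P.ord (f₁ / f₂ - algebraMap K F t) := by
  have h1 : f₁ - t • f₂ = f₂ * (f₁ / f₂ - algebraMap K F t) := by
    rw [Algebra.smul_def]
    field_simp
  rw [h1]
  exact ⟨mul_ne_zero hf₂ hne, P.ord_mul hf₂ hne⟩

variable [IsAlgClosed K] [CharZero K]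

/-- **Generic members of a base-point-free pencil.** -/
theorem h94_pencil_generic {x₀ : F} (hx₀ : h75_IsChart K x₀) (f₁ f₂ : F) (hf₁ : f₁ ≠ 0)
    (hf₂ : f₂ ≠ 0) (htr : Transcendental K (f₁ / f₂)) (D : Divisor K F)
    (hD : ∀ P : Place K F, -D P = min (P.ord f₁) (P.ord f₂)) (S₀ : Finset (Place K F)) :
    ∃ Z : Finset K, ∀ t : K, t ∉ Z →
      f₁ - t • f₂ ≠ 0 ∧
      (∀ P : Place K F, D P + P.ord (f₁ - t • f₂) = 0 ∨ D P + P.ord (f₁ - t • f₂) = 1) ∧
      (∀ P ∈ S₀, D P + P.ord (f₁ - t • f₂) = 0) := by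
  classical
  set φ : F := f₁ / f₂ with hφ
  have hφ0 : φ ≠ 0 := div_ne_zero hf₁ hf₂
  have hchart : h75_IsChart K φ := h34_isChart_of_transcendental hx₀ φ htr
  obtain ⟨Z₁, hZ₁⟩ := h97_branch_finite hchart
  -- the values of `φ` at the places of `S₀`
  have hval : ∀ P : Place K F, ∃ a : K, φ ∈ P.toValuationSubring → h39_Val P φ a := by
    intro P
    by_cases hP : φ ∈ P.toValuationSubring
    · obtain ⟨a, ha⟩ := h39_exists_val hchart P hP
      exact ⟨a, fun _ => ha⟩
    · exact ⟨0, fun h => absurd h hP⟩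
  choose val hval using hval
  refine ⟨Z₁ ∪ S₀.image val, fun t ht => ?_⟩
  rw [Finset.mem_union, not_or] at ht
  obtain ⟨ht₁, ht₂⟩ := ht
  have hne : φ - algebraMap K F t ≠ 0 := by
    intro h0
    exact htr ((sub_eq_zero.mp h0) ▸ isAlgebraic_algebraMap t)
  have hord : ∀ P : Place K F, P.ord (f₁ - t • f₂) = P.ord f₂ + P.ord (φ - algebraMap K F t) :=
    fun P => (h94_pencil_ord P f₁ f₂ hf₂ t hne).2
  have hφord : ∀ P : Place K F, P.ord φ = P.ord f₁ - P.ord f₂ := fun P =>
    h35_ord_div P hf₁ hf₂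
  -- the two cases at a place
  have key : ∀ P : Place K F,
      (φ ∈ P.toValuationSubring ∧ D P + P.ord (f₁ - t • f₂) = P.ord (φ - algebraMap K F t)) ∨
      (φ ∉ P.toValuationSubring ∧ D P + P.ord (f₁ - t • f₂) = 0) := by
    intro P
    have hDP := hD P
    by_cases hP : 0 ≤ P.ord φ
    · left
      refine ⟨h24_mem_of_ord_nonneg P hP, ?_⟩
      rw [hord P]
      have h1 : P.ord f₂ ≤ P.ord f₁ := by
        rw [hφord] at hP
        omega
      rw [min_eq_right h1] at hDP
      omega
    · right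
      push Not at hP
      refine ⟨fun hmem => absurd (h24_ord_nonneg_of_mem P hmem) (not_le.mpr hP), ?_⟩
      have h2 : P.ord (φ - algebraMap K F t) = P.ord φ := by
        have h3 := h70_ord_add_eq_of_lt P hφ0 (g := -algebraMap K F t) (by
          by_cases ht0 : t = 0
          · left
            rw [ht0, map_zero, neg_zero]
          · right
            rw [h35_ord_neg, h24_ord_algebraMap]
            exact hP)
        rw [sub_eq_add_neg]
        exact h3.2
      rw [hord P, h2, hφord P]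
      have h1 : P.ord f₁ < P.ord f₂ := by
        rw [hφord] at hP
        omega
      rw [min_eq_left h1.le] at hDP
      omega
  have hne' : f₁ - t • f₂ ≠ 0 := by
    have h1 : f₁ - t • f₂ = f₂ * (φ - algebraMap K F t) := by
      rw [Algebra.smul_def, hφ]
      field_simp
    rw [h1]
    exact mul_ne_zero hf₂ hne
  refine ⟨hne', fun P => ?_, fun P hP => ?_⟩
  · rcases key P with ⟨hmem, h⟩ | ⟨-, h⟩
    · rw [h]
      have h0 : 0 ≤ P.ord (φ - algebraMap K F t) :=
        h24_ord_nonneg_of_mem P (sub_mem hmem (P.algebraMap_mem' t))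
      have h2 : ¬ 2 ≤ P.ord (φ - algebraMap K F t) := fun h2 => ht₁ (hZ₁ P t h2)
      omega
    · exact Or.inl h
  · rcases key P with ⟨hmem, h⟩ | ⟨-, h⟩
    · rw [h]
      have hv := hval P hmem
      have hvt : val P ≠ t := fun h0 => ht₂ (Finset.mem_image.mpr ⟨P, hP, h0⟩)
      have h1 : h39_Val P (φ - algebraMap K F t) (val P - t) := by
        have := h39_val_add P hv (h39_val_algebraMap P (-t))
        rwa [map_neg, ← sub_eq_add_neg, ← sub_eq_add_neg] at this
      exact h39_ord_eq_zero_of_val P h1 (sub_ne_zero.mpr hvt)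
    · exact h

/-- **Generic rational members of a base-point-free pencil.** -/
theorem h94_pencil_generic_rat {x₀ : F} (hx₀ : h75_IsChart K x₀) (f₁ f₂ : F) (hf₁ : f₁ ≠ 0)
    (hf₂ : f₂ ≠ 0) (htr : Transcendental K (f₁ / f₂)) (D : Divisor K F)
    (hD : ∀ P : Place K F, -D P = min (P.ord f₁) (P.ord f₂)) (S₀ : Finset (Place K F))
    (Z₀ : Finset ℚ) :
    ∃ q : ℚ, q ∉ Z₀ ∧ f₁ - (q : K) • f₂ ≠ 0 ∧
      (∀ P : Place K F, D P + P.ord (f₁ - (q : K) • f₂) = 0 ∨
        D P + P.ord (f₁ - (q : K) • f₂) = 1) ∧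
      (∀ P ∈ S₀, D P + P.ord (f₁ - (q : K) • f₂) = 0) := by
  classical
  obtain ⟨Z, hZ⟩ := h94_pencil_generic hx₀ f₁ f₂ hf₁ hf₂ htr D hD S₀
  have hinj : Function.Injective (fun q : ℚ => (q : K)) := Rat.cast_injective
  obtain ⟨q, hq⟩ := Infinite.exists_notMem_finset (Z₀ ∪ Z.preimage (fun q : ℚ => (q : K))
    hinj.injOn)
  rw [Finset.mem_union, not_or, Finset.mem_preimage] at hq
  exact ⟨q, hq.1, hZ (q : K) hq.2⟩

end Fermat.Agent.S17
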