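import Fermat.Agent.S17.h80_Pencil
import Fermat.Agent.S17.h94_PencilGeneric

/-!
# S17 (helper94): rational base-point-free pencils and rational general-position members

`k₀ ⊆ K` an infinite subfield (think `ℚ ⊆ ℚ̄`), `W₀` a `k₀`-subspace of `F` whose `K`-span
contains `L(D)` and which lies in `L(D)` (a `k₀`-form of `L(D)`), `deg D ≥ 2g + 1`.

* `h94_form_avoid` (abstract): a `k₀`-form is not covered by finitely many proper `K`-subspaces;
* `h94_exists_avoid_form`: a `k₀`-rational section generating `O(D)` at finitely many places and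
  avoiding finitely many proper subspaces;
* `h94_exists_pencil_form`: a `k₀`-rational base-point-free pencil with non-constant ratio;
* `h94_exists_member_form`: a `k₀`-rational `f ∈ L(D)` with `D + div f` effective, reduced and
  disjoint from a prescribed finite set of places (characteristic `0`).
-/

set_option autoImplicit false

open AlgebraicCurve IntermediateField

namespace Fermat.Agent.S17

open Fermat.Agent.S18 Fermat.Agent.S24 Fermat.Agent.S27

/-- A `k₀`-form of a `K`-subspace `W` is not covered by finitely many `K`-subspaces not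
containing `W`. -/
theorem h94_form_avoid {k₀ K V : Type*} [Field k₀] [Infinite k₀] [Field K] [Algebra k₀ K]
    [AddCommGroup V] [Module k₀ V] [Module K V] [IsScalarTower k₀ K V]
    (W₀ : Submodule k₀ V) (W : Submodule K V) (hspan : W ≤ Submodule.span K (W₀ : Set V))
    (s : Finset (Submodule K V)) (hs : ∀ U ∈ s, ¬ W ≤ U) : ∃ w ∈ W₀, ∀ U ∈ s, w ∉ U := by
  classical
  let V' : Submodule K V → Submodule k₀ ↥W₀ := fun U =>
    Submodule.comap W₀.subtype (U.restrictScalars k₀)
  have hV' : ∀ U ∈ s, V' U ≠ ⊤ := by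
    intro U hU htop
    apply hs U hU
    refine hspan.trans (Submodule.span_le.mpr fun w hw => ?_)
    have hmem : (⟨w, hw⟩ : ↥W₀) ∈ V' U := by
      rw [htop]
      exact Submodule.mem_top
    exact hmem
  have htop : (⊤ : Submodule k₀ ↥W₀) ∉ s.image V' := by
    intro h
    obtain ⟨U, hU, hUtop⟩ := Finset.mem_image.mp h
    exact hV' U hU hUtop
  have hne := Subspace.biUnion_ne_univ_of_top_notMem htop
  obtain ⟨e, he⟩ : ∃ e : ↥W₀, e ∉ ⋃ p ∈ s.image V', (p : Set ↥W₀) := by
    by_contra hcon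
    push Not at hcon
    exact hne (Set.eq_univ_of_forall hcon)
  simp only [Set.mem_iUnion, not_exists] at he
  refine ⟨e, e.2, fun U hU hmem => ?_⟩
  exact he (V' U) (Finset.mem_image_of_mem V' hU) hmem

variable {K F : Type*} [Field K] [Field F] [Algebra K F] [IsAlgClosed K]
variable {k₀ : Type*} [Field k₀] [Infinite k₀] [Algebra k₀ K] [Module k₀ F] [IsScalarTower k₀ K F]

/-- A `k₀`-rational section of `D` which generates `O(D)` at the places of a finite set and
avoids finitely many subspaces not containing `L(D)`. -/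
theorem h94_exists_avoid_form {x : F} (hx : h75_IsChart K x) (D : Divisor K F)
    (hD : 2 * (h75_genus K x : ℤ) ≤ Divisor.degree D) (W₀ : Submodule k₀ F)
    (hspan : riemannRochSpace D ≤ Submodule.span K (W₀ : Set F))
    (hW₀ : ∀ w ∈ W₀, w ∈ riemannRochSpace D)
    (T : Finset (Place K F)) (s : Finset (Submodule K F))
    (hs : ∀ U ∈ s, ¬ riemannRochSpace D ≤ U) :
    ∃ f ∈ W₀, f ≠ 0 ∧ (∀ P ∈ T, P.ord f = -D P) ∧ ∀ U ∈ s, f ∉ U := by
  classical
  let s' : Finset (Submodule K F) :=
    insert ⊥ (s ∪ T.image fun P => riemannRochSpace (D - Finsupp.single P 1))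
  have hs' : ∀ U ∈ s', ¬ riemannRochSpace D ≤ U := by
    intro U hU hle
    rcases Finset.mem_insert.mp hU with rfl | hU
    · obtain ⟨P₀⟩ := h7_exists_place hx
      obtain ⟨f, hf, hf0, -⟩ := h80_exists_ord_eq hx D hD P₀
      exact hf0 ((Submodule.mem_bot K).mp (hle hf))
    rcases Finset.mem_union.mp hU with hU | hU
    · exact hs U hU hle
    · obtain ⟨P, -, rfl⟩ := Finset.mem_image.mp hU
      obtain ⟨f, hf, hf0, hfP⟩ := h80_exists_ord_eq hx D hD P
      exact h80_notMem_of_ord_eq hf0 hfP (hle hf)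
  obtain ⟨f, hf, hfs⟩ := h94_form_avoid W₀ (riemannRochSpace D) hspan s' hs'
  have hf0 : f ≠ 0 := fun h0 =>
    hfs ⊥ (Finset.mem_insert_self _ _) (by rw [h0]; exact Submodule.zero_mem _)
  refine ⟨f, hf, hf0, fun P hP => ?_, fun U hU => ?_⟩
  · have hnot : f ∉ riemannRochSpace (D - Finsupp.single P 1) :=
      hfs _ (Finset.mem_insert_of_mem (Finset.mem_union_right _
        (Finset.mem_image.mpr ⟨P, hP, rfl⟩)))
    exact (h80_ord_eq_of_notMem (hW₀ f hf) hnot).2
  · exact hfs U (Finset.mem_insert_of_mem (Finset.mem_union_left _ hU))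

omit [IsAlgClosed K] [Infinite k₀] in
/-- a ratio which is algebraic over an algebraically closed field of constants is constant. -/
theorem h94_mem_span_of_algebraic [IsAlgClosed K] {f₁ f₂ : F} (hf₂ : f₂ ≠ 0)
    (halg : IsAlgebraic K (f₁ / f₂)) : f₁ ∈ Submodule.span K {f₂} := by
  have hint : IsIntegral K (f₁ / f₂) := halg.isIntegral
  have hdeg := IsAlgClosed.degree_eq_one_of_irreducible K (minpoly.irreducible hint)
  obtain ⟨c, hc⟩ := minpoly.mem_range_of_degree_eq_one K (f₁ / f₂) hdeg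
  rw [Submodule.mem_span_singleton]
  refine ⟨c, ?_⟩
  rw [Algebra.smul_def, hc]
  field_simp

/-- A `k₀`-rational base-point-free pencil with non-constant ratio (`deg D ≥ 2g + 1`). -/
theorem h94_exists_pencil_form {x : F} (hx : h75_IsChart K x) (D : Divisor K F)
    (hD : 2 * (h75_genus K x : ℤ) + 1 ≤ Divisor.degree D) (W₀ : Submodule k₀ F)
    (hspan : riemannRochSpace D ≤ Submodule.span K (W₀ : Set F))
    (hW₀ : ∀ w ∈ W₀, w ∈ riemannRochSpace D) :
    ∃ f₁ ∈ W₀, ∃ f₂ ∈ W₀, f₁ ≠ 0 ∧ f₂ ≠ 0 ∧ Transcendental K (f₁ / f₂) ∧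
      ∀ P : Place K F, -D P = min (P.ord f₁) (P.ord f₂) := by
  classical
  have hD' : 2 * (h75_genus K x : ℤ) ≤ Divisor.degree D := by omega
  obtain ⟨f₂, hf₂, hf₂0, -, -⟩ := h94_exists_avoid_form hx D hD' W₀ hspan hW₀ ∅ ∅
    (fun U hU => absurd hU (Finset.notMem_empty U))
  obtain ⟨Df, hDf⟩ := h7_exists_div hx f₂ hf₂0
  -- the line through `f₂` does not contain `L(D)`
  have hline : ¬ riemannRochSpace D ≤ Submodule.span K {f₂} := by
    intro hle
    have hfin := (h75_riemann hx D).1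
    have h1 := h68_finrank_rr_of_deg hx D (by omega)
    have h2 := Submodule.finrank_mono hle
    rw [finrank_span_singleton hf₂0] at h2
    have h3 : (Module.finrank K ↥(riemannRochSpace D) : ℤ) ≤ 1 := by exact_mod_cast h2
    have hg : (0 : ℤ) ≤ (h75_genus K x : ℤ) := Int.natCast_nonneg _
    omega
  obtain ⟨f₁, hf₁, hf₁0, hT, hU⟩ := h94_exists_avoid_form hx D hD' W₀ hspan hW₀
    (Df + D).support {Submodule.span K {f₂}} (fun U hU => by
      rw [Finset.mem_singleton] at hU
      rw [hU]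
      exact hline)
  have hnot : f₁ ∉ Submodule.span K {f₂} := hU _ (Finset.mem_singleton_self _)
  refine ⟨f₁, hf₁, f₂, hf₂, hf₁0, hf₂0, fun halg => hnot (h94_mem_span_of_algebraic hf₂0 halg),
    fun P => ?_⟩
  have h1 := ((mem_riemannRochSpace_iff.mp (hW₀ f₁ hf₁)) P).resolve_left hf₁0
  have h2 := ((mem_riemannRochSpace_iff.mp (hW₀ f₂ hf₂)) P).resolve_left hf₂0
  by_cases hP : P ∈ (Df + D).support
  · rw [hT P hP]
    exact (min_eq_left h2).symm
  · have h0 : (Df + D) P = 0 := Finsupp.notMem_support_iff.mp hP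
    rw [Finsupp.add_apply, hDf] at h0
    have h3 : P.ord f₂ = -D P := by omega
    rw [h3]
    exact (min_eq_right h1).symm

/-- **Rational general-position member.**  In characteristic `0`, for `deg D ≥ 2g + 1` and a
`k₀`-form `W₀` of `L(D)`: there is `f ∈ W₀` with `D + div f` effective, reduced and disjoint
from the finite set `S₀`. -/
theorem h94_exists_member_form [CharZero K] {x : F} (hx : h75_IsChart K x) (D : Divisor K F)
    (hD : 2 * (h75_genus K x : ℤ) + 1 ≤ Divisor.degree D) (W₀ : Submodule k₀ F)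
    (hspan : riemannRochSpace D ≤ Submodule.span K (W₀ : Set F))
    (hW₀ : ∀ w ∈ W₀, w ∈ riemannRochSpace D) (S₀ : Finset (Place K F)) :
    ∃ f ∈ W₀, f ≠ 0 ∧ (∀ P : Place K F, D P + P.ord f = 0 ∨ D P + P.ord f = 1) ∧
      ∀ P ∈ S₀, D P + P.ord f = 0 := by
  classical
  obtain ⟨f₁, hf₁, f₂, hf₂, hf₁0, hf₂0, htr, hmin⟩ :=
    h94_exists_pencil_form hx D hD W₀ hspan hW₀
  obtain ⟨Z, hZ⟩ := h94_pencil_generic hx f₁ f₂ hf₁0 hf₂0 htr D hmin S₀
  have hinj : Function.Injective (algebraMap k₀ K) := (algebraMap k₀ K).injective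
  obtain ⟨q, hq⟩ := Infinite.exists_notMem_finset (Z.preimage (algebraMap k₀ K) hinj.injOn)
  rw [Finset.mem_preimage] at hq
  obtain ⟨h0, h1, h2⟩ := hZ (algebraMap k₀ K q) hq
  have hsmul : algebraMap k₀ K q • f₂ = q • f₂ := algebraMap_smul K q f₂
  rw [hsmul] at h0 h1 h2
  exact ⟨f₁ - q • f₂, W₀.sub_mem hf₁ (W₀.smul_mem q hf₂), h0, h1, h2⟩

end Fermat.Agent.S17
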