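import Fermat.Agent.S17.h55_Frame
import Fermat.Agent.S17.h35_GalDescent
import Fermat.Agent.S17.h32_GalDescent
import Fermat.Agent.S17.h6_CanonFrame
import Fermat.Agent.S17.h94_PencilRat

/-!
# S17 route R55, row MV (1): Galois-stable admissible representatives in general position

* `h94_frame_descent` : a Galois-stable subspace of `fr.V M` is spanned by its fixed vectors;
* `h94_rr_descent` : for `E ≥ 0` Galois-stable, `L(E + k·inf)` is spanned by its fixed vectors;
* `h94_exists_rep` (= row statement `h55_exists_rep`, re-exported in `R55_MV1.lean`) : every Galois-fixed class is represented by a Galois-stable admissible tuple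
  of any length `e ≥ 2g + 1` avoiding a prescribed finite set.
-/

set_option autoImplicit false

open AlgebraicCurve

namespace Fermat.Agent.S17

open Fermat.Agent.S18 Fermat.Agent.S27

local notation "Qbar" => AlgebraicClosure ℚ
local notation "GQ" => (AlgebraicClosure ℚ ≃ₐ[ℚ] AlgebraicClosure ℚ)

variable {F : Type} [Field F] [Algebra Qbar F] (fr : h55_Frame F)

/-! ### the action on functions -/

theorem h94_act_smul (σ : GQ) (a : Qbar) (f : F) :
    fr.act σ • (a • f) = σ a • (fr.act σ • f) := by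
  rw [Algebra.smul_def, Algebra.smul_def, smul_mul', SemilinearAut.smul_algebraMap, fr.base σ]
  rfl

theorem h94_act_rat_combo (M : ℕ) (c : Fin (fr.n M) → ℚ) (σ : GQ) :
    fr.act σ • (∑ i, (algebraMap ℚ Qbar (c i)) • fr.b M i) =
      ∑ i, (algebraMap ℚ Qbar (c i)) • fr.b M i := by
  rw [Finset.smul_sum]
  refine Finset.sum_congr rfl fun i _ => ?_
  rw [h94_act_smul, fr.b_fix, σ.commutes]

/-- a Galois-stable subspace of `V_M` is spanned by its Galois-fixed vectors -/
theorem h94_frame_descent (M : ℕ) (W : Submodule Qbar F) (hWV : W ≤ fr.V M)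
    (hW : ∀ σ : GQ, ∀ w ∈ W, fr.act σ • w ∈ W) :
    W ≤ Submodule.span Qbar {f | f ∈ W ∧ ∀ σ : GQ, fr.act σ • f = f} := by
  haveI := h32_isGaloisQbar
  obtain ⟨c, -, hspan⟩ := h35_descent_coords_abs (k := ℚ) (K := Qbar) (M := F)
    (fun σ x => fr.act σ • x) (fun σ x y => smul_add _ x y) (fun σ a x => h94_act_smul fr σ a x)
    (fr.b M) (fr.b_li M) (fun j σ => fr.b_fix M j σ) W (by rw [fr.b_span M]; exact hWV) hW
  intro w hw
  refine Submodule.span_mono ?_ (hspan.ge hw)
  rintro _ ⟨j, rfl⟩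
  exact ⟨hspan.le (Submodule.subset_span ⟨j, rfl⟩), fun σ => h94_act_rat_combo fr M (c j) σ⟩

/-- a nonzero Galois-stable subspace of `V_M` contains a nonzero Galois-fixed vector -/
theorem h94_frame_exists_fixed (M : ℕ) (W : Submodule Qbar F) (hWV : W ≤ fr.V M)
    (hW : ∀ σ : GQ, ∀ w ∈ W, fr.act σ • w ∈ W) (hne : W ≠ ⊥) :
    ∃ h ∈ W, h ≠ 0 ∧ ∀ σ : GQ, fr.act σ • h = h := by
  by_contra hcon
  push Not at hcon
  apply hne
  rw [eq_bot_iff]
  refine (h94_frame_descent fr M W hWV hW).trans (Submodule.span_le.mpr ?_)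
  rintro f ⟨hfW, hfix⟩
  by_contra hf0
  obtain ⟨σ, hσ⟩ := hcon f hfW (fun h0 => hf0 (by rw [h0]; exact Submodule.zero_mem _))
  exact hσ (hfix σ)

/-! ### Galois-stable Riemann–Roch spaces -/

theorem h94_zsmul_single (P : Place Qbar F) (k : ℤ) :
    (k • Finsupp.single P (1 : ℤ) : Divisor Qbar F) = Finsupp.single P k := by
  rw [Finsupp.smul_single, smul_eq_mul, mul_one]

theorem h94_act_inf_smul (k : ℤ) (σ : GQ) :
    fr.act σ • (k • Finsupp.single fr.inf (1 : ℤ) : Divisor Qbar F) =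
      k • Finsupp.single fr.inf (1 : ℤ) := by
  rw [h94_zsmul_single, SemilinearAut.smul_single, fr.inf_fix σ]

theorem h94_act_mem_rr (D : Divisor Qbar F) (hD : ∀ σ : GQ, fr.act σ • D = D) (σ : GQ) {f : F}
    (hf : f ∈ riemannRochSpace D) : fr.act σ • f ∈ riemannRochSpace D :=
  h35_smul_mem_rr_of_fix (fr.act σ) D (hD σ) hf

/-- the divisor of a Galois-fixed function is Galois-fixed -/
theorem h94_act_div {f : F} (hfix : ∀ σ : GQ, fr.act σ • f = f) (Df : Divisor Qbar F)
    (hDf : ∀ v : Place Qbar F, Df v = v.ord f) (σ : GQ) : fr.act σ • Df = Df := by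
  ext P
  rw [SemilinearAut.divisor_smul_apply, hDf, hDf, ← h35_ord_smul_inv, hfix σ]

/-- for `E ≥ 0` Galois-stable there is a nonzero Galois-fixed function in some `V_M` vanishing
on `E` -/
theorem h94_exists_fixed_vanishing (E : Divisor Qbar F) (hE0 : 0 ≤ E)
    (hE : ∀ σ : GQ, fr.act σ • E = E) :
    ∃ (M : ℕ) (h : F), h ≠ 0 ∧
      h ∈ riemannRochSpace ((M : ℤ) • Finsupp.single fr.inf (1 : ℤ) - E) ∧
      ∀ σ : GQ, fr.act σ • h = h := by
  set M : ℕ := (Divisor.degree E).toNat + fr.g with hM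
  have hstab : ∀ σ : GQ, fr.act σ • ((M : ℤ) • Finsupp.single fr.inf (1 : ℤ) - E) =
      (M : ℤ) • Finsupp.single fr.inf (1 : ℤ) - E := by
    intro σ
    rw [smul_sub, h94_act_inf_smul, hE σ]
  have hle : riemannRochSpace ((M : ℤ) • Finsupp.single fr.inf (1 : ℤ) - E) ≤ fr.V M :=
    h68_rr_mono (sub_le_self _ hE0)
  have hne : riemannRochSpace ((M : ℤ) • Finsupp.single fr.inf (1 : ℤ) - E) ≠ ⊥ := by
    intro hbot
    have h1 := (h75_riemann fr.chart ((M : ℤ) • Finsupp.single fr.inf (1 : ℤ) - E)).2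
    rw [hbot, finrank_bot] at h1
    have hdeg : Divisor.degree ((M : ℤ) • Finsupp.single fr.inf (1 : ℤ) - E) =
        M - Divisor.degree E := by
      rw [map_sub, map_zsmul, Divisor.degree_single, h75_deg_eq_one fr.chart]
      simp
    rw [hdeg] at h1
    have h2 : (M : ℤ) = ((Divisor.degree E).toNat : ℤ) + (h75_genus Qbar fr.x : ℤ) := by
      rw [hM]
      push_cast
      rfl
    have h3 := Int.self_le_toNat (Divisor.degree E)
    push_cast at h1
    linarith
  obtain ⟨h, hW, h0, hfix⟩ := h94_frame_exists_fixed fr M _ hle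
    (fun σ w hw => h94_act_mem_rr fr _ hstab σ hw) hne
  exact ⟨M, h, h0, hW, hfix⟩

/-- **Galois descent for `L(E + k·inf)`**, `E ≥ 0` Galois-stable. -/
theorem h94_rr_descent (E : Divisor Qbar F) (hE0 : 0 ≤ E) (hE : ∀ σ : GQ, fr.act σ • E = E)
    (k : ℕ) :
    riemannRochSpace (E + (k : ℤ) • Finsupp.single fr.inf (1 : ℤ)) ≤
      Submodule.span Qbar {f | f ∈ riemannRochSpace (E + (k : ℤ) • Finsupp.single fr.inf (1 : ℤ))
        ∧ ∀ σ : GQ, fr.act σ • f = f} := by
  obtain ⟨M, h, h0, hh, hfix⟩ := h94_exists_fixed_vanishing fr E hE0 hE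
  set D : Divisor Qbar F := E + (k : ℤ) • Finsupp.single fr.inf (1 : ℤ) with hDdef
  have hDstab : ∀ σ : GQ, fr.act σ • D = D := by
    intro σ
    rw [hDdef, smul_add, h94_act_inf_smul, hE σ]
  let W' : Submodule Qbar F := (riemannRochSpace D).map (LinearMap.mulLeft Qbar h)
  have hW'V : W' ≤ fr.V (M + k) := by
    rintro _ ⟨f, hf, rfl⟩
    show h * f ∈ riemannRochSpace (((M + k : ℕ) : ℤ) • Finsupp.single fr.inf (1 : ℤ))
    rw [mem_riemannRochSpace_iff] at hh ⊢
    have hf' := mem_riemannRochSpace_iff.mp hf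
    intro v
    by_cases hf0 : f = 0
    · left
      rw [hf0, mul_zero]
    right
    have h1 := (hh v).resolve_left h0
    have h2 := (hf' v).resolve_left hf0
    rw [v.ord_mul h0 hf0]
    rw [hDdef] at h2
    simp only [Finsupp.sub_apply, Finsupp.add_apply, Finsupp.smul_apply, smul_eq_mul] at h1 h2 ⊢
    push_cast
    linarith
  have hW'stab : ∀ σ : GQ, ∀ w ∈ W', fr.act σ • w ∈ W' := by
    rintro σ _ ⟨f, hf, rfl⟩
    refine ⟨fr.act σ • f, h94_act_mem_rr fr D hDstab σ hf, ?_⟩
    show h * (fr.act σ • f) = fr.act σ • (h * f)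
    rw [smul_mul', hfix σ]
  have hdesc := h94_frame_descent fr (M + k) W' hW'V hW'stab
  intro f hf
  have hmem : h * f ∈ W' := ⟨f, hf, rfl⟩
  have h3 := hdesc hmem
  have h4 : (LinearMap.mulLeft Qbar h⁻¹) (h * f) ∈
      (Submodule.span Qbar {g | g ∈ W' ∧ ∀ σ : GQ, fr.act σ • g = g}).map
        (LinearMap.mulLeft Qbar h⁻¹) := Submodule.mem_map_of_mem h3
  rw [Submodule.map_span] at h4
  have h5 : (LinearMap.mulLeft Qbar h⁻¹) (h * f) = f := by
    show h⁻¹ * (h * f) = f
    rw [← mul_assoc, inv_mul_cancel₀ h0, one_mul]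
  rw [h5] at h4
  refine Submodule.span_mono ?_ h4
  rintro _ ⟨g, ⟨⟨f', hf', rfl⟩, hgfix⟩, rfl⟩
  have h6 : (LinearMap.mulLeft Qbar h⁻¹) ((LinearMap.mulLeft Qbar h) f') = f' := by
    show h⁻¹ * (h * f') = f'
    rw [← mul_assoc, inv_mul_cancel₀ h0, one_mul]
  rw [h6]
  refine ⟨hf', fun σ => ?_⟩
  have h7 := hgfix σ
  change fr.act σ • (h * f') = h * f' at h7
  rw [smul_mul', hfix σ] at h7
  exact mul_left_cancel₀ h0 h7

/-! ### reduced effective divisors as tuples -/

/-- a reduced effective divisor of degree `e` is the divisor of an injective `e`-tuple -/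
theorem h94_exists_tuple {K F : Type*} [Field K] [Field F] [Algebra K F]
    (hdeg1 : ∀ P : Place K F, P.deg = 1) (A : Divisor K F) (hA : ∀ P, A P = 0 ∨ A P = 1)
    (e : ℕ) (hdeg : Divisor.degree A = e) :
    ∃ P : Fin e → Place K F, Function.Injective P ∧
      (∑ j, Finsupp.single (P j) (1 : ℤ)) = A ∧ ∀ Q, A Q = 1 ↔ ∃ j, P j = Q := by
  classical
  have hone : ∀ Q ∈ A.support, A Q = 1 := by
    intro Q hQ
    rcases hA Q with h | h
    · exact absurd h (Finsupp.mem_support_iff.mp hQ)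
    · exact h
  have hsum : A = ∑ Q ∈ A.support, Finsupp.single Q (1 : ℤ) := by
    conv_lhs => rw [← Finsupp.sum_single A]
    rw [Finsupp.sum]
    exact Finset.sum_congr rfl fun Q hQ => by rw [hone Q hQ]
  have hcard : A.support.card = e := by
    have h1 : Divisor.degree A = (A.support.card : ℤ) := by
      conv_lhs => rw [hsum]
      rw [map_sum]
      simp only [Divisor.degree_single, hdeg1, Nat.cast_one, mul_one, Finset.sum_const,
        nsmul_eq_mul]
    rw [h1] at hdeg
    exact_mod_cast hdeg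
  let eqv : A.support ≃ Fin e := A.support.equivFinOfCardEq hcard
  refine ⟨fun j => ((eqv.symm j : A.support) : Place K F), ?_, ?_, ?_⟩
  · exact Subtype.val_injective.comp eqv.symm.injective
  · rw [Equiv.sum_comp eqv.symm (fun Q : A.support => Finsupp.single (Q : Place K F) (1 : ℤ)),
      Finset.sum_coe_sort A.support (fun Q => Finsupp.single Q (1 : ℤ))]
    exact hsum.symm
  · intro Q
    constructor
    · intro hQ
      have hQs : Q ∈ A.support := Finsupp.mem_support_iff.mpr (by rw [hQ]; exact one_ne_zero)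
      exact ⟨eqv ⟨Q, hQs⟩, by simp⟩
    · rintro ⟨j, rfl⟩
      exact hone _ (eqv.symm j).2

/-- an injective self-map of the set of values of an injective tuple is a permutation -/
theorem h94_exists_perm {α : Type*} {e : ℕ} (P : Fin e → α) (hP : Function.Injective P)
    (g : α → α) (hg : Function.Injective g) (hmem : ∀ j, ∃ i, P i = g (P j)) :
    ∃ π : Equiv.Perm (Fin e), ∀ j, g (P j) = P (π j) := by
  choose π hπ using hmem
  have hinj : Function.Injective π := fun i j hij => hP (hg (by rw [← hπ i, ← hπ j, hij]))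
  exact ⟨Equiv.ofBijective π (Finite.injective_iff_bijective.mp hinj), fun j => (hπ j).symm⟩

/-! ### the moving lemma for the frame -/

/-- the `ℚ`-form of a Galois-stable Riemann–Roch space -/
def h94_fixedForm [CharZero F] (D : Divisor Qbar F) : Submodule ℚ F where
  carrier := {f | f ∈ riemannRochSpace D ∧ ∀ σ : GQ, fr.act σ • f = f}
  add_mem' := by
    rintro f g ⟨hf, hf'⟩ ⟨hg, hg'⟩
    exact ⟨Submodule.add_mem _ hf hg, fun σ => by rw [smul_add, hf' σ, hg' σ]⟩
  zero_mem' := ⟨Submodule.zero_mem _, fun σ => smul_zero _⟩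
  smul_mem' := by
    rintro q f ⟨hf, hf'⟩
    have hq : q • f = (algebraMap ℚ Qbar q) • f := (algebraMap_smul Qbar q f).symm
    refine ⟨?_, fun σ => ?_⟩
    · rw [hq]
      exact Submodule.smul_mem _ _ hf
    · rw [hq, h94_act_smul, hf' σ, σ.commutes]

/-- **Moving lemma.** Every Galois-fixed class is represented by a Galois-stable admissible
tuple of any length `e ≥ 2g + 1` avoiding a prescribed finite set of places. -/
theorem h94_exists_rep (e : ℕ) (he : 2 * fr.g + 1 ≤ e) (c : Pic0 Qbar F) (hc : fr.IsFixed c)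
    (T : Finset (Place Qbar F)) :
    ∃ A : Fin e → Place Qbar F, fr.IsAdm A ∧ fr.IsStable A ∧ fr.Rep A c ∧ ∀ j, A j ∉ T := by
  classical
  haveI : CharZero F := charZero_of_injective_algebraMap (algebraMap Qbar F).injective
  obtain ⟨d, E, hd, hE0, hEdeg, hEstab, D0, hD0, hmk⟩ := h6_frame_canon fr c hc
  have hde : d ≤ e := by omega
  set D : Divisor Qbar F := E + ((e - d : ℕ) : ℤ) • Finsupp.single fr.inf (1 : ℤ) with hDdef
  have hDdeg : Divisor.degree D = e := by
    rw [hDdef, map_add, map_zsmul, Divisor.degree_single, h75_deg_eq_one fr.chart, hEdeg]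
    push_cast [hde]
    simp
  have hDstab : ∀ σ : GQ, fr.act σ • D = D := by
    intro σ
    rw [hDdef, smul_add, h94_act_inf_smul, hEstab σ]
  have hspan : riemannRochSpace D ≤ Submodule.span Qbar ((h94_fixedForm fr D : Submodule ℚ F) : Set F) :=
    h94_rr_descent fr E hE0 hEstab (e - d)
  have hgD : 2 * (h75_genus Qbar fr.x : ℤ) + 1 ≤ Divisor.degree D := by
    rw [hDdeg]
    have : 2 * h75_genus Qbar fr.x + 1 ≤ e := he
    exact_mod_cast this
  obtain ⟨f, hfW, hf0, hred, havoid⟩ := h94_exists_member_form fr.chart D hgD (h94_fixedForm fr D)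
    hspan (fun w hw => hw.1) (insert fr.inf T)
  obtain ⟨Df, hDf⟩ := h7_exists_div fr.chart f hf0
  have hDfdeg : Divisor.degree Df = 0 := h7_degree_div fr.chart hf0 Df hDf
  have hDfstab : ∀ σ : GQ, fr.act σ • Df = Df := h94_act_div fr hfW.2 Df hDf
  have hA01 : ∀ P, (D + Df) P = 0 ∨ (D + Df) P = 1 := by
    intro P
    rw [Finsupp.add_apply, hDf]
    exact hred P
  have hAdeg : Divisor.degree (D + Df) = e := by rw [map_add, hDdeg, hDfdeg, add_zero]
  have hAstab : ∀ σ : GQ, fr.act σ • (D + Df) = D + Df := by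
    intro σ
    rw [smul_add, hDstab σ, hDfstab σ]
  have hA0 : ∀ P ∈ insert fr.inf T, (D + Df) P = 0 := by
    intro P hP
    rw [Finsupp.add_apply, hDf]
    exact havoid P hP
  obtain ⟨A, hAinj, hAsum, hAmem⟩ := h94_exists_tuple (h75_deg_eq_one fr.chart) (D + Df) hA01 e hAdeg
  have hA1 : ∀ j, (D + Df) (A j) = 1 := fun j => (hAmem (A j)).mpr ⟨j, rfl⟩
  refine ⟨A, ⟨hAinj, fun j hj => ?_⟩, fun σ => ?_, ?_, fun j hj => ?_⟩
  · have h1 := hA1 j
    rw [hj, hA0 fr.inf (Finset.mem_insert_self _ _)] at h1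
    exact zero_ne_one h1
  · refine h94_exists_perm A hAinj (fun P => fr.act σ • P) (MulAction.injective _) fun j => ?_
    refine (hAmem _).mp ?_
    show (D + Df) (fr.act σ • A j) = 1
    rw [← hA1 j]
    conv_lhs => rw [← hAstab σ]
    exact SemilinearAut.divisor_smul_apply_smul (fr.act σ) (D + Df) (A j)
  · refine ⟨D0 + ⟨Df, hDfdeg⟩, ?_, ?_⟩
    · show (D0 : Divisor Qbar F) + Df = h55_dv A - (e : ℤ) • Finsupp.single fr.inf (1 : ℤ)
      unfold h55_dv
      rw [hAsum, hD0, hDdef, Nat.cast_sub hde]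
      module
    · rw [Pic0.mk_add, hmk]
      have h0 : Pic0.mk (⟨Df, hDfdeg⟩ : Divisor.degZero (K := Qbar) (F := F)) = 0 := by
        refine (QuotientAddGroup.eq_zero_iff _).mpr ?_
        rw [AddSubgroup.mem_addSubgroupOf]
        exact ⟨f, hf0, hDf⟩
      rw [h0, add_zero]
  · have h1 := hA1 j
    rw [hA0 (A j) (Finset.mem_insert_of_mem hj)] at h1
    exact zero_ne_one h1

end Fermat.Agent.S17
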