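import Fermat.Agent.S17.R55_FB
import Fermat.Agent.S17.R55_FB2
import Fermat.Agent.S17.h94_ExistsRep
import Fermat.Agent.S17.h6_Canon

/-!
# S17 route R55, row MV, part 2: `h55_exists_cut`

For complementary stable representatives `A` of `c` and `B` of `-c` (both of length `e`), the
divisor `∑ A_j + ∑ B_j - 2e·inf` is principal and Galois-stable, so it is the divisor of a
function of `V_{e+e}` with *rational* coordinates in the frame basis.

* `h11_act_dv` : the divisor of a stable tuple is Galois-fixed;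
* `h11_exists_rat_of_principal` : a Galois-fixed principal divisor `≥ -k·inf` is the divisor of
  a rational vector of `V_k`;
* `h55_exists_cut` : the row statement.
-/

set_option autoImplicit false

open AlgebraicCurve

namespace Fermat.Agent.S17

open Fermat.Agent.S18 Fermat.Agent.S27 Fermat.Agent.S19 Fermat.Agent.S24

local notation "Qbar" => AlgebraicClosure ℚ
local notation "GQ" => (AlgebraicClosure ℚ ≃ₐ[ℚ] AlgebraicClosure ℚ)

variable {F : Type} [Field F] [Algebra Qbar F] (fr : h55_Frame F)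

/-- the divisor of a Galois-stable tuple is Galois-fixed -/
theorem h11_act_dv {a : ℕ} {P : Fin a → Place Qbar F} (hP : fr.IsStable P) (σ : GQ) :
    fr.act σ • h55_dv P = h55_dv P := by
  obtain ⟨π, hπ⟩ := hP σ
  unfold h55_dv
  rw [h82_smul_sum_single]
  have h1 : ∀ j, Finsupp.single (fr.act σ • P j) (1 : ℤ) = Finsupp.single (P (π j)) (1 : ℤ) :=
    fun j => by rw [hπ j]
  rw [Finset.sum_congr rfl fun j _ => h1 j]
  exact Equiv.sum_comp π fun j => Finsupp.single (P j) (1 : ℤ)

/-- the divisor of a tuple is effective -/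
theorem h11_dv_nonneg {a : ℕ} (P : Fin a → Place Qbar F) (v : Place Qbar F) :
    0 ≤ h55_dv P v := by
  classical
  unfold h55_dv
  rw [Finsupp.finsetSum_apply]
  refine Finset.sum_nonneg fun j _ => ?_
  rw [Finsupp.single_apply]
  split_ifs <;> simp

/-- **Rational sections of Galois-fixed principal divisors.**  If `Z - k·inf` is principal with
`Z ≥ 0` Galois-fixed, it is the divisor of a rational vector of `V_k`. -/
theorem h11_exists_rat_of_principal (k : ℕ) (Z : Divisor Qbar F) (hZ0 : ∀ v, 0 ≤ Z v)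
    (hZ : ∀ σ : GQ, fr.act σ • Z = Z)
    (hprin : Z - (k : ℤ) • Finsupp.single fr.inf (1 : ℤ) ∈
      Divisor.principal (K := Qbar) (F := F)) :
    ∃ s : Fin (fr.n k) → ℚ, fr.vec k (fun i => (s i : Qbar)) ≠ 0 ∧
      ∀ P : Place Qbar F, P.ord (fr.vec k (fun i => (s i : Qbar))) =
        (Z - (k : ℤ) • Finsupp.single fr.inf (1 : ℤ)) P := by
  obtain ⟨u, hu0, hu⟩ := hprin
  obtain ⟨Dk, hDk⟩ : ∃ Dk : Divisor Qbar F, Dk = (k : ℤ) • Finsupp.single fr.inf (1 : ℤ) :=
    ⟨_, rfl⟩
  rw [← hDk] at hu ⊢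
  -- the Galois-stable line `L(k·inf - Z)`
  have hstab : ∀ σ : GQ, fr.act σ • (Dk - Z) = Dk - Z := by
    intro σ
    rw [smul_sub, hDk, h94_act_inf_smul, hZ σ]
  have hle : riemannRochSpace (Dk - Z) ≤ fr.V k := by
    unfold h55_Frame.V
    rw [← hDk]
    refine h68_rr_mono ?_
    intro v
    rw [Finsupp.sub_apply]
    have := hZ0 v
    omega
  have huW : u ∈ riemannRochSpace (Dk - Z) := by
    rw [mem_riemannRochSpace_iff]
    intro v
    right
    rw [← hu v, Finsupp.sub_apply, Finsupp.sub_apply]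
    omega
  have hne : riemannRochSpace (Dk - Z) ≠ ⊥ := by
    intro hbot
    rw [hbot, Submodule.mem_bot] at huW
    exact hu0 huW
  obtain ⟨s0, hs0W, hs00, hfix⟩ := h94_frame_exists_fixed fr k _ hle
    (fun σ w hw => h94_act_mem_rr fr _ hstab σ hw) hne
  -- `s0 / u` is a constant
  have hq : s0 * u⁻¹ ∈ riemannRochSpace (0 : Divisor Qbar F) := by
    rw [mem_riemannRochSpace_iff]
    intro v
    right
    rw [Place.ord_mul v hs00 (inv_ne_zero hu0), Place.ord_inv, ← hu v]
    have h1 := ((mem_riemannRochSpace_iff.mp hs0W) v).resolve_left hs00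
    rw [Finsupp.sub_apply] at h1
    rw [Finsupp.sub_apply, Finsupp.zero_apply]
    omega
  rw [h7_rr_zero_eq fr.chart, Submodule.mem_span_singleton] at hq
  obtain ⟨a, ha⟩ := hq
  have hs0u : s0 = algebraMap Qbar F a * u := by
    rw [Algebra.smul_def, mul_one] at ha
    rw [ha, mul_assoc, inv_mul_cancel₀ hu0, mul_one]
  have ha0 : algebraMap Qbar F a ≠ 0 := by
    intro h0
    rw [h0, zero_mul] at hs0u
    exact hs00 hs0u
  obtain ⟨q, hq⟩ := h56_exists_rat_of_fixed fr k (hle hs0W) hfix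
  refine ⟨q, ?_, fun P => ?_⟩
  · rw [hq]
    exact hs00
  · rw [hq, hs0u, Place.ord_mul P ha0 hu0, h35_ord_algebraMap, zero_add, hu P]

/-- **Cutting function** (row MV (2)): for complementary stable representatives `A` of `c` and
`B` of `-c`, the tuple `A ⊔ B` is cut out by a rational vector of `V_{e+e}`. -/
theorem h55_exists_cut (e : ℕ) (c : Pic0 Qbar F) (A B : Fin e → Place Qbar F)
    (hA : fr.Rep A c) (hB : fr.Rep B (-c)) (stA : fr.IsStable A) (stB : fr.IsStable B)
    (hadm : fr.IsAdm (Fin.append A B)) :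
    ∃ s : Fin (fr.n (e + e)) → ℚ, fr.Cuts s (Fin.append A B) := by
  have _ := hadm
  obtain ⟨DA, hDA, hmkA⟩ := hA
  obtain ⟨DB, hDB, hmkB⟩ := hB
  have hmk : Pic0.mk DB = Pic0.mk (-DA) := by
    rw [hmkB, ← hmkA]
    rfl
  have hprin := (h6_mk_eq_mk_iff DB (-DA)).mp hmk
  have hsum : h55_dv (Fin.append A B) - ((e + e : ℕ) : ℤ) • Finsupp.single fr.inf (1 : ℤ) =
      (DB : Divisor Qbar F) - ((-DA : Divisor.degZero (K := Qbar) (F := F)) : Divisor Qbar F) := by
    rw [AddSubgroup.coe_neg, hDA, hDB, h55_dv_append, Nat.cast_add, add_smul]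
    abel
  rw [← hsum] at hprin
  obtain ⟨s, hs0, hs⟩ := h11_exists_rat_of_principal fr (e + e) (h55_dv (Fin.append A B))
    (h11_dv_nonneg _) (h11_act_dv fr (h55_isStable_append fr stA stB)) hprin
  exact ⟨s, hs0, hs⟩

end Fermat.Agent.S17
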