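import Fermat.Agent.S17.h80_Pencil

/-!
# S17 / C2 + C3: products of the spaces `L(M • P₀)` and the points of the projective model

`K` algebraically closed, `x` a chart of `F / K`, `g = h75_genus K x`, `P₀` a place ("`∞`").

* `h80_exists_sub_smul_mem` : `L(D) = L(D - P) + K w` for `w ∈ L(D)` with `ord_P w = -D(P)`;
* `h80_V_mul` : `L(a P₀) * L(b P₀) = L((a + b) P₀)` for `a, b ≥ 4g` (pole orders);
* `h80_V_pow` : `L(M P₀) ^ k = L(k M P₀)` for `M ≥ 4g`;
* `h80_prod_W` : `(∏_j L(M₀ P₀ - R_j)) * L(M'' P₀) = L((a M₀ + M'') P₀ - Σ_j R_j)` for arbitrary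
  places `R_j` (coincidences and `R_j = P₀` allowed), `M₀ ≥ 2g + 1`, `M'' ≥ M₀ + 2g - 2`.
-/

set_option autoImplicit false

open AlgebraicCurve IntermediateField

namespace Fermat.Agent.S17

open Fermat.Agent.S18 Fermat.Agent.S27

variable {K F : Type*} [Field K] [Field F] [Algebra K F] [IsAlgClosed K]

section Products

/-- `L(D) = L(D - P) + K w` for a section `w` of `D` which generates at `P`. -/
theorem h80_exists_sub_smul_mem {x : F} (hx : h75_IsChart K x) {D : Divisor K F}
    {P : Place K F} {w : F} (hw : w ∈ riemannRochSpace D) (hw0 : w ≠ 0)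
    (hwP : P.ord w = -D P) {z : F} (hz : z ∈ riemannRochSpace D) :
    ∃ c : K, z - c • w ∈ riemannRochSpace (D - Finsupp.single P 1) := by
  have hfin := (h75_riemann hx D).1
  have hle : riemannRochSpace (D - Finsupp.single P 1) ≤ riemannRochSpace D :=
    h68_rr_mono (h80_sub_single_le D P)
  have hpt := (h68_rr_point hx (D - Finsupp.single P 1) P).2
  rw [sub_add_cancel] at hpt
  have hwn : w ∉ riemannRochSpace (D - Finsupp.single P 1) := h80_notMem_of_ord_eq hw0 hwP
  have hsup : riemannRochSpace (D - Finsupp.single P 1) ⊔ Submodule.span K {w} ≤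
      riemannRochSpace D :=
    sup_le hle ((Submodule.span_singleton_le_iff_mem w _).mpr hw)
  have hlt : riemannRochSpace (D - Finsupp.single P 1) <
      riemannRochSpace (D - Finsupp.single P 1) ⊔ Submodule.span K {w} := by
    refine lt_of_le_of_ne le_sup_left ?_
    intro heq
    apply hwn
    rw [heq]
    exact Submodule.mem_sup_right (Submodule.mem_span_singleton_self w)
  have hfin' : Module.Finite K
      ↥(riemannRochSpace (D - Finsupp.single P 1) ⊔ Submodule.span K {w}) :=
    Submodule.finiteDimensional_of_le hsup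
  have hrk := Submodule.finrank_lt_finrank_of_lt hlt
  have heq : riemannRochSpace (D - Finsupp.single P 1) ⊔ Submodule.span K {w} =
      riemannRochSpace D :=
    Submodule.eq_of_le_of_finrank_le hsup (by omega)
  rw [← heq] at hz
  obtain ⟨u, hu, y, hy, rfl⟩ := Submodule.mem_sup.mp hz
  obtain ⟨c, rfl⟩ := Submodule.mem_span_singleton.mp hy
  exact ⟨c, by simpa using hu⟩

omit [IsAlgClosed K] in
theorem h80_one_mem (P₀ : Place K F) (b : ℕ) :
    (1 : F) ∈ riemannRochSpace (Finsupp.single P₀ (b : ℤ) : Divisor K F) := by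
  classical
  rw [mem_riemannRochSpace_iff]
  intro v
  right
  rw [Place.ord_one, Finsupp.single_apply]
  split_ifs
  · have : (0 : ℤ) ≤ (b : ℤ) := Int.natCast_nonneg b
    omega
  · simp

theorem h80_degree_single {x : F} (hx : h75_IsChart K x) (P : Place K F) (m : ℤ) :
    Divisor.degree (Finsupp.single P m : Divisor K F) = m := by
  rw [Divisor.degree_single, h75_deg_eq_one hx P]
  simp

omit [IsAlgClosed K] in
theorem h80_V_mono (P₀ : Place K F) {m n : ℤ} (h : m ≤ n) :
    riemannRochSpace (Finsupp.single P₀ m : Divisor K F) ≤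
      riemannRochSpace (Finsupp.single P₀ n) := by
  classical
  refine h68_rr_mono ?_
  rw [Finsupp.le_def]
  intro v
  rw [Finsupp.single_apply, Finsupp.single_apply]
  split_ifs
  · exact h
  · exact le_refl _

/-- (C2a) `L(a P₀) * L(b P₀) = L((a + b) P₀)` for `a, b ≥ 4g`. -/
theorem h80_V_mul {x : F} (hx : h75_IsChart K x) (P₀ : Place K F) (a b : ℕ)
    (ha : 4 * h75_genus K x ≤ a) (hb : 4 * h75_genus K x ≤ b) :
    riemannRochSpace (Finsupp.single P₀ (a : ℤ) : Divisor K F) *
        riemannRochSpace (Finsupp.single P₀ (b : ℤ)) =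
      riemannRochSpace (Finsupp.single P₀ ((a + b : ℕ) : ℤ)) := by
  classical
  refine le_antisymm ?_ ?_
  · have := h80_rr_mul_le (Finsupp.single P₀ (a : ℤ) : Divisor K F) (Finsupp.single P₀ (b : ℤ))
    rwa [← Finsupp.single_add, ← Nat.cast_add] at this
  · -- induction on the pole order
    have key : ∀ n : ℕ, n ≤ a + b →
        riemannRochSpace (Finsupp.single P₀ (n : ℤ) : Divisor K F) ≤
          riemannRochSpace (Finsupp.single P₀ (a : ℤ)) *
            riemannRochSpace (Finsupp.single P₀ (b : ℤ)) := by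
      intro n
      induction n with
      | zero =>
        intro _ z hz
        have hz' : z ∈ riemannRochSpace (Finsupp.single P₀ (a : ℤ) : Divisor K F) :=
          h80_V_mono P₀ (by exact_mod_cast Nat.zero_le a) hz
        have := Submodule.mul_mem_mul hz' (h80_one_mem (K := K) P₀ b)
        rwa [mul_one] at this
      | succ n ih =>
        intro hn
        by_cases hna : n + 1 ≤ a
        · intro z hz
          have hz' : z ∈ riemannRochSpace (Finsupp.single P₀ (a : ℤ) : Divisor K F) :=
            h80_V_mono P₀ (by exact_mod_cast hna) hz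
          have := Submodule.mul_mem_mul hz' (h80_one_mem (K := K) P₀ b)
          rwa [mul_one] at this
        · -- split `n + 1 = n₁ + n₂`
          have hsplit : ∃ n₁ n₂ : ℕ, n₁ + n₂ = n + 1 ∧ 2 * h75_genus K x ≤ n₁ ∧ n₁ ≤ a ∧
              2 * h75_genus K x ≤ n₂ ∧ n₂ ≤ b := by
            by_cases hcase : 2 * h75_genus K x ≤ n + 1 - a
            · exact ⟨a, n + 1 - a, by omega, by omega, le_refl _, hcase, by omega⟩
            · exact ⟨n + 1 - 2 * h75_genus K x, 2 * h75_genus K x, by omega, by omega, by omega,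
                le_refl _, by omega⟩
          obtain ⟨n₁, n₂, hsum, h1g, h1a, h2g, h2b⟩ := hsplit
          obtain ⟨f₁, hf₁, hf₁0, hf₁P⟩ := h80_exists_ord_eq hx
            (Finsupp.single P₀ (n₁ : ℤ)) (by rw [h80_degree_single hx]; exact_mod_cast h1g) P₀
          obtain ⟨f₂, hf₂, hf₂0, hf₂P⟩ := h80_exists_ord_eq hx
            (Finsupp.single P₀ (n₂ : ℤ)) (by rw [h80_degree_single hx]; exact_mod_cast h2g) P₀
          rw [Finsupp.single_eq_same] at hf₁P hf₂P
          have hw : f₁ * f₂ ∈ riemannRochSpace (Finsupp.single P₀ ((n + 1 : ℕ) : ℤ) :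
              Divisor K F) := by
            have := h80_mul_mem hf₁ hf₂
            rwa [← Finsupp.single_add, ← Nat.cast_add, hsum] at this
          have hw0 : f₁ * f₂ ≠ 0 := mul_ne_zero hf₁0 hf₂0
          have hwP : P₀.ord (f₁ * f₂) =
              -(Finsupp.single P₀ ((n + 1 : ℕ) : ℤ) : Divisor K F) P₀ := by
            rw [P₀.ord_mul hf₁0 hf₂0, hf₁P, hf₂P, Finsupp.single_eq_same, ← hsum]
            push_cast
            ring
          have hwmem : f₁ * f₂ ∈ riemannRochSpace (Finsupp.single P₀ (a : ℤ) : Divisor K F) *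
              riemannRochSpace (Finsupp.single P₀ (b : ℤ)) :=
            Submodule.mul_mem_mul (h80_V_mono P₀ (by exact_mod_cast h1a) hf₁)
              (h80_V_mono P₀ (by exact_mod_cast h2b) hf₂)
          intro z hz
          obtain ⟨c, hc⟩ := h80_exists_sub_smul_mem hx hw hw0 hwP hz
          have hc' : z - c • (f₁ * f₂) ∈
              riemannRochSpace (Finsupp.single P₀ (n : ℤ) : Divisor K F) := by
            have e : (Finsupp.single P₀ ((n + 1 : ℕ) : ℤ) : Divisor K F) - Finsupp.single P₀ 1 =
                Finsupp.single P₀ (n : ℤ) := by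
              rw [← Finsupp.single_sub]
              congr 1
              push_cast
              ring
            rwa [e] at hc
          have h1 := ih (by omega) hc'
          have h2 := Submodule.smul_mem _ c hwmem
          have := Submodule.add_mem _ h1 h2
          rwa [sub_add_cancel] at this
    exact key (a + b) (le_refl _)

/-- `L(M P₀) ^ k = L(k M P₀)` for `M ≥ 4g`, `k ≥ 1`. -/
theorem h80_V_pow {x : F} (hx : h75_IsChart K x) (P₀ : Place K F) (M : ℕ)
    (hM : 4 * h75_genus K x ≤ M) (k : ℕ) :
    riemannRochSpace (Finsupp.single P₀ (M : ℤ) : Divisor K F) ^ (k + 1) =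
      riemannRochSpace (Finsupp.single P₀ (((k + 1) * M : ℕ) : ℤ)) := by
  induction k with
  | zero => simp
  | succ k ih =>
    rw [pow_succ, ih, mul_comm, h80_V_mul hx P₀ M ((k + 1) * M) hM
      (le_trans hM (Nat.le_mul_of_pos_left M (Nat.succ_pos k)))]
    congr 3
    ring

/-- (C2b) the iterated product `(∏_j L(M₀ P₀ - R_j)) * L(M'' P₀)` for arbitrary places `R_j`. -/
theorem h80_prod_W {x : F} (hx : h75_IsChart K x) (P₀ : Place K F) (M₀ M'' : ℤ)
    (h₀ : 2 * (h75_genus K x : ℤ) + 1 ≤ M₀) (h'' : M₀ + 2 * (h75_genus K x : ℤ) - 2 ≤ M'')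
    {ι : Type*} (s : Finset ι) (R : ι → Place K F) :
    (∏ j ∈ s, riemannRochSpace (Finsupp.single P₀ M₀ - Finsupp.single (R j) 1 : Divisor K F)) *
        riemannRochSpace (Finsupp.single P₀ M'') =
      riemannRochSpace (Finsupp.single P₀ ((s.card : ℤ) * M₀ + M'') -
        ∑ j ∈ s, Finsupp.single (R j) 1) := by
  classical
  have hg : (0 : ℤ) ≤ (h75_genus K x : ℤ) := Int.natCast_nonneg _
  induction s using Finset.induction_on with
  | empty => simp
  | insert j s hj ih =>
    rw [Finset.prod_insert hj, mul_assoc, ih]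
    have hdeg1 : Divisor.degree (Finsupp.single P₀ M₀ - Finsupp.single (R j) 1 : Divisor K F) =
        M₀ - 1 := by
      rw [map_sub, h80_degree_single hx, h80_degree_single hx]
    have hdeg2 : Divisor.degree (Finsupp.single P₀ ((s.card : ℤ) * M₀ + M'') -
        ∑ j ∈ s, Finsupp.single (R j) 1 : Divisor K F) = (s.card : ℤ) * M₀ + M'' - s.card := by
      rw [map_sub, h80_degree_single hx, map_sum]
      simp [h80_degree_single hx]
    have hcard : (0 : ℤ) ≤ (s.card : ℤ) := Int.natCast_nonneg _
    rw [h80_rr_mul_eq hx _ _ (by rw [hdeg1]; omega) (by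
      rw [hdeg1, hdeg2]
      nlinarith)]
    congr 1
    rw [Finset.sum_insert hj, Finset.card_insert_of_notMem hj]
    have e : (Finsupp.single P₀ (((s.card + 1 : ℕ) : ℤ) * M₀ + M'') : Divisor K F) =
        Finsupp.single P₀ M₀ + Finsupp.single P₀ ((s.card : ℤ) * M₀ + M'') := by
      rw [← Finsupp.single_add]
      congr 1
      push_cast
      ring
    rw [e]
    abel

end Products

end Fermat.Agent.S17
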