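import Fermat.Agent.S17.h55_Frame
import Fermat.Agent.S17.h32_SchmidtGal
import Fermat.Agent.S17.h80_Proj
import Fermat.Agent.S19.h82_SemiRR

/-!
# S17 height block (route R55), row FB, algebraic half (owner helper56)

The elementary calculus of a frame `fr : h55_Frame F`: dimension of `V_M = L(M·inf)`, coordinates
(`fr.vec`), the Galois action on coordinates, rational structure constants, evaluation at places
and its equivariance. Statements `h55_*` verbatim from the skeleton of helper55.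
-/

set_option autoImplicit false

open AlgebraicCurve

namespace Fermat.Agent.S17

open Fermat.Agent.S18 Fermat.Agent.S27 Fermat.Agent.S19

local notation "Qbar" => AlgebraicClosure ℚ
local notation "GQ" => (AlgebraicClosure ℚ ≃ₐ[ℚ] AlgebraicClosure ℚ)

variable {F : Type} [Field F] [Algebra Qbar F] (fr : h55_Frame F)

/-! ## dimension and coordinates -/

theorem h56_finrank_V (M : ℕ) : Module.finrank Qbar (fr.V M) = fr.n M := by
  have h := finrank_span_eq_card (fr.b_li M)
  rw [fr.b_span M, Fintype.card_fin] at h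
  exact h

theorem h56_degree_smul_inf (M : ℤ) :
    Divisor.degree (M • Finsupp.single fr.inf (1 : ℤ) : Divisor Qbar F) = M := by
  rw [map_zsmul, h80_degree_single fr.chart fr.inf 1, smul_eq_mul, mul_one]

theorem h55_n_eq (M : ℕ) (hM : 2 * fr.g ≤ M + 1) : (fr.n M : ℤ) = M + 1 - fr.g := by
  rw [← h56_finrank_V]
  have h := h15_finrank_rr_of_deg fr.chart ((M : ℤ) • Finsupp.single fr.inf (1 : ℤ)) (by
    rw [h56_degree_smul_inf]
    have : (2 * fr.g : ℤ) ≤ M + 1 := by exact_mod_cast hM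
    unfold h55_Frame.g at this
    omega)
  rw [h56_degree_smul_inf] at h
  exact h

theorem h55_vec_mem (M : ℕ) (c : Fin (fr.n M) → Qbar) : fr.vec M c ∈ fr.V M := by
  unfold h55_Frame.vec h55_Frame.V
  rw [← fr.b_span M]
  exact Submodule.sum_mem _ fun i _ => Submodule.smul_mem _ _ (Submodule.subset_span ⟨i, rfl⟩)

theorem h55_exists_vec (M : ℕ) {f : F} (hf : f ∈ fr.V M) : ∃ c, fr.vec M c = f := by
  unfold h55_Frame.V at hf
  rw [← fr.b_span M] at hf
  obtain ⟨c, hc⟩ := (Submodule.mem_span_range_iff_exists_fun Qbar).mp hf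
  exact ⟨c, hc⟩

theorem h55_vec_injective (M : ℕ) : Function.Injective (fr.vec M) := by
  intro c c' h
  have h0 : ∑ i, (c i - c' i) • fr.b M i = 0 := by
    simp only [sub_smul, Finset.sum_sub_distrib]
    exact sub_eq_zero.mpr h
  have h1 := Fintype.linearIndependent_iff.mp (fr.b_li M) (fun i => c i - c' i) h0
  funext i
  exact sub_eq_zero.mp (h1 i)

theorem h56_vec_add (M : ℕ) (c c' : Fin (fr.n M) → Qbar) :
    fr.vec M (c + c') = fr.vec M c + fr.vec M c' := by
  unfold h55_Frame.vec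
  simp only [Pi.add_apply, add_smul, Finset.sum_add_distrib]

theorem h56_vec_smul (M : ℕ) (a : Qbar) (c : Fin (fr.n M) → Qbar) :
    fr.vec M (a • c) = a • fr.vec M c := by
  unfold h55_Frame.vec
  simp only [Pi.smul_apply, smul_eq_mul, mul_smul, Finset.smul_sum]

theorem h56_vec_zero (M : ℕ) : fr.vec M 0 = 0 := by
  unfold h55_Frame.vec
  simp

theorem h56_vec_single (M : ℕ) (i : Fin (fr.n M)) : fr.vec M (Pi.single i 1) = fr.b M i := by
  unfold h55_Frame.vec
  rw [Finset.sum_eq_single i]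
  · simp
  · intro j _ hj
    simp [hj]
  · intro h
    exact absurd (Finset.mem_univ i) h

theorem h56_vec_sum (M : ℕ) {ι : Type*} (s : Finset ι) (c : ι → Fin (fr.n M) → Qbar) :
    fr.vec M (∑ j ∈ s, c j) = ∑ j ∈ s, fr.vec M (c j) := by
  classical
  induction s using Finset.induction_on with
  | empty => simp [h56_vec_zero]
  | insert a s ha ih => rw [Finset.sum_insert ha, Finset.sum_insert ha, h56_vec_add, ih]

/-! ## the Galois action on coordinates -/

theorem h55_act_vec (M : ℕ) (c : Fin (fr.n M) → Qbar) (σ : GQ) :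
    fr.act σ • fr.vec M c = fr.vec M (fun i => σ (c i)) := by
  unfold h55_Frame.vec
  rw [h82_smul_sum_smul_of_fixed (fr.act σ) Finset.univ c (fr.b M) (fun i => fr.b_fix M i σ)]
  refine Finset.sum_congr rfl fun i _ => ?_
  rw [fr.base σ]
  rfl

theorem h55_vec_rat_of_fixed (M : ℕ) (c : Fin (fr.n M) → Qbar)
    (h : ∀ σ : GQ, fr.act σ • fr.vec M c = fr.vec M c) :
    ∃ q : Fin (fr.n M) → ℚ, c = fun i => (q i : Qbar) := by
  have h1 : ∀ i, ∃ q : ℚ, c i = (q : Qbar) := by
    intro i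
    refine h32_rat_of_fixed fun σ => ?_
    have h2 := h σ
    rw [h55_act_vec] at h2
    exact congrFun (h55_vec_injective fr M h2) i
  choose q hq using h1
  exact ⟨q, funext hq⟩

theorem h56_act_vec_rat (M : ℕ) (q : Fin (fr.n M) → ℚ) (σ : GQ) :
    fr.act σ • fr.vec M (fun i => (q i : Qbar)) = fr.vec M (fun i => (q i : Qbar)) := by
  rw [h55_act_vec]
  congr 1
  funext i
  exact map_ratCast σ (q i)

/-- A Galois-fixed function of `V_M` has rational coordinates. -/
theorem h56_exists_rat_of_fixed (M : ℕ) {f : F} (hf : f ∈ fr.V M)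
    (hfix : ∀ σ : GQ, fr.act σ • f = f) :
    ∃ q : Fin (fr.n M) → ℚ, fr.vec M (fun i => (q i : Qbar)) = f := by
  obtain ⟨c, rfl⟩ := h55_exists_vec fr M hf
  obtain ⟨q, rfl⟩ := h55_vec_rat_of_fixed fr M c hfix
  exact ⟨q, rfl⟩

/-! ## multiplication -/

theorem h56_smul_single_inf (M : ℤ) :
    (M • Finsupp.single fr.inf (1 : ℤ) : Divisor Qbar F) = Finsupp.single fr.inf M := by
  rw [Finsupp.smul_single, smul_eq_mul, mul_one]

theorem h56_mul_mem_V (M M' : ℕ) {f h : F} (hf : f ∈ fr.V M) (hh : h ∈ fr.V M') :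
    f * h ∈ fr.V (M + M') := by
  have h1 := h80_mul_mem hf hh
  unfold h55_Frame.V
  rw [Nat.cast_add, add_smul]
  exact h1

theorem h56_b_mem (M : ℕ) (i : Fin (fr.n M)) : fr.b M i ∈ fr.V M := by
  unfold h55_Frame.V
  rw [← fr.b_span M]
  exact Submodule.subset_span ⟨i, rfl⟩

theorem h55_exists_mul (M M' : ℕ) :
    ∃ μ : Fin (fr.n M) → Fin (fr.n M') → Fin (fr.n (M + M')) → ℚ,
      ∀ i j, fr.b M i * fr.b M' j = fr.vec (M + M') (fun l => (μ i j l : Qbar)) := by
  have h : ∀ i j, ∃ q : Fin (fr.n (M + M')) → ℚ,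
      fr.vec (M + M') (fun l => (q l : Qbar)) = fr.b M i * fr.b M' j := by
    intro i j
    refine h56_exists_rat_of_fixed fr (M + M')
      (h56_mul_mem_V fr M M' (h56_b_mem fr M i) (h56_b_mem fr M' j)) fun σ => ?_
    rw [smul_mul', fr.b_fix M i σ, fr.b_fix M' j σ]
  choose μ hμ using h
  exact ⟨μ, fun i j => (hμ i j).symm⟩

theorem h55_exists_mul_rat (M M' : ℕ) (s : Fin (fr.n M) → ℚ) (u : Fin (fr.n M') → ℚ) :
    ∃ t : Fin (fr.n (M + M')) → ℚ, fr.vec (M + M') (fun l => (t l : Qbar)) =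
      fr.vec M (fun i => (s i : Qbar)) * fr.vec M' (fun j => (u j : Qbar)) := by
  refine h56_exists_rat_of_fixed fr (M + M')
    (h56_mul_mem_V fr M M' (h55_vec_mem fr M _) (h55_vec_mem fr M' _)) fun σ => ?_
  rw [smul_mul', h56_act_vec_rat, h56_act_vec_rat]

/-! ## evaluation at places -/

theorem h56_single_inf_apply (M : ℤ) {P : Place Qbar F} (hP : P ≠ fr.inf) :
    (M • Finsupp.single fr.inf (1 : ℤ) : Divisor Qbar F) P = 0 := by
  classical
  rw [h56_smul_single_inf, Finsupp.single_apply, if_neg (Ne.symm hP)]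

theorem h55_mem_valuationSubring (M : ℕ) {f : F} (hf : f ∈ fr.V M) {P : Place Qbar F}
    (hP : P ≠ fr.inf) : f ∈ P.toValuationSubring := by
  by_cases hf0 : f = 0
  · rw [hf0]
    exact P.toValuationSubring.zero_mem
  unfold h55_Frame.V at hf
  rw [mem_riemannRochSpace_iff] at hf
  have h1 := (hf P).resolve_left hf0
  rw [h56_single_inf_apply fr _ hP, neg_zero] at h1
  exact (Fermat.Agent.S24.h35_mem_iff_ord_nonneg P hf0).mpr h1

/-- evaluation at a place is linear on finite combinations of regular functions. -/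
theorem h56_ev_sum_smul {x : F} (hx : h75_IsChart Qbar x) (P : Place Qbar F) {ι : Type*}
    (s : Finset ι) (c : ι → Qbar) (v : ι → F) (hv : ∀ i ∈ s, v i ∈ P.toValuationSubring) :
    (∑ i ∈ s, c i • v i) ∈ P.toValuationSubring ∧
      h92_ev P (∑ i ∈ s, c i • v i) = ∑ i ∈ s, c i * h92_ev P (v i) := by
  classical
  have hc : ∀ a : Qbar, algebraMap Qbar F a ∈ P.toValuationSubring := fun a =>
    (h39_val_mem P (h39_val_algebraMap P a))
  induction s using Finset.induction_on with
  | empty => exact ⟨by simp [P.toValuationSubring.zero_mem], by simp⟩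
  | insert a s ha ih =>
    obtain ⟨h1, h2⟩ := ih fun i hi => hv i (Finset.mem_insert_of_mem hi)
    have h3 : c a • v a ∈ P.toValuationSubring := by
      rw [Algebra.smul_def]
      exact P.toValuationSubring.mul_mem _ _ (hc _) (hv a (Finset.mem_insert_self a s))
    rw [Finset.sum_insert ha, Finset.sum_insert ha]
    refine ⟨P.toValuationSubring.add_mem _ _ h3 h1, ?_⟩
    rw [h92_ev_add hx P h3 h1, h2, Algebra.smul_def,
      h92_ev_mul hx P (hc _) (hv a (Finset.mem_insert_self a s)), h92_ev_algebraMap]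

theorem h55_ev_vec (M : ℕ) (c : Fin (fr.n M) → Qbar) {P : Place Qbar F} (hP : P ≠ fr.inf) :
    h92_ev P (fr.vec M c) = ∑ i, c i * fr.pt M P i :=
  (h56_ev_sum_smul fr.chart P Finset.univ c (fr.b M)
    fun i _ => h55_mem_valuationSubring fr M (h56_b_mem fr M i) hP).2

theorem h56_smul_ne_inf {P : Place Qbar F} (hP : P ≠ fr.inf) (σ : GQ) :
    fr.act σ • P ≠ fr.inf := by
  intro h
  apply hP
  have h1 : (fr.act σ)⁻¹ • (fr.act σ • P) = (fr.act σ)⁻¹ • fr.inf := by rw [h]
  rw [inv_smul_smul] at h1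
  rw [h1, ← fr.inf_fix σ, inv_smul_smul, fr.inf_fix σ]

/-- equivariance of evaluation: `(σ f)(σ P) = σ (f(P))` for `f` regular at `P`. -/
theorem h56_ev_smul (σ : GQ) (P : Place Qbar F) {f : F} (hf : f ∈ P.toValuationSubring) :
    h92_ev (fr.act σ • P) (fr.act σ • f) = σ (h92_ev P f) := by
  have h1 := h82_val_smul (fr.act σ) (h92_val_ev fr.chart P hf)
  rw [fr.base σ] at h1
  exact h92_ev_eq h1

theorem h55_pt_smul (M : ℕ) {P : Place Qbar F} (hP : P ≠ fr.inf) (σ : GQ) :
    fr.pt M (fr.act σ • P) = fun i => σ (fr.pt M P i) := by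
  funext i
  have h1 := h56_ev_smul fr σ P (h55_mem_valuationSubring fr M (h56_b_mem fr M i) hP)
  rw [fr.b_fix M i σ] at h1
  exact h1

theorem h56_one_mem_V (M : ℕ) : (1 : F) ∈ fr.V M := by
  unfold h55_Frame.V
  rw [h56_smul_single_inf]
  exact h80_one_mem fr.inf M

theorem h55_pt_ne_zero (M : ℕ) {P : Place Qbar F} (hP : P ≠ fr.inf) : fr.pt M P ≠ 0 := by
  intro h0
  obtain ⟨c, hc⟩ := h55_exists_vec fr M (h56_one_mem_V fr M)
  have h1 := h55_ev_vec fr M c hP
  rw [hc, h92_ev_one, h0] at h1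
  simp at h1

end Fermat.Agent.S17
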