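import Mathlib
import Fermat.Agent.S17.h86_Minors

/-!
# S17 / R55 row G2, abstract core (helper58): the local estimate (VF), curve-free

`K` a field with an absolute value `v`.  Data (all in coordinates):

* `mu : MultilinearMap K (fun _ : Fin a => Fin n0 → K) ((Fin n2 → K) →ₗ[K] (Fin n → K))`
  (the product `V_{M0}^a × V_{M''} → V_M` in fixed bases);
* `h58_lf y (k, l) = y_k e_l - y_l e_k` : the linear forms through the point `y`;
* `h58_T mu y : (tuples κ → Fin n2 → K) →ₗ (Fin n → K)`,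
  `τ ↦ ∑_κ mu (fun j => h58_lf (y j) (κ j)) (τ κ)`  (R55 3(c)'s matrix `T`);
* a "point" is a triple `(η, η2, β)` with `β ⬝ᵥ mu f τ = (∏ j, η ⬝ᵥ f j) * (η2 ⬝ᵥ τ)`.

Results: `h58_mu_le` (the product is bounded), `h58_nm_le` / `h58_nm_ge` (one-point comparison
`‖η‖^a ‖η2‖ ~ ‖β‖`), `h58_vf_ge` (an explicit element of `range (h58_T mu y)` realising the lower
bound), `h58_vf_le_factor` / `h58_vf_le` (upper bound from a bounded factorisation `h58_BRI`).
-/

set_option autoImplicit false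

noncomputable section

namespace Fermat.Agent.S17

open Matrix

variable {K : Type*} [Field K]

/-! ### constants that are `1` almost everywhere -/

/-- `c w ≥ 1` for all `w` and `c w = 1` for almost all `w`. -/
def h58_AA {W : Type*} (c : W → ℝ) : Prop := (∀ w, 1 ≤ c w) ∧ {w | c w ≠ 1}.Finite

theorem h58_AA_one {W : Type*} : h58_AA (fun _ : W => (1 : ℝ)) :=
  ⟨fun _ => le_rfl, by simp⟩

theorem h58_AA.mul {W : Type*} {c d : W → ℝ} (hc : h58_AA c) (hd : h58_AA d) :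
    h58_AA (fun w => c w * d w) := by
  refine ⟨fun w => one_le_mul_of_one_le_of_one_le (hc.1 w) (hd.1 w), ?_⟩
  refine (hc.2.union hd.2).subset fun w hw => ?_
  by_contra hcon
  simp only [Set.mem_union, Set.mem_ofPred_eq, not_or, not_not] at hcon
  exact hw (by show c w * d w = 1; rw [hcon.1, hcon.2, mul_one])

theorem h58_AA.pow {W : Type*} {c : W → ℝ} (hc : h58_AA c) (k : ℕ) :
    h58_AA (fun w => c w ^ k) := by
  refine ⟨fun w => one_le_pow₀ (hc.1 w), ?_⟩
  refine hc.2.subset fun w hw => ?_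
  by_contra hcon
  simp only [Set.mem_ofPred_eq, not_not] at hcon
  exact hw (by show c w ^ k = 1; rw [hcon, one_pow])

theorem h58_AA.prod {W : Type*} {ι : Type*} (s : Finset ι) {c : ι → W → ℝ}
    (hc : ∀ i ∈ s, h58_AA (c i)) : h58_AA (fun w => ∏ i ∈ s, c i w) := by
  classical
  induction s using Finset.induction with
  | empty => simpa using h58_AA_one
  | insert a s ha ih =>
    have h1 := (hc a (Finset.mem_insert_self a s)).mul
      (ih fun i hi => hc i (Finset.mem_insert_of_mem hi))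
    refine ⟨fun w => ?_, ?_⟩
    · show 1 ≤ ∏ i ∈ insert a s, c i w
      rw [Finset.prod_insert ha]; exact h1.1 w
    · refine h1.2.subset fun w hw => ?_
      have hw' : ∏ i ∈ insert a s, c i w ≠ 1 := hw
      rw [Finset.prod_insert ha] at hw'
      exact hw'

theorem h58_AA.pos {W : Type*} {c : W → ℝ} (hc : h58_AA c) (w : W) : 0 < c w :=
  lt_of_lt_of_le zero_lt_one (hc.1 w)

open Classical in
/-- The local constant of a finite family of scalars: `1` if the absolute value is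
nonarchimedean and all members have value `≤ 1`. -/
def h58_fc (v : AbsoluteValue K ℝ) {ι : Type*} [Fintype ι] (c : ι → K) : ℝ :=
  if IsNonarchimedean v ∧ ∀ i, v (c i) ≤ 1 then 1 else max 1 (∑ i, v (c i))

theorem h58_one_le_fc (v : AbsoluteValue K ℝ) {ι : Type*} [Fintype ι] (c : ι → K) :
    1 ≤ h58_fc v c := by
  unfold h58_fc
  split_ifs
  · exact le_rfl
  · exact le_max_left _ _

theorem h58_fc_pos (v : AbsoluteValue K ℝ) {ι : Type*} [Fintype ι] (c : ι → K) :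
    0 < h58_fc v c := lt_of_lt_of_le zero_lt_one (h58_one_le_fc v c)

theorem h58_nonarch_sum_le (v : AbsoluteValue K ℝ) (hv : IsNonarchimedean v) {α : Type*}
    (s : Finset α) (l : α → K) {B : ℝ} (hB : 0 ≤ B) (h : ∀ i ∈ s, v (l i) ≤ B) :
    v (∑ i ∈ s, l i) ≤ B := by
  classical
  induction s using Finset.induction with
  | empty => simpa using hB
  | insert a s ha ih =>
    rw [Finset.sum_insert ha]
    exact (hv _ _).trans (max_le (h a (Finset.mem_insert_self a s))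
      (ih fun i hi => h i (Finset.mem_insert_of_mem hi)))

/-- the basic bound: `|∑ c_i x_i| ≤ fc * B` if all `|x_i| ≤ B`. -/
theorem h58_fc_bound (v : AbsoluteValue K ℝ) {ι : Type*} [Fintype ι] (c x : ι → K) {B : ℝ}
    (hB : 0 ≤ B) (hx : ∀ i, v (x i) ≤ B) : v (∑ i, c i * x i) ≤ h58_fc v c * B := by
  unfold h58_fc
  split_ifs with h
  · rw [one_mul]
    refine h58_nonarch_sum_le v h.1 _ _ hB fun i _ => ?_
    rw [map_mul]
    calc v (c i) * v (x i) ≤ 1 * B := mul_le_mul (h.2 i) (hx i) (v.nonneg _) zero_le_one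
      _ = B := one_mul _
  · calc v (∑ i, c i * x i) ≤ ∑ i, v (c i * x i) := v.sum_le _ _
      _ ≤ ∑ i, v (c i) * B := by
          refine Finset.sum_le_sum fun i _ => ?_
          rw [map_mul]
          exact mul_le_mul_of_nonneg_left (hx i) (v.nonneg _)
      _ = (∑ i, v (c i)) * B := by rw [Finset.sum_mul]
      _ ≤ max 1 (∑ i, v (c i)) * B := mul_le_mul_of_nonneg_right (le_max_right _ _) hB

theorem h58_fc_aa {W : Type*} (av : W → AbsoluteValue K ℝ)
    (h1 : ∀ α : K, α ≠ 0 → {w | av w α ≠ 1}.Finite)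
    (h2 : {w | ¬ IsNonarchimedean (av w)}.Finite) {ι : Type*} [Fintype ι] (c : ι → K) :
    h58_AA (fun w => h58_fc (av w) c) := by
  classical
  refine ⟨fun w => h58_one_le_fc _ _, ?_⟩
  have hfin : ({w | ¬ IsNonarchimedean (av w)} ∪
      ⋃ i ∈ (Finset.univ.filter fun i => c i ≠ 0), {w | av w (c i) ≠ 1}).Finite := by
    refine h2.union ?_
    exact Set.Finite.biUnion (Finset.finite_toSet _) fun i hi =>
      h1 _ (by simpa using hi)
  refine hfin.subset fun w hw => ?_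
  by_contra hcon
  apply hw
  simp only [Set.mem_union, Set.mem_ofPred_eq, Set.mem_iUnion, not_or, not_not, not_exists,
    Finset.mem_filter, Finset.mem_univ, true_and] at hcon
  obtain ⟨hna, hc⟩ := hcon
  have hall : ∀ i, av w (c i) ≤ 1 := by
    intro i
    by_cases hi : c i = 0
    · rw [hi, map_zero]; exact zero_le_one
    · exact (hc i hi).le
  show h58_fc (av w) c = 1
  unfold h58_fc
  rw [if_pos ⟨hna, hall⟩]

/-! ### sup norms -/

theorem h58_exists_eq_vnorm (v : AbsoluteValue K ℝ) {ι : Type*} [Finite ι] [Nonempty ι]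
    (t : ι → K) : ∃ i, v (t i) = h86_vnorm v t := by
  obtain ⟨i, hi⟩ := Finite.exists_max (fun i => v (t i))
  exact ⟨i, le_antisymm (h86_le_vnorm v t i) (h86_vnorm_le v t (v.nonneg _) hi)⟩

theorem h58_vnorm_of_isEmpty (v : AbsoluteValue K ℝ) {ι : Type*} [IsEmpty ι] (t : ι → K) :
    h86_vnorm v t = 0 := by
  unfold h86_vnorm
  exact Real.iSup_of_isEmpty _

theorem h58_vnorm_pos (v : AbsoluteValue K ℝ) {ι : Type*} [Finite ι] {t : ι → K} (ht : t ≠ 0) :
    0 < h86_vnorm v t := by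
  obtain ⟨i, hi⟩ : ∃ i, t i ≠ 0 := by
    by_contra h
    push Not at h
    exact ht (funext h)
  exact lt_of_lt_of_le (v.pos hi) (h86_le_vnorm v t i)

theorem h58_vnorm_smul (v : AbsoluteValue K ℝ) {ι : Type*} (c : K) (t : ι → K) :
    h86_vnorm v (c • t) = v c * h86_vnorm v t := by
  unfold h86_vnorm
  rw [Real.mul_iSup_of_nonneg (v.nonneg _)]
  refine congrArg _ (funext fun i => ?_)
  rw [Pi.smul_apply, smul_eq_mul, map_mul]

theorem h58_vnorm_single (v : AbsoluteValue K ℝ) {ι : Type*} [Finite ι] [DecidableEq ι] (i : ι) :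
    h86_vnorm v (Pi.single i (1 : K)) ≤ 1 := by
  refine h86_vnorm_le v _ zero_le_one fun j => ?_
  by_cases h : j = i
  · subst h; simp
  · simp [h]

theorem h58_dot_le (v : AbsoluteValue K ℝ) {ι : Type*} [Fintype ι] (x t : ι → K) :
    v (x ⬝ᵥ t) ≤ h58_fc v (fun _ : ι => (1 : K)) * (h86_vnorm v x * h86_vnorm v t) := by
  have h := h58_fc_bound v (fun _ : ι => (1 : K)) (fun i => x i * t i)
    (mul_nonneg (h86_vnorm_nonneg v x) (h86_vnorm_nonneg v t)) (fun i => by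
      rw [map_mul]
      exact mul_le_mul (h86_le_vnorm v x i) (h86_le_vnorm v t i) (v.nonneg _)
        (h86_vnorm_nonneg v x))
  simpa [dotProduct] using h

/-! ### the linear forms through a point and the wedge norm -/

/-- The linear form `y_k Y_l - y_l Y_k` (coordinates), `κ = (k, l)`. -/
def h58_lf {n0 : ℕ} (y : Fin n0 → K) (κ : Fin n0 × Fin n0) : Fin n0 → K :=
  fun s => (if s = κ.2 then y κ.1 else 0) - (if s = κ.1 then y κ.2 else 0)

theorem h58_dot_lf {n0 : ℕ} (η y : Fin n0 → K) (κ : Fin n0 × Fin n0) :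
    η ⬝ᵥ h58_lf y κ = y κ.1 * η κ.2 - y κ.2 * η κ.1 := by
  simp only [dotProduct, h58_lf, mul_sub, mul_ite, mul_zero, Finset.sum_sub_distrib,
    Finset.sum_ite_eq', Finset.mem_univ, if_true]
  ring

theorem h58_lf_self_dot {n0 : ℕ} (y : Fin n0 → K) (κ : Fin n0 × Fin n0) :
    y ⬝ᵥ h58_lf y κ = 0 := by
  rw [h58_dot_lf]; ring

theorem h58_lf_smul {n0 : ℕ} (c : K) (y : Fin n0 → K) (κ : Fin n0 × Fin n0) :
    h58_lf (c • y) κ = c • h58_lf y κ := by
  funext s
  simp only [h58_lf, Pi.smul_apply, smul_eq_mul, mul_sub, mul_ite, mul_zero]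

theorem h58_lf_le (v : AbsoluteValue K ℝ) {n0 : ℕ} (y : Fin n0 → K) (κ : Fin n0 × Fin n0)
    (s : Fin n0) : v (h58_lf y κ s) ≤ h86_vnorm v y := by
  unfold h58_lf
  by_cases h2 : s = κ.2
  · by_cases h1 : s = κ.1
    · rw [if_pos h2, if_pos h1, ← h1, ← h2, sub_self, map_zero]
      exact h86_vnorm_nonneg v y
    · rw [if_pos h2, if_neg h1, sub_zero]
      exact h86_le_vnorm v y _
  · by_cases h1 : s = κ.1
    · rw [if_neg h2, if_pos h1, zero_sub, v.map_neg]
      exact h86_le_vnorm v y _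
    · rw [if_neg h2, if_neg h1, sub_zero, map_zero]
      exact h86_vnorm_nonneg v y

theorem h58_vnorm_lf_le (v : AbsoluteValue K ℝ) {n0 : ℕ} (y : Fin n0 → K)
    (κ : Fin n0 × Fin n0) : h86_vnorm v (h58_lf y κ) ≤ h86_vnorm v y :=
  h86_vnorm_le v _ (h86_vnorm_nonneg v y) (h58_lf_le v y κ)

/-- The wedge norm `‖y ∧ η‖ = max_{k,l} |y_k η_l - y_l η_k|`. -/
def h58_wedge (v : AbsoluteValue K ℝ) {n0 : ℕ} (y η : Fin n0 → K) : ℝ :=
  ⨆ κ : Fin n0 × Fin n0, v (y κ.1 * η κ.2 - y κ.2 * η κ.1)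

theorem h58_wedge_nonneg (v : AbsoluteValue K ℝ) {n0 : ℕ} (y η : Fin n0 → K) :
    0 ≤ h58_wedge v y η := Real.iSup_nonneg fun _ => v.nonneg _

theorem h58_le_wedge (v : AbsoluteValue K ℝ) {n0 : ℕ} (y η : Fin n0 → K)
    (κ : Fin n0 × Fin n0) : v (y κ.1 * η κ.2 - y κ.2 * η κ.1) ≤ h58_wedge v y η :=
  le_ciSup (f := fun κ : Fin n0 × Fin n0 => v (y κ.1 * η κ.2 - y κ.2 * η κ.1))
    (Set.finite_range _).bddAbove κ

theorem h58_wedge_le (v : AbsoluteValue K ℝ) {n0 : ℕ} (y η : Fin n0 → K) {B : ℝ} (hB : 0 ≤ B)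
    (h : ∀ κ : Fin n0 × Fin n0, v (y κ.1 * η κ.2 - y κ.2 * η κ.1) ≤ B) :
    h58_wedge v y η ≤ B := Real.iSup_le h hB

theorem h58_wedge_comm (v : AbsoluteValue K ℝ) {n0 : ℕ} (y η : Fin n0 → K) :
    h58_wedge v y η = h58_wedge v η y := by
  have key : ∀ y η : Fin n0 → K, h58_wedge v y η ≤ h58_wedge v η y := by
    intro y η
    refine h58_wedge_le v y η (h58_wedge_nonneg v η y) fun κ => ?_
    have h := h58_le_wedge v η y (κ.2, κ.1)
    have e : η (κ.2, κ.1).1 * y (κ.2, κ.1).2 - η (κ.2, κ.1).2 * y (κ.2, κ.1).1 =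
        y κ.1 * η κ.2 - y κ.2 * η κ.1 := by
      show η κ.2 * y κ.1 - η κ.1 * y κ.2 = _
      ring
    rwa [e] at h
  exact le_antisymm (key y η) (key η y)

theorem h58_wedge_smul_left (v : AbsoluteValue K ℝ) {n0 : ℕ} (c : K) (y η : Fin n0 → K) :
    h58_wedge v (c • y) η = v c * h58_wedge v y η := by
  unfold h58_wedge
  rw [Real.mul_iSup_of_nonneg (v.nonneg _)]
  refine congrArg _ (funext fun κ => ?_)
  rw [← map_mul]
  congr 1
  simp only [Pi.smul_apply, smul_eq_mul]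
  ring

theorem h58_exists_eq_wedge (v : AbsoluteValue K ℝ) {n0 : ℕ} (hn0 : 0 < n0) (y η : Fin n0 → K) :
    ∃ κ : Fin n0 × Fin n0, v (y κ.1 * η κ.2 - y κ.2 * η κ.1) = h58_wedge v y η := by
  have : Nonempty (Fin n0 × Fin n0) := ⟨(⟨0, hn0⟩, ⟨0, hn0⟩)⟩
  obtain ⟨κ, hκ⟩ := Finite.exists_max
    (fun κ : Fin n0 × Fin n0 => v (y κ.1 * η κ.2 - y κ.2 * η κ.1))
  exact ⟨κ, le_antisymm (h58_le_wedge v y η κ) (h58_wedge_le v y η (v.nonneg _) hκ)⟩

theorem h58_wedge_of_n0_zero (v : AbsoluteValue K ℝ) {n0 : ℕ} (hn0 : n0 = 0) (y η : Fin n0 → K) :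
    h58_wedge v y η = 0 := by
  subst hn0
  unfold h58_wedge
  exact Real.iSup_of_isEmpty _


/-! ### the map `T` -/

section T

variable {a n0 n2 n : ℕ}

/-- R55 3(c): `τ ↦ ∑_κ mu (l^{κ_1}_{y_1}, …, l^{κ_a}_{y_a}) (τ κ)`. -/
def h58_T (mu : MultilinearMap K (fun _ : Fin a => Fin n0 → K) ((Fin n2 → K) →ₗ[K] (Fin n → K)))
    (y : Fin a → Fin n0 → K) : ((Fin a → Fin n0 × Fin n0) → Fin n2 → K) →ₗ[K] (Fin n → K) :=
  ∑ κ : Fin a → Fin n0 × Fin n0, (mu fun j => h58_lf (y j) (κ j)) ∘ₗ LinearMap.proj κ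

variable (mu : MultilinearMap K (fun _ : Fin a => Fin n0 → K) ((Fin n2 → K) →ₗ[K] (Fin n → K)))

theorem h58_T_apply (y : Fin a → Fin n0 → K) (τ : (Fin a → Fin n0 × Fin n0) → Fin n2 → K) :
    h58_T mu y τ = ∑ κ : Fin a → Fin n0 × Fin n0, mu (fun j => h58_lf (y j) (κ j)) (τ κ) := by
  simp [h58_T, LinearMap.sum_apply]

theorem h58_T_single (y : Fin a → Fin n0 → K) (κ : Fin a → Fin n0 × Fin n0) (x : Fin n2 → K) :
    h58_T mu y (Pi.single κ x) = mu (fun j => h58_lf (y j) (κ j)) x := by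
  rw [h58_T_apply, Finset.sum_eq_single κ]
  · rw [Pi.single_eq_same]
  · intro κ' _ hne
    rw [Pi.single_eq_of_ne hne, map_zero]
  · intro h
    exact absurd (Finset.mem_univ _) h

theorem h58_dot_T (y : Fin a → Fin n0 → K) {η : Fin n0 → K} {η2 : Fin n2 → K} {β : Fin n → K}
    (hmult : ∀ f τ, β ⬝ᵥ mu f τ = (∏ j, η ⬝ᵥ f j) * (η2 ⬝ᵥ τ))
    (τ : (Fin a → Fin n0 × Fin n0) → Fin n2 → K) :
    β ⬝ᵥ h58_T mu y τ = ∑ κ : Fin a → Fin n0 × Fin n0,
      (∏ j, (y j (κ j).1 * η (κ j).2 - y j (κ j).2 * η (κ j).1)) * (η2 ⬝ᵥ τ κ) := by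
  rw [h58_T_apply, dotProduct_sum]
  refine Finset.sum_congr rfl fun κ _ => ?_
  rw [hmult]
  congr 1
  exact Finset.prod_congr rfl fun j _ => h58_dot_lf η (y j) (κ j)

/-- the image of `T` at `y` is killed by (the `β` of) every point among the `y j`. -/
theorem h58_dot_T_eq_zero (y : Fin a → Fin n0 → K) (j0 : Fin a) {η2 : Fin n2 → K} {β : Fin n → K}
    (hmult : ∀ f τ, β ⬝ᵥ mu f τ = (∏ j, y j0 ⬝ᵥ f j) * (η2 ⬝ᵥ τ))
    (τ : (Fin a → Fin n0 × Fin n0) → Fin n2 → K) : β ⬝ᵥ h58_T mu y τ = 0 := by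
  rw [h58_dot_T mu y hmult]
  refine Finset.sum_eq_zero fun κ _ => ?_
  rw [Finset.prod_eq_zero (Finset.mem_univ j0) (by ring), zero_mul]

theorem h58_T_smul (c : Fin a → K) (y : Fin a → Fin n0 → K) :
    h58_T mu (fun j => c j • y j) = (∏ j, c j) • h58_T mu y := by
  refine LinearMap.ext fun τ => ?_
  rw [LinearMap.smul_apply, h58_T_apply, h58_T_apply, Finset.smul_sum]
  refine Finset.sum_congr rfl fun κ _ => ?_
  have e : (fun j => h58_lf (c j • y j) (κ j)) = fun j => c j • h58_lf (y j) (κ j) :=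
    funext fun j => h58_lf_smul _ _ _
  rw [e, MultilinearMap.map_smul_univ, LinearMap.smul_apply]

theorem h58_range_T_smul (c : Fin a → K) (hc : ∀ j, c j ≠ 0) (y : Fin a → Fin n0 → K) :
    LinearMap.range (h58_T mu (fun j => c j • y j)) = LinearMap.range (h58_T mu y) := by
  rw [h58_T_smul]
  exact LinearMap.range_smul _ _ (Finset.prod_ne_zero_iff.mpr fun j _ => hc j)

/-! ### structure constants and the bound for the product -/

theorem h58_mu_expand (f : Fin a → Fin n0 → K) (τ : Fin n2 → K) :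
    mu f τ = ∑ s : Fin a → Fin n0, ∑ j : Fin n2,
      ((∏ m, f m (s m)) * τ j) • mu (fun m => Pi.single (s m) 1) (Pi.single j 1) := by
  have hf : f = fun m => ∑ s : Fin n0, f m s • (Pi.single s (1 : K) : Fin n0 → K) :=
    funext fun m => pi_eq_sum_univ' (f m)
  have hτ : τ = ∑ j, τ j • (Pi.single j (1 : K) : Fin n2 → K) := pi_eq_sum_univ' τ
  conv_lhs => rw [hf, hτ]
  rw [MultilinearMap.map_sum, LinearMap.sum_apply]
  refine Finset.sum_congr rfl fun s _ => ?_
  rw [MultilinearMap.map_smul_univ, LinearMap.smul_apply, map_sum, Finset.smul_sum]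
  refine Finset.sum_congr rfl fun j _ => ?_
  rw [map_smul, smul_smul]

/-- the structure constants of `mu`. -/
def h58_sc (p : (Fin a → Fin n0) × Fin n2 × Fin n) : K :=
  mu (fun m => Pi.single (p.1 m) 1) (Pi.single p.2.1 1) p.2.2

/-- the local constant of `mu` at `v`. -/
def h58_muC (v : AbsoluteValue K ℝ) : ℝ := h58_fc v (h58_sc mu)

theorem h58_one_le_muC (v : AbsoluteValue K ℝ) : 1 ≤ h58_muC mu v := h58_one_le_fc v _

theorem h58_muC_aa {W : Type*} (av : W → AbsoluteValue K ℝ)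
    (h1 : ∀ α : K, α ≠ 0 → {w | av w α ≠ 1}.Finite)
    (h2 : {w | ¬ IsNonarchimedean (av w)}.Finite) :
    h58_AA (fun w => h58_muC mu (av w)) := h58_fc_aa av h1 h2 _

theorem h58_mu_le (v : AbsoluteValue K ℝ) (f : Fin a → Fin n0 → K) (τ : Fin n2 → K) (i : Fin n) :
    v (mu f τ i) ≤ h58_muC mu v * ((∏ m, h86_vnorm v (f m)) * h86_vnorm v τ) := by
  have hB : 0 ≤ (∏ m, h86_vnorm v (f m)) * h86_vnorm v τ :=
    mul_nonneg (Finset.prod_nonneg fun m _ => h86_vnorm_nonneg v _) (h86_vnorm_nonneg v τ)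
  have h := h58_fc_bound v (h58_sc mu)
    (fun p => if p.2.2 = i then (∏ m, f m (p.1 m)) * τ p.2.1 else 0) hB (fun p => by
      split_ifs
      · rw [map_mul, map_prod]
        exact mul_le_mul (Finset.prod_le_prod (fun _ _ => v.nonneg _)
          fun m _ => h86_le_vnorm v (f m) _) (h86_le_vnorm v τ _) (v.nonneg _)
          (Finset.prod_nonneg fun m _ => h86_vnorm_nonneg v _)
      · rw [map_zero]; exact hB)
  have e : mu f τ i =
      ∑ p, h58_sc mu p * (if p.2.2 = i then (∏ m, f m (p.1 m)) * τ p.2.1 else 0) := by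
    rw [h58_mu_expand mu f τ]
    simp only [Finset.sum_apply, Pi.smul_apply, smul_eq_mul]
    rw [Fintype.sum_prod_type]
    refine Finset.sum_congr rfl fun s _ => ?_
    rw [Fintype.sum_prod_type]
    refine Finset.sum_congr rfl fun j _ => ?_
    simp only [mul_ite, mul_zero, Finset.sum_ite_eq', Finset.mem_univ, if_true, h58_sc]
    ring
  rw [e]; exact h

theorem h58_vnorm_mu_le (v : AbsoluteValue K ℝ) (f : Fin a → Fin n0 → K) (τ : Fin n2 → K) :
    h86_vnorm v (mu f τ) ≤ h58_muC mu v * ((∏ m, h86_vnorm v (f m)) * h86_vnorm v τ) :=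
  h86_vnorm_le v _ (mul_nonneg (zero_le_one.trans (h58_one_le_muC mu v))
    (mul_nonneg (Finset.prod_nonneg fun _ _ => h86_vnorm_nonneg v _) (h86_vnorm_nonneg v τ)))
    (h58_mu_le mu v f τ)


/-! ### the one-point comparison (NM) -/

theorem h58_exists_max_fun (v : AbsoluteValue K ℝ) (η : Fin n0 → K) :
    (∃ s : Fin a → Fin n0, ∀ m, v (η (s m)) = h86_vnorm v η) ∨ h86_vnorm v η ^ a = 0 := by
  rcases Nat.eq_zero_or_pos n0 with h0 | h0
  · rcases Nat.eq_zero_or_pos a with ha | ha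
    · subst ha
      exact Or.inl ⟨fun m => m.elim0, fun m => m.elim0⟩
    · subst h0
      right
      rw [h58_vnorm_of_isEmpty, zero_pow (Nat.pos_iff_ne_zero.mp ha)]
  · have : Nonempty (Fin n0) := ⟨⟨0, h0⟩⟩
    obtain ⟨s0, hs0⟩ := h58_exists_eq_vnorm v η
    exact Or.inl ⟨fun _ => s0, fun _ => hs0⟩

theorem h58_exists_max_or (v : AbsoluteValue K ℝ) {m : ℕ} (t : Fin m → K) :
    (∃ j, v (t j) = h86_vnorm v t) ∨ h86_vnorm v t = 0 := by
  rcases Nat.eq_zero_or_pos m with h0 | h0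
  · subst h0
    exact Or.inr (h58_vnorm_of_isEmpty v t)
  · have : Nonempty (Fin m) := ⟨⟨0, h0⟩⟩
    exact Or.inl (h58_exists_eq_vnorm v t)

/-- the value of a point at a product of basis vectors. -/
theorem h58_mult_single {η : Fin n0 → K} {η2 : Fin n2 → K} {β : Fin n → K}
    (hmult : ∀ f τ, β ⬝ᵥ mu f τ = (∏ j, η ⬝ᵥ f j) * (η2 ⬝ᵥ τ)) (s : Fin a → Fin n0)
    (j : Fin n2) :
    β ⬝ᵥ mu (fun m => Pi.single (s m) 1) (Pi.single j 1) = (∏ m, η (s m)) * η2 j := by
  rw [hmult]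
  simp only [dotProduct_single, mul_one]

/-- (NM), first half: `‖η‖^a ‖η2‖ ≤ C ‖β‖`. -/
theorem h58_nm_le (v : AbsoluteValue K ℝ) {η : Fin n0 → K} {η2 : Fin n2 → K} {β : Fin n → K}
    (hmult : ∀ f τ, β ⬝ᵥ mu f τ = (∏ j, η ⬝ᵥ f j) * (η2 ⬝ᵥ τ)) :
    h86_vnorm v η ^ a * h86_vnorm v η2 ≤ h58_muC mu v * h86_vnorm v β := by
  have hR : 0 ≤ h58_muC mu v * h86_vnorm v β :=
    mul_nonneg (zero_le_one.trans (h58_one_le_muC mu v)) (h86_vnorm_nonneg v β)
  have key : ∀ (s : Fin a → Fin n0) (j : Fin n2),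
      v ((∏ m, η (s m)) * η2 j) ≤ h58_muC mu v * h86_vnorm v β := by
    intro s j
    have e : (∏ m, η (s m)) * η2 j =
        ∑ p, h58_sc mu p * (if p.1 = s then if p.2.1 = j then β p.2.2 else 0 else 0) := by
      rw [← h58_mult_single mu hmult s j, Fintype.sum_prod_type, Finset.sum_eq_single s]
      · rw [Fintype.sum_prod_type, Finset.sum_eq_single j]
        · simp only [if_true, dotProduct, h58_sc]
          exact Finset.sum_congr rfl fun i _ => mul_comm _ _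
        · intro j' _ hne
          simp [hne]
        · intro h
          exact absurd (Finset.mem_univ _) h
      · intro s' _ hne
        simp [hne]
      · intro h
        exact absurd (Finset.mem_univ _) h
    rw [e]
    refine h58_fc_bound v _ _ (h86_vnorm_nonneg v β) fun p => ?_
    split_ifs
    · exact h86_le_vnorm v β _
    · rw [map_zero]; exact h86_vnorm_nonneg v β
    · rw [map_zero]; exact h86_vnorm_nonneg v β
  rcases h58_exists_max_fun (a := a) v η with ⟨s, hs⟩ | h0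
  · rcases h58_exists_max_or v η2 with ⟨j, hj⟩ | h2
    · have h := key s j
      rw [map_mul, map_prod, hj] at h
      have e : ∏ m, v (η (s m)) = h86_vnorm v η ^ a := by
        rw [Finset.prod_congr rfl fun m _ => hs m, Finset.prod_const, Finset.card_univ,
          Fintype.card_fin]
      rwa [e] at h
    · rw [h2, mul_zero]; exact hR
  · rw [h0, zero_mul]; exact hR

/-- (NM), second half: `‖β‖ ≤ C ‖η‖^a ‖η2‖`, if the products of basis vectors span. -/
theorem h58_nm_ge {W : Type*} (av : W → AbsoluteValue K ℝ)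
    (h1 : ∀ α : K, α ≠ 0 → {w | av w α ≠ 1}.Finite)
    (h2 : {w | ¬ IsNonarchimedean (av w)}.Finite)
    (hsurj : Submodule.span K (Set.range fun p : (Fin a → Fin n0) × Fin n2 =>
      mu (fun m => Pi.single (p.1 m) 1) (Pi.single p.2 1)) = ⊤) :
    ∃ c : W → ℝ, h58_AA c ∧ ∀ (w : W) (η : Fin n0 → K) (η2 : Fin n2 → K) (β : Fin n → K),
      (∀ f τ, β ⬝ᵥ mu f τ = (∏ j, η ⬝ᵥ f j) * (η2 ⬝ᵥ τ)) →
      h86_vnorm (av w) β ≤ c w * (h86_vnorm (av w) η ^ a * h86_vnorm (av w) η2) := by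
  have hd : ∀ i : Fin n, ∃ d : (Fin a → Fin n0) × Fin n2 → K,
      ∑ p, d p • mu (fun m => Pi.single (p.1 m) 1) (Pi.single p.2 1) =
        (Pi.single i (1 : K) : Fin n → K) := by
    intro i
    have hmem : (Pi.single i (1 : K) : Fin n → K) ∈ Submodule.span K (Set.range
        fun p : (Fin a → Fin n0) × Fin n2 =>
          mu (fun m => Pi.single (p.1 m) 1) (Pi.single p.2 1)) := by
      rw [hsurj]; exact Submodule.mem_top
    exact (Submodule.mem_span_range_iff_exists_fun K).mp hmem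
  choose d hd using hd
  refine ⟨fun w => h58_fc (av w) (fun q : Fin n × (Fin a → Fin n0) × Fin n2 => d q.1 q.2),
    h58_fc_aa av h1 h2 _, ?_⟩
  intro w η η2 β hmult
  have hB : 0 ≤ h86_vnorm (av w) η ^ a * h86_vnorm (av w) η2 :=
    mul_nonneg (pow_nonneg (h86_vnorm_nonneg _ η) a) (h86_vnorm_nonneg _ η2)
  refine h86_vnorm_le _ β (mul_nonneg (zero_le_one.trans (h58_one_le_fc _ _)) hB) fun i => ?_
  have e : β i = ∑ q : Fin n × (Fin a → Fin n0) × Fin n2, d q.1 q.2 *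
      (if q.1 = i then (∏ m, η (q.2.1 m)) * η2 q.2.2 else 0) := by
    have h0 : β i = β ⬝ᵥ (Pi.single i (1 : K) : Fin n → K) := by
      rw [dotProduct_single, mul_one]
    rw [h0, ← hd i, dotProduct_sum, Fintype.sum_prod_type (f := fun q :
      Fin n × (Fin a → Fin n0) × Fin n2 => d q.1 q.2 *
        (if q.1 = i then (∏ m, η (q.2.1 m)) * η2 q.2.2 else 0)), Finset.sum_eq_single i]
    · refine Finset.sum_congr rfl fun p _ => ?_
      rw [dotProduct_smul, h58_mult_single mu hmult, smul_eq_mul, if_pos rfl]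
    · intro i' _ hne
      simp [hne]
    · intro h
      exact absurd (Finset.mem_univ _) h
  rw [e]
  refine h58_fc_bound (av w) _ _ hB fun q => ?_
  split_ifs
  · rw [map_mul, map_prod]
    refine mul_le_mul ?_ (h86_le_vnorm _ η2 _) ((av w).nonneg _)
      (pow_nonneg (h86_vnorm_nonneg _ η) a)
    calc ∏ m, av w (η (q.2.1 m)) ≤ ∏ _m : Fin a, h86_vnorm (av w) η :=
          Finset.prod_le_prod (fun _ _ => (av w).nonneg _) fun m _ => h86_le_vnorm _ η _
      _ = h86_vnorm (av w) η ^ a := by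
          rw [Finset.prod_const, Finset.card_univ, Fintype.card_fin]
  · rw [map_zero]; exact hB

/-! ### (VF), lower bound: an explicit element of the image of `T` -/

theorem h58_vf_ge (v : AbsoluteValue K ℝ) (y : Fin a → Fin n0 → K) {η : Fin n0 → K}
    {η2 : Fin n2 → K} {β : Fin n → K}
    (hmult : ∀ f τ, β ⬝ᵥ mu f τ = (∏ j, η ⬝ᵥ f j) * (η2 ⬝ᵥ τ)) :
    ∃ t ∈ LinearMap.range (h58_T mu y),
      v (β ⬝ᵥ t) = h86_vnorm v η2 * ∏ j, h58_wedge v (y j) η ∧
      h86_vnorm v t ≤ h58_muC mu v * ∏ j, h86_vnorm v (y j) := by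
  have hR : 0 ≤ h58_muC mu v * ∏ j, h86_vnorm v (y j) :=
    mul_nonneg (zero_le_one.trans (h58_one_le_muC mu v))
      (Finset.prod_nonneg fun j _ => h86_vnorm_nonneg v _)
  have hzero : h86_vnorm v η2 * ∏ j, h58_wedge v (y j) η = 0 →
      ∃ t ∈ LinearMap.range (h58_T mu y),
        v (β ⬝ᵥ t) = h86_vnorm v η2 * ∏ j, h58_wedge v (y j) η ∧
        h86_vnorm v t ≤ h58_muC mu v * ∏ j, h86_vnorm v (y j) := by
    intro h0
    refine ⟨0, Submodule.zero_mem _, ?_, ?_⟩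
    · rw [dotProduct_zero, map_zero, h0]
    · have : h86_vnorm v (0 : Fin n → K) ≤ 0 :=
        h86_vnorm_le v _ le_rfl fun i => by simp
      exact this.trans hR
  rcases h58_exists_max_or v η2 with ⟨j0, hj0⟩ | h2
  · by_cases hκ : ∀ j : Fin a, ∃ κ : Fin n0 × Fin n0,
        v (y j κ.1 * η κ.2 - y j κ.2 * η κ.1) = h58_wedge v (y j) η
    · choose κ hκ using hκ
      refine ⟨h58_T mu y (Pi.single κ (Pi.single j0 1)), LinearMap.mem_range_self _ _, ?_, ?_⟩
      · rw [h58_T_single, hmult, map_mul, map_prod, dotProduct_single, mul_one, hj0, mul_comm]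
        congr 1
        refine Finset.prod_congr rfl fun j _ => ?_
        rw [h58_dot_lf, hκ j]
      · rw [h58_T_single]
        refine (h58_vnorm_mu_le mu v _ _).trans ?_
        refine mul_le_mul_of_nonneg_left ?_ (zero_le_one.trans (h58_one_le_muC mu v))
        calc (∏ m, h86_vnorm v (h58_lf (y m) (κ m))) * h86_vnorm v (Pi.single j0 (1 : K))
            ≤ (∏ m, h86_vnorm v (y m)) * 1 :=
              mul_le_mul (Finset.prod_le_prod (fun _ _ => h86_vnorm_nonneg v _)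
                fun m _ => h58_vnorm_lf_le v (y m) (κ m)) (h58_vnorm_single v j0)
                (h86_vnorm_nonneg v _) (Finset.prod_nonneg fun _ _ => h86_vnorm_nonneg v _)
          _ = ∏ m, h86_vnorm v (y m) := mul_one _
    · push Not at hκ
      obtain ⟨j, hj⟩ := hκ
      apply hzero
      have hn0 : n0 = 0 := by
        by_contra hne
        obtain ⟨κ, hκ⟩ := h58_exists_eq_wedge v (Nat.pos_of_ne_zero hne) (y j) η
        exact hj κ hκ
      rw [Finset.prod_eq_zero (Finset.mem_univ j) (h58_wedge_of_n0_zero v hn0 _ _), mul_zero]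
  · apply hzero
    rw [h2, zero_mul]

/-! ### (VF), upper bound, from a bounded factorisation -/

theorem h58_vf_le_factor (v : AbsoluteValue K ℝ) (y : Fin a → Fin n0 → K) {η : Fin n0 → K}
    {η2 : Fin n2 → K} {β : Fin n → K}
    (hmult : ∀ f τ, β ⬝ᵥ mu f τ = (∏ j, η ⬝ᵥ f j) * (η2 ⬝ᵥ τ))
    (τ : (Fin a → Fin n0 × Fin n0) → Fin n2 → K) {B : ℝ} (hB : 0 ≤ B)
    (hτ : ∀ κ j, v (τ κ j) ≤ B) :
    v (β ⬝ᵥ h58_T mu y τ) ≤
      h58_fc v (fun _ : (Fin a → Fin n0 × Fin n0) × Fin n2 => (1 : K)) *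
        ((∏ j, h58_wedge v (y j) η) * (h86_vnorm v η2 * B)) := by
  have hB' : 0 ≤ (∏ j, h58_wedge v (y j) η) * (h86_vnorm v η2 * B) :=
    mul_nonneg (Finset.prod_nonneg fun j _ => h58_wedge_nonneg v _ _)
      (mul_nonneg (h86_vnorm_nonneg v η2) hB)
  have e : β ⬝ᵥ h58_T mu y τ = ∑ p : (Fin a → Fin n0 × Fin n0) × Fin n2, (1 : K) *
      ((∏ j, (y j (p.1 j).1 * η (p.1 j).2 - y j (p.1 j).2 * η (p.1 j).1)) *
        (η2 p.2 * τ p.1 p.2)) := by
    rw [h58_dot_T mu y hmult, Fintype.sum_prod_type]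
    refine Finset.sum_congr rfl fun κ _ => ?_
    simp only [dotProduct, Finset.mul_sum, one_mul]
  rw [e]
  refine h58_fc_bound v _ _ hB' fun p => ?_
  rw [map_mul, map_prod, map_mul]
  exact mul_le_mul (Finset.prod_le_prod (fun _ _ => v.nonneg _)
    fun j _ => h58_le_wedge v (y j) η (p.1 j))
    (mul_le_mul (h86_le_vnorm v η2 _) (hτ _ _) (v.nonneg _) (h86_vnorm_nonneg v η2))
    (mul_nonneg (v.nonneg _) (v.nonneg _)) (Finset.prod_nonneg fun j _ => h58_wedge_nonneg v _ _)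

/-- **Bounded right inverse** of `T` on the normalised points of a cone `Z` (the conclusion of
CRAMER for the matrix `T`). -/
def h58_BRI (v : AbsoluteValue K ℝ) (Z : Set (Fin n0 → K)) (c : ℝ) : Prop :=
  ∀ y : Fin a → Fin n0 → K, (∀ j s, v (y j s) ≤ 1) → (∀ j, ∃ s, y j s = 1) → (∀ j, y j ∈ Z) →
    ∀ t ∈ LinearMap.range (h58_T mu y),
      ∃ τ, h58_T mu y τ = t ∧ ∀ κ j, v (τ κ j) ≤ c * h86_vnorm v t

/-- (VF), upper bound: for `t` in the image of `T` at nonzero points `y j` of the cone,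
`|β t| ∏ ‖y_j‖ ≤ C ‖t‖ ‖η2‖ ∏ ‖y_j ∧ η‖`. -/
theorem h58_vf_le (v : AbsoluteValue K ℝ) (Z : Set (Fin n0 → K))
    (hcone : ∀ y ∈ Z, ∀ c : K, c ≠ 0 → c • y ∈ Z) {c : ℝ} (hc : 0 ≤ c)
    (hBRI : h58_BRI mu v Z c) (y : Fin a → Fin n0 → K) (hy0 : ∀ j, y j ≠ 0)
    (hyZ : ∀ j, y j ∈ Z) {η : Fin n0 → K} {η2 : Fin n2 → K} {β : Fin n → K}
    (hmult : ∀ f τ, β ⬝ᵥ mu f τ = (∏ j, η ⬝ᵥ f j) * (η2 ⬝ᵥ τ)) (t : Fin n → K)
    (ht : t ∈ LinearMap.range (h58_T mu y)) :
    v (β ⬝ᵥ t) * ∏ j, h86_vnorm v (y j) ≤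
      h58_fc v (fun _ : (Fin a → Fin n0 × Fin n0) × Fin n2 => (1 : K)) * c *
        (h86_vnorm v t * (h86_vnorm v η2 * ∏ j, h58_wedge v (y j) η)) := by
  -- normalise
  have hs : ∀ j, ∃ s, v (y j s) = h86_vnorm v (y j) := by
    intro j
    have hne : Nonempty (Fin n0) := by
      by_contra h
      rw [not_nonempty_iff] at h
      exact hy0 j (funext fun s => h.elim s)
    exact h58_exists_eq_vnorm v (y j)
  choose s hs using hs
  have hpos : ∀ j, 0 < h86_vnorm v (y j) := fun j => h58_vnorm_pos v (hy0 j)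
  have hne : ∀ j, y j (s j) ≠ 0 := by
    intro j h0
    have := hs j
    rw [h0, map_zero] at this
    exact (hpos j).ne this
  have hne' : ∀ j, (y j (s j))⁻¹ ≠ 0 := fun j => inv_ne_zero (hne j)
  have hvinv : ∀ j, v (y j (s j))⁻¹ = (h86_vnorm v (y j))⁻¹ := fun j => by
    rw [map_inv₀, hs j]
  set yh : Fin a → Fin n0 → K := fun j => (y j (s j))⁻¹ • y j with hyh
  have h1 : ∀ j s', v (yh j s') ≤ 1 := by
    intro j s'
    simp only [hyh, Pi.smul_apply, smul_eq_mul, map_mul]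
    rw [hvinv, inv_mul_le_one₀ (hpos j)]
    exact h86_le_vnorm v (y j) s'
  have h2 : ∀ j, ∃ s', yh j s' = 1 := fun j => ⟨s j, by
    simp only [hyh, Pi.smul_apply, smul_eq_mul]
    exact inv_mul_cancel₀ (hne j)⟩
  have h3 : ∀ j, yh j ∈ Z := fun j => hcone _ (hyZ j) _ (hne' j)
  have ht' : t ∈ LinearMap.range (h58_T mu yh) := by
    rw [hyh, h58_range_T_smul mu _ hne' y]
    exact ht
  obtain ⟨τ, hτ, hτb⟩ := hBRI yh h1 h2 h3 t ht'
  have hle := h58_vf_le_factor mu v yh hmult τ (mul_nonneg hc (h86_vnorm_nonneg v t)) hτb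
  rw [hτ] at hle
  have hw : ∀ j, h58_wedge v (yh j) η = (h86_vnorm v (y j))⁻¹ * h58_wedge v (y j) η := by
    intro j
    rw [hyh, h58_wedge_smul_left, hvinv]
  have hprod : (∏ j, h58_wedge v (yh j) η) * ∏ j, h86_vnorm v (y j) =
      ∏ j, h58_wedge v (y j) η := by
    rw [← Finset.prod_mul_distrib]
    refine Finset.prod_congr rfl fun j _ => ?_
    rw [hw j, mul_comm, ← mul_assoc, mul_inv_cancel₀ (hpos j).ne', one_mul]
  have hP : 0 ≤ ∏ j, h86_vnorm v (y j) := Finset.prod_nonneg fun j _ => (hpos j).le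
  calc v (β ⬝ᵥ t) * ∏ j, h86_vnorm v (y j)
      ≤ h58_fc v (fun _ : (Fin a → Fin n0 × Fin n0) × Fin n2 => (1 : K)) *
        ((∏ j, h58_wedge v (yh j) η) * (h86_vnorm v η2 * (c * h86_vnorm v t))) *
          ∏ j, h86_vnorm v (y j) := mul_le_mul_of_nonneg_right hle hP
    _ = h58_fc v (fun _ : (Fin a → Fin n0 × Fin n0) × Fin n2 => (1 : K)) *
        (((∏ j, h58_wedge v (yh j) η) * ∏ j, h86_vnorm v (y j)) *
          (h86_vnorm v η2 * (c * h86_vnorm v t))) := by ring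
    _ = h58_fc v (fun _ : (Fin a → Fin n0 × Fin n0) × Fin n2 => (1 : K)) * c *
        (h86_vnorm v t * (h86_vnorm v η2 * ∏ j, h58_wedge v (y j) η)) := by
          rw [hprod]; ring

end T

end Fermat.Agent.S17
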