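import Mathlib
import Fermat.Agent.S17.h58_VF

/-!
# S17 / R55 row G2, abstract core (helper58): the local Vandermonde estimate (VDM), curve-free

Continuation of `h58_VF`.  For every `a < amax` we are given a product
`mu a : V_{M0}^a × V_{M - a M0} → V_M` in coordinates, a cone `Z ⊆ K^{n0}`, and

* (RK)   `finrank (range (h58_T (mu a) y)) = n - a` at all nonzero points `y j` of the cone;
* (SURJ) the products of basis vectors span;
* (BRI)  a bounded right inverse of `h58_T (mu a)` at normalised points (= CRAMER; discharged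
         from (RK) in `h58_VDMFinal`).

A point is `P : h58_Pt` = `(η, η2, β)` with `η ≠ 0`, `η ∈ Z` and
`β ⬝ᵥ mu a f τ = (∏ j, η ⬝ᵥ f j) * (η2 a ⬝ᵥ τ)`.  Then, for `a ≤ amax` points,

  `‖(β_j)_j‖ ~ ∏_j ‖β_j‖ * ∏_{i<j} d(η_i, η_j)`,   `d(y, η) = ‖y ∧ η‖ / (‖y‖ ‖η‖)`,

with constants `c w ≥ 1`, `= 1` for almost all `w` (`h58_vdm_of_BRI`).
-/

set_option autoImplicit false

noncomputable section

namespace Fermat.Agent.S17

open Matrix

variable {K : Type*} [Field K]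

/-! ### points, distances, pair products -/

/-- point data: `(y(P), (b^{M - a M0}(P))_a, b^M(P))`. -/
structure h58_Pt (K : Type*) (n0 n : ℕ) (n2 : ℕ → ℕ) where
  /-- the coordinates `y(P)` -/
  η : Fin n0 → K
  /-- the coordinates `b^{M - a M0}(P)` -/
  η2 : ∀ a : ℕ, Fin (n2 a) → K
  /-- the coordinates `b^M(P)` -/
  β : Fin n → K

/-- a nonzero point of the cone at which evaluation is multiplicative. -/
def h58_IsPt {n0 n : ℕ} {n2 : ℕ → ℕ} (amax : ℕ)
    (mu : ∀ a, MultilinearMap K (fun _ : Fin a => Fin n0 → K)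
      ((Fin (n2 a) → K) →ₗ[K] (Fin n → K)))
    (Z : Set (Fin n0 → K)) (P : h58_Pt K n0 n n2) : Prop :=
  P.η ≠ 0 ∧ P.η ∈ Z ∧ ∀ a, a < amax → ∀ f τ,
    P.β ⬝ᵥ mu a f τ = (∏ j, P.η ⬝ᵥ f j) * (P.η2 a ⬝ᵥ τ)

/-- the projective `v`-distance `‖y ∧ η‖ / (‖y‖ ‖η‖)`. -/
def h58_dist (v : AbsoluteValue K ℝ) {n0 : ℕ} (y η : Fin n0 → K) : ℝ :=
  h58_wedge v y η / (h86_vnorm v y * h86_vnorm v η)

theorem h58_dist_nonneg (v : AbsoluteValue K ℝ) {n0 : ℕ} (y η : Fin n0 → K) :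
    0 ≤ h58_dist v y η :=
  div_nonneg (h58_wedge_nonneg v y η) (mul_nonneg (h86_vnorm_nonneg v y) (h86_vnorm_nonneg v η))

theorem h58_dist_comm (v : AbsoluteValue K ℝ) {n0 : ℕ} (y η : Fin n0 → K) :
    h58_dist v y η = h58_dist v η y := by
  unfold h58_dist
  rw [h58_wedge_comm, mul_comm]

/-- `∏_{i<j} d (P i) (P j)`. -/
def h58_pairProd {α : Type*} (d : α → α → ℝ) {a : ℕ} (P : Fin a → α) : ℝ :=
  ∏ i : Fin a, ∏ j : Fin a, if i < j then d (P i) (P j) else 1

theorem h58_pairProd_succ {α : Type*} (d : α → α → ℝ) {a : ℕ} (P : Fin (a + 1) → α) :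
    h58_pairProd d P = (∏ j : Fin a, d (P 0) (P j.succ)) * h58_pairProd d (fun j => P j.succ) := by
  unfold h58_pairProd
  rw [Fin.prod_univ_succ]
  congr 1
  · rw [Fin.prod_univ_succ]
    simp [Fin.succ_pos]
  · refine Finset.prod_congr rfl fun i _ => ?_
    rw [Fin.prod_univ_succ]
    simp [Fin.succ_lt_succ_iff]

theorem h58_pairProd_nonneg {α : Type*} (d : α → α → ℝ) (hd : ∀ x y, 0 ≤ d x y) {a : ℕ}
    (P : Fin a → α) : 0 ≤ h58_pairProd d P := by
  unfold h58_pairProd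
  refine Finset.prod_nonneg fun i _ => Finset.prod_nonneg fun j _ => ?_
  split_ifs
  · exact hd _ _
  · exact zero_le_one

/-- the evaluation matrix of a tuple of points. -/
def h58_E {n0 n : ℕ} {n2 : ℕ → ℕ} {a : ℕ} (P : Fin a → h58_Pt K n0 n n2) :
    Matrix (Fin a) (Fin n) K :=
  Matrix.of fun j => (P j).β

omit [Field K] in
theorem h58_E_succ {n0 n : ℕ} {n2 : ℕ → ℕ} {a : ℕ} (P : Fin (a + 1) → h58_Pt K n0 n n2) :
    h58_E P = h86_consRow (P 0).β (h58_E fun j => P j.succ) := by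
  ext i j
  refine Fin.cases ?_ (fun i' => ?_) i
  · rfl
  · rfl

/-- the right-hand side of (VDM). -/
def h58_R (v : AbsoluteValue K ℝ) {n0 n : ℕ} {n2 : ℕ → ℕ} {a : ℕ}
    (P : Fin a → h58_Pt K n0 n n2) : ℝ :=
  (∏ j, h86_vnorm v (P j).β) * h58_pairProd (fun p q : h58_Pt K n0 n n2 => h58_dist v p.η q.η) P

theorem h58_R_nonneg (v : AbsoluteValue K ℝ) {n0 n : ℕ} {n2 : ℕ → ℕ} {a : ℕ}
    (P : Fin a → h58_Pt K n0 n n2) : 0 ≤ h58_R v P :=
  mul_nonneg (Finset.prod_nonneg fun _ _ => h86_vnorm_nonneg v _)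
    (h58_pairProd_nonneg _ (fun _ _ => h58_dist_nonneg v _ _) P)

theorem h58_R_succ (v : AbsoluteValue K ℝ) {n0 n : ℕ} {n2 : ℕ → ℕ} {a : ℕ}
    (P : Fin (a + 1) → h58_Pt K n0 n n2) :
    h58_R v P = (h86_vnorm v (P 0).β * ∏ j : Fin a, h58_dist v (P j.succ).η (P 0).η) *
      h58_R v (fun j => P j.succ) := by
  unfold h58_R
  rw [Fin.prod_univ_succ, h58_pairProd_succ]
  have e : ∏ j : Fin a, h58_dist v (P 0).η (P j.succ).η =
      ∏ j : Fin a, h58_dist v (P j.succ).η (P 0).η :=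
    Finset.prod_congr rfl fun j _ => h58_dist_comm v _ _
  rw [e]
  ring

/-! ### the induction step -/

section step

variable {a n0 n2 n : ℕ}
  (mu : MultilinearMap K (fun _ : Fin a => Fin n0 → K) ((Fin n2 → K) →ₗ[K] (Fin n → K)))

theorem h58_prod_dist (v : AbsoluteValue K ℝ) (y : Fin a → Fin n0 → K) (η : Fin n0 → K) :
    ∏ j, h58_dist v (y j) η =
      (∏ j, h58_wedge v (y j) η) / ((∏ j, h86_vnorm v (y j)) * h86_vnorm v η ^ a) := by
  unfold h58_dist
  rw [Finset.prod_div_distrib, Finset.prod_mul_distrib, Finset.prod_const, Finset.card_univ,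
    Fintype.card_fin]

/-- rows of `E` are points with `η`-coordinates `y j` ⟹ the image of `T` lies in `ker E`. -/
theorem h58_mulVec_T (y : Fin a → Fin n0 → K) (E : Matrix (Fin a) (Fin n) K)
    (hrow : ∀ j, ∃ η2j : Fin n2 → K, ∀ f τ,
      E j ⬝ᵥ mu f τ = (∏ j', y j ⬝ᵥ f j') * (η2j ⬝ᵥ τ))
    (τ : (Fin a → Fin n0 × Fin n0) → Fin n2 → K) : E.mulVec (h58_T mu y τ) = 0 := by
  funext j
  obtain ⟨η2j, hj⟩ := hrow j
  exact h58_dot_T_eq_zero mu y j hj τ

theorem h58_chain_ge' (v : AbsoluteValue K ℝ) {r : ℕ} (E : Matrix (Fin r) (Fin n) K)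
    (lam t : Fin n → K) (ht : E.mulVec t = 0) :
    v (lam ⬝ᵥ t) * h86_mnorm v E ≤
      h58_fc v (fun _ : Fin n => (1 : K)) * h86_mnorm v (h86_consRow lam E) * h86_vnorm v t := by
  by_cases hv : IsNonarchimedean v
  · have h1 : h58_fc v (fun _ : Fin n => (1 : K)) = 1 := by
      unfold h58_fc
      rw [if_pos ⟨hv, fun _ => by simp⟩]
    rw [h1, one_mul]
    exact h86_chain_ge_nonarch v hv E lam t ht
  · have h1 : (n : ℝ) ≤ h58_fc v (fun _ : Fin n => (1 : K)) := by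
      unfold h58_fc
      rw [if_neg (fun h => hv h.1)]
      refine le_trans ?_ (le_max_right _ _)
      simp
    refine (h86_chain_ge v E lam t ht).trans ?_
    exact mul_le_mul_of_nonneg_right
      (mul_le_mul_of_nonneg_right h1 (h86_mnorm_nonneg v _)) (h86_vnorm_nonneg v t)

/-- **induction step, lower bound.** -/
theorem h58_step_ge (v : AbsoluteValue K ℝ) (y : Fin a → Fin n0 → K) (hy0 : ∀ j, y j ≠ 0)
    (E : Matrix (Fin a) (Fin n) K)
    (hrow : ∀ j, ∃ η2j : Fin n2 → K, ∀ f τ,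
      E j ⬝ᵥ mu f τ = (∏ j', y j ⬝ᵥ f j') * (η2j ⬝ᵥ τ))
    {η : Fin n0 → K} {η2 : Fin n2 → K} {β : Fin n → K} (hη : η ≠ 0)
    (hmult : ∀ f τ, β ⬝ᵥ mu f τ = (∏ j, η ⬝ᵥ f j) * (η2 ⬝ᵥ τ)) {cge : ℝ} (hcge0 : 0 ≤ cge)
    (hcge : h86_vnorm v β ≤ cge * (h86_vnorm v η ^ a * h86_vnorm v η2)) :
    (h86_vnorm v β * ∏ j, h58_dist v (y j) η) * h86_mnorm v E ≤
      (cge * h58_fc v (fun _ : Fin n => (1 : K)) * h58_muC mu v) *
        h86_mnorm v (h86_consRow β E) := by
  obtain ⟨t, ⟨τ0, rfl⟩, hval, hnorm⟩ := h58_vf_ge mu v y hmult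
  have hker := h58_mulVec_T mu y E hrow τ0
  have hch := h58_chain_ge' v E β _ hker
  rw [hval] at hch
  set A := ∏ j, h86_vnorm v (y j) with hA
  set N := h86_vnorm v η with hN
  set Wd := ∏ j, h58_wedge v (y j) η with hWd
  set mE := h86_mnorm v E with hmE
  set mC := h86_mnorm v (h86_consRow β E) with hmC
  set fcn := h58_fc v (fun _ : Fin n => (1 : K)) with hfcn
  set mc := h58_muC mu v with hmc
  have hApos : 0 < A := Finset.prod_pos fun j _ => h58_vnorm_pos v (hy0 j)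
  have hNpos : 0 < N := h58_vnorm_pos v hη
  have hWd0 : 0 ≤ Wd := Finset.prod_nonneg fun j _ => h58_wedge_nonneg v _ _
  have hmE0 : 0 ≤ mE := h86_mnorm_nonneg v E
  have hmC0 : 0 ≤ mC := h86_mnorm_nonneg v _
  have hfcn0 : 0 ≤ fcn := (h58_fc_pos v _).le
  have hmc0 : 0 ≤ mc := zero_le_one.trans (h58_one_le_muC mu v)
  -- (1) : ‖η2‖ Wd mE ≤ fcn mC mc A
  have h1 : h86_vnorm v η2 * Wd * mE ≤ fcn * mC * (mc * A) :=
    hch.trans (mul_le_mul_of_nonneg_left hnorm (mul_nonneg hfcn0 hmC0))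
  rw [h58_prod_dist, ← hA, ← hN, ← hWd]
  have hden : 0 < A * N ^ a := mul_pos hApos (pow_pos hNpos a)
  rw [mul_div_assoc', div_mul_eq_mul_div, div_le_iff₀ hden]
  calc h86_vnorm v β * Wd * mE ≤ cge * (N ^ a * h86_vnorm v η2) * Wd * mE :=
        mul_le_mul_of_nonneg_right (mul_le_mul_of_nonneg_right hcge hWd0) hmE0
    _ = cge * N ^ a * (h86_vnorm v η2 * Wd * mE) := by ring
    _ ≤ cge * N ^ a * (fcn * mC * (mc * A)) :=
        mul_le_mul_of_nonneg_left h1 (mul_nonneg hcge0 (pow_nonneg hNpos.le a))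
    _ = cge * fcn * mc * mC * (A * N ^ a) := by ring

/-- a matrix all of whose maximal minors vanish stays so after adding a row. -/
theorem h58_mnorm_consRow_zero (v : AbsoluteValue K ℝ) {r : ℕ} (E : Matrix (Fin r) (Fin n) K)
    (hE : ∀ f : Fin r → Fin n, (E.submatrix id f).det = 0) (lam : Fin n → K) :
    h86_mnorm v (h86_consRow lam E) = 0 := by
  refine le_antisymm (h86_mnorm_le v _ le_rfl fun g => ?_) (h86_mnorm_nonneg v _)
  rw [h86_consRow_minor, Finset.sum_eq_zero, map_zero]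
  intro j _
  rw [hE, mul_zero]

/-- if `E` has a nonzero maximal minor and the image of `T` has dimension `n - a` and lies in
`ker E`, then it is `ker E`. -/
theorem h58_ker_le_range (y : Fin a → Fin n0 → K) (E : Matrix (Fin a) (Fin n) K)
    (hE : ∃ f : Fin a → Fin n, (E.submatrix id f).det ≠ 0)
    (hrow : ∀ j, ∃ η2j : Fin n2 → K, ∀ f τ,
      E j ⬝ᵥ mu f τ = (∏ j', y j ⬝ᵥ f j') * (η2j ⬝ᵥ τ))
    (hRK : Module.finrank K (LinearMap.range (h58_T mu y)) = n - a) (t : Fin n → K)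
    (ht : E.mulVec t = 0) : t ∈ LinearMap.range (h58_T mu y) := by
  obtain ⟨R, hR⟩ := h86_exists_right_inv E hE
  have hsurj : LinearMap.range E.mulVecLin = ⊤ := by
    rw [LinearMap.range_eq_top]
    intro x
    refine ⟨R.mulVec x, ?_⟩
    rw [Matrix.mulVecLin_apply, Matrix.mulVec_mulVec, hR, Matrix.one_mulVec]
  have hrk := LinearMap.finrank_range_add_finrank_ker E.mulVecLin
  rw [hsurj, finrank_top, Module.finrank_pi, Fintype.card_fin, Module.finrank_pi,
    Fintype.card_fin] at hrk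
  have hle : LinearMap.range (h58_T mu y) ≤ LinearMap.ker E.mulVecLin := by
    rintro _ ⟨τ, rfl⟩
    rw [LinearMap.mem_ker, Matrix.mulVecLin_apply]
    exact h58_mulVec_T mu y E hrow τ
  have heq : LinearMap.range (h58_T mu y) = LinearMap.ker E.mulVecLin :=
    Submodule.eq_of_le_of_finrank_eq hle (by rw [hRK]; omega)
  rw [heq, LinearMap.mem_ker, Matrix.mulVecLin_apply]
  exact ht

/-- **induction step, upper bound.** -/
theorem h58_step_le (v : AbsoluteValue K ℝ) (Z : Set (Fin n0 → K))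
    (hcone : ∀ y ∈ Z, ∀ c : K, c ≠ 0 → c • y ∈ Z) {c : ℝ} (hc : 0 ≤ c)
    (hBRI : h58_BRI mu v Z c) (y : Fin a → Fin n0 → K) (hy0 : ∀ j, y j ≠ 0)
    (hyZ : ∀ j, y j ∈ Z)
    (hRK : Module.finrank K (LinearMap.range (h58_T mu y)) = n - a)
    (E : Matrix (Fin a) (Fin n) K)
    (hrow : ∀ j, ∃ η2j : Fin n2 → K, ∀ f τ,
      E j ⬝ᵥ mu f τ = (∏ j', y j ⬝ᵥ f j') * (η2j ⬝ᵥ τ))
    {η : Fin n0 → K} {η2 : Fin n2 → K} {β : Fin n → K} (hη : η ≠ 0)
    (hmult : ∀ f τ, β ⬝ᵥ mu f τ = (∏ j, η ⬝ᵥ f j) * (η2 ⬝ᵥ τ)) :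
    h86_mnorm v (h86_consRow β E) ≤
      (h58_fc v (fun _ : (Fin a → Fin n0 × Fin n0) × Fin n2 => (1 : K)) * c * h58_muC mu v) *
        (h86_vnorm v β * ∏ j, h58_dist v (y j) η) * h86_mnorm v E := by
  set S := h58_fc v (fun _ : (Fin a → Fin n0 × Fin n0) × Fin n2 => (1 : K)) with hS
  set mc := h58_muC mu v with hmc
  have hS0 : 0 ≤ S := (h58_fc_pos v _).le
  have hmc0 : 0 ≤ mc := zero_le_one.trans (h58_one_le_muC mu v)
  have hM0 : 0 ≤ (S * c * mc) * (h86_vnorm v β * ∏ j, h58_dist v (y j) η) :=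
    mul_nonneg (mul_nonneg (mul_nonneg hS0 hc) hmc0)
      (mul_nonneg (h86_vnorm_nonneg v β) (Finset.prod_nonneg fun j _ => h58_dist_nonneg v _ _))
  by_cases hE : ∃ f : Fin a → Fin n, (E.submatrix id f).det ≠ 0
  · refine h86_chain_le v E β _ hM0 fun t ht => ?_
    have htr := h58_ker_le_range mu y E hE hrow hRK t ht
    have hvf := h58_vf_le mu v Z hcone hc hBRI y hy0 hyZ hmult t htr
    have hnm := h58_nm_le mu v hmult
    rw [← hS] at hvf
    rw [← hmc] at hnm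
    set A := ∏ j, h86_vnorm v (y j) with hA
    set N := h86_vnorm v η with hN
    set Wd := ∏ j, h58_wedge v (y j) η with hWd
    have hApos : 0 < A := Finset.prod_pos fun j _ => h58_vnorm_pos v (hy0 j)
    have hNpos : 0 < N := h58_vnorm_pos v hη
    have hWd0 : 0 ≤ Wd := Finset.prod_nonneg fun j _ => h58_wedge_nonneg v _ _
    have ht0 : 0 ≤ h86_vnorm v t := h86_vnorm_nonneg v t
    rw [h58_prod_dist, ← hA, ← hN, ← hWd]
    have hden : 0 < A * N ^ a := mul_pos hApos (pow_pos hNpos a)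
    have e : S * c * mc * (h86_vnorm v β * (Wd / (A * N ^ a))) * h86_vnorm v t =
        (S * c * (mc * h86_vnorm v β) * Wd * h86_vnorm v t) / (A * N ^ a) := by
      field_simp
    rw [e, le_div_iff₀ hden]
    calc v (β ⬝ᵥ t) * (A * N ^ a) = (v (β ⬝ᵥ t) * A) * N ^ a := by ring
      _ ≤ (S * c * (h86_vnorm v t * (h86_vnorm v η2 * Wd))) * N ^ a :=
          mul_le_mul_of_nonneg_right hvf (pow_nonneg hNpos.le a)
      _ = S * c * (N ^ a * h86_vnorm v η2) * Wd * h86_vnorm v t := by ring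
      _ ≤ S * c * (mc * h86_vnorm v β) * Wd * h86_vnorm v t :=
          mul_le_mul_of_nonneg_right (mul_le_mul_of_nonneg_right
            (mul_le_mul_of_nonneg_left hnm (mul_nonneg hS0 hc)) hWd0) ht0
  · push Not at hE
    rw [h58_mnorm_consRow_zero v E hE β]
    exact mul_nonneg hM0 (h86_mnorm_nonneg v E)

end step


/-! ### the induction -/

theorem h58_le_prod_of_one_le {ι : Type*} [Fintype ι] (f : ι → ℝ) (hf : ∀ i, 1 ≤ f i) (i0 : ι) :
    f i0 ≤ ∏ i, f i := by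
  classical
  rw [← Finset.mul_prod_erase Finset.univ f (Finset.mem_univ i0)]
  have h1 : 1 ≤ ∏ i ∈ Finset.univ.erase i0, f i :=
    Finset.prod_induction _ (fun x => 1 ≤ x)
      (fun a b ha hb => one_le_mul_of_one_le_of_one_le ha hb) le_rfl fun i _ => hf i
  calc f i0 = f i0 * 1 := (mul_one _).symm
    _ ≤ f i0 * ∏ i ∈ Finset.univ.erase i0, f i :=
        mul_le_mul_of_nonneg_left h1 (zero_le_one.trans (hf i0))

/-- **Abstract local (VDM)**, with the bounded right inverses (BRI) as a hypothesis. -/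
theorem h58_vdm_of_BRI {W : Type*} (av : W → AbsoluteValue K ℝ)
    (h1 : ∀ α : K, α ≠ 0 → {w | av w α ≠ 1}.Finite)
    (h2 : {w | ¬ IsNonarchimedean (av w)}.Finite) {n0 n : ℕ} (amax : ℕ) (n2 : ℕ → ℕ)
    (mu : ∀ a, MultilinearMap K (fun _ : Fin a => Fin n0 → K)
      ((Fin (n2 a) → K) →ₗ[K] (Fin n → K)))
    (Z : Set (Fin n0 → K)) (hcone : ∀ y ∈ Z, ∀ c : K, c ≠ 0 → c • y ∈ Z)
    (hRK : ∀ a, a < amax → ∀ y : Fin a → Fin n0 → K, (∀ j, y j ≠ 0) → (∀ j, y j ∈ Z) →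
      Module.finrank K (LinearMap.range (h58_T (mu a) y)) = n - a)
    (hSURJ : ∀ a, a < amax → Submodule.span K (Set.range
      fun p : (Fin a → Fin n0) × Fin (n2 a) =>
        mu a (fun m => Pi.single (p.1 m) 1) (Pi.single p.2 1)) = ⊤)
    (hBRI : ∀ a, a < amax → ∃ c : W → ℝ, h58_AA c ∧ ∀ w, h58_BRI (mu a) (av w) Z (c w)) :
    ∃ c : W → ℝ, h58_AA c ∧ ∀ (w : W) (a : ℕ), a ≤ amax → ∀ P : Fin a → h58_Pt K n0 n n2,
      (∀ j, h58_IsPt amax mu Z (P j)) →
        h58_R (av w) P ≤ c w * h86_mnorm (av w) (h58_E P) ∧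
        h86_mnorm (av w) (h58_E P) ≤ c w * h58_R (av w) P := by
  classical
  choose cB hcB_aa hcB using hBRI
  have hG := fun a (ha : a < amax) => h58_nm_ge (mu a) av h1 h2 (hSURJ a ha)
  choose cG hcG_aa hcG using hG
  let Cup : ∀ a, a < amax → W → ℝ := fun a ha w =>
    h58_fc (av w) (fun _ : (Fin a → Fin n0 × Fin n0) × Fin (n2 a) => (1 : K)) * cB a ha w *
      h58_muC (mu a) (av w)
  let Clow : ∀ a, a < amax → W → ℝ := fun a ha w =>
    cG a ha w * h58_fc (av w) (fun _ : Fin n => (1 : K)) * h58_muC (mu a) (av w)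
  have hCup : ∀ a ha, h58_AA (Cup a ha) := fun a ha =>
    ((h58_fc_aa av h1 h2 _).mul (hcB_aa a ha)).mul (h58_muC_aa (mu a) av h1 h2)
  have hClow : ∀ a ha, h58_AA (Clow a ha) := fun a ha =>
    ((hcG_aa a ha).mul (h58_fc_aa av h1 h2 _)).mul (h58_muC_aa (mu a) av h1 h2)
  let C : W → ℝ := fun w => ∏ i : Fin amax, (Cup i.1 i.2 w * Clow i.1 i.2 w)
  have hC : h58_AA C :=
    h58_AA.prod Finset.univ (c := fun (i : Fin amax) w => Cup i.1 i.2 w * Clow i.1 i.2 w)
      (fun i _ => (hCup i.1 i.2).mul (hClow i.1 i.2))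
  have hCC : ∀ a (ha : a < amax) w, Cup a ha w * Clow a ha w ≤ C w := fun a ha w =>
    h58_le_prod_of_one_le (fun i : Fin amax => Cup i.1 i.2 w * Clow i.1 i.2 w)
      (fun i => ((hCup i.1 i.2).mul (hClow i.1 i.2)).1 w) ⟨a, ha⟩
  have hCup_le : ∀ a (ha : a < amax) w, Cup a ha w ≤ C w := fun a ha w => by
    refine le_trans ?_ (hCC a ha w)
    calc Cup a ha w = Cup a ha w * 1 := (mul_one _).symm
      _ ≤ Cup a ha w * Clow a ha w :=
          mul_le_mul_of_nonneg_left ((hClow a ha).1 w) ((hCup a ha).pos w).le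
  have hClow_le : ∀ a (ha : a < amax) w, Clow a ha w ≤ C w := fun a ha w => by
    refine le_trans ?_ (hCC a ha w)
    calc Clow a ha w = 1 * Clow a ha w := (one_mul _).symm
      _ ≤ Cup a ha w * Clow a ha w :=
          mul_le_mul_of_nonneg_right ((hCup a ha).1 w) ((hClow a ha).pos w).le
  refine ⟨fun w => C w ^ amax, hC.pow amax, ?_⟩
  intro w
  have hC1 : 1 ≤ C w := hC.1 w
  have hC0 : 0 ≤ C w := zero_le_one.trans hC1
  have key : ∀ a, a ≤ amax → ∀ P : Fin a → h58_Pt K n0 n n2,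
      (∀ j, h58_IsPt amax mu Z (P j)) →
        h58_R (av w) P ≤ C w ^ a * h86_mnorm (av w) (h58_E P) ∧
        h86_mnorm (av w) (h58_E P) ≤ C w ^ a * h58_R (av w) P := by
    intro a
    induction a with
    | zero =>
      intro _ P _
      have hR : h58_R (av w) P = 1 := by simp [h58_R, h58_pairProd]
      rw [hR, h86_mnorm_zero_rows]
      simp
    | succ a ih =>
      intro ha P hP
      have ha' : a < amax := ha
      obtain ⟨ihl, ihu⟩ := ih (Nat.le_of_lt ha') (fun j => P j.succ) (fun j => hP j.succ)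
      have hrow : ∀ j : Fin a, ∃ η2j : Fin (n2 a) → K, ∀ f τ,
          (h58_E fun j => P j.succ) j ⬝ᵥ mu a f τ =
            (∏ j', (P j.succ).η ⬝ᵥ f j') * (η2j ⬝ᵥ τ) :=
        fun j => ⟨(P j.succ).η2 a, (hP j.succ).2.2 a ha'⟩
      have hy0 : ∀ j : Fin a, (P j.succ).η ≠ 0 := fun j => (hP j.succ).1
      have hyZ : ∀ j : Fin a, (P j.succ).η ∈ Z := fun j => (hP j.succ).2.1
      have hmult := (hP 0).2.2 a ha'
      have hη := (hP 0).1
      have sge := h58_step_ge (mu a) (av w) (fun j => (P j.succ).η) hy0 _ hrow hη hmult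
        ((hcG_aa a ha').pos w).le (hcG a ha' w _ _ _ hmult)
      have sle := h58_step_le (mu a) (av w) Z hcone ((hcB_aa a ha').pos w).le (hcB a ha' w)
        (fun j => (P j.succ).η) hy0 hyZ (hRK a ha' _ hy0 hyZ) _ hrow hη hmult
      rw [h58_R_succ, h58_E_succ]
      have hX0 : 0 ≤ h86_vnorm (av w) (P 0).β *
          ∏ j : Fin a, h58_dist (av w) (P j.succ).η (P 0).η :=
        mul_nonneg (h86_vnorm_nonneg _ _)
          (Finset.prod_nonneg fun j _ => h58_dist_nonneg _ _ _)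
      have hmP0 := h86_mnorm_nonneg (av w) (h86_consRow (P 0).β (h58_E fun j => P j.succ))
      have hRQ0 := h58_R_nonneg (av w) (fun j => P j.succ)
      have hl := hClow_le a ha' w
      have hu := hCup_le a ha' w
      have hcu0 : 0 ≤ Cup a ha' w := ((hCup a ha').pos w).le
      change _ * _ * _ ≤ Clow a ha' w * _ at sge
      change _ ≤ Cup a ha' w * _ * _ at sle
      generalize h86_vnorm (av w) (P 0).β *
          ∏ j : Fin a, h58_dist (av w) (P j.succ).η (P 0).η = X at *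
      generalize h58_R (av w) (fun j => P j.succ) = RQ at *
      generalize h86_mnorm (av w) (h58_E fun j => P j.succ) = mQ at *
      generalize h86_mnorm (av w) (h86_consRow (P 0).β (h58_E fun j => P j.succ)) = mP at *
      generalize Clow a ha' w = cl at *
      generalize Cup a ha' w = cu at *
      constructor
      · calc X * RQ ≤ X * (C w ^ a * mQ) := mul_le_mul_of_nonneg_left ihl hX0
          _ = C w ^ a * (X * mQ) := by ring
          _ ≤ C w ^ a * (cl * mP) := mul_le_mul_of_nonneg_left sge (pow_nonneg hC0 a)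
          _ ≤ C w ^ a * (C w * mP) :=
              mul_le_mul_of_nonneg_left (mul_le_mul_of_nonneg_right hl hmP0) (pow_nonneg hC0 a)
          _ = C w ^ (a + 1) * mP := by ring
      · calc mP ≤ cu * X * mQ := sle
          _ ≤ cu * X * (C w ^ a * RQ) := mul_le_mul_of_nonneg_left ihu (mul_nonneg hcu0 hX0)
          _ = cu * (X * (C w ^ a * RQ)) := by ring
          _ ≤ C w * (X * (C w ^ a * RQ)) :=
              mul_le_mul_of_nonneg_right hu
                (mul_nonneg hX0 (mul_nonneg (pow_nonneg hC0 a) hRQ0))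
          _ = C w ^ (a + 1) * (X * RQ) := by ring
  intro a ha P hP
  obtain ⟨kl, ku⟩ := key a ha P hP
  have hpow : C w ^ a ≤ C w ^ amax := pow_le_pow_right₀ hC1 ha
  exact ⟨kl.trans (mul_le_mul_of_nonneg_right hpow (h86_mnorm_nonneg _ _)),
    ku.trans (mul_le_mul_of_nonneg_right hpow (h58_R_nonneg _ _))⟩

end Fermat.Agent.S17
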