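import Mathlib

/-!
# S17 foundation (helper59): Gauss norms of multivariate polynomials

For an absolute value `v` on a field `K` and `p : MvPolynomial σ K` (any index type `σ`),
`h59_gnorm v p` is the maximum of `v` over the coefficients of `p`.

* (G0) calculus of `h59_gnorm`;
* (G1) `h59_gnorm_mul_of_nonarch` : the Gauss lemma, `‖p q‖ = ‖p‖ ‖q‖` for nonarchimedean `v`;
* (G2) `h59_gnorm_mul_le` : the trivial direction for any `v`,
  `‖p q‖ ≤ #supp(p) ‖p‖ ‖q‖`;
* (G3) `h59_gelfond` : Gelfond's inequality with a non-explicit constant: for finite sets `S`,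
  `S'` of monomials there is `C > 0` with `‖p‖ ‖q‖ ≤ C ‖p q‖` for all complex `p`, `q` supported
  in `S`, `S'` (compactness of the unit spheres of the coefficient spaces);
  `h59_gelfond_of_hom` : the same for any field with an absolute value induced by a ring
  homomorphism to `ℂ`.
-/

set_option autoImplicit false

noncomputable section

namespace Fermat.Agent.S17

open MvPolynomial

section Defs

variable {K : Type*} [Field K] {σ : Type*}

/-- the value of a coefficient, as a nonnegative real. -/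
def h59_nn (v : AbsoluteValue K ℝ) (p : MvPolynomial σ K) (m : σ →₀ ℕ) : NNReal :=
  ⟨v (p.coeff m), v.nonneg _⟩

@[simp]
theorem h59_coe_nn (v : AbsoluteValue K ℝ) (p : MvPolynomial σ K) (m : σ →₀ ℕ) :
    (h59_nn v p m : ℝ) = v (p.coeff m) := rfl

/-- The Gauss norm of a multivariate polynomial: the maximum of `v` over its coefficients. -/
def h59_gnorm (v : AbsoluteValue K ℝ) (p : MvPolynomial σ K) : ℝ :=
  ((p.support.sup (h59_nn v p) : NNReal) : ℝ)

theorem h59_gnorm_nonneg (v : AbsoluteValue K ℝ) (p : MvPolynomial σ K) : 0 ≤ h59_gnorm v p :=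
  NNReal.coe_nonneg _

theorem h59_le_gnorm (v : AbsoluteValue K ℝ) (p : MvPolynomial σ K) (m : σ →₀ ℕ) :
    v (p.coeff m) ≤ h59_gnorm v p := by
  by_cases hm : m ∈ p.support
  · have h := Finset.le_sup (f := h59_nn v p) hm
    exact h
  · rw [MvPolynomial.notMem_support_iff.mp hm, map_zero]
    exact h59_gnorm_nonneg v p

theorem h59_gnorm_le (v : AbsoluteValue K ℝ) (p : MvPolynomial σ K) {B : ℝ} (hB : 0 ≤ B)
    (h : ∀ m, v (p.coeff m) ≤ B) : h59_gnorm v p ≤ B := by
  have h' : p.support.sup (h59_nn v p) ≤ (⟨B, hB⟩ : NNReal) :=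
    Finset.sup_le fun m _ => h m
  exact h'

theorem h59_exists_eq_gnorm (v : AbsoluteValue K ℝ) {p : MvPolynomial σ K} (hp : p ≠ 0) :
    ∃ m ∈ p.support, v (p.coeff m) = h59_gnorm v p := by
  obtain ⟨m, hm, h⟩ := Finset.exists_mem_eq_sup p.support (MvPolynomial.support_nonempty.mpr hp)
    (h59_nn v p)
  refine ⟨m, hm, ?_⟩
  rw [h59_gnorm, h]
  rfl

@[simp]
theorem h59_gnorm_zero (v : AbsoluteValue K ℝ) : h59_gnorm v (0 : MvPolynomial σ K) = 0 := by
  apply le_antisymm _ (h59_gnorm_nonneg v _)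
  exact h59_gnorm_le v _ le_rfl fun m => by simp

theorem h59_gnorm_pos (v : AbsoluteValue K ℝ) {p : MvPolynomial σ K} (hp : p ≠ 0) :
    0 < h59_gnorm v p := by
  obtain ⟨m, hm, h⟩ := h59_exists_eq_gnorm v hp
  rw [← h]
  exact v.pos (MvPolynomial.mem_support_iff.mp hm)

theorem h59_gnorm_eq_zero_iff (v : AbsoluteValue K ℝ) {p : MvPolynomial σ K} :
    h59_gnorm v p = 0 ↔ p = 0 := by
  constructor
  · intro h
    by_contra hp
    exact (h59_gnorm_pos v hp).ne' h
  · rintro rfl
    exact h59_gnorm_zero v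

/-- the Gauss norm in the form used by Mathlib's height bounds. -/
theorem h59_gnorm_eq_iSup (v : AbsoluteValue K ℝ) (p : MvPolynomial σ K) :
    h59_gnorm v p = ⨆ s : p.support, v (coeff s p) := by
  apply le_antisymm
  · rcases eq_or_ne p 0 with rfl | hp
    · rw [h59_gnorm_zero]
      exact Real.iSup_nonneg fun _ => v.nonneg _
    · obtain ⟨m, hm, h⟩ := h59_exists_eq_gnorm v hp
      rw [← h]
      exact Finite.le_ciSup_of_le (⟨m, hm⟩ : p.support) le_rfl
  · exact Real.iSup_le (fun s => h59_le_gnorm v p s) (h59_gnorm_nonneg v p)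

theorem h59_gnorm_C_mul (v : AbsoluteValue K ℝ) (a : K) (p : MvPolynomial σ K) :
    h59_gnorm v (C a * p) = v a * h59_gnorm v p := by
  rcases eq_or_ne a 0 with rfl | ha
  · simp
  rcases eq_or_ne p 0 with rfl | hp
  · simp
  apply le_antisymm
  · refine h59_gnorm_le v _ (mul_nonneg (v.nonneg _) (h59_gnorm_nonneg v p)) fun m => ?_
    rw [coeff_C_mul, v.map_mul]
    exact mul_le_mul_of_nonneg_left (h59_le_gnorm v p m) (v.nonneg _)
  · obtain ⟨m, -, h⟩ := h59_exists_eq_gnorm v hp
    rw [← h, ← v.map_mul, ← coeff_C_mul]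
    exact h59_le_gnorm v _ m

theorem h59_gnorm_C (v : AbsoluteValue K ℝ) (a : K) :
    h59_gnorm v (C a : MvPolynomial σ K) = v a := by
  have := h59_gnorm_C_mul v a (1 : MvPolynomial σ K)
  rw [mul_one] at this
  rw [this]
  have h1 : h59_gnorm v (1 : MvPolynomial σ K) = 1 := by
    classical
    apply le_antisymm
    · refine h59_gnorm_le v _ zero_le_one fun m => ?_
      rw [coeff_one]
      split_ifs <;> simp
    · have := h59_le_gnorm v (1 : MvPolynomial σ K) 0
      simpa using this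
  rw [h1, mul_one]

theorem h59_gnorm_monomial (v : AbsoluteValue K ℝ) (m : σ →₀ ℕ) (a : K) :
    h59_gnorm v (monomial m a) = v a := by
  classical
  apply le_antisymm
  · refine h59_gnorm_le v _ (v.nonneg _) fun n => ?_
    rw [coeff_monomial]
    split_ifs <;> simp
  · have := h59_le_gnorm v (monomial m a) m
    simpa using this

/-- the Gauss norm of a sum, any absolute value. -/
theorem h59_gnorm_add_le (v : AbsoluteValue K ℝ) (p q : MvPolynomial σ K) :
    h59_gnorm v (p + q) ≤ h59_gnorm v p + h59_gnorm v q := by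
  refine h59_gnorm_le v _ (add_nonneg (h59_gnorm_nonneg v p) (h59_gnorm_nonneg v q)) fun m => ?_
  rw [coeff_add]
  exact (v.add_le _ _).trans (add_le_add (h59_le_gnorm v p m) (h59_le_gnorm v q m))

/-- the Gauss norm of a sum, nonarchimedean absolute value. -/
theorem h59_gnorm_add_le_max (v : AbsoluteValue K ℝ) (hv : IsNonarchimedean v)
    (p q : MvPolynomial σ K) :
    h59_gnorm v (p + q) ≤ max (h59_gnorm v p) (h59_gnorm v q) := by
  refine h59_gnorm_le v _ (le_max_of_le_left (h59_gnorm_nonneg v p)) fun m => ?_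
  rw [coeff_add]
  exact (hv _ _).trans (max_le_max (h59_le_gnorm v p m) (h59_le_gnorm v q m))

end Defs

/-! ### (G1) the Gauss lemma -/

section Gauss

variable {K : Type*} [Field K] {σ : Type*}

theorem h59_gnorm_mul_le_of_nonarch (v : AbsoluteValue K ℝ) (hv : IsNonarchimedean v)
    (p q : MvPolynomial σ K) :
    h59_gnorm v (p * q) ≤ h59_gnorm v p * h59_gnorm v q := by
  classical
  have hB : 0 ≤ h59_gnorm v p * h59_gnorm v q :=
    mul_nonneg (h59_gnorm_nonneg v p) (h59_gnorm_nonneg v q)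
  refine h59_gnorm_le v _ hB fun m => ?_
  rw [coeff_mul]
  refine (IsNonarchimedean.apply_sum_le hv).trans (Real.iSup_le (fun i => ?_) hB)
  rw [v.map_mul]
  exact mul_le_mul (h59_le_gnorm v p _) (h59_le_gnorm v q _) (v.nonneg _) (h59_gnorm_nonneg v p)

/-- a coefficient of smaller value than the Gauss norm, below the first place where it is
attained -/
private theorem h59_lt_of_lex_lt [LinearOrder σ] (v : AbsoluteValue K ℝ) (p : MvPolynomial σ K)
    (m₀ : σ →₀ ℕ)
    (hmin : ∀ m ∈ p.support, v (p.coeff m) = h59_gnorm v p → toLex m₀ ≤ toLex m)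
    (hpos : 0 < h59_gnorm v p) (a : σ →₀ ℕ) (ha : toLex a < toLex m₀) :
    v (p.coeff a) < h59_gnorm v p := by
  by_contra h
  have heq : v (p.coeff a) = h59_gnorm v p := le_antisymm (h59_le_gnorm v p a) (not_lt.mp h)
  have hmem : a ∈ p.support := by
    rw [MvPolynomial.mem_support_iff]
    intro h0
    rw [h0, map_zero] at heq
    exact hpos.ne heq
  exact absurd (hmin a hmem heq) (not_le.mpr ha)

/-- **Gauss lemma**: the Gauss norm of a nonarchimedean absolute value is multiplicative. -/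
theorem h59_gnorm_mul_of_nonarch (v : AbsoluteValue K ℝ) (hv : IsNonarchimedean v)
    (p q : MvPolynomial σ K) :
    h59_gnorm v (p * q) = h59_gnorm v p * h59_gnorm v q := by
  classical
  rcases eq_or_ne p 0 with rfl | hp
  · simp
  rcases eq_or_ne q 0 with rfl | hq
  · simp
  apply le_antisymm (h59_gnorm_mul_le_of_nonarch v hv p q)
  obtain ⟨_, -⟩ := exists_wellFoundedLT σ
  have hpp := h59_gnorm_pos v hp
  have hqp := h59_gnorm_pos v hq
  -- the lex-first places where the two norms are attained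
  have hAp : (p.support.filter fun m => v (p.coeff m) = h59_gnorm v p).Nonempty := by
    obtain ⟨m, hm, h⟩ := h59_exists_eq_gnorm v hp
    exact ⟨m, Finset.mem_filter.mpr ⟨hm, h⟩⟩
  have hAq : (q.support.filter fun m => v (q.coeff m) = h59_gnorm v q).Nonempty := by
    obtain ⟨m, hm, h⟩ := h59_exists_eq_gnorm v hq
    exact ⟨m, Finset.mem_filter.mpr ⟨hm, h⟩⟩
  obtain ⟨m₀, hm₀, hminp⟩ := Finset.exists_min_image _ (fun m : σ →₀ ℕ => toLex m) hAp
  obtain ⟨n₀, hn₀, hminq⟩ := Finset.exists_min_image _ (fun m : σ →₀ ℕ => toLex m) hAq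
  rw [Finset.mem_filter] at hm₀ hn₀
  have hminp' : ∀ m ∈ p.support, v (p.coeff m) = h59_gnorm v p → toLex m₀ ≤ toLex m :=
    fun m hm h => hminp m (Finset.mem_filter.mpr ⟨hm, h⟩)
  have hminq' : ∀ m ∈ q.support, v (q.coeff m) = h59_gnorm v q → toLex n₀ ≤ toLex m :=
    fun m hm h => hminq m (Finset.mem_filter.mpr ⟨hm, h⟩)
  have key : v ((p * q).coeff (m₀ + n₀)) = h59_gnorm v p * h59_gnorm v q := by
    rw [coeff_mul]
    have hk : (m₀, n₀) ∈ Finset.HasAntidiagonal.antidiagonal (m₀ + n₀) :=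
      Finset.HasAntidiagonal.mem_antidiagonal.mpr rfl
    rw [IsNonarchimedean.apply_sum_eq_of_lt hv (fun a => (v.map_neg a).symm)
      (l := fun x : (σ →₀ ℕ) × (σ →₀ ℕ) => coeff x.1 p * coeff x.2 q) hk ?_]
    · rw [v.map_mul, hm₀.2, hn₀.2]
    · rintro ⟨a, b⟩ hab hne
      rw [Finset.HasAntidiagonal.mem_antidiagonal] at hab
      simp only at hab ⊢
      rw [v.map_mul, v.map_mul, hm₀.2, hn₀.2]
      have ha : a ≠ m₀ := by
        rintro rfl
        exact hne (by rw [add_left_cancel hab])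
      rcases lt_or_gt_of_ne (show toLex a ≠ toLex m₀ from fun h => ha (toLex.injective h))
        with hlt | hgt
      · have h1 := h59_lt_of_lex_lt v p m₀ hminp' hpp a hlt
        calc v (coeff a p) * v (coeff b q) ≤ v (coeff a p) * h59_gnorm v q :=
              mul_le_mul_of_nonneg_left (h59_le_gnorm v q b) (v.nonneg _)
          _ < h59_gnorm v p * h59_gnorm v q := mul_lt_mul_of_pos_right h1 hqp
      · have hb : toLex b < toLex n₀ := by
          by_contra hb
          have hb' : toLex n₀ ≤ toLex b := not_lt.mp hb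
          have h2 : toLex m₀ + toLex n₀ < toLex a + toLex b := add_lt_add_of_lt_of_le hgt hb'
          have h3 : toLex (a + b) = toLex (m₀ + n₀) := by rw [hab]
          exact absurd h3 (ne_of_gt h2)
        have h1 := h59_lt_of_lex_lt v q n₀ hminq' hqp b hb
        calc v (coeff a p) * v (coeff b q) ≤ h59_gnorm v p * v (coeff b q) :=
              mul_le_mul_of_nonneg_right (h59_le_gnorm v p a) (v.nonneg _)
          _ < h59_gnorm v p * h59_gnorm v q := mul_lt_mul_of_pos_left h1 hpp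
  rw [← key]
  exact h59_le_gnorm v _ _

end Gauss

/-! ### (G2) the trivial direction, any absolute value -/

section Trivial

variable {K : Type*} [Field K] {σ : Type*}

/-- `‖p q‖ ≤ #supp(p) ‖p‖ ‖q‖` for any absolute value. -/
theorem h59_gnorm_mul_le (v : AbsoluteValue K ℝ) (p q : MvPolynomial σ K) :
    h59_gnorm v (p * q) ≤ (p.support.card : ℝ) * (h59_gnorm v p * h59_gnorm v q) := by
  classical
  have hB : 0 ≤ h59_gnorm v p * h59_gnorm v q :=
    mul_nonneg (h59_gnorm_nonneg v p) (h59_gnorm_nonneg v q)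
  refine h59_gnorm_le v _ (mul_nonneg (Nat.cast_nonneg _) hB) fun m => ?_
  rw [coeff_mul]
  set s := (Finset.HasAntidiagonal.antidiagonal m).filter (fun x => x.1 ∈ p.support) with hs
  have hsum : ∑ x ∈ Finset.HasAntidiagonal.antidiagonal m, coeff x.1 p * coeff x.2 q
      = ∑ x ∈ s, coeff x.1 p * coeff x.2 q := by
    rw [hs, Finset.sum_filter]
    refine Finset.sum_congr rfl fun x _ => ?_
    split_ifs with h
    · rfl
    · rw [MvPolynomial.notMem_support_iff.mp h, zero_mul]
  rw [hsum]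
  have hcard : s.card ≤ p.support.card := by
    refine Finset.card_le_card_of_injOn (fun x => x.1) (fun x hx => ?_) ?_
    · exact (Finset.mem_filter.mp hx).2
    · intro x hx y hy hxy
      have hx' := Finset.HasAntidiagonal.mem_antidiagonal.mp (Finset.mem_filter.mp hx).1
      have hy' := Finset.HasAntidiagonal.mem_antidiagonal.mp (Finset.mem_filter.mp hy).1
      simp only at hxy
      have h2 : x.2 = y.2 := by
        have : x.1 + x.2 = x.1 + y.2 := by rw [hx', hxy, hy']
        exact add_left_cancel this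
      exact Prod.ext hxy h2
  calc v (∑ x ∈ s, coeff x.1 p * coeff x.2 q)
      ≤ ∑ x ∈ s, v (coeff x.1 p * coeff x.2 q) := v.sum_le _ _
    _ ≤ ∑ _x ∈ s, h59_gnorm v p * h59_gnorm v q := by
        refine Finset.sum_le_sum fun x _ => ?_
        rw [v.map_mul]
        exact mul_le_mul (h59_le_gnorm v p _) (h59_le_gnorm v q _) (v.nonneg _)
          (h59_gnorm_nonneg v p)
    _ = (s.card : ℝ) * (h59_gnorm v p * h59_gnorm v q) := by
        rw [Finset.sum_const, nsmul_eq_mul]
    _ ≤ (p.support.card : ℝ) * (h59_gnorm v p * h59_gnorm v q) := by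
        exact mul_le_mul_of_nonneg_right (by exact_mod_cast hcard) hB

end Trivial

/-! ### (G3) Gelfond's inequality, by compactness -/

section Gelfond

variable {σ : Type*}

/-- the standard absolute value of `ℂ`. -/
abbrev h59_absC : AbsoluteValue ℂ ℝ := NormedField.toAbsoluteValue ℂ

theorem h59_absC_apply (x : ℂ) : h59_absC x = ‖x‖ := rfl

/-- the polynomial with prescribed coefficients on a finite set of monomials. -/
def h59_pol (S : Finset (σ →₀ ℕ)) (a : S → ℂ) : MvPolynomial σ ℂ :=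
  ∑ s : S, monomial (s : σ →₀ ℕ) (a s)

open Classical in
theorem h59_coeff_pol (S : Finset (σ →₀ ℕ)) (a : S → ℂ) (m : σ →₀ ℕ) :
    coeff m (h59_pol S a) = if h : m ∈ S then a ⟨m, h⟩ else 0 := by
  rw [h59_pol, coeff_sum]
  simp only [coeff_monomial]
  split_ifs with h
  · rw [Finset.sum_eq_single (⟨m, h⟩ : S)]
    · simp
    · intro b _ hb
      rw [if_neg]
      intro h'
      exact hb (Subtype.ext h')
    · intro h'
      exact absurd (Finset.mem_univ _) h'
  · apply Finset.sum_eq_zero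
    intro b _
    rw [if_neg]
    intro h'
    exact h (h' ▸ b.2)

theorem h59_pol_coeff (S : Finset (σ →₀ ℕ)) (p : MvPolynomial σ ℂ) (hp : p.support ⊆ S) :
    h59_pol S (fun s : S => coeff (s : σ →₀ ℕ) p) = p := by
  ext m
  rw [h59_coeff_pol]
  split_ifs with h
  · rfl
  · exact (MvPolynomial.notMem_support_iff.mp fun hm => h (hp hm)).symm

theorem h59_norm_coeff (S : Finset (σ →₀ ℕ)) (p : MvPolynomial σ ℂ) (hp : p.support ⊆ S) :
    ‖fun s : S => coeff (s : σ →₀ ℕ) p‖ = h59_gnorm h59_absC p := by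
  apply le_antisymm
  · rw [pi_norm_le_iff_of_nonneg (h59_gnorm_nonneg _ _)]
    intro s
    exact h59_le_gnorm h59_absC p s
  · refine h59_gnorm_le _ _ (norm_nonneg _) fun m => ?_
    by_cases hm : m ∈ S
    · exact norm_le_pi_norm (fun s : S => coeff (s : σ →₀ ℕ) p) ⟨m, hm⟩
    · rw [MvPolynomial.notMem_support_iff.mp fun h => hm (hp h), map_zero]
      exact norm_nonneg _

theorem h59_continuous_coeff_pol (S : Finset (σ →₀ ℕ)) (m : σ →₀ ℕ) :
    Continuous fun a : S → ℂ => coeff m (h59_pol S a) := by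
  simp only [h59_coeff_pol]
  by_cases h : m ∈ S
  · simp only [dif_pos h]
    exact continuous_apply _
  · simp only [dif_neg h]
    exact continuous_const

theorem h59_continuous_coeff_mul (S S' : Finset (σ →₀ ℕ)) (m : σ →₀ ℕ) :
    Continuous fun ab : (S → ℂ) × (S' → ℂ) =>
      coeff m (h59_pol S ab.1 * h59_pol S' ab.2) := by
  classical
  simp only [coeff_mul]
  refine continuous_finsetSum _ fun x _ => ?_
  exact ((h59_continuous_coeff_pol S x.1).comp continuous_fst).mul
    ((h59_continuous_coeff_pol S' x.2).comp continuous_snd)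

theorem h59_pol_ne_zero (S : Finset (σ →₀ ℕ)) (a : S → ℂ) (ha : ‖a‖ = 1) : h59_pol S a ≠ 0 := by
  intro h0
  have h1 : ‖a‖ ≤ 0 := by
    rw [pi_norm_le_iff_of_nonneg le_rfl]
    intro s
    have := h59_coeff_pol S a s
    rw [h0, coeff_zero, dif_pos s.2] at this
    rw [← this, norm_zero]
  rw [ha] at h1
  exact absurd h1 (by norm_num)

/-- Gelfond on the unit spheres of the coefficient spaces. -/
theorem h59_gelfond_sphere (S S' : Finset (σ →₀ ℕ)) :
    ∃ c : ℝ, 0 < c ∧ ∀ (a : S → ℂ) (b : S' → ℂ), ‖a‖ = 1 → ‖b‖ = 1 →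
      c ≤ h59_gnorm h59_absC (h59_pol S a * h59_pol S' b) := by
  classical
  set T : Finset (σ →₀ ℕ) := Finset.image₂ (· + ·) S S' with hT
  set Ψ : (S → ℂ) × (S' → ℂ) → ℝ :=
    fun ab => ∑ m ∈ T, ‖coeff m (h59_pol S ab.1 * h59_pol S' ab.2)‖ with hΨ
  have hΨc : Continuous Ψ :=
    continuous_finsetSum _ fun m _ => (h59_continuous_coeff_mul S S' m).norm
  have hsupp : ∀ (a : S → ℂ) (b : S' → ℂ) (m : σ →₀ ℕ),
      coeff m (h59_pol S a * h59_pol S' b) ≠ 0 → m ∈ T := by
    intro a b m hm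
    rw [coeff_mul] at hm
    obtain ⟨x, hx, hx0⟩ := Finset.exists_ne_zero_of_sum_ne_zero hm
    rw [Finset.HasAntidiagonal.mem_antidiagonal] at hx
    have h1 : coeff x.1 (h59_pol S a) ≠ 0 := left_ne_zero_of_mul hx0
    have h2 : coeff x.2 (h59_pol S' b) ≠ 0 := right_ne_zero_of_mul hx0
    rw [h59_coeff_pol] at h1 h2
    have h1' : x.1 ∈ S := by
      by_contra h
      exact h1 (dif_neg h)
    have h2' : x.2 ∈ S' := by
      by_contra h
      exact h2 (dif_neg h)
    exact Finset.mem_image₂.mpr ⟨x.1, h1', x.2, h2', hx⟩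
  have hΨle : ∀ (a : S → ℂ) (b : S' → ℂ),
      Ψ (a, b) ≤ (T.card : ℝ) * h59_gnorm h59_absC (h59_pol S a * h59_pol S' b) := by
    intro a b
    have : ∀ m ∈ T, ‖coeff m (h59_pol S a * h59_pol S' b)‖
        ≤ h59_gnorm h59_absC (h59_pol S a * h59_pol S' b) :=
      fun m _ => h59_le_gnorm h59_absC _ m
    calc Ψ (a, b) ≤ ∑ _m ∈ T, h59_gnorm h59_absC (h59_pol S a * h59_pol S' b) :=
          Finset.sum_le_sum this
      _ = (T.card : ℝ) * h59_gnorm h59_absC (h59_pol S a * h59_pol S' b) := by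
          rw [Finset.sum_const, nsmul_eq_mul]
  have hΨpos : ∀ (a : S → ℂ) (b : S' → ℂ), ‖a‖ = 1 → ‖b‖ = 1 → 0 < Ψ (a, b) := by
    intro a b ha hb
    have hne : h59_pol S a * h59_pol S' b ≠ 0 :=
      mul_ne_zero (h59_pol_ne_zero S a ha) (h59_pol_ne_zero S' b hb)
    obtain ⟨m, hm⟩ := MvPolynomial.ne_zero_iff.mp hne
    have hmT := hsupp a b m hm
    have h1 : ‖coeff m (h59_pol S a * h59_pol S' b)‖ ≤ Ψ (a, b) :=
      Finset.single_le_sum (f := fun m => ‖coeff m (h59_pol S a * h59_pol S' b)‖)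
        (fun i _ => norm_nonneg _) hmT
    exact lt_of_lt_of_le (norm_pos_iff.mpr hm) h1
  have hK : IsCompact (Metric.sphere (0 : S → ℂ) 1 ×ˢ Metric.sphere (0 : S' → ℂ) 1) :=
    (isCompact_sphere _ _).prod (isCompact_sphere _ _)
  by_cases hne : (Metric.sphere (0 : S → ℂ) 1 ×ˢ Metric.sphere (0 : S' → ℂ) 1).Nonempty
  · obtain ⟨x, hx, hmin⟩ := hK.exists_isMinOn hne hΨc.continuousOn
    rw [Set.mem_prod, mem_sphere_zero_iff_norm, mem_sphere_zero_iff_norm] at hx
    have hxpos : 0 < Ψ x := hΨpos x.1 x.2 hx.1 hx.2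
    have hTpos : (0 : ℝ) < (T.card : ℝ) + 1 := by positivity
    refine ⟨Ψ x / ((T.card : ℝ) + 1), div_pos hxpos hTpos, fun a b ha hb => ?_⟩
    have hab : (a, b) ∈ Metric.sphere (0 : S → ℂ) 1 ×ˢ Metric.sphere (0 : S' → ℂ) 1 := by
      rw [Set.mem_prod, mem_sphere_zero_iff_norm, mem_sphere_zero_iff_norm]
      exact ⟨ha, hb⟩
    have h1 : Ψ x ≤ Ψ (a, b) := isMinOn_iff.mp hmin (a, b) hab
    rw [div_le_iff₀ hTpos]
    have h2 := hΨle a b
    have h3 := h59_gnorm_nonneg h59_absC (h59_pol S a * h59_pol S' b)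
    nlinarith
  · refine ⟨1, one_pos, fun a b ha hb => absurd ⟨(a, b), ?_⟩ hne⟩
    rw [Set.mem_prod, mem_sphere_zero_iff_norm, mem_sphere_zero_iff_norm]
    exact ⟨ha, hb⟩

/-- **Gelfond's inequality** (non-explicit constant): for finite sets `S`, `S'` of monomials
there is `C > 0` with `‖p‖ ‖q‖ ≤ C ‖p q‖` for all complex polynomials `p`, `q` supported in
`S`, `S'`. -/
theorem h59_gelfond (S S' : Finset (σ →₀ ℕ)) :
    ∃ C : ℝ, 0 < C ∧ ∀ p q : MvPolynomial σ ℂ, p.support ⊆ S → q.support ⊆ S' →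
      h59_gnorm h59_absC p * h59_gnorm h59_absC q ≤ C * h59_gnorm h59_absC (p * q) := by
  obtain ⟨c, hc, h⟩ := h59_gelfond_sphere S S'
  refine ⟨c⁻¹, inv_pos.mpr hc, fun p q hp hq => ?_⟩
  rcases eq_or_ne p 0 with rfl | hp0
  · simp
  rcases eq_or_ne q 0 with rfl | hq0
  · simp
  set α := h59_gnorm h59_absC p with hα
  set β := h59_gnorm h59_absC q with hβ
  have hαp : 0 < α := h59_gnorm_pos _ hp0
  have hβp : 0 < β := h59_gnorm_pos _ hq0
  set p₁ : MvPolynomial σ ℂ := C ((α : ℂ)⁻¹) * p with hp₁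
  set q₁ : MvPolynomial σ ℂ := C ((β : ℂ)⁻¹) * q with hq₁
  have hsp : p₁.support ⊆ S := by
    intro m hm
    apply hp
    rw [MvPolynomial.mem_support_iff] at hm ⊢
    intro h0
    apply hm
    rw [hp₁, coeff_C_mul, h0, mul_zero]
  have hsq : q₁.support ⊆ S' := by
    intro m hm
    apply hq
    rw [MvPolynomial.mem_support_iff] at hm ⊢
    intro h0
    apply hm
    rw [hq₁, coeff_C_mul, h0, mul_zero]
  have hn1 : h59_gnorm h59_absC p₁ = 1 := by
    rw [hp₁, h59_gnorm_C_mul, h59_absC_apply, norm_inv, Complex.norm_real, Real.norm_eq_abs,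
      abs_of_pos hαp, ← hα, inv_mul_cancel₀ hαp.ne']
  have hn2 : h59_gnorm h59_absC q₁ = 1 := by
    rw [hq₁, h59_gnorm_C_mul, h59_absC_apply, norm_inv, Complex.norm_real, Real.norm_eq_abs,
      abs_of_pos hβp, ← hβ, inv_mul_cancel₀ hβp.ne']
  have key := h (fun s : S => coeff (s : σ →₀ ℕ) p₁) (fun s : S' => coeff (s : σ →₀ ℕ) q₁)
    (by rw [h59_norm_coeff S p₁ hsp, hn1]) (by rw [h59_norm_coeff S' q₁ hsq, hn2])
  rw [h59_pol_coeff S p₁ hsp, h59_pol_coeff S' q₁ hsq] at key
  have hprod : p₁ * q₁ = C ((α : ℂ)⁻¹ * (β : ℂ)⁻¹) * (p * q) := by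
    rw [hp₁, hq₁, C_mul]
    ring
  rw [hprod, h59_gnorm_C_mul, h59_absC_apply, norm_mul, norm_inv, norm_inv, Complex.norm_real,
    Complex.norm_real, Real.norm_eq_abs, Real.norm_eq_abs, abs_of_pos hαp, abs_of_pos hβp] at key
  rw [inv_mul_eq_div, le_div_iff₀ hc]
  have h4 : α * β * c ≤ α * β * (α⁻¹ * β⁻¹ * h59_gnorm h59_absC (p * q)) :=
    mul_le_mul_of_nonneg_left key (mul_nonneg hαp.le hβp.le)
  have h5 : α * β * (α⁻¹ * β⁻¹ * h59_gnorm h59_absC (p * q)) = h59_gnorm h59_absC (p * q) := by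
    field_simp
  rw [h5] at h4
  exact h4

/-- the Gelfond constant of a pair of finite sets of monomials. -/
def h59_gelfondConst (S S' : Finset (σ →₀ ℕ)) : ℝ := (h59_gelfond S S').choose

theorem h59_gelfondConst_pos (S S' : Finset (σ →₀ ℕ)) : 0 < h59_gelfondConst S S' :=
  (h59_gelfond S S').choose_spec.1

theorem h59_gelfond_le (S S' : Finset (σ →₀ ℕ)) (p q : MvPolynomial σ ℂ) (hp : p.support ⊆ S)
    (hq : q.support ⊆ S') :
    h59_gnorm h59_absC p * h59_gnorm h59_absC q
      ≤ h59_gelfondConst S S' * h59_gnorm h59_absC (p * q) :=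
  (h59_gelfond S S').choose_spec.2 p q hp hq

/-- the Gauss norm is compatible with a ring homomorphism to `ℂ` inducing the absolute value. -/
theorem h59_gnorm_map {K : Type*} [Field K] (v : AbsoluteValue K ℝ) (φ : K →+* ℂ)
    (hφ : ∀ x, v x = ‖φ x‖) (p : MvPolynomial σ K) :
    h59_gnorm h59_absC (map φ p) = h59_gnorm v p := by
  apply le_antisymm
  · refine h59_gnorm_le _ _ (h59_gnorm_nonneg v p) fun m => ?_
    rw [coeff_map, h59_absC_apply, ← hφ]
    exact h59_le_gnorm v p m
  · refine h59_gnorm_le _ _ (h59_gnorm_nonneg _ _) fun m => ?_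
    rw [hφ, ← h59_absC_apply, ← coeff_map]
    exact h59_le_gnorm _ _ m

/-- **Gelfond's inequality** for a field with an absolute value induced by a ring homomorphism
to `ℂ` (e.g. `ℚ`, a number field or `ℚ̄` with an archimedean absolute value). -/
theorem h59_gelfond_of_hom {K : Type*} [Field K] (v : AbsoluteValue K ℝ) (φ : K →+* ℂ)
    (hφ : ∀ x, v x = ‖φ x‖) (S S' : Finset (σ →₀ ℕ)) (p q : MvPolynomial σ K)
    (hp : p.support ⊆ S) (hq : q.support ⊆ S') :
    h59_gnorm v p * h59_gnorm v q ≤ h59_gelfondConst S S' * h59_gnorm v (p * q) := by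
  have h := h59_gelfond_le S S' (map φ p) (map φ q)
    ((MvPolynomial.support_map_subset φ p).trans hp)
    ((MvPolynomial.support_map_subset φ q).trans hq)
  rw [← map_mul, h59_gnorm_map v φ hφ, h59_gnorm_map v φ hφ, h59_gnorm_map v φ hφ] at h
  exact h

end Gelfond

end Fermat.Agent.S17
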