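import Mathlib
import Fermat.Agent.S17.h59_MvGauss

/-!
# S17 foundation (helper59): Nullstellensatz certificates and uniform local bounds

`K` an algebraically closed field, `av : W → AbsoluteValue K ℝ` a family of absolute values
such that

* `h1` : every nonzero `α : K` has `av w α = 1` for all but finitely many `w`,
* `h2` : all but finitely many `av w` are nonarchimedean.

(For `K = ℚ̄` and one absolute value per place of `ℚ` both hold.)

* (EV) `h59_eval_le`, `h59_eval_le_of_nonarch` : evaluation of a polynomial in the unit polydisc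
  is bounded by its Gauss norm.
* (CERT) `h59_cert` : if `G` vanishes on the common zeros of `F i` then for some `e ≥ 1` and
  some constants `c w ≥ 1`, equal to `1` for almost all `w`,
  `|G(y)|_w ^ e ≤ c w * max_i |F_i(y)|_w` on the unit polydisc of every `w`.
* (CERT1) `h59_cert_one` : polynomials without common zero: `1 ≤ c w * |F_i(y)|_w` for some `i`.
* (CHART) `h59_cert_chart` : the normalised-point form (variables in blocks `ν : σ → β`; points
  with a coordinate equal to `1` in every block).
-/

set_option autoImplicit false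

noncomputable section

namespace Fermat.Agent.S17

open MvPolynomial

section Eval

variable {K : Type*} [Field K] {σ : Type*}

/-- a monomial evaluated in the unit polydisc has value at most one. -/
theorem h59_monomial_eval_le (v : AbsoluteValue K ℝ) (y : σ → K) (hy : ∀ i, v (y i) ≤ 1)
    (d : σ →₀ ℕ) : v (∏ i ∈ d.support, y i ^ d i) ≤ 1 := by
  rw [map_prod]
  refine Finset.prod_le_one (fun i _ => v.nonneg _) fun i _ => ?_
  rw [map_pow]
  exact pow_le_one₀ (v.nonneg _) (hy i)

/-- (EV) evaluation in the unit polydisc is bounded by the Gauss norm (any absolute value). -/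
theorem h59_eval_le (v : AbsoluteValue K ℝ) (p : MvPolynomial σ K) (y : σ → K)
    (hy : ∀ i, v (y i) ≤ 1) : v (eval y p) ≤ (p.support.card : ℝ) * h59_gnorm v p := by
  rw [MvPolynomial.eval_eq]
  calc v (∑ d ∈ p.support, coeff d p * ∏ i ∈ d.support, y i ^ d i)
      ≤ ∑ d ∈ p.support, v (coeff d p * ∏ i ∈ d.support, y i ^ d i) := v.sum_le _ _
    _ ≤ ∑ _d ∈ p.support, h59_gnorm v p := by
        refine Finset.sum_le_sum fun d _ => ?_
        rw [map_mul]
        calc v (coeff d p) * v (∏ i ∈ d.support, y i ^ d i) ≤ h59_gnorm v p * 1 :=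
              mul_le_mul (h59_le_gnorm v p d) (h59_monomial_eval_le v y hy d) (v.nonneg _)
                (h59_gnorm_nonneg v p)
          _ = h59_gnorm v p := mul_one _
    _ = (p.support.card : ℝ) * h59_gnorm v p := by rw [Finset.sum_const, nsmul_eq_mul]

/-- the ultrametric inequality for finite sums, with an explicit bound. -/
theorem h59_nonarch_sum_le (v : AbsoluteValue K ℝ) (hv : IsNonarchimedean v) {α : Type*}
    (s : Finset α) (l : α → K) {B : ℝ} (hB : 0 ≤ B) (h : ∀ i ∈ s, v (l i) ≤ B) :
    v (∑ i ∈ s, l i) ≤ B := by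
  classical
  induction s using Finset.induction with
  | empty => simpa using hB
  | insert a s ha ih =>
    rw [Finset.sum_insert ha]
    exact (hv _ _).trans (max_le (h a (Finset.mem_insert_self a s))
      (ih fun i hi => h i (Finset.mem_insert_of_mem hi)))

/-- (EV) evaluation in the unit polydisc is bounded by the Gauss norm, without the number of
terms, for a nonarchimedean absolute value. -/
theorem h59_eval_le_of_nonarch (v : AbsoluteValue K ℝ) (hv : IsNonarchimedean v)
    (p : MvPolynomial σ K) (y : σ → K) (hy : ∀ i, v (y i) ≤ 1) :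
    v (eval y p) ≤ h59_gnorm v p := by
  rw [MvPolynomial.eval_eq]
  refine h59_nonarch_sum_le v hv _ _ (h59_gnorm_nonneg v p) fun d _ => ?_
  rw [map_mul]
  calc v (coeff d p) * v (∏ i ∈ d.support, y i ^ d i) ≤ h59_gnorm v p * 1 :=
        mul_le_mul (h59_le_gnorm v p d) (h59_monomial_eval_le v y hy d) (v.nonneg _)
          (h59_gnorm_nonneg v p)
    _ = h59_gnorm v p := mul_one _

open Classical in
/-- The local constant of a finite family of polynomials (the coefficients of a certificate) at
an absolute value: `1` if the absolute value is nonarchimedean and all Gauss norms are `≤ 1`. -/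
def h59_certConst (v : AbsoluteValue K ℝ) {ι : Type*} [Fintype ι] (A : ι → MvPolynomial σ K) : ℝ :=
  if IsNonarchimedean v ∧ ∀ i, h59_gnorm v (A i) ≤ 1 then 1
  else max 1 (∑ i, ((A i).support.card : ℝ) * h59_gnorm v (A i))

theorem h59_one_le_certConst (v : AbsoluteValue K ℝ) {ι : Type*} [Fintype ι]
    (A : ι → MvPolynomial σ K) : 1 ≤ h59_certConst v A := by
  unfold h59_certConst
  split_ifs
  · exact le_rfl
  · exact le_max_left _ _

/-- the basic bound: a combination `∑ A_i(y) t_i` with `|t_i| ≤ B`, `y` in the unit polydisc. -/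
theorem h59_certConst_bound (v : AbsoluteValue K ℝ) {ι : Type*} [Fintype ι]
    (A : ι → MvPolynomial σ K) (y : σ → K) (hy : ∀ s, v (y s) ≤ 1) (t : ι → K) {B : ℝ}
    (hB : 0 ≤ B) (ht : ∀ i, v (t i) ≤ B) :
    v (∑ i, eval y (A i) * t i) ≤ h59_certConst v A * B := by
  unfold h59_certConst
  split_ifs with h
  · rw [one_mul]
    refine h59_nonarch_sum_le v h.1 _ _ hB fun i _ => ?_
    rw [map_mul]
    calc v (eval y (A i)) * v (t i) ≤ 1 * B :=
          mul_le_mul ((h59_eval_le_of_nonarch v h.1 (A i) y hy).trans (h.2 i)) (ht i)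
            (v.nonneg _) zero_le_one
      _ = B := one_mul _
  · calc v (∑ i, eval y (A i) * t i) ≤ ∑ i, v (eval y (A i) * t i) := v.sum_le _ _
      _ ≤ ∑ i, ((A i).support.card : ℝ) * h59_gnorm v (A i) * B := by
          refine Finset.sum_le_sum fun i _ => ?_
          rw [map_mul]
          exact mul_le_mul (h59_eval_le v (A i) y hy) (ht i) (v.nonneg _)
            (mul_nonneg (Nat.cast_nonneg _) (h59_gnorm_nonneg v _))
      _ = (∑ i, ((A i).support.card : ℝ) * h59_gnorm v (A i)) * B := by rw [Finset.sum_mul]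
      _ ≤ max 1 (∑ i, ((A i).support.card : ℝ) * h59_gnorm v (A i)) * B :=
          mul_le_mul_of_nonneg_right (le_max_right _ _) hB

/-- the same bound for a polynomial combination `∑ A_i F_i`. -/
theorem h59_certConst_bound_eval (v : AbsoluteValue K ℝ) {ι : Type*} [Fintype ι]
    (A F : ι → MvPolynomial σ K) (y : σ → K) (hy : ∀ s, v (y s) ≤ 1) {B : ℝ}
    (hB : 0 ≤ B) (hF : ∀ i, v (eval y (F i)) ≤ B) :
    v (eval y (∑ i, A i * F i)) ≤ h59_certConst v A * B := by
  have h := h59_certConst_bound v A y hy (fun i => eval y (F i)) hB hF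
  simpa [map_sum, map_mul] using h

/-- in a family of absolute values with the "almost all" properties, the local constant of a
finite family of polynomials is `1` for almost all members. -/
theorem h59_certConst_eq_one_aa {W : Type*} (av : W → AbsoluteValue K ℝ)
    (h1 : ∀ α : K, α ≠ 0 → {w | av w α ≠ 1}.Finite)
    (h2 : {w | ¬ IsNonarchimedean (av w)}.Finite) {ι : Type*} [Fintype ι]
    (A : ι → MvPolynomial σ K) : {w | h59_certConst (av w) A ≠ 1}.Finite := by
  have hfin : ({w | ¬ IsNonarchimedean (av w)} ∪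
      ⋃ i : ι, ⋃ m ∈ (A i).support, {w | av w (coeff m (A i)) ≠ 1}).Finite := by
    refine h2.union (Set.finite_iUnion fun i => ?_)
    exact Set.Finite.biUnion (Finset.finite_toSet _) fun m hm =>
      h1 _ (MvPolynomial.mem_support_iff.mp hm)
  refine hfin.subset fun w hw => ?_
  by_contra hcon
  apply hw
  simp only [Set.mem_union, Set.mem_ofPred_eq, Set.mem_iUnion, not_or, not_not, not_exists]
    at hcon
  obtain ⟨hna, hc⟩ := hcon
  have hg : ∀ i, h59_gnorm (av w) (A i) ≤ 1 := by
    intro i
    refine h59_gnorm_le (av w) (A i) zero_le_one fun m => ?_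
    by_cases hm : m ∈ (A i).support
    · exact (hc i m hm).le
    · rw [MvPolynomial.notMem_support_iff.mp hm, map_zero]
      exact zero_le_one
  show h59_certConst (av w) A = 1
  unfold h59_certConst
  rw [if_pos ⟨hna, hg⟩]

end Eval

section Cert

variable {K : Type*} [Field K] [IsAlgClosed K] {σ : Type*} [Finite σ]

/-- (CERT) **Nullstellensatz certificate, uniform local form.** If `G` vanishes on the common
zeros of the `F i`, then there are `e ≥ 1` and constants `c w ≥ 1`, equal to `1` for almost all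
`w`, with `|G(y)|_w ^ e ≤ c w * B` whenever `y` is in the unit polydisc of `av w` and
`|F_i(y)|_w ≤ B` for all `i`. -/
theorem h59_cert {W : Type*} (av : W → AbsoluteValue K ℝ)
    (h1 : ∀ α : K, α ≠ 0 → {w | av w α ≠ 1}.Finite)
    (h2 : {w | ¬ IsNonarchimedean (av w)}.Finite) {ι : Type*} [Fintype ι]
    (F : ι → MvPolynomial σ K) (G : MvPolynomial σ K)
    (hG : ∀ y : σ → K, (∀ i, eval y (F i) = 0) → eval y G = 0) :
    ∃ e : ℕ, 0 < e ∧ ∃ c : W → ℝ, (∀ w, 1 ≤ c w) ∧ {w | c w ≠ 1}.Finite ∧
      ∀ (w : W) (y : σ → K), (∀ s, av w (y s) ≤ 1) → ∀ B : ℝ, 0 ≤ B →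
        (∀ i, av w (eval y (F i)) ≤ B) → av w (eval y G) ^ e ≤ c w * B := by
  have hmem : G ∈ (Ideal.span (Set.range F)).radical := by
    rw [← vanishingIdeal_zeroLocus_eq_radical (K := K)]
    intro y hy
    have hy' : ∀ i, eval y (F i) = 0 := fun i => by
      have := hy (F i) (Ideal.subset_span ⟨i, rfl⟩)
      simpa [MvPolynomial.aeval_eq_eval] using this
    simpa [MvPolynomial.aeval_eq_eval] using hG y hy'
  obtain ⟨e0, he0⟩ := hmem
  have he : G ^ (e0 + 1) ∈ Ideal.span (Set.range F) := by
    rw [pow_succ]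
    exact Ideal.mul_mem_right _ _ he0
  obtain ⟨A, hA⟩ := (Ideal.mem_span_range_iff_exists_fun).mp he
  refine ⟨e0 + 1, Nat.succ_pos _, fun w => h59_certConst (av w) A,
    fun w => h59_one_le_certConst _ _, h59_certConst_eq_one_aa av h1 h2 A, ?_⟩
  intro w y hy B hB hF
  rw [← map_pow, ← map_pow, ← hA]
  exact h59_certConst_bound_eval (av w) A F y hy hB hF

/-- (CERT1) polynomials without a common zero: at every point of the unit polydisc of `av w`
one of them has value at least `1 / c w`, with `c w = 1` for almost all `w`. -/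
theorem h59_cert_one {W : Type*} (av : W → AbsoluteValue K ℝ)
    (h1 : ∀ α : K, α ≠ 0 → {w | av w α ≠ 1}.Finite)
    (h2 : {w | ¬ IsNonarchimedean (av w)}.Finite) {ι : Type*} [Fintype ι]
    (F : ι → MvPolynomial σ K) (hF : ∀ y : σ → K, ∃ i, eval y (F i) ≠ 0) :
    ∃ c : W → ℝ, (∀ w, 1 ≤ c w) ∧ {w | c w ≠ 1}.Finite ∧
      ∀ (w : W) (y : σ → K), (∀ s, av w (y s) ≤ 1) → ∃ i, 1 ≤ c w * av w (eval y (F i)) := by
  obtain ⟨e, -, c, hc1, hcfin, hc⟩ := h59_cert av h1 h2 F 1 (fun y hy => by
    obtain ⟨i, hi⟩ := hF y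
    exact absurd (hy i) hi)
  refine ⟨c, hc1, hcfin, fun w y hy => ?_⟩
  have : Nonempty ι := ⟨(hF y).choose⟩
  obtain ⟨i, hi⟩ := Finite.exists_max (fun i => av w (eval y (F i)))
  refine ⟨i, ?_⟩
  have h := hc w y hy (av w (eval y (F i))) ((av w).nonneg _) hi
  simpa using h

/-- (CHART) **the normalised-point form.** The variables come in blocks (`ν s` = the block of the
variable `s`). If at every common zero of the `F i` with a nonzero coordinate in every block some
`G k` does not vanish, then at every common zero `y` of the `F i` in the unit polydisc of `av w`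
which has a coordinate equal to `1` in every block, some `G k` has value at least `1 / c w`;
`c w = 1` for almost all `w`. No homogeneity is assumed. -/
theorem h59_cert_chart {W : Type*} (av : W → AbsoluteValue K ℝ)
    (h1 : ∀ α : K, α ≠ 0 → {w | av w α ≠ 1}.Finite)
    (h2 : {w | ¬ IsNonarchimedean (av w)}.Finite) {β : Type*} (ν : σ → β)
    {ι κ : Type*} [Fintype ι] [Fintype κ]
    (F : ι → MvPolynomial σ K) (G : κ → MvPolynomial σ K)
    (hFG : ∀ y : σ → K, (∀ s₀, ∃ s, ν s = ν s₀ ∧ y s ≠ 0) → (∀ i, eval y (F i) = 0) →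
      ∃ k, eval y (G k) ≠ 0) :
    ∃ c : W → ℝ, (∀ w, 1 ≤ c w) ∧ {w | c w ≠ 1}.Finite ∧
      ∀ (w : W) (y : σ → K), (∀ s, av w (y s) ≤ 1) → (∀ s₀, ∃ s, ν s = ν s₀ ∧ y s = 1) →
        (∀ i, eval y (F i) = 0) → ∃ k, 1 ≤ c w * av w (eval y (G k)) := by
  classical
  have : Fintype σ := Fintype.ofFinite σ
  -- the charts: a choice of one variable in the block of every variable
  let J : Type _ := {j : σ → σ // ∀ s₀, ν (j s₀) = ν s₀}
  have : Fintype J := Fintype.ofFinite J
  -- the polynomials of the chart `j`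
  let P : J → (ι ⊕ κ) ⊕ σ → MvPolynomial σ K := fun j =>
    Sum.elim (Sum.elim F G) (fun s₀ => X (j.1 s₀) - 1)
  have hP : ∀ j : J, ∀ y : σ → K, ∃ i, eval y (P j i) ≠ 0 := by
    intro j y
    by_cases hy1 : ∀ s₀, y (j.1 s₀) = 1
    · by_cases hy2 : ∀ i, eval y (F i) = 0
      · obtain ⟨k, hk⟩ := hFG y (fun s₀ => ⟨j.1 s₀, j.2 s₀, by rw [hy1 s₀]; exact one_ne_zero⟩) hy2
        exact ⟨Sum.inl (Sum.inr k), hk⟩
      · obtain ⟨i, hi⟩ := not_forall.mp hy2
        exact ⟨Sum.inl (Sum.inl i), hi⟩
    · obtain ⟨s₀, hs₀⟩ := not_forall.mp hy1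
      refine ⟨Sum.inr s₀, ?_⟩
      simp only [P, Sum.elim_inr, map_sub, eval_X, map_one]
      exact sub_ne_zero.mpr hs₀
  choose c hc1 hcfin hc using fun j : J => h59_cert_one av h1 h2 (P j) (hP j)
  refine ⟨fun w => ∏ j, c j w, fun w => ?_, ?_, ?_⟩
  · exact Finset.prod_induction _ (fun x => 1 ≤ x) (fun a b ha hb => one_le_mul_of_one_le_of_one_le ha hb)
      le_rfl fun j _ => hc1 j w
  · refine (Set.finite_iUnion fun j => hcfin j).subset fun w hw => ?_
    by_contra hcon
    apply hw
    simp only [Set.mem_iUnion, Set.mem_ofPred_eq, not_exists, not_not] at hcon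
    exact Finset.prod_eq_one fun j _ => hcon j
  · intro w y hy hnorm hF
    choose j hj1 hj2 using hnorm
    let j0 : J := ⟨j, hj1⟩
    have hle : c j0 w ≤ ∏ j, c j w := by
      calc c j0 w = ∏ j, (if j = j0 then c j0 w else 1) := by
            rw [Finset.prod_ite_eq' Finset.univ j0 (fun _ => c j0 w)]
            simp
        _ ≤ ∏ j, c j w := by
            refine Finset.prod_le_prod (fun j _ => ?_) fun j _ => ?_
            · split_ifs
              · exact zero_le_one.trans (hc1 j0 w)
              · exact zero_le_one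
            · split_ifs with h
              · rw [h]
              · exact hc1 j w
    obtain ⟨i, hi⟩ := hc j0 w y hy
    rcases i with (i | k) | s₀
    · exfalso
      simp only [P, Sum.elim_inl] at hi
      rw [hF i, map_zero, mul_zero] at hi
      exact absurd hi (by norm_num)
    · refine ⟨k, hi.trans ?_⟩
      simp only [P, Sum.elim_inl, Sum.elim_inr]
      exact mul_le_mul_of_nonneg_right hle ((av w).nonneg _)
    · exfalso
      simp only [P, Sum.elim_inr, map_sub, eval_X, map_one] at hi
      rw [show y (j0.1 s₀) = 1 from hj2 s₀, sub_self, map_zero, mul_zero] at hi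
      exact absurd hi (by norm_num)

end Cert

end Fermat.Agent.S17
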