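import Mathlib
import Fermat.Agent.S17.h59_Cert

/-!
# S17 foundation (helper59): bounded right inverses of polynomial matrices of constant rank

* `h59_exists_cols`, `h59_exists_minor` : a matrix of rank `ρ` over a field has a nonzero
  `ρ × ρ` minor.
* `h59_solve` : Cramer's rule on such a minor solves every system `M τ = t` with `t` in the
  column space of `M`, with `τ` supported on the columns of the minor.
* (CRAMER) `h59_cramer` : a matrix `T` of polynomials which has constant rank `ρ` at all common
  zeros of the `F i` (with a nonzero coordinate in every block) has, at every *normalised* common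
  zero `y` in the unit polydisc of `av w`, a right inverse on its column space which is bounded
  by a constant `c w`, equal to `1` for almost all `w`.
-/

set_option autoImplicit false

noncomputable section

namespace Fermat.Agent.S17

open MvPolynomial Matrix

section LinAlg

variable {K : Type*} [Field K] {m n : Type*} [Fintype m] [Fintype n]

/-- a matrix of rank `ρ` has `ρ` columns which form a matrix of rank `ρ`. -/
theorem h59_exists_cols (N : Matrix m n K) (ρ : ℕ) (hρ : N.rank = ρ) :
    ∃ J : Fin ρ → n, (N.submatrix id J).rank = ρ := by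
  classical
  subst hρ
  obtain ⟨b, hb_sub, hb_span, hb_li⟩ := exists_linearIndependent K (Set.range N.col)
  have hfin : b.Finite := (Set.finite_range _).subset hb_sub
  have := hfin.fintype
  have hcard : Fintype.card b = N.rank := by
    rw [Matrix.rank_eq_finrank_span_cols, ← hb_span, ← finrank_span_eq_card hb_li,
      Subtype.range_coe]
  let e : Fin N.rank ≃ b := (Fintype.equivFinOfCardEq hcard).symm
  choose j hj using fun x : b => hb_sub x.2
  refine ⟨fun a => j (e a), ?_⟩
  have hcol : (N.submatrix id (fun a => j (e a))).col = fun a => ((e a : b) : m → K) := by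
    funext a
    rw [← hj (e a)]
    rfl
  have hli : LinearIndependent K (N.submatrix id (fun a => j (e a))).col := by
    rw [hcol]
    exact hb_li.comp e e.injective
  have h := LinearIndependent.rank_matrix (M := (N.submatrix id (fun a => j (e a)))ᵀ)
    (by rwa [Matrix.row_transpose])
  rw [Matrix.rank_transpose] at h
  simpa using h

/-- a square matrix of full rank has nonzero determinant. -/
theorem h59_det_ne_zero_of_rank {ρ : ℕ} (Q : Matrix (Fin ρ) (Fin ρ) K) (hQ : Q.rank = ρ) :
    Q.det ≠ 0 := by
  have hsurj : Function.Surjective Q.mulVec := by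
    have hr : LinearMap.range Q.mulVecLin = ⊤ := by
      apply Submodule.eq_top_of_finrank_eq
      rw [Module.finrank_fintype_fun_eq_card, Fintype.card_fin]
      exact hQ
    exact LinearMap.range_eq_top.mp hr
  have hu : IsUnit Q := Matrix.mulVec_surjective_iff_isUnit.mp hsurj
  exact ((Matrix.isUnit_iff_isUnit_det Q).mp hu).ne_zero

/-- a matrix of rank `ρ` over a field has a nonzero `ρ × ρ` minor. -/
theorem h59_exists_minor (M : Matrix m n K) (ρ : ℕ) (hρ : M.rank = ρ) :
    ∃ (I : Fin ρ → m) (J : Fin ρ → n), (M.submatrix I J).det ≠ 0 := by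
  classical
  obtain ⟨J, hJ⟩ := h59_exists_cols M ρ hρ
  have hJt : ((M.submatrix id J)ᵀ).rank = ρ := by rw [Matrix.rank_transpose, hJ]
  obtain ⟨I, hI⟩ := h59_exists_cols ((M.submatrix id J)ᵀ) ρ hJt
  refine ⟨I, J, ?_⟩
  have hQ : ((M.submatrix id J)ᵀ.submatrix id I) = (M.submatrix I J)ᵀ := by
    ext a b
    rfl
  rw [hQ] at hI
  have h := h59_det_ne_zero_of_rank _ hI
  rwa [Matrix.det_transpose] at h

omit [Fintype m] in
/-- **Cramer's rule on a maximal minor.** If `M` has rank `ρ` and the minor on the rows `I` and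
the columns `J` is nonzero, then every vector `M *ᵥ τ₀` of the column space is `M *ᵥ τ` for a
vector `τ` supported on the columns `J`, with coordinates `u` there given by Cramer's rule. -/
theorem h59_solve [DecidableEq n] (M : Matrix m n K) (ρ : ℕ) (hρ : M.rank = ρ) (I : Fin ρ → m)
    (J : Fin ρ → n)
    (hd : (M.submatrix I J).det ≠ 0) (τ₀ : n → K) :
    ∃ u : Fin ρ → K, (M *ᵥ fun j => ∑ a, if J a = j then u a else 0) = M *ᵥ τ₀ ∧
      ∀ a, (M.submatrix I J).det * u a =
        ∑ b, (M.submatrix I J).adjugate a b * (M *ᵥ τ₀) (I b) := by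
  classical
  set P : Matrix m (Fin ρ) K := M.submatrix id J with hP
  have hPle : P.rank ≤ ρ := hρ ▸ Matrix.rank_submatrix_le M id J
  have hPge : ρ ≤ P.rank := by
    have h1 : (P.submatrix I id).rank ≤ P.rank := Matrix.rank_submatrix_le P I id
    have h2 : (P.submatrix I id) = M.submatrix I J := by
      ext a b
      rfl
    rw [h2, Matrix.rank_of_isUnit _ ((Matrix.isUnit_iff_isUnit_det _).mpr hd.isUnit),
      Fintype.card_fin] at h1
    exact h1
  have hPrank : P.rank = ρ := le_antisymm hPle hPge
  -- `M *ᵥ` on vectors supported on `J` is `P *ᵥ`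
  have hsupp : ∀ u : Fin ρ → K, (M *ᵥ fun j => ∑ a, if J a = j then u a else 0) = P *ᵥ u := by
    intro u
    funext i
    simp only [Matrix.mulVec, dotProduct, hP, Matrix.submatrix_apply, id_eq, Finset.mul_sum]
    rw [Finset.sum_comm]
    refine Finset.sum_congr rfl fun a _ => ?_
    simp [mul_ite, Finset.sum_ite_eq]
  have hrange : LinearMap.range P.mulVecLin = LinearMap.range M.mulVecLin := by
    apply Submodule.eq_of_le_of_finrank_eq
    · rintro _ ⟨u, rfl⟩
      exact ⟨_, by
        simp only [Matrix.mulVecLin_apply]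
        exact hsupp u⟩
    · show P.rank = M.rank
      rw [hPrank, hρ]
  have hmem : M *ᵥ τ₀ ∈ LinearMap.range P.mulVecLin := by
    rw [hrange]
    exact ⟨τ₀, rfl⟩
  obtain ⟨u, hu⟩ := hmem
  simp only [Matrix.mulVecLin_apply] at hu
  refine ⟨u, by rw [hsupp u, hu], ?_⟩
  have hsq : (M.submatrix I J) *ᵥ u = fun b => (M *ᵥ τ₀) (I b) := by
    funext b
    rw [← hu]
    rfl
  have hadj : (M.submatrix I J).adjugate *ᵥ ((M.submatrix I J) *ᵥ u) =
      (M.submatrix I J).det • u := by
    rw [Matrix.mulVec_mulVec, Matrix.adjugate_mul, Matrix.smul_mulVec, Matrix.one_mulVec]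
  intro a
  have h := congrFun hadj a
  rw [hsq] at h
  simp only [Pi.smul_apply, smul_eq_mul] at h
  rw [← h]
  rfl

end LinAlg

section Cramer

variable {K : Type*} [Field K] [IsAlgClosed K] {σ : Type*} [Finite σ]

/-- (CRAMER) **bounded right inverse of a polynomial matrix of constant rank.** The variables
come in blocks (`ν s` = the block of the variable `s`). Let `T` be a matrix of polynomials whose
value `T(y)` has rank `ρ` at every common zero `y` of the `F i` with a nonzero coordinate in every
block. Then there are constants `c w ≥ 1`, equal to `1` for almost all `w`, such that at every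
common zero `y` of the `F i` in the unit polydisc of `av w` with a coordinate equal to `1` in
every block, every vector `t = T(y) *ᵥ τ₀` of the column space is `T(y) *ᵥ τ` with
`|τ_j|_w ≤ c w * max_i |t_i|_w`. -/
theorem h59_cramer {W : Type*} (av : W → AbsoluteValue K ℝ)
    (h1 : ∀ α : K, α ≠ 0 → {w | av w α ≠ 1}.Finite)
    (h2 : {w | ¬ IsNonarchimedean (av w)}.Finite) {β : Type*} (ν : σ → β)
    {ι : Type*} [Fintype ι] (F : ι → MvPolynomial σ K)
    {m n : Type*} [Fintype m] [Fintype n] (T : Matrix m n (MvPolynomial σ K)) (ρ : ℕ)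
    (hT : ∀ y : σ → K, (∀ s₀, ∃ s, ν s = ν s₀ ∧ y s ≠ 0) → (∀ i, eval y (F i) = 0) →
      (T.map (eval y)).rank = ρ) :
    ∃ c : W → ℝ, (∀ w, 1 ≤ c w) ∧ {w | c w ≠ 1}.Finite ∧
      ∀ (w : W) (y : σ → K), (∀ s, av w (y s) ≤ 1) → (∀ s₀, ∃ s, ν s = ν s₀ ∧ y s = 1) →
        (∀ i, eval y (F i) = 0) → ∀ τ₀ : n → K, ∃ τ : n → K,
          (T.map (eval y)) *ᵥ τ = (T.map (eval y)) *ᵥ τ₀ ∧
          ∀ B : ℝ, 0 ≤ B → (∀ i, av w (((T.map (eval y)) *ᵥ τ₀) i) ≤ B) →
            ∀ j, av w (τ j) ≤ c w * B := by
  classical
  -- the minors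
  let κ : Type _ := (Fin ρ → m) × (Fin ρ → n)
  let G : κ → MvPolynomial σ K := fun IJ => (T.submatrix IJ.1 IJ.2).det
  have hGeval : ∀ (y : σ → K) (IJ : κ),
      eval y (G IJ) = ((T.map (eval y)).submatrix IJ.1 IJ.2).det := by
    intro y IJ
    simp only [G]
    rw [RingHom.map_det]
    rfl
  have hFG : ∀ y : σ → K, (∀ s₀, ∃ s, ν s = ν s₀ ∧ y s ≠ 0) → (∀ i, eval y (F i) = 0) →
      ∃ k, eval y (G k) ≠ 0 := by
    intro y hy hF
    obtain ⟨I, J, hIJ⟩ := h59_exists_minor (T.map (eval y)) ρ (hT y hy hF)
    exact ⟨(I, J), by rw [hGeval]; exact hIJ⟩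
  obtain ⟨c₁, hc₁, hc₁fin, hc₁b⟩ := h59_cert_chart av h1 h2 ν F G hFG
  -- the rows of the adjugates
  let A : κ × Fin ρ → Fin ρ → MvPolynomial σ K := fun x b =>
    (T.submatrix x.1.1 x.1.2).adjugate x.2 b
  have hAeval : ∀ (y : σ → K) (x : κ × Fin ρ) (b : Fin ρ),
      eval y (A x b) = ((T.map (eval y)).submatrix x.1.1 x.1.2).adjugate x.2 b := by
    intro y x b
    simp only [A]
    have h := RingHom.map_adjugate (eval y) (T.submatrix x.1.1 x.1.2)
    have h' := congrFun (congrFun h x.2) b
    simp only [RingHom.mapMatrix_apply, Matrix.map_apply] at h'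
    rw [h']
    rfl
  let c₂ : W → ℝ := fun w => ∏ x : κ × Fin ρ, h59_certConst (av w) (A x)
  have hc₂ : ∀ w, 1 ≤ c₂ w := fun w =>
    Finset.prod_induction _ (fun x => 1 ≤ x)
      (fun a b ha hb => one_le_mul_of_one_le_of_one_le ha hb) le_rfl
      fun x _ => h59_one_le_certConst _ _
  have hc₂le : ∀ w (x : κ × Fin ρ), h59_certConst (av w) (A x) ≤ c₂ w := by
    intro w x
    calc h59_certConst (av w) (A x)
        = ∏ x' : κ × Fin ρ, (if x' = x then h59_certConst (av w) (A x) else 1) := by
          rw [Finset.prod_ite_eq' Finset.univ x (fun _ => h59_certConst (av w) (A x))]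
          simp
      _ ≤ ∏ x' : κ × Fin ρ, h59_certConst (av w) (A x') := by
          refine Finset.prod_le_prod (fun x' _ => ?_) fun x' _ => ?_
          · split_ifs
            · exact zero_le_one.trans (h59_one_le_certConst _ _)
            · exact zero_le_one
          · split_ifs with h
            · rw [h]
            · exact h59_one_le_certConst _ _
  have hc₂fin : {w | c₂ w ≠ 1}.Finite := by
    refine (Set.finite_iUnion fun x : κ × Fin ρ =>
      h59_certConst_eq_one_aa av h1 h2 (A x)).subset fun w hw => ?_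
    by_contra hcon
    apply hw
    simp only [Set.mem_iUnion, Set.mem_ofPred_eq, not_exists, not_not] at hcon
    exact Finset.prod_eq_one fun x _ => hcon x
  refine ⟨fun w => c₁ w * c₂ w, fun w => one_le_mul_of_one_le_of_one_le (hc₁ w) (hc₂ w), ?_, ?_⟩
  · refine (hc₁fin.union hc₂fin).subset fun w hw => ?_
    by_contra hcon
    apply hw
    simp only [Set.mem_union, Set.mem_ofPred_eq, not_or, not_not] at hcon
    show c₁ w * c₂ w = 1
    rw [hcon.1, hcon.2, one_mul]
  · intro w y hy hnorm hF τ₀
    have hy0 : ∀ s₀, ∃ s, ν s = ν s₀ ∧ y s ≠ 0 := fun s₀ => by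
      obtain ⟨s, hs, hs1⟩ := hnorm s₀
      exact ⟨s, hs, by rw [hs1]; exact one_ne_zero⟩
    have hrank := hT y hy0 hF
    obtain ⟨⟨I, J⟩, hIJ⟩ := hc₁b w y hy hnorm hF
    rw [hGeval] at hIJ
    set M : Matrix m n K := T.map (eval y) with hM
    have hdpos : 0 < av w (M.submatrix I J).det := by
      by_contra hcon
      have h0 : av w (M.submatrix I J).det = 0 := le_antisymm (not_lt.mp hcon) ((av w).nonneg _)
      rw [h0, mul_zero] at hIJ
      exact absurd hIJ (by norm_num)
    have hd : (M.submatrix I J).det ≠ 0 := (av w).pos_iff.mp hdpos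
    have hJinj : Function.Injective J := by
      intro a a' haa
      by_contra hne
      exact hd (Matrix.det_zero_of_column_eq hne fun k => by
        simp only [Matrix.submatrix_apply]
        rw [haa])
    obtain ⟨u, hu1, hu2⟩ := h59_solve M ρ hrank I J hd τ₀
    refine ⟨fun j => ∑ a, if J a = j then u a else 0, hu1, ?_⟩
    intro B hB hBt j
    show av w (∑ a, if J a = j then u a else 0) ≤ c₁ w * c₂ w * B
    -- the bound for the coordinates `u a`
    have hub : ∀ a, av w (u a) ≤ c₁ w * c₂ w * B := by
      intro a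
      have h3 : av w ((M.submatrix I J).det * u a) ≤ h59_certConst (av w) (A ((I, J), a)) * B := by
        rw [hu2 a]
        have h4 := h59_certConst_bound (av w) (A ((I, J), a)) y hy (fun b => (M *ᵥ τ₀) (I b)) hB
          (fun b => hBt (I b))
        have h5 : ∑ b, eval y (A ((I, J), a) b) * (M *ᵥ τ₀) (I b) =
            ∑ b, (M.submatrix I J).adjugate a b * (M *ᵥ τ₀) (I b) := by
          refine Finset.sum_congr rfl fun b _ => ?_
          rw [hAeval]
        rwa [h5] at h4
      rw [map_mul] at h3
      have h6 : av w (M.submatrix I J).det * av w (u a) ≤ c₂ w * B :=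
        h3.trans (mul_le_mul_of_nonneg_right (hc₂le w _) hB)
      calc av w (u a) = 1 * av w (u a) := (one_mul _).symm
        _ ≤ c₁ w * av w (M.submatrix I J).det * av w (u a) :=
            mul_le_mul_of_nonneg_right hIJ ((av w).nonneg _)
        _ = c₁ w * (av w (M.submatrix I J).det * av w (u a)) := mul_assoc _ _ _
        _ ≤ c₁ w * (c₂ w * B) :=
            mul_le_mul_of_nonneg_left h6 (zero_le_one.trans (hc₁ w))
        _ = c₁ w * c₂ w * B := (mul_assoc _ _ _).symm
    have hnn : 0 ≤ c₁ w * c₂ w * B :=
      mul_nonneg (mul_nonneg (zero_le_one.trans (hc₁ w)) (zero_le_one.trans (hc₂ w))) hB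
    by_cases hj : ∃ a₀, J a₀ = j
    · obtain ⟨a₀, ha₀⟩ := hj
      have hsum : (∑ a, if J a = j then u a else 0) = u a₀ := by
        rw [Finset.sum_eq_single a₀]
        · rw [if_pos ha₀]
        · intro b _ hb
          rw [if_neg]
          intro hbj
          exact hb (hJinj (hbj.trans ha₀.symm))
        · intro h
          exact absurd (Finset.mem_univ a₀) h
      rw [hsum]
      exact hub a₀
    · have hsum : (∑ a, if J a = j then u a else 0) = 0 := by
        refine Finset.sum_eq_zero fun a _ => ?_
        rw [if_neg]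
        intro haj
        exact hj ⟨a, haj⟩
      rw [hsum, map_zero]
      exact hnn

end Cramer

end Fermat.Agent.S17
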