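import Mathlib
import Fermat.Agent.S17.h58_VDM
import Fermat.Agent.S17.h59_Cramer

/-!
# S17 / R55 row G2, abstract core (helper58): (BRI) from (RK) by CRAMER, and the final (VDM)

* `h58_Tpoly mu` : the matrix of `h58_T mu y` as a matrix of polynomials in the coordinates of
  `y_1, …, y_a` (R55 3(c)'s `T`), `h58_Tpoly_mulVec`;
* `h58_BRI_of_RK` : constant rank on the multi-cone ⟹ bounded right inverse (`h59_cramer`);
* `h58_vdm` : the abstract local Vandermonde estimate with hypotheses (RK) and (SURJ) only.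
-/

set_option autoImplicit false

noncomputable section

namespace Fermat.Agent.S17

open Matrix MvPolynomial

variable {K : Type*} [Field K]

section poly

variable {a n0 n2 n : ℕ}
  (mu : MultilinearMap K (fun _ : Fin a => Fin n0 → K) ((Fin n2 → K) →ₗ[K] (Fin n → K)))

/-- the coordinates of the linear form `h58_lf (y m) κ` as polynomials in the coordinates of
`y`. -/
def h58_Lp (κ : Fin n0 × Fin n0) (m : Fin a) (s : Fin n0) : MvPolynomial (Fin a × Fin n0) K :=
  (if s = κ.2 then X (m, κ.1) else 0) - (if s = κ.1 then X (m, κ.2) else 0)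

theorem h58_eval_Lp (y : Fin a → Fin n0 → K) (κ : Fin n0 × Fin n0) (m : Fin a) (s : Fin n0) :
    eval (fun p : Fin a × Fin n0 => y p.1 p.2) (h58_Lp κ m s) = h58_lf (y m) κ s := by
  unfold h58_Lp h58_lf
  split_ifs <;> simp

/-- R55 3(c): the matrix `T` with polynomial entries. -/
def h58_Tpoly : Matrix (Fin n) ((Fin a → Fin n0 × Fin n0) × Fin n2)
    (MvPolynomial (Fin a × Fin n0) K) :=
  fun i p => ∑ s : Fin a → Fin n0,
    C (mu (fun m => Pi.single (s m) 1) (Pi.single p.2 1) i) * ∏ m, h58_Lp (p.1 m) m (s m)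

theorem h58_mu_single_expand (f : Fin a → Fin n0 → K) (j : Fin n2) (i : Fin n) :
    mu f (Pi.single j 1) i =
      ∑ s : Fin a → Fin n0, mu (fun m => Pi.single (s m) 1) (Pi.single j 1) i * ∏ m, f m (s m) := by
  rw [h58_mu_expand mu f (Pi.single j 1)]
  simp only [Finset.sum_apply, Pi.smul_apply, smul_eq_mul]
  refine Finset.sum_congr rfl fun s _ => ?_
  rw [Finset.sum_eq_single j]
  · rw [Pi.single_eq_same]; ring
  · intro j' _ hne
    rw [Pi.single_eq_of_ne hne]; ring
  · intro h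
    exact absurd (Finset.mem_univ _) h

theorem h58_eval_Tpoly (y : Fin a → Fin n0 → K) (i : Fin n)
    (p : (Fin a → Fin n0 × Fin n0) × Fin n2) :
    eval (fun q : Fin a × Fin n0 => y q.1 q.2) (h58_Tpoly mu i p) =
      mu (fun m => h58_lf (y m) (p.1 m)) (Pi.single p.2 1) i := by
  rw [h58_mu_single_expand]
  unfold h58_Tpoly
  rw [map_sum]
  refine Finset.sum_congr rfl fun s _ => ?_
  rw [map_mul, eval_C, map_prod]
  congr 1
  exact Finset.prod_congr rfl fun m _ => h58_eval_Lp y _ m _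

theorem h58_Tpoly_mulVec (y : Fin a → Fin n0 → K)
    (τ : (Fin a → Fin n0 × Fin n0) × Fin n2 → K) :
    ((h58_Tpoly mu).map (eval fun q : Fin a × Fin n0 => y q.1 q.2)) *ᵥ τ =
      h58_T mu y (fun κ j => τ (κ, j)) := by
  funext i
  rw [h58_T_apply]
  simp only [Matrix.mulVec, dotProduct, Matrix.map_apply, Finset.sum_apply]
  rw [Fintype.sum_prod_type]
  refine Finset.sum_congr rfl fun κ _ => ?_
  have hτ : (fun j => τ (κ, j)) = ∑ j, τ (κ, j) • (Pi.single j (1 : K) : Fin n2 → K) :=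
    pi_eq_sum_univ' _
  conv_rhs => rw [hτ]
  rw [map_sum, Finset.sum_apply]
  refine Finset.sum_congr rfl fun j _ => ?_
  rw [h58_eval_Tpoly, map_smul, Pi.smul_apply, smul_eq_mul, mul_comm]

theorem h58_range_Tpoly (y : Fin a → Fin n0 → K) :
    LinearMap.range ((h58_Tpoly mu).map (eval fun q : Fin a × Fin n0 => y q.1 q.2)).mulVecLin =
      LinearMap.range (h58_T mu y) := by
  apply le_antisymm
  · rintro _ ⟨τ, rfl⟩
    rw [Matrix.mulVecLin_apply, h58_Tpoly_mulVec]
    exact LinearMap.mem_range_self _ _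
  · rintro _ ⟨τ, rfl⟩
    refine ⟨fun p => τ p.1 p.2, ?_⟩
    rw [Matrix.mulVecLin_apply, h58_Tpoly_mulVec]

end poly

section final

variable [IsAlgClosed K]

/-- **(BRI) from (RK)**: if `h58_T mu y` has rank `n - a` at all tuples of nonzero common zeros
of the `F i`, then it has a bounded right inverse at all normalised tuples. -/
theorem h58_BRI_of_RK {W : Type*} (av : W → AbsoluteValue K ℝ)
    (h1 : ∀ α : K, α ≠ 0 → {w | av w α ≠ 1}.Finite)
    (h2 : {w | ¬ IsNonarchimedean (av w)}.Finite) {a n0 n2 n : ℕ}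
    (mu : MultilinearMap K (fun _ : Fin a => Fin n0 → K) ((Fin n2 → K) →ₗ[K] (Fin n → K)))
    {ι : Type*} [Fintype ι] (F : ι → MvPolynomial (Fin n0) K)
    (hRK : ∀ y : Fin a → Fin n0 → K, (∀ j, y j ≠ 0) → (∀ j i, eval (y j) (F i) = 0) →
      Module.finrank K (LinearMap.range (h58_T mu y)) = n - a) :
    ∃ c : W → ℝ, h58_AA c ∧ ∀ w, h58_BRI mu (av w) {y | ∀ i, eval y (F i) = 0} (c w) := by
  by_cases hdeg : n0 = 0 ∧ 0 < a
  · -- no linear forms at all: `T = 0` on an empty index type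
    refine ⟨fun _ => 1, h58_AA_one, fun w y _ _ _ t ht => ?_⟩
    obtain ⟨τ, hτ⟩ := ht
    refine ⟨τ, hτ, fun κ j => ?_⟩
    obtain ⟨h0, ha⟩ := hdeg
    subst h0
    exact ((κ ⟨0, ha⟩).1).elim0
  · -- the general case: CRAMER
    have hy0 : ∀ y' : Fin a × Fin n0 → K,
        (∀ s₀ : Fin a × Fin n0, ∃ s : Fin a × Fin n0, s.1 = s₀.1 ∧ y' s ≠ 0) →
        ∀ j : Fin a, (fun s => y' (j, s)) ≠ 0 := by
      intro y' hy' j
      have hn0 : 0 < n0 := by
        by_contra h
        exact hdeg ⟨by omega, j.pos⟩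
      obtain ⟨s, hs1, hs2⟩ := hy' (j, ⟨0, hn0⟩)
      intro h0
      apply hs2
      have : s = (j, s.2) := Prod.ext hs1 rfl
      rw [this]
      exact congrFun h0 s.2
    obtain ⟨c, hc1, hcfin, hc⟩ := h59_cramer av h1 h2 (ν := fun s : Fin a × Fin n0 => s.1)
      (F := fun p : Fin a × ι => rename (fun s : Fin n0 => (p.1, s)) (F p.2))
      (h58_Tpoly mu) (n - a) (by
        intro y' hy' hF
        have hF' : ∀ j i, eval (fun s => y' (j, s)) (F i) = 0 := by
          intro j i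
          have := hF (j, i)
          rwa [eval_rename] at this
        have h := hRK (fun j s => y' (j, s)) (hy0 y' hy') hF'
        rw [← h58_range_Tpoly] at h
        exact h)
    refine ⟨c, ⟨hc1, hcfin⟩, fun w y hy1 hy2 hyZ t ht => ?_⟩
    obtain ⟨τ0, rfl⟩ := ht
    obtain ⟨τ, hτ, hτb⟩ := hc w (fun q : Fin a × Fin n0 => y q.1 q.2) (fun s => hy1 s.1 s.2)
      (fun s₀ => by
        obtain ⟨s, hs⟩ := hy2 s₀.1
        exact ⟨(s₀.1, s), rfl, hs⟩)
      (fun p => by
        rw [eval_rename]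
        exact hyZ p.1 p.2)
      (fun p => τ0 p.1 p.2)
    rw [h58_Tpoly_mulVec, h58_Tpoly_mulVec] at hτ
    refine ⟨fun κ j => τ (κ, j), hτ, fun κ j => ?_⟩
    refine hτb _ (h86_vnorm_nonneg _ _) (fun i => ?_) (κ, j)
    rw [h58_Tpoly_mulVec]
    exact h86_le_vnorm _ _ i

/-- **Abstract local (VDM).**  `mu a` = the product `V_{M0}^a × V_{M - a M0} → V_M` in
coordinates, `F` = a finite family of (homogeneous) relations cutting out the cone over the
curve, (RK) = constant rank of R55's `T` on the multi-cone, (SURJ) = the products span.  Then for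
every tuple of `a ≤ amax` points, two-sidedly and with constants `= 1` almost everywhere,
`‖(β_j)‖ ~ ∏_j ‖β_j‖ ∏_{i<j} d(η_i, η_j)`. -/
theorem h58_vdm {W : Type*} (av : W → AbsoluteValue K ℝ)
    (h1 : ∀ α : K, α ≠ 0 → {w | av w α ≠ 1}.Finite)
    (h2 : {w | ¬ IsNonarchimedean (av w)}.Finite) {n0 n : ℕ} (amax : ℕ) (n2 : ℕ → ℕ)
    (mu : ∀ a, MultilinearMap K (fun _ : Fin a => Fin n0 → K)
      ((Fin (n2 a) → K) →ₗ[K] (Fin n → K)))
    {ι : Type*} [Fintype ι] (F : ι → MvPolynomial (Fin n0) K)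
    (hcone : ∀ (y : Fin n0 → K) (c : K), (∀ i, eval y (F i) = 0) → ∀ i, eval (c • y) (F i) = 0)
    (hRK : ∀ a, a < amax → ∀ y : Fin a → Fin n0 → K, (∀ j, y j ≠ 0) →
      (∀ j i, eval (y j) (F i) = 0) →
      Module.finrank K (LinearMap.range (h58_T (mu a) y)) = n - a)
    (hSURJ : ∀ a, a < amax → Submodule.span K (Set.range
      fun p : (Fin a → Fin n0) × Fin (n2 a) =>
        mu a (fun m => Pi.single (p.1 m) 1) (Pi.single p.2 1)) = ⊤) :
    ∃ c : W → ℝ, h58_AA c ∧ ∀ (w : W) (a : ℕ), a ≤ amax → ∀ P : Fin a → h58_Pt K n0 n n2,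
      (∀ j, h58_IsPt amax mu {y | ∀ i, eval y (F i) = 0} (P j)) →
        h58_R (av w) P ≤ c w * h86_mnorm (av w) (h58_E P) ∧
        h86_mnorm (av w) (h58_E P) ≤ c w * h58_R (av w) P :=
  h58_vdm_of_BRI av h1 h2 amax n2 mu {y | ∀ i, eval y (F i) = 0}
    (fun y hy c _ => hcone y c hy) (fun a ha y hy0 hyZ => hRK a ha y hy0 hyZ) hSURJ
    (fun a ha => h58_BRI_of_RK av h1 h2 (mu a) F (hRK a ha))

end final

end Fermat.Agent.S17
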