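import Fermat.Agent.S17.h84_VdmWire
import Fermat.Agent.S17.h58_VDMFinal

/-!
# S17 / R55 row VDM: the local Vandermonde estimate for a frame

`h55_vdm` (statement verbatim from the R55 skeleton): for `M0 ≥ 4g + 2` and
`M ≥ (amax + 1) M0 + 2g` there are constants `c w ≥ 1`, `= 1` for almost all places `w` of `ℚ̄`,
such that for every admissible tuple `P` of `a ≤ amax` places

  `|log ‖E_M(P)‖_w - ∑_j log ‖b^M(P_j)‖_w - ∑_{i<j} log d_w(P_i, P_j)| ≤ log (c w)`.

Assembly: helper58's abstract core (`h58_vdm_of_BRI`, `h58_BRI_of_RK`), helper33's curve side of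
the rank condition (`h33_rk_curve`), helper86's log form (`h86_vdm_log`), and the frame side
`h84_VdmFrame` / `h84_VdmRank` / `h84_VdmWire`.
-/

set_option autoImplicit false

open AlgebraicCurve

namespace Fermat.Agent.S17

open Fermat.Agent.S18 Fermat.Agent.S27

local notation "Qbar" => AlgebraicClosure ℚ

variable {F : Type} [Field F] [Algebra Qbar F] (fr : h55_Frame F)

/-- the bounded right inverses (BRI) for a frame, from CRAMER. -/
theorem h84_BRI (M0 M2 M a : ℕ) (hM0 : 4 * fr.g + 2 ≤ M0) (hM2 : M0 + 2 * fr.g ≤ M2 + 2)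
    (hM : a * M0 + M2 = M) :
    ∃ c : h55_Pl → ℝ, h58_AA c ∧
      ∀ w, h58_BRI (h84_mu fr M0 M2 M a) (h55_av w) (h84_Z fr M0) (c w) := by
  obtain ⟨m, Fm, hFm⟩ := h84_Z_finite fr M0
  have hZ : h84_Z fr M0 = {y | ∀ i, MvPolynomial.eval y (Fm i) = 0} := by
    ext y
    exact hFm y
  rw [hZ]
  exact h58_BRI_of_RK h55_av (fun α hα => h55_finite_ne_one hα) h84_finite_not_nonarch
    (h84_mu fr M0 M2 M a) Fm
    (fun y hy hyZ => h84_RK fr M0 M2 M a hM0 hM2 hM y hy fun j => (hFm (y j)).mpr (hyZ j))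

/-- **Row VDM of R55**: the local Vandermonde estimate for a frame. -/
theorem h55_vdm (M0 M amax : ℕ) (hM0 : 4 * fr.g + 2 ≤ M0) (hM : (amax + 1) * M0 + 2 * fr.g ≤ M) :
    ∃ c : h55_Pl → ℝ, (∀ w, 1 ≤ c w) ∧ {w | c w ≠ 1}.Finite ∧
      ∀ (w : h55_Pl) (a : ℕ) (P : Fin a → Place Qbar F), a ≤ amax → fr.IsAdm P →
        |fr.Gloc M w P - ∑ j, Real.log (h55_nrm w (fr.pt M (P j)))
          - ∑ i, ∑ j, (if i < j then Real.log (fr.dist M0 w (P i) (P j)) else 0)|
          ≤ Real.log (c w) := by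
  refine h84_vdm_of_BRI fr M0 M amax hM0 hM fun a ha => ?_
  have h1 : (a + 1) * M0 ≤ amax * M0 := Nat.mul_le_mul_right M0 ha
  rw [Nat.succ_mul] at h1
  have h2 : (amax + 1) * M0 = amax * M0 + M0 := Nat.succ_mul amax M0
  exact h84_BRI fr M0 (M - a * M0) M a hM0 (by omega) (by omega)

end Fermat.Agent.S17
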