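import Fermat.Agent.S17.h94_PI
import Fermat.Agent.S17.R55_VDM

/-!
# S17 route R55, row PI: `h55_G_append` (closed form)

The pairing identity `G_M(A ⊔ B) = G_M(A) + G_M(B) - ⟨A, B⟩ + O(1)`, from the Vandermonde row.
(`h55_pair_append_left` and `h55_pair_comm` are in `h94_PI.lean`.)
-/

set_option autoImplicit false

open AlgebraicCurve

namespace Fermat.Agent.S17

open Fermat.Agent.S18 Fermat.Agent.S27

local notation "Qbar" => AlgebraicClosure ℚ
local notation "GQ" => (AlgebraicClosure ℚ ≃ₐ[ℚ] AlgebraicClosure ℚ)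

variable {F : Type} [Field F] [Algebra Qbar F] (fr : h55_Frame F)

/-- **Pairing identity** (row PI). -/
theorem h55_G_append (M0 M amax : ℕ) (hM0 : 4 * fr.g + 2 ≤ M0)
    (hM : (amax + 1) * M0 + 2 * fr.g ≤ M) :
    ∃ C : ℝ, ∀ (a b : ℕ) (A : Fin a → Place Qbar F) (B : Fin b → Place Qbar F), a + b ≤ amax →
      fr.IsAdm (Fin.append A B) →
      |fr.G M (Fin.append A B) - fr.G M A - fr.G M B + fr.pair M0 A B| ≤ C :=
  h55_G_append_of fr M0 M amax (h55_vdm fr M0 M amax hM0 hM)

end Fermat.Agent.S17
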