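import Fermat.Agent.S17.R55_FB
import Fermat.Agent.S17.h59_Cramer

/-!
# S17 height block (route R55), row WC, first half (owner helper56)

* `h55_mem_W_iff` : `L(M·inf - ∑ P_j)` is the kernel of the evaluation matrix `fr.E M P` in the
  coordinates of `V_M`;
* `h55_exists_minor` : the evaluation rows of an admissible tuple are independent as soon as
  `a + 2g ≤ M + 1`.

Statements verbatim from the skeleton of helper55.
-/

set_option autoImplicit false

open AlgebraicCurve

namespace Fermat.Agent.S17

open Fermat.Agent.S18 Fermat.Agent.S27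

local notation "Qbar" => AlgebraicClosure ℚ
local notation "GQ" => (AlgebraicClosure ℚ ≃ₐ[ℚ] AlgebraicClosure ℚ)

variable {F : Type} [Field F] [Algebra Qbar F] (fr : h55_Frame F)

/-- the divisor of an injective tuple has multiplicity one at its points. -/
theorem h56_dv_apply_self {a : ℕ} {P : Fin a → Place Qbar F} (hinj : Function.Injective P)
    (j : Fin a) : h55_dv P (P j) = 1 := by
  classical
  unfold h55_dv
  rw [Finsupp.finsetSum_apply, Finset.sum_eq_single j]
  · rw [Finsupp.single_eq_same]
  · intro k _ hk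
    rw [Finsupp.single_apply, if_neg fun h => hk (hinj h)]
  · intro h
    exact absurd (Finset.mem_univ j) h

/-- the divisor of a tuple vanishes off its points. -/
theorem h56_dv_apply_of_ne {a : ℕ} {P : Fin a → Place Qbar F} {v : Place Qbar F}
    (h : ∀ j, P j ≠ v) : h55_dv P v = 0 := by
  classical
  unfold h55_dv
  rw [Finsupp.finsetSum_apply]
  refine Finset.sum_eq_zero fun k _ => ?_
  rw [Finsupp.single_apply, if_neg (h k)]

theorem h56_degree_dv {x : F} (hx : h75_IsChart Qbar x) {a : ℕ} (P : Fin a → Place Qbar F) :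
    Divisor.degree (h55_dv P) = a := by
  unfold h55_dv
  rw [map_sum]
  simp only [h80_degree_single hx]
  simp

/-- the entries of `E c` are the values of `vec c` at the points. -/
theorem h56_E_mulVec (M : ℕ) {a : ℕ} (P : Fin a → Place Qbar F) (hP : fr.IsAdm P)
    (c : Fin (fr.n M) → Qbar) (j : Fin a) :
    (fr.E M P).mulVec c j = h92_ev (P j) (fr.vec M c) := by
  rw [h55_ev_vec fr M c (hP.2 j)]
  unfold Matrix.mulVec
  simp only [dotProduct]
  refine Finset.sum_congr rfl fun i _ => ?_
  rw [mul_comm]
  rfl

theorem h55_mem_W_iff (M : ℕ) {a : ℕ} (P : Fin a → Place Qbar F) (hP : fr.IsAdm P)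
    (c : Fin (fr.n M) → Qbar) :
    fr.vec M c ∈ riemannRochSpace ((M : ℤ) • Finsupp.single fr.inf (1 : ℤ) - h55_dv P) ↔
      (fr.E M P).mulVec c = 0 := by
  have hV := h55_vec_mem fr M c
  have hval : ∀ j, h39_Val (P j) (fr.vec M c) (h92_ev (P j) (fr.vec M c)) := fun j =>
    h92_val_ev fr.chart (P j) (h55_mem_valuationSubring fr M hV (hP.2 j))
  rw [mem_riemannRochSpace_iff]
  constructor
  · intro h
    funext j
    rw [h56_E_mulVec fr M P hP c j, Pi.zero_apply]
    refine h92_ev_eq ((h39_val_zero_iff (P j)).mpr ?_)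
    rcases h (P j) with h0 | h1
    · exact Or.inl h0
    · right
      rw [Finsupp.sub_apply, h56_single_inf_apply fr _ (hP.2 j), h56_dv_apply_self hP.1 j] at h1
      omega
  · intro h v
    by_cases hv : ∃ j, P j = v
    · obtain ⟨j, rfl⟩ := hv
      have h1 := hval j
      have h2 : h92_ev (P j) (fr.vec M c) = 0 := by
        rw [← h56_E_mulVec fr M P hP c j, h, Pi.zero_apply]
      rw [h2, h39_val_zero_iff] at h1
      rcases h1 with h1 | h1
      · exact Or.inl h1
      · right
        rw [Finsupp.sub_apply, h56_single_inf_apply fr _ (hP.2 j), h56_dv_apply_self hP.1 j]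
        omega
    · have hv' : ∀ j, P j ≠ v := fun j hj => hv ⟨j, hj⟩
      unfold h55_Frame.V at hV
      rw [mem_riemannRochSpace_iff] at hV
      rcases hV v with h0 | h1
      · exact Or.inl h0
      · right
        rw [Finsupp.sub_apply, h56_dv_apply_of_ne hv', sub_zero]
        exact h1

/-- the rank of the evaluation matrix of an admissible tuple. -/
theorem h56_rank_E (M : ℕ) {a : ℕ} (P : Fin a → Place Qbar F) (hP : fr.IsAdm P)
    (hM : a + 2 * fr.g ≤ M + 1) : (fr.E M P).rank = a := by
  classical
  set E := fr.E M P with hE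
  set W := riemannRochSpace ((M : ℤ) • Finsupp.single fr.inf (1 : ℤ) - h55_dv P) with hW
  -- the coordinate map
  let vecL : (Fin (fr.n M) → Qbar) →ₗ[Qbar] F := Fintype.linearCombination Qbar (fr.b M)
  have hvecL : ∀ c, vecL c = fr.vec M c := fun c => by
    simp only [vecL, Fintype.linearCombination_apply]
    rfl
  have hinj : Function.Injective vecL := by
    intro c c' h
    rw [hvecL, hvecL] at h
    exact h55_vec_injective fr M h
  have hmap : (LinearMap.ker E.mulVecLin).map vecL = W := by
    ext f
    constructor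
    · rintro ⟨c, hc, rfl⟩
      rw [hvecL]
      refine (h55_mem_W_iff fr M P hP c).mpr ?_
      exact hc
    · intro hf
      have hfV : f ∈ fr.V M := by
        unfold h55_Frame.V
        rw [mem_riemannRochSpace_iff] at hf ⊢
        intro v
        rcases hf v with h0 | h1
        · exact Or.inl h0
        · right
          rw [Finsupp.sub_apply] at h1
          have h2 : 0 ≤ h55_dv P v := by
            unfold h55_dv
            rw [Finsupp.finsetSum_apply]
            refine Finset.sum_nonneg fun k _ => ?_
            rw [Finsupp.single_apply]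
            split_ifs <;> norm_num
          omega
      obtain ⟨c, rfl⟩ := h55_exists_vec fr M hfV
      refine ⟨c, ?_, hvecL c⟩
      exact (h55_mem_W_iff fr M P hP c).mp hf
  have hker : Module.finrank Qbar (LinearMap.ker E.mulVecLin) = Module.finrank Qbar W := by
    rw [← hmap]
    exact (Submodule.equivMapOfInjective vecL hinj _).finrank_eq
  have hg : (2 * fr.g : ℤ) ≤ M + 1 - a := by
    have : ((a + 2 * fr.g : ℕ) : ℤ) ≤ ((M + 1 : ℕ) : ℤ) := by exact_mod_cast hM
    push_cast at this
    omega
  have hdeg : Divisor.degree ((M : ℤ) • Finsupp.single fr.inf (1 : ℤ) - h55_dv P) = M - a := by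
    rw [map_sub, h56_degree_smul_inf, h56_degree_dv fr.chart P]
  have hWdim : (Module.finrank Qbar W : ℤ) = M - a + 1 - fr.g := by
    have h := h15_finrank_rr_of_deg fr.chart
      ((M : ℤ) • Finsupp.single fr.inf (1 : ℤ) - h55_dv P) (by
        rw [hdeg]
        unfold h55_Frame.g at hg
        omega)
    rw [hdeg] at h
    exact h
  have hn : (fr.n M : ℤ) = M + 1 - fr.g := h55_n_eq fr M (by omega)
  have hrn := LinearMap.finrank_range_add_finrank_ker E.mulVecLin
  rw [Module.finrank_fintype_fun_eq_card, Fintype.card_fin, hker] at hrn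
  have hr : E.rank = Module.finrank Qbar (LinearMap.range E.mulVecLin) := rfl
  have : (E.rank : ℤ) = a := by
    rw [hr]
    have h2 : ((Module.finrank Qbar (LinearMap.range E.mulVecLin) : ℕ) : ℤ) +
        (Module.finrank Qbar W : ℤ) = fr.n M := by exact_mod_cast hrn
    omega
  exact_mod_cast this

theorem h55_exists_minor (M : ℕ) {a : ℕ} (P : Fin a → Place Qbar F) (hP : fr.IsAdm P)
    (hM : a + 2 * fr.g ≤ M + 1) :
    ∃ f : Fin a → Fin (fr.n M), ((fr.E M P).submatrix id f).det ≠ 0 := by
  obtain ⟨J, hJ⟩ := h59_exists_cols (fr.E M P) a (h56_rank_E fr M P hP hM)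
  exact ⟨J, h59_det_ne_zero_of_rank _ hJ⟩

end Fermat.Agent.S17
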