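import Fermat.Agent.S17.h55_Frame

/-!
# S17 height block (route R55), row WC, second half (owner helper56)

`h55_smul_W`: multiplication by a section `s` cutting out `Z` identifies `L(M·inf - A)` with
`L((M+k)·inf - A - Z)`. Statement verbatim from the skeleton of helper55.
-/

set_option autoImplicit false

open AlgebraicCurve

namespace Fermat.Agent.S17

open Fermat.Agent.S18 Fermat.Agent.S27

local notation "Qbar" => AlgebraicClosure ℚ
local notation "GQ" => (AlgebraicClosure ℚ ≃ₐ[ℚ] AlgebraicClosure ℚ)

variable {F : Type} [Field F] [Algebra Qbar F] (fr : h55_Frame F)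

/-- concatenation of tuples adds the divisors (local copy, used only here). -/
theorem h56_dv_append_apply {a b : ℕ} (A : Fin a → Place Qbar F) (B : Fin b → Place Qbar F)
    (v : Place Qbar F) : h55_dv (Fin.append A B) v = h55_dv A v + h55_dv B v := by
  unfold h55_dv
  rw [Fin.sum_univ_add, Finsupp.add_apply]
  simp only [Fin.append_left, Fin.append_right]

/-- multiplication by a nonzero function `S` shifts Riemann–Roch spaces by `div S`. -/
theorem h56_mul_mem_rr_iff {S : F} (hS : S ≠ 0) (D D' : Divisor Qbar F)
    (h : ∀ v : Place Qbar F, D' v = D v - v.ord S) (f : F) :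
    f ∈ riemannRochSpace D ↔ S * f ∈ riemannRochSpace D' := by
  rw [mem_riemannRochSpace_iff, mem_riemannRochSpace_iff]
  constructor
  · intro hf v
    rcases hf v with h0 | h1
    · left
      rw [h0, mul_zero]
    · by_cases hf0 : f = 0
      · left
        rw [hf0, mul_zero]
      · right
        rw [v.ord_mul hS hf0, h v]
        omega
  · intro hf v
    by_cases hf0 : f = 0
    · left
      exact hf0
    · right
      have h1 := (hf v).resolve_left (mul_ne_zero hS hf0)
      rw [v.ord_mul hS hf0, h v] at h1
      omega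

theorem h55_smul_W (M k : ℕ) {a : ℕ} (A : Fin a → Place Qbar F) (Z : Fin k → Place Qbar F)
    (s : Fin (fr.n k) → ℚ) (hc : fr.Cuts s Z) (f : F) :
    f ∈ riemannRochSpace ((M : ℤ) • Finsupp.single fr.inf (1 : ℤ) - h55_dv A) ↔
      fr.vec k (fun i => (s i : Qbar)) * f ∈
        riemannRochSpace (((M + k : ℕ) : ℤ) • Finsupp.single fr.inf (1 : ℤ)
          - h55_dv (Fin.append A Z)) := by
  refine h56_mul_mem_rr_iff hc.1 _ _ (fun v => ?_) f
  rw [hc.2 v]
  simp only [Finsupp.sub_apply, Finsupp.smul_apply, h56_dv_append_apply, Nat.cast_add, add_smul,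
    Finsupp.add_apply, smul_eq_mul]
  ring

end Fermat.Agent.S17
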