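import Mathlib

/-!
# Sharp Siegel lemma in Plücker form (helper52, S17 foundation, Mathlib only)

For an integer matrix of full row rank whose maximal minors (indexed by ALL functions
`f : Fin r → Fin n`) have a common divisor `g` and absolute value `< g * (Bd + 1) ^ rank`,
we produce a nonzero integer vector of sup-norm `≤ rank * Bd`
* in the row space (`h52_siegel_span`), resp.
* in the kernel (`h52_siegel_ker`).

The proof is a pigeonhole argument; no Minkowski, no covolumes, no Cauchy–Binet.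
-/

namespace Fermat.Agent.S17

open Matrix Finset

/-! ### (A) maximal minors and Cramer identities -/

/-- Maximal minors of a product `U * B` with `U` square. -/
theorem h52_minor_mul {r n : ℕ} {R : Type*} [CommRing R] (U : Matrix (Fin r) (Fin r) R)
    (B : Matrix (Fin r) (Fin n) R) (f : Fin r → Fin n) :
    ((U * B).submatrix id f).det = U.det * (B.submatrix id f).det := by
  have h : (U * B).submatrix id f = U * B.submatrix id f := by
    ext i j
    simp [Matrix.mul_apply]
  rw [h, Matrix.det_mul]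

/-- `adj(B_{f₀}) * B` consists of the maximal minors with one column exchanged. -/
theorem h52_adjugate_mul_apply {r n : ℕ} {R : Type*} [CommRing R]
    (B : Matrix (Fin r) (Fin n) R) (f₀ : Fin r → Fin n) (i : Fin r) (j : Fin n) :
    ((B.submatrix id f₀).adjugate * B) i j
      = (B.submatrix id (Function.update f₀ i j)).det := by
  have h1 : ((B.submatrix id f₀).adjugate * B) i j
      = ((B.submatrix id f₀).adjugate *ᵥ (fun k => B k j)) i := by
    simp [Matrix.mul_apply, Matrix.mulVec, dotProduct]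
  rw [h1, ← Matrix.cramer_eq_adjugate_mulVec, Matrix.cramer_apply]
  congr 1
  ext k l
  by_cases hl : l = i
  · subst hl
    simp
  · simp [hl]

/-- Cramer: every coordinate of a row-space vector is expressed through its coordinates at the
columns `f₀`. -/
theorem h52_cramer_identity {r n : ℕ} {R : Type*} [CommRing R]
    (B : Matrix (Fin r) (Fin n) R) (f₀ : Fin r → Fin n) (c : Fin r → R) (j : Fin n) :
    (B.submatrix id f₀).det * (c ᵥ* B) j
      = ∑ i, (c ᵥ* B) (f₀ i) * (B.submatrix id (Function.update f₀ i j)).det := by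
  have h1 : (fun i => (c ᵥ* B) (f₀ i)) = c ᵥ* B.submatrix id f₀ := by
    ext i
    simp [Matrix.vecMul, dotProduct]
  have h2 : ((c ᵥ* B.submatrix id f₀) ᵥ* ((B.submatrix id f₀).adjugate * B))
      = (B.submatrix id f₀).det • (c ᵥ* B) := by
    rw [← Matrix.vecMul_vecMul, Matrix.vecMul_vecMul c, Matrix.mul_adjugate,
      Matrix.vecMul_smul, Matrix.vecMul_one, Matrix.smul_vecMul]
  have h3 := congrFun h2 j
  rw [Pi.smul_apply, smul_eq_mul] at h3
  rw [← h3, ← h1]
  simp only [Matrix.vecMul, dotProduct]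
  refine Finset.sum_congr rfl fun i _ => ?_
  rw [h52_adjugate_mul_apply]

/-- Cramer bound: if `f₀` is a maximal minor of largest absolute value, every coordinate of an
integral row-space vector is bounded by the sum of its coordinates at the columns `f₀`. -/
theorem h52_cramer_bound {r n : ℕ} (B : Matrix (Fin r) (Fin n) ℤ) (f₀ : Fin r → Fin n)
    (hmax : ∀ f : Fin r → Fin n, |(B.submatrix id f).det| ≤ |(B.submatrix id f₀).det|)
    (h0 : (B.submatrix id f₀).det ≠ 0) (c : Fin r → ℤ) (j : Fin n) :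
    |(c ᵥ* B) j| ≤ ∑ i, |(c ᵥ* B) (f₀ i)| := by
  have hpos : 0 < |(B.submatrix id f₀).det| := abs_pos.mpr h0
  have h1 := h52_cramer_identity B f₀ c j
  have h2 : |(B.submatrix id f₀).det| * |(c ᵥ* B) j|
      ≤ |(B.submatrix id f₀).det| * ∑ i, |(c ᵥ* B) (f₀ i)| := by
    rw [← abs_mul, h1, Finset.mul_sum]
    refine (Finset.abs_sum_le_sum_abs _ _).trans (Finset.sum_le_sum fun i _ => ?_)
    rw [abs_mul, mul_comm]
    exact mul_le_mul_of_nonneg_right (hmax _) (abs_nonneg _)
  exact le_of_mul_le_mul_left h2 hpos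

/-! ### (B) the pigeonhole principle modulo a full-rank lattice -/

/-- Index of the lattice spanned by the rows of a nonsingular integer matrix. -/
theorem h52_card_quot_range {e : ℕ} (M : Matrix (Fin e) (Fin e) ℤ) (hM : M.det ≠ 0) :
    Nat.card ((Fin e → ℤ) ⧸ LinearMap.range (Matrix.vecMulLinear M)) = M.det.natAbs := by
  classical
  have hinj : Function.Injective (Matrix.vecMulLinear M) := by
    rw [← LinearMap.ker_eq_bot, LinearMap.ker_eq_bot']
    intro v hv
    exact Matrix.eq_zero_of_vecMul_eq_zero hM hv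
  let bN : Module.Basis (Fin e) ℤ (LinearMap.range (Matrix.vecMulLinear M)) :=
    (Pi.basisFun ℤ (Fin e)).map (LinearEquiv.ofInjective (Matrix.vecMulLinear M) hinj)
  have h := Submodule.natAbs_det_basis_change (Pi.basisFun ℤ (Fin e))
    (LinearMap.range (Matrix.vecMulLinear M)) bN
  rw [← h, Pi.basisFun_det_apply]
  congr 2
  ext i j
  simp [bN, Matrix.vecMulLinear, Matrix.vecMul, dotProduct, Pi.single_apply]

/-- Pigeonhole: among more than `|det M|` integer vectors, two differ by an integral combination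
of the rows of `M`. -/
theorem h52_pigeonhole {e : ℕ} (M : Matrix (Fin e) (Fin e) ℤ) (hM : M.det ≠ 0)
    {α : Type*} [Fintype α] (u : α → Fin e → ℤ) (hcard : M.det.natAbs < Fintype.card α) :
    ∃ x x' : α, x ≠ x' ∧ ∃ w : Fin e → ℤ, u x - u x' = w ᵥ* M := by
  classical
  have hc := h52_card_quot_range M hM
  have hfin : Finite ((Fin e → ℤ) ⧸ LinearMap.range (Matrix.vecMulLinear M)) := by
    apply Nat.finite_of_card_ne_zero
    rw [hc]
    exact Int.natAbs_ne_zero.mpr hM
  have hlt : Nat.card ((Fin e → ℤ) ⧸ LinearMap.range (Matrix.vecMulLinear M)) < Nat.card α := by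
    rw [hc, Nat.card_eq_fintype_card]
    exact hcard
  obtain ⟨x, x', hne, hxx⟩ : ∃ x x' : α, x ≠ x' ∧
      (Submodule.Quotient.mk (u x) : (Fin e → ℤ) ⧸ LinearMap.range (Matrix.vecMulLinear M))
        = Submodule.Quotient.mk (u x') := by
    by_contra hcon
    push Not at hcon
    have hinj : Function.Injective (fun a : α => (Submodule.Quotient.mk (u a) :
        (Fin e → ℤ) ⧸ LinearMap.range (Matrix.vecMulLinear M))) := by
      intro a b hab
      by_contra hne
      exact hcon a b hne hab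
    exact absurd (Nat.card_le_card_of_injective _ hinj) (not_le.mpr hlt)
  refine ⟨x, x', hne, ?_⟩
  have hmem := (Submodule.Quotient.eq _).mp hxx
  obtain ⟨w, hw⟩ := hmem
  exact ⟨w, hw.symm⟩

/-! ### (C) reduction to coprime maximal minors -/

/-- Over a field, a matrix with linearly independent rows has a nonzero maximal minor. -/
theorem h52_exists_minor_ne_zero {r n : ℕ} {K : Type*} [Field K] (B : Matrix (Fin r) (Fin n) K)
    (hB : LinearIndependent K B.row) : ∃ f : Fin r → Fin n, (B.submatrix id f).det ≠ 0 := by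
  classical
  have hrank : B.rank = r := by simpa using hB.rank_matrix
  rw [Matrix.rank_eq_finrank_span_cols] at hrank
  obtain ⟨g, hg, -, hgi⟩ := Submodule.exists_fun_fin_finrank_span_eq K (Set.range B.col)
  choose f' hf' using hg
  refine ⟨fun i => f' (Fin.cast hrank.symm i), ?_⟩
  have hcols : LinearIndependent K
      (B.submatrix id (fun i => f' (Fin.cast hrank.symm i))).col := by
    have h1 : (B.submatrix id (fun i => f' (Fin.cast hrank.symm i))).col
        = g ∘ Fin.cast hrank.symm := by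
      ext i k
      have h2 := congrFun (hf' (Fin.cast hrank.symm i)) k
      simpa [Matrix.col] using h2
    rw [h1]
    exact hgi.comp _ (Fin.cast_injective _)
  exact ((Matrix.isUnit_iff_isUnit_det _).mp
    (Matrix.linearIndependent_cols_iff_isUnit.mp hcols)).ne_zero

/-- If a prime divides all maximal minors, one row operation divides them all by that prime. -/
theorem h52_prime_step {r n : ℕ} (B : Matrix (Fin r) (Fin n) ℤ) (p : ℕ) (hp : p.Prime)
    (hdvd : ∀ f : Fin r → Fin n, (p : ℤ) ∣ (B.submatrix id f).det) :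
    ∃ (U : Matrix (Fin r) (Fin r) ℤ) (B₁ : Matrix (Fin r) (Fin n) ℤ),
      B = U * B₁ ∧ U.det = p := by
  classical
  have : Fact p.Prime := ⟨hp⟩
  have hdep : ¬ LinearIndependent (ZMod p) (B.map (Int.cast : ℤ → ZMod p)).row := by
    intro hli
    obtain ⟨f, hf⟩ := h52_exists_minor_ne_zero _ hli
    apply hf
    have h1 : (B.map (Int.cast : ℤ → ZMod p)).submatrix id f
        = (Int.castRingHom (ZMod p)).mapMatrix (B.submatrix id f) := by
      ext i j
      simp
    rw [h1, ← RingHom.map_det]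
    simpa using (ZMod.intCast_zmod_eq_zero_iff_dvd _ p).mpr (hdvd f)
  rw [Fintype.not_linearIndependent_iff] at hdep
  obtain ⟨cb, hcb, i₀, hi₀⟩ := hdep
  obtain ⟨c, hc1, hc⟩ : ∃ c : Fin r → ℤ, c i₀ = 1 ∧ ∀ j, (p : ℤ) ∣ ∑ i, c i * B i j := by
    obtain ⟨c, hc1, hcc⟩ : ∃ c : Fin r → ℤ, c i₀ = 1 ∧ ∀ i, (c i : ZMod p) = cb i / cb i₀ := by
      refine ⟨fun i => if i = i₀ then 1 else ((cb i / cb i₀).val : ℤ), by simp, fun i => ?_⟩
      by_cases h : i = i₀
      · subst h
        simp [div_self hi₀]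
      · simp [h]
    refine ⟨c, hc1, fun j => ?_⟩
    rw [← ZMod.intCast_zmod_eq_zero_iff_dvd]
    have h2 : ∑ i, cb i * (B i j : ZMod p) = 0 := by
      have h3 := congrFun hcb j
      simpa [Matrix.row] using h3
    calc ((∑ i, c i * B i j : ℤ) : ZMod p)
        = ∑ i, (cb i₀)⁻¹ * (cb i * (B i j : ZMod p)) := by
          rw [Int.cast_sum]
          refine Finset.sum_congr rfl fun i _ => ?_
          rw [Int.cast_mul, hcc i]
          ring
      _ = 0 := by rw [← Finset.mul_sum, h2, mul_zero]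
  choose v hv using hc
  refine ⟨(1 : Matrix (Fin r) (Fin r) ℤ).updateRow i₀
      (fun k => if k = i₀ then (p : ℤ) else - c k), B.updateRow i₀ v, ?_, ?_⟩
  · ext i j
    by_cases hi : i = i₀
    · subst hi
      rw [Matrix.mul_apply]
      have key : ∀ k, ((1 : Matrix (Fin r) (Fin r) ℤ).updateRow i
            (fun k => if k = i then (p : ℤ) else - c k)) i k * (B.updateRow i v) k j
          = (if k = i then (p : ℤ) * v j + c i * B i j else 0) - c k * B k j := by
        intro k
        by_cases hk : k = i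
        · subst hk
          simp
        · simp [hk, Matrix.updateRow_apply]
      simp_rw [key]
      rw [Finset.sum_sub_distrib, Finset.sum_ite_eq' Finset.univ i, hv j, hc1]
      simp
    · rw [Matrix.mul_apply]
      simp only [Matrix.updateRow_ne hi, Matrix.one_apply]
      rw [Finset.sum_eq_single i]
      · simp [Matrix.updateRow_ne hi]
      · intro k _ hk
        simp [Ne.symm hk]
      · simp
  · rw [← Matrix.cramer_transpose_apply]
    simp [Matrix.cramer_one]

/-- Every integer matrix with a nonzero maximal minor is `U * B'` with `det U ≠ 0` and `B'`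
having coprime maximal minors (no prime divides all of them). -/
theorem h52_primitive_reduction {r n : ℕ} (B : Matrix (Fin r) (Fin n) ℤ)
    (hne : ∃ f : Fin r → Fin n, (B.submatrix id f).det ≠ 0) :
    ∃ (U : Matrix (Fin r) (Fin r) ℤ) (B' : Matrix (Fin r) (Fin n) ℤ), B = U * B' ∧ U.det ≠ 0 ∧
      ∀ p : ℕ, p.Prime → ∃ f : Fin r → Fin n, ¬ ((p : ℤ) ∣ (B'.submatrix id f).det) := by
  obtain ⟨f₁, hf₁⟩ := hne
  induction' h : ((B.submatrix id f₁).det).natAbs using Nat.strong_induction_on with N ih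
    generalizing B
  by_cases hprim : ∀ p : ℕ, p.Prime → ∃ f : Fin r → Fin n, ¬ ((p : ℤ) ∣ (B.submatrix id f).det)
  · exact ⟨1, B, by simp, by simp, hprim⟩
  · push Not at hprim
    obtain ⟨p, hp, hdvd⟩ := hprim
    obtain ⟨U₁, B₁, hB, hU₁⟩ := h52_prime_step B p hp hdvd
    have hm : (B.submatrix id f₁).det = p * (B₁.submatrix id f₁).det := by
      rw [hB, h52_minor_mul, hU₁]
    have hne1 : (B₁.submatrix id f₁).det ≠ 0 := by
      intro h0
      rw [hm, h0, mul_zero] at hf₁
      exact hf₁ rfl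
    have hlt : ((B₁.submatrix id f₁).det).natAbs < N := by
      rw [← h, hm, Int.natAbs_mul, Int.natAbs_natCast]
      exact lt_mul_of_one_lt_left (Int.natAbs_pos.mpr hne1) hp.one_lt
    obtain ⟨U', B', hB', hU', hprim'⟩ := ih _ hlt B₁ hne1 rfl
    refine ⟨U₁ * U', B', by rw [hB, hB', Matrix.mul_assoc], ?_, hprim'⟩
    rw [Matrix.det_mul, hU₁]
    exact mul_ne_zero (by exact_mod_cast hp.ne_zero) hU'

/-- A common divisor of `d * m f` for a coprime family `m` divides `d`. -/
theorem h52_dvd_of_primitive {ι : Type*} [Fintype ι] (m : ι → ℤ)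
    (hprim : ∀ p : ℕ, p.Prime → ∃ f, ¬ ((p : ℤ) ∣ m f)) (g : ℕ) (d : ℤ)
    (hg : ∀ f, (g : ℤ) ∣ d * m f) : (g : ℤ) ∣ d := by
  have h1 : (g : ℤ) ∣ Finset.univ.gcd (fun f => d * m f) := Finset.dvd_gcd (fun f _ => hg f)
  rw [Finset.gcd_mul_left] at h1
  have h2 : IsUnit (Finset.univ.gcd m) := by
    rw [Int.isUnit_iff_natAbs_eq]
    by_contra hne
    obtain ⟨p, hp, hpd⟩ := Nat.exists_prime_and_dvd hne
    obtain ⟨f, hf⟩ := hprim p hp
    exact hf ((Int.natCast_dvd.mpr hpd).trans (Finset.gcd_dvd (Finset.mem_univ f)))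
  exact dvd_normalize_iff.mp (h2.dvd_mul_right.mp h1)

/-! ### (D) the two Siegel lemmas -/

/-- Common preparation: a model `B'` with coprime minors and a maximal minor `f₀` of largest
absolute value, nonzero and `< X` as soon as all minors of `B` are `< g * X` for a common divisor
`g` of the minors of `B`. -/
theorem h52_prepare {r n : ℕ} (B : Matrix (Fin r) (Fin n) ℤ)
    (hne : ∃ f : Fin r → Fin n, (B.submatrix id f).det ≠ 0) (g X : ℕ)
    (hg : ∀ f, (g : ℤ) ∣ (B.submatrix id f).det)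
    (hB : ∀ f, ((B.submatrix id f).det).natAbs < g * X) :
    ∃ (U : Matrix (Fin r) (Fin r) ℤ) (B' : Matrix (Fin r) (Fin n) ℤ) (f₀ : Fin r → Fin n),
      B = U * B' ∧ U.det ≠ 0 ∧ (B'.submatrix id f₀).det ≠ 0 ∧
      (∀ f, |(B'.submatrix id f).det| ≤ |(B'.submatrix id f₀).det|) ∧
      ((B'.submatrix id f₀).det).natAbs < X := by
  obtain ⟨U, B', hBU, hU, hprim⟩ := h52_primitive_reduction B hne
  have hmin : ∀ f, (B.submatrix id f).det = U.det * (B'.submatrix id f).det := fun f => by
    rw [hBU, h52_minor_mul]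
  have hgU : (g : ℤ) ∣ U.det :=
    h52_dvd_of_primitive (fun f => (B'.submatrix id f).det) hprim g U.det (fun f => by
      rw [← hmin]
      exact hg f)
  obtain ⟨f₁, hf₁⟩ := hne
  have : Nonempty (Fin r → Fin n) := ⟨f₁⟩
  obtain ⟨f₀, hf₀⟩ := Finite.exists_max (fun f : Fin r → Fin n => |(B'.submatrix id f).det|)
  have hf₁' : (B'.submatrix id f₁).det ≠ 0 := by
    intro h0
    apply hf₁
    rw [hmin, h0, mul_zero]
  have hf₀' : (B'.submatrix id f₀).det ≠ 0 := by
    intro h0
    have h1 := hf₀ f₁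
    simp only [h0, abs_zero] at h1
    exact hf₁' (abs_nonpos_iff.mp h1)
  refine ⟨U, B', f₀, hBU, hU, hf₀', hf₀, ?_⟩
  have h1 := hB f₀
  rw [hmin, Int.natAbs_mul] at h1
  have hgle : g ≤ U.det.natAbs :=
    Nat.le_of_dvd (Int.natAbs_pos.mpr hU) (Int.natCast_dvd.mp hgU)
  by_contra hcon
  push Not at hcon
  have h2 : g * X ≤ U.det.natAbs * ((B'.submatrix id f₀).det).natAbs := Nat.mul_le_mul hgle hcon
  omega

/-- **Sharp Siegel lemma, row-space form.** If the maximal minors of `B` (full row rank `r`) are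
divisible by `g` and of absolute value `< g * (Bd + 1) ^ r`, the rational row space of `B`
contains a nonzero integer vector of sup-norm `≤ r * Bd`. -/
theorem h52_siegel_span {r n : ℕ} (B : Matrix (Fin r) (Fin n) ℤ) (hr : 0 < r)
    (hne : ∃ f : Fin r → Fin n, (B.submatrix id f).det ≠ 0) (g Bd : ℕ)
    (hg : ∀ f, (g : ℤ) ∣ (B.submatrix id f).det)
    (hB : ∀ f, ((B.submatrix id f).det).natAbs < g * (Bd + 1) ^ r) :
    ∃ (t : Fin n → ℤ) (c : Fin r → ℚ), t ≠ 0 ∧ (∀ j, (t j : ℚ) = ∑ i, c i * (B i j : ℚ)) ∧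
      ∀ j, |t j| ≤ (r : ℤ) * Bd := by
  classical
  have _ := hr
  obtain ⟨U, B', f₀, hBU, hU, hf₀, hmax, hlt⟩ := h52_prepare B hne g ((Bd + 1) ^ r) hg hB
  have hcard : ((B'.submatrix id f₀).det).natAbs < Fintype.card (Fin r → Fin (Bd + 1)) := by
    simpa using hlt
  obtain ⟨x, x', hxx, w, hw⟩ := h52_pigeonhole (B'.submatrix id f₀) hf₀
    (fun (x : Fin r → Fin (Bd + 1)) i => ((x i : ℕ) : ℤ)) hcard
  have ht : ∀ i, (w ᵥ* B') (f₀ i) = ((x i : ℕ) : ℤ) - ((x' i : ℕ) : ℤ) := by
    intro i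
    have h1 := congrFun hw i
    simp only [Pi.sub_apply] at h1
    rw [h1]
    simp [Matrix.vecMul, dotProduct]
  refine ⟨w ᵥ* B', fun i => ∑ k, (w k : ℚ) * (U.map (Int.castRingHom ℚ))⁻¹ k i, ?_, ?_, ?_⟩
  · intro h0
    apply hxx
    funext i
    have h1 := ht i
    rw [h0] at h1
    simp only [Pi.zero_apply] at h1
    exact Fin.ext (by omega)
  · intro j
    have hdet : (U.map (Int.castRingHom ℚ)).det = ((U.det : ℤ) : ℚ) :=
      (RingHom.map_det (Int.castRingHom ℚ) U).symm
    have hunit : IsUnit (U.map (Int.castRingHom ℚ)).det := by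
      rw [hdet]
      exact isUnit_iff_ne_zero.mpr (by exact_mod_cast hU)
    have hBq : B.map (Int.castRingHom ℚ)
        = U.map (Int.castRingHom ℚ) * B'.map (Int.castRingHom ℚ) := by
      rw [hBU, Matrix.map_mul]
    have h2 : ((fun k => (w k : ℚ)) ᵥ* (U.map (Int.castRingHom ℚ))⁻¹) ᵥ* B.map (Int.castRingHom ℚ)
        = (fun k => (w k : ℚ)) ᵥ* B'.map (Int.castRingHom ℚ) := by
      rw [hBq, Matrix.vecMul_vecMul, ← Matrix.mul_assoc, Matrix.nonsing_inv_mul _ hunit,
        Matrix.one_mul]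
    have h3 := congrFun h2 j
    simp only [Matrix.vecMul, dotProduct, Matrix.map_apply, eq_intCast] at h3
    rw [h3]
    simp [Matrix.vecMul, dotProduct]
  · intro j
    calc |(w ᵥ* B') j| ≤ ∑ i, |(w ᵥ* B') (f₀ i)| := h52_cramer_bound B' f₀ hmax hf₀ w j
      _ ≤ ∑ _i : Fin r, (Bd : ℤ) := Finset.sum_le_sum fun i _ => by
          rw [ht i]
          have h1 := (x i).isLt
          have h2 := (x' i).isLt
          rw [abs_le]
          constructor <;> omega
      _ = (r : ℤ) * Bd := by simp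

/-- **Sharp Siegel lemma, kernel form.** If the maximal minors of `A` (`e × n`, full row rank,
`e < n`) are divisible by `g` and of absolute value `< g * (Bd + 1) ^ (n - e)`, the kernel of `A`
contains a nonzero integer vector of sup-norm `≤ (n - e) * Bd`. -/
theorem h52_siegel_ker {e n : ℕ} (A : Matrix (Fin e) (Fin n) ℤ) (hen : e < n)
    (hne : ∃ f : Fin e → Fin n, (A.submatrix id f).det ≠ 0) (g Bd : ℕ)
    (hg : ∀ f, (g : ℤ) ∣ (A.submatrix id f).det)
    (hB : ∀ f, ((A.submatrix id f).det).natAbs < g * (Bd + 1) ^ (n - e)) :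
    ∃ y : Fin n → ℤ, y ≠ 0 ∧ A.mulVec y = 0 ∧ ∀ j, |y j| ≤ ((n - e : ℕ) : ℤ) * Bd := by
  classical
  obtain ⟨U, A', f₀, hAU, hU, hf₀, hmax, hlt⟩ := h52_prepare A hne g ((Bd + 1) ^ (n - e)) hg hB
  have hinj : Function.Injective f₀ := by
    intro i i' hii
    by_contra hne'
    exact hf₀ (Matrix.det_zero_of_column_eq hne' (fun k => by simp [hii]))
  obtain ⟨S, hS⟩ : ∃ S : Finset (Fin n), S = (Finset.univ.image f₀)ᶜ := ⟨_, rfl⟩
  have hScard : S.card = n - e := by
    rw [hS, Finset.card_compl, Finset.card_image_of_injective _ hinj]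
    simp
  have hmemS : ∀ j, j ∈ S ↔ ∀ i, f₀ i ≠ j := by
    intro j
    simp [hS]
  have hcard : ((A'.submatrix id f₀)ᵀ.det).natAbs < Fintype.card (S → Fin (Bd + 1)) := by
    rw [Matrix.det_transpose]
    simpa [hScard] using hlt
  obtain ⟨z, hz⟩ : ∃ z : (S → Fin (Bd + 1)) → Fin n → ℤ,
      ∀ x j, z x j = if h : j ∈ S then ((x ⟨j, h⟩ : ℕ) : ℤ) else 0 := ⟨_, fun _ _ => rfl⟩
  obtain ⟨x, x', hxx, w, hw⟩ := h52_pigeonhole (A'.submatrix id f₀)ᵀ
    (by rwa [Matrix.det_transpose]) (fun x => A' *ᵥ z x) hcard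
  rw [Matrix.vecMul_transpose] at hw
  obtain ⟨iw, hiwdef⟩ : ∃ iw : Fin n → ℤ, ∀ j, iw j = ∑ i, if f₀ i = j then w i else 0 :=
    ⟨_, fun _ => rfl⟩
  have hiw : A' *ᵥ iw = A'.submatrix id f₀ *ᵥ w := by
    ext k
    simp only [Matrix.mulVec, dotProduct, hiwdef, Matrix.submatrix_apply, id]
    simp_rw [Finset.mul_sum]
    rw [Finset.sum_comm]
    refine Finset.sum_congr rfl fun i _ => ?_
    simp
  have hiwS : ∀ j ∈ S, iw j = 0 := by
    intro j hj
    rw [hiwdef]
    exact Finset.sum_eq_zero fun i _ => by rw [if_neg ((hmemS j).mp hj i)]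
  have hiwf : ∀ i, iw (f₀ i) = w i := by
    intro i
    rw [hiwdef, Finset.sum_eq_single i]
    · simp
    · intro i' _ hi'
      rw [if_neg (fun h => hi' (hinj h))]
    · simp
  have hzf : ∀ x i, z x (f₀ i) = 0 := by
    intro x i
    rw [hz, dif_neg]
    intro h
    exact (hmemS _).mp h i rfl
  have hδ : ∀ j, |z x j - z x' j| ≤ if j ∈ S then (Bd : ℤ) else 0 := by
    intro j
    by_cases hj : j ∈ S
    · rw [hz, hz, dif_pos hj, dif_pos hj, if_pos hj]
      have h1 := (x ⟨j, hj⟩).isLt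
      have h2 := (x' ⟨j, hj⟩).isLt
      rw [abs_le]
      constructor <;> omega
    · rw [hz, hz, dif_neg hj, dif_neg hj, if_neg hj]
      simp
  refine ⟨z x - z x' - iw, ?_, ?_, ?_⟩
  · intro h0
    apply hxx
    funext ⟨j, hj⟩
    have h1 := congrFun h0 j
    simp only [Pi.sub_apply, Pi.zero_apply, hiwS j hj, hz, dif_pos hj, sub_zero] at h1
    exact Fin.ext (by omega)
  · have h1 : A' *ᵥ (z x - z x' - iw) = 0 := by
      rw [Matrix.mulVec_sub, Matrix.mulVec_sub, hiw, hw, sub_self]
    rw [hAU, ← Matrix.mulVec_mulVec, h1, Matrix.mulVec_zero]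
  · intro j
    have hne1 : (1 : ℤ) ≤ ((n - e : ℕ) : ℤ) := by
      exact_mod_cast (Nat.sub_pos_of_lt hen)
    by_cases hj : j ∈ S
    · have h1 := hδ j
      rw [if_pos hj] at h1
      simp only [Pi.sub_apply, hiwS j hj, sub_zero]
      calc |z x j - z x' j| ≤ (Bd : ℤ) := h1
        _ = 1 * Bd := (one_mul _).symm
        _ ≤ ((n - e : ℕ) : ℤ) * Bd := mul_le_mul_of_nonneg_right hne1 (Int.natCast_nonneg _)
    · obtain ⟨i, rfl⟩ : ∃ i, f₀ i = j := by
        by_contra hcon
        push Not at hcon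
        exact hj ((hmemS j).mpr hcon)
      simp only [Pi.sub_apply, hzf, hiwf, sub_self, zero_sub, abs_neg]
      have hpos : 0 < |(A'.submatrix id f₀).det| := abs_pos.mpr hf₀
      have hcr : (A'.submatrix id f₀).det * w i
          = ∑ j, (A'.submatrix id (Function.update f₀ i j)).det * (z x j - z x' j) := by
        have h1 : (A'.submatrix id f₀).adjugate *ᵥ (A'.submatrix id f₀ *ᵥ w)
            = (A'.submatrix id f₀).det • w := by
          rw [Matrix.mulVec_mulVec, Matrix.adjugate_mul, Matrix.smul_mulVec, Matrix.one_mulVec]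
        have h2 : (A'.submatrix id f₀).adjugate *ᵥ (A'.submatrix id f₀ *ᵥ w)
            = ((A'.submatrix id f₀).adjugate * A') *ᵥ (z x - z x') := by
          rw [← hw, ← Matrix.mulVec_sub, Matrix.mulVec_mulVec]
        have h3 := congrFun (h1.symm.trans h2) i
        simp only [Pi.smul_apply, smul_eq_mul, Matrix.mulVec, dotProduct, Pi.sub_apply] at h3
        rw [h3]
        refine Finset.sum_congr rfl fun j _ => ?_
        rw [h52_adjugate_mul_apply]
      have hle : |(A'.submatrix id f₀).det| * |w i|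
          ≤ |(A'.submatrix id f₀).det| * (((n - e : ℕ) : ℤ) * Bd) := by
        rw [← abs_mul, hcr]
        calc |∑ j, (A'.submatrix id (Function.update f₀ i j)).det * (z x j - z x' j)|
            ≤ ∑ j, |(A'.submatrix id (Function.update f₀ i j)).det * (z x j - z x' j)| :=
              Finset.abs_sum_le_sum_abs _ _
          _ ≤ ∑ j, |(A'.submatrix id f₀).det| * (if j ∈ S then (Bd : ℤ) else 0) :=
              Finset.sum_le_sum fun j _ => by
                rw [abs_mul]
                exact mul_le_mul (hmax _) (hδ j) (abs_nonneg _) (abs_nonneg _)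
          _ = |(A'.submatrix id f₀).det| * (((n - e : ℕ) : ℤ) * Bd) := by
              rw [← Finset.mul_sum]
              congr 1
              rw [Finset.sum_ite_mem, Finset.univ_inter, Finset.sum_const, hScard, nsmul_eq_mul]
      exact le_of_mul_le_mul_left hle hpos

/-! ### (E) packaged forms: the bound `Bd` is chosen with `g * Bd ^ rank ≤ D` -/

/-- The integer `Bd` with `g * Bd ^ r ≤ D < g * (Bd + 1) ^ r`. -/
theorem h52_exists_root_bound (D g r : ℕ) (hg : 0 < g) (hr : 0 < r) :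
    ∃ Bd : ℕ, D < g * (Bd + 1) ^ r ∧ g * Bd ^ r ≤ D := by
  classical
  have hex : ∃ b : ℕ, D < g * (b + 1) ^ r := by
    refine ⟨D, ?_⟩
    calc D < D + 1 := Nat.lt_succ_self D
      _ ≤ (D + 1) ^ r := Nat.le_self_pow hr.ne' _
      _ ≤ g * (D + 1) ^ r := Nat.le_mul_of_pos_left _ hg
  refine ⟨Nat.find hex, Nat.find_spec hex, ?_⟩
  rcases Nat.eq_zero_or_pos (Nat.find hex) with h0 | hpos
  · rw [h0, zero_pow hr.ne', mul_zero]
    exact Nat.zero_le _
  · have h1 := Nat.find_min hex (Nat.sub_lt hpos Nat.one_pos)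
    rw [Nat.sub_add_cancel hpos] at h1
    exact not_lt.mp h1

/-- Row-space Siegel lemma with the bound chosen: if all maximal minors are divisible by `g > 0`
and of absolute value `≤ D`, there is a nonzero integer vector in the rational row space of
sup-norm `≤ r * Bd` where `g * Bd ^ r ≤ D`. -/
theorem h52_siegel_span_exists {r n : ℕ} (B : Matrix (Fin r) (Fin n) ℤ) (hr : 0 < r)
    (hne : ∃ f : Fin r → Fin n, (B.submatrix id f).det ≠ 0) (g D : ℕ) (hg0 : 0 < g)
    (hg : ∀ f, (g : ℤ) ∣ (B.submatrix id f).det)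
    (hD : ∀ f, ((B.submatrix id f).det).natAbs ≤ D) :
    ∃ (Bd : ℕ) (t : Fin n → ℤ) (c : Fin r → ℚ), g * Bd ^ r ≤ D ∧ t ≠ 0 ∧
      (∀ j, (t j : ℚ) = ∑ i, c i * (B i j : ℚ)) ∧ ∀ j, |t j| ≤ (r : ℤ) * Bd := by
  obtain ⟨Bd, h1, h2⟩ := h52_exists_root_bound D g r hg0 hr
  obtain ⟨t, c, ht, hc, hb⟩ := h52_siegel_span B hr hne g Bd hg
    (fun f => lt_of_le_of_lt (hD f) h1)
  exact ⟨Bd, t, c, h2, ht, hc, hb⟩

/-- Kernel Siegel lemma with the bound chosen: if all maximal minors are divisible by `g > 0`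
and of absolute value `≤ D`, there is a nonzero integer vector in the kernel of sup-norm
`≤ (n - e) * Bd` where `g * Bd ^ (n - e) ≤ D`. -/
theorem h52_siegel_ker_exists {e n : ℕ} (A : Matrix (Fin e) (Fin n) ℤ) (hen : e < n)
    (hne : ∃ f : Fin e → Fin n, (A.submatrix id f).det ≠ 0) (g D : ℕ) (hg0 : 0 < g)
    (hg : ∀ f, (g : ℤ) ∣ (A.submatrix id f).det)
    (hD : ∀ f, ((A.submatrix id f).det).natAbs ≤ D) :
    ∃ (Bd : ℕ) (y : Fin n → ℤ), g * Bd ^ (n - e) ≤ D ∧ y ≠ 0 ∧ A.mulVec y = 0 ∧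
      ∀ j, |y j| ≤ ((n - e : ℕ) : ℤ) * Bd := by
  obtain ⟨Bd, h1, h2⟩ := h52_exists_root_bound D g (n - e) hg0 (Nat.sub_pos_of_lt hen)
  obtain ⟨y, hy, hk, hb⟩ := h52_siegel_ker A hen hne g Bd hg
    (fun f => lt_of_le_of_lt (hD f) h1)
  exact ⟨Bd, y, h2, hy, hk, hb⟩

end Fermat.Agent.S17
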