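import Fermat.Agent.S27.h68_RRCons

/-!
# S17 / PENCIL: base-point-free pencils and products of Riemann–Roch spaces

`K` algebraically closed, `x` a chart of `F / K`, `g = h75_genus K x`.  All statements are in the
prelude language (`Place`, `Divisor`, `riemannRochSpace`) on top of the Riemann–Roch layer of
S18 / S27 (`h68_finrank_rr_of_deg`).

* `h80_mul_mem`, `h80_rr_mul_le` : `L(D₁) * L(D₂) ≤ L(D₁ + D₂)` (no hypothesis);
* `h80_ord_eq_of_notMem`, `h80_notMem_of_ord_eq` : `f ∈ L(D) \ L(D - P)` iff `ord_P f = -D(P)`;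
* `h80_exists_ord_eq` (BPF) : for `deg D ≥ 2g` and every place `P` there is `f ∈ L(D)` with
  `ord_P f = -D(P)`;
* `h80_exists_avoid` : for `deg D ≥ 2g` and a finite set `T` of places there is `f ∈ L(D)` with
  `ord_P f = -D(P)` for all `P ∈ T`;
* `h80_exists_pencil` (PENCIL-EX) : for `deg D ≥ 2g` there are `s₁ s₂ ∈ L(D)` with
  `min (ord_P s₁) (ord_P s₂) = -D(P)` at every place;
* `h80_pencil_ker` (PENCIL-KER) : `a s₁ + b s₂ = 0` with `a, b ∈ L(D₂)` forces
  `a = c s₂`, `b = -c s₁` with `c ∈ L(D₂ - D₁)`;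
* `h80_pencil_decomp` (PENCIL) : for `deg D₁ ≥ 2g`, `deg D₂ ≥ deg D₁ + 2g - 1` every
  `z ∈ L(D₁ + D₂)` is `a s₁ + b s₂` with `a, b ∈ L(D₂)`;
* `h80_rr_mul_eq` (MULT) : `L(D₁) * L(D₂) = L(D₁ + D₂)` under the same hypotheses
  (`*` is the product of `K`-submodules of `F`);
* `h80_finrank_sub_effective` (EVAL) : `l(D) = l(D - E) + deg E` for `E ≥ 0`,
  `deg (D - E) > 2g - 2`.
-/

set_option autoImplicit false

open AlgebraicCurve IntermediateField

namespace Fermat.Agent.S17

open Fermat.Agent.S18 Fermat.Agent.S27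
open Fermat.Agent.S24 (h35_ord_div h35_ord_neg)

variable {K F : Type*} [Field K] [Field F] [Algebra K F]

section Basic

/-- the product of two sections is a section of the sum. -/
theorem h80_mul_mem {D₁ D₂ : Divisor K F} {f h : F} (hf : f ∈ riemannRochSpace D₁)
    (hh : h ∈ riemannRochSpace D₂) : f * h ∈ riemannRochSpace (D₁ + D₂) := by
  rw [mem_riemannRochSpace_iff] at hf hh ⊢
  intro v
  by_cases hf0 : f = 0
  · left
    rw [hf0, zero_mul]
  by_cases hh0 : h = 0
  · left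
    rw [hh0, mul_zero]
  right
  have h1 := (hf v).resolve_left hf0
  have h2 := (hh v).resolve_left hh0
  rw [v.ord_mul hf0 hh0, Finsupp.add_apply]
  omega

/-- `L(D₁) * L(D₂) ≤ L(D₁ + D₂)`. -/
theorem h80_rr_mul_le (D₁ D₂ : Divisor K F) :
    riemannRochSpace D₁ * riemannRochSpace D₂ ≤ riemannRochSpace (D₁ + D₂) :=
  Submodule.mul_le.mpr fun _ hf _ hh => h80_mul_mem hf hh

/-- a section of `D` which is not a section of `D - P` has order exactly `-D(P)` at `P`. -/
theorem h80_ord_eq_of_notMem {D : Divisor K F} {P : Place K F} {f : F}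
    (hf : f ∈ riemannRochSpace D) (hf' : f ∉ riemannRochSpace (D - Finsupp.single P 1)) :
    f ≠ 0 ∧ P.ord f = -D P := by
  classical
  have hf0 : f ≠ 0 := by
    rintro rfl
    exact hf' (Submodule.zero_mem _)
  refine ⟨hf0, ?_⟩
  rw [mem_riemannRochSpace_iff] at hf hf'
  push Not at hf'
  obtain ⟨v, -, hv⟩ := hf'
  have h1 := (hf v).resolve_left hf0
  rw [Finsupp.sub_apply, Finsupp.single_apply] at hv
  by_cases hPv : P = v
  · subst hPv
    rw [if_pos rfl] at hv
    omega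
  · rw [if_neg hPv] at hv
    omega

/-- a nonzero function of order exactly `-D(P)` at `P` is not a section of `D - P`. -/
theorem h80_notMem_of_ord_eq {D : Divisor K F} {P : Place K F} {f : F} (hf0 : f ≠ 0)
    (h : P.ord f = -D P) : f ∉ riemannRochSpace (D - Finsupp.single P 1) := by
  classical
  intro hf
  rw [mem_riemannRochSpace_iff] at hf
  have h1 := (hf P).resolve_left hf0
  rw [Finsupp.sub_apply, Finsupp.single_apply, if_pos rfl] at h1
  omega

theorem h80_sub_single_le (D : Divisor K F) (P : Place K F) : D - Finsupp.single P 1 ≤ D := by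
  classical
  rw [Finsupp.le_def]
  intro v
  rw [Finsupp.sub_apply, Finsupp.single_apply]
  split_ifs <;> omega

end Basic

section Pencil

variable [IsAlgClosed K]

theorem h80_degree_sub_single {x : F} (hx : h75_IsChart K x) (D : Divisor K F) (P : Place K F) :
    Divisor.degree (D - Finsupp.single P 1) = Divisor.degree D - 1 := by
  rw [map_sub, Divisor.degree_single, h75_deg_eq_one hx P]
  simp

/-- (BPF) for `deg D ≥ 2g` the linear system `|D|` has no base point. -/
theorem h80_exists_ord_eq {x : F} (hx : h75_IsChart K x) (D : Divisor K F)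
    (hD : 2 * (h75_genus K x : ℤ) ≤ Divisor.degree D) (P : Place K F) :
    ∃ f ∈ riemannRochSpace D, f ≠ 0 ∧ P.ord f = -D P := by
  have h1 := h68_finrank_rr_of_deg hx D (by omega)
  have h2 := h68_finrank_rr_of_deg hx (D - Finsupp.single P 1)
    (by rw [h80_degree_sub_single hx]; omega)
  rw [h80_degree_sub_single hx] at h2
  have hle : riemannRochSpace (D - Finsupp.single P 1) ≤ riemannRochSpace D :=
    h68_rr_mono (h80_sub_single_le D P)
  have hlt : riemannRochSpace (D - Finsupp.single P 1) < riemannRochSpace D := by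
    refine lt_of_le_of_ne hle ?_
    intro heq
    rw [heq] at h2
    omega
  obtain ⟨f, hf, hf'⟩ := SetLike.exists_of_lt hlt
  exact ⟨f, hf, h80_ord_eq_of_notMem hf hf'⟩

/-- for `deg D ≥ 2g` and a finite set `T` of places there is a section of `D` which is a local
generator at every place of `T`. -/
theorem h80_exists_avoid {x : F} (hx : h75_IsChart K x) (D : Divisor K F)
    (hD : 2 * (h75_genus K x : ℤ) ≤ Divisor.degree D) (T : Finset (Place K F)) :
    ∃ f ∈ riemannRochSpace D, f ≠ 0 ∧ ∀ P ∈ T, P.ord f = -D P := by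
  classical
  obtain ⟨P₀⟩ := h7_exists_place hx
  obtain ⟨s₁, hs₁, hs₁0, -⟩ := h80_exists_ord_eq hx D hD P₀
  let V : Place K F → Submodule K ↥(riemannRochSpace D) := fun P =>
    Submodule.comap (riemannRochSpace D).subtype (riemannRochSpace (D - Finsupp.single P 1))
  let s : Finset (Submodule K ↥(riemannRochSpace D)) := insert ⊥ (T.image V)
  have hs : (⊤ : Submodule K ↥(riemannRochSpace D)) ∉ s := by
    intro h
    rcases Finset.mem_insert.mp h with h | h
    · have hmem : (⟨s₁, hs₁⟩ : ↥(riemannRochSpace D)) ∈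
          (⊥ : Submodule K ↥(riemannRochSpace D)) := by
        rw [← h]
        exact Submodule.mem_top
      rw [Submodule.mem_bot] at hmem
      exact hs₁0 (congrArg Subtype.val hmem)
    · obtain ⟨P, -, hP⟩ := Finset.mem_image.mp h
      obtain ⟨f, hf, hf0, hfP⟩ := h80_exists_ord_eq hx D hD P
      have hmem : (⟨f, hf⟩ : ↥(riemannRochSpace D)) ∈ V P := by
        rw [hP]
        exact Submodule.mem_top
      exact h80_notMem_of_ord_eq hf0 hfP hmem
  have hne := Subspace.biUnion_ne_univ_of_top_notMem hs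
  obtain ⟨e, he⟩ : ∃ e : ↥(riemannRochSpace D), e ∉ ⋃ p ∈ s, (p : Set ↥(riemannRochSpace D)) := by
    by_contra hcon
    push Not at hcon
    exact hne (Set.eq_univ_of_forall hcon)
  simp only [Set.mem_iUnion, not_exists] at he
  have he0 : (e : F) ≠ 0 := by
    intro h0
    refine he ⊥ (Finset.mem_insert_self _ _) ?_
    rw [SetLike.mem_coe, Submodule.mem_bot]
    exact Subtype.ext h0
  refine ⟨e, e.2, he0, fun P hP => ?_⟩
  have hnot : e ∉ V P := fun hmem =>
    he (V P) (Finset.mem_insert_of_mem (Finset.mem_image_of_mem V hP)) hmem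
  exact (h80_ord_eq_of_notMem e.2 hnot).2

/-- (PENCIL-EX) for `deg D ≥ 2g` there is a base-point-free pencil in `L(D)`. -/
theorem h80_exists_pencil {x : F} (hx : h75_IsChart K x) (D : Divisor K F)
    (hD : 2 * (h75_genus K x : ℤ) ≤ Divisor.degree D) :
    ∃ s₁ s₂ : F, s₁ ∈ riemannRochSpace D ∧ s₂ ∈ riemannRochSpace D ∧ s₁ ≠ 0 ∧ s₂ ≠ 0 ∧
      ∀ P : Place K F, min (P.ord s₁) (P.ord s₂) = -D P := by
  classical
  obtain ⟨s₁, hs₁, hs₁0, -⟩ := h80_exists_avoid hx D hD ∅
  obtain ⟨Df, hDf⟩ := h7_exists_div hx s₁ hs₁0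
  obtain ⟨s₂, hs₂, hs₂0, hT⟩ := h80_exists_avoid hx D hD (Df + D).support
  refine ⟨s₁, s₂, hs₁, hs₂, hs₁0, hs₂0, fun P => ?_⟩
  have h1 := ((mem_riemannRochSpace_iff.mp hs₁) P).resolve_left hs₁0
  have h2 := ((mem_riemannRochSpace_iff.mp hs₂) P).resolve_left hs₂0
  by_cases hP : P ∈ (Df + D).support
  · rw [hT P hP]
    exact min_eq_right h1
  · have h0 : (Df + D) P = 0 := Finsupp.notMem_support_iff.mp hP
    rw [Finsupp.add_apply, hDf] at h0
    have h3 : P.ord s₁ = -D P := by omega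
    rw [h3]
    exact min_eq_left h2

omit [IsAlgClosed K] in
/-- (PENCIL-KER) the kernel of `(a, b) ↦ a s₁ + b s₂` on `L(D₂)²` for a base-point-free pencil
`s₁, s₂` of `D₁`. -/
theorem h80_pencil_ker {D₁ D₂ : Divisor K F} {s₁ s₂ : F} (hs₁0 : s₁ ≠ 0) (hs₂0 : s₂ ≠ 0)
    (hmin : ∀ P : Place K F, min (P.ord s₁) (P.ord s₂) = -D₁ P) {a b : F}
    (ha : a ∈ riemannRochSpace D₂) (hb : b ∈ riemannRochSpace D₂)
    (h : a * s₁ + b * s₂ = 0) :
    ∃ c ∈ riemannRochSpace (D₂ - D₁), a = c * s₂ ∧ b = -(c * s₁) := by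
  have hac : a = a / s₂ * s₂ := by field_simp
  have hbc : b = -(a / s₂ * s₁) := by
    have hb' : b * s₂ = -(a * s₁) := by linear_combination h
    field_simp
    linear_combination hb'
  refine ⟨a / s₂, ?_, hac, hbc⟩
  rw [mem_riemannRochSpace_iff]
  intro v
  by_cases ha0 : a = 0
  · left
    rw [ha0, zero_div]
  right
  have hb0 : b ≠ 0 := by
    intro hb0
    rw [hb0, zero_mul, add_zero] at h
    exact ha0 ((mul_eq_zero.mp h).resolve_right hs₁0)
  have h1 := ((mem_riemannRochSpace_iff.mp ha) v).resolve_left ha0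
  have h2 := ((mem_riemannRochSpace_iff.mp hb) v).resolve_left hb0
  have hc0 : a / s₂ ≠ 0 := div_ne_zero ha0 hs₂0
  have e1 : v.ord (a / s₂) = v.ord a - v.ord s₂ := h35_ord_div v ha0 hs₂0
  have e2 : v.ord (a / s₂) = v.ord b - v.ord s₁ := by
    have hb1 : b = -(a / s₂) * s₁ := by rw [hbc]; ring
    have : v.ord b = v.ord (a / s₂) + v.ord s₁ := by
      conv_lhs => rw [hb1]
      rw [v.ord_mul (neg_ne_zero.mpr hc0) hs₁0, h35_ord_neg]
    omega
  have hm := hmin v
  rw [Finsupp.sub_apply]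
  rcases min_choice (v.ord s₁) (v.ord s₂) with hc | hc
  · rw [hc] at hm
    omega
  · rw [hc] at hm
    omega

/-- (PENCIL) the base-point-free pencil trick: for `deg D₁ ≥ 2g`, `deg D₂ ≥ deg D₁ + 2g - 1` and
a base-point-free pencil `s₁, s₂` of `D₁`, every section of `D₁ + D₂` is `a s₁ + b s₂` with
`a, b ∈ L(D₂)`. -/
theorem h80_pencil_decomp {x : F} (hx : h75_IsChart K x) (D₁ D₂ : Divisor K F)
    (h₁ : 2 * (h75_genus K x : ℤ) ≤ Divisor.degree D₁)
    (h₂ : Divisor.degree D₁ + 2 * (h75_genus K x : ℤ) - 1 ≤ Divisor.degree D₂)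
    {s₁ s₂ : F} (hs₁ : s₁ ∈ riemannRochSpace D₁) (hs₂ : s₂ ∈ riemannRochSpace D₁)
    (hs₁0 : s₁ ≠ 0) (hs₂0 : s₂ ≠ 0)
    (hmin : ∀ P : Place K F, min (P.ord s₁) (P.ord s₂) = -D₁ P) :
    ∀ z ∈ riemannRochSpace (D₁ + D₂), ∃ a ∈ riemannRochSpace D₂, ∃ b ∈ riemannRochSpace D₂,
      z = a * s₁ + b * s₂ := by
  have hfin2 := (h75_riemann hx D₂).1
  have hfin12 := (h75_riemann hx (D₁ + D₂)).1
  have hfin21 := (h75_riemann hx (D₂ - D₁)).1
  have hg : (0 : ℤ) ≤ (h75_genus K x : ℤ) := Int.natCast_nonneg _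
  -- the three dimensions
  have d2 := h68_finrank_rr_of_deg hx D₂ (by omega)
  have d12 := h68_finrank_rr_of_deg hx (D₁ + D₂) (by rw [map_add]; omega)
  have d21 := h68_finrank_rr_of_deg hx (D₂ - D₁) (by rw [map_sub]; omega)
  rw [map_add] at d12
  rw [map_sub] at d21
  -- the map `(a, b) ↦ a s₁ + b s₂`
  let ψ : (↥(riemannRochSpace D₂) × ↥(riemannRochSpace D₂)) →ₗ[K] F :=
    (LinearMap.mulRight K s₁).comp ((riemannRochSpace D₂).subtype.comp (LinearMap.fst K _ _)) +
    (LinearMap.mulRight K s₂).comp ((riemannRochSpace D₂).subtype.comp (LinearMap.snd K _ _))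
  have hψ : ∀ p : ↥(riemannRochSpace D₂) × ↥(riemannRochSpace D₂),
      ψ p = (p.1 : F) * s₁ + (p.2 : F) * s₂ := fun p => rfl
  -- the kernel
  have hcs₂ : ∀ c : ↥(riemannRochSpace (D₂ - D₁)), (c : F) * s₂ ∈ riemannRochSpace D₂ := by
    intro c
    have := h80_mul_mem c.2 hs₂
    rwa [sub_add_cancel] at this
  have hcs₁ : ∀ c : ↥(riemannRochSpace (D₂ - D₁)), -((c : F) * s₁) ∈ riemannRochSpace D₂ := by
    intro c
    have := h80_mul_mem c.2 hs₁
    rw [sub_add_cancel] at this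
    exact Submodule.neg_mem _ this
  let χ : ↥(riemannRochSpace (D₂ - D₁)) →ₗ[K]
      (↥(riemannRochSpace D₂) × ↥(riemannRochSpace D₂)) :=
    { toFun := fun c => (⟨(c : F) * s₂, hcs₂ c⟩, ⟨-((c : F) * s₁), hcs₁ c⟩)
      map_add' := by
        intro c c'
        refine Prod.ext (Subtype.ext ?_) (Subtype.ext ?_)
        · simp [add_mul]
        · simp [add_mul]
          ring
      map_smul' := by
        intro r c
        refine Prod.ext (Subtype.ext ?_) (Subtype.ext ?_)
        · simp [Algebra.smul_def, mul_assoc]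
        · simp [Algebra.smul_def, mul_assoc] }
  have hχinj : Function.Injective χ := by
    intro c c' hcc
    have h1 : (c : F) * s₂ = (c' : F) * s₂ := congrArg (fun p => (p.1 : F)) hcc
    exact Subtype.ext (mul_right_cancel₀ hs₂0 h1)
  have hker : LinearMap.ker ψ = LinearMap.range χ := by
    ext p
    rw [LinearMap.mem_ker, LinearMap.mem_range, hψ]
    constructor
    · intro h0
      obtain ⟨c, hc, hca, hcb⟩ := h80_pencil_ker hs₁0 hs₂0 hmin p.1.2 p.2.2 h0
      exact ⟨⟨c, hc⟩, Prod.ext (Subtype.ext hca.symm) (Subtype.ext hcb.symm)⟩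
    · rintro ⟨c, rfl⟩
      show (c : F) * s₂ * s₁ + -((c : F) * s₁) * s₂ = 0
      ring
  have hrk := LinearMap.finrank_range_add_finrank_ker ψ
  rw [hker, LinearMap.finrank_range_of_inj hχinj, Module.finrank_prod] at hrk
  -- the range
  have hle : LinearMap.range ψ ≤ riemannRochSpace (D₁ + D₂) := by
    rintro _ ⟨p, rfl⟩
    rw [hψ]
    have e1 := h80_mul_mem p.1.2 hs₁
    have e2 := h80_mul_mem p.2.2 hs₂
    rw [add_comm D₂ D₁] at e1 e2
    exact Submodule.add_mem _ e1 e2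
  have heq : LinearMap.range ψ = riemannRochSpace (D₁ + D₂) := by
    refine Submodule.eq_of_le_of_finrank_eq hle ?_
    have : (Module.finrank K ↥(LinearMap.range ψ) : ℤ) =
        (Module.finrank K ↥(riemannRochSpace (D₁ + D₂)) : ℤ) := by
      have hrk' : (Module.finrank K ↥(LinearMap.range ψ) : ℤ) +
          (Module.finrank K ↥(riemannRochSpace (D₂ - D₁)) : ℤ) =
          (Module.finrank K ↥(riemannRochSpace D₂) : ℤ) +
          (Module.finrank K ↥(riemannRochSpace D₂) : ℤ) := by exact_mod_cast hrk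
      omega
    exact_mod_cast this
  intro z hz
  rw [← heq] at hz
  obtain ⟨p, rfl⟩ := hz
  exact ⟨p.1, p.1.2, p.2, p.2.2, hψ p⟩

/-- (MULT) `L(D₁) * L(D₂) = L(D₁ + D₂)` for `deg D₁ ≥ 2g`, `deg D₂ ≥ deg D₁ + 2g - 1`. -/
theorem h80_rr_mul_eq {x : F} (hx : h75_IsChart K x) (D₁ D₂ : Divisor K F)
    (h₁ : 2 * (h75_genus K x : ℤ) ≤ Divisor.degree D₁)
    (h₂ : Divisor.degree D₁ + 2 * (h75_genus K x : ℤ) - 1 ≤ Divisor.degree D₂) :
    riemannRochSpace D₁ * riemannRochSpace D₂ = riemannRochSpace (D₁ + D₂) := by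
  refine le_antisymm (h80_rr_mul_le D₁ D₂) ?_
  obtain ⟨s₁, s₂, hs₁, hs₂, hs₁0, hs₂0, hmin⟩ := h80_exists_pencil hx D₁ h₁
  intro z hz
  obtain ⟨a, ha, b, hb, rfl⟩ := h80_pencil_decomp hx D₁ D₂ h₁ h₂ hs₁ hs₂ hs₁0 hs₂0 hmin z hz
  refine Submodule.add_mem _ ?_ ?_
  · rw [show a * s₁ = s₁ * a from mul_comm a s₁]
    exact Submodule.mul_mem_mul hs₁ ha
  · rw [show b * s₂ = s₂ * b from mul_comm b s₂]
    exact Submodule.mul_mem_mul hs₂ hb

/-- (EVAL) `l(D) = l(D - E) + deg E` for effective `E` with `deg (D - E) > 2g - 2`: the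
evaluation of `L(D)` on `E` is onto. -/
theorem h80_finrank_sub_effective {x : F} (hx : h75_IsChart K x) (D E : Divisor K F)
    (hE : ∀ v, 0 ≤ E v)
    (hD : 2 * (h75_genus K x : ℤ) - 2 < Divisor.degree (D - E)) :
    (Module.finrank K ↥(riemannRochSpace D) : ℤ) =
      (Module.finrank K ↥(riemannRochSpace (D - E)) : ℤ) + Divisor.degree E := by
  have hdeg := h7_degree_nonneg E hE
  have d1 := h68_finrank_rr_of_deg hx (D - E) hD
  rw [map_sub] at hD d1
  have d2 := h68_finrank_rr_of_deg hx D (by omega)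
  omega

end Pencil

end Fermat.Agent.S17
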