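import Fermat.Agent.S17.h55_Frame
import Fermat.Agent.S17.h32_SchmidtGal
import Fermat.Agent.S17.h35_GalDescent
import Fermat.Agent.S17.h52_Siegel
import Fermat.Agent.S17.h80_Pencil

/-!
# S17 (route R55), row SC (scaling), hypothesis form

`G_(M+k)(A ⊔ Z) = G_M(A) + (n M - a)·h(s) + O(1)` for a rational section `s ∈ V_k` cutting out
`Z`.  The statements of the upstream rows FB / WC / PR are taken as hypotheses (verbatim from the
skeleton); the row file `R55_SC.lean` discharges them.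

* `h32_exists_rat_kernel` : curve-free — the kernel of a full-rank Galois-permuted matrix over
  `ℚ̄` has a rational basis matrix;
* `h32_scale_core`        : the scaling estimate for two tuples `A`, `P'` such that
  multiplication by `s` maps `L(M·inf - A)` into `L((M+k)·inf - P')` (dimensions equal);
* `h55_scale_of`, `h55_scale0_of` : the two statements of the row.
-/

set_option autoImplicit false

open AlgebraicCurve

namespace Fermat.Agent.S17

open Fermat.Agent.S18 Fermat.Agent.S27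

open scoped Matrix

local notation "Qbar" => AlgebraicClosure ℚ
local notation "GQ" => (AlgebraicClosure ℚ ≃ₐ[ℚ] AlgebraicClosure ℚ)

/-- The kernel of a full-rank matrix over `ℚ̄` whose rows are permuted by the Galois group has a
rational basis matrix (full rank, complementary size). -/
theorem h32_exists_rat_kernel {a m n : ℕ} (hn : a + m = n) (E : Matrix (Fin a) (Fin n) Qbar)
    (hE : ∃ f : Fin a → Fin n, (E.submatrix id f).det ≠ 0)
    (hgal : ∀ σ : GQ, ∃ π : Equiv.Perm (Fin a), ∀ i j, σ (E i j) = E (π i) j) :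
    ∃ B : Matrix (Fin m) (Fin n) ℚ, (∃ h : Fin m → Fin n, (B.submatrix id h).det ≠ 0) ∧
      E * (B.map (algebraMap ℚ Qbar))ᵀ = 0 := by
  classical
  have hGal := h32_isGaloisQbar
  have hstab : ∀ (σ : GQ), ∀ v ∈ LinearMap.ker E.mulVecLin,
      (fun i => σ (v i)) ∈ LinearMap.ker E.mulVecLin := by
    intro σ v hv
    obtain ⟨π, hπ⟩ := hgal σ
    rw [LinearMap.mem_ker, Matrix.mulVecLin_apply] at hv ⊢
    funext j
    obtain ⟨j', rfl⟩ := π.surjective j
    have h1 := congrFun hv j'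
    simp only [Matrix.mulVec, dotProduct, Pi.zero_apply] at h1 ⊢
    rw [← map_zero σ, ← h1, map_sum]
    refine Finset.sum_congr rfl fun i _ => ?_
    rw [map_mul, hπ]
  -- the kernel has dimension `m`
  have hsurj : LinearMap.range E.mulVecLin = ⊤ := by
    obtain ⟨R, hR⟩ := h86_exists_right_inv E hE
    rw [LinearMap.range_eq_top]
    intro y
    refine ⟨R.mulVec y, ?_⟩
    rw [Matrix.mulVecLin_apply, Matrix.mulVec_mulVec, hR, Matrix.one_mulVec]
  have hfin : Module.finrank Qbar (LinearMap.ker E.mulVecLin) = m := by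
    have h1 := LinearMap.finrank_range_add_finrank_ker E.mulVecLin
    rw [hsurj, finrank_top, Module.finrank_fin_fun, Module.finrank_fin_fun] at h1
    omega
  obtain ⟨b, hli, hspan⟩ :=
    h35_descent_basis_galois (k := ℚ) (K := Qbar) (LinearMap.ker E.mulVecLin) hstab
  have e : Fin m ≃ Fin (Module.finrank Qbar (LinearMap.ker E.mulVecLin)) := finCongr hfin.symm
  have hmem : ∀ l : Fin m,
      (fun i => algebraMap ℚ Qbar (b (e l) i)) ∈ LinearMap.ker E.mulVecLin :=
    fun l => hspan.le (Submodule.subset_span ⟨e l, rfl⟩)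
  refine ⟨Matrix.of fun j i => b (e j) i, h52_exists_minor_ne_zero _ ?_, ?_⟩
  · exact (h35_linearIndependent_of_map b hli).comp e e.injective
  · ext j l
    have h1 := LinearMap.mem_ker.mp (hmem l)
    rw [Matrix.mulVecLin_apply] at h1
    have h2 := congrFun h1 j
    simp only [Matrix.mulVec, dotProduct, Pi.zero_apply] at h2
    simp only [Matrix.mul_apply, Matrix.transpose_apply, Matrix.map_apply, Matrix.of_apply,
      Matrix.zero_apply]
    exact h2

variable {F : Type} [Field F] [Algebra Qbar F] (fr : h55_Frame F)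

/-- an initial segment of an admissible tuple is admissible -/
theorem h32_isAdm_left {a k : ℕ} {A : Fin a → Place Qbar F} {Z : Fin k → Place Qbar F}
    (h : fr.IsAdm (Fin.append A Z)) : fr.IsAdm A := by
  refine ⟨fun i j hij => ?_, fun j => ?_⟩
  · have h1 := h.1 (a₁ := Fin.castAdd k i) (a₂ := Fin.castAdd k j)
      (by rw [Fin.append_left, Fin.append_left]; exact hij)
    exact Fin.castAdd_injective _ _ h1
  · have h1 := h.2 (Fin.castAdd k j)
    rwa [Fin.append_left] at h1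

/-- **Scaling, core form.**  `A` and `P'` are Galois-stable admissible tuples whose evaluation
matrices in `V_M`, `V_(M+k)` have full rank and kernels of the same dimension `m`, and
multiplication by the rational section `s ∈ V_k` maps `L(M·inf - A)` into `L((M+k)·inf - P')`.
Then `|G_(M+k)(P') - G_M(A) - m·h(s)| ≤ ∑_w log c_w` for the constants `c_w` of (E1). -/
theorem h32_scale_core
    (h_vec_mem : ∀ (M : ℕ) (c : Fin (fr.n M) → Qbar), fr.vec M c ∈ fr.V M)
    (h_exists_vec : ∀ (M : ℕ) {f : F}, f ∈ fr.V M → ∃ c, fr.vec M c = f)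
    (h_act_vec : ∀ (M : ℕ) (c : Fin (fr.n M) → Qbar) (σ : GQ),
      fr.act σ • fr.vec M c = fr.vec M (fun i => σ (c i)))
    (h_vec_rat_of_fixed : ∀ (M : ℕ) (c : Fin (fr.n M) → Qbar),
      (∀ σ : GQ, fr.act σ • fr.vec M c = fr.vec M c) →
      ∃ q : Fin (fr.n M) → ℚ, c = fun i => (q i : Qbar))
    (h_pt_smul : ∀ (M : ℕ) {P : Place Qbar F}, P ≠ fr.inf → ∀ σ : GQ,
      fr.pt M (fr.act σ • P) = fun i => σ (fr.pt M P i))
    (h_mem_W_iff : ∀ (M : ℕ) {a : ℕ} (P : Fin a → Place Qbar F), fr.IsAdm P →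
      ∀ c : Fin (fr.n M) → Qbar,
      fr.vec M c ∈ riemannRochSpace ((M : ℤ) • Finsupp.single fr.inf (1 : ℤ) - h55_dv P) ↔
        (fr.E M P).mulVec c = 0)
    (M k m : ℕ) (c : h55_Pl → ℝ) (hc1 : ∀ w, 1 ≤ c w) (hcf : {w | c w ≠ 1}.Finite)
    (hmn : ∀ (w : h55_Pl) (s : Fin (fr.n k) → Qbar) (B : Matrix (Fin m) (Fin (fr.n M)) Qbar)
        (B' : Matrix (Fin m) (Fin (fr.n (M + k))) Qbar),
        (∀ i, fr.vec (M + k) (B' i) = fr.vec k s * fr.vec M (B i)) →
        h55_mn w B' ≤ c w * (h55_mn w B * h55_nrm w s ^ m) ∧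
        h55_mn w B * h55_nrm w s ^ m ≤ c w * h55_mn w B')
    {a a' : ℕ} (A : Fin a → Place Qbar F) (P' : Fin a' → Place Qbar F) (s : Fin (fr.n k) → ℚ)
    (hs : fr.vec k (fun i => (s i : Qbar)) ≠ 0)
    (hA : fr.IsAdm A) (hP' : fr.IsAdm P') (stA : fr.IsStable A) (stP' : fr.IsStable P')
    (hn : a + m = fr.n M) (hn' : a' + m = fr.n (M + k))
    (hEA : ∃ f : Fin a → Fin (fr.n M), ((fr.E M A).submatrix id f).det ≠ 0)
    (hEP' : ∃ f : Fin a' → Fin (fr.n (M + k)), ((fr.E (M + k) P').submatrix id f).det ≠ 0)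
    (hmul : ∀ f : F,
      f ∈ riemannRochSpace ((M : ℤ) • Finsupp.single fr.inf (1 : ℤ) - h55_dv A) →
      fr.vec k (fun i => (s i : Qbar)) * f ∈
        riemannRochSpace (((M + k : ℕ) : ℤ) • Finsupp.single fr.inf (1 : ℤ) - h55_dv P')) :
    |fr.G (M + k) P' - fr.G M A - (m : ℝ) * h55_ht s| ≤ ∑ᶠ w, Real.log (c w) := by
  classical
  set sq : Fin (fr.n k) → Qbar := fun i => (s i : Qbar) with hsq
  -- the Galois group permutes the rows of the evaluation matrices
  have hgal : ∀ (M' : ℕ) {r : ℕ} (P : Fin r → Place Qbar F), fr.IsAdm P → fr.IsStable P →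
      ∀ σ : GQ, ∃ π : Equiv.Perm (Fin r), ∀ i j, σ (fr.E M' P i j) = fr.E M' P (π i) j := by
    intro M' r P hP hst σ
    obtain ⟨π, hπ⟩ := hst σ
    refine ⟨π, fun i j => ?_⟩
    have h1 := congrFun (h_pt_smul M' (hP.2 i) σ) j
    rw [hπ i] at h1
    exact h1.symm
  -- a rational basis matrix of the kernel of `E_M(A)`
  obtain ⟨B, hB, hEB⟩ := h32_exists_rat_kernel hn (fr.E M A) hEA (hgal M A hA stA)
  set Bq : Matrix (Fin m) (Fin (fr.n M)) Qbar := B.map (algebraMap ℚ Qbar) with hBq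
  have hrow : ∀ l : Fin m, fr.vec M (Bq l) ∈
      riemannRochSpace ((M : ℤ) • Finsupp.single fr.inf (1 : ℤ) - h55_dv A) := by
    intro l
    rw [h_mem_W_iff M A hA]
    funext j
    have h1 := congrFun (congrFun hEB j) l
    simp only [Matrix.mul_apply, Matrix.transpose_apply, Matrix.zero_apply] at h1
    simp only [Matrix.mulVec, dotProduct, Pi.zero_apply]
    exact h1
  -- the rows `s · B_l`, in rational coordinates of `V_(M+k)`
  have hprod : ∀ l : Fin m, ∃ q : Fin (fr.n (M + k)) → ℚ,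
      fr.vec (M + k) (fun i => (q i : Qbar)) = fr.vec k sq * fr.vec M (Bq l) := by
    intro l
    have hmemV : fr.vec k sq * fr.vec M (Bq l) ∈ fr.V (M + k) := by
      have h1 := h80_mul_mem (h_vec_mem k sq) (h_vec_mem M (Bq l))
      have h2 : ((k : ℤ) • Finsupp.single fr.inf (1 : ℤ) + (M : ℤ) • Finsupp.single fr.inf (1 : ℤ))
          = (((M + k : ℕ) : ℤ)) • Finsupp.single fr.inf (1 : ℤ) := by
        rw [← add_smul]
        congr 1
        push_cast
        ring
      rw [h2] at h1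
      exact h1
    obtain ⟨c', hc'⟩ := h_exists_vec (M + k) hmemV
    have hfixc : ∀ σ : GQ, fr.act σ • fr.vec (M + k) c' = fr.vec (M + k) c' := by
      intro σ
      rw [hc', smul_mul', h_act_vec, h_act_vec]
      have e1 : (fun i => σ (sq i)) = sq := by
        funext i
        exact σ.commutes (s i)
      have e2 : (fun i => σ (Bq l i)) = Bq l := by
        funext i
        exact σ.commutes (B l i)
      rw [e1, e2]
    obtain ⟨q, hq⟩ := h_vec_rat_of_fixed (M + k) c' hfixc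
    exact ⟨q, by rw [← hq]; exact hc'⟩
  choose q hq using hprod
  set B' : Matrix (Fin m) (Fin (fr.n (M + k))) ℚ := Matrix.of q with hB'
  set B'q : Matrix (Fin m) (Fin (fr.n (M + k))) Qbar := B'.map (algebraMap ℚ Qbar) with hB'q
  have hrows' : ∀ l, fr.vec (M + k) (B'q l) = fr.vec k sq * fr.vec M (Bq l) := fun l => hq l
  have hEB' : fr.E (M + k) P' * B'qᵀ = 0 := by
    ext j l
    have h1 : fr.vec (M + k) (B'q l) ∈
        riemannRochSpace (((M + k : ℕ) : ℤ) • Finsupp.single fr.inf (1 : ℤ) - h55_dv P') := by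
      rw [hrows' l]
      exact hmul _ (hrow l)
    rw [h_mem_W_iff (M + k) P' hP'] at h1
    have h2 := congrFun h1 j
    simp only [Matrix.mulVec, dotProduct, Pi.zero_apply] at h2
    simp only [Matrix.mul_apply, Matrix.transpose_apply, Matrix.zero_apply]
    exact h2
  have hsq0 : sq ≠ 0 := by
    intro h0
    apply hs
    rw [h0]
    simp [h55_Frame.vec]
  have hBq_minor : ∃ h : Fin m → Fin (fr.n M), (Bq.submatrix id h).det ≠ 0 := by
    obtain ⟨h, hh⟩ := hB
    exact ⟨h, by rw [hBq, h32_minor_map]; exact (map_ne_zero _).mpr hh⟩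
  have hB'min : ∃ h : Fin m → Fin (fr.n (M + k)), (B'.submatrix id h).det ≠ 0 := by
    by_contra hcon
    push Not at hcon
    have hz : h55_mn none B'q = 0 := by
      have h0 : ∀ f : Fin m → Fin (fr.n (M + k)),
          h55_av none ((B'q.submatrix id f).det) = 0 := by
        intro f
        rw [hB'q, h32_minor_map, hcon f, map_zero, map_zero]
      unfold h55_mn
      simp only [h0]
      exact Real.iSup_const_zero
    have h1 := (hmn none sq Bq B'q hrows').2
    rw [hz, mul_zero] at h1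
    have h2 : 0 < h55_mn none Bq * h55_nrm none sq ^ m :=
      mul_pos (h32_mnorm_pos none Bq hBq_minor) (pow_pos (h55_nrm_pos none hsq0) m)
    linarith
  have hB'q_minor : ∃ h : Fin m → Fin (fr.n (M + k)), (B'q.submatrix id h).det ≠ 0 := by
    obtain ⟨h, hh⟩ := hB'min
    exact ⟨h, by rw [hB'q, h32_minor_map]; exact (map_ne_zero _).mpr hh⟩
  -- Schmidt heights
  have hG : ∑ᶠ w : h55_Pl, Real.log (h86_mnorm (h55_av w) Bq) = fr.G M A :=
    h32_schmidt_global hn (fr.E M A) hEA (hgal M A hA stA) B hB hEB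
  have hG' : ∑ᶠ w : h55_Pl, Real.log (h86_mnorm (h55_av w) B'q) = fr.G (M + k) P' :=
    h32_schmidt_global hn' (fr.E (M + k) P') hEP' (hgal (M + k) P' hP' stP') B' hB'min hEB'
  -- summation of the local bounds (E1)
  have hRf : {w : h55_Pl | h86_mnorm (h55_av w) Bq * h55_nrm w sq ^ m ≠ 1}.Finite := by
    refine ((h32_finite_mnorm_ne_one Bq hBq_minor).union (h55_finite_nrm_ne_one hsq0)).subset ?_
    intro w hw
    by_contra hcon
    simp only [Set.mem_union, Set.mem_ofPred_eq, not_or, not_not] at hcon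
    apply hw
    rw [hcon.1, hcon.2, one_pow, one_mul]
  have hsum := h32_finsum_log_two_sided (X := fun w => h86_mnorm (h55_av w) B'q)
    (R := fun w => h86_mnorm (h55_av w) Bq * h55_nrm w sq ^ m) (c := c)
    (fun w => h32_mnorm_pos w B'q hB'q_minor)
    (fun w => mul_pos (h32_mnorm_pos w Bq hBq_minor) (pow_pos (h55_nrm_pos w hsq0) m))
    hc1 (h32_finite_mnorm_ne_one B'q hB'q_minor) hRf hcf
    (fun w => (hmn w sq Bq B'q hrows').2) (fun w => (hmn w sq Bq B'q hrows').1)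
  have hR : ∑ᶠ w : h55_Pl, Real.log (h86_mnorm (h55_av w) Bq * h55_nrm w sq ^ m) =
      fr.G M A + (m : ℝ) * h55_ht s := by
    have h1 : ∀ w : h55_Pl, Real.log (h86_mnorm (h55_av w) Bq * h55_nrm w sq ^ m) =
        Real.log (h86_mnorm (h55_av w) Bq) + (m : ℝ) * Real.log (h55_nrm w sq) := by
      intro w
      rw [Real.log_mul (h32_mnorm_pos w Bq hBq_minor).ne'
        (pow_pos (h55_nrm_pos w hsq0) m).ne', Real.log_pow]
    have hs2 : (Function.support fun w : h55_Pl => (m : ℝ) * Real.log (h55_nrm w sq)).Finite := by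
      refine (h55_finite_support_log_nrm sq).subset ?_
      intro w hw h0
      simp only [Function.mem_support, ne_eq] at hw
      have h0' : Real.log (h55_nrm w sq) = 0 := h0
      exact hw (by rw [h0', mul_zero])
    rw [finsum_congr h1, finsum_add_distrib (h32_finite_support_log_mnorm Bq) hs2, hG,
      ← mul_finsum]
    rfl
  rw [hG', hR] at hsum
  have e3 : fr.G (M + k) P' - fr.G M A - (m : ℝ) * h55_ht s =
      fr.G (M + k) P' - (fr.G M A + (m : ℝ) * h55_ht s) := by ring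
  rw [e3]
  exact hsum

/-- **Row SC, first statement, hypothesis form** (`h55_scale` of the skeleton; the hypotheses are
the statements of the rows FB, WC, PR, verbatim). -/
theorem h55_scale_of
    (h_n_eq : ∀ (M : ℕ), 2 * fr.g ≤ M + 1 → (fr.n M : ℤ) = M + 1 - fr.g)
    (h_vec_mem : ∀ (M : ℕ) (c : Fin (fr.n M) → Qbar), fr.vec M c ∈ fr.V M)
    (h_exists_vec : ∀ (M : ℕ) {f : F}, f ∈ fr.V M → ∃ c, fr.vec M c = f)
    (h_act_vec : ∀ (M : ℕ) (c : Fin (fr.n M) → Qbar) (σ : GQ),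
      fr.act σ • fr.vec M c = fr.vec M (fun i => σ (c i)))
    (h_vec_rat_of_fixed : ∀ (M : ℕ) (c : Fin (fr.n M) → Qbar),
      (∀ σ : GQ, fr.act σ • fr.vec M c = fr.vec M c) →
      ∃ q : Fin (fr.n M) → ℚ, c = fun i => (q i : Qbar))
    (h_pt_smul : ∀ (M : ℕ) {P : Place Qbar F}, P ≠ fr.inf → ∀ σ : GQ,
      fr.pt M (fr.act σ • P) = fun i => σ (fr.pt M P i))
    (h_isStable_append : ∀ {a b : ℕ} {A : Fin a → Place Qbar F} {B : Fin b → Place Qbar F},
      fr.IsStable A → fr.IsStable B → fr.IsStable (Fin.append A B))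
    (h_mn_mul : ∀ (M k r : ℕ),
      ∃ c : h55_Pl → ℝ, (∀ w, 1 ≤ c w) ∧ {w | c w ≠ 1}.Finite ∧
        ∀ (w : h55_Pl) (s : Fin (fr.n k) → Qbar) (B : Matrix (Fin r) (Fin (fr.n M)) Qbar)
          (B' : Matrix (Fin r) (Fin (fr.n (M + k))) Qbar),
          (∀ i, fr.vec (M + k) (B' i) = fr.vec k s * fr.vec M (B i)) →
          h55_mn w B' ≤ c w * (h55_mn w B * h55_nrm w s ^ r) ∧
          h55_mn w B * h55_nrm w s ^ r ≤ c w * h55_mn w B')
    (h_mem_W_iff : ∀ (M : ℕ) {a : ℕ} (P : Fin a → Place Qbar F), fr.IsAdm P →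
      ∀ c : Fin (fr.n M) → Qbar,
      fr.vec M c ∈ riemannRochSpace ((M : ℤ) • Finsupp.single fr.inf (1 : ℤ) - h55_dv P) ↔
        (fr.E M P).mulVec c = 0)
    (h_exists_minor : ∀ (M : ℕ) {a : ℕ} (P : Fin a → Place Qbar F), fr.IsAdm P →
      a + 2 * fr.g ≤ M + 1 →
      ∃ f : Fin a → Fin (fr.n M), ((fr.E M P).submatrix id f).det ≠ 0)
    (h_smul_W : ∀ (M k : ℕ) {a : ℕ} (A : Fin a → Place Qbar F) (Z : Fin k → Place Qbar F)
      (s : Fin (fr.n k) → ℚ), fr.Cuts s Z → ∀ f : F,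
      f ∈ riemannRochSpace ((M : ℤ) • Finsupp.single fr.inf (1 : ℤ) - h55_dv A) ↔
        fr.vec k (fun i => (s i : Qbar)) * f ∈
          riemannRochSpace (((M + k : ℕ) : ℤ) • Finsupp.single fr.inf (1 : ℤ)
            - h55_dv (Fin.append A Z)))
    (M k a : ℕ) (hM : a + 2 * fr.g ≤ M + 1) :
    ∃ C : ℝ, ∀ (A : Fin a → Place Qbar F) (Z : Fin k → Place Qbar F) (s : Fin (fr.n k) → ℚ),
      fr.IsAdm (Fin.append A Z) → fr.IsStable A → fr.IsStable Z → fr.Cuts s Z →
      |fr.G (M + k) (Fin.append A Z) - fr.G M A - ((fr.n M : ℝ) - a) * h55_ht s| ≤ C := by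
  obtain ⟨c, hc1, hcf, hmn⟩ := h_mn_mul M k (fr.n M - a)
  refine ⟨∑ᶠ w, Real.log (c w), fun A Z s hadm stA stZ hcuts => ?_⟩
  have hnM : (fr.n M : ℤ) = M + 1 - fr.g := h_n_eq M (by omega)
  have hnMk : (fr.n (M + k) : ℤ) = (M + k : ℕ) + 1 - fr.g := h_n_eq (M + k) (by omega)
  have hle : a ≤ fr.n M := by omega
  have hn : a + (fr.n M - a) = fr.n M := by omega
  have hn' : (a + k) + (fr.n M - a) = fr.n (M + k) := by
    push_cast at hnMk
    omega
  have hA : fr.IsAdm A := h32_isAdm_left fr hadm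
  have hcast : ((fr.n M : ℝ) - a) = ((fr.n M - a : ℕ) : ℝ) := by rw [Nat.cast_sub hle]
  rw [hcast]
  exact h32_scale_core fr h_vec_mem h_exists_vec h_act_vec h_vec_rat_of_fixed h_pt_smul
    h_mem_W_iff M k (fr.n M - a) c hc1 hcf hmn A (Fin.append A Z) s hcuts.1 hA hadm stA
    (h_isStable_append stA stZ) hn hn' (h_exists_minor M A hA hM)
    (h_exists_minor (M + k) (Fin.append A Z) hadm (by omega))
    (fun f hf => (h_smul_W M k A Z s hcuts f).mp hf)

/-- the divisor of the empty tuple -/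
theorem h32_dv_elim0 : h55_dv (Fin.elim0 : Fin 0 → Place Qbar F) = 0 := by
  unfold h55_dv
  simp

/-- the divisor of `Fin.append Fin.elim0 Z` -/
theorem h32_dv_elim0_append {k : ℕ} (Z : Fin k → Place Qbar F) :
    h55_dv (Fin.append (Fin.elim0 : Fin 0 → Place Qbar F) Z) = h55_dv Z := by
  unfold h55_dv
  rw [Fin.elim0_append]
  exact Fintype.sum_equiv (finCongr (Nat.zero_add k)) _ _ (fun j => rfl)

/-- `G` of the empty tuple vanishes. -/
theorem h32_G_elim0 (M : ℕ) : fr.G M (Fin.elim0 : Fin 0 → Place Qbar F) = 0 := by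
  unfold h55_Frame.G h55_Frame.Gloc
  have h0 : ∀ w : h55_Pl, Real.log (h55_mn w (fr.E M (Fin.elim0 : Fin 0 → Place Qbar F))) = 0 := by
    intro w
    have h1 : h55_mn w (fr.E M (Fin.elim0 : Fin 0 → Place Qbar F)) = 1 :=
      h86_mnorm_zero_rows (h55_av w) _
    rw [h1, Real.log_one]
  rw [finsum_congr h0, finsum_zero]

/-- **Row SC, second statement, hypothesis form** (`h55_scale0` of the skeleton). -/
theorem h55_scale0_of
    (h_n_eq : ∀ (M : ℕ), 2 * fr.g ≤ M + 1 → (fr.n M : ℤ) = M + 1 - fr.g)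
    (h_vec_mem : ∀ (M : ℕ) (c : Fin (fr.n M) → Qbar), fr.vec M c ∈ fr.V M)
    (h_exists_vec : ∀ (M : ℕ) {f : F}, f ∈ fr.V M → ∃ c, fr.vec M c = f)
    (h_act_vec : ∀ (M : ℕ) (c : Fin (fr.n M) → Qbar) (σ : GQ),
      fr.act σ • fr.vec M c = fr.vec M (fun i => σ (c i)))
    (h_vec_rat_of_fixed : ∀ (M : ℕ) (c : Fin (fr.n M) → Qbar),
      (∀ σ : GQ, fr.act σ • fr.vec M c = fr.vec M c) →
      ∃ q : Fin (fr.n M) → ℚ, c = fun i => (q i : Qbar))
    (h_pt_smul : ∀ (M : ℕ) {P : Place Qbar F}, P ≠ fr.inf → ∀ σ : GQ,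
      fr.pt M (fr.act σ • P) = fun i => σ (fr.pt M P i))
    (h_mn_mul : ∀ (M k r : ℕ),
      ∃ c : h55_Pl → ℝ, (∀ w, 1 ≤ c w) ∧ {w | c w ≠ 1}.Finite ∧
        ∀ (w : h55_Pl) (s : Fin (fr.n k) → Qbar) (B : Matrix (Fin r) (Fin (fr.n M)) Qbar)
          (B' : Matrix (Fin r) (Fin (fr.n (M + k))) Qbar),
          (∀ i, fr.vec (M + k) (B' i) = fr.vec k s * fr.vec M (B i)) →
          h55_mn w B' ≤ c w * (h55_mn w B * h55_nrm w s ^ r) ∧
          h55_mn w B * h55_nrm w s ^ r ≤ c w * h55_mn w B')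
    (h_mem_W_iff : ∀ (M : ℕ) {a : ℕ} (P : Fin a → Place Qbar F), fr.IsAdm P →
      ∀ c : Fin (fr.n M) → Qbar,
      fr.vec M c ∈ riemannRochSpace ((M : ℤ) • Finsupp.single fr.inf (1 : ℤ) - h55_dv P) ↔
        (fr.E M P).mulVec c = 0)
    (h_exists_minor : ∀ (M : ℕ) {a : ℕ} (P : Fin a → Place Qbar F), fr.IsAdm P →
      a + 2 * fr.g ≤ M + 1 →
      ∃ f : Fin a → Fin (fr.n M), ((fr.E M P).submatrix id f).det ≠ 0)
    (h_smul_W : ∀ (M k : ℕ) {a : ℕ} (A : Fin a → Place Qbar F) (Z : Fin k → Place Qbar F)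
      (s : Fin (fr.n k) → ℚ), fr.Cuts s Z → ∀ f : F,
      f ∈ riemannRochSpace ((M : ℤ) • Finsupp.single fr.inf (1 : ℤ) - h55_dv A) ↔
        fr.vec k (fun i => (s i : Qbar)) * f ∈
          riemannRochSpace (((M + k : ℕ) : ℤ) • Finsupp.single fr.inf (1 : ℤ)
            - h55_dv (Fin.append A Z)))
    (M k : ℕ) (hM : 2 * fr.g ≤ M + 1) :
    ∃ C : ℝ, ∀ (Z : Fin k → Place Qbar F) (s : Fin (fr.n k) → ℚ),
      fr.IsAdm Z → fr.IsStable Z → fr.Cuts s Z →
      |fr.G (M + k) Z - (fr.n M : ℝ) * h55_ht s| ≤ C := by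
  obtain ⟨c, hc1, hcf, hmn⟩ := h_mn_mul M k (fr.n M)
  refine ⟨∑ᶠ w, Real.log (c w), fun Z s hadm stZ hcuts => ?_⟩
  have hnM : (fr.n M : ℤ) = M + 1 - fr.g := h_n_eq M hM
  have hnMk : (fr.n (M + k) : ℤ) = (M + k : ℕ) + 1 - fr.g := h_n_eq (M + k) (by omega)
  have hn' : k + fr.n M = fr.n (M + k) := by
    push_cast at hnMk
    omega
  have hadm0 : fr.IsAdm (Fin.elim0 : Fin 0 → Place Qbar F) :=
    ⟨fun i => i.elim0, fun j => j.elim0⟩
  have hst0 : fr.IsStable (Fin.elim0 : Fin 0 → Place Qbar F) :=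
    fun σ => ⟨1, fun j => j.elim0⟩
  have hE0 : ∃ f : Fin 0 → Fin (fr.n M),
      ((fr.E M (Fin.elim0 : Fin 0 → Place Qbar F)).submatrix id f).det ≠ 0 :=
    ⟨Fin.elim0, by simp⟩
  have key := h32_scale_core fr h_vec_mem h_exists_vec h_act_vec h_vec_rat_of_fixed h_pt_smul
    h_mem_W_iff M k (fr.n M) c hc1 hcf hmn (Fin.elim0 : Fin 0 → Place Qbar F) Z s hcuts.1
    hadm0 hadm hst0 stZ (Nat.zero_add _) hn' hE0
    (h_exists_minor (M + k) Z hadm (by omega))
    (fun f hf => by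
      have h1 := (h_smul_W M k (Fin.elim0 : Fin 0 → Place Qbar F) Z s hcuts f).mp hf
      rwa [h32_dv_elim0_append] at h1)
  rw [h32_G_elim0, sub_zero] at key
  exact key

end Fermat.Agent.S17
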