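import Mathlib

/-!
# S17 foundation (helper7): Siegel's lemma in Plücker form

"Minkowski's first theorem in Plücker form", by pigeonhole only (no measure theory, no
Cauchy–Binet, no duality of Plücker coordinates).

Maximal minors of an `n × M` matrix `E` are indexed by ALL column selections
`f : Fin n → Fin M` (`(E.submatrix id f).det`), so that Cramer's rule reads `Function.update`;
zero entries, repetitions and signs do not change a height (`h7_mulHeight_minors_sorted`).

* `h7_det_mul_expand` : `det (E * B) = ∑_f (∏_i B (f i) i) * det E_f` (half of Cauchy–Binet);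
* `h7_exists_minor_ne_zero` : over a field, independent rows give a nonzero maximal minor;
* `h7_siegel_int` : integer matrix whose largest minor `D = det E_f0` is nonzero: a nonzero
  integer kernel vector with `‖x‖_∞ ^ (M - n) ≤ (M - n) ^ (M - n) * |D|`;
* `h7_exists_primitive` : reduction to an integer matrix with coprime maximal minors;
* `h7_siegel_rat`, `h7_siegel_rat_log` : rational matrix, bound by the height (over `ℚ`) of the
  vector of maximal minors;
* `h7_siegel_field`, `h7_siegel_field_sorted` (+ `_log`) : matrix over any field of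
  characteristic zero whose minor RATIOS are rational (e.g. evaluation vectors at the points of
  a `ℚ`-rational divisor, coefficients in `ℚ̄`);
* `h7_schmidt_ge` : the contrapositive form (a lower bound for all nonzero integer kernel
  vectors is a lower bound for the Plücker height).
-/

set_option autoImplicit false

noncomputable section

namespace Fermat.Agent.S17

open Matrix

/-- Expansion of `det (E * B)` over all column selections (the first half of Cauchy–Binet). -/
theorem h7_det_mul_expand {R : Type*} [CommRing R] {n M : ℕ} (E : Matrix (Fin n) (Fin M) R)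
    (B : Matrix (Fin M) (Fin n) R) :
    (E * B).det = ∑ f : Fin n → Fin M, (∏ i, B (f i) i) * (E.submatrix id f).det := by
  have h1 : (E * B).det =
      (Matrix.detRowAlternating (R := R) (n := Fin n)).toMultilinearMap
        (fun k : Fin n => ∑ j : Fin M, B j k • Eᵀ j) := by
    rw [← Matrix.det_transpose]
    change (E * B)ᵀ.det = Matrix.det (fun k : Fin n => ∑ j : Fin M, B j k • Eᵀ j)
    congr 1
    ext k i
    simp [Matrix.mul_apply, Matrix.transpose_apply, Finset.sum_apply, mul_comm]
  rw [h1, MultilinearMap.map_sum]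
  refine Finset.sum_congr rfl fun f _ => ?_
  rw [MultilinearMap.map_smul_univ, smul_eq_mul]
  congr 1
  rw [← Matrix.det_transpose (E.submatrix id f)]
  rfl

/-- Over a field: if no nontrivial combination of the rows vanishes, some maximal minor is
nonzero. -/
theorem h7_exists_minor_ne_zero {F : Type*} [Field F] {n M : ℕ} (E : Matrix (Fin n) (Fin M) F)
    (hE : ∀ c : Fin n → F, c ᵥ* E = 0 → c = 0) :
    ∃ f : Fin n → Fin M, (E.submatrix id f).det ≠ 0 := by
  by_contra hcon
  push Not at hcon
  -- `E.mulVec` is surjective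
  have hinj : Function.Injective (Eᵀ.mulVecLin) := by
    rw [← LinearMap.ker_eq_bot, LinearMap.ker_eq_bot']
    intro c hc
    apply hE
    rw [← Matrix.mulVec_transpose]
    exact hc
  have hrank : E.rank = n := by
    rw [← Matrix.rank_transpose, Matrix.rank, LinearMap.finrank_range_of_inj hinj]
    simp
  have hsurj : Function.Surjective E.mulVec := by
    have : LinearMap.range E.mulVecLin = ⊤ := by
      apply Submodule.eq_top_of_finrank_eq
      rw [← Matrix.rank, hrank]
      simp
    exact LinearMap.range_eq_top.mp this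
  obtain ⟨B, hB⟩ := Matrix.mulVec_surjective_iff_exists_right_inverse.mp hsurj
  have h1 := h7_det_mul_expand E B
  rw [hB, Matrix.det_one] at h1
  simp [hcon] at h1

/-- The index of the column lattice of a nonsingular integer matrix is `|det|`. -/
theorem h7_card_quot {n : ℕ} (A : Matrix (Fin n) (Fin n) ℤ) (hA : A.det ≠ 0) :
    Nat.card ((Fin n → ℤ) ⧸ LinearMap.range A.mulVecLin) = A.det.natAbs := by
  have hinj : Function.Injective A.mulVecLin := by
    rw [← LinearMap.ker_eq_bot, LinearMap.ker_eq_bot']
    intro v hv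
    exact Matrix.eq_zero_of_mulVec_eq_zero hA hv
  let e : (Fin n → ℤ) ≃ₗ[ℤ] LinearMap.range A.mulVecLin := LinearEquiv.ofInjective A.mulVecLin hinj
  have h := Submodule.natAbs_det_equiv (LinearMap.range A.mulVecLin) e
  rw [← h]
  congr 1
  have : (LinearMap.range A.mulVecLin).subtype ∘ₗ
      AddMonoidHom.toIntLinearMap ((e : (Fin n → ℤ) →+ LinearMap.range A.mulVecLin)) =
      Matrix.toLin' A := by
    ext v i
    simp [e]
  rw [this, LinearMap.det_toLin']

/-- Existence of the integer `s`-th root. -/
theorem h7_exists_root (s d : ℕ) (hs : 0 < s) : ∃ T : ℕ, T ^ s ≤ d ∧ d < (T + 1) ^ s := by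
  refine ⟨Nat.findGreatest (fun T => T ^ s ≤ d) d, ?_, ?_⟩
  · exact Nat.findGreatest_spec (P := fun T => T ^ s ≤ d) (Nat.zero_le d) (by simp [hs.ne'])
  · by_contra hcon
    push Not at hcon
    have hle : Nat.findGreatest (fun T => T ^ s ≤ d) d + 1 ≤ d := by
      calc Nat.findGreatest (fun T => T ^ s ≤ d) d + 1
          ≤ (Nat.findGreatest (fun T => T ^ s ≤ d) d + 1) ^ s := Nat.le_self_pow hs.ne' _
        _ ≤ d := hcon
    have := Nat.le_findGreatest (P := fun T => T ^ s ≤ d) hle hcon
    omega

/-- Cramer's rule in the form used below: if `A z = E w` with `A` the columns `f0` of `E`, then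
`det A * z i` is the combination of the minors of `E` with one column exchanged. -/
theorem h7_cramer_minor {n M : ℕ} (E : Matrix (Fin n) (Fin M) ℤ) (f0 : Fin n → Fin M)
    (z : Fin n → ℤ) (w : Fin M → ℤ) (h : (E.submatrix id f0).mulVec z = E.mulVec w) (i : Fin n) :
    (E.submatrix id f0).det * z i =
      ∑ j, w j * (E.submatrix id (Function.update f0 i j)).det := by
  have h1 : (E.submatrix id f0).det • z = Matrix.cramer (E.submatrix id f0) (E.mulVec w) := by
    rw [← h, Matrix.cramer_eq_adjugate_mulVec, Matrix.mulVec_mulVec, Matrix.adjugate_mul,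
      Matrix.smul_mulVec, Matrix.one_mulVec]
  have h2 : E.mulVec w = ∑ j, w j • (fun k => E k j) := by
    ext k
    simp [Matrix.mulVec, dotProduct, mul_comm]
  have h3 := congrFun h1 i
  rw [h2, map_sum] at h3
  simp only [Pi.smul_apply, smul_eq_mul, map_smul, Finset.sum_apply] at h3
  rw [h3]
  refine Finset.sum_congr rfl fun j _ => ?_
  congr 1
  rw [Matrix.cramer_apply]
  congr 1
  ext a b
  by_cases hb : b = i
  · subst hb; simp
  · simp [hb]

/-- **Siegel's lemma, integer form with the largest minor.**  If the minor of `E` on the columns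
`f0` is nonzero and of largest absolute value `D` among all maximal minors, the kernel of `E`
contains a nonzero integer vector with `‖x‖_∞ ^ (M - n) ≤ (M - n) ^ (M - n) * D`. -/
theorem h7_siegel_int {n M : ℕ} (hnM : n < M) (E : Matrix (Fin n) (Fin M) ℤ)
    (f0 : Fin n → Fin M) (hD : (E.submatrix id f0).det ≠ 0)
    (hmax : ∀ f : Fin n → Fin M, |(E.submatrix id f).det| ≤ |(E.submatrix id f0).det|) :
    ∃ x : Fin M → ℤ, x ≠ 0 ∧ E.mulVec x = 0 ∧
      ∀ j, |x j| ^ (M - n) ≤ ((M - n : ℕ) : ℤ) ^ (M - n) * |(E.submatrix id f0).det| := by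
  classical
  set A := E.submatrix id f0 with hA
  set s := M - n with hs
  have hs0 : 0 < s := by omega
  have hf0 : Function.Injective f0 := by
    intro i i' h
    by_contra hne
    apply hD
    exact Matrix.det_zero_of_column_eq hne (fun k => by simp [hA, Matrix.submatrix_apply, h])
  obtain ⟨T, hT1, hT2⟩ := h7_exists_root s A.det.natAbs hs0
  -- the box on the free coordinates
  let I : Finset (Fin M) := Finset.image f0 Finset.univ
  have hIcard : I.card = n := by
    rw [Finset.card_image_of_injective _ hf0]; simp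
  have hImem : ∀ j, j ∈ I ↔ ∃ i, f0 i = j := by
    intro j; simp [I]
  let S : Finset (Fin M → ℤ) :=
    Fintype.piFinset (fun j => if j ∈ I then ({0} : Finset ℤ) else Finset.Icc (0:ℤ) T)
  have hScard : S.card = (T + 1) ^ s := by
    rw [Fintype.card_piFinset]
    have : ∀ j : Fin M, (if j ∈ I then ({0} : Finset ℤ) else Finset.Icc (0:ℤ) T).card =
        if j ∈ I then 1 else T + 1 := by
      intro j; split_ifs <;> simp
    simp_rw [this]
    rw [Finset.prod_ite, Finset.prod_const_one, one_mul, Finset.prod_const]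
    congr 1
    rw [Finset.filter_not, Finset.filter_mem_eq_inter, Finset.univ_inter, ← Finset.compl_eq_univ_sdiff,
      Finset.card_compl, hIcard]
    simp [hs]
  have hSmem : ∀ y, y ∈ S ↔ (∀ j, j ∈ I → y j = 0) ∧ (∀ j, j ∉ I → 0 ≤ y j ∧ y j ≤ T) := by
    intro y
    simp only [S, Fintype.mem_piFinset]
    constructor
    · intro h
      refine ⟨fun j hj => ?_, fun j hj => ?_⟩
      · have := h j; rw [if_pos hj] at this; simpa using this
      · have := h j; rw [if_neg hj] at this; simpa using this
    · rintro ⟨h1, h2⟩ j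
      by_cases hj : j ∈ I
      · rw [if_pos hj]; simpa using h1 j hj
      · rw [if_neg hj]; simpa using h2 j hj
  -- the quotient
  have hcardQ := h7_card_quot A hD
  have : Finite ((Fin n → ℤ) ⧸ LinearMap.range A.mulVecLin) := by
    apply Nat.finite_of_card_ne_zero
    rw [hcardQ]
    exact Int.natAbs_ne_zero.mpr hD
  let _ : Fintype ((Fin n → ℤ) ⧸ LinearMap.range A.mulVecLin) := Fintype.ofFinite _
  have hlt : (Finset.univ : Finset ((Fin n → ℤ) ⧸ LinearMap.range A.mulVecLin)).card < S.card := by
    rw [Finset.card_univ, ← Nat.card_eq_fintype_card, hcardQ, hScard]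
    exact hT2
  obtain ⟨y, hy, y', hy', hne, heq⟩ := Finset.exists_ne_map_eq_of_card_lt_of_maps_to hlt
    (f := fun y : Fin M → ℤ => (Submodule.Quotient.mk (E.mulVec y) :
      (Fin n → ℤ) ⧸ LinearMap.range A.mulVecLin)) (fun a _ => Finset.mem_univ _)
  rw [Submodule.Quotient.eq] at heq
  obtain ⟨z, hz⟩ := heq
  set w : Fin M → ℤ := y - y' with hw
  have hzw : A.mulVec z = E.mulVec w := by
    rw [hw, Matrix.mulVec_sub]; exact hz
  let v : Fin M → ℤ := fun j => ∑ i, if f0 i = j then z i else 0
  have hEv : E.mulVec v = A.mulVec z := by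
    ext k
    simp only [Matrix.mulVec, dotProduct, v, hA, Matrix.submatrix_apply, id]
    simp_rw [Finset.mul_sum]
    rw [Finset.sum_comm]
    refine Finset.sum_congr rfl fun i _ => ?_
    simp [mul_ite]
  rw [hSmem] at hy hy'
  have hwI : ∀ j, j ∈ I → w j = 0 := by
    intro j hj; simp [hw, hy.1 j hj, hy'.1 j hj]
  have hwT : ∀ j, |w j| ≤ T := by
    intro j
    by_cases hj : j ∈ I
    · rw [hwI j hj]; simp
    · have h1 := hy.2 j hj; have h2 := hy'.2 j hj
      simp only [hw, Pi.sub_apply]
      rw [abs_le]; constructor <;> linarith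
  have hvI : ∀ j, j ∉ I → v j = 0 := by
    intro j hj
    simp only [v]
    apply Finset.sum_eq_zero
    intro i _
    rw [if_neg]
    intro h
    exact hj ((hImem j).mpr ⟨i, h⟩)
  have hvf : ∀ i, v (f0 i) = z i := by
    intro i
    simp only [v]
    rw [Finset.sum_eq_single i]
    · simp
    · intro i' _ hne'
      rw [if_neg]
      intro h
      exact hne' (hf0 h)
    · simp
  -- bound on z
  have hsumw : ∑ j, |w j| ≤ (s : ℤ) * T := by
    calc ∑ j, |w j| = ∑ j ∈ Iᶜ, |w j| := by
          symm
          apply Finset.sum_subset (Finset.subset_univ _)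
          intro j _ hj
          rw [Finset.mem_compl, not_not] at hj
          rw [hwI j hj]; simp
      _ ≤ ∑ _j ∈ Iᶜ, (T : ℤ) := Finset.sum_le_sum fun j _ => hwT j
      _ = (s : ℤ) * T := by
          rw [Finset.sum_const, Finset.card_compl, hIcard]
          simp [hs]
  have hz_le : ∀ i, |z i| ≤ (s : ℤ) * T := by
    intro i
    have hc := h7_cramer_minor E f0 z w hzw i
    have hDpos : 0 < |A.det| := abs_pos.mpr hD
    have h1 : |A.det| * |z i| ≤ |A.det| * ∑ j, |w j| := by
      rw [← abs_mul, hc]
      calc |∑ j, w j * (E.submatrix id (Function.update f0 i j)).det|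
          ≤ ∑ j, |w j * (E.submatrix id (Function.update f0 i j)).det| :=
            Finset.abs_sum_le_sum_abs _ _
        _ ≤ ∑ j, |w j| * |A.det| := by
            refine Finset.sum_le_sum fun j _ => ?_
            rw [abs_mul]
            exact mul_le_mul_of_nonneg_left (hmax _) (abs_nonneg _)
        _ = |A.det| * ∑ j, |w j| := by
            rw [Finset.mul_sum]
            exact Finset.sum_congr rfl fun j _ => mul_comm _ _
    exact (le_of_mul_le_mul_left h1 hDpos).trans hsumw
  refine ⟨w - v, ?_, ?_, ?_⟩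
  · -- nonzero
    intro h0
    apply hne
    funext j
    by_cases hj : j ∈ I
    · rw [hy.1 j hj, hy'.1 j hj]
    · have := congrFun h0 j
      simp only [Pi.sub_apply, Pi.zero_apply, hvI j hj, sub_zero, hw] at this
      linarith
  · rw [Matrix.mulVec_sub, hEv, hzw, sub_self]
  · intro j
    have hxj : |(w - v) j| ≤ (s : ℤ) * T := by
      by_cases hj : j ∈ I
      · obtain ⟨i, rfl⟩ := (hImem j).mp hj
        simp only [Pi.sub_apply, hwI _ hj, hvf, zero_sub, abs_neg]
        exact hz_le i
      · simp only [Pi.sub_apply, hvI j hj, sub_zero]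
        calc |w j| ≤ (T : ℤ) := hwT j
          _ ≤ (s : ℤ) * T := by
            have : (1 : ℤ) ≤ s := by exact_mod_cast hs0
            nlinarith [Int.natCast_nonneg T]
    calc |(w - v) j| ^ s ≤ ((s : ℤ) * T) ^ s := pow_le_pow_left₀ (abs_nonneg _) hxj s
      _ = (s : ℤ) ^ s * (T : ℤ) ^ s := mul_pow _ _ _
      _ ≤ (s : ℤ) ^ s * |A.det| := by
          apply mul_le_mul_of_nonneg_left _ (by positivity)
          have : ((T ^ s : ℕ) : ℤ) ≤ (A.det.natAbs : ℤ) := by exact_mod_cast hT1
          rw [Int.natCast_natAbs] at this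
          simpa using this

/-- One step of the reduction to a primitive matrix: if a prime divides all maximal minors, one
row can be replaced by an integer combination divided by `p`. -/
theorem h7_prim_step {n M : ℕ} (E : Matrix (Fin n) (Fin M) ℤ) (p : ℕ) (hp : p.Prime)
    (hdvd : ∀ f : Fin n → Fin M, (p : ℤ) ∣ (E.submatrix id f).det) :
    ∃ E2 : Matrix (Fin n) (Fin M) ℤ,
      (∀ f : Fin n → Fin M, (p : ℤ) * (E2.submatrix id f).det = (E.submatrix id f).det) ∧
      (∀ x : Fin M → ℤ, E2.mulVec x = 0 → E.mulVec x = 0) := by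
  classical
  have : Fact p.Prime := ⟨hp⟩
  set Eb : Matrix (Fin n) (Fin M) (ZMod p) := E.map (Int.castRingHom (ZMod p)) with hEb
  have hminor : ∀ f : Fin n → Fin M, (Eb.submatrix id f).det = 0 := by
    intro f
    have : Eb.submatrix id f = (E.submatrix id f).map (Int.castRingHom (ZMod p)) := by
      ext a b; simp [hEb]
    rw [this, ← RingHom.mapMatrix_apply, ← RingHom.map_det]
    simpa using (ZMod.intCast_zmod_eq_zero_iff_dvd _ p).mpr (hdvd f)
  obtain ⟨c, hc, hc0⟩ : ∃ c : Fin n → ZMod p, c ᵥ* Eb = 0 ∧ c ≠ 0 := by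
    by_contra hcon
    push Not at hcon
    obtain ⟨f, hf⟩ := h7_exists_minor_ne_zero Eb hcon
    exact hf (hminor f)
  obtain ⟨i0, hi0⟩ : ∃ i0, c i0 ≠ 0 := by
    by_contra hcon
    push Not at hcon
    exact hc0 (funext hcon)
  -- integer lift of the normalised relation
  let ct : Fin n → ℤ := fun k => if k = i0 then 1 else (((c i0)⁻¹ * c k).val : ℤ)
  have hct : ∀ k, ((ct k : ℤ) : ZMod p) = (c i0)⁻¹ * c k := by
    intro k
    by_cases hk : k = i0
    · subst hk; simp [ct, inv_mul_cancel₀ hi0]
    · simp [ct, hk]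
  have hct0 : ct i0 = 1 := by simp [ct]
  have hdiv : ∀ j, (p : ℤ) ∣ ∑ k, ct k * E k j := by
    intro j
    rw [← ZMod.intCast_zmod_eq_zero_iff_dvd]
    push_cast
    simp_rw [hct]
    have := congrFun hc j
    simp only [Matrix.vecMul, dotProduct, hEb, Matrix.map_apply, Int.coe_castRingHom,
      Pi.zero_apply] at this
    calc ∑ k, (c i0)⁻¹ * c k * (E k j : ZMod p)
        = (c i0)⁻¹ * ∑ k, c k * (E k j : ZMod p) := by
          rw [Finset.mul_sum]; exact Finset.sum_congr rfl fun k _ => by ring
      _ = 0 := by rw [this, mul_zero]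
  choose w hw using hdiv
  refine ⟨E.updateRow i0 w, ?_, ?_⟩
  · intro f
    have h1 : (E.updateRow i0 w).submatrix id f = (E.submatrix id f).updateRow i0 (w ∘ f) := by
      ext a b
      by_cases ha : a = i0
      · subst ha; simp
      · simp [Matrix.updateRow_apply, ha]
    have h2 : (p : ℤ) • (w ∘ f) = ∑ k, ct k • (E.submatrix id f) k := by
      ext b
      simp only [Pi.smul_apply, Function.comp_apply, smul_eq_mul, Finset.sum_apply,
        Matrix.submatrix_apply, id]
      rw [← hw (f b)]
    rw [h1, ← Matrix.det_updateRow_smul, h2, Matrix.det_updateRow_sum, hct0, one_smul]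
  · intro x hx
    have hrow : ∀ k, k ≠ i0 → (E.mulVec x) k = 0 := by
      intro k hk
      have := congrFun hx k
      simpa [Matrix.mulVec, Matrix.updateRow_apply, hk] using this
    have hw0 : ∑ j, w j * x j = 0 := by
      have := congrFun hx i0
      simpa [Matrix.mulVec, dotProduct] using this
    have hsum : ∑ k, ct k * (E.mulVec x) k = 0 := by
      calc ∑ k, ct k * (E.mulVec x) k = ∑ j, (∑ k, ct k * E k j) * x j := by
            simp only [Matrix.mulVec, dotProduct, Finset.mul_sum, Finset.sum_mul]
            rw [Finset.sum_comm]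
            exact Finset.sum_congr rfl fun j _ => Finset.sum_congr rfl fun k _ => by ring
        _ = ∑ j, (p : ℤ) * (w j * x j) := by
            refine Finset.sum_congr rfl fun j _ => ?_
            rw [hw j]; ring
        _ = 0 := by rw [← Finset.mul_sum, hw0, mul_zero]
    funext k
    by_cases hk : k = i0
    · subst hk
      rw [Finset.sum_eq_single k] at hsum
      · simpa [hct0] using hsum
      · intro b _ hb; rw [hrow b hb, mul_zero]
      · simp
    · exact hrow k hk

/-- Reduction to a primitive integer matrix: same kernel, proportional minors, coprime minors. -/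
theorem h7_exists_primitive {n M : ℕ} (E : Matrix (Fin n) (Fin M) ℤ)
    (hE : ∃ f : Fin n → Fin M, (E.submatrix id f).det ≠ 0) :
    ∃ (E' : Matrix (Fin n) (Fin M) ℤ) (m : ℤ), m ≠ 0 ∧
      (∀ f : Fin n → Fin M, m * (E'.submatrix id f).det = (E.submatrix id f).det) ∧
      (∀ x : Fin M → ℤ, E'.mulVec x = 0 → E.mulVec x = 0) ∧
      (Finset.univ.gcd fun f : Fin n → Fin M => (E'.submatrix id f).det) = 1 := by
  classical
  induction hN : (Finset.univ.gcd fun f : Fin n → Fin M => (E.submatrix id f).det).natAbs
    using Nat.strong_induction_on generalizing E with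
  | _ N ih =>
    set g := Finset.univ.gcd fun f : Fin n → Fin M => (E.submatrix id f).det with hg
    have hg0 : g ≠ 0 := by
      intro h0
      rw [hg, Finset.gcd_eq_zero_iff] at h0
      obtain ⟨f, hf⟩ := hE
      exact hf (h0 f (Finset.mem_univ _))
    have hgnn : 0 ≤ g := by
      have := Finset.normalize_gcd (s := Finset.univ)
        (f := fun f : Fin n → Fin M => (E.submatrix id f).det)
      rw [← hg] at this
      rw [← this, ← Int.abs_eq_normalize]
      exact abs_nonneg _
    by_cases h1 : g = 1
    · exact ⟨E, 1, one_ne_zero, fun f => one_mul _, fun x hx => hx, h1⟩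
    · have hNne : g.natAbs ≠ 1 := by
        intro h
        apply h1
        have := Int.natAbs_of_nonneg hgnn
        omega
      obtain ⟨p, hp, hpd⟩ := Nat.exists_prime_and_dvd hNne
      have hpg : (p : ℤ) ∣ g := Int.natCast_dvd.mpr hpd
      have hdvd : ∀ f : Fin n → Fin M, (p : ℤ) ∣ (E.submatrix id f).det := fun f =>
        hpg.trans (Finset.gcd_dvd (Finset.mem_univ f))
      obtain ⟨E2, hE2, hker2⟩ := h7_prim_step E p hp hdvd
      have hE2ne : ∃ f : Fin n → Fin M, (E2.submatrix id f).det ≠ 0 := by
        obtain ⟨f, hf⟩ := hE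
        refine ⟨f, fun h0 => hf ?_⟩
        rw [← hE2 f, h0, mul_zero]
      have hgg : g = (p : ℤ) * Finset.univ.gcd fun f : Fin n → Fin M => (E2.submatrix id f).det := by
        rw [hg]
        have : (fun f : Fin n → Fin M => (E.submatrix id f).det) =
            fun f => (p : ℤ) * (E2.submatrix id f).det := funext fun f => (hE2 f).symm
        rw [this, Finset.gcd_mul_left, Int.normalize_of_nonneg (Int.natCast_nonneg p)]
      have hlt : (Finset.univ.gcd fun f : Fin n → Fin M => (E2.submatrix id f).det).natAbs < N := by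
        rw [← hN, hgg, Int.natAbs_mul, Int.natAbs_natCast]
        have hpos : 0 < (Finset.univ.gcd fun f : Fin n → Fin M => (E2.submatrix id f).det).natAbs := by
          rw [Int.natAbs_pos]
          intro h0
          rw [h0, mul_zero] at hgg
          exact hg0 hgg
        have := hp.two_le
        nlinarith
      obtain ⟨E', m', hm', hmin', hker', hgcd'⟩ := ih _ hlt E2 hE2ne rfl
      refine ⟨E', p * m', mul_ne_zero (by exact_mod_cast hp.ne_zero) hm', fun f => ?_,
        fun x hx => hker2 x (hker' x hx), hgcd'⟩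
      rw [mul_assoc, hmin' f, hE2 f]

/-- Clearing the denominators of a rational matrix. -/
theorem h7_clear_den {n M : ℕ} (E : Matrix (Fin n) (Fin M) ℚ) :
    ∃ (d : ℤ) (E1 : Matrix (Fin n) (Fin M) ℤ), d ≠ 0 ∧ ∀ i j, (E1 i j : ℚ) = d * E i j := by
  obtain ⟨b, hb⟩ := IsLocalization.exist_integer_multiples_of_finite (nonZeroDivisors ℤ)
    (fun ij : Fin n × Fin M => E ij.1 ij.2)
  choose z hz using hb
  refine ⟨b, fun i j => z (i, j), nonZeroDivisors.coe_ne_zero b, fun i j => ?_⟩
  have := hz (i, j)
  simpa [Algebra.smul_def] using this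

/-- **Siegel's lemma in Plücker form over `ℚ`.**  A rational `n × M` matrix of rank `n < M` has a
nonzero integer vector `x` in its kernel with
`‖x‖_∞ ^ (M - n) ≤ (M - n) ^ (M - n) * H`, `H` the multiplicative height of the vector of
maximal minors (indexed by all column selections `f : Fin n → Fin M`). -/
theorem h7_siegel_rat {n M : ℕ} (hnM : n < M) (E : Matrix (Fin n) (Fin M) ℚ)
    (hE : ∃ f : Fin n → Fin M, (E.submatrix id f).det ≠ 0) :
    ∃ x : Fin M → ℤ, x ≠ 0 ∧ E.mulVec (fun j => (x j : ℚ)) = 0 ∧
      ∀ j, (|x j| : ℝ) ^ (M - n) ≤ ((M - n : ℕ) : ℝ) ^ (M - n) *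
        Height.mulHeight (fun f : Fin n → Fin M => (E.submatrix id f).det) := by
  classical
  obtain ⟨d, E1, hd, hE1⟩ := h7_clear_den E
  have hdQ : (d : ℚ) ≠ 0 := by exact_mod_cast hd
  have hmap : E1.map (Int.castRingHom ℚ) = (d : ℚ) • E := by
    ext i j; simp [hE1]
  have hminor1 : ∀ f : Fin n → Fin M,
      (((E1.submatrix id f).det : ℤ) : ℚ) = (d : ℚ) ^ n * (E.submatrix id f).det := by
    intro f
    have : (E1.submatrix id f).map (Int.castRingHom ℚ) = (d : ℚ) • (E.submatrix id f) := by
      ext a b; simp [hE1]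
    have h2 := RingHom.map_det (Int.castRingHom ℚ) (E1.submatrix id f)
    rw [RingHom.mapMatrix_apply, this, Matrix.det_smul] at h2
    simpa using h2
  have hE1ne : ∃ f : Fin n → Fin M, (E1.submatrix id f).det ≠ 0 := by
    obtain ⟨f, hf⟩ := hE
    refine ⟨f, fun h0 => ?_⟩
    have := hminor1 f
    rw [h0, Int.cast_zero] at this
    exact (mul_ne_zero (pow_ne_zero n hdQ) hf) this.symm
  obtain ⟨E', m, hm, hmin, hker, hgcd⟩ := h7_exists_primitive E1 hE1ne
  have hmQ : (m : ℚ) ≠ 0 := by exact_mod_cast hm
  have : Nonempty (Fin n → Fin M) := ⟨fun _ => ⟨0, by omega⟩⟩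
  have hheight : Height.mulHeight (fun f : Fin n → Fin M => (E.submatrix id f).det) =
      ((⨆ f : Fin n → Fin M, |(E'.submatrix id f).det| : ℤ) : ℝ) := by
    rw [← Rat.mulHeight_eq_max_abs_of_gcd_eq_one hgcd]
    have : (fun f : Fin n → Fin M => (E.submatrix id f).det) =
        ((m : ℚ) / (d : ℚ) ^ n) •
          (((↑) : ℤ → ℚ) ∘ fun f : Fin n → Fin M => (E'.submatrix id f).det) := by
      funext f
      simp only [Pi.smul_apply, Function.comp_apply, smul_eq_mul]
      have h1 := hminor1 f
      rw [← hmin f, Int.cast_mul] at h1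
      rw [div_mul_eq_mul_div, h1, mul_div_cancel_left₀ _ (pow_ne_zero n hdQ)]
    rw [this, Height.mulHeight_smul_eq_mulHeight _ (div_ne_zero hmQ (pow_ne_zero n hdQ))]
  obtain ⟨f0, hf0⟩ := exists_eq_ciSup_of_finite
    (f := fun f : Fin n → Fin M => |(E'.submatrix id f).det|)
  have hmax : ∀ f : Fin n → Fin M, |(E'.submatrix id f).det| ≤ |(E'.submatrix id f0).det| := by
    intro f
    rw [hf0]
    exact le_ciSup (f := fun f : Fin n → Fin M => |(E'.submatrix id f).det|)
      (Finite.bddAbove_range _) f
  have hD : (E'.submatrix id f0).det ≠ 0 := by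
    intro h0
    have hall : ∀ f : Fin n → Fin M, (E'.submatrix id f).det = 0 := fun f => by
      have := hmax f
      rw [h0, abs_zero] at this
      exact abs_nonpos_iff.mp this
    rw [Finset.gcd_eq_zero_iff.mpr (fun f _ => hall f)] at hgcd
    exact zero_ne_one hgcd
  obtain ⟨x, hx0, hxker, hxb⟩ := h7_siegel_int hnM E' f0 hD hmax
  refine ⟨x, hx0, ?_, fun j => ?_⟩
  · have h1 := hker x hxker
    have h2 : (E1.map (Int.castRingHom ℚ)).mulVec (fun j => (x j : ℚ)) = 0 := by
      ext i
      have := congrFun h1 i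
      simp only [Matrix.mulVec, dotProduct, Matrix.map_apply, Pi.zero_apply,
        Int.coe_castRingHom] at this ⊢
      exact_mod_cast congrArg (Int.cast : ℤ → ℚ) this
    rw [hmap, Matrix.smul_mulVec] at h2
    exact (smul_eq_zero.mp h2).resolve_left hdQ
  · rw [hheight, ← hf0]
    exact_mod_cast hxb j

/-- Heights do not see zero entries, repetitions and signs. -/
theorem h7_mulHeight_eq_of_signed {K : Type*} [Field K] [Height.AdmissibleAbsValues K]
    {ι ι' : Type*} [Finite ι] [Finite ι'] (x : ι → K) (y : ι' → K)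
    (h1 : ∀ i, x i = 0 ∨ ∃ j, x i = y j ∨ x i = -y j)
    (h2 : ∀ j, y j = 0 ∨ ∃ i, y j = x i ∨ y j = -x i) :
    Height.mulHeight x = Height.mulHeight y := by
  by_cases hx : x = 0
  · have hy : y = 0 := by
      funext j
      rcases h2 j with h | ⟨i, h | h⟩
      · exact h
      · rw [h, hx]; rfl
      · rw [h, hx]; simp
    rw [hx, hy, Height.mulHeight_zero, Height.mulHeight_zero]
  · have hy : y ≠ 0 := by
      intro hy
      apply hx
      funext i
      rcases h1 i with h | ⟨j, h | h⟩
      · exact h
      · rw [h, hy]; rfl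
      · rw [h, hy]; simp
    have hne : Nonempty ι := by
      by_contra hemp
      rw [not_nonempty_iff] at hemp
      exact hx (funext fun i => hemp.elim i)
    have hne' : Nonempty ι' := by
      by_contra hemp
      rw [not_nonempty_iff] at hemp
      exact hy (funext fun i => hemp.elim i)
    have key : ∀ v : AbsoluteValue K ℝ, ⨆ i, v (x i) = ⨆ j, v (y j) := by
      intro v
      apply le_antisymm
      · apply ciSup_le
        intro i
        rcases h1 i with h | ⟨j, h | h⟩
        · rw [h, map_zero]
          exact le_ciSup_of_le (Finite.bddAbove_range _) (Classical.arbitrary ι') (v.nonneg _)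
        · rw [h]; exact le_ciSup (f := fun j => v (y j)) (Finite.bddAbove_range _) j
        · rw [h, v.map_neg]; exact le_ciSup (f := fun j => v (y j)) (Finite.bddAbove_range _) j
      · apply ciSup_le
        intro j
        rcases h2 j with h | ⟨i, h | h⟩
        · rw [h, map_zero]
          exact le_ciSup_of_le (Finite.bddAbove_range _) (Classical.arbitrary ι) (v.nonneg _)
        · rw [h]; exact le_ciSup (f := fun i => v (x i)) (Finite.bddAbove_range _) i
        · rw [h, v.map_neg]; exact le_ciSup (f := fun i => v (x i)) (Finite.bddAbove_range _) i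
    rw [Height.mulHeight_eq hx, Height.mulHeight_eq hy]
    simp_rw [key]

/-- A maximal minor on an arbitrary column selection is zero or, up to sign, the minor on an
increasing column selection. -/
theorem h7_minor_sorted {R : Type*} [CommRing R] {n M : ℕ} (E : Matrix (Fin n) (Fin M) R)
    (f : Fin n → Fin M) :
    (E.submatrix id f).det = 0 ∨ ∃ g : Fin n ↪o Fin M,
      (E.submatrix id f).det = (E.submatrix id g).det ∨
        (E.submatrix id f).det = -(E.submatrix id g).det := by
  classical
  by_cases hf : Function.Injective f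
  · right
    set s : Finset (Fin M) := Finset.image f Finset.univ with hs
    have hcard : s.card = n := by
      rw [hs, Finset.card_image_of_injective _ hf]; simp
    have hmem : ∀ i, f i ∈ s := fun i => Finset.mem_image_of_mem f (Finset.mem_univ i)
    let τ : Fin n → Fin n := fun i => (s.orderIsoOfFin hcard).symm ⟨f i, hmem i⟩
    have hτ : ∀ i, s.orderEmbOfFin hcard (τ i) = f i := by
      intro i
      rw [← Finset.coe_orderIsoOfFin_apply]
      simp [τ]
    have hτinj : Function.Injective τ := by
      intro i i' h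
      apply hf
      rw [← hτ i, ← hτ i', h]
    let σ : Equiv.Perm (Fin n) := Equiv.ofBijective τ (Finite.injective_iff_bijective.mp hτinj)
    refine ⟨s.orderEmbOfFin hcard, ?_⟩
    have hsub : E.submatrix id f = (E.submatrix id (s.orderEmbOfFin hcard)).submatrix id σ := by
      ext a b
      simp only [Matrix.submatrix_apply, id]
      rw [show σ b = τ b from rfl, hτ b]
    rw [hsub, Matrix.det_permute']
    rcases Int.units_eq_one_or (Equiv.Perm.sign σ) with h | h
    · left; rw [h]; simp
    · right; rw [h]; simp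
  · left
    rw [Function.Injective] at hf
    push Not at hf
    obtain ⟨i, i', h, hne⟩ := hf
    exact Matrix.det_zero_of_column_eq hne (fun k => by simp [Matrix.submatrix_apply, h])

/-- The height of the vector of all maximal minors can be computed on increasing column
selections only. -/
theorem h7_mulHeight_minors_sorted {K : Type*} [Field K] [Height.AdmissibleAbsValues K]
    {n M : ℕ} (E : Matrix (Fin n) (Fin M) K) :
    Height.mulHeight (fun f : Fin n → Fin M => (E.submatrix id f).det) =
      Height.mulHeight (fun g : Fin n ↪o Fin M => (E.submatrix id g).det) := by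
  have : Finite (Fin n ↪o Fin M) :=
    Finite.of_injective (fun g : Fin n ↪o Fin M => (g : Fin n → Fin M)) DFunLike.coe_injective
  apply h7_mulHeight_eq_of_signed
  · intro f
    exact h7_minor_sorted E f
  · intro g
    exact Or.inr ⟨g, Or.inl rfl⟩

/-- The multiplicative height of a nonzero integer vector is at most its sup norm. -/
theorem h7_mulHeight_intCast_le {ι : Type*} [Fintype ι] [Nonempty ι] (x : ι → ℤ) (hx : x ≠ 0)
    (B : ℝ) (hB : ∀ i, (|x i| : ℝ) ≤ B) :
    Height.mulHeight (fun i => (x i : ℚ)) ≤ B := by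
  classical
  obtain ⟨g', hg', hgcd⟩ := Finset.extract_gcd x (Finset.univ_nonempty (α := ι))
  set g := Finset.univ.gcd x with hg
  have hg0 : g ≠ 0 := by
    intro h0
    rw [hg, Finset.gcd_eq_zero_iff] at h0
    exact hx (funext fun i => h0 i (Finset.mem_univ i))
  have hfun : (fun i => (x i : ℚ)) = (g : ℚ) • (((↑) : ℤ → ℚ) ∘ g') := by
    funext i
    simp only [Pi.smul_apply, Function.comp_apply, smul_eq_mul]
    rw [hg' i (Finset.mem_univ i)]
    push_cast
    rfl
  rw [hfun, Height.mulHeight_smul_eq_mulHeight _ (by exact_mod_cast hg0),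
    Rat.mulHeight_eq_max_abs_of_gcd_eq_one hgcd]
  obtain ⟨i0, hi0⟩ := exists_eq_ciSup_of_finite (f := fun i : ι => |g' i|)
  rw [← hi0]
  refine le_trans ?_ (hB i0)
  have h1 : |g' i0| ≤ |x i0| := by
    rw [hg' i0 (Finset.mem_univ i0), abs_mul]
    have : 1 ≤ |g| := Int.one_le_abs hg0
    nlinarith [abs_nonneg (g' i0)]
  exact_mod_cast h1

/-- Logarithmic form of `h7_siegel_rat`. -/
theorem h7_siegel_rat_log {n M : ℕ} (hnM : n < M) (E : Matrix (Fin n) (Fin M) ℚ)
    (hE : ∃ f : Fin n → Fin M, (E.submatrix id f).det ≠ 0) :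
    ∃ x : Fin M → ℤ, x ≠ 0 ∧ E.mulVec (fun j => (x j : ℚ)) = 0 ∧
      ((M - n : ℕ) : ℝ) * Height.logHeight (fun j => (x j : ℚ)) ≤
        ((M - n : ℕ) : ℝ) * Real.log ((M - n : ℕ) : ℝ) +
          Height.logHeight (fun f : Fin n → Fin M => (E.submatrix id f).det) := by
  obtain ⟨x, hx0, hker, hb⟩ := h7_siegel_rat hnM E hE
  refine ⟨x, hx0, hker, ?_⟩
  have : Nonempty (Fin M) := ⟨⟨0, by omega⟩⟩
  set s := M - n with hs
  have hs0 : 0 < s := by omega
  set H := Height.mulHeight (fun f : Fin n → Fin M => (E.submatrix id f).det) with hH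
  have hHpos : 0 < H := Height.mulHeight_pos _
  obtain ⟨j0, hj0⟩ := exists_eq_ciSup_of_finite (f := fun j : Fin M => |x j|)
  have hle : Height.mulHeight (fun j => (x j : ℚ)) ≤ ((|x j0| : ℤ) : ℝ) := by
    apply h7_mulHeight_intCast_le x hx0
    intro i
    have : |x i| ≤ |x j0| := by
      rw [hj0]
      exact le_ciSup (f := fun j : Fin M => |x j|) (Finite.bddAbove_range _) i
    exact_mod_cast this
  have hpow : Height.mulHeight (fun j => (x j : ℚ)) ^ s ≤ (s : ℝ) ^ s * H := by
    calc Height.mulHeight (fun j => (x j : ℚ)) ^ s ≤ (((|x j0| : ℤ) : ℝ)) ^ s :=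
          pow_le_pow_left₀ (Height.mulHeight_pos _).le hle s
      _ ≤ (s : ℝ) ^ s * H := by
          have := hb j0
          simpa using this
  have hlog := Real.log_le_log (pow_pos (Height.mulHeight_pos (fun j => (x j : ℚ))) s) hpow
  have hspos : (0 : ℝ) < (s : ℝ) := by exact_mod_cast hs0
  rw [Real.log_pow, Real.log_mul (pow_pos hspos s).ne' hHpos.ne', Real.log_pow] at hlog
  exact hlog

/-- **Siegel's lemma in Plücker form, coefficients in a field of characteristic zero.**  The
matrix `E` (e.g. over `ℚ̄`) is only assumed to have RATIONAL minor ratios `r f`; the bound is in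
terms of the height over `ℚ` of `r`. -/
theorem h7_siegel_field {K : Type*} [Field K] [CharZero K] {n M : ℕ} (hnM : n < M)
    (E : Matrix (Fin n) (Fin M) K) (f0 : Fin n → Fin M) (h0 : (E.submatrix id f0).det ≠ 0)
    (r : (Fin n → Fin M) → ℚ)
    (hr : ∀ f : Fin n → Fin M, (E.submatrix id f).det = (r f : K) * (E.submatrix id f0).det) :
    ∃ x : Fin M → ℤ, x ≠ 0 ∧ E.mulVec (fun j => ((x j : ℤ) : K)) = 0 ∧
      ∀ j, (|x j| : ℝ) ^ (M - n) ≤ ((M - n : ℕ) : ℝ) ^ (M - n) * Height.mulHeight r := by
  classical
  set A := E.submatrix id f0 with hA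
  let E0 : Matrix (Fin n) (Fin M) ℚ := fun i j => r (Function.update f0 i j)
  have hcol : ∀ j, A.mulVec (fun i => (r (Function.update f0 i j) : K)) = fun k => E k j := by
    intro j
    have h1 := Matrix.mulVec_cramer A (fun k => E k j)
    have h2 : Matrix.cramer A (fun k => E k j) =
        A.det • (fun i => (r (Function.update f0 i j) : K)) := by
      funext i
      rw [Matrix.cramer_apply]
      have : A.updateCol i (fun k => E k j) = E.submatrix id (Function.update f0 i j) := by
        ext a b
        by_cases hb : b = i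
        · subst hb; simp [hA]
        · simp [hA, hb]
      rw [this, hr, Pi.smul_apply, smul_eq_mul, mul_comm]
    rw [h2, Matrix.mulVec_smul] at h1
    exact smul_right_injective _ h0 h1
  have hprod : ∀ k j, ∑ i, A k i * ((E0 i j : ℚ) : K) = E k j := by
    intro k j
    have := congrFun (hcol j) k
    simpa [Matrix.mulVec, dotProduct, E0] using this
  have hminor : ∀ f : Fin n → Fin M, (E0.submatrix id f).det = r f := by
    intro f
    have h1 : E.submatrix id f = A * (E0.submatrix id f).map (Rat.castHom K) := by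
      ext a b
      simp only [Matrix.submatrix_apply, id, Matrix.mul_apply, Matrix.map_apply, Rat.coe_castHom]
      exact (hprod a (f b)).symm
    have h2 := hr f
    rw [h1, Matrix.det_mul, ← RingHom.mapMatrix_apply, ← RingHom.map_det] at h2
    have h3 : (Rat.castHom K) (E0.submatrix id f).det = (r f : K) := by
      apply mul_left_cancel₀ h0
      rw [h2, mul_comm]
    exact (Rat.castHom K).injective h3
  have hr0 : r f0 = 1 := by
    have h1 := hr f0
    have h2 : ((r f0 : ℚ) : K) = 1 := by
      apply mul_right_cancel₀ h0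
      rw [← h1, one_mul]
    exact_mod_cast h2
  have hE0 : ∃ f : Fin n → Fin M, (E0.submatrix id f).det ≠ 0 :=
    ⟨f0, by rw [hminor, hr0]; exact one_ne_zero⟩
  obtain ⟨x, hx0, hker, hb⟩ := h7_siegel_rat hnM E0 hE0
  refine ⟨x, hx0, ?_, fun j => ?_⟩
  · funext k
    have hk : ∀ i, ∑ j, ((E0 i j : ℚ) : K) * ((x j : ℤ) : K) = 0 := by
      intro i
      have := congrFun hker i
      simp only [Matrix.mulVec, dotProduct, Pi.zero_apply] at this
      have h2 := congrArg (fun q : ℚ => (q : K)) this
      simpa using h2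
    simp only [Matrix.mulVec, dotProduct, Pi.zero_apply]
    calc ∑ j, E k j * ((x j : ℤ) : K)
        = ∑ j, (∑ i, A k i * ((E0 i j : ℚ) : K)) * ((x j : ℤ) : K) := by
          refine Finset.sum_congr rfl fun j _ => ?_
          rw [hprod k j]
      _ = ∑ i, A k i * ∑ j, ((E0 i j : ℚ) : K) * ((x j : ℤ) : K) := by
          simp only [Finset.sum_mul, Finset.mul_sum]
          rw [Finset.sum_comm]
          exact Finset.sum_congr rfl fun i _ => Finset.sum_congr rfl fun j _ => by ring
      _ = 0 := by simp [hk]
  · have := hb j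
    rwa [show (fun f : Fin n → Fin M => (E0.submatrix id f).det) = r from funext hminor] at this

/-- From the sup-norm bound to the logarithmic height bound. -/
theorem h7_log_of_pow_bound {M : ℕ} (x : Fin M → ℤ) (hx : x ≠ 0) (s : ℕ) (hs : 0 < s) (H : ℝ)
    (hH : 0 < H) (hb : ∀ j, (|x j| : ℝ) ^ s ≤ (s : ℝ) ^ s * H) :
    (s : ℝ) * Height.logHeight (fun j => (x j : ℚ)) ≤ (s : ℝ) * Real.log (s : ℝ) + Real.log H := by
  have hM : Nonempty (Fin M) := by
    by_contra hemp
    rw [not_nonempty_iff] at hemp
    exact hx (funext fun i => hemp.elim i)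
  obtain ⟨j0, hj0⟩ := exists_eq_ciSup_of_finite (f := fun j : Fin M => |x j|)
  have hle : Height.mulHeight (fun j => (x j : ℚ)) ≤ ((|x j0| : ℤ) : ℝ) := by
    apply h7_mulHeight_intCast_le x hx
    intro i
    have : |x i| ≤ |x j0| := by
      rw [hj0]
      exact le_ciSup (f := fun j : Fin M => |x j|) (Finite.bddAbove_range _) i
    exact_mod_cast this
  have hpow : Height.mulHeight (fun j => (x j : ℚ)) ^ s ≤ (s : ℝ) ^ s * H := by
    calc Height.mulHeight (fun j => (x j : ℚ)) ^ s ≤ (((|x j0| : ℤ) : ℝ)) ^ s :=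
          pow_le_pow_left₀ (Height.mulHeight_pos _).le hle s
      _ ≤ (s : ℝ) ^ s * H := by
          have := hb j0
          simpa using this
  have hlog := Real.log_le_log (pow_pos (Height.mulHeight_pos (fun j => (x j : ℚ))) s) hpow
  have hspos : (0 : ℝ) < (s : ℝ) := by exact_mod_cast hs
  rw [Real.log_pow, Real.log_mul (pow_pos hspos s).ne' hH.ne', Real.log_pow] at hlog
  exact hlog

/-- Logarithmic form of `h7_siegel_field`. -/
theorem h7_siegel_field_log {K : Type*} [Field K] [CharZero K] {n M : ℕ} (hnM : n < M)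
    (E : Matrix (Fin n) (Fin M) K) (f0 : Fin n → Fin M) (h0 : (E.submatrix id f0).det ≠ 0)
    (r : (Fin n → Fin M) → ℚ)
    (hr : ∀ f : Fin n → Fin M, (E.submatrix id f).det = (r f : K) * (E.submatrix id f0).det) :
    ∃ x : Fin M → ℤ, x ≠ 0 ∧ E.mulVec (fun j => ((x j : ℤ) : K)) = 0 ∧
      ((M - n : ℕ) : ℝ) * Height.logHeight (fun j => (x j : ℚ)) ≤
        ((M - n : ℕ) : ℝ) * Real.log ((M - n : ℕ) : ℝ) + Height.logHeight r := by
  obtain ⟨x, hx0, hker, hb⟩ := h7_siegel_field hnM E f0 h0 r hr
  exact ⟨x, hx0, hker, h7_log_of_pow_bound x hx0 (M - n) (by omega) _ (Height.mulHeight_pos _) hb⟩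

/-- **Siegel's lemma in Plücker form, increasing column selections.**  `E` over a field of
characteristic zero, `g0` an increasing column selection with nonzero minor, `r g` the (rational)
ratio of the minor on `g` to the minor on `g0`. -/
theorem h7_siegel_field_sorted {K : Type*} [Field K] [CharZero K] {n M : ℕ} (hnM : n < M)
    (E : Matrix (Fin n) (Fin M) K) (g0 : Fin n ↪o Fin M) (h0 : (E.submatrix id g0).det ≠ 0)
    (r : (Fin n ↪o Fin M) → ℚ)
    (hr : ∀ g : Fin n ↪o Fin M, (E.submatrix id g).det = (r g : K) * (E.submatrix id g0).det) :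
    ∃ x : Fin M → ℤ, x ≠ 0 ∧ E.mulVec (fun j => ((x j : ℤ) : K)) = 0 ∧
      (∀ j, (|x j| : ℝ) ^ (M - n) ≤ ((M - n : ℕ) : ℝ) ^ (M - n) * Height.mulHeight r) ∧
      ((M - n : ℕ) : ℝ) * Height.logHeight (fun j => (x j : ℚ)) ≤
        ((M - n : ℕ) : ℝ) * Real.log ((M - n : ℕ) : ℝ) + Height.logHeight r := by
  classical
  have hfin : Finite (Fin n ↪o Fin M) :=
    Finite.of_injective (fun g : Fin n ↪o Fin M => (g : Fin n → Fin M)) DFunLike.coe_injective
  -- rational ratios on all column selections
  have hex : ∀ f : Fin n → Fin M, ∃ q : ℚ,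
      (E.submatrix id f).det = (q : K) * (E.submatrix id g0).det ∧
        (q = 0 ∨ ∃ g : Fin n ↪o Fin M, q = r g ∨ q = -r g) := by
    intro f
    rcases h7_minor_sorted E f with h | ⟨g, h | h⟩
    · exact ⟨0, by rw [h]; simp, Or.inl rfl⟩
    · exact ⟨r g, by rw [h, hr g], Or.inr ⟨g, Or.inl rfl⟩⟩
    · exact ⟨-r g, by rw [h, hr g]; push_cast; ring, Or.inr ⟨g, Or.inr rfl⟩⟩
  choose ra hra1 hra2 using hex
  have hrag : ∀ g : Fin n ↪o Fin M, r g = ra g := by
    intro g
    have h1 := hra1 g
    rw [hr g] at h1
    have h2 := mul_right_cancel₀ h0 h1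
    exact_mod_cast h2
  have hheight : Height.mulHeight ra = Height.mulHeight r := by
    apply h7_mulHeight_eq_of_signed
    · exact hra2
    · intro g
      exact Or.inr ⟨g, Or.inl (hrag g)⟩
  obtain ⟨x, hx0, hker, hb⟩ := h7_siegel_field hnM E g0 h0 ra hra1
  rw [hheight] at hb
  exact ⟨x, hx0, hker, hb,
    h7_log_of_pow_bound x hx0 (M - n) (by omega) _ (Height.mulHeight_pos _) hb⟩

/-- **Lower bound for the Plücker height** (contrapositive of Siegel's lemma): if every nonzero
integer vector of the kernel has logarithmic height at least `m`, then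
`(M - n) * m ≤ (M - n) * log (M - n) + logHeight r`. -/
theorem h7_schmidt_ge {K : Type*} [Field K] [CharZero K] {n M : ℕ} (hnM : n < M)
    (E : Matrix (Fin n) (Fin M) K) (g0 : Fin n ↪o Fin M) (h0 : (E.submatrix id g0).det ≠ 0)
    (r : (Fin n ↪o Fin M) → ℚ)
    (hr : ∀ g : Fin n ↪o Fin M, (E.submatrix id g).det = (r g : K) * (E.submatrix id g0).det)
    (m : ℝ)
    (hm : ∀ x : Fin M → ℤ, x ≠ 0 → E.mulVec (fun j => ((x j : ℤ) : K)) = 0 →
      m ≤ Height.logHeight (fun j => (x j : ℚ))) :
    ((M - n : ℕ) : ℝ) * m ≤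
      ((M - n : ℕ) : ℝ) * Real.log ((M - n : ℕ) : ℝ) + Height.logHeight r := by
  obtain ⟨x, hx0, hker, -, hlog⟩ := h7_siegel_field_sorted hnM E g0 h0 r hr
  refine le_trans ?_ hlog
  exact mul_le_mul_of_nonneg_left (hm x hx0 hker) (Nat.cast_nonneg _)

end Fermat.Agent.S17
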