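import Mathlib
import Fermat.Agent.S17.h7_Siegel
import Fermat.Agent.S17.h59_Cert
import Fermat.Agent.S17.h86_Minors

/-!
# S17 / R55 section 1 PRODUCTS : the generic-family core of (E2) and (E1)   (helper93)

A bilinear multiplication table `mu : K^a → K^b → K^c` without zero divisors, over an
algebraically closed field with a family of absolute values `av : W → AbsoluteValue K ℝ` having
the "almost all" property.  With sup norms `‖x‖_w = ⨆ i, av w (x i)` and the max-of-minors norm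
`‖E‖_w = ⨆ f, av w (det E_f)` of an `r × n` matrix:

* `h93_prod_norm`   (E2) : `‖mu s u‖_w ≍ ‖s‖_w ‖u‖_w`;
* `h93_prod_minors` (E1) : `‖B * M_s‖_w ≍ ‖B‖_w ‖s‖_w ^ r` for every `r × b` matrix `B`,
  `M_s` the matrix of `u ↦ mu s u`;

with constants `C w ≥ 1`, `C w = 1` for all but finitely many `w`.

`h93_vn`, `h93_mn` are reducible abbreviations of the raw suprema, definitionally equal to
helper86's `h86_vnorm`, `h86_mnorm` (`h93_vn_eq_vnorm`, `h93_mn_eq_mnorm`) and to helper55's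
`h55_nrm w` for `v = h55_av w`.  Inputs: `h59_cert` (helper59), `h7_det_mul_expand`,
`h7_exists_minor_ne_zero` (helper7).
-/

set_option autoImplicit false

noncomputable section

namespace Fermat.Agent.S17

open Matrix MvPolynomial

/-! ### sup norm and max-of-minors norm for one absolute value -/

section Norms

variable {K : Type*} [Field K] (v : AbsoluteValue K ℝ)

/-- sup norm of a vector (`0` on an empty index type). -/
abbrev h93_vn {ι : Type*} (x : ι → K) : ℝ := ⨆ i, v (x i)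

/-- the largest absolute value of an `r`-minor of an `r × n` matrix (minors indexed by all
column selections). -/
abbrev h93_mn {r n : ℕ} (E : Matrix (Fin r) (Fin n) K) : ℝ :=
  ⨆ f : Fin r → Fin n, v ((E.submatrix id f).det)

/-- bridge to helper86's sup norm. -/
theorem h93_vn_eq_vnorm {ι : Type*} (x : ι → K) : h93_vn v x = h86_vnorm v x := rfl

/-- bridge to helper86's max-of-minors norm. -/
theorem h93_mn_eq_mnorm {r n : ℕ} (E : Matrix (Fin r) (Fin n) K) :
    h93_mn v E = h86_mnorm v E := rfl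

theorem h93_vn_nonneg {ι : Type*} (x : ι → K) : 0 ≤ h93_vn v x :=
  Real.iSup_nonneg fun _ => v.nonneg _

theorem h93_le_vn {ι : Type*} [Finite ι] (x : ι → K) (i : ι) : v (x i) ≤ h93_vn v x :=
  le_ciSup (f := fun i => v (x i)) (Set.finite_range _).bddAbove i

theorem h93_vn_le {ι : Type*} (x : ι → K) {B : ℝ} (hB : 0 ≤ B) (h : ∀ i, v (x i) ≤ B) :
    h93_vn v x ≤ B :=
  Real.iSup_le h hB

theorem h93_exists_eq_vn {ι : Type*} [Finite ι] [Nonempty ι] (x : ι → K) :
    ∃ i, v (x i) = h93_vn v x :=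
  exists_eq_ciSup_of_finite

theorem h93_vn_smul {ι : Type*} (t : K) (x : ι → K) :
    h93_vn v (t • x) = v t * h93_vn v x := by
  have h : ∀ i, v ((t • x) i) = v t * v (x i) := fun i => by
    rw [Pi.smul_apply, smul_eq_mul, map_mul]
  simp only [h93_vn, h]
  rw [Real.mul_iSup_of_nonneg (v.nonneg t)]

theorem h93_vn_eq_zero {ι : Type*} [Finite ι] {x : ι → K} (h : h93_vn v x = 0) : x = 0 := by
  funext i
  have h1 := h93_le_vn v x i
  rw [h] at h1
  exact (v.eq_zero).mp (le_antisymm h1 (v.nonneg _))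

theorem h93_mn_nonneg {r n : ℕ} (E : Matrix (Fin r) (Fin n) K) : 0 ≤ h93_mn v E :=
  Real.iSup_nonneg fun _ => v.nonneg _

theorem h93_le_mn {r n : ℕ} (E : Matrix (Fin r) (Fin n) K) (f : Fin r → Fin n) :
    v ((E.submatrix id f).det) ≤ h93_mn v E :=
  le_ciSup (f := fun f : Fin r → Fin n => v ((E.submatrix id f).det))
    (Set.finite_range _).bddAbove f

theorem h93_mn_le {r n : ℕ} (E : Matrix (Fin r) (Fin n) K) {B : ℝ} (hB : 0 ≤ B)
    (h : ∀ f : Fin r → Fin n, v ((E.submatrix id f).det) ≤ B) : h93_mn v E ≤ B :=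
  Real.iSup_le h hB

theorem h93_exists_eq_mn {r n : ℕ} (E : Matrix (Fin r) (Fin n) K) (h : 0 < h93_mn v E) :
    ∃ f : Fin r → Fin n, v ((E.submatrix id f).det) = h93_mn v E := by
  rcases isEmpty_or_nonempty (Fin r → Fin n) with he | hne
  · exfalso
    have : h93_mn v E = 0 := Real.iSup_of_isEmpty _
    rw [this] at h
    exact lt_irrefl _ h
  · exact exists_eq_ciSup_of_finite

/-- a matrix with no rows has max-of-minors norm `1`. -/
theorem h93_mn_zero_rows {n : ℕ} (E : Matrix (Fin 0) (Fin n) K) : h93_mn v E = 1 := by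
  have h : ∀ f : Fin 0 → Fin n, v ((E.submatrix id f).det) = 1 := by
    intro f
    rw [Matrix.det_fin_zero, map_one]
  simp only [h93_mn, h]
  exact ciSup_const

theorem h93_mn_mul_left {r n : ℕ} (G : Matrix (Fin r) (Fin r) K) (E : Matrix (Fin r) (Fin n) K) :
    h93_mn v (G * E) = v G.det * h93_mn v E := by
  have h : ∀ f : Fin r → Fin n, v (((G * E).submatrix id f).det) =
      v G.det * v ((E.submatrix id f).det) := by
    intro f
    have : (G * E).submatrix id f = G * E.submatrix id f := by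
      ext i j
      simp [Matrix.mul_apply]
    rw [this, Matrix.det_mul, map_mul]
  simp only [h93_mn, h]
  rw [Real.mul_iSup_of_nonneg (v.nonneg _)]

theorem h93_mn_smul {r n : ℕ} (t : K) (E : Matrix (Fin r) (Fin n) K) :
    h93_mn v (t • E) = v t ^ r * h93_mn v E := by
  have h : ∀ f : Fin r → Fin n, v (((t • E).submatrix id f).det) =
      v t ^ r * v ((E.submatrix id f).det) := by
    intro f
    have : (t • E).submatrix id f = t • E.submatrix id f := rfl
    rw [this, Matrix.det_smul, map_mul, map_pow, Fintype.card_fin]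
  simp only [h93_mn, h]
  rw [Real.mul_iSup_of_nonneg (pow_nonneg (v.nonneg _) _)]

/-- the "sum constant" of an absolute value: `1` if nonarchimedean, `max 1 n` otherwise. -/
def h93_k (n : ℕ) : ℝ := by
  classical
  exact if IsNonarchimedean v then 1 else max 1 (n : ℝ)

theorem h93_one_le_k (n : ℕ) : 1 ≤ h93_k v n := by
  unfold h93_k
  split_ifs
  · exact le_rfl
  · exact le_max_left _ _

theorem h93_k_of_nonarch (hv : IsNonarchimedean v) (n : ℕ) : h93_k v n = 1 := by
  unfold h93_k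
  rw [if_pos hv]

/-- a finite sum of terms of absolute value `≤ B`. -/
theorem h93_sum_le {ι : Type*} [Fintype ι] (l : ι → K) {B : ℝ} (hB : 0 ≤ B)
    (h : ∀ i, v (l i) ≤ B) : v (∑ i, l i) ≤ h93_k v (Fintype.card ι) * B := by
  by_cases hv : IsNonarchimedean v
  · rw [h93_k_of_nonarch v hv, one_mul]
    exact (IsNonarchimedean.apply_sum_univ_le hv).trans (Real.iSup_le h hB)
  · have h1 : v (∑ i, l i) ≤ ∑ i : ι, B :=
      (v.sum_le _ _).trans (Finset.sum_le_sum fun i _ => h i)
    rw [Finset.sum_const, Finset.card_univ, nsmul_eq_mul] at h1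
    refine h1.trans (mul_le_mul_of_nonneg_right ?_ hB)
    unfold h93_k
    rw [if_neg hv]
    exact le_max_right _ _

/-- a determinant with entries of absolute value `≤ E`. -/
theorem h93_det_le {r : ℕ} (N : Matrix (Fin r) (Fin r) K) {E : ℝ} (hE : 0 ≤ E)
    (h : ∀ i j, v (N i j) ≤ E) : v N.det ≤ h93_k v (r.factorial) * E ^ r := by
  rw [Matrix.det_apply']
  have hcard : Fintype.card (Equiv.Perm (Fin r)) = r.factorial := by
    rw [Fintype.card_perm, Fintype.card_fin]
  rw [← hcard]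
  refine h93_sum_le v _ (pow_nonneg hE r) fun σ => ?_
  rw [map_mul]
  have hs : v ((Equiv.Perm.sign σ : ℤ) : K) = 1 := by
    rcases Int.units_eq_one_or (Equiv.Perm.sign σ) with h1 | h1 <;> rw [h1] <;> simp
  rw [hs, one_mul, map_prod]
  calc ∏ i, v (N (σ i) i) ≤ ∏ _i : Fin r, E :=
        Finset.prod_le_prod (fun i _ => v.nonneg _) (fun i _ => h _ _)
    _ = E ^ r := by rw [Finset.prod_const, Finset.card_univ, Fintype.card_fin]

/-- **Echelon normalisation.** If the minor on the columns `f0` is nonzero and of largest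
absolute value, then `E = E_f0 * E'` with all entries of `E'` of absolute value `≤ 1` and
`E'_f0 = 1`. -/
theorem h93_ech {r n : ℕ} (E : Matrix (Fin r) (Fin n) K) (f0 : Fin r → Fin n)
    (h0 : (E.submatrix id f0).det ≠ 0)
    (hmax : ∀ f : Fin r → Fin n, v ((E.submatrix id f).det) ≤ v ((E.submatrix id f0).det)) :
    ∃ E' : Matrix (Fin r) (Fin n) K, E = E.submatrix id f0 * E' ∧ (∀ i j, v (E' i j) ≤ 1) ∧
      E'.submatrix id f0 = 1 := by
  set A := E.submatrix id f0 with hA
  have hunit : IsUnit A.det := isUnit_iff_ne_zero.mpr h0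
  refine ⟨A⁻¹ * E, ?_, ?_, ?_⟩
  · rw [← Matrix.mul_assoc, Matrix.mul_nonsing_inv A hunit, Matrix.one_mul]
  · intro i j
    have h1 : (A⁻¹ * E) i j = A.det⁻¹ * (E.submatrix id (Function.update f0 i j)).det := by
      have h2 : (A⁻¹ * E) i j = (A⁻¹ *ᵥ (fun k => E k j)) i := by
        simp [Matrix.mul_apply, Matrix.mulVec, dotProduct]
      rw [h2, Matrix.inv_def, Matrix.smul_mulVec, ← Matrix.cramer_eq_adjugate_mulVec,
        Pi.smul_apply, smul_eq_mul, Ring.inverse_eq_inv', Matrix.cramer_apply]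
      congr 2
      ext p q
      by_cases hq : q = i
      · subst hq; simp [hA]
      · simp [hq, hA]
    rw [h1, map_mul, map_inv₀]
    have hpos : 0 < v A.det := v.pos h0
    rw [inv_mul_le_iff₀ hpos, mul_one]
    exact hmax _
  · have : (A⁻¹ * E).submatrix id f0 = A⁻¹ * A := by
      ext i j
      simp [Matrix.mul_apply, hA]
    rw [this, Matrix.nonsing_inv_mul A hunit]

end Norms

/-! ### a bilinear table -/

section Table

variable {K : Type*} [Field K] {a b c : ℕ}
variable (mu : (Fin a → K) →ₗ[K] (Fin b → K) →ₗ[K] (Fin c → K))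

/-- structure constants of the table. -/
def h93_sc (i : Fin a) (j : Fin b) (k : Fin c) : K := mu (Pi.single i 1) (Pi.single j 1) k

/-- the matrix of `u ↦ mu s u` (row convention: `u ᵥ* M_s = mu s u`). -/
def h93_mulMat (s : Fin a → K) : Matrix (Fin b) (Fin c) K := fun j k => mu s (Pi.single j 1) k

theorem h93_eq_sum_single {n : ℕ} (x : Fin n → K) : x = ∑ i, x i • Pi.single i (1 : K) := by
  funext j
  simp [Finset.sum_apply, Pi.single_apply]

theorem h93_mu_apply (s : Fin a → K) (u : Fin b → K) (k : Fin c) :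
    mu s u k = ∑ i, ∑ j, s i * u j * h93_sc mu i j k := by
  have h1 : mu s = ∑ i, s i • mu (Pi.single i 1) := by
    conv_lhs => rw [h93_eq_sum_single s]
    rw [map_sum]
    exact Finset.sum_congr rfl fun i _ => map_smul _ _ _
  have h2 : ∀ i : Fin a, mu (Pi.single i 1) u =
      ∑ j, u j • mu (Pi.single i 1) (Pi.single j 1) := by
    intro i
    conv_lhs => rw [h93_eq_sum_single u]
    rw [map_sum]
    exact Finset.sum_congr rfl fun j _ => map_smul _ _ _
  rw [h1, LinearMap.sum_apply, Finset.sum_apply]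
  refine Finset.sum_congr rfl fun i _ => ?_
  rw [LinearMap.smul_apply, Pi.smul_apply, h2 i, Finset.sum_apply, smul_eq_mul, Finset.mul_sum]
  refine Finset.sum_congr rfl fun j _ => ?_
  rw [Pi.smul_apply, smul_eq_mul, h93_sc]
  ring

theorem h93_mulMat_apply (s : Fin a → K) (j : Fin b) (k : Fin c) :
    h93_mulMat mu s j k = ∑ i, s i * h93_sc mu i j k := by
  unfold h93_mulMat
  rw [h93_mu_apply]
  refine Finset.sum_congr rfl fun i _ => ?_
  simp [Pi.single_apply]

theorem h93_vecMul_mulMat (s : Fin a → K) (u : Fin b → K) : u ᵥ* h93_mulMat mu s = mu s u := by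
  funext k
  conv_rhs => rw [h93_eq_sum_single u]
  simp [Matrix.vecMul, dotProduct, h93_mulMat, map_sum, Finset.sum_apply]

theorem h93_mulMat_smul (t : K) (s : Fin a → K) :
    h93_mulMat mu (t • s) = t • h93_mulMat mu s := by
  ext j k
  simp [h93_mulMat]

theorem h93_mul_mulMat_row {r : ℕ} (B : Matrix (Fin r) (Fin b) K) (s : Fin a → K) (i : Fin r) :
    (B * h93_mulMat mu s) i = mu s (B i) := by
  rw [← h93_vecMul_mulMat]
  funext k
  simp [Matrix.mul_apply, Matrix.vecMul, dotProduct]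

variable (v : AbsoluteValue K ℝ)

/-- a bound `≥ 1` for the structure constants. -/
def h93_T : ℝ := max 1 (⨆ p : Fin a × Fin b × Fin c, v (h93_sc mu p.1 p.2.1 p.2.2))

theorem h93_one_le_T : 1 ≤ h93_T mu v := le_max_left _ _

theorem h93_sc_le_T (i : Fin a) (j : Fin b) (k : Fin c) : v (h93_sc mu i j k) ≤ h93_T mu v :=
  (le_ciSup (f := fun p : Fin a × Fin b × Fin c => v (h93_sc mu p.1 p.2.1 p.2.2))
    (Set.finite_range _).bddAbove (i, j, k)).trans (le_max_right _ _)

theorem h93_T_eq_one (h : ∀ i j k, v (h93_sc mu i j k) ≤ 1) : h93_T mu v = 1 := by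
  unfold h93_T
  exact max_eq_left (Real.iSup_le (fun p => h _ _ _) zero_le_one)

/-- entries of `M_s`. -/
theorem h93_mulMat_le (s : Fin a → K) (j : Fin b) (k : Fin c) :
    v (h93_mulMat mu s j k) ≤ h93_k v a * (h93_vn v s * h93_T mu v) := by
  rw [h93_mulMat_apply]
  have hB : 0 ≤ h93_vn v s * h93_T mu v :=
    mul_nonneg (h93_vn_nonneg v s) (zero_le_one.trans (h93_one_le_T mu v))
  have := h93_sum_le v (fun i => s i * h93_sc mu i j k) hB (fun i => by
    rw [map_mul]
    exact mul_le_mul (h93_le_vn v s i) (h93_sc_le_T mu v i j k) (v.nonneg _) (h93_vn_nonneg v s))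
  rwa [Fintype.card_fin] at this

/-- (E2), upper bound, one absolute value. -/
theorem h93_mu_le (s : Fin a → K) (u : Fin b → K) :
    h93_vn v (mu s u) ≤ h93_k v b * (h93_k v a * h93_T mu v) * (h93_vn v s * h93_vn v u) := by
  have hk1 := zero_le_one.trans (h93_one_le_k v a)
  have hk2 := zero_le_one.trans (h93_one_le_k v b)
  have hT := zero_le_one.trans (h93_one_le_T mu v)
  have hs := h93_vn_nonneg v s
  have hu := h93_vn_nonneg v u
  refine h93_vn_le v _ (by positivity) fun k => ?_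
  rw [← h93_vecMul_mulMat]
  have hB : 0 ≤ h93_vn v u * (h93_k v a * (h93_vn v s * h93_T mu v)) := by positivity
  have := h93_sum_le v (fun j => u j * h93_mulMat mu s j k) hB (fun j => by
    rw [map_mul]
    exact mul_le_mul (h93_le_vn v u j) (h93_mulMat_le mu v s j k) (v.nonneg _) hu)
  rw [Fintype.card_fin] at this
  calc v ((u ᵥ* h93_mulMat mu s) k) = v (∑ j, u j * h93_mulMat mu s j k) := by
        simp [Matrix.vecMul, dotProduct]
    _ ≤ h93_k v b * (h93_vn v u * (h93_k v a * (h93_vn v s * h93_T mu v))) := this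
    _ = h93_k v b * (h93_k v a * h93_T mu v) * (h93_vn v s * h93_vn v u) := by ring

/-- (E1), upper bound, one absolute value (no hypothesis on the table). -/
theorem h93_minors_le {r : ℕ} (B : Matrix (Fin r) (Fin b) K) (s : Fin a → K) :
    h93_mn v (B * h93_mulMat mu s) ≤
      h93_k v (b ^ r) * (h93_k v a * h93_T mu v) ^ r * (h93_mn v B * h93_vn v s ^ r) := by
  have hk1 := zero_le_one.trans (h93_one_le_k v a)
  have hk2 := zero_le_one.trans (h93_one_le_k v (b ^ r))
  have hT := zero_le_one.trans (h93_one_le_T mu v)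
  have hs := h93_vn_nonneg v s
  have hB := h93_mn_nonneg v B
  refine h93_mn_le v _ (by positivity) fun f => ?_
  have h1 : (B * h93_mulMat mu s).submatrix id f = B * (h93_mulMat mu s).submatrix id f := by
    ext i j
    simp [Matrix.mul_apply]
  rw [h1, h7_det_mul_expand]
  have hE : 0 ≤ (h93_k v a * (h93_vn v s * h93_T mu v)) ^ r * h93_mn v B := by positivity
  have := h93_sum_le v (fun g : Fin r → Fin b =>
      (∏ i, (h93_mulMat mu s).submatrix id f (g i) i) * (B.submatrix id g).det) hE (fun g => by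
    rw [map_mul, map_prod]
    refine mul_le_mul ?_ (h93_le_mn v B g) (v.nonneg _) (by positivity)
    calc ∏ i, v ((h93_mulMat mu s).submatrix id f (g i) i)
        ≤ ∏ _i : Fin r, (h93_k v a * (h93_vn v s * h93_T mu v)) :=
          Finset.prod_le_prod (fun i _ => v.nonneg _) (fun i _ => h93_mulMat_le mu v s _ _)
      _ = (h93_k v a * (h93_vn v s * h93_T mu v)) ^ r := by
          rw [Finset.prod_const, Finset.card_univ, Fintype.card_fin])
  rw [Fintype.card_fun, Fintype.card_fin, Fintype.card_fin] at this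
  refine this.trans (le_of_eq ?_)
  ring

/-! ### (E2) : the certificate for `mu s u = 0 → s = 0 ∨ u = 0` -/

/-- the `k`-th coordinate of `mu s u` as a polynomial in `(s, u)`. -/
def h93_F2 (k : Fin c) : MvPolynomial (Fin a ⊕ Fin b) K :=
  ∑ i, ∑ j, C (h93_sc mu i j k) * X (Sum.inl i) * X (Sum.inr j)

theorem h93_eval_F2 (s : Fin a → K) (u : Fin b → K) (k : Fin c) :
    eval (Sum.elim s u) (h93_F2 mu k) = mu s u k := by
  rw [h93_mu_apply]
  simp only [h93_F2, map_sum, map_mul, eval_C, eval_X, Sum.elim_inl, Sum.elim_inr]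
  refine Finset.sum_congr rfl fun i _ => Finset.sum_congr rfl fun j _ => ?_
  ring

theorem h93_F2_zero (hnz : ∀ s u, mu s u = 0 → s = 0 ∨ u = 0) (i0 : Fin a) (j0 : Fin b)
    (y : Fin a ⊕ Fin b → K) (h : ∀ k, eval y (h93_F2 mu k) = 0) :
    eval y (X (Sum.inl i0) * X (Sum.inr j0) : MvPolynomial (Fin a ⊕ Fin b) K) = 0 := by
  have hy : Sum.elim (y ∘ Sum.inl) (y ∘ Sum.inr) = y := Sum.elim_comp_inl_inr y
  have h0 : mu (y ∘ Sum.inl) (y ∘ Sum.inr) = 0 := by
    funext k
    rw [← h93_eval_F2, hy]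
    exact h k
  rw [map_mul, eval_X, eval_X]
  rcases hnz _ _ h0 with h1 | h1
  · have := congrFun h1 i0
    simp only [Function.comp_apply, Pi.zero_apply] at this
    rw [this, zero_mul]
  · have := congrFun h1 j0
    simp only [Function.comp_apply, Pi.zero_apply] at this
    rw [this, mul_zero]

/-- (E2), lower bound for one absolute value, from the certificate inequality. -/
theorem h93_mu_ge_of_cert {cw : ℝ} (hcw : 0 ≤ cw) (e : Fin a × Fin b → ℕ)
    (hcert : ∀ (p : Fin a × Fin b) (y : Fin a ⊕ Fin b → K), (∀ t, v (y t) ≤ 1) →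
      ∀ Bd : ℝ, 0 ≤ Bd → (∀ k, v (eval y (h93_F2 mu k)) ≤ Bd) →
        v (eval y (X (Sum.inl p.1) * X (Sum.inr p.2) : MvPolynomial (Fin a ⊕ Fin b) K)) ^ e p
          ≤ cw * Bd)
    (s : Fin a → K) (u : Fin b → K) :
    h93_vn v s * h93_vn v u ≤ cw * h93_vn v (mu s u) := by
  have hR : 0 ≤ cw * h93_vn v (mu s u) := mul_nonneg hcw (h93_vn_nonneg v _)
  by_cases hs : s = 0
  · subst hs
    have : h93_vn v (0 : Fin a → K) = 0 := by simp [h93_vn]
    rw [this, zero_mul]
    exact hR
  by_cases hu : u = 0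
  · subst hu
    have : h93_vn v (0 : Fin b → K) = 0 := by simp [h93_vn]
    rw [this, mul_zero]
    exact hR
  have hne_a : Nonempty (Fin a) := by
    by_contra hcon
    rw [not_nonempty_iff] at hcon
    exact hs (funext fun i => (hcon.false i).elim)
  have hne_b : Nonempty (Fin b) := by
    by_contra hcon
    rw [not_nonempty_iff] at hcon
    exact hu (funext fun j => (hcon.false j).elim)
  obtain ⟨i0, hi0⟩ := h93_exists_eq_vn v s
  obtain ⟨j0, hj0⟩ := h93_exists_eq_vn v u
  have hsp : 0 < h93_vn v s :=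
    lt_of_le_of_ne (h93_vn_nonneg v s) (fun h => hs (h93_vn_eq_zero v h.symm))
  have hup : 0 < h93_vn v u :=
    lt_of_le_of_ne (h93_vn_nonneg v u) (fun h => hu (h93_vn_eq_zero v h.symm))
  have hsi : s i0 ≠ 0 := by
    intro h
    rw [h, map_zero] at hi0
    exact hsp.ne hi0
  have huj : u j0 ≠ 0 := by
    intro h
    rw [h, map_zero] at hj0
    exact hup.ne hj0
  set s' : Fin a → K := (s i0)⁻¹ • s with hs'
  set u' : Fin b → K := (u j0)⁻¹ • u with hu'
  have hy : ∀ t, v (Sum.elim s' u' t) ≤ 1 := by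
    rintro (i | j)
    · simp only [Sum.elim_inl, hs', Pi.smul_apply, smul_eq_mul, map_mul, map_inv₀]
      rw [hi0, inv_mul_le_iff₀ hsp, mul_one]
      exact h93_le_vn v s i
    · simp only [Sum.elim_inr, hu', Pi.smul_apply, smul_eq_mul, map_mul, map_inv₀]
      rw [hj0, inv_mul_le_iff₀ hup, mul_one]
      exact h93_le_vn v u j
  have hB : ∀ k, v (eval (Sum.elim s' u') (h93_F2 mu k)) ≤ h93_vn v (mu s' u') := by
    intro k
    rw [h93_eval_F2]
    exact h93_le_vn v _ k
  have h1 := hcert (i0, j0) (Sum.elim s' u') hy _ (h93_vn_nonneg v _) hB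
  have hG : eval (Sum.elim s' u')
      (X (Sum.inl i0) * X (Sum.inr j0) : MvPolynomial (Fin a ⊕ Fin b) K) = 1 := by
    simp [hs', hu', hsi, huj]
  rw [hG, map_one, one_pow] at h1
  have hmu : mu s' u' = ((s i0)⁻¹ * (u j0)⁻¹) • mu s u := by
    rw [hs', hu', map_smul, map_smul, LinearMap.smul_apply, smul_smul, mul_comm]
  rw [hmu, h93_vn_smul, map_mul, map_inv₀, map_inv₀, hi0, hj0] at h1
  have h2 : cw * ((h93_vn v s)⁻¹ * (h93_vn v u)⁻¹ * h93_vn v (mu s u)) =
      (cw * h93_vn v (mu s u)) / (h93_vn v s * h93_vn v u) := by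
    field_simp
  rw [h2, le_div_iff₀ (mul_pos hsp hup), one_mul] at h1
  exact h1

/-! ### (E1) : the certificate for the minors of `B * M_s` -/

/-- the generic `r × b` matrix. -/
def h93_PB (K : Type*) [Field K] (a b r : ℕ) :
    Matrix (Fin r) (Fin b) (MvPolynomial ((Fin r × Fin b) ⊕ Fin a) K) :=
  fun i j => X (Sum.inl (i, j))

/-- the matrix `M_s` for the generic `s`. -/
def h93_PM (r : ℕ) : Matrix (Fin b) (Fin c) (MvPolynomial ((Fin r × Fin b) ⊕ Fin a) K) :=
  fun j k => ∑ i, C (h93_sc mu i j k) * X (Sum.inr i)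

/-- the `r`-minors of `B * M_s` as polynomials in `(B, s)`. -/
def h93_F1 (r : ℕ) (f : Fin r → Fin c) : MvPolynomial ((Fin r × Fin b) ⊕ Fin a) K :=
  ((h93_PB K a b r * h93_PM mu r).submatrix id f).det

/-- `s_{i0} * det B_{f0}` as a polynomial in `(B, s)`. -/
def h93_G1 (K : Type*) [Field K] (a b r : ℕ) (i0 : Fin a) (f0 : Fin r → Fin b) :
    MvPolynomial ((Fin r × Fin b) ⊕ Fin a) K :=
  X (Sum.inr i0) * ((h93_PB K a b r).submatrix id f0).det

/-- the point `(B, s)`. -/
def h93_pt {r : ℕ} (B : Matrix (Fin r) (Fin b) K) (s : Fin a → K) :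
    (Fin r × Fin b) ⊕ Fin a → K :=
  Sum.elim (fun p => B p.1 p.2) s

omit [Field K] in
theorem h93_pt_eta {r : ℕ} (y : (Fin r × Fin b) ⊕ Fin a → K) :
    h93_pt (fun i j => y (Sum.inl (i, j))) (fun i => y (Sum.inr i)) = y := by
  funext t
  rcases t with ⟨i, j⟩ | i <;> rfl

theorem h93_eval_F1 {r : ℕ} (B : Matrix (Fin r) (Fin b) K) (s : Fin a → K) (f : Fin r → Fin c) :
    eval (h93_pt B s) (h93_F1 mu r f) = ((B * h93_mulMat mu s).submatrix id f).det := by
  unfold h93_F1
  rw [RingHom.map_det]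
  congr 1
  ext i j
  simp only [RingHom.mapMatrix_apply, Matrix.map_apply, Matrix.submatrix_apply, id_eq,
    Matrix.mul_apply, map_sum, map_mul, h93_PB, h93_PM, eval_X, eval_C, h93_pt, Sum.elim_inl,
    Sum.elim_inr, h93_mulMat_apply]
  refine Finset.sum_congr rfl fun x _ => ?_
  congr 1
  refine Finset.sum_congr rfl fun x' _ => ?_
  ring

theorem h93_eval_G1 {r : ℕ} (B : Matrix (Fin r) (Fin b) K) (s : Fin a → K) (i0 : Fin a)
    (f0 : Fin r → Fin b) :
    eval (h93_pt B s) (h93_G1 K a b r i0 f0) = s i0 * (B.submatrix id f0).det := by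
  unfold h93_G1
  rw [map_mul, eval_X, RingHom.map_det]
  have h1 : (eval (h93_pt B s)).mapMatrix ((h93_PB K a b r).submatrix id f0) =
      B.submatrix id f0 := by
    ext i j
    simp [h93_PB, h93_pt]
  rw [h1]
  rfl

theorem h93_F1_zero (hnz : ∀ s u, mu s u = 0 → s = 0 ∨ u = 0) {r : ℕ} (i0 : Fin a)
    (f0 : Fin r → Fin b) (y : (Fin r × Fin b) ⊕ Fin a → K)
    (h : ∀ f, eval y (h93_F1 mu r f) = 0) : eval y (h93_G1 K a b r i0 f0) = 0 := by
  rw [← h93_pt_eta y] at h ⊢
  set B : Matrix (Fin r) (Fin b) K := fun i j => y (Sum.inl (i, j)) with hB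
  set s : Fin a → K := fun i => y (Sum.inr i) with hs
  rw [h93_eval_G1]
  by_contra hcon
  have hsi : s i0 ≠ 0 := fun h0 => hcon (by rw [h0, zero_mul])
  have hdet : (B.submatrix id f0).det ≠ 0 := fun h0 => hcon (by rw [h0, mul_zero])
  have hs0 : s ≠ 0 := fun h0 => hsi (by rw [h0]; rfl)
  obtain ⟨f, hf⟩ := h7_exists_minor_ne_zero (B * h93_mulMat mu s) (by
    intro lam hlam
    rw [← Matrix.vecMul_vecMul, h93_vecMul_mulMat] at hlam
    rcases hnz _ _ hlam with h1 | h1
    · exact (hs0 h1).elim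
    · apply Matrix.eq_zero_of_vecMul_eq_zero hdet
      funext j
      have := congrFun h1 (f0 j)
      simpa [Matrix.vecMul, dotProduct] using this)
  apply hf
  rw [← h93_eval_F1]
  exact h f

/-- (E1), lower bound for one absolute value, from the certificate inequality. -/
theorem h93_minors_ge_of_cert {r : ℕ} (hr : 0 < r) {cw : ℝ} (hcw : 0 ≤ cw)
    (e : Fin a × (Fin r → Fin b) → ℕ)
    (hcert : ∀ (p : Fin a × (Fin r → Fin b)) (y : (Fin r × Fin b) ⊕ Fin a → K),
      (∀ t, v (y t) ≤ 1) → ∀ Bd : ℝ, 0 ≤ Bd → (∀ f, v (eval y (h93_F1 mu r f)) ≤ Bd) →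
        v (eval y (h93_G1 K a b r p.1 p.2)) ^ e p ≤ cw * Bd)
    (B : Matrix (Fin r) (Fin b) K) (s : Fin a → K) :
    h93_mn v B * h93_vn v s ^ r ≤ cw * h93_mn v (B * h93_mulMat mu s) := by
  have hR : 0 ≤ cw * h93_mn v (B * h93_mulMat mu s) := mul_nonneg hcw (h93_mn_nonneg v _)
  by_cases hs : s = 0
  · subst hs
    have : h93_vn v (0 : Fin a → K) = 0 := by simp [h93_vn]
    rw [this, zero_pow hr.ne', mul_zero]
    exact hR
  rcases (h93_mn_nonneg v B).eq_or_lt with hB0 | hBpos
  · rw [← hB0, zero_mul]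
    exact hR
  have hne_a : Nonempty (Fin a) := by
    by_contra hcon
    rw [not_nonempty_iff] at hcon
    exact hs (funext fun i => (hcon.false i).elim)
  obtain ⟨i0, hi0⟩ := h93_exists_eq_vn v s
  obtain ⟨f0, hf0⟩ := h93_exists_eq_mn v B hBpos
  have hsp : 0 < h93_vn v s :=
    lt_of_le_of_ne (h93_vn_nonneg v s) (fun h => hs (h93_vn_eq_zero v h.symm))
  have hsi : s i0 ≠ 0 := by
    intro h
    rw [h, map_zero] at hi0
    exact hsp.ne hi0
  have hdet : (B.submatrix id f0).det ≠ 0 := by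
    intro h
    rw [h, map_zero] at hf0
    exact hBpos.ne hf0
  obtain ⟨B', hBB', hB'le, hB'f0⟩ := h93_ech v B f0 hdet (fun f => by
    rw [hf0]
    exact h93_le_mn v B f)
  set s' : Fin a → K := (s i0)⁻¹ • s with hs'
  have hss' : s = s i0 • s' := by
    rw [hs', smul_smul, mul_inv_cancel₀ hsi, one_smul]
  have hprod : B * h93_mulMat mu s =
      B.submatrix id f0 * (s i0 • (B' * h93_mulMat mu s')) := by
    conv_lhs => rw [hBB', hss', h93_mulMat_smul, Matrix.mul_assoc, Matrix.mul_smul]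
  have hmn : h93_mn v (B * h93_mulMat mu s) =
      h93_mn v B * h93_vn v s ^ r * h93_mn v (B' * h93_mulMat mu s') := by
    rw [hprod, h93_mn_mul_left, h93_mn_smul, hf0, hi0]
    ring
  have hy : ∀ t, v (h93_pt B' s' t) ≤ 1 := by
    rintro (⟨i, j⟩ | i)
    · exact hB'le i j
    · simp only [h93_pt, Sum.elim_inr, hs', Pi.smul_apply, smul_eq_mul, map_mul, map_inv₀]
      rw [hi0, inv_mul_le_iff₀ hsp, mul_one]
      exact h93_le_vn v s i
  have hF : ∀ f, v (eval (h93_pt B' s') (h93_F1 mu r f)) ≤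
      h93_mn v (B' * h93_mulMat mu s') := by
    intro f
    rw [h93_eval_F1]
    exact h93_le_mn v _ f
  have h1 := hcert (i0, f0) (h93_pt B' s') hy _ (h93_mn_nonneg v _) hF
  have hG : eval (h93_pt B' s') (h93_G1 K a b r i0 f0) = 1 := by
    rw [h93_eval_G1, hB'f0, Matrix.det_one, mul_one, hs', Pi.smul_apply, smul_eq_mul,
      inv_mul_cancel₀ hsi]
  rw [hG, map_one, one_pow] at h1
  rw [hmn]
  have hpos : 0 ≤ h93_mn v B * h93_vn v s ^ r :=
    mul_nonneg hBpos.le (pow_nonneg hsp.le r)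
  calc h93_mn v B * h93_vn v s ^ r = h93_mn v B * h93_vn v s ^ r * 1 := (mul_one _).symm
    _ ≤ h93_mn v B * h93_vn v s ^ r * (cw * h93_mn v (B' * h93_mulMat mu s')) :=
        mul_le_mul_of_nonneg_left h1 hpos
    _ = cw * (h93_mn v B * h93_vn v s ^ r * h93_mn v (B' * h93_mulMat mu s')) := by ring

end Table

/-! ### families of absolute values -/

section Family

variable {K : Type*} [Field K] {W : Type*} (av : W → AbsoluteValue K ℝ)

theorem h93_finite_mul_ne_one {f g : W → ℝ} (hf : {w | f w ≠ 1}.Finite)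
    (hg : {w | g w ≠ 1}.Finite) : {w | f w * g w ≠ 1}.Finite := by
  refine (hf.union hg).subset fun w hw => ?_
  by_contra hcon
  rw [Set.mem_union, not_or] at hcon
  have h1 : f w = 1 := by
    by_contra h
    exact hcon.1 h
  have h2 : g w = 1 := by
    by_contra h
    exact hcon.2 h
  apply hw
  rw [h1, h2, mul_one]

theorem h93_finite_pow_ne_one {f : W → ℝ} (hf : {w | f w ≠ 1}.Finite) (r : ℕ) :
    {w | f w ^ r ≠ 1}.Finite := by
  refine hf.subset fun w hw => ?_
  intro h
  apply hw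
  rw [h, one_pow]

theorem h93_finite_prod_ne_one {ι : Type*} [Fintype ι] {f : ι → W → ℝ}
    (hf : ∀ i, {w | f i w ≠ 1}.Finite) : {w | ∏ i, f i w ≠ 1}.Finite := by
  refine (Set.finite_iUnion hf).subset fun w hw => ?_
  by_contra hcon
  rw [Set.mem_iUnion, not_exists] at hcon
  apply hw
  refine Finset.prod_eq_one fun i _ => ?_
  by_contra h
  exact hcon i h

theorem h93_le_prod {ι : Type*} [Fintype ι] {f : ι → ℝ} (hf : ∀ i, 1 ≤ f i) (i : ι) :
    f i ≤ ∏ j, f j := by
  classical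
  rw [← Finset.mul_prod_erase Finset.univ f (Finset.mem_univ i)]
  have h1 : (1 : ℝ) ≤ ∏ j ∈ Finset.univ.erase i, f j := by
    calc (1 : ℝ) = ∏ _j ∈ Finset.univ.erase i, (1 : ℝ) := by rw [Finset.prod_const_one]
      _ ≤ ∏ j ∈ Finset.univ.erase i, f j :=
        Finset.prod_le_prod (fun _ _ => zero_le_one) (fun j _ => hf j)
  calc f i = f i * 1 := (mul_one _).symm
    _ ≤ f i * ∏ j ∈ Finset.univ.erase i, f j :=
      mul_le_mul_of_nonneg_left h1 (zero_le_one.trans (hf i))

theorem h93_one_le_prod {ι : Type*} [Fintype ι] {f : ι → ℝ} (hf : ∀ i, 1 ≤ f i) :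
    1 ≤ ∏ j, f j := by
  calc (1 : ℝ) = ∏ _j : ι, (1 : ℝ) := by rw [Finset.prod_const_one]
    _ ≤ ∏ j, f j := Finset.prod_le_prod (fun _ _ => zero_le_one) (fun j _ => hf j)

theorem h93_finite_k_ne_one (h2 : {w | ¬ IsNonarchimedean (av w)}.Finite) (n : ℕ) :
    {w | h93_k (av w) n ≠ 1}.Finite := by
  refine h2.subset fun w hw => ?_
  intro h
  exact hw (h93_k_of_nonarch (av w) h n)

variable {a b c : ℕ} (mu : (Fin a → K) →ₗ[K] (Fin b → K) →ₗ[K] (Fin c → K))

theorem h93_finite_T_ne_one (h1 : ∀ α : K, α ≠ 0 → {w | av w α ≠ 1}.Finite) :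
    {w | h93_T mu (av w) ≠ 1}.Finite := by
  have hfin : ∀ p : Fin a × Fin b × Fin c,
      {w | 1 < av w (h93_sc mu p.1 p.2.1 p.2.2)}.Finite := by
    intro p
    by_cases h0 : h93_sc mu p.1 p.2.1 p.2.2 = 0
    · have : {w | 1 < av w (h93_sc mu p.1 p.2.1 p.2.2)} = ∅ := by
        ext w
        simp [h0]
      rw [this]
      exact Set.finite_empty
    · exact (h1 _ h0).subset fun w hw => (ne_of_gt hw)
  refine (Set.finite_iUnion hfin).subset fun w hw => ?_
  by_contra hcon
  rw [Set.mem_iUnion, not_exists] at hcon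
  apply hw
  apply h93_T_eq_one
  intro i j k
  have := hcon (i, j, k)
  simpa using this

/-- **(E2)** `‖mu s u‖_w ≍ ‖s‖_w ‖u‖_w` with constants `= 1` for almost all `w`. -/
theorem h93_prod_norm [IsAlgClosed K] (h1 : ∀ α : K, α ≠ 0 → {w | av w α ≠ 1}.Finite)
    (h2 : {w | ¬ IsNonarchimedean (av w)}.Finite)
    (hnz : ∀ s u, mu s u = 0 → s = 0 ∨ u = 0) :
    ∃ C : W → ℝ, (∀ w, 1 ≤ C w) ∧ {w | C w ≠ 1}.Finite ∧
      ∀ w (s : Fin a → K) (u : Fin b → K),
        h93_vn (av w) (mu s u) ≤ C w * (h93_vn (av w) s * h93_vn (av w) u) ∧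
        h93_vn (av w) s * h93_vn (av w) u ≤ C w * h93_vn (av w) (mu s u) := by
  have hc := fun p : Fin a × Fin b => h59_cert av h1 h2 (h93_F2 mu)
    (X (Sum.inl p.1) * X (Sum.inr p.2) : MvPolynomial (Fin a ⊕ Fin b) K)
    (h93_F2_zero mu hnz p.1 p.2)
  choose e _he c hc1 hcfin hcert using hc
  set Cu : W → ℝ := fun w => h93_k (av w) b * (h93_k (av w) a * h93_T mu (av w)) with hCu
  set Cl : W → ℝ := fun w => ∏ p, c p w with hCl
  have hCu1 : ∀ w, 1 ≤ Cu w := fun w =>
    one_le_mul_of_one_le_of_one_le (h93_one_le_k _ _)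
      (one_le_mul_of_one_le_of_one_le (h93_one_le_k _ _) (h93_one_le_T _ _))
  have hCl1 : ∀ w, 1 ≤ Cl w := fun w => h93_one_le_prod fun p => hc1 p w
  refine ⟨fun w => Cu w * Cl w, fun w => one_le_mul_of_one_le_of_one_le (hCu1 w) (hCl1 w),
    ?_, fun w s u => ⟨?_, ?_⟩⟩
  · exact h93_finite_mul_ne_one
      (h93_finite_mul_ne_one (h93_finite_k_ne_one av h2 b)
        (h93_finite_mul_ne_one (h93_finite_k_ne_one av h2 a) (h93_finite_T_ne_one av mu h1)))
      (h93_finite_prod_ne_one hcfin)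
  · have h := h93_mu_le mu (av w) s u
    have hnn : 0 ≤ h93_vn (av w) s * h93_vn (av w) u :=
      mul_nonneg (h93_vn_nonneg _ _) (h93_vn_nonneg _ _)
    calc h93_vn (av w) (mu s u) ≤ Cu w * (h93_vn (av w) s * h93_vn (av w) u) := h
      _ ≤ Cu w * Cl w * (h93_vn (av w) s * h93_vn (av w) u) := by
        refine mul_le_mul_of_nonneg_right ?_ hnn
        exact le_mul_of_one_le_right (zero_le_one.trans (hCu1 w)) (hCl1 w)
  · have h := h93_mu_ge_of_cert mu (av w) (cw := Cl w) (zero_le_one.trans (hCl1 w)) e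
      (fun p y hy Bd hBd hF => (hcert p w y hy Bd hBd hF).trans
        (mul_le_mul_of_nonneg_right (h93_le_prod (fun p => hc1 p w) p) hBd)) s u
    calc h93_vn (av w) s * h93_vn (av w) u ≤ Cl w * h93_vn (av w) (mu s u) := h
      _ ≤ Cu w * Cl w * h93_vn (av w) (mu s u) := by
        refine mul_le_mul_of_nonneg_right ?_ (h93_vn_nonneg _ _)
        exact le_mul_of_one_le_left (zero_le_one.trans (hCl1 w)) (hCu1 w)

/-- **(E1)** `‖B * M_s‖_w ≍ ‖B‖_w ‖s‖_w ^ r` (max-of-minors norms) with constants `= 1` for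
almost all `w`. -/
theorem h93_prod_minors [IsAlgClosed K] (h1 : ∀ α : K, α ≠ 0 → {w | av w α ≠ 1}.Finite)
    (h2 : {w | ¬ IsNonarchimedean (av w)}.Finite)
    (hnz : ∀ s u, mu s u = 0 → s = 0 ∨ u = 0) (r : ℕ) :
    ∃ C : W → ℝ, (∀ w, 1 ≤ C w) ∧ {w | C w ≠ 1}.Finite ∧
      ∀ w (B : Matrix (Fin r) (Fin b) K) (s : Fin a → K),
        h93_mn (av w) (B * h93_mulMat mu s) ≤
          C w * (h93_mn (av w) B * h93_vn (av w) s ^ r) ∧
        h93_mn (av w) B * h93_vn (av w) s ^ r ≤
          C w * h93_mn (av w) (B * h93_mulMat mu s) := by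
  rcases Nat.eq_zero_or_pos r with rfl | hr
  · refine ⟨fun _ => 1, fun _ => le_rfl, ?_, fun w B s => ?_⟩
    · simp
    · rw [h93_mn_zero_rows, h93_mn_zero_rows]
      simp
  have hc := fun p : Fin a × (Fin r → Fin b) => h59_cert av h1 h2 (h93_F1 mu r)
    (h93_G1 K a b r p.1 p.2) (h93_F1_zero mu hnz p.1 p.2)
  choose e _he c hc1 hcfin hcert using hc
  set Cu : W → ℝ := fun w =>
    h93_k (av w) (b ^ r) * (h93_k (av w) a * h93_T mu (av w)) ^ r with hCu
  set Cl : W → ℝ := fun w => ∏ p, c p w with hCl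
  have hCu1 : ∀ w, 1 ≤ Cu w := fun w =>
    one_le_mul_of_one_le_of_one_le (h93_one_le_k _ _)
      (one_le_pow₀ (one_le_mul_of_one_le_of_one_le (h93_one_le_k _ _) (h93_one_le_T _ _)))
  have hCl1 : ∀ w, 1 ≤ Cl w := fun w => h93_one_le_prod fun p => hc1 p w
  refine ⟨fun w => Cu w * Cl w, fun w => one_le_mul_of_one_le_of_one_le (hCu1 w) (hCl1 w),
    ?_, fun w B s => ⟨?_, ?_⟩⟩
  · exact h93_finite_mul_ne_one
      (h93_finite_mul_ne_one (h93_finite_k_ne_one av h2 (b ^ r))
        (h93_finite_pow_ne_one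
          (h93_finite_mul_ne_one (h93_finite_k_ne_one av h2 a) (h93_finite_T_ne_one av mu h1))
          r))
      (h93_finite_prod_ne_one hcfin)
  · have h := h93_minors_le mu (av w) B s
    have hnn : 0 ≤ h93_mn (av w) B * h93_vn (av w) s ^ r :=
      mul_nonneg (h93_mn_nonneg _ _) (pow_nonneg (h93_vn_nonneg _ _) r)
    calc h93_mn (av w) (B * h93_mulMat mu s)
        ≤ Cu w * (h93_mn (av w) B * h93_vn (av w) s ^ r) := h
      _ ≤ Cu w * Cl w * (h93_mn (av w) B * h93_vn (av w) s ^ r) := by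
        refine mul_le_mul_of_nonneg_right ?_ hnn
        exact le_mul_of_one_le_right (zero_le_one.trans (hCu1 w)) (hCl1 w)
  · have h := h93_minors_ge_of_cert mu (av w) hr (cw := Cl w) (zero_le_one.trans (hCl1 w)) e
      (fun p y hy Bd hBd hF => (hcert p w y hy Bd hBd hF).trans
        (mul_le_mul_of_nonneg_right (h93_le_prod (fun p => hc1 p w) p) hBd)) B s
    calc h93_mn (av w) B * h93_vn (av w) s ^ r
        ≤ Cl w * h93_mn (av w) (B * h93_mulMat mu s) := h
      _ ≤ Cu w * Cl w * h93_mn (av w) (B * h93_mulMat mu s) := by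
        refine mul_le_mul_of_nonneg_right ?_ (h93_mn_nonneg _ _)
        exact le_mul_of_one_le_left (zero_le_one.trans (hCl1 w)) (hCu1 w)

end Family

end Fermat.Agent.S17
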