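import Mathlib
import Fermat.Agent.S17.h55_Places
import Fermat.Agent.S17.h93_Prod

/-!
# S17 / R55 section 1 PRODUCTS over `ℚ̄` with the places `h55_av`   (helper93)

Instantiation of the generic core `h93_Prod` at helper55's family of absolute values on
`ℚ̄ = AlgebraicClosure ℚ`, and the GLOBAL corollaries for the heights `h55_hgt`:

* `h93_prod_norm_qbar`, `h93_prod_minors_qbar` : the local two-sided bounds (E2), (E1);
* `h93_hgt_mul`   : `h(mu s u) = h(s) + h(u) + O(1)`;
* `h93_hgt_minors` : `h(B * M_s) = h(B) + r * h(s) + O(1)`, where the height of an `r × n`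
  matrix with a nonzero `r`-minor is the height `h55_hgt (h93_pl B)` of its vector of
  `r`-minors (indexed by all column selections `Fin r → Fin n`).
-/

set_option autoImplicit false

noncomputable section

namespace Fermat.Agent.S17

open Matrix

local notation "Qbar" => AlgebraicClosure ℚ

/-- the vector of all `r`-minors of an `r × n` matrix (indexed by all column selections). -/
def h93_pl {K : Type*} [Field K] {r n : ℕ} (E : Matrix (Fin r) (Fin n) K) :
    (Fin r → Fin n) → K :=
  fun f => (E.submatrix id f).det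

theorem h93_mn_eq_nrm {r n : ℕ} (w : h55_Pl) (E : Matrix (Fin r) (Fin n) Qbar) :
    h93_mn (h55_av w) E = h55_nrm w (h93_pl E) := rfl

theorem h93_vn_eq_nrm {ι : Type*} (w : h55_Pl) (x : ι → Qbar) :
    h93_vn (h55_av w) x = h55_nrm w x := rfl

/-- only the place `none` is archimedean. -/
theorem h93_finite_arch : {w : h55_Pl | ¬ IsNonarchimedean (h55_av w)}.Finite := by
  refine (Set.finite_singleton (none : h55_Pl)).subset fun w hw => ?_
  rcases w with _ | p
  · rfl
  · exact (hw (h55_av_nonarch p)).elim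

theorem h93_finite_ne_one_qbar (α : Qbar) (hα : α ≠ 0) : {w : h55_Pl | h55_av w α ≠ 1}.Finite :=
  h55_finite_ne_one hα

variable {a b c : ℕ} (mu : (Fin a → Qbar) →ₗ[Qbar] (Fin b → Qbar) →ₗ[Qbar] (Fin c → Qbar))

/-- **(E2) over `ℚ̄`**, local form. -/
theorem h93_prod_norm_qbar (hnz : ∀ s u, mu s u = 0 → s = 0 ∨ u = 0) :
    ∃ C : h55_Pl → ℝ, (∀ w, 1 ≤ C w) ∧ {w | C w ≠ 1}.Finite ∧
      ∀ w (s : Fin a → Qbar) (u : Fin b → Qbar),
        h55_nrm w (mu s u) ≤ C w * (h55_nrm w s * h55_nrm w u) ∧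
        h55_nrm w s * h55_nrm w u ≤ C w * h55_nrm w (mu s u) :=
  h93_prod_norm h55_av mu h93_finite_ne_one_qbar h93_finite_arch hnz

/-- **(E1) over `ℚ̄`**, local form. -/
theorem h93_prod_minors_qbar (hnz : ∀ s u, mu s u = 0 → s = 0 ∨ u = 0) (r : ℕ) :
    ∃ C : h55_Pl → ℝ, (∀ w, 1 ≤ C w) ∧ {w | C w ≠ 1}.Finite ∧
      ∀ w (B : Matrix (Fin r) (Fin b) Qbar) (s : Fin a → Qbar),
        h55_nrm w (h93_pl (B * h93_mulMat mu s)) ≤
          C w * (h55_nrm w (h93_pl B) * h55_nrm w s ^ r) ∧
        h55_nrm w (h93_pl B) * h55_nrm w s ^ r ≤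
          C w * h55_nrm w (h93_pl (B * h93_mulMat mu s)) :=
  h93_prod_minors h55_av mu h93_finite_ne_one_qbar h93_finite_arch hnz r

/-- the support of `w ↦ log (C w)` is finite. -/
theorem h93_finite_support_log {C : h55_Pl → ℝ} (hC : {w | C w ≠ 1}.Finite) :
    (Function.support fun w => Real.log (C w)).Finite := by
  refine hC.subset fun w hw h1 => ?_
  simp only [Function.mem_support, ne_eq] at hw
  exact hw (by rw [h1, Real.log_one])

/-- **Summation.** Local two-sided bounds `f ≤ C g`, `g ≤ C f` between positive quantities whose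
logarithms have finite support sum to a global two-sided bound. -/
theorem h93_abs_finsum_log_le {C f g : h55_Pl → ℝ} (hC1 : ∀ w, 1 ≤ C w)
    (hC : {w | C w ≠ 1}.Finite) (hf : ∀ w, 0 < f w) (hg : ∀ w, 0 < g w)
    (hfs : (Function.support fun w => Real.log (f w)).Finite)
    (hgs : (Function.support fun w => Real.log (g w)).Finite)
    (h1 : ∀ w, f w ≤ C w * g w) (h2 : ∀ w, g w ≤ C w * f w) :
    |∑ᶠ w, Real.log (f w) - ∑ᶠ w, Real.log (g w)| ≤ ∑ᶠ w, Real.log (C w) := by
  have hCpos : ∀ w, 0 < C w := fun w => zero_lt_one.trans_le (hC1 w)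
  have ha := h55_finsum_le_add (c := C) hfs hgs hC (fun w => by
    rw [← Real.log_mul (hg w).ne' (hCpos w).ne', mul_comm]
    exact Real.log_le_log (hf w) (h1 w))
  have hb := h55_finsum_le_add (c := C) hgs hfs hC (fun w => by
    rw [← Real.log_mul (hf w).ne' (hCpos w).ne', mul_comm]
    exact Real.log_le_log (hg w) (h2 w))
  rw [abs_le]
  constructor <;> linarith

/-- **`h(mu s u) = h(s) + h(u) + O(1)`.** -/
theorem h93_hgt_mul (hnz : ∀ s u, mu s u = 0 → s = 0 ∨ u = 0) :
    ∃ Cst : ℝ, ∀ (s : Fin a → Qbar) (u : Fin b → Qbar), s ≠ 0 → u ≠ 0 →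
      |h55_hgt (mu s u) - (h55_hgt s + h55_hgt u)| ≤ Cst := by
  obtain ⟨C, hC1, hC, hloc⟩ := h93_prod_norm_qbar mu hnz
  refine ⟨∑ᶠ w, Real.log (C w), fun s u hs hu => ?_⟩
  have hmu : mu s u ≠ 0 := fun h => (hnz s u h).elim hs hu
  have hsum : h55_hgt s + h55_hgt u =
      ∑ᶠ w, Real.log (h55_nrm w s * h55_nrm w u) := by
    unfold h55_hgt
    rw [← finsum_add_distrib (h55_finite_support_log_nrm s) (h55_finite_support_log_nrm u)]
    refine finsum_congr fun w => ?_
    rw [Real.log_mul (h55_nrm_pos w hs).ne' (h55_nrm_pos w hu).ne']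
  have hgs : (Function.support fun w => Real.log (h55_nrm w s * h55_nrm w u)).Finite := by
    have : (fun w => Real.log (h55_nrm w s * h55_nrm w u)) =
        (fun w => Real.log (h55_nrm w s)) + fun w => Real.log (h55_nrm w u) := by
      funext w
      rw [Pi.add_apply, Real.log_mul (h55_nrm_pos w hs).ne' (h55_nrm_pos w hu).ne']
    rw [this]
    exact ((h55_finite_support_log_nrm s).union (h55_finite_support_log_nrm u)).subset
      (Function.support_add _ _)
  rw [hsum]
  unfold h55_hgt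
  exact h93_abs_finsum_log_le hC1 hC (fun w => h55_nrm_pos w hmu)
    (fun w => mul_pos (h55_nrm_pos w hs) (h55_nrm_pos w hu))
    (h55_finite_support_log_nrm _) hgs (fun w => (hloc w s u).1) (fun w => (hloc w s u).2)

/-- **`h(B * M_s) = h(B) + r * h(s) + O(1)`** for the heights of the vectors of `r`-minors. -/
theorem h93_hgt_minors (hnz : ∀ s u, mu s u = 0 → s = 0 ∨ u = 0) (r : ℕ) :
    ∃ Cst : ℝ, ∀ (B : Matrix (Fin r) (Fin b) Qbar) (s : Fin a → Qbar), h93_pl B ≠ 0 → s ≠ 0 →
      h93_pl (B * h93_mulMat mu s) ≠ 0 ∧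
      |h55_hgt (h93_pl (B * h93_mulMat mu s)) - (h55_hgt (h93_pl B) + r * h55_hgt s)| ≤ Cst := by
  obtain ⟨C, hC1, hC, hloc⟩ := h93_prod_minors_qbar mu hnz r
  refine ⟨∑ᶠ w, Real.log (C w), fun B s hB hs => ?_⟩
  have hCpos : ∀ w, 0 < C w := fun w => zero_lt_one.trans_le (hC1 w)
  have hgpos : ∀ w, 0 < h55_nrm w (h93_pl B) * h55_nrm w s ^ r := fun w =>
    mul_pos (h55_nrm_pos w hB) (pow_pos (h55_nrm_pos w hs) r)
  have hne : h93_pl (B * h93_mulMat mu s) ≠ 0 := by
    intro h0
    have h1 := (hloc none B s).2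
    rw [h0, h55_nrm_zero, mul_zero] at h1
    exact absurd (hgpos none) (not_lt.mpr h1)
  refine ⟨hne, ?_⟩
  have hlog : ∀ w, Real.log (h55_nrm w (h93_pl B) * h55_nrm w s ^ r) =
      Real.log (h55_nrm w (h93_pl B)) + r * Real.log (h55_nrm w s) := fun w => by
    rw [Real.log_mul (h55_nrm_pos w hB).ne' (pow_pos (h55_nrm_pos w hs) r).ne', Real.log_pow]
  have hsr : (Function.support fun w => (r : ℝ) * Real.log (h55_nrm w s)).Finite :=
    (h55_finite_support_log_nrm s).subset fun w hw h0 => by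
      simp only [Function.mem_support, ne_eq] at hw
      have h0' : Real.log (h55_nrm w s) = 0 := h0
      exact hw (by rw [h0', mul_zero])
  have hsum : h55_hgt (h93_pl B) + r * h55_hgt s =
      ∑ᶠ w, Real.log (h55_nrm w (h93_pl B) * h55_nrm w s ^ r) := by
    unfold h55_hgt
    rw [mul_finsum, ← finsum_add_distrib (h55_finite_support_log_nrm _) hsr]
    exact finsum_congr fun w => (hlog w).symm
  have hgs : (Function.support fun w =>
      Real.log (h55_nrm w (h93_pl B) * h55_nrm w s ^ r)).Finite := by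
    have : (fun w => Real.log (h55_nrm w (h93_pl B) * h55_nrm w s ^ r)) =
        (fun w => Real.log (h55_nrm w (h93_pl B))) +
          fun w => (r : ℝ) * Real.log (h55_nrm w s) := by
      funext w
      rw [Pi.add_apply, hlog w]
    rw [this]
    exact ((h55_finite_support_log_nrm _).union hsr).subset (Function.support_add _ _)
  rw [hsum]
  unfold h55_hgt
  exact h93_abs_finsum_log_le hC1 hC (fun w => h55_nrm_pos w hne) hgpos
    (h55_finite_support_log_nrm _) hgs (fun w => (hloc w B s).1) (fun w => (hloc w B s).2)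

end Fermat.Agent.S17
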