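import Mathlib
import Fermat.Agent.S17.h55_Frame
import Fermat.Agent.S17.h93_ProdQbar

/-!
# S17 / R55 PRODUCTS in "basis" form   (helper93)

Adapters from the abstract products `h93_ProdQbar` to three linearly independent families
`bA`, `bB`, `bC` of a field extension `F / ℚ̄` with structure constants
`bA i * bB j = ∑ l, μ i j l • bC l` (e.g. the bases `fr.b M`, `fr.b M'`, `fr.b (M + M')` of a
frame): the statements of row S17-PR (`h55_nrm_mul`, `h55_ht_mul`, `h55_mn_mul`) for arbitrary
such families.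

* `h93_ofSC` : the bilinear table with given structure constants;
* `h93_nrm_mul_of_basis`, `h93_ht_mul_of_basis`, `h93_mn_mul_of_basis`.
-/

set_option autoImplicit false

noncomputable section

namespace Fermat.Agent.S17

open Matrix

local notation "Qbar" => AlgebraicClosure ℚ

/-- the bilinear table with given structure constants. -/
def h93_ofSC {K : Type*} [Field K] {a b c : ℕ} (μ : Fin a → Fin b → Fin c → K) :
    (Fin a → K) →ₗ[K] (Fin b → K) →ₗ[K] (Fin c → K) :=
  LinearMap.mk₂ K (fun s u l => ∑ i, ∑ j, s i * u j * μ i j l)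
    (fun s s' u => by
      funext l
      simp only [Pi.add_apply, add_mul, Finset.sum_add_distrib])
    (fun t s u => by
      funext l
      simp only [Pi.smul_apply, smul_eq_mul, Finset.mul_sum]
      refine Finset.sum_congr rfl fun i _ => Finset.sum_congr rfl fun j _ => ?_
      ring)
    (fun s u u' => by
      funext l
      simp only [Pi.add_apply, mul_add, add_mul, Finset.sum_add_distrib])
    (fun t s u => by
      funext l
      simp only [Pi.smul_apply, smul_eq_mul, Finset.mul_sum]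
      refine Finset.sum_congr rfl fun i _ => Finset.sum_congr rfl fun j _ => ?_
      ring)

theorem h93_ofSC_apply {K : Type*} [Field K] {a b c : ℕ} (μ : Fin a → Fin b → Fin c → K)
    (s : Fin a → K) (u : Fin b → K) (l : Fin c) :
    h93_ofSC μ s u l = ∑ i, ∑ j, s i * u j * μ i j l := rfl

section Basis

variable {F : Type*} [Field F] [Algebra Qbar F] {a b c : ℕ}
variable (bA : Fin a → F) (bB : Fin b → F) (bC : Fin c → F)
variable (μ : Fin a → Fin b → Fin c → Qbar)

/-- the product of two combinations, in terms of the structure constants. -/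
theorem h93_vec_mul (hμ : ∀ i j, bA i * bB j = ∑ l, μ i j l • bC l) (s : Fin a → Qbar)
    (u : Fin b → Qbar) :
    (∑ i, s i • bA i) * (∑ j, u j • bB j) = ∑ l, h93_ofSC μ s u l • bC l := by
  rw [Finset.sum_mul_sum]
  have h1 : ∀ i j, s i • bA i * u j • bB j = ∑ l, (s i * u j * μ i j l) • bC l := by
    intro i j
    rw [smul_mul_smul_comm, hμ i j, Finset.smul_sum]
    refine Finset.sum_congr rfl fun l _ => ?_
    rw [smul_smul]
  have h2 : ∀ l, h93_ofSC μ s u l • bC l = ∑ i, ∑ j, (s i * u j * μ i j l) • bC l := by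
    intro l
    rw [h93_ofSC_apply, Finset.sum_smul]
    refine Finset.sum_congr rfl fun i _ => ?_
    rw [Finset.sum_smul]
  calc ∑ i, ∑ j, s i • bA i * u j • bB j
      = ∑ i, ∑ j, ∑ l, (s i * u j * μ i j l) • bC l :=
        Finset.sum_congr rfl fun i _ => Finset.sum_congr rfl fun j _ => h1 i j
    _ = ∑ i, ∑ l, ∑ j, (s i * u j * μ i j l) • bC l :=
        Finset.sum_congr rfl fun i _ => Finset.sum_comm
    _ = ∑ l, ∑ i, ∑ j, (s i * u j * μ i j l) • bC l := Finset.sum_comm
    _ = ∑ l, h93_ofSC μ s u l • bC l := Finset.sum_congr rfl fun l _ => (h2 l).symm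

theorem h93_vec_inj (hC : LinearIndependent Qbar bC) {t t' : Fin c → Qbar}
    (h : ∑ l, t l • bC l = ∑ l, t' l • bC l) : t = t' := by
  have h0 : ∑ l, (t l - t' l) • bC l = 0 := by
    simp only [sub_smul, Finset.sum_sub_distrib, h, sub_self]
  funext l
  have := (Fintype.linearIndependent_iff.mp hC) (fun l => t l - t' l) h0 l
  exact sub_eq_zero.mp this

/-- the table of a multiplication of independent families has no zero divisors. -/
theorem h93_ofSC_nz (hA : LinearIndependent Qbar bA) (hB : LinearIndependent Qbar bB)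
    (hμ : ∀ i j, bA i * bB j = ∑ l, μ i j l • bC l)
    (s : Fin a → Qbar) (u : Fin b → Qbar) (h : h93_ofSC μ s u = 0) : s = 0 ∨ u = 0 := by
  have h1 := h93_vec_mul bA bB bC μ hμ s u
  rw [h] at h1
  simp only [Pi.zero_apply, zero_smul, Finset.sum_const_zero] at h1
  rcases mul_eq_zero.mp h1 with h2 | h2
  · left
    funext i
    exact (Fintype.linearIndependent_iff.mp hA) s h2 i
  · right
    funext j
    exact (Fintype.linearIndependent_iff.mp hB) u h2 j

/-- **(E2), basis form** (= `h55_nrm_mul` for the bases of a frame). -/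
theorem h93_nrm_mul_of_basis (hA : LinearIndependent Qbar bA) (hB : LinearIndependent Qbar bB)
    (hC : LinearIndependent Qbar bC) (hμ : ∀ i j, bA i * bB j = ∑ l, μ i j l • bC l) :
    ∃ C : h55_Pl → ℝ, (∀ w, 1 ≤ C w) ∧ {w | C w ≠ 1}.Finite ∧
      ∀ (w : h55_Pl) (s : Fin a → Qbar) (u : Fin b → Qbar) (t : Fin c → Qbar),
        ∑ l, t l • bC l = (∑ i, s i • bA i) * (∑ j, u j • bB j) →
        h55_nrm w t ≤ C w * (h55_nrm w s * h55_nrm w u) ∧
        h55_nrm w s * h55_nrm w u ≤ C w * h55_nrm w t := by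
  obtain ⟨C, hC1, hCf, hloc⟩ := h93_prod_norm_qbar (h93_ofSC μ) (h93_ofSC_nz bA bB bC μ hA hB hμ)
  refine ⟨C, hC1, hCf, fun w s u t ht => ?_⟩
  have : t = h93_ofSC μ s u := by
    apply h93_vec_inj bC hC
    rw [ht, h93_vec_mul bA bB bC μ hμ]
  rw [this]
  exact hloc w s u

/-- **`h(su) = h(s) + h(u) + O(1)`, basis form** (= `h55_ht_mul` for the bases of a frame). -/
theorem h93_ht_mul_of_basis (hA : LinearIndependent Qbar bA) (hB : LinearIndependent Qbar bB)
    (hC : LinearIndependent Qbar bC) (hμ : ∀ i j, bA i * bB j = ∑ l, μ i j l • bC l) :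
    ∃ Cst : ℝ, ∀ (s : Fin a → ℚ) (u : Fin b → ℚ) (t : Fin c → ℚ), s ≠ 0 → u ≠ 0 →
      ∑ l, (t l : Qbar) • bC l = (∑ i, (s i : Qbar) • bA i) * (∑ j, (u j : Qbar) • bB j) →
      |h55_ht t - h55_ht s - h55_ht u| ≤ Cst := by
  obtain ⟨Cst, hCst⟩ := h93_hgt_mul (h93_ofSC μ) (h93_ofSC_nz bA bB bC μ hA hB hμ)
  refine ⟨Cst, fun s u t hs hu ht => ?_⟩
  have hs' : (fun i => (s i : Qbar)) ≠ 0 := by
    intro h
    apply hs
    funext i
    have := congrFun h i
    simpa using this
  have hu' : (fun j => (u j : Qbar)) ≠ 0 := by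
    intro h
    apply hu
    funext j
    have := congrFun h j
    simpa using this
  have : (fun l => (t l : Qbar)) = h93_ofSC μ (fun i => (s i : Qbar)) (fun j => (u j : Qbar)) := by
    apply h93_vec_inj bC hC
    rw [ht, h93_vec_mul bA bB bC μ hμ]
  have h := hCst _ _ hs' hu'
  rw [← this] at h
  unfold h55_ht
  rw [sub_sub]
  exact h

/-- **(E1), basis form** (= `h55_mn_mul` for the bases of a frame). -/
theorem h93_mn_mul_of_basis (hA : LinearIndependent Qbar bA) (hB : LinearIndependent Qbar bB)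
    (hC : LinearIndependent Qbar bC) (hμ : ∀ i j, bA i * bB j = ∑ l, μ i j l • bC l) (r : ℕ) :
    ∃ C : h55_Pl → ℝ, (∀ w, 1 ≤ C w) ∧ {w | C w ≠ 1}.Finite ∧
      ∀ (w : h55_Pl) (s : Fin a → Qbar) (B : Matrix (Fin r) (Fin b) Qbar)
        (B' : Matrix (Fin r) (Fin c) Qbar),
        (∀ i, ∑ l, B' i l • bC l = (∑ i', s i' • bA i') * (∑ j, B i j • bB j)) →
        h55_mn w B' ≤ C w * (h55_mn w B * h55_nrm w s ^ r) ∧
        h55_mn w B * h55_nrm w s ^ r ≤ C w * h55_mn w B' := by
  obtain ⟨C, hC1, hCf, hloc⟩ :=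
    h93_prod_minors_qbar (h93_ofSC μ) (h93_ofSC_nz bA bB bC μ hA hB hμ) r
  refine ⟨C, hC1, hCf, fun w s B B' hB' => ?_⟩
  have : B' = B * h93_mulMat (h93_ofSC μ) s := by
    ext i l
    have h1 : B' i = h93_ofSC μ s (B i) := by
      apply h93_vec_inj bC hC
      rw [hB' i, h93_vec_mul bA bB bC μ hμ]
    rw [h1, ← h93_mul_mulMat_row]
  rw [this]
  exact hloc w B s

end Basis

end Fermat.Agent.S17
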