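import Mathlib
import Fermat.Agent.S17.h55_Frame
import Fermat.Agent.S17.h93_ProdVec

/-!
# S17 / R55 row PR in hypothesis form   (helper93)

The three statements of row S17-PR (`h55_nrm_mul`, `h55_ht_mul`, `h55_mn_mul` of the skeleton
`h55_Skeleton.lean`) for a frame, with the statement of `h55_exists_mul` (row FB, the
multiplication table of the frame) as the only hypothesis `hmul`.  With row FB on main:

    theorem h55_nrm_mul (M M' : ℕ) : … := h93_frame_nrm_mul_of fr (h55_exists_mul fr) M M'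
    theorem h55_ht_mul (M M' : ℕ) : … := h93_frame_ht_mul_of fr (h55_exists_mul fr) M M'
    theorem h55_mn_mul (M k r : ℕ) : … := h93_frame_mn_mul_of fr (h55_exists_mul fr) M k r
-/

set_option autoImplicit false

open AlgebraicCurve

namespace Fermat.Agent.S17

open Fermat.Agent.S18 Fermat.Agent.S27

local notation "Qbar" => AlgebraicClosure ℚ

variable {F : Type} [Field F] [Algebra Qbar F] (fr : h55_Frame F)

/-- `h55_nrm_mul` from the multiplication table of the frame. -/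
theorem h93_frame_nrm_mul_of
    (hmul : ∀ (M M' : ℕ), ∃ μ : Fin (fr.n M) → Fin (fr.n M') → Fin (fr.n (M + M')) → ℚ,
      ∀ i j, fr.b M i * fr.b M' j = fr.vec (M + M') (fun l => (μ i j l : Qbar)))
    (M M' : ℕ) :
    ∃ c : h55_Pl → ℝ, (∀ w, 1 ≤ c w) ∧ {w | c w ≠ 1}.Finite ∧
      ∀ (w : h55_Pl) (s : Fin (fr.n M) → Qbar) (u : Fin (fr.n M') → Qbar)
        (t : Fin (fr.n (M + M')) → Qbar), fr.vec (M + M') t = fr.vec M s * fr.vec M' u →
        h55_nrm w t ≤ c w * (h55_nrm w s * h55_nrm w u) ∧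
        h55_nrm w s * h55_nrm w u ≤ c w * h55_nrm w t := by
  obtain ⟨μ, hμ⟩ := hmul M M'
  exact h93_nrm_mul_of_basis (fr.b M) (fr.b M') (fr.b (M + M')) (fun i j l => (μ i j l : Qbar))
    (fr.b_li M) (fr.b_li M') (fr.b_li (M + M')) hμ

/-- `h55_ht_mul` from the multiplication table of the frame. -/
theorem h93_frame_ht_mul_of
    (hmul : ∀ (M M' : ℕ), ∃ μ : Fin (fr.n M) → Fin (fr.n M') → Fin (fr.n (M + M')) → ℚ,
      ∀ i j, fr.b M i * fr.b M' j = fr.vec (M + M') (fun l => (μ i j l : Qbar)))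
    (M M' : ℕ) :
    ∃ C : ℝ, ∀ (s : Fin (fr.n M) → ℚ) (u : Fin (fr.n M') → ℚ) (t : Fin (fr.n (M + M')) → ℚ),
      s ≠ 0 → u ≠ 0 →
      fr.vec (M + M') (fun l => (t l : Qbar)) =
        fr.vec M (fun i => (s i : Qbar)) * fr.vec M' (fun j => (u j : Qbar)) →
      |h55_ht t - h55_ht s - h55_ht u| ≤ C := by
  obtain ⟨μ, hμ⟩ := hmul M M'
  exact h93_ht_mul_of_basis (fr.b M) (fr.b M') (fr.b (M + M')) (fun i j l => (μ i j l : Qbar))
    (fr.b_li M) (fr.b_li M') (fr.b_li (M + M')) hμ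

/-- `h55_mn_mul` from the multiplication table of the frame. -/
theorem h93_frame_mn_mul_of
    (hmul : ∀ (M M' : ℕ), ∃ μ : Fin (fr.n M) → Fin (fr.n M') → Fin (fr.n (M + M')) → ℚ,
      ∀ i j, fr.b M i * fr.b M' j = fr.vec (M + M') (fun l => (μ i j l : Qbar)))
    (M k r : ℕ) :
    ∃ c : h55_Pl → ℝ, (∀ w, 1 ≤ c w) ∧ {w | c w ≠ 1}.Finite ∧
      ∀ (w : h55_Pl) (s : Fin (fr.n k) → Qbar) (B : Matrix (Fin r) (Fin (fr.n M)) Qbar)
        (B' : Matrix (Fin r) (Fin (fr.n (M + k))) Qbar),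
        (∀ i, fr.vec (M + k) (B' i) = fr.vec k s * fr.vec M (B i)) →
        h55_mn w B' ≤ c w * (h55_mn w B * h55_nrm w s ^ r) ∧
        h55_mn w B * h55_nrm w s ^ r ≤ c w * h55_mn w B' := by
  obtain ⟨μ, hμ⟩ := hmul M k
  exact h93_mn_mul_of_basis (fr.b k) (fr.b M) (fr.b (M + k)) (fun i j l => (μ j i l : Qbar))
    (fr.b_li k) (fr.b_li M) (fr.b_li (M + k)) (fun i j => by rw [mul_comm]; exact hμ j i) r

end Fermat.Agent.S17
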