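import Fermat.Agent.S17.R55_QD
import Fermat.Agent.S17.R55_FB
import Fermat.Agent.S17.R55_FB2
import Fermat.Agent.S17.R55_WC
import Fermat.Agent.S17.R55_WC2
import Fermat.Agent.S17.R55_MV1
import Fermat.Agent.S17.R55_MV2
import Fermat.Agent.S17.R55_PI
import Fermat.Agent.S17.h32_ScaleOf
import Fermat.Agent.S17.h93_ProdFrame

/-!
# S17, route R55, row QD: closed forms `h55_inv`, `h55_par`, `h55_deg`

The hypothesis forms are in `R55_QD.lean`; here the upstream rows are plugged in.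
-/

set_option autoImplicit false

open AlgebraicCurve

namespace Fermat.Agent.S17

open Fermat.Agent.S18 Fermat.Agent.S27

local notation "Qbar" => AlgebraicClosure ℚ
local notation "GQ" => (AlgebraicClosure ℚ ≃ₐ[ℚ] AlgebraicClosure ℚ)

variable {F : Type} [Field F] [Algebra Qbar F] (fr : h55_Frame F)

/-- the statement of `h55_scale` (rows FB, WC, PR through `h55_scale_of`) -/
theorem h19_scale_closed : h19_HSC fr := fun M k a hM =>
  h55_scale_of fr (h55_n_eq fr) (h55_vec_mem fr) (fun M _ hf => h55_exists_vec fr M hf)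
    (h55_act_vec fr) (h55_vec_rat_of_fixed fr) (fun M _ hP σ => h55_pt_smul fr M hP σ)
    (fun hA hB => h55_isStable_append fr hA hB) (h93_frame_mn_mul_of fr (h55_exists_mul fr))
    (fun M _ P hP c => h55_mem_W_iff fr M P hP c)
    (fun M _ P hP hM => h55_exists_minor fr M P hP hM)
    (fun M k _ A Z s hc f => h55_smul_W fr M k A Z s hc f) M k a hM

/-- the statement of `h55_scale0` (rows FB, WC, PR through `h55_scale0_of`) -/
theorem h19_scale0_closed : h19_HS0 fr := fun M k hM =>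
  h55_scale0_of fr (h55_n_eq fr) (h55_vec_mem fr) (fun M _ hf => h55_exists_vec fr M hf)
    (h55_act_vec fr) (h55_vec_rat_of_fixed fr) (fun M _ hP σ => h55_pt_smul fr M hP σ)
    (h93_frame_mn_mul_of fr (h55_exists_mul fr))
    (fun M _ P hP c => h55_mem_W_iff fr M P hP c)
    (fun M _ P hP hM => h55_exists_minor fr M P hP hM)
    (fun M k _ A Z s hc f => h55_smul_W fr M k A Z s hc f) M k hM

/-- **(INV)** (row QD). -/
theorem h55_inv (e M : ℕ) (he : 2 * fr.g + 1 ≤ e) (hM : e + 2 * fr.g ≤ M + 1) :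
    ∃ C : ℝ, ∀ (c : Pic0 Qbar F) (A B : Fin e → Place Qbar F) (s : Fin (fr.n (e + e)) → ℚ)
      (A' B' : Fin e → Place Qbar F) (s' : Fin (fr.n (e + e)) → ℚ),
      fr.IsPair e c A B s → fr.IsPair e c A' B' s' →
      |fr.qraw M A B s - fr.qraw M A' B' s'| ≤ C :=
  h55_inv_of fr (h19_scale_closed fr) (h55_G_equiv fr) (h55_exists_rep fr) (h55_exists_cut fr)
    e M he hM

/-- **(PAR)** (row QD). -/
theorem h55_par (e M0 M : ℕ) (he : 2 * fr.g + 1 ≤ e) (hM0 : 4 * fr.g + 2 ≤ M0)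
    (hM : (4 * e + 1) * M0 + 2 * fr.g ≤ M) :
    ∃ C : ℝ, ∀ (c₁ c₂ : Pic0 Qbar F) (A₁ B₁ : Fin e → Place Qbar F) (s₁ : Fin (fr.n (e + e)) → ℚ)
      (A₂ B₂ : Fin e → Place Qbar F) (s₂ : Fin (fr.n (e + e)) → ℚ)
      (Ap Bp : Fin (e + e) → Place Qbar F) (sp : Fin (fr.n ((e + e) + (e + e))) → ℚ)
      (Am Bm : Fin (e + e) → Place Qbar F) (sm : Fin (fr.n ((e + e) + (e + e))) → ℚ),
      fr.IsPair e c₁ A₁ B₁ s₁ → fr.IsPair e c₂ A₂ B₂ s₂ →
      fr.IsPair (e + e) (c₁ + c₂) Ap Bp sp → fr.IsPair (e + e) (c₁ - c₂) Am Bm sm →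
      |fr.qraw M Ap Bp sp + fr.qraw M Am Bm sm
        - 2 * (fr.qraw M A₁ B₁ s₁ + fr.qraw M A₂ B₂ s₂)| ≤ C :=
  h55_par_of fr (h19_scale_closed fr) (h19_scale0_closed fr) (h55_G_equiv fr)
    (h55_exists_rep fr) (h55_exists_cut fr) (h55_G_append fr) (h55_pair_append_left fr)
    (h55_pair_comm fr) (h93_frame_ht_mul_of fr (h55_exists_mul fr)) (h55_exists_mul_rat fr)
    (h55_n_eq fr) e M0 M he hM0 hM

/-- **(DEG)** (row QD). -/
theorem h55_deg (e M0 M : ℕ) (he : 2 * fr.g + 1 ≤ e) (hM0 : 4 * fr.g + 2 ≤ M0)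
    (hM : (4 * e + 1) * M0 + 2 * fr.g ≤ M) :
    ∃ C : ℝ, ∀ (c : Pic0 Qbar F) (A B : Fin e → Place Qbar F) (s : Fin (fr.n (e + e)) → ℚ)
      (A' B' : Fin (e + e) → Place Qbar F) (s' : Fin (fr.n ((e + e) + (e + e))) → ℚ),
      fr.IsPair e c A B s → fr.IsPair (e + e) c A' B' s' →
      |fr.qraw M A' B' s' - fr.qraw M A B s| ≤ C :=
  h55_deg_of fr (h19_scale_closed fr) (h19_scale0_closed fr) (h55_G_equiv fr)
    (h55_exists_rep fr) (h55_exists_cut fr) (h55_G_append fr) (h55_pair_append_left fr)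
    (h55_pair_comm fr) (h93_frame_ht_mul_of fr (h55_exists_mul fr)) (h55_exists_mul_rat fr)
    (h55_n_eq fr) e M0 M he hM0 hM

end Fermat.Agent.S17
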