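import Fermat.Agent.S17.h89_SG
import Fermat.Agent.S17.R55_FB
import Fermat.Agent.S17.R55_WC
import Fermat.Agent.S17.h93_ProdFrame

/-!
# S17 height block (route R55), row SG: lower bound and Northcott for `qraw` (closed forms)

`h55_lower` and `h55_northcott_pair`, exactly as in the skeleton: one-line applications of the
hypothesis forms `h55_lower_of` / `h55_northcott_pair_of` (`h89_SG.lean`) to the landed rows
FB (`h55_n_eq`, `h55_exists_vec`, `h55_act_vec`, `h55_pt_smul`, `h55_exists_mul_rat`,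
`h55_vec_rat_of_fixed`, `h55_exists_mul`), WC (`h55_mem_W_iff`, `h55_exists_minor`) and the
product formula `h93_frame_ht_mul_of` (= the statement of `h55_ht_mul`, row PR).
-/

set_option autoImplicit false

open AlgebraicCurve

namespace Fermat.Agent.S17

open Fermat.Agent.S18 Fermat.Agent.S27

local notation "Qbar" => AlgebraicClosure ℚ
local notation "GQ" => (AlgebraicClosure ℚ ≃ₐ[ℚ] AlgebraicClosure ℚ)

variable {F : Type} [Field F] [Algebra Qbar F] (fr : h55_Frame F)

theorem h55_lower (e M : ℕ) (he : 2 * fr.g + 1 ≤ e) (hM : e + 2 * fr.g + 1 ≤ M) :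
    ∃ C : ℝ, ∀ (c : Pic0 Qbar F) (A B : Fin e → Place Qbar F) (s : Fin (fr.n (e + e)) → ℚ),
      fr.IsPair e c A B s → -C ≤ fr.qraw M A B s :=
  h55_lower_of fr (h55_n_eq fr) (fun M _ hf => h55_exists_vec fr M hf) (h55_act_vec fr)
    (fun M _ hP σ => h55_pt_smul fr M hP σ) (h55_exists_mul_rat fr) (h55_vec_rat_of_fixed fr)
    (fun M _ P hP c => h55_mem_W_iff fr M P hP c)
    (fun M _ P hP hM => h55_exists_minor fr M P hP hM) (h93_frame_ht_mul_of fr (h55_exists_mul fr)) e M he hM

theorem h55_northcott_pair (e M : ℕ) (he : 2 * fr.g + 1 ≤ e) (hM : e + 2 * fr.g + 1 ≤ M) (X : ℝ) :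
    {c : Pic0 Qbar F | ∃ (A B : Fin e → Place Qbar F) (s : Fin (fr.n (e + e)) → ℚ),
      fr.IsPair e c A B s ∧ fr.qraw M A B s ≤ X}.Finite :=
  h55_northcott_pair_of fr (h55_n_eq fr) (fun M _ hf => h55_exists_vec fr M hf) (h55_act_vec fr)
    (fun M _ hP σ => h55_pt_smul fr M hP σ) (h55_exists_mul_rat fr) (h55_vec_rat_of_fixed fr)
    (fun M _ P hP c => h55_mem_W_iff fr M P hP c)
    (fun M _ P hP hM => h55_exists_minor fr M P hP hM) (h93_frame_ht_mul_of fr (h55_exists_mul fr)) e M he hM X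

end Fermat.Agent.S17
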