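import Fermat.Agent.S17.R55_HT
import Fermat.Agent.S17.R55_MV1
import Fermat.Agent.S17.R55_MV2
import Fermat.Agent.S17.R55_QD2
import Fermat.Agent.S17.R55_SG

/-!
# S17 height block (route R55), row HT: the height on Galois-fixed classes (closed form)

`h55_height_exists` = `h55_height_exists_of` (file `R55_HT.lean`) applied to the closed forms of
rows MV (`h55_exists_rep`, `h55_exists_cut`), QD (`h55_par`, `h55_deg`) and SG (`h55_lower`,
`h55_northcott_pair`).
-/

set_option autoImplicit false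

open AlgebraicCurve

namespace Fermat.Agent.S17

open Fermat.Agent.S18 Fermat.Agent.S27

local notation "Qbar" => AlgebraicClosure ℚ
local notation "GQ" => (AlgebraicClosure ℚ ≃ₐ[ℚ] AlgebraicClosure ℚ)

variable {F : Type} [Field F] [Algebra Qbar F] (fr : h55_Frame F)

theorem h55_height_exists :
    ∃ q : Pic0 Qbar F → ℝ,
      (∃ C : ℝ, ∀ c₁ c₂ : Pic0 Qbar F, fr.IsFixed c₁ → fr.IsFixed c₂ →
        |q (c₁ + c₂) + q (c₁ - c₂) - 2 * (q c₁ + q c₂)| ≤ C) ∧
      (∃ C : ℝ, ∀ c : Pic0 Qbar F, fr.IsFixed c → -C ≤ q c) ∧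
      (∀ X : ℝ, {c : Pic0 Qbar F | fr.IsFixed c ∧ q c ≤ X}.Finite) :=
  h55_height_exists_of fr (h55_exists_rep fr) (h55_exists_cut fr) (h55_par fr) (h55_deg fr)
    (h55_lower fr) (h55_northcott_pair fr)

end Fermat.Agent.S17
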