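import Fermat.Agent.S17.h35_ModFrame

/-!
# S17 (route R55), row MF: the frame of `X₀(N)` exists

`h55_exists_frame` in the exact form of the skeleton (the frame is `h35_modularFrame N`; the
hypotheses `hN`, `hN5` are not needed and are kept only for the binder shape).
-/

set_option autoImplicit false

open AlgebraicCurve ModularCurve

namespace Fermat.Agent.S17

open Fermat.Agent.S18 Fermat.Agent.S27

local notation "Qbar" => AlgebraicClosure ℚ
local notation "GQ" => (AlgebraicClosure ℚ ≃ₐ[ℚ] AlgebraicClosure ℚ)

set_option linter.unusedVariables false in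
/-- **Row MF**: `X₀(N)` carries a frame whose Galois action is the arithmetic one. -/
theorem h55_exists_frame (N : ℕ) [NeZero N] (hN : N.Prime) (hN5 : 5 ≤ N) :
    ∃ fr : h55_Frame (modularFunctionFieldBar N),
      ∀ σ : GQ, fr.act σ = arithmeticGalois (modularFunctionFieldFull N) σ :=
  h35_exists_frame N

end Fermat.Agent.S17
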