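import Mathlib
import Fermat.Prelude.Def_ModularCurve_ArithmeticGalois
import Fermat.Prelude.Def_GroupCohomology_ContinuousUnramified
import Fermat.Agent.S55.h46_FinH1
import Fermat.Agent.GAL.h69_Red
import Fermat.Agent.GAL.h67_GalHecke
import Fermat.Agent.S37.h60_Final

/-!
# S17, block (W): weak Mordell–Weil for `J₀(N)` (helper45)

`h45_weakMW`: for a prime `p`, the subgroup `p • J₀(N)(ℚ̄)^G` has finite index in the group
`J₀(N)(ℚ̄)^G` of Galois-fixed points, under three hypotheses on `J₀(N)(ℚ̄)`: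

* `hfin` : the `p`-torsion is finite;
* `hdiv` : every class is divisible by `p`;
* `hsm`  : every class is fixed by `Gal(ℚ̄/E)` for a number field `E`.

Proof: for a fixed point `x` and `y` with `p • y = x` the map `σ ↦ σ • y - y` is a 1-cocycle
with values in the `p`-torsion which is constant modulo a level unramified outside
`S = {p} ∪ {q ∣ N}` (reduction data of S37 at the primes outside `S`); there are only finitely
many such cocycles (S55, FIN-H1), and two fixed points with the same cocycle differ by an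
element of `p • J^G`.
-/

set_option autoImplicit false

open ModularCurve AlgebraicCurve groupCohomology ExtCitation

namespace Fermat.Agent.S17

local notation "Qbar" => AlgebraicClosure ℚ
local notation "GQ" => (AlgebraicClosure ℚ ≃ₐ[ℚ] AlgebraicClosure ℚ)

/-- Abstract step: a map to a finite set whose fibres lie in single cosets of `p • A`. -/
theorem h45_finiteIndex_of_map {A : Type*} [AddCommGroup A] (p : ℕ) {X : Type*} [Finite X]
    (Φ : A → X) (hΦ : ∀ x x' : A, Φ x = Φ x' → ∃ z : A, x - x' = p • z) :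
    (nsmulAddMonoidHom (α := A) p).range.FiniteIndex := by
  set H : AddSubgroup A := (nsmulAddMonoidHom (α := A) p).range with hH
  have hinj : Function.Injective (fun q : A ⧸ H => Φ (Quotient.out q)) := by
    intro q q' h
    obtain ⟨z, hz⟩ := hΦ _ _ h
    have hmem : -(Quotient.out q) + Quotient.out q' ∈ H := by
      refine ⟨-z, ?_⟩
      show p • (-z) = _
      rw [smul_neg, ← hz]
      abel
    have := (QuotientAddGroup.eq (s := H)).2 hmem
    rwa [QuotientAddGroup.out_eq', QuotientAddGroup.out_eq'] at this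
  have : Finite (A ⧸ H) := Finite.of_injective _ hinj
  exact AddSubgroup.finiteIndex_of_finite_quotient

/-- The set `S = {p} ∪ {q : q ∣ N}` of bad primes. -/
noncomputable def h45_badSet (N p : ℕ) [Fact p.Prime] : Finset Nat.Primes :=
  insert (pPrime p) (N.primeFactors.subtype Nat.Prime)

theorem h45_not_dvd_of_not_mem {N p : ℕ} [NeZero N] [Fact p.Prime] {q : Nat.Primes}
    (hq : q ∉ h45_badSet N p) : ¬ (q : ℕ) ∣ N * p := by
  intro hdvd
  apply hq
  rw [h45_badSet, Finset.mem_insert]
  rcases (Nat.Prime.dvd_mul q.2).1 hdvd with h | h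
  · right
    exact Finset.mem_subtype.2 (Nat.mem_primeFactors.2 ⟨q.2, h, NeZero.ne N⟩)
  · left
    apply Subtype.ext
    exact (Nat.prime_dvd_prime_iff_eq q.2 (Fact.out : p.Prime)).1 h

/-- Inertia outside `S` fixes every `p`-th division point of a Galois-fixed point. -/
theorem h45_inertia_fix (N : ℕ) [NeZero N] (p : ℕ) [Fact p.Prime] {q : Nat.Primes}
    (hq : q ∉ h45_badSet N p) (A : ValuationSubring Qbar) (hA : A.LiesOverPrime (q : ℕ))
    (σ : GQ) (hσ : σ ∈ A.inertiaSubgroupIn ℚ) (y : JZero N) (hy : σ • (p • y) = p • y) :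
    σ • y = y := by
  obtain ⟨Jbar, _, red, φ, hI, -, -, hinj⟩ :=
    Fermat.Agent.S37.h60_redData N p (q : ℕ) q.2 (h45_not_dvd_of_not_mem hq) A hA
  have h1 : p • (σ • y - y) = 0 := by
    rw [nsmul_sub, Fermat.Agent.GAL.h69_nsmul_smul σ p y, hy, sub_self]
  have h2 : red (σ • y - y) = 0 := by
    rw [map_sub, hI σ hσ y, sub_self]
  exact sub_eq_zero.1 (hinj _ ⟨1, by rw [pow_one]; exact h1⟩ h2)

/-- The `p`-torsion of `J₀(N)` as a representation of the absolute Galois group. -/
noncomputable abbrev h45_torsRep (N p : ℕ) : Rep.{0, 0, 0} (ZMod p) GQ :=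
  Rep.of (JZero.torsionGaloisRep N p)

theorem h45_torsRep_coe (N p : ℕ) (σ : GQ)
    (m : Pic0.torsion Qbar (modularFunctionFieldBar N) p) :
    (((h45_torsRep N p).ρ σ m : Pic0.torsion Qbar (modularFunctionFieldBar N) p) : JZero N) =
      σ • (m : JZero N) :=
  rfl

/-- The division cocycle `σ ↦ σ • y - y` of a point `y` with `p • y` Galois-fixed. -/
noncomputable def h45_coc (N p : ℕ) (y : JZero N)
    (hy : ∀ σ : GQ, σ • (p • y) = p • y) :
    GQ → Pic0.torsion Qbar (modularFunctionFieldBar N) p :=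
  fun σ => ⟨σ • y - y, by
    rw [Pic0.mem_torsion, natCast_zsmul, nsmul_sub, Fermat.Agent.GAL.h69_nsmul_smul σ p y, hy σ,
      sub_self]⟩

theorem h45_coc_coe (N p : ℕ) (y : JZero N) (hy : ∀ σ : GQ, σ • (p • y) = p • y) (σ : GQ) :
    ((h45_coc N p y hy σ : Pic0.torsion Qbar (modularFunctionFieldBar N) p) : JZero N) =
      σ • y - y :=
  rfl

theorem h45_coc_mem (N p : ℕ) (y : JZero N) (hy : ∀ σ : GQ, σ • (p • y) = p • y) :
    (h45_coc N p y hy : GQ → h45_torsRep N p) ∈ cocycles₁ (h45_torsRep N p) := by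
  rw [mem_cocycles₁_iff]
  intro g h
  apply Subtype.ext
  rw [AddSubgroup.coe_add, h45_torsRep_coe, h45_coc_coe, h45_coc_coe, h45_coc_coe, mul_smul,
    smul_sub]
  abel

/-- The division cocycle is constant modulo a level unramified outside `S`. -/
theorem h45_coc_level (N : ℕ) [NeZero N] (p : ℕ) [Fact p.Prime] (y : JZero N)
    (hy : ∀ σ : GQ, σ • (p • y) = p • y)
    (hsm : ∃ E : IntermediateField ℚ Qbar, FiniteDimensional ℚ E ∧
      ∀ σ : GQ, σ ∈ E.fixingSubgroup → σ • y = y) :
    IsLevelConstantS₁ (h45_badSet N p) (h45_coc N p y hy) := by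
  obtain ⟨E, hE, hEfix⟩ := hsm
  have hgal : IsGalois ℚ Qbar := Fermat.Agent.S13.h24_isGalois_Qbar
  set H : Subgroup GQ := MulAction.stabilizer GQ y with hH
  have hEH : E.fixingSubgroup ≤ H := fun σ hσ => MulAction.mem_stabilizer_iff.2 (hEfix σ hσ)
  have hopen : IsOpen (H : Set GQ) := Subgroup.isOpen_mono hEH E.fixingSubgroup_isOpen
  have hclosed : IsClosed (H : Set GQ) := Subgroup.isClosed_of_isOpen H hopen
  set F : IntermediateField ℚ Qbar := IntermediateField.fixedField H with hF
  have hFfix : F.fixingSubgroup = H :=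
    InfiniteGalois.fixingSubgroup_fixedField (⟨H, hclosed⟩ : ClosedSubgroup GQ)
  have hFE : F ≤ E := by
    have h1 : IntermediateField.fixedField H ≤ IntermediateField.fixedField E.fixingSubgroup :=
      IntermediateField.fixedField_antitone hEH
    rwa [InfiniteGalois.fixedField_fixingSubgroup E] at h1
  have hFfin : FiniteDimensional ℚ F :=
    FiniteDimensional.of_injective (IntermediateField.inclusion hFE).toLinearMap
      (IntermediateField.inclusion_injective hFE)
  refine ⟨F, ⟨hFfin, fun q hq A hA σ hσ => ?_⟩, fun g s hs => ?_⟩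
  · rw [hFfix]
    exact MulAction.mem_stabilizer_iff.2 (h45_inertia_fix N p hq A hA σ hσ y (hy σ))
  · rw [hFfix] at hs
    have hs' : s • y = y := MulAction.mem_stabilizer_iff.1 hs
    apply Subtype.ext
    rw [h45_coc_coe, h45_coc_coe, mul_smul, hs']

/-- **Weak Mordell–Weil for `J₀(N)`**: `p • J^G` has finite index in `J^G`. -/
theorem h45_weakMW (N : ℕ) [NeZero N] (p : ℕ) [Fact p.Prime]
    (hfin : Finite (Pic0.torsion Qbar (modularFunctionFieldBar N) p))
    (hdiv : ∀ x : JZero N, ∃ y : JZero N, p • y = x)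
    (hsm : ∀ y : JZero N, ∃ E : IntermediateField ℚ Qbar, FiniteDimensional ℚ E ∧
      ∀ σ : GQ, σ ∈ E.fixingSubgroup → σ • y = y) :
    (nsmulAddMonoidHom (α := ↥(FixedPoints.addSubgroup GQ (JZero N))) p).range.FiniteIndex := by
  classical
  have hp : p.Prime := Fact.out
  set S : Finset Nat.Primes := h45_badSet N p with hS
  set M : Rep.{0, 0, 0} (ZMod p) GQ := h45_torsRep N p with hM
  have hpS : pPrime p ∈ S := Finset.mem_insert_self _ _
  have hMfin : Finite M := hfin
  have hMfd : FiniteDimensional (ZMod p) M := Module.Finite.of_finite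
  have hMsm : ∀ m : M, ∃ F : IntermediateField ℚ Qbar, FiniteDimensional ℚ F ∧
      ∀ s ∈ F.fixingSubgroup, M.ρ s m = m := by
    intro m
    obtain ⟨E, hE, hEfix⟩ := hsm ((m : Pic0.torsion Qbar (modularFunctionFieldBar N) p) : JZero N)
    exact ⟨E, hE, fun s hs => Subtype.ext (hEfix s hs)⟩
  have hMur : ∀ q : Nat.Primes, q ∉ S → ∀ A : ValuationSubring Qbar,
      A.LiesOverPrime (q : ℕ) → ∀ g ∈ A.inertiaSubgroupIn ℚ, M.ρ g = 1 := by
    intro q hq A hA g hg
    refine LinearMap.ext fun m => Subtype.ext ?_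
    have hm : p • ((m : Pic0.torsion Qbar (modularFunctionFieldBar N) p) : JZero N) = 0 := by
      have := Pic0.mem_torsion.1 (m : Pic0.torsion Qbar (modularFunctionFieldBar N) p).2
      rwa [natCast_zsmul] at this
    exact Fermat.Agent.GAL.gal_red_unr N p q.2 A
      (Fermat.Agent.S37.h60_redData N p (q : ℕ) q.2 (h45_not_dvd_of_not_mem hq) A hA) g hg _ hm
  have hfinC : Finite (levelCocyclesS₁ S M) :=
    Fermat.Agent.S55.h46_finite_levelCocyclesS₁ S hpS M hMsm hMur
  -- the division point and its cocycle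
  have hfix : ∀ x : ↥(FixedPoints.addSubgroup GQ (JZero N)), ∀ σ : GQ,
      σ • (x : JZero N) = (x : JZero N) := fun x σ =>
    (FixedPoints.mem_addSubgroup GQ (JZero N) _).1 x.2 σ
  choose d hd using hdiv
  have hdy : ∀ x : ↥(FixedPoints.addSubgroup GQ (JZero N)), ∀ σ : GQ,
      σ • (p • d (x : JZero N)) = p • d (x : JZero N) := by
    intro x σ
    rw [hd]
    exact hfix x σ
  let Φ : ↥(FixedPoints.addSubgroup GQ (JZero N)) → levelCocyclesS₁ S M := fun x =>
    ⟨⟨h45_coc N p (d (x : JZero N)) (hdy x), h45_coc_mem N p _ (hdy x)⟩,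
      h45_coc_level N p _ (hdy x) (hsm _)⟩
  refine h45_finiteIndex_of_map p Φ ?_
  intro x x' h
  have hval : ∀ σ : GQ, σ • d (x : JZero N) - d (x : JZero N) =
      σ • d (x' : JZero N) - d (x' : JZero N) := by
    intro σ
    have h1 := congrArg (fun c : levelCocyclesS₁ S M =>
      (((c : cocycles₁ M) : GQ → M) σ : JZero N)) h
    exact h1
  have hz : d (x : JZero N) - d (x' : JZero N) ∈ FixedPoints.addSubgroup GQ (JZero N) := by
    rw [FixedPoints.mem_addSubgroup]
    intro σ
    have := hval σ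
    rw [smul_sub, sub_eq_sub_iff_add_eq_add]
    rw [sub_eq_sub_iff_add_eq_add] at this
    rw [this, add_comm]
  refine ⟨⟨_, hz⟩, Subtype.ext ?_⟩
  rw [AddSubgroup.coe_sub, AddSubgroup.coe_nsmul]
  show (x : JZero N) - (x' : JZero N) = p • (d (x : JZero N) - d (x' : JZero N))
  rw [nsmul_sub, hd, hd]

end Fermat.Agent.S17
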