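import Fermat.Agent.S27.Lift

/-!
# S17 (O1): the kernel of reduction on `Pic⁰` is `m`-divisible (`m` invertible in `k`)

Variant of the assembly of `Fermat/Agent/S27/Lift.lean` (`h2_asm_lift_core`, helper2) with the
space `L(m G')` replaced by `L(m G' + D)` for a divisor `D` of degree `0` with
`mapDomain r0 D = 0`: the Hensel solution gives places `T_j` with
`m (∑ T_j - G') - D` principal.  On the reduced curve the data are those of the class `0`; only
the denominator polynomial changes (`d` is multiplied by a polynomial `w` vanishing at the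
finite places of the support of `D`).

* `h56_exists_regularizer`: the polynomial `w`.
* `h56_conclude`: the final divisor computation.
* `h56_kerdiv_core`, `h56_kerdiv`: the statement.
-/

set_option autoImplicit false

noncomputable section

open AlgebraicCurve Fermat.Agent.S18 Fermat.Agent.S27 Polynomial IntermediateField

namespace Fermat.Agent.S17

variable {K F k Fb : Type*} [Field K] [Field F] [Algebra K F] [Field k] [Field Fb] [Algebra k Fb]

/-! ### The regularising polynomial -/

/-- the linear factor attached to a value `a`: `X - a` if `a ∈ A`, `a⁻¹ X - 1` otherwise. -/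
def h56_fac (A : ValuationSubring K) (a : K) : Polynomial A := by
  classical
  exact if h : a ∈ A then X - C ⟨a, h⟩
    else C ⟨a⁻¹, (A.mem_or_inv_mem a).resolve_left h⟩ * X - 1

theorem h56_fac_dvd (A : ValuationSubring K) (a : K) :
    (X - C a : K[X]) ∣ (h56_fac A a).map A.subtype := by
  classical
  unfold h56_fac
  split_ifs with h
  · rw [Polynomial.map_sub, Polynomial.map_X, Polynomial.map_C]
    exact dvd_rfl
  · have ha : a ≠ 0 := fun h0 => h (h0 ▸ A.zero_mem)
    rw [Polynomial.map_sub, Polynomial.map_mul, Polynomial.map_X, Polynomial.map_C,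
      Polynomial.map_one]
    refine ⟨C a⁻¹, ?_⟩
    show C a⁻¹ * X - 1 = (X - C a) * C a⁻¹
    rw [sub_mul, ← C_mul, mul_inv_cancel₀ ha, C_1]
    ring

theorem h56_fac_map_ne_zero (A : ValuationSubring K) (res : A →+* k) (a : K) :
    (h56_fac A a).map res ≠ 0 := by
  classical
  unfold h56_fac
  split_ifs with h
  · rw [Polynomial.map_sub, Polynomial.map_X, Polynomial.map_C]
    exact X_sub_C_ne_zero _
  · rw [Polynomial.map_sub, Polynomial.map_mul, Polynomial.map_X, Polynomial.map_C,
      Polynomial.map_one]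
    intro h0
    have h1 := congrArg (fun p : k[X] => p.coeff 0) h0
    simp at h1

theorem h56_fac_eval (A : ValuationSubring K) (a : A) : (h56_fac A (a : K)).eval a = 0 := by
  classical
  unfold h56_fac
  rw [dif_pos a.2]
  simp

/-- **The regularising polynomial** of a divisor `D`: `w ∈ A[X]` with nonzero reduction such
that `w(x)` vanishes to order `≥ D P` at every finite place `P` of the chart, and `w` vanishes
at the `x`-value of every place of the support of `D` lying in the disc. -/
theorem h56_exists_regularizer [IsAlgClosed K] (R : h39_RedDatum K F k Fb) {x : F}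
    (hxK : h75_IsChart K x) (D : Divisor K F) :
    ∃ w : Polynomial R.A, w.map R.res ≠ 0 ∧
      (∀ P : Place K F, x ∈ P.toValuationSubring →
        D P ≤ P.ord (aeval x (w.map R.A.subtype))) ∧
      (∀ P : Place K F, D P ≠ 0 → ∀ a : R.A, h39_Val P x (a : K) → w.eval a = 0) := by
  classical
  -- the values
  have hval : ∀ P : Place K F, ∃ a : K, x ∈ P.toValuationSubring → h39_Val P x a := by
    intro P
    by_cases hP : x ∈ P.toValuationSubring
    · obtain ⟨a, ha⟩ := h39_exists_val hxK P hP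
      exact ⟨a, fun _ => ha⟩
    · exact ⟨1, fun h => absurd h hP⟩
  choose a ha using hval
  set N : ℕ := 1 + D.support.sup (fun P => (D P).toNat) with hN
  set u : Polynomial R.A := ∏ P ∈ D.support, h56_fac R.A (a P) with hu
  have hub : u.map R.res ≠ 0 := by
    rw [hu, Polynomial.map_prod]
    exact Finset.prod_ne_zero_iff.mpr fun P _ => h56_fac_map_ne_zero R.A R.res (a P)
  have hwb : (u ^ N).map R.res ≠ 0 := by
    rw [Polynomial.map_pow]
    exact pow_ne_zero _ hub
  have hw0 : (u ^ N).map R.A.subtype ≠ 0 := by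
    intro h0
    apply hwb
    have h1 : u ^ N = 0 :=
      (Polynomial.map_eq_zero_iff (Subtype.val_injective : Function.Injective R.A.subtype)).mp h0
    rw [h1, Polynomial.map_zero]
  have hwx0 : aeval x ((u ^ N).map R.A.subtype) ≠ 0 :=
    fun h => hw0 ((transcendental_iff.mp hxK.tr) _ h)
  have hxne : ∀ b : K, x - algebraMap K F b ≠ 0 := by
    intro b h
    exact hxK.tr ((sub_eq_zero.mp h) ▸ isAlgebraic_algebraMap b)
  refine ⟨u ^ N, hwb, ?_, ?_⟩
  · intro P hP
    have hreg : ∀ q : K[X], aeval x q ∈ P.toValuationSubring :=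
      fun q => h39_val_mem P (h2_asm_val_aeval P (ha P hP) q)
    by_cases hDP : D P ≤ 0
    · exact le_trans hDP (Fermat.Agent.S24.h24_ord_nonneg_of_mem P (hreg _))
    · have hsupp : P ∈ D.support := by
        rw [Finsupp.mem_support_iff]
        intro h0
        exact hDP (by rw [h0])
      -- `(X - C (a P)) ^ N ∣ w`
      have hd1 : (X - C (a P) : K[X]) ∣ u.map R.A.subtype := by
        rw [hu, Polynomial.map_prod]
        exact dvd_trans (h56_fac_dvd R.A (a P)) (Finset.dvd_prod_of_mem _ hsupp)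
      obtain ⟨q, hq⟩ := pow_dvd_pow_of_dvd hd1 N
      have hq0 : aeval x q ≠ 0 := by
        intro h0
        apply hwx0
        rw [Polynomial.map_pow, hq, map_mul, h0, mul_zero]
      have hxa : 0 < P.ord (x - algebraMap K F (a P)) := by
        rcases ha P hP with h | h
        · exact absurd (sub_eq_zero.mpr h) (hxne _)
        · exact h
      have hpow0 : (x - algebraMap K F (a P)) ^ N ≠ 0 := pow_ne_zero _ (hxne _)
      have hord : P.ord (aeval x ((u ^ N).map R.A.subtype)) =
          (N : ℤ) * P.ord (x - algebraMap K F (a P)) + P.ord (aeval x q) := by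
        rw [Polynomial.map_pow, hq, map_mul, map_pow, map_sub, aeval_X, aeval_C,
          P.ord_mul hpow0 hq0, ← zpow_natCast, P.ord_zpow]
      have hq1 : 0 ≤ P.ord (aeval x q) := Fermat.Agent.S24.h24_ord_nonneg_of_mem P (hreg q)
      have hDN : D P ≤ (N : ℤ) := by
        have h1 : (D P).toNat ≤ D.support.sup (fun P => (D P).toNat) :=
          Finset.le_sup (f := fun P => (D P).toNat) hsupp
        have h2 : D P ≤ ((D P).toNat : ℤ) := Int.self_le_toNat _
        have h3 : ((D P).toNat : ℤ) ≤ (N : ℤ) := by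
          rw [hN]
          exact_mod_cast le_trans h1 (Nat.le_add_left _ 1)
        exact le_trans h2 h3
      rw [hord]
      have hN0 : (0 : ℤ) ≤ N := Nat.cast_nonneg N
      nlinarith
  · intro P hDP b hb
    have hsupp : P ∈ D.support := Finsupp.mem_support_iff.mpr hDP
    have hP : x ∈ P.toValuationSubring := h39_val_mem P hb
    have hab : a P = (b : K) := h39_val_unique P (ha P hP) hb
    have h1 : (h56_fac R.A (a P)).eval b = 0 := by
      rw [hab]
      exact h56_fac_eval R.A b
    have h2 : u.eval b = 0 := by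
      rw [hu, Polynomial.eval_prod]
      exact Finset.prod_eq_zero hsupp h1
    rw [Polynomial.eval_pow, h2]
    exact zero_pow (by rw [hN]; omega)

/-! ### The conclusion -/

theorem h56_conclude [IsAlgClosed K] {x : F} (hxK : h75_IsChart K x) (m g : ℕ)
    (G' : Divisor K F) (hG'deg : Divisor.degree G' = g) (D : Divisor K F)
    (hDdeg : Divisor.degree D = 0) (T' : Fin g → Place K F)
    (hT' : Function.Injective T') (hG'T : ∀ j, G' (T' j) = 0) (hDT : ∀ j, D (T' j) = 0)
    (f : F) (hf0 : f ≠ 0)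
    (hfV : f ∈ riemannRochSpace (m • G' + D)) (hford : ∀ j, (m : ℤ) ≤ (T' j).ord f) :
    Divisor.degree ((∑ j, Finsupp.single (T' j) (1 : ℤ)) - G') = 0 ∧
      m • ((∑ j, Finsupp.single (T' j) (1 : ℤ)) - G') - D ∈
        Divisor.principal (K := K) (F := F) := by
  classical
  have hdeg0 : Divisor.degree ((∑ j, Finsupp.single (T' j) (1 : ℤ)) - G') = 0 := by
    rw [map_sub, map_sum, hG'deg]
    simp only [Divisor.degree_single, h75_deg_eq_one hxK, Nat.cast_one, mul_one,
      Finset.sum_const, Finset.card_univ, Fintype.card_fin]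
    simp
  refine ⟨hdeg0, ?_⟩
  have hsum : ∀ P : Place K F, (∑ j, Finsupp.single (T' j) (1 : ℤ)) P =
      if ∃ j, T' j = P then 1 else 0 := by
    intro P
    rw [Finsupp.finsetSum_apply]
    split_ifs with h
    · obtain ⟨j, rfl⟩ := h
      rw [Finset.sum_eq_single j]
      · simp
      · intro i _ hij
        rw [Finsupp.single_apply, if_neg (fun h => hij (hT' h))]
      · intro h
        exact absurd (Finset.mem_univ j) h
    · refine Finset.sum_eq_zero fun i _ => ?_
      rw [Finsupp.single_apply, if_neg (fun hi => h ⟨i, hi⟩)]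
  have hle : ∀ P : Place K F,
      (m • ((∑ j, Finsupp.single (T' j) (1 : ℤ)) - G') - D) P ≤ P.ord f := by
    intro P
    rw [Finsupp.sub_apply, Finsupp.smul_apply, Finsupp.sub_apply, hsum P, nsmul_eq_mul]
    split_ifs with h
    · obtain ⟨j, rfl⟩ := h
      rw [hG'T j, hDT j, sub_zero, sub_zero, mul_one]
      exact hford j
    · rcases (mem_riemannRochSpace_iff.mp hfV) P with h1 | h1
      · exact absurd h1 hf0
      · rw [Finsupp.add_apply, Finsupp.smul_apply, nsmul_eq_mul] at h1
        linarith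
  have hD0 : Divisor.degree (m • ((∑ j, Finsupp.single (T' j) (1 : ℤ)) - G') - D) = 0 := by
    rw [map_sub, map_nsmul, hdeg0, smul_zero, hDdeg, sub_zero]
  have heq := h64_ord_eq_of_le_of_degree hxK f hf0 _ hle hD0
  exact ⟨f, hf0, fun v => (heq v).symm⟩

/-! ### The assembly -/

/-- the core of KER-DIV: a divisor of degree `0` with trivial reduction is `m` times a divisor,
up to a principal divisor; given the plane coordinates of COORD. -/
theorem h56_kerdiv_core [IsAlgClosed K] [CharZero K] [IsAlgClosed k]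
    (R : h39_RedDatum K F k Fb) {x : F} (hx : h39_Chart R x) (S : h39_PlaceRed R)
    (hS1 : ∃ r : Place K F → Place k Fb, h39_IsChartRed R x r ∧
        ∀ P : Place K F, h39_InDisc R x P → S.r0 P = r P)
    (m : ℕ) (hm2 : 2 ≤ m) (hm : (m : k) ≠ 0) (D : Divisor K F)
    (hDdeg : Divisor.degree D = 0) (hDr0 : Finsupp.mapDomain S.r0 D = 0)
    (y : F) (Φ : Polynomial (Polynomial R.A)) (d₀ : Polynomial R.A)
    (hyO : y ∈ R.O) (hyreg : h39_Reg K x y) (hybreg : h39_Reg k (R.redF x) (R.redF y))
    (hΦ : h15_ev2 x y (Φ.map (Polynomial.mapRingHom R.A.subtype)) = 0)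
    (hd₀0 : d₀.map R.res ≠ 0)
    (hden : ∀ f : F, f ∈ R.O → h39_Reg K x f → ∃ H : Polynomial (Polynomial R.A),
        h15_ev2 x y (H.map (Polynomial.mapRingHom R.A.subtype)) =
          aeval x (d₀.map R.A.subtype) * f)
    (hpt : ∀ ξ η : R.A, (Φ.eval (C η)).eval ξ = 0 →
        ∃ P : Place K F, h39_Val P x (ξ : K) ∧ h39_Val P y (η : K))
    (hgood : ∀ (Q : Place k Fb) (b c : k), h39_Val Q (R.redF x) b → h39_Val Q (R.redF y) c →
        (d₀.map R.res).eval b ≠ 0 →
          Q.ord (R.redF x - algebraMap k Fb b) = 1 ∧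
          ((Φ.map (Polynomial.mapRingHom R.res)).derivative.eval (C c)).eval b ≠ 0 ∧
          ∀ Q' : Place k Fb, h39_Val Q' (R.redF x) b → h39_Val Q' (R.redF y) c → Q' = Q) :
    ∃ D' : Divisor K F, Divisor.degree D' = 0 ∧
      m • D' - D ∈ Divisor.principal (K := K) (F := F) := by
  classical
  have hw := hx.toh39_WeakChart
  have hxK : h75_IsChart K x := h39_weakChart_isChart R hw
  have hxk : h75_IsChart k (R.redF x) := h39_weakChart_isChart_red R hw
  have := h75_hasPrincipalDivisors hxK
  have := h75_hasPrincipalDivisors hxk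
  have hm0 : 0 < m := by omega
  obtain ⟨Z, hZA, hZinj, hZ⟩ := hx.branch
  -- the regularising polynomial and the new denominator
  obtain ⟨w, hwb, hword, hwev⟩ := h56_exists_regularizer R hxK D
  set d : Polynomial R.A := d₀ * w with hddef
  have hd0 : d.map R.res ≠ 0 := by
    rw [hddef, Polynomial.map_mul]
    exact mul_ne_zero hd₀0 hwb
  set xb := R.redF x with hxbdef
  set yb := R.redF y with hybdef
  set Φb := Φ.map (Polynomial.mapRingHom R.res) with hΦbdef
  set db := d.map R.res with hdbdef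
  -- MOVE
  obtain ⟨T, Gp, E, hTinj, hTbad, hGp0, hGpsupp, hE0, hET, hdegG, hprinc, hl⟩ :=
    h15_move hxk (0 : Divisor k Fb) (map_zero _) _ (h2_asm_bad_finite hxk db hd0 (R.resK '' (Z : Set K))
      (Z.finite_toSet.image _))
  have hTmem : ∀ j, xb ∈ (T j).toValuationSubring := by
    intro j
    by_contra h
    exact hTbad j (Or.inl h)
  choose ξb hξb using fun j => h39_exists_val hxk (T j) (hTmem j)
  have hdξ : ∀ j, db.eval (ξb j) ≠ 0 :=
    fun j h => hTbad j (Or.inr ⟨ξb j, hξb j, Or.inl h⟩)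
  have hd₀ξ : ∀ j, (d₀.map R.res).eval (ξb j) ≠ 0 := by
    intro j h
    apply hdξ j
    rw [hdbdef, hddef, Polynomial.map_mul, Polynomial.eval_mul, h, zero_mul]
  have hZξ : ∀ j, ξb j ∉ R.resK '' (Z : Set K) :=
    fun j h => hTbad j (Or.inr ⟨ξb j, hξb j, Or.inr h⟩)
  have hybmem : ∀ j, yb ∈ (T j).toValuationSubring := fun j => hybreg (T j) (hTmem j)
  choose ηb hηb using fun j => h39_exists_val hxk (T j) (hybmem j)
  have hord : ∀ j, (T j).ord (xb - algebraMap k Fb (ξb j)) = 1 :=
    fun j => (hgood (T j) (ξb j) (ηb j) (hξb j) (hηb j) (hd₀ξ j)).1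
  have hsmb : ∀ j, (Φb.derivative.eval (C (ηb j))).eval (ξb j) ≠ 0 :=
    fun j => (hgood (T j) (ξb j) (ηb j) (hξb j) (hηb j) (hd₀ξ j)).2.1
  have huniq : ∀ j, ∀ Q' : Place k Fb, h39_Val Q' xb (ξb j) → h39_Val Q' yb (ηb j) →
      Q' = T j :=
    fun j => (hgood (T j) (ξb j) (ηb j) (hξb j) (hηb j) (hd₀ξ j)).2.2
  have hGpT : ∀ j, Gp (T j) = 0 := by
    intro j
    by_contra h
    exact hGpsupp (T j) h (hTmem j)
  have hsumT : ∀ j, (∑ i, Finsupp.single (T i) (1 : ℤ)) (T j) = 1 := by
    intro j
    rw [Finsupp.finsetSum_apply, Finset.sum_eq_single j]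
    · simp
    · intro i _ hij
      rw [Finsupp.single_apply, if_neg (fun h => hij (hTinj h))]
    · intro h
      exact absurd (Finset.mem_univ j) h
  -- linear data
  obtain ⟨GpK, EK, hGpKsupp, hEK0, hEKsupp, hmap, hdim, hsurj⟩ :=
    h2_asm_linear R hx S m hm2 Gp E hGpsupp hE0 hdegG
  rw [← hxbdef] at hdim
  have hG'deg : Divisor.degree (GpK - EK) = (h75_genus k xb : ℕ) := by
    rw [← h64_degree_mapDomain_r0 R S hxK hxk, hmap, hdegG]
  have hgen : h75_genus k xb = h75_genus K x := h39_genus_eq R hx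
  have hsurjD : ∀ fb ∈ riemannRochSpace (m • (Gp - E)),
      ∃ f ∈ riemannRochSpace (m • (GpK - EK) + D), f ∈ R.O ∧ R.redF f = fb := by
    have hmapm : Finsupp.mapDomain S.r0 (m • (GpK - EK) + D) = m • (Gp - E) := by
      rw [Finsupp.mapDomain_add, Finsupp.mapDomain_smul, hmap, hDr0, add_zero]
    have hdegD : Divisor.degree (m • (GpK - EK) + D) = m * h75_genus K x := by
      rw [map_add, map_nsmul, hG'deg, hDdeg, add_zero, hgen, nsmul_eq_mul]
    have hm2' : (2 : ℤ) ≤ m := by exact_mod_cast hm2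
    have hg0 : (0 : ℤ) ≤ h75_genus K x := Nat.cast_nonneg _
    have hdK : (Module.finrank K (riemannRochSpace (m • (GpK - EK) + D)) : ℤ) =
        m * h75_genus K x + 1 - h75_genus K x := by
      rw [h15_finrank_rr_of_deg hxK _ (by rw [hdegD]; nlinarith), hdegD]
    have : FiniteDimensional K (riemannRochSpace (m • (GpK - EK) + D)) :=
      (h75_riemann hxK _).1
    have : FiniteDimensional k (riemannRochSpace (m • (Gp - E))) := (h75_riemann hxk _).1
    refine h39_red_surjective_of_finrank R hw _ _ (fun f hf hfO => ?_) ?_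
    · have := h64_red_mem_rr R S.r0 S.compat (m • (GpK - EK) + D) hf hfO
      rwa [hmapm] at this
    · have h4 : ((Module.finrank k (riemannRochSpace (m • (Gp - E))) : ℕ) : ℤ) +
          (h75_genus k xb : ℤ) = m * (h75_genus k xb : ℤ) + 1 := by exact_mod_cast hdim
      rw [hgen] at h4
      have h3 : (Module.finrank k (riemannRochSpace (m • (Gp - E))) : ℤ) =
          (Module.finrank K (riemannRochSpace (m • (GpK - EK) + D)) : ℤ) := by
        rw [hdK]
        linarith
      exact le_of_eq (by exact_mod_cast h3)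
  -- the function `f0b` with divisor `m (∑ T_j - (Gp - E))`
  have hprinc2 : m • ((∑ j, Finsupp.single (T j) (1 : ℤ)) - (Gp - E)) ∈
      Divisor.principal (K := k) (F := Fb) := by
    have h1 := nsmul_mem hprinc m
    rwa [sub_zero] at h1
  obtain ⟨f0b, hf0b0, hf0bdiv⟩ := Divisor.mem_principal.mp hprinc2
  have hdivf0 : ∀ P : Place k Fb, P.ord f0b =
      m * ((∑ j, Finsupp.single (T j) (1 : ℤ)) P - (Gp - E) P) := by
    intro P
    rw [← hf0bdiv P, Finsupp.smul_apply, Finsupp.sub_apply, nsmul_eq_mul]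
  have hf0bV : f0b ∈ riemannRochSpace (m • (Gp - E)) := by
    rw [mem_riemannRochSpace_iff]
    intro P
    right
    rw [hdivf0 P, Finsupp.smul_apply, nsmul_eq_mul]
    have h1 : (0 : ℤ) ≤ (∑ j, Finsupp.single (T j) (1 : ℤ)) P := by
      rw [Finsupp.finsetSum_apply]
      refine Finset.sum_nonneg fun i _ => ?_
      rw [Finsupp.single_apply]
      split_ifs <;> norm_num
    have h2 : (0 : ℤ) ≤ m := Nat.cast_nonneg m
    nlinarith
  -- the basis
  obtain ⟨M, hM⟩ : ∃ M : ℕ, M + h75_genus k xb = m * h75_genus k xb :=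
    ⟨m * h75_genus k xb - h75_genus k xb, by
      have : h75_genus k xb ≤ m * h75_genus k xb := Nat.le_mul_of_pos_left _ hm0
      omega⟩
  have : FiniteDimensional k (riemannRochSpace (m • (Gp - E))) := (h75_riemann hxk _).1
  have hfinrank : Module.finrank k (riemannRochSpace (m • (Gp - E))) = M + 1 := by omega
  obtain ⟨eb, hebV, hli⟩ := h2_asm_exists_extend _ M hfinrank f0b hf0bV hf0b0
  -- lifts
  obtain ⟨f0, hf0V, hf0O, hf0red⟩ := hsurjD f0b hf0bV
  choose e heV heO hered using fun l => hsurjD (eb l) (hebV l)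
  have hwO : aeval x (w.map R.A.subtype) ∈ R.O := h89_gauss_red_mem R hx.mem w
  have hVreg : ∀ f ∈ riemannRochSpace (m • (GpK - EK) + D),
      h39_Reg K x (aeval x (w.map R.A.subtype) * f) := by
    intro f hf P hP
    rcases (mem_riemannRochSpace_iff.mp hf) P with h | h
    · rw [h, mul_zero]
      exact zero_mem _
    · by_cases hw0 : aeval x (w.map R.A.subtype) = 0
      · rw [hw0, zero_mul]
        exact zero_mem _
      by_cases hf0' : f = 0
      · rw [hf0', mul_zero]
        exact zero_mem _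
      refine Fermat.Agent.S24.h24_mem_of_ord_nonneg P ?_
      rw [P.ord_mul hw0 hf0']
      rw [Finsupp.add_apply, Finsupp.smul_apply, Finsupp.sub_apply, nsmul_eq_mul] at h
      have h1 : GpK P = 0 := by
        by_contra h1
        exact hGpKsupp P h1 hP
      have h2 := hEK0 P
      have h3 : (0 : ℤ) ≤ m := Nat.cast_nonneg m
      have h4 := hword P hP
      rw [h1] at h
      nlinarith
  have hden' : ∀ f : F, f ∈ R.O → f ∈ riemannRochSpace (m • (GpK - EK) + D) →
      ∃ H : Polynomial (Polynomial R.A),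
        h15_ev2 x y (H.map (Polynomial.mapRingHom R.A.subtype)) =
          aeval x (d.map R.A.subtype) * f := by
    intro f hfO hfV
    obtain ⟨H, hH⟩ := hden _ (R.O.mul_mem _ _ hwO hfO) (hVreg f hfV)
    refine ⟨H, ?_⟩
    rw [hH, hddef, Polynomial.map_mul, map_mul]
    ring
  obtain ⟨H0, hH0⟩ := hden' f0 hf0O hf0V
  choose H hH using fun l => hden' (e l) (heO l) (heV l)
  -- reduced polynomial identities
  have hΦb : h15_ev2 xb yb Φb = 0 := by
    have h1 := (h2_asm_ev2_red R hx.mem hyO Φ).2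
    rw [hΦ, h39_redF_zero] at h1
    exact h1.symm
  have hdred : R.redF (aeval x (d.map R.A.subtype)) = aeval xb db := h89_gauss_red R hx.mem d
  have hdO : aeval x (d.map R.A.subtype) ∈ R.O := h89_gauss_red_mem R hx.mem d
  have hH0b : h15_ev2 xb yb (H0.map (Polynomial.mapRingHom R.res)) = aeval xb db * f0b := by
    have h1 := (h2_asm_ev2_red R hx.mem hyO H0).2
    rw [hH0, h39_redF_mul R hdO hf0O, hdred, hf0red] at h1
    exact h1.symm
  have hHb : ∀ l, h15_ev2 xb yb ((H l).map (Polynomial.mapRingHom R.res)) =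
      aeval xb db * eb l := by
    intro l
    have h1 := (h2_asm_ev2_red R hx.mem hyO (H l)).2
    rw [hH l, h39_redF_mul R hdO (heO l), hdred, hered l] at h1
    exact h1.symm
  -- truncated expansions on the reduced curve
  choose θb hθbdeg hθb using
    fun j => h15_exists_trunc hxk (T j) xb yb (ξb j) (hord j) (hybmem j) m
  have hθb0 : ∀ j, (θb j).eval 0 = ηb j := by
    intro j
    have h1 : 0 < (T j).ord (xb - algebraMap k Fb (ξb j)) := by
      rw [hord j]
      norm_num
    exact h39_val_unique (T j) (h2_asm_val_of_trunc (T j) h1 hm0 (θb j) (hθb j)) (hηb j)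
  have hdivΦb : ∀ j, X ^ m ∣ h15_sub2 Φb (ξb j) (θb j) := by
    intro j
    refine (h15_ord_ge_iff_trunc (T j) xb yb (ξb j) (hord j) m (θb j) (hθb j) Φb).mp ?_
    rw [hΦb, map_zero]
    exact zero_le
  have hdb_ne : aeval xb db ≠ 0 := fun h => hd0 ((transcendental_iff.mp hxk.tr) db h)
  have hordf0 : ∀ j, (T j).ord f0b = m := by
    intro j
    rw [hdivf0, hsumT j, Finsupp.sub_apply, hGpT j, hET j]
    ring
  have hdivH0b : ∀ j, X ^ m ∣
      h15_sub2 (H0.map (Polynomial.mapRingHom R.res)) (ξb j) (θb j) := by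
    intro j
    refine (h15_ord_ge_iff_trunc (T j) xb yb (ξb j) (hord j) m (θb j) (hθb j) _).mp ?_
    rw [hH0b, (T j).adicValuation_le_exp_iff]
    right
    rw [(T j).ord_mul hdb_ne hf0b0, hordf0 j,
      h39_ord_eq_zero_of_val (T j) (h2_asm_val_aeval (T j) (hξb j) db) (hdξ j)]
    simp
  -- approximate solution over `A`
  choose ξ0 hξ0 using fun j => R.res_surjective (ξb j)
  choose θ0 hθ0map hθ0deg using fun j => h2_asm_lift_poly R.res R.res_surjective (θb j)
  have hθ0deg' : ∀ j, (θ0 j).degree < m := fun j => by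
    rw [hθ0deg j]
    exact hθbdeg j
  have h1 : ∀ j, ∀ i < m,
      (h15_sub2 Φ (ξ0 j) (θ0 j)).coeff i ∈ IsLocalRing.maximalIdeal R.A := by
    intro j
    rw [h2_asm_coeff_mem_iff, h69_sub2_map, hξ0 j, hθ0map j]
    exact hdivΦb j
  have h2 : ∀ j, ∀ i < m,
      (h15_sub2 H0 (ξ0 j) (θ0 j)).coeff i ∈ IsLocalRing.maximalIdeal R.A := by
    intro j
    rw [h2_asm_coeff_mem_iff, h69_sub2_map, hξ0 j, hθ0map j]
    exact hdivH0b j
  -- the tangent space is trivial
  have hTan : ∀ (δξ : Fin (h75_genus k xb) → R.A)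
      (δθ : Fin (h75_genus k xb) → Polynomial R.A) (δc : Fin M → R.A),
      (∀ j, (δθ j).degree < m) →
      (∀ j, ∀ i < m, (C (δξ j) * h15_sub2 (h15_dX Φ) (ξ0 j) (θ0 j) +
          δθ j * h15_sub2 (derivative Φ) (ξ0 j) (θ0 j)).coeff i ∈
            IsLocalRing.maximalIdeal R.A) →
      (∀ j, ∀ i < m, (C (δξ j) * h15_sub2 (h15_dX H0) (ξ0 j) (θ0 j) +
          δθ j * h15_sub2 (derivative H0) (ξ0 j) (θ0 j) +
          ∑ l, C (δc l) * h15_sub2 (H l) (ξ0 j) (θ0 j)).coeff i ∈
            IsLocalRing.maximalIdeal R.A) →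
      (∀ j, δξ j ∈ IsLocalRing.maximalIdeal R.A) ∧
        (∀ j i, (δθ j).coeff i ∈ IsLocalRing.maximalIdeal R.A) ∧
        ∀ l, δc l ∈ IsLocalRing.maximalIdeal R.A := by
    intro δξ δθ δc hδθ hh1 hh2
    have hh1' : ∀ j, X ^ m ∣ C (R.res (δξ j)) * h15_sub2 (h15_dX Φb) (ξb j) (θb j) +
        (δθ j).map R.res * h15_sub2 (derivative Φb) (ξb j) (θb j) := by
      intro j
      have h3 := (h2_asm_coeff_mem_iff R _ m).mp (hh1 j)
      rw [Polynomial.map_add, Polynomial.map_mul, Polynomial.map_mul, Polynomial.map_C,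
        h69_sub2_map, h69_sub2_map, hξ0 j, hθ0map j, h69_dX_map,
        ← Polynomial.derivative_map] at h3
      exact h3
    have hh2' : ∀ j, X ^ m ∣
        C (R.res (δξ j)) *
            h15_sub2 (h15_dX (H0.map (Polynomial.mapRingHom R.res))) (ξb j) (θb j) +
          (δθ j).map R.res *
            h15_sub2 (derivative (H0.map (Polynomial.mapRingHom R.res))) (ξb j) (θb j) +
          ∑ l, C (R.res (δc l)) *
            h15_sub2 ((H l).map (Polynomial.mapRingHom R.res)) (ξb j) (θb j) := by
      intro j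
      have h3 := (h2_asm_coeff_mem_iff R _ m).mp (hh2 j)
      rw [Polynomial.map_add, Polynomial.map_add, Polynomial.map_mul, Polynomial.map_mul,
        Polynomial.map_C, h69_sub2_map, h69_sub2_map, hξ0 j, hθ0map j, h69_dX_map,
        ← Polynomial.derivative_map, Polynomial.map_sum] at h3
      simp only [Polynomial.map_mul, Polynomial.map_C, h69_sub2_map, hξ0 j, hθ0map j] at h3
      exact h3
    obtain ⟨t1, t2, t3⟩ := h15_tangent hxk xb yb Φb hΦb (h75_genus k xb) m M hm T hTinj ξb θb
      hord hθb (fun j => by rw [hθb0 j]; exact hsmb j) db hdξ (Gp - E)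
      (fun j => by rw [Finsupp.sub_apply, hGpT j, hET j, sub_zero]) hl f0b hf0b0 hdivf0 eb
      hebV hli (H0.map (Polynomial.mapRingHom R.res))
      (fun l => (H l).map (Polynomial.mapRingHom R.res)) hH0b hHb
      (fun j => R.res (δξ j)) (fun j => (δθ j).map R.res) (fun l => R.res (δc l))
      (fun j => lt_of_le_of_lt (Polynomial.degree_map_le) (hδθ j)) hh1' hh2'
    refine ⟨fun j => ?_, fun j i => ?_, fun l => ?_⟩
    · rw [← h2_asm_res_eq_zero_iff]
      exact congrFun t1 j
    · rw [← h2_asm_res_eq_zero_iff, ← Polynomial.coeff_map]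
      have h4 := congrFun t2 j
      simp only [Pi.zero_apply] at h4
      rw [h4, Polynomial.coeff_zero]
    · rw [← h2_asm_res_eq_zero_iff]
      exact congrFun t3 l
  -- HENSEL
  obtain ⟨ξ, θ, c, hθdeg, hξξ0, hθθ0, hc, hsolΦ, hsolH⟩ :=
    h15_hensel_system R.A (h75_genus k xb) m M hM Φ H0 H ξ0 θ0 hθ0deg' h1 h2 hTan
  have hresξ : ∀ j, R.res (ξ j) = ξb j := by
    intro j
    have h3 := (h2_asm_res_eq_zero_iff R _).mpr (hξξ0 j)
    rw [map_sub, sub_eq_zero] at h3
    rw [h3, hξ0 j]
  have hresθ : ∀ j, (θ j).map R.res = θb j := by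
    intro j
    rw [← hθ0map j]
    ext i
    rw [Polynomial.coeff_map, Polynomial.coeff_map]
    have h3 := (h2_asm_res_eq_zero_iff R _).mpr (hθθ0 j i)
    rw [Polynomial.coeff_sub, map_sub, sub_eq_zero] at h3
    exact h3
  have hresc : ∀ l, R.res (c l) = 0 := fun l => (h2_asm_res_eq_zero_iff R _).mpr (hc l)
  have hηres : ∀ j, R.res ((θ j).eval 0) = ηb j := by
    intro j
    rw [← hθb0 j, ← hresθ j, Polynomial.eval_zero_map]
  -- the points `T' j`
  have hroot : ∀ j, (Φ.eval (C ((θ j).eval 0))).eval (ξ j) = 0 := by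
    intro j
    rw [← h69_sub2_eval_zero]
    obtain ⟨q, hq⟩ := hsolΦ j
    rw [hq, Polynomial.eval_mul, Polynomial.eval_pow, Polynomial.eval_X,
      zero_pow (by omega), zero_mul]
  choose T' hT'x hT'y using fun j => hpt (ξ j) ((θ j).eval 0) (hroot j)
  have hresKξ : ∀ j, R.resK ((ξ j : R.A) : K) = ξb j := fun j => by
    rw [R.resK_of_mem (ξ j).2]
    exact hresξ j
  have hresKη : ∀ j, R.resK (((θ j).eval 0 : R.A) : K) = ηb j := fun j => by
    rw [R.resK_of_mem ((θ j).eval 0).2]
    exact hηres j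
  have hxreg : h39_Reg K x x := fun P hP => hP
  have hdisc : ∀ j, h39_InDisc R x (T' j) :=
    fun j => ⟨((ξ j : R.A) : K), (ξ j).2, hT'x j⟩
  have hr0 : ∀ j, S.r0 (T' j) = T j := by
    intro j
    refine huniq j _ ?_ ?_
    · have h3 := h64_r0_val_of_inDisc R S hS1 (T' j) (hdisc j) x hx.mem hxreg _ (hT'x j)
      rwa [hresKξ j] at h3
    · have h3 := h64_r0_val_of_inDisc R S hS1 (T' j) (hdisc j) y hyO hyreg _ (hT'y j)
      rwa [hresKη j] at h3
  have hT'inj : Function.Injective T' := by
    intro i j hij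
    apply hTinj
    rw [← hr0 i, ← hr0 j, hij]
  have hxne : ∀ a : K, x ≠ algebraMap K F a := by
    intro a h
    exact hxK.tr (h ▸ isAlgebraic_algebraMap a)
  have hposK : ∀ j, 0 < (T' j).ord (x - algebraMap K F ((ξ j : R.A) : K)) := by
    intro j
    rcases hT'x j with h | h
    · exact absurd h (hxne _)
    · exact h
  have hordK : ∀ j, (T' j).ord (x - algebraMap K F ((ξ j : R.A) : K)) = 1 := by
    intro j
    have h3 := hposK j
    by_contra h4
    have h5 : 2 ≤ (T' j).ord (x - algebraMap K F ((ξ j : R.A) : K)) := by omega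
    exact hZξ j ⟨_, Finset.mem_coe.mpr (hZ (T' j) _ h5), hresKξ j⟩
  -- smoothness of the lifted points
  have hsmK : ∀ j, ((Φ.map (Polynomial.mapRingHom R.A.subtype)).derivative.eval
      (C (((θ j).eval 0 : R.A) : K))).eval ((ξ j : R.A) : K) ≠ 0 := by
    intro j
    rw [Polynomial.derivative_map]
    have h3 := h2_asm_eval2_map R.A.subtype (derivative Φ) (ξ j) ((θ j).eval 0)
    intro h4
    have h5 : R.A.subtype (((derivative Φ).eval (C ((θ j).eval 0))).eval (ξ j)) = 0 := by
      rw [← h3]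
      exact h4
    have h6 : ((derivative Φ).eval (C ((θ j).eval 0))).eval (ξ j) = 0 := Subtype.ext h5
    have h7 := h2_asm_eval2_map R.res (derivative Φ) (ξ j) ((θ j).eval 0)
    rw [h6, map_zero, hresξ j, hηres j, ← Polynomial.derivative_map] at h7
    exact hsmb j h7
  have hθ0K : ∀ j, ((θ j).map R.A.subtype).eval 0 = (((θ j).eval 0 : R.A) : K) :=
    fun j => Polynomial.eval_zero_map R.A.subtype (θ j)
  have hmapdvd : ∀ p : Polynomial R.A, X ^ m ∣ p → X ^ m ∣ p.map R.A.subtype := by
    intro p hp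
    have h3 := Polynomial.map_dvd R.A.subtype hp
    rwa [Polynomial.map_pow, Polynomial.map_X] at h3
  have hθK : ∀ j, (T' j).adicValuation
      (y - aeval (x - algebraMap K F ((ξ j : R.A) : K)) ((θ j).map R.A.subtype)) ≤
        WithZero.exp (-(m : ℤ)) := by
    intro j
    refine h15_trunc_of_root (T' j) x y _ hΦ _ _ (hposK j) (hT'y j) (hsmK j) m _ (hθ0K j) ?_
    have h3 := hmapdvd _ (hsolΦ j)
    rwa [h69_sub2_map] at h3
  -- the function `f`
  have hcO : ∀ l, algebraMap K F ((c l : R.A) : K) ∈ R.O := fun l => (R.mem_iff _).mp (c l).2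
  have hsumO : ∑ l, algebraMap K F ((c l : R.A) : K) * e l ∈ R.O :=
    sum_mem fun l _ => R.O.mul_mem _ _ (hcO l) (heO l)
  have hfO : f0 + ∑ l, algebraMap K F ((c l : R.A) : K) * e l ∈ R.O :=
    R.O.add_mem _ _ hf0O hsumO
  have hfV : f0 + ∑ l, algebraMap K F ((c l : R.A) : K) * e l ∈
      riemannRochSpace (m • (GpK - EK) + D) := by
    refine Submodule.add_mem _ hf0V (Submodule.sum_mem _ fun l _ => ?_)
    rw [← Algebra.smul_def]
    exact Submodule.smul_mem _ _ (heV l)
  have hfred : R.redF (f0 + ∑ l, algebraMap K F ((c l : R.A) : K) * e l) = f0b := by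
    rw [h39_redF_add R hf0O hsumO,
      h39_redF_sum R _ _ (fun l _ => R.O.mul_mem _ _ (hcO l) (heO l)), hf0red]
    have h3 : ∀ l ∈ Finset.univ,
        R.redF (algebraMap K F ((c l : R.A) : K) * e l) = 0 := by
      intro l _
      rw [h39_redF_mul R (hcO l) (heO l), h39_redF_algebraMap R (c l).2,
        R.resK_of_mem (c l).2]
      have h4 : R.res ⟨((c l : R.A) : K), (c l).2⟩ = 0 := hresc l
      rw [h4, map_zero, zero_mul]
    rw [Finset.sum_eq_zero h3, add_zero]
  have hf0 : f0 + ∑ l, algebraMap K F ((c l : R.A) : K) * e l ≠ 0 := by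
    intro h
    rw [h, h39_redF_zero] at hfred
    exact hf0b0 hfred.symm
  have hevf : h15_ev2 x y
      ((H0 + ∑ l, C (C (c l)) * H l).map (Polynomial.mapRingHom R.A.subtype)) =
      aeval x (d.map R.A.subtype) * (f0 + ∑ l, algebraMap K F ((c l : R.A) : K) * e l) := by
    rw [Polynomial.map_add, Polynomial.map_sum, h69_ev2_add, h69_ev2_sum, hH0, mul_add,
      Finset.mul_sum]
    congr 1
    refine Finset.sum_congr rfl fun l _ => ?_
    rw [Polynomial.map_mul, h69_ev2_mul, hH l, Polynomial.map_C, Polynomial.coe_mapRingHom,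
      Polynomial.map_C, h69_ev2_C_C]
    show algebraMap K F ((c l : R.A) : K) * _ = _
    ring
  have hdKval : ∀ j, h39_Val (T' j) (aeval x (d.map R.A.subtype))
      ((d.map R.A.subtype).eval ((ξ j : R.A) : K)) :=
    fun j => h2_asm_val_aeval (T' j) (hT'x j) _
  have hdKne : ∀ j, (d.map R.A.subtype).eval ((ξ j : R.A) : K) ≠ 0 := by
    intro j h
    have h3 : (d.map R.A.subtype).eval (R.A.subtype (ξ j)) = R.A.subtype (d.eval (ξ j)) := by
      rw [Polynomial.eval_map, Polynomial.eval₂_at_apply]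
    have h5 : d.eval (ξ j) = 0 := Subtype.ext (h3.symm.trans h)
    have h6 : (d.map R.res).eval (R.res (ξ j)) = R.res (d.eval (ξ j)) := by
      rw [Polynomial.eval_map, Polynomial.eval₂_at_apply]
    rw [h5, map_zero, hresξ j] at h6
    exact hdξ j h6
  have hford : ∀ j, (m : ℤ) ≤
      (T' j).ord (f0 + ∑ l, algebraMap K F ((c l : R.A) : K) * e l) := by
    intro j
    have h3 : (T' j).adicValuation (h15_ev2 x y
        ((H0 + ∑ l, C (C (c l)) * H l).map (Polynomial.mapRingHom R.A.subtype))) ≤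
        WithZero.exp (-(m : ℤ)) := by
      refine (h15_ord_ge_iff_trunc (T' j) x y _ (hordK j) m _ (hθK j) _).mpr ?_
      have h4 := hmapdvd _ (hsolH j)
      rwa [h69_sub2_map] at h4
    rw [hevf, (T' j).adicValuation_le_exp_iff] at h3
    have hdne : aeval x (d.map R.A.subtype) ≠ 0 :=
      h2_asm_ne_zero_of_val (T' j) (hdKval j) (hdKne j)
    rcases h3 with h3 | h3
    · exact absurd h3 (mul_ne_zero hdne hf0)
    · rw [(T' j).ord_mul hdne hf0,
        h39_ord_eq_zero_of_val (T' j) (hdKval j) (hdKne j)] at h3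
      linarith
  -- conclusion
  have hG'T : ∀ j, (GpK - EK) (T' j) = 0 := by
    intro j
    have h3 : GpK (T' j) = 0 := by
      by_contra h3
      exact hGpKsupp _ h3 (h39_val_mem (T' j) (hT'x j))
    have h4 : EK (T' j) = 0 := by
      by_contra h4
      exact hEKsupp _ h4 (by rw [hr0 j]; exact hET j)
    rw [Finsupp.sub_apply, h3, h4, sub_zero]
  have hDT : ∀ j, D (T' j) = 0 := by
    intro j
    by_contra h
    have h1 := hwev (T' j) h (ξ j) (hT'x j)
    apply hdKne j
    have h3 : (d.map R.A.subtype).eval (R.A.subtype (ξ j)) = R.A.subtype (d.eval (ξ j)) := by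
      rw [Polynomial.eval_map, Polynomial.eval₂_at_apply]
    have h4 : d.eval (ξ j) = 0 := by
      rw [hddef, Polynomial.eval_mul, h1, mul_zero]
    rw [h4, map_zero] at h3
    exact h3
  obtain ⟨hD0, hDprinc⟩ := h56_conclude hxK m (h75_genus k xb) (GpK - EK) hG'deg D hDdeg T'
    hT'inj hG'T hDT _ hf0 hfV hford
  exact ⟨_, hD0, hDprinc⟩

/-- **KER-DIV.** The kernel of the reduction map on `Pic⁰` is `m`-divisible (`m` invertible in
the residue field): a divisor of degree `0` whose reduction is principal is, up to a principal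
divisor, `m` times a divisor of degree `0`.  Any valuation ring. -/
theorem h56_kerdiv [IsAlgClosed K] [CharZero K] [IsAlgClosed k] (R : h39_RedDatum K F k Fb)
    {x : F} (hx : h39_Chart R x) (S : h39_PlaceRed R)
    (hS1 : ∃ r : Place K F → Place k Fb, h39_IsChartRed R x r ∧
        ∀ P : Place K F, h39_InDisc R x P → S.r0 P = r P)
    (m : ℕ) (hm : (m : k) ≠ 0) (D0 : Divisor K F) (hdeg : Divisor.degree D0 = 0)
    (h0 : Finsupp.mapDomain S.r0 D0 ∈ Divisor.principal (K := k) (F := Fb)) :
    ∃ D' : Divisor K F, Divisor.degree D' = 0 ∧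
      m • D' - D0 ∈ Divisor.principal (K := K) (F := F) := by
  have hm0 : m ≠ 0 := by
    rintro rfl
    exact hm (by simp)
  rcases Nat.lt_or_ge m 2 with hm2 | hm2
  · have hm1 : m = 1 := by omega
    subst hm1
    refine ⟨D0, hdeg, ?_⟩
    rw [one_smul, sub_self]
    exact zero_mem _
  · have hw := hx.toh39_WeakChart
    have hxK : h75_IsChart K x := h39_weakChart_isChart R hw
    have := h75_hasPrincipalDivisors hxK
    -- normalise: a representative with reduction `0`
    obtain ⟨hb, hb0, hbdiv⟩ := Divisor.mem_principal.mp h0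
    obtain ⟨⟨h, hO⟩, hred⟩ := R.red_surjective hb
    have hne : h ≠ 0 := by
      rintro rfl
      apply hb0
      rw [← hred]
      exact map_zero R.red
    obtain ⟨Dh, hDh, hDhdeg⟩ := HasPrincipalDivisors.exists_divisor (K := K) h hne
    have hcomp := S.compat h hO (by rw [hred]; exact hb0) Dh hDh
    have hDr0 : Finsupp.mapDomain S.r0 (D0 - Dh) = 0 := by
      rw [h2_asm_mapDomain_sub]
      ext Q
      rw [Finsupp.sub_apply, hcomp Q, hred, hbdiv Q, sub_self, Finsupp.zero_apply]
    have hDdeg : Divisor.degree (D0 - Dh) = 0 := by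
      rw [map_sub, hdeg, hDhdeg, sub_zero]
    obtain ⟨y, Φ, d, hyO, hyreg, hybreg, hΦ, hd0, hden, hpt, hgood⟩ :=
      h82_coord_of R hx (fun hM => h2_model_denom R hx hM)
    obtain ⟨D', hD'deg, hD'⟩ := h56_kerdiv_core R hx S hS1 m hm2 hm (D0 - Dh) hDdeg hDr0
      y Φ d hyO hyreg hybreg hΦ hd0 hden hpt hgood
    refine ⟨D', hD'deg, ?_⟩
    have hDhp : Dh ∈ Divisor.principal (K := K) (F := F) := ⟨h, hne, hDh⟩
    have h1 := sub_mem hD' hDhp
    have h2 : m • D' - (D0 - Dh) - Dh = m • D' - D0 := by abel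
    rwa [h2] at h1

end Fermat.Agent.S17

end
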