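import Fermat.Agent.S17.h56_DivRed
import Fermat.Agent.S17.h56_DivLift
import Fermat.Agent.S27.GoodRedAny
import Fermat.Agent.S18.GR_PlaceRed

/-!
# S17 (O1): `Pic⁰` of a function field over an algebraically closed field of characteristic `0`
is a divisible group

`h56_pic0_divisible_of`: for `K` algebraically closed of characteristic zero and `F / K` a
function field with a chart, every class of `Pic⁰(F)` is divisible by every `m ≠ 0`, GIVEN the
count of `ℓ`-power torsion over the algebraic closures of finite fields (the statement of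
`h15_count_charp_any` of S27, taken as a hypothesis `hcount` so that this file does not wait for
it).

Proof: good reduction `(k, Fb)` at a prime `p ∤ m` (`h15_exists_goodRedAny`); `Pic⁰(Fb)` is
torsion and `m`-divisible (`h56_pic0_divisible_charp`); the reduction map on divisors is onto
(`h64_exists_lift_divisor`); the kernel of reduction is `m`-divisible (`h56_kerdiv`).
-/

set_option autoImplicit false

noncomputable section

open AlgebraicCurve Fermat.Agent.S18 Fermat.Agent.S27

namespace Fermat.Agent.S17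

universe u v

/-- **Divisibility of `Pic⁰` in characteristic zero**, modulo the count over `𝔽̄_p`. -/
theorem h56_pic0_divisible_of (K : Type u) (F : Type v) [Field K] [IsAlgClosed K] [CharZero K]
    [Field F] [Algebra K F]
    (hcount : ∀ (p : ℕ) [Fact p.Prime] (k Fb : Type u) [Field k] [IsAlgClosed k] [CharP k p],
      (∀ a : k, ∃ n : ℕ, 0 < n ∧ a ^ (p ^ n) = a) → ∀ [Field Fb] [Algebra k Fb]
      (ℓ : ℕ) [Fact ℓ.Prime], ℓ ≠ p → h15_GoodAny k Fb ℓ)
    (x : F) (hx : h75_IsChart K x) (m : ℕ) (hm : m ≠ 0) (c : Pic0 K F) :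
    ∃ γ : Pic0 K F, m • γ = c := by
  classical
  obtain ⟨G, p, hp, hchar, hpm, halg⟩ := h15_exists_goodRedAny K F x hx m hm
  have hw := G.chart.toh39_WeakChart
  have hxK : h75_IsChart K G.x := G.isChart
  have hxk : h75_IsChart G.k (G.R.redF G.x) := h39_weakChart_isChart_red G.R hw
  have := h75_hasPrincipalDivisors hxK
  have := h75_hasPrincipalDivisors hxk
  obtain ⟨S, hS1, -⟩ := h39_exists_placeRed' G.R G.chart
  have hmk : (m : G.k) ≠ 0 := by
    rw [Ne, CharP.cast_eq_zero_iff G.k p]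
    exact hpm
  obtain ⟨D0, rfl⟩ := Pic0.mk_surjective c
  have hD0deg : Divisor.degree (D0 : Divisor K F) = 0 := Divisor.mem_degZero.mp D0.2
  -- the reduced divisor
  have hDbdeg : Divisor.degree (Finsupp.mapDomain S.r0 (D0 : Divisor K F)) = 0 := by
    rw [h64_degree_mapDomain_r0 G.R S hxK hxk, hD0deg]
  -- (B) divide the reduced class
  have hcnt : ∀ ℓ : ℕ, ℓ.Prime → ℓ ∣ m → h15_GoodAny G.k G.Fb ℓ := by
    intro ℓ hℓ hdvd
    have : Fact ℓ.Prime := ⟨hℓ⟩
    exact hcount p G.k G.Fb halg ℓ (by rintro rfl; exact hpm hdvd)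
  obtain ⟨γb, hγb⟩ := h56_pic0_divisible_charp p halg hxk m hm hcnt
    (Pic0.mk ⟨Finsupp.mapDomain S.r0 (D0 : Divisor K F), Divisor.mem_degZero.mpr hDbdeg⟩)
  obtain ⟨Eb, rfl⟩ := Pic0.mk_surjective γb
  have hEbdeg : Divisor.degree (Eb : Divisor G.k G.Fb) = 0 := Divisor.mem_degZero.mp Eb.2
  have hγb' : Pic0.mk (m • Eb) =
      Pic0.mk ⟨Finsupp.mapDomain S.r0 (D0 : Divisor K F), Divisor.mem_degZero.mpr hDbdeg⟩ := hγb
  have hprb : Finsupp.mapDomain S.r0 (D0 : Divisor K F) - m • (Eb : Divisor G.k G.Fb) ∈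
      Divisor.principal (K := G.k) (F := G.Fb) := by
    have h1 := (h57_mk_eq_mk_iff _ _).mp hγb'
    exact h1
  -- (C) lift `Eb`
  obtain ⟨E1, hE1map, hE1deg, -, -, -⟩ :=
    h64_exists_lift_divisor G.R S hxK hxk (fun _ _ => True)
      (fun Q => (h64_r0_surjective G.R S Q).imp fun P hP => ⟨hP, trivial⟩)
      (Eb : Divisor G.k G.Fb)
  rw [hEbdeg] at hE1deg
  -- (D) the difference lies in the kernel of reduction
  have hD1deg : Divisor.degree ((D0 : Divisor K F) - m • E1) = 0 := by
    rw [map_sub, map_nsmul, hD0deg, hE1deg, smul_zero, sub_zero]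
  have hD1red : Finsupp.mapDomain S.r0 ((D0 : Divisor K F) - m • E1) ∈
      Divisor.principal (K := G.k) (F := G.Fb) := by
    rw [h2_asm_mapDomain_sub, Finsupp.mapDomain_smul, hE1map]
    exact hprb
  obtain ⟨D', hD'deg, hD'⟩ := h56_kerdiv G.R G.chart S hS1 m hmk _ hD1deg hD1red
  -- (E) assemble
  have hsumdeg : D' + E1 ∈ Divisor.degZero (K := K) (F := F) := by
    rw [Divisor.mem_degZero, map_add, hD'deg, hE1deg, add_zero]
  refine ⟨Pic0.mk ⟨D' + E1, hsumdeg⟩, ?_⟩
  have h1 : m • Pic0.mk (⟨D' + E1, hsumdeg⟩ : Divisor.degZero (K := K) (F := F)) =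
      Pic0.mk (m • (⟨D' + E1, hsumdeg⟩ : Divisor.degZero (K := K) (F := F))) := rfl
  rw [h1, h57_mk_eq_mk_iff]
  have h2 : (D0 : Divisor K F) -
      ((m • (⟨D' + E1, hsumdeg⟩ : Divisor.degZero (K := K) (F := F)) :
        Divisor.degZero (K := K) (F := F)) : Divisor K F) =
      -(m • D' - ((D0 : Divisor K F) - m • E1)) := by
    rw [AddSubgroup.coe_nsmul]
    show (D0 : Divisor K F) - m • (D' + E1) = _
    rw [smul_add]
    abel
  rw [h2]
  exact neg_mem hD'

end Fermat.Agent.S17

end
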