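import Mathlib
import Fermat.Agent.S17.h56_Div
import Fermat.Agent.S27.h15_TopAny

/-!
# S17 (O1), final form: `Pic⁰` of a function field over an algebraically closed field of
characteristic zero is a divisible group (owner helper56)

`h56_pic0_divisible_of` (file `h56_Div.lean`) with its hypothesis discharged by the S27 count over
an algebraic closure of `𝔽_p` (`h15_top_count_charp`).
-/

set_option autoImplicit false

noncomputable section

open AlgebraicCurve Fermat.Agent.S18 Fermat.Agent.S27

namespace Fermat.Agent.S17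

universe u v

/-- **DIV.** `Pic⁰(F)` is `m`-divisible, for a function field `F` with a chart over an
algebraically closed field `K` of characteristic zero. -/
theorem h56_pic0_divisible (K : Type u) (F : Type v) [Field K] [IsAlgClosed K] [CharZero K]
    [Field F] [Algebra K F] (x : F) (hx : h75_IsChart K x) (m : ℕ) (hm : m ≠ 0)
    (c : Pic0 K F) : ∃ γ : Pic0 K F, m • γ = c :=
  h56_pic0_divisible_of K F
    (fun p _ k Fb _ _ _ halg _ _ ℓ _ hℓ => h15_top_count_charp p k Fb halg ℓ hℓ) x hx m hm c

/-- **DIV**, for the function field of a curve (the hypotheses of S27). -/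
theorem h56_pic0_divisible_curve (K : Type u) (F : Type v) [Field K] [IsAlgClosed K] [CharZero K]
    [Field F] [Algebra K F] [IsCurveOver K F] [Algebra.EssFiniteType K F] (m : ℕ) (hm : m ≠ 0)
    (c : Pic0 K F) : ∃ γ : Pic0 K F, m • γ = c := by
  obtain ⟨x, hx⟩ := h15_exists_chart (K := K) (F := F)
  exact h56_pic0_divisible K F x hx m hm c

/-- **DIV**, divisor form: every divisor of degree `0` is `m` times a divisor of degree `0` up to
a principal divisor. -/
theorem h56_divisor_divisible (K : Type u) (F : Type v) [Field K] [IsAlgClosed K] [CharZero K]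
    [Field F] [Algebra K F] (x : F) (hx : h75_IsChart K x) (m : ℕ) (hm : m ≠ 0)
    (D : Divisor K F) (hD : Divisor.degree D = 0) :
    ∃ D' : Divisor K F, Divisor.degree D' = 0 ∧
      m • D' - D ∈ Divisor.principal (K := K) (F := F) := by
  have := h75_hasPrincipalDivisors hx
  obtain ⟨γ, hγ⟩ := h56_pic0_divisible K F x hx m hm (Pic0.mk ⟨D, Divisor.mem_degZero.mpr hD⟩)
  obtain ⟨E, rfl⟩ := Pic0.mk_surjective γ
  refine ⟨E, Divisor.mem_degZero.mp E.2, ?_⟩
  have hγ' : Pic0.mk (m • E) = Pic0.mk ⟨D, Divisor.mem_degZero.mpr hD⟩ := hγ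
  have h1 := (h57_mk_eq_mk_iff _ _).mp hγ'
  have h2 : m • (E : Divisor K F) - D =
      -((⟨D, Divisor.mem_degZero.mpr hD⟩ : Divisor.degZero (K := K) (F := F)) -
        ((m • E : Divisor.degZero (K := K) (F := F)) : Divisor K F)) := by
    rw [AddSubgroup.coe_nsmul]
    abel
  rw [h2]
  exact neg_mem h1

/-- **DIV**, divisor form, for the function field of a curve. -/
theorem h56_divisor_divisible_curve (K : Type u) (F : Type v) [Field K] [IsAlgClosed K]
    [CharZero K] [Field F] [Algebra K F] [IsCurveOver K F] [Algebra.EssFiniteType K F] (m : ℕ)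
    (hm : m ≠ 0) (D : Divisor K F) (hD : Divisor.degree D = 0) :
    ∃ D' : Divisor K F, Divisor.degree D' = 0 ∧
      m • D' - D ∈ Divisor.principal (K := K) (F := F) := by
  obtain ⟨x, hx⟩ := h15_exists_chart (K := K) (F := F)
  exact h56_divisor_divisible K F x hx m hm D hD

end Fermat.Agent.S17

end
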