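import Mathlib
import Fermat.Prelude.Def_ModularCurve_ArithmeticGalois
import Fermat.Agent.S17.h56_DivFinal
import Fermat.Agent.S18.h54_ModLevel

/-!
# S17 (O1) for the modular Jacobian: `J₀(N)(ℚ̄)` is divisible and has finite `m`-torsion
(owner helper56)

The two "geometric" inputs of the weak Mordell–Weil theorem for `JZero N`
(`= Pic⁰` of `modularFunctionFieldBar N` over `ℚ̄`), from S27 and its blocks:

* `h56_jzero_divisible` : every class is divisible by every `m ≠ 0`;
* `h56_jzero_div_fixed` : the same in the shape of the hypothesis `hdiv` of the Kummer step;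
* `h56_jzero_torsion_finite`, `h56_jzero_ker_nsmul_finite` : the `m`-torsion is finite.
-/

set_option autoImplicit false

noncomputable section

open AlgebraicCurve ModularCurve Fermat.Agent.S18 Fermat.Agent.S27 Fermat.Agent.S24

namespace Fermat.Agent.S17

local notation "Qb" => AlgebraicClosure ℚ

/-- **DIV for `J₀(N)`.** -/
theorem h56_jzero_divisible (N : ℕ) [NeZero N] (m : ℕ) (hm : m ≠ 0) (c : JZero N) :
    ∃ γ : JZero N, m • γ = c :=
  h56_pic0_divisible Qb ↥(modularFunctionFieldBar N) (h59_jbar N) (h54_isChart_jbar N) m hm c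

/-- **DIV for `J₀(N)`**, in the shape of the hypothesis `hdiv` of the Kummer step of weak
Mordell–Weil. -/
theorem h56_jzero_div_fixed (N : ℕ) [NeZero N] (m : ℕ) (hm : m ≠ 0) (x : JZero N)
    (_hx : ∀ σ : (Qb ≃ₐ[ℚ] Qb), σ • x = x) : ∃ y : JZero N, m • y = x :=
  h56_jzero_divisible N m hm x

/-- The `ℓ^j`-torsion of `J₀(N)` is finite (`ℓ` prime). -/
theorem h56_jzero_torsion_prime_pow_finite (N : ℕ) [NeZero N] (ℓ : ℕ) [Fact ℓ.Prime] (j : ℕ) :
    Finite (Pic0.torsion Qb ↥(modularFunctionFieldBar N) (ℓ ^ j)) := by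
  have h := h15_count_any ℓ Qb ↥(modularFunctionFieldBar N) (h59_jbar N) (h54_isChart_jbar N) j
  refine Nat.finite_of_card_ne_zero ?_
  rw [h]
  exact pow_ne_zero _ (Fact.out : ℓ.Prime).ne_zero

/-- In an abelian group, finiteness of the `a`-torsion and of the `b`-torsion gives finiteness
of the `a * b`-torsion. -/
theorem h56_torsion_mul_finite {A : Type*} [AddCommGroup A] (a b : ℕ)
    (ha : {x : A | a • x = 0}.Finite) (hb : {x : A | b • x = 0}.Finite) :
    {x : A | (a * b) • x = 0}.Finite := by
  have hsub : {x : A | (a * b) • x = 0} ⊆ ⋃ t ∈ {y : A | b • y = 0}, {x : A | a • x = t} := by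
    intro x hx
    simp only [Set.mem_iUnion, Set.mem_ofPred_eq, exists_prop]
    refine ⟨a • x, ?_, rfl⟩
    rw [← mul_smul, mul_comm]
    exact hx
  refine (Set.Finite.biUnion hb fun t _ => ?_).subset hsub
  by_cases hne : ∃ x0 : A, a • x0 = t
  · obtain ⟨x0, rfl⟩ := hne
    refine (ha.image (fun z => z + x0)).subset ?_
    intro x hx
    refine ⟨x - x0, ?_, by simp⟩
    show a • (x - x0) = 0
    rw [smul_sub, show a • x = a • x0 from hx, sub_self]
  · refine Set.Finite.subset Set.finite_empty ?_
    intro x hx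
    exact (hne ⟨x, hx⟩).elim

/-- The `m`-torsion of `J₀(N)` is finite, as a set (`m ≠ 0`). -/
theorem h56_jzero_torsion_set_finite (N : ℕ) [NeZero N] (m : ℕ) (hm : m ≠ 0) :
    {x : JZero N | m • x = 0}.Finite := by
  induction m using Nat.recOnMul with
  | zero => exact absurd rfl hm
  | one =>
    refine (Set.finite_singleton (0 : JZero N)).subset ?_
    intro x hx
    simpa using hx
  | prime p hp =>
    have : Fact p.Prime := ⟨hp⟩
    have h := h56_jzero_torsion_prime_pow_finite N p 1
    have he : {x : JZero N | p • x = 0} =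
        (Pic0.torsion Qb ↥(modularFunctionFieldBar N) (p ^ 1) : Set (JZero N)) := by
      ext x
      rw [Set.mem_ofPred_eq, SetLike.mem_coe, Pic0.mem_torsion, pow_one, natCast_zsmul]
    rw [he]
    exact Set.toFinite _
  | mul a b iha ihb =>
    have ha : a ≠ 0 := fun h => hm (by rw [h, zero_mul])
    have hb : b ≠ 0 := fun h => hm (by rw [h, mul_zero])
    exact h56_torsion_mul_finite a b (iha ha) (ihb hb)

/-- The `m`-torsion of `J₀(N)` is finite (`m ≠ 0`). -/
theorem h56_jzero_torsion_finite (N : ℕ) [NeZero N] (m : ℕ) (hm : m ≠ 0) :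
    Finite (Pic0.torsion Qb ↥(modularFunctionFieldBar N) m) := by
  have h := h56_jzero_torsion_set_finite N m hm
  have he : {x : JZero N | m • x = 0} =
      (Pic0.torsion Qb ↥(modularFunctionFieldBar N) m : Set (JZero N)) := by
    ext x
    rw [Set.mem_ofPred_eq, SetLike.mem_coe, Pic0.mem_torsion, natCast_zsmul]
  rw [he] at h
  exact h

/-- The kernel of multiplication by `m` on `J₀(N)` is finite (`m ≠ 0`); this is the hypothesis
`hfin` of the Kummer step (`h3_tors (JZero N) p` unfolds to this kernel). -/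
theorem h56_jzero_ker_nsmul_finite (N : ℕ) [NeZero N] (m : ℕ) (hm : m ≠ 0) :
    Finite ↥(nsmulAddMonoidHom (α := JZero N) m).ker := by
  have h := h56_jzero_torsion_set_finite N m hm
  have he : {x : JZero N | m • x = 0} =
      ((nsmulAddMonoidHom (α := JZero N) m).ker : Set (JZero N)) := by
    ext x
    rw [Set.mem_ofPred_eq, SetLike.mem_coe, AddMonoidHom.mem_ker, nsmulAddMonoidHom_apply]
  rw [he] at h
  exact h

end Fermat.Agent.S17

end
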