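import Mathlib
import Fermat.Agent.S18.h54_ModLevel
import Fermat.Agent.S18.RR_Riemann
import Fermat.Agent.S24.h73_Diff
import Fermat.Agent.GAL.h67_GalHecke

/-!
# S17: smoothness of the Galois action on all of `J₀(N)(ℚ̄)`

Every place, every divisor and every degree-zero divisor class of the function field
`F̄(N) = ℚ̄ · F(N)` is fixed by `Gal(ℚ̄/E)` for a suitable number field `E ⊆ ℚ̄`.

* `h83_exists_unique_pole` (generic, chart field over an algebraically closed field): every
  place `P` is the only pole of some function (Riemann's inequality).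
* `h83_place_level_gen`, `h83_divisor_level_gen`, `h83_pic0_level_gen`: the statement for an
  arithmetic function field `laurentBaseChange L F₀` with a chart.
* `h83_place_level`, `h83_divisor_level`, `h83_smooth`: the statement for `X₀(N)`.
-/

set_option autoImplicit false

noncomputable section

open AlgebraicCurve ModularCurve IntermediateField

namespace Fermat.Agent.S17

open Fermat.Agent.S18 Fermat.Agent.S24 Fermat.Agent.GAL

section Generic

variable {K F : Type*} [Field K] [Field F] [Algebra K F] [IsAlgClosed K]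

/-- **Every place is the only pole of some function.** -/
theorem h83_exists_unique_pole {x : F} (hx : h75_IsChart K x) (P : Place K F) :
    ∃ f : F, P.ord f < 0 ∧ ∀ Q : Place K F, Q ≠ P → 0 ≤ Q.ord f := by
  classical
  by_contra hcon
  push Not at hcon
  have hF : h73_IsFF K F := ⟨x, hx.fin⟩
  have hdeg : P.deg = 1 := h73_deg_eq_one hF P
  have hfin0 : Module.Finite K ↥(riemannRochSpace (0 : Divisor K F)) := (h75_riemann hx 0).1
  -- every `L(n P)` is contained in `L(0)`
  have hle : ∀ n : ℕ, riemannRochSpace (Finsupp.single P (n : ℤ) : Divisor K F)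
      ≤ riemannRochSpace (0 : Divisor K F) := by
    intro n f hf
    rw [mem_riemannRochSpace_iff] at hf ⊢
    by_cases hP : P.ord f < 0
    · exfalso
      obtain ⟨Q, hQ, hQ'⟩ := hcon f hP
      rcases hf Q with h0 | h0
      · rw [h0] at hP
        simp at hP
      · rw [Finsupp.single_apply, if_neg (Ne.symm hQ), neg_zero] at h0
        exact absurd h0 (not_le.mpr hQ')
    · intro v
      right
      rw [Finsupp.zero_apply, neg_zero]
      by_cases hv : v = P
      · rw [hv]
        exact not_lt.mp hP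
      · rcases hf v with h0 | h0
        · rw [h0]
          simp
        · rwa [Finsupp.single_apply, if_neg (Ne.symm hv), neg_zero] at h0
  have key : ∀ n : ℕ, (n : ℤ) + 1 - (h75_genus K x : ℤ)
      ≤ (Module.finrank K ↥(riemannRochSpace (0 : Divisor K F)) : ℤ) := by
    intro n
    have h1 := (h75_riemann hx (Finsupp.single P (n : ℤ) : Divisor K F)).2
    rw [Divisor.degree_single, hdeg] at h1
    have h2 : Module.finrank K ↥(riemannRochSpace (Finsupp.single P (n : ℤ) : Divisor K F))
        ≤ Module.finrank K ↥(riemannRochSpace (0 : Divisor K F)) :=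
      Submodule.finrank_mono (hle n)
    have h3 : ((Module.finrank K ↥(riemannRochSpace (Finsupp.single P (n : ℤ) : Divisor K F)) : ℕ)
        : ℤ) ≤ (Module.finrank K ↥(riemannRochSpace (0 : Divisor K F)) : ℤ) := by
      exact_mod_cast h2
    push_cast at h1
    linarith
  have h4 := key (Module.finrank K ↥(riemannRochSpace (0 : Divisor K F)) + h75_genus K x)
  push_cast at h4
  omega

end Generic

section Arithmetic

variable {L : Type*} [Field L] [Algebra ℚ L] [Algebra.IsAlgebraic ℚ L] [IsAlgClosed L]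
variable (F₀ : IntermediateField ℚ (LaurentSeries ℚ))

/-- **Places have finite level**: every place of an arithmetic function field with a chart is
fixed by the automorphisms of `L` fixing a suitable finite extension of `ℚ`. -/
theorem h83_place_level_gen {x : laurentBaseChange L F₀} (hx : h75_IsChart L x)
    (P : Place L (laurentBaseChange L F₀)) :
    ∃ E : IntermediateField ℚ L, FiniteDimensional ℚ E ∧
      ∀ σ : L ≃ₐ[ℚ] L, (∀ a ∈ E, σ a = a) → arithmeticGalois F₀ σ • P = P := by
  obtain ⟨f, hf, hf'⟩ := h83_exists_unique_pole hx P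
  obtain ⟨E, hE, hE'⟩ := h67_exists_level_coeffMap (F₀ := F₀) f.2
  refine ⟨E, hE, fun σ hσ => ?_⟩
  have hfix : arithmeticGalois F₀ σ • f = f := by
    apply Subtype.ext
    rw [coe_arithmeticGalois_smul]
    exact hE' σ hσ
  by_contra hne
  have h1 := hf' _ hne
  have h2 := SemilinearAut.ord_smul (arithmeticGalois F₀ σ) P f
  rw [hfix] at h2
  omega

/-- **Divisors have finite level.** -/
theorem h83_divisor_level_gen {x : laurentBaseChange L F₀} (hx : h75_IsChart L x)
    (D : Divisor L (laurentBaseChange L F₀)) :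
    ∃ E : IntermediateField ℚ L, FiniteDimensional ℚ E ∧
      ∀ σ : L ≃ₐ[ℚ] L, (∀ a ∈ E, σ a = a) → arithmeticGalois F₀ σ • D = D := by
  classical
  induction D using Finsupp.induction with
  | zero => exact ⟨⊥, inferInstance, fun σ _ => smul_zero _⟩
  | single_add v n D _ _ ih =>
      obtain ⟨E₁, h1, h1'⟩ := h83_place_level_gen F₀ hx v
      obtain ⟨E₂, h2, h2'⟩ := ih
      refine ⟨E₁ ⊔ E₂, inferInstance, fun σ hσ => ?_⟩
      rw [smul_add, SemilinearAut.smul_single,
        h1' σ (fun a ha => hσ a ((le_sup_left : E₁ ≤ E₁ ⊔ E₂) ha)),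
        h2' σ (fun a ha => hσ a ((le_sup_right : E₂ ≤ E₁ ⊔ E₂) ha))]

/-- **Divisor classes have finite level** (smoothness of the Galois action on `Pic⁰`). -/
theorem h83_pic0_level_gen {x : laurentBaseChange L F₀} (hx : h75_IsChart L x)
    (y : Pic0 L (laurentBaseChange L F₀)) :
    ∃ E : IntermediateField ℚ L, FiniteDimensional ℚ E ∧
      ∀ σ : L ≃ₐ[ℚ] L, (∀ a ∈ E, σ a = a) → σ • y = y := by
  obtain ⟨D, rfl⟩ := Pic0.mk_surjective y
  obtain ⟨E, hE, hE'⟩ := h83_divisor_level_gen F₀ hx (D : Divisor L (laurentBaseChange L F₀))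
  refine ⟨E, hE, fun σ hσ => ?_⟩
  rw [galois_smul_pic0_def, SemilinearAut.pic0_smul_mk]
  refine congrArg Pic0.mk (Subtype.ext ?_)
  rw [SemilinearAut.coe_degZeroSMulHom]
  exact hE' σ hσ

end Arithmetic

section Modular

local notation "Qb" => AlgebraicClosure ℚ

variable (N : ℕ) [NeZero N]

/-- Every place of `F̄(N)` is fixed by `Gal(ℚ̄/E)` for a number field `E`. -/
theorem h83_place_level (P : Place Qb (modularFunctionFieldBar N)) :
    ∃ E : IntermediateField ℚ Qb, FiniteDimensional ℚ E ∧
      ∀ σ ∈ E.fixingSubgroup, arithmeticGalois (modularFunctionFieldFull N) σ • P = P := by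
  have : Algebra.IsAlgebraic ℚ Qb := AlgebraicClosure.isAlgebraic ℚ
  obtain ⟨E, hE, hE'⟩ := h83_place_level_gen (modularFunctionFieldFull N) (h54_isChart_jbar N) P
  exact ⟨E, hE, fun σ hσ => hE' σ ((IntermediateField.mem_fixingSubgroup_iff E σ).mp hσ)⟩

/-- Every divisor of `F̄(N)` is fixed by `Gal(ℚ̄/E)` for a number field `E`. -/
theorem h83_divisor_level (D : Divisor Qb (modularFunctionFieldBar N)) :
    ∃ E : IntermediateField ℚ Qb, FiniteDimensional ℚ E ∧
      ∀ σ ∈ E.fixingSubgroup, arithmeticGalois (modularFunctionFieldFull N) σ • D = D := by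
  have : Algebra.IsAlgebraic ℚ Qb := AlgebraicClosure.isAlgebraic ℚ
  obtain ⟨E, hE, hE'⟩ := h83_divisor_level_gen (modularFunctionFieldFull N) (h54_isChart_jbar N) D
  exact ⟨E, hE, fun σ hσ => hE' σ ((IntermediateField.mem_fixingSubgroup_iff E σ).mp hσ)⟩

/-- **Smoothness of the Galois action on `J₀(N)(ℚ̄)`**: every class is fixed by `Gal(ℚ̄/E)` for
a number field `E`. -/
theorem h83_smooth (y : JZero N) :
    ∃ E : IntermediateField ℚ Qb, FiniteDimensional ℚ E ∧
      ∀ σ ∈ E.fixingSubgroup, σ • y = y := by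
  have : Algebra.IsAlgebraic ℚ Qb := AlgebraicClosure.isAlgebraic ℚ
  obtain ⟨E, hE, hE'⟩ := h83_pic0_level_gen (modularFunctionFieldFull N) (h54_isChart_jbar N) y
  exact ⟨E, hE, fun σ hσ => hE' σ ((IntermediateField.mem_fixingSubgroup_iff E σ).mp hσ)⟩

/-- The stabiliser of a class of `J₀(N)(ℚ̄)` is open for the Krull topology. -/
theorem h83_stabilizer_isOpen (y : JZero N) :
    IsOpen ((MulAction.stabilizer (Qb ≃ₐ[ℚ] Qb) y : Subgroup (Qb ≃ₐ[ℚ] Qb)) : Set (Qb ≃ₐ[ℚ] Qb)) := by
  obtain ⟨E, hE, hE'⟩ := h83_smooth N y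
  have h1 : E.fixingSubgroup ≤ MulAction.stabilizer (Qb ≃ₐ[ℚ] Qb) y := fun σ hσ =>
    MulAction.mem_stabilizer_iff.mpr (hE' σ hσ)
  exact Subgroup.isOpen_mono h1 (IntermediateField.fixingSubgroup_isOpen E)

end Modular

end Fermat.Agent.S17

end
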