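/-
S17, weak Mordell–Weil for `J₀(N)(ℚ)`, unconditional (helper45).

`h45_weakMW_final` : for every `N` and every prime `p`, the subgroup `p • J₀(N)(ℚ)` has finite
index in `J₀(N)(ℚ)` (the group of Galois-fixed classes).  This is hypothesis `H₁` of Mathlib's
`AddCommGroup.fg_of_descent`.

Inputs: `h45_weakMW` (Kummer step on `JZero N`, with the unramifiedness outside `N p` coming from
the reduction data of S37), finiteness of the `p`-torsion and divisibility (helper56, from S27),
smoothness of the Galois action (helper83).
-/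
import Fermat.Agent.S17.h45_WeakMW
import Fermat.Agent.S17.h56_DivJZero
import Fermat.Agent.S17.h83_Smooth

set_option autoImplicit false

open ModularCurve AlgebraicCurve

namespace Fermat.Agent.S17

/-- **Weak Mordell–Weil for `J₀(N)`**: `p • J₀(N)(ℚ)` has finite index in `J₀(N)(ℚ)`. -/
theorem h45_weakMW_final (N : ℕ) [NeZero N] (p : ℕ) [Fact p.Prime] :
    (nsmulAddMonoidHom
      (α := ↥(FixedPoints.addSubgroup (AlgebraicClosure ℚ ≃ₐ[ℚ] AlgebraicClosure ℚ) (JZero N)))
      p).range.FiniteIndex :=
  h45_weakMW N p (h56_jzero_torsion_finite N p (Fact.out : p.Prime).ne_zero)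
    (h56_jzero_divisible N p (Fact.out : p.Prime).ne_zero) (h83_smooth N)

end Fermat.Agent.S17
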