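import Mathlib

/-!
# S17 - abstract descent toolkit (Mathlib only)

Everything here is about an additive commutative group `G` and a real valued
"height" `q : G → ℝ`.

* `h99_par_zero`, `h99_par_nsmul` : consequences of the approximate parallelogram law.
* `h99_fg_of_mul_translate`, `h99_fg_of_par` : finite generation from a height, for
  multiplication by any `n` with `2 ≤ n` (Mathlib's primed descent theorem is `n = 2`).
* `h99_par_of_pairing`, `h99_par_of_cube` : sources of the approximate parallelogram law.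
* `h99_fg_of_cube` : finite generation from a height with the approximate cube law.
* `h99_finiteIndex_of_reps`, `h99_fg_subgroup_of_par`, `h99_fg_subgroup_of_mul_translate` :
  subgroup forms.
* `h99_contraction` : the abstract contraction lemma.
* `h99_quot_nsmul_finite`, `h99_nsmul_surj_of_card` : group lemmas on torsion groups.
-/

set_option autoImplicit false

namespace Fermat.Agent.S17

section descent

variable {G : Type*} [AddCommGroup G]

/-- The approximate parallelogram law bounds `q 0`. -/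
theorem h99_par_zero {q : G → ℝ} {C : ℝ}
    (hpar : ∀ x y : G, |q (x + y) + q (x - y) - 2 * (q x + q y)| ≤ C) : |q 0| ≤ C / 2 := by
  have h := hpar 0 0
  simp only [add_zero, sub_zero] at h
  have e : q 0 + q 0 - 2 * (q 0 + q 0) = -(2 * q 0) := by ring
  rw [e, abs_neg, abs_mul, abs_two] at h
  linarith

/-- The approximate parallelogram law makes `q` quadratic along multiples, up to a constant. -/
theorem h99_par_nsmul {q : G → ℝ} {C : ℝ}
    (hpar : ∀ x y : G, |q (x + y) + q (x - y) - 2 * (q x + q y)| ≤ C) (k : ℕ) :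
    ∃ c : ℝ, ∀ x : G, |q (k • x) - (k : ℝ) ^ 2 * q x| ≤ c := by
  induction k using Nat.strong_induction_on with
  | _ k ih =>
    match k, ih with
    | 0, _ => exact ⟨C / 2, fun x => by simpa using h99_par_zero hpar⟩
    | 1, _ => exact ⟨0, fun x => by simp⟩
    | (k + 2), ih =>
      obtain ⟨c0, h0⟩ := ih k (by omega)
      obtain ⟨c1, h1⟩ := ih (k + 1) (by omega)
      refine ⟨2 * c1 + c0 + C, fun x => ?_⟩
      have hp := hpar ((k + 1) • x) x
      have e1 : (k + 1) • x + x = (k + 2) • x := by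
        rw [add_nsmul x k 1, add_nsmul x k 2, one_nsmul, two_nsmul]; abel
      have e2 : (k + 1) • x - x = k • x := by
        rw [add_nsmul x k 1, one_nsmul]; abel
      rw [e1, e2] at hp
      have a0 := abs_le.mp (h0 x)
      have a1 := abs_le.mp (h1 x)
      have hp' := abs_le.mp hp
      push_cast at a0 a1 ⊢
      rw [abs_le]
      constructor <;> nlinarith [a0.1, a0.2, a1.1, a1.2, hp'.1, hp'.2]

/-- **Descent, general form.** A lower bound for the height of `n • x` with factor `b > 2`,
the translation inequality, a lower bound, the Northcott property and finiteness of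
`G / n G` give finite generation. -/
theorem h99_fg_of_mul_translate {q : G → ℝ} {n : ℕ} {b c₀ C' : ℝ} {c : G → ℝ}
    (hb : 2 < b)
    (hidx : (nsmulAddMonoidHom (α := G) n).range.FiniteIndex)
    (hmul : ∀ x : G, b * q x - c₀ ≤ q (n • x))
    (htr : ∀ g x : G, q (x + g) + q (x - g) ≤ 2 * q x + c g)
    (hlow : ∀ x : G, -C' ≤ q x)
    (hfin : ∀ B : ℝ, {x : G | q x ≤ B}.Finite) : AddGroup.FG G := by
  have : Northcott q := ⟨hfin⟩
  refine AddCommGroup.fg_of_descent (n := n) (h := q) (a := 2) (b := b) (c₀ := c₀)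
    (c := fun g => c g + C') (by norm_num) hb hidx (fun g x => ?_) hmul
  have h1 := htr g (g + x)
  have h2 := hlow (g + x + g)
  have e : g + x - g = x := by abel
  rw [e] at h1
  linarith

/-- **Descent from the approximate parallelogram law, any `n ≥ 2`.** -/
theorem h99_fg_of_par {q : G → ℝ} {C C' : ℝ} {n : ℕ} (hn : 2 ≤ n)
    (hidx : (nsmulAddMonoidHom (α := G) n).range.FiniteIndex)
    (hpar : ∀ x y : G, |q (x + y) + q (x - y) - 2 * (q x + q y)| ≤ C)
    (hlow : ∀ x : G, -C' ≤ q x)
    (hfin : ∀ B : ℝ, {x : G | q x ≤ B}.Finite) : AddGroup.FG G := by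
  obtain ⟨cn, hcn⟩ := h99_par_nsmul hpar n
  refine h99_fg_of_mul_translate (b := (n : ℝ) ^ 2) (c₀ := cn) (c := fun g => 2 * q g + C)
    (C' := C') ?_ hidx (fun x => ?_) (fun g x => ?_) hlow hfin
  · have h2 : (2 : ℝ) ≤ n := by exact_mod_cast hn
    nlinarith
  · have := (abs_le.mp (hcn x)).1
    linarith
  · have := (abs_le.mp (hpar x g)).2
    linarith

/-- A pairing which is additive up to a constant in each variable has an approximately
quadratic diagonal. -/
theorem h99_par_of_pairing {P : G → G → ℝ} {C : ℝ}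
    (hl : ∀ x y z : G, |P (x + y) z - P x z - P y z| ≤ C)
    (hr : ∀ x y z : G, |P x (y + z) - P x y - P x z| ≤ C) (x y : G) :
    |P (x + y) (x + y) + P (x - y) (x - y) - 2 * (P x x + P y y)| ≤ 14 * C := by
  have hr0 : ∀ a : G, |P a 0| ≤ C := fun a => by
    have h := hr a 0 0
    rw [add_zero] at h
    have e : P a 0 - P a 0 - P a 0 = -P a 0 := by ring
    rwa [e, abs_neg] at h
  have hl0 : ∀ a : G, |P 0 a| ≤ C := fun a => by
    have h := hl 0 0 a
    rw [add_zero] at h
    have e : P 0 a - P 0 a - P 0 a = -P 0 a := by ring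
    rwa [e, abs_neg] at h
  have hnr : ∀ a b : G, |P a b + P a (-b)| ≤ 2 * C := fun a b => by
    have h := abs_le.mp (hr a b (-b))
    rw [add_neg_cancel] at h
    have h0 := abs_le.mp (hr0 a)
    rw [abs_le]
    constructor <;> linarith [h.1, h.2, h0.1, h0.2]
  have hnl : ∀ a b : G, |P a b + P (-a) b| ≤ 2 * C := fun a b => by
    have h := abs_le.mp (hl a (-a) b)
    rw [add_neg_cancel] at h
    have h0 := abs_le.mp (hl0 b)
    rw [abs_le]
    constructor <;> linarith [h.1, h.2, h0.1, h0.2]
  rw [sub_eq_add_neg x y]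
  have e1 := abs_le.mp (hl x y (x + y))
  have e2 := abs_le.mp (hr x x y)
  have e3 := abs_le.mp (hr y x y)
  have e4 := abs_le.mp (hl x (-y) (x + -y))
  have e5 := abs_le.mp (hr x x (-y))
  have e6 := abs_le.mp (hr (-y) x (-y))
  have n1 := abs_le.mp (hnr x y)
  have n2 := abs_le.mp (hnl y x)
  have n3 := abs_le.mp (hnl y (-y))
  have n4 := abs_le.mp (hnr y y)
  rw [abs_le]
  constructor <;> linarith [e1.1, e1.2, e2.1, e2.2, e3.1, e3.2, e4.1, e4.2, e5.1, e5.2,
    e6.1, e6.2, n1.1, n1.2, n2.1, n2.2, n3.1, n3.2, n4.1, n4.2]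

/-- The approximate cube law (third difference bounded) makes the even part of `h`
approximately quadratic. -/
theorem h99_par_of_cube {h : G → ℝ} {C : ℝ}
    (hcube : ∀ a b c : G,
      |h (a + b + c) - h (a + b) - h (a + c) - h (b + c) + h a + h b + h c| ≤ C) (x y : G) :
    |(h (x + y) + h (-(x + y))) / 2 + (h (x - y) + h (-(x - y))) / 2
      - 2 * ((h x + h (-x)) / 2 + (h y + h (-y)) / 2)| ≤ 2 * C := by
  have h0 : |h 0| ≤ C := by
    have := hcube 0 0 0
    simp only [add_zero] at this
    have e : h 0 - h 0 - h 0 - h 0 + h 0 + h 0 + h 0 = h 0 := by ring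
    rwa [e] at this
  have k1 := abs_le.mp (hcube x y (-y))
  have k2 := abs_le.mp (hcube (-x) (-y) y)
  have e1 : x + y + -y = x := by abel
  have e2 : x + -y = x - y := by abel
  have e3 : y + -y = 0 := by abel
  have e4 : -x + -y + y = -x := by abel
  have e5 : -x + -y = -(x + y) := by abel
  have e6 : -x + y = -(x - y) := by abel
  have e7 : -y + y = 0 := by abel
  rw [e1, e2, e3] at k1
  rw [e4, e5, e6, e7] at k2
  have h0' := abs_le.mp h0
  rw [abs_le]
  constructor <;> linarith [k1.1, k1.2, k2.1, k2.2, h0'.1, h0'.2]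

/-- **Descent from the approximate cube law** (height = quadratic + linear + bounded). -/
theorem h99_fg_of_cube {h : G → ℝ} {C C' : ℝ} {n : ℕ} (hn : 2 ≤ n)
    (hidx : (nsmulAddMonoidHom (α := G) n).range.FiniteIndex)
    (hcube : ∀ a b c : G,
      |h (a + b + c) - h (a + b) - h (a + c) - h (b + c) + h a + h b + h c| ≤ C)
    (hlow : ∀ x : G, -C' ≤ h x)
    (hfin : ∀ B : ℝ, {x : G | h x ≤ B}.Finite) : AddGroup.FG G := by
  refine h99_fg_of_par (q := fun x => (h x + h (-x)) / 2) (C := 2 * C) (C' := C') hn hidx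
    (fun x y => h99_par_of_cube hcube x y) (fun x => ?_) (fun B => ?_)
  · have h1 := hlow x
    have h2 := hlow (-x)
    show -C' ≤ (h x + h (-x)) / 2
    linarith
  · refine (hfin (2 * B + C')).subset fun x hx => ?_
    have hx' : (h x + h (-x)) / 2 ≤ B := hx
    have h2 := hlow (-x)
    show h x ≤ 2 * B + C'
    linarith

/-- Finitely many representatives for `G / n G` give the finite index hypothesis of the
descent theorems. -/
theorem h99_finiteIndex_of_reps {n : ℕ} {S : Set G} (hS : S.Finite)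
    (hrep : ∀ x : G, ∃ s ∈ S, ∃ y : G, x = s + n • y) :
    (nsmulAddMonoidHom (α := G) n).range.FiniteIndex := by
  rw [AddSubgroup.finiteIndex_iff_finite_quotient]
  have : Finite S := hS
  refine Finite.of_surjective
    (fun s : S => (QuotientAddGroup.mk (s : G) : G ⧸ (nsmulAddMonoidHom (α := G) n).range)) ?_
  intro z
  obtain ⟨x, rfl⟩ := QuotientAddGroup.mk_surjective z
  obtain ⟨s, hs, y, rfl⟩ := hrep x
  refine ⟨⟨s, hs⟩, ?_⟩
  rw [QuotientAddGroup.eq]
  refine ⟨y, ?_⟩
  simp

end descent

section subgroup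

variable {J : Type*} [AddCommGroup J]

/-- **Descent on a subgroup, parallelogram form.** All hypotheses are only required on `Γ`. -/
theorem h99_fg_subgroup_of_par (Γ : AddSubgroup J) {q : J → ℝ} {C C' : ℝ} {n : ℕ} (hn : 2 ≤ n)
    (hidx : (nsmulAddMonoidHom (α := ↥Γ) n).range.FiniteIndex)
    (hpar : ∀ x ∈ Γ, ∀ y ∈ Γ, |q (x + y) + q (x - y) - 2 * (q x + q y)| ≤ C)
    (hlow : ∀ x ∈ Γ, -C' ≤ q x)
    (hfin : ∀ B : ℝ, {x : J | x ∈ Γ ∧ q x ≤ B}.Finite) : AddGroup.FG ↥Γ := by
  refine h99_fg_of_par (q := fun x : Γ => q (x : J)) (C := C) (C' := C') hn hidx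
    (fun x y => ?_) (fun x => hlow x x.2) (fun B => ?_)
  · simpa using hpar x x.2 y y.2
  · refine ((hfin B).preimage (Subtype.val_injective.injOn (s := _))).subset fun x hx => ?_
    exact ⟨x.2, hx⟩

/-- **Descent on a subgroup, general form.** -/
theorem h99_fg_subgroup_of_mul_translate (Γ : AddSubgroup J) {q : J → ℝ} {n : ℕ}
    {b c₀ C' : ℝ} {c : J → ℝ} (hb : 2 < b)
    (hidx : (nsmulAddMonoidHom (α := ↥Γ) n).range.FiniteIndex)
    (hmul : ∀ x ∈ Γ, b * q x - c₀ ≤ q (n • x))
    (htr : ∀ g ∈ Γ, ∀ x ∈ Γ, q (x + g) + q (x - g) ≤ 2 * q x + c g)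
    (hlow : ∀ x ∈ Γ, -C' ≤ q x)
    (hfin : ∀ B : ℝ, {x : J | x ∈ Γ ∧ q x ≤ B}.Finite) : AddGroup.FG ↥Γ := by
  refine h99_fg_of_mul_translate (q := fun x : Γ => q (x : J)) (b := b) (c₀ := c₀) (C' := C')
    (c := fun g : Γ => c (g : J)) hb hidx (fun x => ?_) (fun g x => ?_) (fun x => hlow x x.2)
    (fun B => ?_)
  · simpa using hmul x x.2
  · simpa using htr g g.2 x x.2
  · refine ((hfin B).preimage (Subtype.val_injective.injOn (s := _))).subset fun x hx => ?_
    exact ⟨x.2, hx⟩

end subgroup

section contraction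

/-- **Contraction lemma.** If `H ≥ 0` on a nonempty type and every `B₀` can be replaced by
some `B` with `H B ≤ ρ * H B₀ + t`, `ρ < 1`, then `t ≥ 0` and `H` takes values
arbitrarily close to (at most) `t / (1 - ρ)`. -/
theorem h99_contraction {X : Type*} [Nonempty X] (H : X → ℝ) (hH : ∀ B : X, 0 ≤ H B)
    {ρ t : ℝ} (hρ0 : 0 ≤ ρ) (hρ : ρ < 1) (hstep : ∀ B₀ : X, ∃ B : X, H B ≤ ρ * H B₀ + t) :
    0 ≤ t ∧ ∀ ε : ℝ, 0 < ε → ∃ B : X, H B ≤ t / (1 - ρ) + ε := by
  have hbdd : BddBelow (Set.range H) := ⟨0, by rintro _ ⟨B, rfl⟩; exact hH B⟩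
  set μ : ℝ := ⨅ B, H B with hμ
  have hμ0 : 0 ≤ μ := le_ciInf hH
  have hnear : ∀ δ : ℝ, 0 < δ → ∃ B : X, H B < μ + δ := fun δ hδ =>
    exists_lt_of_ciInf_lt (by linarith)
  have key : (1 - ρ) * μ ≤ t := by
    by_contra hcon
    rw [not_le] at hcon
    set δ : ℝ := ((1 - ρ) * μ - t) / 2 with hδ
    have hδpos : 0 < δ := by rw [hδ]; linarith
    obtain ⟨B₀, hB₀⟩ := hnear δ hδpos
    obtain ⟨B, hB⟩ := hstep B₀
    have h1 : μ ≤ H B := ciInf_le hbdd B
    have h2 : ρ * H B₀ ≤ ρ * (μ + δ) := mul_le_mul_of_nonneg_left hB₀.le hρ0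
    have h3 : ρ * δ ≤ δ := by nlinarith
    nlinarith
  have h1ρ : 0 < 1 - ρ := by linarith
  refine ⟨le_trans (mul_nonneg h1ρ.le hμ0) key, fun ε hε => ?_⟩
  obtain ⟨B, hB⟩ := hnear ε hε
  refine ⟨B, ?_⟩
  have : μ ≤ t / (1 - ρ) := by
    rw [le_div_iff₀ h1ρ]
    linarith
  linarith

end contraction

section torsion

variable {T : Type*} [AddCommGroup T]

/-- In a finite commutative group the index of `n T` is the number of `n`-torsion points. -/
theorem h99_index_range_nsmul_of_finite [Finite T] (n : ℕ) :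
    (nsmulAddMonoidHom (α := T) n).range.index
      = Nat.card (nsmulAddMonoidHom (α := T) n).ker := by
  have h1 := AddSubgroup.card_mul_index (nsmulAddMonoidHom (α := T) n).ker
  have h2 := AddSubgroup.card_mul_index (nsmulAddMonoidHom (α := T) n).range
  have h3 := AddSubgroup.index_ker (nsmulAddMonoidHom (α := T) n)
  have hpos : 0 < Nat.card (nsmulAddMonoidHom (α := T) n).range := Nat.card_pos
  rw [h3] at h1
  exact Nat.eq_of_mul_eq_mul_left hpos (by rw [h2, ← h1, mul_comm])

/-- **`T / n T` lemma.** In a commutative torsion group with finitely many `n`-torsion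
points, `n T` has finite index, at most the number of `n`-torsion points. -/
theorem h99_quot_nsmul_finite (hT : ∀ x : T, ∃ m : ℕ, 0 < m ∧ m • x = 0) (n : ℕ)
    [Finite (nsmulAddMonoidHom (α := T) n).ker] :
    (nsmulAddMonoidHom (α := T) n).range.FiniteIndex ∧
      (nsmulAddMonoidHom (α := T) n).range.index
        ≤ Nat.card (nsmulAddMonoidHom (α := T) n).ker := by
  classical
  have hTors : IsAddTorsion T := fun x => by
    obtain ⟨k, hk, hx⟩ := hT x
    exact isOfFinAddOrder_iff_nsmul_eq_zero.mpr ⟨k, hk, hx⟩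
  have key : ∀ s : Finset (T ⧸ (nsmulAddMonoidHom (α := T) n).range),
      s.card ≤ Nat.card (nsmulAddMonoidHom (α := T) n).ker := by
    intro s
    let A : AddSubgroup T := AddSubgroup.closure ((s.image Quotient.out : Finset T) : Set T)
    have hAfg : AddGroup.FG A :=
      (AddGroup.fg_iff_addSubgroup_fg A).mpr ⟨s.image Quotient.out, rfl⟩
    have hAfin : Finite A := AddCommGroup.finite_of_fg_isAddTorsion A (hTors.addSubgroup A)
    have hmem : ∀ z : s, Quotient.out z.1 ∈ A := fun z =>
      AddSubgroup.subset_closure (by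
        simp only [Finset.coe_image, Set.mem_image, Finset.mem_coe]
        exact ⟨z.1, z.2, rfl⟩)
    let φ : s → A ⧸ (nsmulAddMonoidHom (α := A) n).range := fun z =>
      QuotientAddGroup.mk ⟨Quotient.out z.1, hmem z⟩
    have hφ : Function.Injective φ := by
      intro z w hzw
      obtain ⟨a, ha⟩ := QuotientAddGroup.eq.mp hzw
      apply Subtype.ext
      rw [← QuotientAddGroup.out_eq' z.1, ← QuotientAddGroup.out_eq' w.1]
      refine QuotientAddGroup.eq.mpr ⟨(a : T), ?_⟩
      have := congrArg Subtype.val ha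
      simpa using this
    have h1 : s.card ≤ Nat.card (A ⧸ (nsmulAddMonoidHom (α := A) n).range) := by
      have := Nat.card_le_card_of_injective φ hφ
      simpa using this
    have h2 : Nat.card (A ⧸ (nsmulAddMonoidHom (α := A) n).range)
        = Nat.card (nsmulAddMonoidHom (α := A) n).ker := by
      rw [← AddSubgroup.index_eq_card]
      exact h99_index_range_nsmul_of_finite n
    have h3 : Nat.card (nsmulAddMonoidHom (α := A) n).ker
        ≤ Nat.card (nsmulAddMonoidHom (α := T) n).ker := by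
      refine Nat.card_le_card_of_injective
        (fun a => (⟨(a.1 : T), ?_⟩ : (nsmulAddMonoidHom (α := T) n).ker)) ?_
      · have h := a.2
        rw [AddMonoidHom.mem_ker, nsmulAddMonoidHom_apply] at h ⊢
        rw [← AddSubgroup.coe_nsmul, h]
        rfl
      · intro a b hab
        apply Subtype.ext
        apply Subtype.ext
        simpa using congrArg Subtype.val hab
    omega
  have hfin : Finite (T ⧸ (nsmulAddMonoidHom (α := T) n).range) := by
    by_contra hinf
    rw [not_finite_iff_infinite] at hinf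
    obtain ⟨s, hs⟩ := Infinite.exists_subset_card_eq
      (T ⧸ (nsmulAddMonoidHom (α := T) n).range)
      (Nat.card (nsmulAddMonoidHom (α := T) n).ker + 1)
    have := key s
    omega
  refine ⟨AddSubgroup.finiteIndex_iff_finite_quotient.mpr hfin, ?_⟩
  rw [AddSubgroup.index_eq_card]
  have := Fintype.ofFinite (T ⧸ (nsmulAddMonoidHom (α := T) n).range)
  rw [Nat.card_eq_fintype_card]
  exact key Finset.univ

/-- Pull-back form of the `T / n T` lemma: for a homomorphism `f : J →+ T` into a torsion group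
with finitely many `n`-torsion points, `{x | f x ∈ n T}` has finite index in `J`. -/
theorem h99_comap_nsmul_finiteIndex {J : Type*} [AddCommGroup J] (f : J →+ T)
    (hT : ∀ x : T, ∃ m : ℕ, 0 < m ∧ m • x = 0) (n : ℕ)
    [Finite (nsmulAddMonoidHom (α := T) n).ker] :
    ((nsmulAddMonoidHom (α := T) n).range.comap f).FiniteIndex := by
  have h1 := (h99_quot_nsmul_finite hT n).1
  refine ⟨?_⟩
  rw [AddSubgroup.index_comap]
  exact fun h0 => h1.index_ne_zero
    (Nat.eq_zero_of_zero_dvd (h0 ▸ AddSubgroup.relIndex_dvd_index_of_normal _ _))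

/-- **Counting lemma.** If the `p ^ k`-torsion `A k` has `c ^ k` elements for every `k`
(with `c > 0`), multiplication by `p` maps the `p ^ (k + 1)`-torsion onto the
`p ^ k`-torsion. -/
theorem h99_nsmul_surj_of_card (p c : ℕ) (hc : 0 < c) (A : ℕ → AddSubgroup T)
    (hA : ∀ (k : ℕ) (x : T), x ∈ A k ↔ p ^ k • x = 0)
    (hcard : ∀ k : ℕ, Nat.card (A k) = c ^ k)
    (k : ℕ) (y : T) (hy : p ^ k • y = 0) : ∃ x : T, p • x = y ∧ p ^ (k + 1) • x = 0 := by
  have hBfin : Finite (A k) :=
    Nat.finite_of_card_ne_zero (by rw [hcard k]; positivity)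
  have hAfin : Finite (A (k + 1)) :=
    Nat.finite_of_card_ne_zero (by rw [hcard (k + 1)]; positivity)
  let f : A (k + 1) →+ A k :=
    { toFun := fun x => ⟨p • (x : T), by
        rw [hA k, ← mul_nsmul, ← pow_succ']
        exact (hA (k + 1) x).mp x.2⟩
      map_zero' := by ext; simp
      map_add' := fun a b => by ext; simp }
  have hf : ∀ x : A (k + 1), ((f x : A k) : T) = p • (x : T) := fun x => rfl
  have hker : Nat.card f.ker = c := by
    have e : f.ker ≃ A 1 :=
      { toFun := fun x => ⟨((x.1 : A (k + 1)) : T), by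
          rw [hA 1, pow_one, ← hf, (AddMonoidHom.mem_ker).mp x.2]
          rfl⟩
        invFun := fun x => ⟨⟨(x : T), by
            rw [hA (k + 1), pow_succ, mul_nsmul']
            have h := (hA 1 x).mp x.2
            rw [pow_one] at h
            rw [h, nsmul_zero]⟩, by
            rw [AddMonoidHom.mem_ker]
            apply Subtype.ext
            rw [hf]
            have h := (hA 1 x).mp x.2
            rw [pow_one] at h
            exact h⟩
        left_inv := fun x => rfl
        right_inv := fun x => rfl }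
    rw [Nat.card_congr e, hcard 1, pow_one]
  have h1 := AddSubgroup.card_mul_index f.ker
  rw [AddSubgroup.index_ker, hker, hcard (k + 1)] at h1
  have hrange : Nat.card f.range = c ^ k := by
    have h2 : c * Nat.card f.range = c * c ^ k := by rw [h1, pow_succ, mul_comm]
    exact Nat.eq_of_mul_eq_mul_left hc h2
  have htop : f.range = ⊤ :=
    AddSubgroup.eq_top_of_card_eq _ (by rw [hrange, hcard k])
  have hyB : (⟨y, (hA k y).mpr hy⟩ : A k) ∈ f.range := by
    rw [htop]; trivial
  obtain ⟨x, hx⟩ := hyB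
  exact ⟨x, congrArg Subtype.val hx, (hA (k + 1) x).mp x.2⟩

end torsion

end Fermat.Agent.S17
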