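import Fermat.Agent.S17.h55_Frame

/-!
# S17 height block (route R55), row HT: the height on Galois-fixed classes

`h55_height_exists_of` : HYPOTHESIS FORM of the skeleton statement `h55_height_exists`.  The
hypotheses are, verbatim, the skeleton statements `h55_exists_rep`, `h55_exists_cut` (row MV),
`h55_par`, `h55_deg` (row QD), `h55_lower`, `h55_northcott_pair` (row SG).

Wiring: `g := fr.g`, `e := 2g+1`, `M0 := 4g+2`, `M := (4e+1)·M0 + 2g`; `q c` is `qraw M` of a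
chosen complementary pair of degree `e` for `c` (and `0` if there is none).
-/

set_option autoImplicit false

open AlgebraicCurve

namespace Fermat.Agent.S17

open Fermat.Agent.S18 Fermat.Agent.S27

local notation "Qbar" => AlgebraicClosure ℚ
local notation "GQ" => (AlgebraicClosure ℚ ≃ₐ[ℚ] AlgebraicClosure ℚ)

variable {F : Type} [Field F] [Algebra Qbar F] (fr : h55_Frame F)

theorem h97_isFixed_neg {c : Pic0 Qbar F} (hc : fr.IsFixed c) : fr.IsFixed (-c) :=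
  fun σ => by rw [smul_neg, hc σ]

theorem h97_isFixed_add {c₁ c₂ : Pic0 Qbar F} (h₁ : fr.IsFixed c₁) (h₂ : fr.IsFixed c₂) :
    fr.IsFixed (c₁ + c₂) :=
  fun σ => by rw [smul_add, h₁ σ, h₂ σ]

theorem h97_isFixed_sub {c₁ c₂ : Pic0 Qbar F} (h₁ : fr.IsFixed c₁) (h₂ : fr.IsFixed c₂) :
    fr.IsFixed (c₁ - c₂) :=
  fun σ => by rw [smul_sub, h₁ σ, h₂ σ]

/-- Complementary pairs of every degree `e ≥ 2g+1` exist for Galois-fixed classes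
(from the two statements of row MV). -/
theorem h97_exists_pair_of
    (h_exists_rep : ∀ (e : ℕ) (_ : 2 * fr.g + 1 ≤ e) (c : Pic0 Qbar F) (_ : fr.IsFixed c)
      (T : Finset (Place Qbar F)),
      ∃ A : Fin e → Place Qbar F, fr.IsAdm A ∧ fr.IsStable A ∧ fr.Rep A c ∧ ∀ j, A j ∉ T)
    (h_exists_cut : ∀ (e : ℕ) (c : Pic0 Qbar F) (A B : Fin e → Place Qbar F)
      (_ : fr.Rep A c) (_ : fr.Rep B (-c)) (_ : fr.IsStable A) (_ : fr.IsStable B)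
      (_ : fr.IsAdm (Fin.append A B)),
      ∃ s : Fin (fr.n (e + e)) → ℚ, fr.Cuts s (Fin.append A B))
    (e : ℕ) (he : 2 * fr.g + 1 ≤ e) (c : Pic0 Qbar F) (hc : fr.IsFixed c) :
    ∃ (A B : Fin e → Place Qbar F) (s : Fin (fr.n (e + e)) → ℚ), fr.IsPair e c A B s := by
  classical
  obtain ⟨A, hAadm, hAst, hArep, -⟩ := h_exists_rep e he c hc ∅
  obtain ⟨B, hBadm, hBst, hBrep, hBT⟩ :=
    h_exists_rep e he (-c) (h97_isFixed_neg fr hc) (Finset.univ.image A)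
  have hadm : fr.IsAdm (Fin.append A B) := by
    refine ⟨Fin.append_injective_iff.mpr ⟨hAadm.1, hBadm.1, fun i j hij => ?_⟩, fun j => ?_⟩
    · exact hBT j (Finset.mem_image.mpr ⟨i, Finset.mem_univ _, hij⟩)
    · refine Fin.addCases (fun i => ?_) (fun i => ?_) j
      · rw [Fin.append_left]; exact hAadm.2 i
      · rw [Fin.append_right]; exact hBadm.2 i
  obtain ⟨s, hs⟩ := h_exists_cut e c A B hArep hBrep hAst hBst hadm
  exact ⟨A, B, s, ⟨hadm, hAst, hBst, hArep, hs⟩⟩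

/-- the height attached to a choice of pairs: `qraw M` of a chosen pair of degree `e` for `c`,
and `0` if there is none -/
noncomputable def h97_q (e M : ℕ) (c : Pic0 Qbar F) : ℝ := by
  classical
  exact if h : ∃ p : (Fin e → Place Qbar F) × (Fin e → Place Qbar F) × (Fin (fr.n (e + e)) → ℚ),
      fr.IsPair e c p.1 p.2.1 p.2.2 then fr.qraw M h.choose.1 h.choose.2.1 h.choose.2.2 else 0

theorem h97_q_spec (e M : ℕ) (c : Pic0 Qbar F)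
    (h : ∃ (A B : Fin e → Place Qbar F) (s : Fin (fr.n (e + e)) → ℚ), fr.IsPair e c A B s) :
    ∃ (A B : Fin e → Place Qbar F) (s : Fin (fr.n (e + e)) → ℚ),
      fr.IsPair e c A B s ∧ h97_q fr e M c = fr.qraw M A B s := by
  classical
  have h' : ∃ p : (Fin e → Place Qbar F) × (Fin e → Place Qbar F) × (Fin (fr.n (e + e)) → ℚ),
      fr.IsPair e c p.1 p.2.1 p.2.2 := by
    obtain ⟨A, B, s, hp⟩ := h
    exact ⟨(A, B, s), hp⟩
  refine ⟨h'.choose.1, h'.choose.2.1, h'.choose.2.2, h'.choose_spec, ?_⟩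
  unfold h97_q
  rw [dif_pos h']

/-- **Row HT, hypothesis form.**  The hypotheses are the skeleton statements `h55_exists_rep`,
`h55_exists_cut`, `h55_par`, `h55_deg`, `h55_lower`, `h55_northcott_pair`, verbatim. -/
theorem h55_height_exists_of
    (h_exists_rep : ∀ (e : ℕ) (_ : 2 * fr.g + 1 ≤ e) (c : Pic0 Qbar F) (_ : fr.IsFixed c)
      (T : Finset (Place Qbar F)),
      ∃ A : Fin e → Place Qbar F, fr.IsAdm A ∧ fr.IsStable A ∧ fr.Rep A c ∧ ∀ j, A j ∉ T)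
    (h_exists_cut : ∀ (e : ℕ) (c : Pic0 Qbar F) (A B : Fin e → Place Qbar F)
      (_ : fr.Rep A c) (_ : fr.Rep B (-c)) (_ : fr.IsStable A) (_ : fr.IsStable B)
      (_ : fr.IsAdm (Fin.append A B)),
      ∃ s : Fin (fr.n (e + e)) → ℚ, fr.Cuts s (Fin.append A B))
    (h_par : ∀ (e M0 M : ℕ) (_ : 2 * fr.g + 1 ≤ e) (_ : 4 * fr.g + 2 ≤ M0)
      (_ : (4 * e + 1) * M0 + 2 * fr.g ≤ M),
      ∃ C : ℝ, ∀ (c₁ c₂ : Pic0 Qbar F) (A₁ B₁ : Fin e → Place Qbar F)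
        (s₁ : Fin (fr.n (e + e)) → ℚ)
        (A₂ B₂ : Fin e → Place Qbar F) (s₂ : Fin (fr.n (e + e)) → ℚ)
        (Ap Bp : Fin (e + e) → Place Qbar F) (sp : Fin (fr.n ((e + e) + (e + e))) → ℚ)
        (Am Bm : Fin (e + e) → Place Qbar F) (sm : Fin (fr.n ((e + e) + (e + e))) → ℚ),
        fr.IsPair e c₁ A₁ B₁ s₁ → fr.IsPair e c₂ A₂ B₂ s₂ →
        fr.IsPair (e + e) (c₁ + c₂) Ap Bp sp → fr.IsPair (e + e) (c₁ - c₂) Am Bm sm →
        |fr.qraw M Ap Bp sp + fr.qraw M Am Bm sm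
          - 2 * (fr.qraw M A₁ B₁ s₁ + fr.qraw M A₂ B₂ s₂)| ≤ C)
    (h_deg : ∀ (e M0 M : ℕ) (_ : 2 * fr.g + 1 ≤ e) (_ : 4 * fr.g + 2 ≤ M0)
      (_ : (4 * e + 1) * M0 + 2 * fr.g ≤ M),
      ∃ C : ℝ, ∀ (c : Pic0 Qbar F) (A B : Fin e → Place Qbar F) (s : Fin (fr.n (e + e)) → ℚ)
        (A' B' : Fin (e + e) → Place Qbar F) (s' : Fin (fr.n ((e + e) + (e + e))) → ℚ),
        fr.IsPair e c A B s → fr.IsPair (e + e) c A' B' s' →
        |fr.qraw M A' B' s' - fr.qraw M A B s| ≤ C)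
    (h_lower : ∀ (e M : ℕ) (_ : 2 * fr.g + 1 ≤ e) (_ : e + 2 * fr.g + 1 ≤ M),
      ∃ C : ℝ, ∀ (c : Pic0 Qbar F) (A B : Fin e → Place Qbar F) (s : Fin (fr.n (e + e)) → ℚ),
        fr.IsPair e c A B s → -C ≤ fr.qraw M A B s)
    (h_northcott_pair : ∀ (e M : ℕ) (_ : 2 * fr.g + 1 ≤ e) (_ : e + 2 * fr.g + 1 ≤ M) (X : ℝ),
      {c : Pic0 Qbar F | ∃ (A B : Fin e → Place Qbar F) (s : Fin (fr.n (e + e)) → ℚ),
        fr.IsPair e c A B s ∧ fr.qraw M A B s ≤ X}.Finite) :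
    ∃ q : Pic0 Qbar F → ℝ,
      (∃ C : ℝ, ∀ c₁ c₂ : Pic0 Qbar F, fr.IsFixed c₁ → fr.IsFixed c₂ →
        |q (c₁ + c₂) + q (c₁ - c₂) - 2 * (q c₁ + q c₂)| ≤ C) ∧
      (∃ C : ℝ, ∀ c : Pic0 Qbar F, fr.IsFixed c → -C ≤ q c) ∧
      (∀ X : ℝ, {c : Pic0 Qbar F | fr.IsFixed c ∧ q c ≤ X}.Finite) := by
  -- the parameters
  obtain ⟨e, he⟩ : ∃ e : ℕ, e = 2 * fr.g + 1 := ⟨_, rfl⟩
  obtain ⟨M0, hM0⟩ : ∃ M0 : ℕ, M0 = 4 * fr.g + 2 := ⟨_, rfl⟩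
  obtain ⟨M, hM⟩ : ∃ M : ℕ, M = (4 * e + 1) * M0 + 2 * fr.g := ⟨_, rfl⟩
  have he1 : 2 * fr.g + 1 ≤ e := he.ge
  have he2 : 2 * fr.g + 1 ≤ e + e := by omega
  have hM01 : 4 * fr.g + 2 ≤ M0 := hM0.ge
  have hM1 : (4 * e + 1) * M0 + 2 * fr.g ≤ M := hM.ge
  have hM2 : e + 2 * fr.g + 1 ≤ M := by
    have h1 : (4 * e + 1) * 1 ≤ (4 * e + 1) * M0 := Nat.mul_le_mul_left _ (by omega)
    omega
  have hpair : ∀ (e' : ℕ) (_ : 2 * fr.g + 1 ≤ e') (c : Pic0 Qbar F) (_ : fr.IsFixed c),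
      ∃ (A B : Fin e' → Place Qbar F) (s : Fin (fr.n (e' + e')) → ℚ), fr.IsPair e' c A B s :=
    h97_exists_pair_of fr h_exists_rep h_exists_cut
  have hq : ∀ c : Pic0 Qbar F, fr.IsFixed c →
      ∃ (A B : Fin e → Place Qbar F) (s : Fin (fr.n (e + e)) → ℚ),
        fr.IsPair e c A B s ∧ h97_q fr e M c = fr.qraw M A B s :=
    fun c hc => h97_q_spec fr e M c (hpair e he1 c hc)
  refine ⟨h97_q fr e M, ?_, ?_, ?_⟩
  · -- the quasi-parallelogram law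
    obtain ⟨Cp, hCp⟩ := h_par e M0 M he1 hM01 hM1
    obtain ⟨Cd, hCd⟩ := h_deg e M0 M he1 hM01 hM1
    refine ⟨Cp + 2 * Cd, fun c₁ c₂ h₁ h₂ => ?_⟩
    have hp := h97_isFixed_add fr h₁ h₂
    have hm := h97_isFixed_sub fr h₁ h₂
    obtain ⟨A₁, B₁, s₁, hP₁, hq₁⟩ := hq c₁ h₁
    obtain ⟨A₂, B₂, s₂, hP₂, hq₂⟩ := hq c₂ h₂
    obtain ⟨A₃, B₃, s₃, hP₃, hq₃⟩ := hq (c₁ + c₂) hp
    obtain ⟨A₄, B₄, s₄, hP₄, hq₄⟩ := hq (c₁ - c₂) hm
    obtain ⟨Ap, Bp, sp, hPp⟩ := hpair (e + e) he2 (c₁ + c₂) hp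
    obtain ⟨Am, Bm, sm, hPm⟩ := hpair (e + e) he2 (c₁ - c₂) hm
    have k1 := hCp c₁ c₂ A₁ B₁ s₁ A₂ B₂ s₂ Ap Bp sp Am Bm sm hP₁ hP₂ hPp hPm
    have k2 := hCd (c₁ + c₂) A₃ B₃ s₃ Ap Bp sp hP₃ hPp
    have k3 := hCd (c₁ - c₂) A₄ B₄ s₄ Am Bm sm hP₄ hPm
    rw [hq₁, hq₂, hq₃, hq₄]
    rw [abs_le] at k1 k2 k3 ⊢
    constructor <;> linarith [k1.1, k1.2, k2.1, k2.2, k3.1, k3.2]
  · -- the lower bound
    obtain ⟨C, hC⟩ := h_lower e M he1 hM2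
    refine ⟨C, fun c hc => ?_⟩
    obtain ⟨A, B, s, hP, hqc⟩ := hq c hc
    rw [hqc]
    exact hC c A B s hP
  · -- Northcott
    intro X
    refine (h_northcott_pair e M he1 hM2 X).subset ?_
    rintro c ⟨hc, hX⟩
    obtain ⟨A, B, s, hP, hqc⟩ := hq c hc
    exact ⟨A, B, s, hP, hqc ▸ hX⟩

end Fermat.Agent.S17
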