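import Fermat.Agent.S17.h55_Frame
import Fermat.Agent.S17.R55_FB
import Fermat.Agent.S17.h93_ProdFrame

/-!
# S17 height block (route R55), row PR : products (frame forms of (E2), (E1))

`h55_nrm_mul`, `h55_ht_mul`, `h55_mn_mul` verbatim from the skeleton of helper55: the
hypothesis forms `h93_frame_*_of` (`h93_ProdFrame.lean`) applied to the multiplication table
`h55_exists_mul` of the frame (row FB).
-/

set_option autoImplicit false

open AlgebraicCurve

namespace Fermat.Agent.S17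

open Fermat.Agent.S18 Fermat.Agent.S27

local notation "Qbar" => AlgebraicClosure ℚ
local notation "GQ" => (AlgebraicClosure ℚ ≃ₐ[ℚ] AlgebraicClosure ℚ)

variable {F : Type} [Field F] [Algebra Qbar F] (fr : h55_Frame F)

/-! ## row PR : products (frame forms of (E2), (E1)) -/

theorem h55_nrm_mul (M M' : ℕ) :
    ∃ c : h55_Pl → ℝ, (∀ w, 1 ≤ c w) ∧ {w | c w ≠ 1}.Finite ∧
      ∀ (w : h55_Pl) (s : Fin (fr.n M) → Qbar) (u : Fin (fr.n M') → Qbar)
        (t : Fin (fr.n (M + M')) → Qbar), fr.vec (M + M') t = fr.vec M s * fr.vec M' u →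
        h55_nrm w t ≤ c w * (h55_nrm w s * h55_nrm w u) ∧
        h55_nrm w s * h55_nrm w u ≤ c w * h55_nrm w t :=
  h93_frame_nrm_mul_of fr (h55_exists_mul fr) M M'

theorem h55_ht_mul (M M' : ℕ) :
    ∃ C : ℝ, ∀ (s : Fin (fr.n M) → ℚ) (u : Fin (fr.n M') → ℚ) (t : Fin (fr.n (M + M')) → ℚ),
      s ≠ 0 → u ≠ 0 →
      fr.vec (M + M') (fun l => (t l : Qbar)) =
        fr.vec M (fun i => (s i : Qbar)) * fr.vec M' (fun j => (u j : Qbar)) →
      |h55_ht t - h55_ht s - h55_ht u| ≤ C :=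
  h93_frame_ht_mul_of fr (h55_exists_mul fr) M M'

theorem h55_mn_mul (M k r : ℕ) :
    ∃ c : h55_Pl → ℝ, (∀ w, 1 ≤ c w) ∧ {w | c w ≠ 1}.Finite ∧
      ∀ (w : h55_Pl) (s : Fin (fr.n k) → Qbar) (B : Matrix (Fin r) (Fin (fr.n M)) Qbar)
        (B' : Matrix (Fin r) (Fin (fr.n (M + k))) Qbar),
        (∀ i, fr.vec (M + k) (B' i) = fr.vec k s * fr.vec M (B i)) →
        h55_mn w B' ≤ c w * (h55_mn w B * h55_nrm w s ^ r) ∧
        h55_mn w B * h55_nrm w s ^ r ≤ c w * h55_mn w B' :=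
  h93_frame_mn_mul_of fr (h55_exists_mul fr) M k r

end Fermat.Agent.S17
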