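import Fermat.Agent.S17.h55_Frame

/-!
# S17, route R55, row QD: invariance, parallelogram law and degree independence of `qraw`

Hypothesis forms `h55_inv_of`, `h55_par_of`, `h55_deg_of`: the statements of the upstream rows
(SC, PI, MV, PR, FB) are taken as hypotheses, as the reducible propositions `h19_HSC fr`
(= statement of `h55_scale`), `h19_HS0 fr` (`h55_scale0`), `h19_HGe fr` (`h55_G_equiv`),
`h19_HRep fr` (`h55_exists_rep`), `h19_HCut fr` (`h55_exists_cut`), `h19_HPI fr`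
(`h55_G_append`), `h19_HPL fr` (`h55_pair_append_left`), `h19_HPC fr` (`h55_pair_comm`),
`h19_HHM fr` (`h55_ht_mul`), `h19_HMR fr` (`h55_exists_mul_rat`), `h19_HN fr` (`h55_n_eq`).
Each is a verbatim copy, so e.g. `h55_scale fr : h19_HSC fr`.
-/

set_option autoImplicit false

open AlgebraicCurve

namespace Fermat.Agent.S17

open Fermat.Agent.S18 Fermat.Agent.S27

local notation "Qbar" => AlgebraicClosure ℚ
local notation "GQ" => (AlgebraicClosure ℚ ≃ₐ[ℚ] AlgebraicClosure ℚ)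

variable {F : Type} [Field F] [Algebra Qbar F] (fr : h55_Frame F)

/-! ## The upstream statements -/

/-- the statement of `h55_scale` -/
abbrev h19_HSC : Prop :=
  ∀ (M k a : ℕ) (_ : a + 2 * fr.g ≤ M + 1),
    ∃ C : ℝ, ∀ (A : Fin a → Place Qbar F) (Z : Fin k → Place Qbar F) (s : Fin (fr.n k) → ℚ),
      fr.IsAdm (Fin.append A Z) → fr.IsStable A → fr.IsStable Z → fr.Cuts s Z →
      |fr.G (M + k) (Fin.append A Z) - fr.G M A - ((fr.n M : ℝ) - a) * h55_ht s| ≤ C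

/-- the statement of `h55_scale0` -/
abbrev h19_HS0 : Prop :=
  ∀ (M k : ℕ) (_ : 2 * fr.g ≤ M + 1),
    ∃ C : ℝ, ∀ (Z : Fin k → Place Qbar F) (s : Fin (fr.n k) → ℚ),
      fr.IsAdm Z → fr.IsStable Z → fr.Cuts s Z →
      |fr.G (M + k) Z - (fr.n M : ℝ) * h55_ht s| ≤ C

/-- the statement of `h55_G_equiv` -/
abbrev h19_HGe : Prop :=
  ∀ (M : ℕ) {a b : ℕ} (e : Fin a ≃ Fin b) (P : Fin b → Place Qbar F),
    fr.G M (P ∘ e) = fr.G M P

/-- the statement of `h55_exists_rep` -/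
abbrev h19_HRep : Prop :=
  ∀ (e : ℕ) (_ : 2 * fr.g + 1 ≤ e) (c : Pic0 Qbar F) (_ : fr.IsFixed c)
    (T : Finset (Place Qbar F)),
    ∃ A : Fin e → Place Qbar F, fr.IsAdm A ∧ fr.IsStable A ∧ fr.Rep A c ∧ ∀ j, A j ∉ T

/-- the statement of `h55_exists_cut` -/
abbrev h19_HCut : Prop :=
  ∀ (e : ℕ) (c : Pic0 Qbar F) (A B : Fin e → Place Qbar F)
    (_ : fr.Rep A c) (_ : fr.Rep B (-c)) (_ : fr.IsStable A) (_ : fr.IsStable B)
    (_ : fr.IsAdm (Fin.append A B)),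
    ∃ s : Fin (fr.n (e + e)) → ℚ, fr.Cuts s (Fin.append A B)

/-- the statement of `h55_G_append` -/
abbrev h19_HPI : Prop :=
  ∀ (M0 M amax : ℕ) (_ : 4 * fr.g + 2 ≤ M0) (_ : (amax + 1) * M0 + 2 * fr.g ≤ M),
    ∃ C : ℝ, ∀ (a b : ℕ) (A : Fin a → Place Qbar F) (B : Fin b → Place Qbar F), a + b ≤ amax →
      fr.IsAdm (Fin.append A B) →
      |fr.G M (Fin.append A B) - fr.G M A - fr.G M B + fr.pair M0 A B| ≤ C

/-- the statement of `h55_pair_append_left` -/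
abbrev h19_HPL : Prop :=
  ∀ (M0 : ℕ) {a a' b : ℕ}
    (A : Fin a → Place Qbar F) (A' : Fin a' → Place Qbar F) (B : Fin b → Place Qbar F),
    fr.pair M0 (Fin.append A A') B = fr.pair M0 A B + fr.pair M0 A' B

/-- the statement of `h55_pair_comm` -/
abbrev h19_HPC : Prop :=
  ∀ (M0 : ℕ) {a b : ℕ} (A : Fin a → Place Qbar F) (B : Fin b → Place Qbar F),
    fr.pair M0 A B = fr.pair M0 B A

/-- the statement of `h55_ht_mul` -/
abbrev h19_HHM : Prop :=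
  ∀ (M M' : ℕ),
    ∃ C : ℝ, ∀ (s : Fin (fr.n M) → ℚ) (u : Fin (fr.n M') → ℚ) (t : Fin (fr.n (M + M')) → ℚ),
      s ≠ 0 → u ≠ 0 →
      fr.vec (M + M') (fun l => (t l : Qbar)) =
        fr.vec M (fun i => (s i : Qbar)) * fr.vec M' (fun j => (u j : Qbar)) →
      |h55_ht t - h55_ht s - h55_ht u| ≤ C

/-- the statement of `h55_exists_mul_rat` -/
abbrev h19_HMR : Prop :=
  ∀ (M M' : ℕ) (s : Fin (fr.n M) → ℚ) (u : Fin (fr.n M') → ℚ),
    ∃ t : Fin (fr.n (M + M')) → ℚ, fr.vec (M + M') (fun l => (t l : Qbar)) =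
      fr.vec M (fun i => (s i : Qbar)) * fr.vec M' (fun j => (u j : Qbar))

/-- the statement of `h55_n_eq` -/
abbrev h19_HN : Prop :=
  ∀ (M : ℕ) (_ : 2 * fr.g ≤ M + 1), (fr.n M : ℤ) = M + 1 - fr.g

/-! ## Tuples -/

theorem h19_range_append {α : Type*} {a b : ℕ} (A : Fin a → α) (B : Fin b → α) :
    Set.range (Fin.append A B) = Set.range A ∪ Set.range B := by
  ext x
  constructor
  · rintro ⟨j, rfl⟩
    refine Fin.addCases (fun i => ?_) (fun i => ?_) j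
    · exact Or.inl ⟨i, by rw [Fin.append_left]⟩
    · exact Or.inr ⟨i, by rw [Fin.append_right]⟩
  · rintro (⟨i, rfl⟩ | ⟨i, rfl⟩)
    · exact ⟨Fin.castAdd b i, Fin.append_left _ _ _⟩
    · exact ⟨Fin.natAdd a i, Fin.append_right _ _ _⟩

theorem h19_exists_equiv_of_range {α : Type*} {a : ℕ} {P Q : Fin a → α}
    (hP : Function.Injective P) (hQ : Function.Injective Q)
    (h : Set.range P = Set.range Q) : ∃ π : Fin a ≃ Fin a, Q ∘ π = P := by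
  refine ⟨(Equiv.ofInjective P hP).trans
    ((Equiv.setCongr h).trans (Equiv.ofInjective Q hQ).symm), ?_⟩
  funext j
  simp only [Function.comp_apply, Equiv.trans_apply]
  exact Equiv.apply_ofInjective_symm hQ _

theorem h19_isAdm_append_iff {a b : ℕ} (A : Fin a → Place Qbar F) (B : Fin b → Place Qbar F) :
    fr.IsAdm (Fin.append A B) ↔ fr.IsAdm A ∧ fr.IsAdm B ∧ ∀ i j, A i ≠ B j := by
  unfold h55_Frame.IsAdm
  rw [Fin.append_injective_iff, Fin.forall_fin_add]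
  simp only [Fin.append_left, Fin.append_right]
  tauto

theorem h19_dv_append {a b : ℕ} (A : Fin a → Place Qbar F) (B : Fin b → Place Qbar F) :
    h55_dv (Fin.append A B) = h55_dv A + h55_dv B := by
  unfold h55_dv
  rw [Fin.sum_univ_add]
  simp only [Fin.append_left, Fin.append_right]

theorem h19_isStable_append {a b : ℕ} {A : Fin a → Place Qbar F} {B : Fin b → Place Qbar F}
    (hA : fr.IsStable A) (hB : fr.IsStable B) : fr.IsStable (Fin.append A B) := by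
  intro σ
  obtain ⟨πA, hπA⟩ := hA σ
  obtain ⟨πB, hπB⟩ := hB σ
  refine ⟨finSumFinEquiv.symm.trans ((Equiv.sumCongr πA πB).trans finSumFinEquiv), fun j => ?_⟩
  refine Fin.addCases (fun i => ?_) (fun i => ?_) j
  · simp [Fin.append_left, hπA]
  · simp [Fin.append_right, hπB]

/-- equal ranges give equal `G` -/
theorem h19_G_eq_of_range (hGe : h19_HGe fr) (M : ℕ) {a : ℕ} {P Q : Fin a → Place Qbar F}
    (hP : Function.Injective P) (hQ : Function.Injective Q)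
    (h : Set.range P = Set.range Q) : fr.G M P = fr.G M Q := by
  obtain ⟨π, rfl⟩ := h19_exists_equiv_of_range hP hQ h
  exact hGe M π Q

/-! ## Classes -/

theorem h19_isFixed_of_rep {e : ℕ} {A : Fin e → Place Qbar F} {c : Pic0 Qbar F}
    (hst : fr.IsStable A) (hrep : fr.Rep A c) : fr.IsFixed c := by
  intro σ
  obtain ⟨D, hD, rfl⟩ := hrep
  obtain ⟨π, hπ⟩ := hst σ
  rw [SemilinearAut.pic0_smul_mk]
  congr 1
  apply Subtype.ext
  rw [SemilinearAut.coe_degZeroSMulHom, hD, smul_sub]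
  congr 1
  · unfold h55_dv
    rw [Finset.smul_sum]
    simp only [SemilinearAut.smul_single, hπ]
    exact Equiv.sum_comp π (fun j => Finsupp.single (A j) (1 : ℤ))
  · rw [Finsupp.smul_single, SemilinearAut.smul_single, fr.inf_fix σ]

theorem h19_rep_append {a b : ℕ} {A : Fin a → Place Qbar F} {B : Fin b → Place Qbar F}
    {c d : Pic0 Qbar F} (hA : fr.Rep A c) (hB : fr.Rep B d) :
    fr.Rep (Fin.append A B) (c + d) := by
  obtain ⟨D, hD, rfl⟩ := hA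
  obtain ⟨E, hE, rfl⟩ := hB
  refine ⟨D + E, ?_, Pic0.mk_add D E⟩
  rw [AddSubgroup.coe_add, hD, hE, h19_dv_append, Nat.cast_add, add_smul]
  abel

/-! ## Cuts -/

theorem h19_cuts_ne_zero {k : ℕ} {s : Fin (fr.n k) → ℚ} {Z : Fin k → Place Qbar F}
    (h : fr.Cuts s Z) : s ≠ 0 := by
  rintro rfl
  exact h.1 (by simp [h55_Frame.vec])

theorem h19_cuts_mul {k k' : ℕ} {s : Fin (fr.n k) → ℚ} {Z : Fin k → Place Qbar F}
    {s' : Fin (fr.n k') → ℚ} {Z' : Fin k' → Place Qbar F} (h : fr.Cuts s Z)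
    (h' : fr.Cuts s' Z') {t : Fin (fr.n (k + k')) → ℚ}
    (ht : fr.vec (k + k') (fun l => (t l : Qbar)) =
      fr.vec k (fun i => (s i : Qbar)) * fr.vec k' (fun j => (s' j : Qbar)))
    {W : Fin (k + k') → Place Qbar F} (hW : h55_dv W = h55_dv Z + h55_dv Z') :
    fr.Cuts t W := by
  refine ⟨by rw [ht]; exact mul_ne_zero h.1 h'.1, fun P => ?_⟩
  rw [ht, Place.ord_mul _ h.1 h'.1, h.2 P, h'.2 P, hW]
  simp only [Finsupp.coe_sub, Finsupp.coe_add, Pi.sub_apply, Pi.add_apply, Nat.cast_add, add_smul]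
  ring

/-! ## (INV): invariance -/

/-- the exchange step behind (INV) -/
theorem h19_swap_step (hSC : h19_HSC fr) (hGe : h19_HGe fr) (e M : ℕ)
    (hM : e + 2 * fr.g ≤ M + 1) :
    ∃ C : ℝ, ∀ (X X' : Fin e → Place Qbar F) (Z Z' : Fin (e + e) → Place Qbar F)
      (s s' : Fin (fr.n (e + e)) → ℚ),
      fr.IsAdm (Fin.append X' Z) → fr.IsAdm (Fin.append X Z') →
      fr.IsStable X → fr.IsStable X' → fr.IsStable Z → fr.IsStable Z' →
      fr.Cuts s Z → fr.Cuts s' Z' →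
      Set.range X' ∪ Set.range Z = Set.range X ∪ Set.range Z' →
      |(fr.G M X' + ((fr.n M : ℝ) - e) * h55_ht s)
        - (fr.G M X + ((fr.n M : ℝ) - e) * h55_ht s')| ≤ C := by
  obtain ⟨C, hC⟩ := hSC M (e + e) e hM
  refine ⟨2 * C, fun X X' Z Z' s s' adm1 adm2 stX stX' stZ stZ' cs cs' hr => ?_⟩
  have h1 := hC X' Z s adm1 stX' stZ cs
  have h2 := hC X Z' s' adm2 stX stZ' cs'
  have hG : fr.G (M + (e + e)) (Fin.append X' Z) = fr.G (M + (e + e)) (Fin.append X Z') := by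
    refine h19_G_eq_of_range fr hGe _ adm1.1 adm2.1 ?_
    rw [h19_range_append, h19_range_append, hr]
  rw [hG] at h1
  rw [abs_le] at h1 h2 ⊢
  constructor <;> linarith [h1.1, h1.2, h2.1, h2.2]

/-- change the second tuple of a pair -/
theorem h19_inv_B (hSC : h19_HSC fr) (hGe : h19_HGe fr) (e M : ℕ)
    (hM : e + 2 * fr.g ≤ M + 1) :
    ∃ C : ℝ, ∀ (c : Pic0 Qbar F) (A B B' : Fin e → Place Qbar F)
      (s s' : Fin (fr.n (e + e)) → ℚ),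
      fr.IsPair e c A B s → fr.IsPair e c A B' s' → (∀ i j, B' i ≠ B j) →
      |fr.qraw M A B s - fr.qraw M A B' s'| ≤ C := by
  obtain ⟨C, hC⟩ := h19_swap_step fr hSC hGe e M hM
  refine ⟨C, fun c A B B' s s' p p' hd => ?_⟩
  obtain ⟨hA, hB, hAB⟩ := (h19_isAdm_append_iff fr A B).mp p.adm
  obtain ⟨-, hB', hAB'⟩ := (h19_isAdm_append_iff fr A B').mp p'.adm
  have adm1 : fr.IsAdm (Fin.append B' (Fin.append A B)) := by
    refine (h19_isAdm_append_iff fr _ _).mpr ⟨hB', p.adm, fun i j => ?_⟩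
    refine Fin.addCases (fun j' => ?_) (fun j' => ?_) j
    · rw [Fin.append_left]; exact (hAB' j' i).symm
    · rw [Fin.append_right]; exact hd i j'
  have adm2 : fr.IsAdm (Fin.append B (Fin.append A B')) := by
    refine (h19_isAdm_append_iff fr _ _).mpr ⟨hB, p'.adm, fun i j => ?_⟩
    refine Fin.addCases (fun j' => ?_) (fun j' => ?_) j
    · rw [Fin.append_left]; exact (hAB j' i).symm
    · rw [Fin.append_right]; exact (hd j' i).symm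
  have hr : Set.range B' ∪ Set.range (Fin.append A B)
      = Set.range B ∪ Set.range (Fin.append A B') := by
    rw [h19_range_append, h19_range_append]
    ext x
    simp only [Set.mem_union]
    tauto
  have h := hC B B' (Fin.append A B) (Fin.append A B') s s' adm1 adm2 p.stB p'.stB
    (h19_isStable_append fr p.stA p.stB) (h19_isStable_append fr p'.stA p'.stB)
    p.cuts p'.cuts hr
  unfold h55_Frame.qraw
  rw [abs_le] at h ⊢
  constructor <;> linarith [h.1, h.2]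

/-- change the first tuple of a pair -/
theorem h19_inv_A (hSC : h19_HSC fr) (hGe : h19_HGe fr) (e M : ℕ)
    (hM : e + 2 * fr.g ≤ M + 1) :
    ∃ C : ℝ, ∀ (c : Pic0 Qbar F) (A A' B : Fin e → Place Qbar F)
      (s s' : Fin (fr.n (e + e)) → ℚ),
      fr.IsPair e c A B s → fr.IsPair e c A' B s' → (∀ i j, A' i ≠ A j) →
      |fr.qraw M A B s - fr.qraw M A' B s'| ≤ C := by
  obtain ⟨C, hC⟩ := h19_swap_step fr hSC hGe e M hM
  refine ⟨C, fun c A A' B s s' p p' hd => ?_⟩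
  obtain ⟨hA, hB, hAB⟩ := (h19_isAdm_append_iff fr A B).mp p.adm
  obtain ⟨hA', -, hAB'⟩ := (h19_isAdm_append_iff fr A' B).mp p'.adm
  have adm1 : fr.IsAdm (Fin.append A' (Fin.append A B)) := by
    refine (h19_isAdm_append_iff fr _ _).mpr ⟨hA', p.adm, fun i j => ?_⟩
    refine Fin.addCases (fun j' => ?_) (fun j' => ?_) j
    · rw [Fin.append_left]; exact hd i j'
    · rw [Fin.append_right]; exact hAB' i j'
  have adm2 : fr.IsAdm (Fin.append A (Fin.append A' B)) := by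
    refine (h19_isAdm_append_iff fr _ _).mpr ⟨hA, p'.adm, fun i j => ?_⟩
    refine Fin.addCases (fun j' => ?_) (fun j' => ?_) j
    · rw [Fin.append_left]; exact (hd j' i).symm
    · rw [Fin.append_right]; exact hAB i j'
  have hr : Set.range A' ∪ Set.range (Fin.append A B)
      = Set.range A ∪ Set.range (Fin.append A' B) := by
    rw [h19_range_append, h19_range_append]
    ext x
    simp only [Set.mem_union]
    tauto
  have h := hC A A' (Fin.append A B) (Fin.append A' B) s s' adm1 adm2 p.stA p'.stA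
    (h19_isStable_append fr p.stA p.stB) (h19_isStable_append fr p'.stA p'.stB)
    p.cuts p'.cuts hr
  unfold h55_Frame.qraw
  rw [abs_le] at h ⊢
  constructor <;> linarith [h.1, h.2]

/-- **(INV)**, hypothesis form of `h55_inv`. -/
theorem h55_inv_of (hSC : h19_HSC fr) (hGe : h19_HGe fr) (hRep : h19_HRep fr)
    (hCut : h19_HCut fr) (e M : ℕ) (he : 2 * fr.g + 1 ≤ e) (hM : e + 2 * fr.g ≤ M + 1) :
    ∃ C : ℝ, ∀ (c : Pic0 Qbar F) (A B : Fin e → Place Qbar F) (s : Fin (fr.n (e + e)) → ℚ)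
      (A' B' : Fin e → Place Qbar F) (s' : Fin (fr.n (e + e)) → ℚ),
      fr.IsPair e c A B s → fr.IsPair e c A' B' s' →
      |fr.qraw M A B s - fr.qraw M A' B' s'| ≤ C := by
  classical
  obtain ⟨CA, hCA⟩ := h19_inv_A fr hSC hGe e M hM
  obtain ⟨CB, hCB⟩ := h19_inv_B fr hSC hGe e M hM
  refine ⟨2 * CA + 2 * CB, fun c A B s A' B' s' p p' => ?_⟩
  have hfix : fr.IsFixed c := h19_isFixed_of_rep fr p.stA p.repA
  have hfix' : fr.IsFixed (-c) := fun σ => by rw [smul_neg, hfix σ]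
  obtain ⟨hA, hB, hAB⟩ := (h19_isAdm_append_iff fr A B).mp p.adm
  obtain ⟨hA', hB', hAB'⟩ := (h19_isAdm_append_iff fr A' B').mp p'.adm
  -- auxiliary tuples in general position
  obtain ⟨Bs, hBsadm, hBsst, hBsrep, hBsT⟩ := hRep e he (-c) hfix'
    (Finset.univ.image A ∪ Finset.univ.image B ∪ Finset.univ.image A' ∪ Finset.univ.image B')
  obtain ⟨As, hAsadm, hAsst, hAsrep, hAsT⟩ := hRep e he c hfix
    (Finset.univ.image A ∪ Finset.univ.image B ∪ Finset.univ.image A' ∪ Finset.univ.image B'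
      ∪ Finset.univ.image Bs)
  have dBsA : ∀ i j, Bs i ≠ A j := fun i j h => hBsT i (by rw [h]; simp)
  have dBsB : ∀ i j, Bs i ≠ B j := fun i j h => hBsT i (by rw [h]; simp)
  have dBsA' : ∀ i j, Bs i ≠ A' j := fun i j h => hBsT i (by rw [h]; simp)
  have dBsB' : ∀ i j, Bs i ≠ B' j := fun i j h => hBsT i (by rw [h]; simp)
  have dAsA : ∀ i j, As i ≠ A j := fun i j h => hAsT i (by rw [h]; simp)
  have dAsA' : ∀ i j, As i ≠ A' j := fun i j h => hAsT i (by rw [h]; simp)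
  have dAsBs : ∀ i j, As i ≠ Bs j := fun i j h => hAsT i (by rw [h]; simp)
  have adm1 : fr.IsAdm (Fin.append A Bs) :=
    (h19_isAdm_append_iff fr _ _).mpr ⟨hA, hBsadm, fun i j => (dBsA j i).symm⟩
  have adm2 : fr.IsAdm (Fin.append As Bs) :=
    (h19_isAdm_append_iff fr _ _).mpr ⟨hAsadm, hBsadm, dAsBs⟩
  have adm3 : fr.IsAdm (Fin.append A' Bs) :=
    (h19_isAdm_append_iff fr _ _).mpr ⟨hA', hBsadm, fun i j => (dBsA' j i).symm⟩
  obtain ⟨s1, hs1⟩ := hCut e c A Bs p.repA hBsrep p.stA hBsst adm1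
  obtain ⟨s2, hs2⟩ := hCut e c As Bs hAsrep hBsrep hAsst hBsst adm2
  obtain ⟨s3, hs3⟩ := hCut e c A' Bs p'.repA hBsrep p'.stA hBsst adm3
  have P1 : fr.IsPair e c A Bs s1 := ⟨adm1, p.stA, hBsst, p.repA, hs1⟩
  have P2 : fr.IsPair e c As Bs s2 := ⟨adm2, hAsst, hBsst, hAsrep, hs2⟩
  have P3 : fr.IsPair e c A' Bs s3 := ⟨adm3, p'.stA, hBsst, p'.repA, hs3⟩
  have h1 := hCB c A B Bs s s1 p P1 dBsB
  have h2 := hCA c A As Bs s1 s2 P1 P2 dAsA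
  have h3 := hCA c A' As Bs s3 s2 P3 P2 dAsA'
  have h4 := hCB c A' B' Bs s' s3 p' P3 dBsB'
  rw [abs_le] at h1 h2 h3 h4 ⊢
  constructor <;> linarith [h1.1, h1.2, h2.1, h2.2, h3.1, h3.2, h4.1, h4.2]

/-! ## (PAR): the parallelogram law -/

/-- `scale0` with the index written as a difference -/
theorem h19_scale0_sub (hS0 : h19_HS0 fr) (M k : ℕ) (hk : k ≤ M) (hM : 2 * fr.g ≤ M - k + 1) :
    ∃ C : ℝ, ∀ (Z : Fin k → Place Qbar F) (s : Fin (fr.n k) → ℚ),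
      fr.IsAdm Z → fr.IsStable Z → fr.Cuts s Z →
      |fr.G M Z - (fr.n (M - k) : ℝ) * h55_ht s| ≤ C := by
  obtain ⟨C, hC⟩ := hS0 (M - k) k hM
  refine ⟨C, fun Z s h1 h2 h3 => ?_⟩
  have h := hC Z s h1 h2 h3
  rwa [Nat.sub_add_cancel hk] at h

/-- the parallelogram computation for pairs in general position -/
theorem h19_par_gp (hPI : h19_HPI fr) (hPL : h19_HPL fr) (hPC : h19_HPC fr) (hS0 : h19_HS0 fr)
    (hHM : h19_HHM fr) (hN : h19_HN fr) (e M0 M : ℕ) (hM0 : 4 * fr.g + 2 ≤ M0)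
    (hM : (4 * e + 1) * M0 + 2 * fr.g ≤ M) :
    ∃ C : ℝ, ∀ (A₁ B₁ A₂ B₂ : Fin e → Place Qbar F) (s₁ s₂ : Fin (fr.n (e + e)) → ℚ)
      (t : Fin (fr.n ((e + e) + (e + e))) → ℚ),
      fr.IsAdm (Fin.append (Fin.append A₁ B₁) (Fin.append A₂ B₂)) →
      fr.IsStable A₁ → fr.IsStable B₁ → fr.IsStable A₂ → fr.IsStable B₂ →
      fr.Cuts s₁ (Fin.append A₁ B₁) → fr.Cuts s₂ (Fin.append A₂ B₂) →
      fr.vec ((e + e) + (e + e)) (fun l => (t l : Qbar)) =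
        fr.vec (e + e) (fun i => (s₁ i : Qbar)) * fr.vec (e + e) (fun j => (s₂ j : Qbar)) →
      |fr.qraw M (Fin.append A₁ A₂) (Fin.append B₁ B₂) t
        + fr.qraw M (Fin.append A₁ B₂) (Fin.append B₁ A₂) t
        - 2 * (fr.qraw M A₁ B₁ s₁ + fr.qraw M A₂ B₂ s₂)| ≤ C := by
  have hMbig : 8 * e + 2 + 2 * fr.g ≤ M := by
    have h2 : 2 ≤ M0 := by omega
    have h3 : (4 * e + 1) * 2 ≤ (4 * e + 1) * M0 := Nat.mul_le_mul_left _ h2
    omega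
  obtain ⟨Ca, hCa⟩ := hPI M0 M (4 * e) hM0 hM
  obtain ⟨C2, hC2⟩ := h19_scale0_sub fr hS0 M (e + e) (by omega) (by omega)
  obtain ⟨C4, hC4⟩ := h19_scale0_sub fr hS0 M ((e + e) + (e + e)) (by omega) (by omega)
  obtain ⟨Ch, hCh⟩ := hHM (e + e) (e + e)
  have hn2 := hN (M - (e + e)) (by omega)
  have hn4 := hN (M - ((e + e) + (e + e))) (by omega)
  have h2R : (fr.n (M - (e + e)) : ℝ) = ((M - (e + e) : ℕ) : ℝ) + 1 - fr.g := by
    exact_mod_cast hn2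
  have h4R : (fr.n (M - ((e + e) + (e + e))) : ℝ)
      = ((M - ((e + e) + (e + e)) : ℕ) : ℝ) + 1 - fr.g := by
    exact_mod_cast hn4
  have hMR : ((M - (e + e) : ℕ) : ℝ) = ((M - ((e + e) + (e + e)) : ℕ) : ℝ) + 2 * e := by
    have h : M - (e + e) = (M - ((e + e) + (e + e))) + 2 * e := by omega
    rw [h]
    push_cast
    ring
  have hN2 : (fr.n (M - (e + e)) : ℝ) = (fr.n (M - ((e + e) + (e + e))) : ℝ) + 2 * e := by
    rw [h2R, h4R, hMR]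
    ring
  refine ⟨5 * Ca + 2 * C2 + C4
    + Ch * |(fr.n (M - ((e + e) + (e + e))) : ℝ) - 2 * fr.n M + 4 * e|,
    fun A₁ B₁ A₂ B₂ s₁ s₂ t hadm stA₁ stB₁ stA₂ stB₂ c₁ c₂ ht => ?_⟩
  obtain ⟨hZ₁, hZ₂, hZZ⟩ := (h19_isAdm_append_iff fr _ _).mp hadm
  obtain ⟨hA₁, hB₁, dA₁B₁⟩ := (h19_isAdm_append_iff fr _ _).mp hZ₁
  obtain ⟨hA₂, hB₂, dA₂B₂⟩ := (h19_isAdm_append_iff fr _ _).mp hZ₂
  have dA₁A₂ : ∀ i j, A₁ i ≠ A₂ j := fun i j => by
    have := hZZ (Fin.castAdd e i) (Fin.castAdd e j)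
    rwa [Fin.append_left, Fin.append_left] at this
  have dA₁B₂ : ∀ i j, A₁ i ≠ B₂ j := fun i j => by
    have := hZZ (Fin.castAdd e i) (Fin.natAdd e j)
    rwa [Fin.append_left, Fin.append_right] at this
  have dB₁A₂ : ∀ i j, B₁ i ≠ A₂ j := fun i j => by
    have := hZZ (Fin.natAdd e i) (Fin.castAdd e j)
    rwa [Fin.append_right, Fin.append_left] at this
  have dB₁B₂ : ∀ i j, B₁ i ≠ B₂ j := fun i j => by
    have := hZZ (Fin.natAdd e i) (Fin.natAdd e j)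
    rwa [Fin.append_right, Fin.append_right] at this
  have stZ₁ := h19_isStable_append fr stA₁ stB₁
  have stZ₂ := h19_isStable_append fr stA₂ stB₂
  -- the five pairing identities
  have ha := hCa e e A₁ A₂ (by omega) ((h19_isAdm_append_iff fr _ _).mpr ⟨hA₁, hA₂, dA₁A₂⟩)
  have hb := hCa e e B₁ B₂ (by omega) ((h19_isAdm_append_iff fr _ _).mpr ⟨hB₁, hB₂, dB₁B₂⟩)
  have hc := hCa e e A₁ B₂ (by omega) ((h19_isAdm_append_iff fr _ _).mpr ⟨hA₁, hB₂, dA₁B₂⟩)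
  have hd := hCa e e B₁ A₂ (by omega) ((h19_isAdm_append_iff fr _ _).mpr ⟨hB₁, hA₂, dB₁A₂⟩)
  have he := hCa (e + e) (e + e) (Fin.append A₁ B₁) (Fin.append A₂ B₂) (by omega) hadm
  -- bi-additivity
  have hf : fr.pair M0 (Fin.append A₁ B₁) (Fin.append A₂ B₂)
      = fr.pair M0 A₁ A₂ + fr.pair M0 A₁ B₂ + fr.pair M0 B₁ A₂ + fr.pair M0 B₁ B₂ := by
    rw [hPL M0 A₁ B₁ (Fin.append A₂ B₂), hPC M0 A₁ (Fin.append A₂ B₂),
      hPC M0 B₁ (Fin.append A₂ B₂), hPL M0 A₂ B₂ A₁, hPL M0 A₂ B₂ B₁,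
      hPC M0 A₂ A₁, hPC M0 B₂ A₁, hPC M0 A₂ B₁, hPC M0 B₂ B₁]
    ring
  -- scaling
  have hg₁ := hC2 (Fin.append A₁ B₁) s₁ hZ₁ stZ₁ c₁
  have hg₂ := hC2 (Fin.append A₂ B₂) s₂ hZ₂ stZ₂ c₂
  have ct : fr.Cuts t (Fin.append (Fin.append A₁ B₁) (Fin.append A₂ B₂)) :=
    h19_cuts_mul fr c₁ c₂ ht (h19_dv_append _ _)
  have hh := hC4 (Fin.append (Fin.append A₁ B₁) (Fin.append A₂ B₂)) t hadm
    (h19_isStable_append fr stZ₁ stZ₂) ct
  have hi := hCh s₁ s₂ t (h19_cuts_ne_zero fr c₁) (h19_cuts_ne_zero fr c₂) ht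
  -- the computation
  rw [hN2] at hg₁ hg₂
  rw [hf] at he
  obtain ⟨δ, hδ⟩ : ∃ δ : ℝ, h55_ht t = h55_ht s₁ + h55_ht s₂ + δ :=
    ⟨h55_ht t - h55_ht s₁ - h55_ht s₂, by ring⟩
  have hδ' : |δ| ≤ Ch := by
    have : δ = h55_ht t - h55_ht s₁ - h55_ht s₂ := by rw [hδ]; ring
    rw [this]
    exact hi
  have hK : |δ * ((fr.n (M - ((e + e) + (e + e))) : ℝ) - 2 * fr.n M + 4 * e)|
      ≤ Ch * |(fr.n (M - ((e + e) + (e + e))) : ℝ) - 2 * fr.n M + 4 * e| := by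
    rw [abs_mul]
    exact mul_le_mul_of_nonneg_right hδ' (abs_nonneg _)
  unfold h55_Frame.qraw
  rw [hδ] at hh ⊢
  push_cast
  rw [abs_le] at ha hb hc hd he hg₁ hg₂ hh hK ⊢
  constructor <;>
    linarith [ha.1, ha.2, hb.1, hb.2, hc.1, hc.2, hd.1, hd.2, he.1, he.2, hg₁.1, hg₁.2,
      hg₂.1, hg₂.2, hh.1, hh.2, hK.1, hK.2]

/-- **(PAR)**, hypothesis form of `h55_par`. -/
theorem h55_par_of (hSC : h19_HSC fr) (hS0 : h19_HS0 fr) (hGe : h19_HGe fr)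
    (hRep : h19_HRep fr) (hCut : h19_HCut fr) (hPI : h19_HPI fr) (hPL : h19_HPL fr)
    (hPC : h19_HPC fr) (hHM : h19_HHM fr) (hMR : h19_HMR fr) (hN : h19_HN fr)
    (e M0 M : ℕ) (he : 2 * fr.g + 1 ≤ e) (hM0 : 4 * fr.g + 2 ≤ M0)
    (hM : (4 * e + 1) * M0 + 2 * fr.g ≤ M) :
    ∃ C : ℝ, ∀ (c₁ c₂ : Pic0 Qbar F) (A₁ B₁ : Fin e → Place Qbar F) (s₁ : Fin (fr.n (e + e)) → ℚ)
      (A₂ B₂ : Fin e → Place Qbar F) (s₂ : Fin (fr.n (e + e)) → ℚ)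
      (Ap Bp : Fin (e + e) → Place Qbar F) (sp : Fin (fr.n ((e + e) + (e + e))) → ℚ)
      (Am Bm : Fin (e + e) → Place Qbar F) (sm : Fin (fr.n ((e + e) + (e + e))) → ℚ),
      fr.IsPair e c₁ A₁ B₁ s₁ → fr.IsPair e c₂ A₂ B₂ s₂ →
      fr.IsPair (e + e) (c₁ + c₂) Ap Bp sp → fr.IsPair (e + e) (c₁ - c₂) Am Bm sm →
      |fr.qraw M Ap Bp sp + fr.qraw M Am Bm sm
        - 2 * (fr.qraw M A₁ B₁ s₁ + fr.qraw M A₂ B₂ s₂)| ≤ C := by
  classical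
  have hMbig : 8 * e + 2 + 2 * fr.g ≤ M := by
    have h2 : 2 ≤ M0 := by omega
    have h3 : (4 * e + 1) * 2 ≤ (4 * e + 1) * M0 := Nat.mul_le_mul_left _ h2
    omega
  obtain ⟨C1, hC1⟩ := h55_inv_of fr hSC hGe hRep hCut e M he (by omega)
  obtain ⟨C2, hC2⟩ := h55_inv_of fr hSC hGe hRep hCut (e + e) M (by omega) (by omega)
  obtain ⟨Cg, hCg⟩ := h19_par_gp fr hPI hPL hPC hS0 hHM hN e M0 M hM0 hM
  refine ⟨2 * C2 + 4 * C1 + Cg,
    fun c₁ c₂ A₁ B₁ s₁ A₂ B₂ s₂ Ap Bp sp Am Bm sm p₁ p₂ pp pm => ?_⟩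
  have hfix₁ : fr.IsFixed c₁ := h19_isFixed_of_rep fr p₁.stA p₁.repA
  have hfix₂ : fr.IsFixed c₂ := h19_isFixed_of_rep fr p₂.stA p₂.repA
  have hfix₁' : fr.IsFixed (-c₁) := fun σ => by rw [smul_neg, hfix₁ σ]
  have hfix₂' : fr.IsFixed (-c₂) := fun σ => by rw [smul_neg, hfix₂ σ]
  -- two pairs in general position
  obtain ⟨X₁, hX₁, stX₁, rX₁, -⟩ := hRep e he c₁ hfix₁ ∅
  obtain ⟨Y₁, hY₁, stY₁, rY₁, tY₁⟩ := hRep e he (-c₁) hfix₁' (Finset.univ.image X₁)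
  obtain ⟨X₂, hX₂, stX₂, rX₂, tX₂⟩ := hRep e he c₂ hfix₂
    (Finset.univ.image X₁ ∪ Finset.univ.image Y₁)
  obtain ⟨Y₂, hY₂, stY₂, rY₂, tY₂⟩ := hRep e he (-c₂) hfix₂'
    (Finset.univ.image X₁ ∪ Finset.univ.image Y₁ ∪ Finset.univ.image X₂)
  have dY₁X₁ : ∀ i j, Y₁ i ≠ X₁ j := fun i j h => tY₁ i (by rw [h]; simp)
  have dX₂X₁ : ∀ i j, X₂ i ≠ X₁ j := fun i j h => tX₂ i (by rw [h]; simp)
  have dX₂Y₁ : ∀ i j, X₂ i ≠ Y₁ j := fun i j h => tX₂ i (by rw [h]; simp)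
  have dY₂X₁ : ∀ i j, Y₂ i ≠ X₁ j := fun i j h => tY₂ i (by rw [h]; simp)
  have dY₂Y₁ : ∀ i j, Y₂ i ≠ Y₁ j := fun i j h => tY₂ i (by rw [h]; simp)
  have dY₂X₂ : ∀ i j, Y₂ i ≠ X₂ j := fun i j h => tY₂ i (by rw [h]; simp)
  have dX₁Y₁ : ∀ i j, X₁ i ≠ Y₁ j := fun i j => (dY₁X₁ j i).symm
  have dX₁X₂ : ∀ i j, X₁ i ≠ X₂ j := fun i j => (dX₂X₁ j i).symm
  have dY₁X₂ : ∀ i j, Y₁ i ≠ X₂ j := fun i j => (dX₂Y₁ j i).symm
  have dX₁Y₂ : ∀ i j, X₁ i ≠ Y₂ j := fun i j => (dY₂X₁ j i).symm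
  have dY₁Y₂ : ∀ i j, Y₁ i ≠ Y₂ j := fun i j => (dY₂Y₁ j i).symm
  have dX₂Y₂ : ∀ i j, X₂ i ≠ Y₂ j := fun i j => (dY₂X₂ j i).symm
  have adm₁ : fr.IsAdm (Fin.append X₁ Y₁) :=
    (h19_isAdm_append_iff fr _ _).mpr ⟨hX₁, hY₁, dX₁Y₁⟩
  have adm₂ : fr.IsAdm (Fin.append X₂ Y₂) :=
    (h19_isAdm_append_iff fr _ _).mpr ⟨hX₂, hY₂, dX₂Y₂⟩
  obtain ⟨u₁, hu₁⟩ := hCut e c₁ X₁ Y₁ rX₁ rY₁ stX₁ stY₁ adm₁
  obtain ⟨u₂, hu₂⟩ := hCut e c₂ X₂ Y₂ rX₂ rY₂ stX₂ stY₂ adm₂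
  obtain ⟨t, ht⟩ := hMR (e + e) (e + e) u₁ u₂
  have q₁ : fr.IsPair e c₁ X₁ Y₁ u₁ := ⟨adm₁, stX₁, stY₁, rX₁, hu₁⟩
  have q₂ : fr.IsPair e c₂ X₂ Y₂ u₂ := ⟨adm₂, stX₂, stY₂, rX₂, hu₂⟩
  have admZ : fr.IsAdm (Fin.append (Fin.append X₁ Y₁) (Fin.append X₂ Y₂)) := by
    refine (h19_isAdm_append_iff fr _ _).mpr ⟨adm₁, adm₂, ?_⟩
    rw [Fin.forall_fin_add]
    simp only [Fin.forall_fin_add, Fin.append_left, Fin.append_right]
    exact ⟨fun i => ⟨dX₁X₂ i, dX₁Y₂ i⟩, fun i => ⟨dY₁X₂ i, dY₁Y₂ i⟩⟩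
  have qp : fr.IsPair (e + e) (c₁ + c₂) (Fin.append X₁ X₂) (Fin.append Y₁ Y₂) t := by
    refine ⟨?_, h19_isStable_append fr stX₁ stX₂, h19_isStable_append fr stY₁ stY₂,
      h19_rep_append fr rX₁ rX₂, h19_cuts_mul fr hu₁ hu₂ ht ?_⟩
    · refine (h19_isAdm_append_iff fr _ _).mpr
        ⟨(h19_isAdm_append_iff fr _ _).mpr ⟨hX₁, hX₂, dX₁X₂⟩,
          (h19_isAdm_append_iff fr _ _).mpr ⟨hY₁, hY₂, dY₁Y₂⟩, ?_⟩
      rw [Fin.forall_fin_add]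
      simp only [Fin.forall_fin_add, Fin.append_left, Fin.append_right]
      exact ⟨fun i => ⟨dX₁Y₁ i, dX₁Y₂ i⟩, fun i => ⟨fun j => (dY₁X₂ j i).symm, dX₂Y₂ i⟩⟩
    · rw [h19_dv_append, h19_dv_append, h19_dv_append, h19_dv_append, h19_dv_append]
      abel
  have qm : fr.IsPair (e + e) (c₁ - c₂) (Fin.append X₁ Y₂) (Fin.append Y₁ X₂) t := by
    refine ⟨?_, h19_isStable_append fr stX₁ stY₂, h19_isStable_append fr stY₁ stX₂, ?_,
      h19_cuts_mul fr hu₁ hu₂ ht ?_⟩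
    · refine (h19_isAdm_append_iff fr _ _).mpr
        ⟨(h19_isAdm_append_iff fr _ _).mpr ⟨hX₁, hY₂, dX₁Y₂⟩,
          (h19_isAdm_append_iff fr _ _).mpr ⟨hY₁, hX₂, dY₁X₂⟩, ?_⟩
      rw [Fin.forall_fin_add]
      simp only [Fin.forall_fin_add, Fin.append_left, Fin.append_right]
      exact ⟨fun i => ⟨dX₁Y₁ i, dX₁X₂ i⟩, fun i => ⟨dY₂Y₁ i, dY₂X₂ i⟩⟩
    · rw [sub_eq_add_neg]
      exact h19_rep_append fr rX₁ rY₂
    · rw [h19_dv_append, h19_dv_append, h19_dv_append, h19_dv_append, h19_dv_append]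
      abel
  have hgp := hCg X₁ Y₁ X₂ Y₂ u₁ u₂ t admZ stX₁ stY₁ stX₂ stY₂ hu₁ hu₂ ht
  have i₁ := hC1 c₁ A₁ B₁ s₁ X₁ Y₁ u₁ p₁ q₁
  have i₂ := hC1 c₂ A₂ B₂ s₂ X₂ Y₂ u₂ p₂ q₂
  have ip := hC2 (c₁ + c₂) Ap Bp sp _ _ t pp qp
  have im := hC2 (c₁ - c₂) Am Bm sm _ _ t pm qm
  rw [abs_le] at hgp i₁ i₂ ip im ⊢
  constructor <;>
    linarith [hgp.1, hgp.2, i₁.1, i₁.2, i₂.1, i₂.2, ip.1, ip.2, im.1, im.2]

/-- **(DEG)**, hypothesis form of `h55_deg`. -/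
theorem h55_deg_of (hSC : h19_HSC fr) (hS0 : h19_HS0 fr) (hGe : h19_HGe fr)
    (hRep : h19_HRep fr) (hCut : h19_HCut fr) (hPI : h19_HPI fr) (hPL : h19_HPL fr)
    (hPC : h19_HPC fr) (hHM : h19_HHM fr) (hMR : h19_HMR fr) (hN : h19_HN fr)
    (e M0 M : ℕ) (he : 2 * fr.g + 1 ≤ e) (hM0 : 4 * fr.g + 2 ≤ M0)
    (hM : (4 * e + 1) * M0 + 2 * fr.g ≤ M) :
    ∃ C : ℝ, ∀ (c : Pic0 Qbar F) (A B : Fin e → Place Qbar F) (s : Fin (fr.n (e + e)) → ℚ)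
      (A' B' : Fin (e + e) → Place Qbar F) (s' : Fin (fr.n ((e + e) + (e + e))) → ℚ),
      fr.IsPair e c A B s → fr.IsPair (e + e) c A' B' s' →
      |fr.qraw M A' B' s' - fr.qraw M A B s| ≤ C := by
  classical
  obtain ⟨C, hC⟩ := h55_par_of fr hSC hS0 hGe hRep hCut hPI hPL hPC hHM hMR hN e M0 M he hM0 hM
  -- a fixed pair for the class `0`
  have hfix0 : fr.IsFixed (0 : Pic0 Qbar F) := fun σ =>
    smul_zero (A := Pic0 Qbar F) (fr.act σ)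
  have hfix0' : fr.IsFixed (-(0 : Pic0 Qbar F)) := by rw [neg_zero]; exact hfix0
  obtain ⟨A0, hA0, stA0, rA0, -⟩ := hRep e he 0 hfix0 ∅
  obtain ⟨B0, hB0, stB0, rB0, tB0⟩ := hRep e he (-0) hfix0' (Finset.univ.image A0)
  have adm0 : fr.IsAdm (Fin.append A0 B0) :=
    (h19_isAdm_append_iff fr _ _).mpr
      ⟨hA0, hB0, fun i j h => tB0 j (by rw [← h]; simp)⟩
  obtain ⟨s0, hs0⟩ := hCut e 0 A0 B0 rA0 rB0 stA0 stB0 adm0
  have p0 : fr.IsPair e 0 A0 B0 s0 := ⟨adm0, stA0, stB0, rA0, hs0⟩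
  refine ⟨C / 2 + |fr.qraw M A0 B0 s0|, fun c A B s A' B' s' p p' => ?_⟩
  have h := hC c 0 A B s A0 B0 s0 A' B' s' A' B' s' p p0 (by rwa [add_zero]) (by rwa [sub_zero])
  have h1 := le_abs_self (fr.qraw M A0 B0 s0)
  have h2 := neg_abs_le (fr.qraw M A0 B0 s0)
  rw [abs_le] at h ⊢
  constructor <;> linarith [h.1, h.2]

end Fermat.Agent.S17
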