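import Fermat.Agent.S17.h55_Frame
import Fermat.Agent.S17.R55_FB
import Fermat.Agent.S17.R55_FB2
import Fermat.Agent.S17.R55_WC
import Fermat.Agent.S17.R55_WC2
import Fermat.Agent.S17.h93_ProdFrame
import Fermat.Agent.S17.h32_ScaleOf

/-!
# S17 height block (route R55), row SC: scaling (owner helper32)

`G_(M+k)(A ⊔ Z) = G_M(A) + (n M - a)·h(s) + O(1)` for a rational section `s ∈ V_k` cutting out
`Z`; statements `h55_scale`, `h55_scale0` verbatim from the skeleton of helper55.  The proof is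
`h32_ScaleOf.lean` (hypothesis form) applied to the landed rows FB, WC, PR.
-/

set_option autoImplicit false

open AlgebraicCurve

namespace Fermat.Agent.S17

open Fermat.Agent.S18 Fermat.Agent.S27

local notation "Qbar" => AlgebraicClosure ℚ
local notation "GQ" => (AlgebraicClosure ℚ ≃ₐ[ℚ] AlgebraicClosure ℚ)

variable {F : Type} [Field F] [Algebra Qbar F] (fr : h55_Frame F)

theorem h55_scale (M k a : ℕ) (hM : a + 2 * fr.g ≤ M + 1) :
    ∃ C : ℝ, ∀ (A : Fin a → Place Qbar F) (Z : Fin k → Place Qbar F) (s : Fin (fr.n k) → ℚ),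
      fr.IsAdm (Fin.append A Z) → fr.IsStable A → fr.IsStable Z → fr.Cuts s Z →
      |fr.G (M + k) (Fin.append A Z) - fr.G M A - ((fr.n M : ℝ) - a) * h55_ht s| ≤ C :=
  h55_scale_of fr (h55_n_eq fr) (h55_vec_mem fr) (fun M _ hf => h55_exists_vec fr M hf)
    (h55_act_vec fr) (h55_vec_rat_of_fixed fr) (fun M _ hP σ => h55_pt_smul fr M hP σ)
    (fun hA hB => h55_isStable_append fr hA hB)
    (h93_frame_mn_mul_of fr (h55_exists_mul fr))
    (fun M _ P hP c => h55_mem_W_iff fr M P hP c)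
    (fun M _ P hP hM => h55_exists_minor fr M P hP hM)
    (fun M k _ A Z s hc f => h55_smul_W fr M k A Z s hc f) M k a hM

theorem h55_scale0 (M k : ℕ) (hM : 2 * fr.g ≤ M + 1) :
    ∃ C : ℝ, ∀ (Z : Fin k → Place Qbar F) (s : Fin (fr.n k) → ℚ),
      fr.IsAdm Z → fr.IsStable Z → fr.Cuts s Z →
      |fr.G (M + k) Z - (fr.n M : ℝ) * h55_ht s| ≤ C :=
  h55_scale0_of fr (h55_n_eq fr) (h55_vec_mem fr) (fun M _ hf => h55_exists_vec fr M hf)
    (h55_act_vec fr) (h55_vec_rat_of_fixed fr) (fun M _ hP σ => h55_pt_smul fr M hP σ)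
    (h93_frame_mn_mul_of fr (h55_exists_mul fr))
    (fun M _ P hP c => h55_mem_W_iff fr M P hP c)
    (fun M _ P hP hM => h55_exists_minor fr M P hP hM)
    (fun M k _ A Z s hc f => h55_smul_W fr M k A Z s hc f) M k hM

end Fermat.Agent.S17
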