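import Fermat.Agent.S27.Lift
import Fermat.Agent.S27.h82_LiftBasis

/-!
# S17 (weak Mordell-Weil input), DIVLIFT: the kernel of reduction is `m`-divisible

For a reduction datum with a chart (any valuation ring, `K` algebraically closed of
characteristic `0`, `k` algebraically closed, `m` invertible in `k`): every degree-zero divisor
`X` of `F` whose reduction is principal is linearly equivalent to `m • D` for a degree-zero
divisor `D` whose reduction is again principal (`h2_divlift`).

The proof is the assembly of `Fermat.Agent.S27.Lift` (block B5 LIFT of S27) for `Db = 0`, with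
the space `L(m G')` replaced by `L(m G' + X)` on the `K`-side (after normalising `X` so that its
reduction is `0` as a divisor, the reduced data are unchanged) and the denominator `d` of COORD
replaced by `d * w`, where `w(x)` clears the poles of `L(m G' + X)` on the chart.
-/

set_option autoImplicit false

noncomputable section

open AlgebraicCurve Fermat.Agent.S18 Fermat.Agent.S27 Polynomial IntermediateField

namespace Fermat.Agent.S17

variable {K F k Fb : Type*} [Field K] [Field F] [Algebra K F] [Field k] [Field Fb] [Algebra k Fb]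

/-! ### STEP 7 with a right-hand side -/

theorem h2_div_conclude [IsAlgClosed K] {x : F} (hxK : h75_IsChart K x) (m g : ℕ)
    (G' : Divisor K F) (hG'deg : Divisor.degree G' = g) (Xd : Divisor K F)
    (hXdeg : Divisor.degree Xd = 0) (T' : Fin g → Place K F)
    (hT' : Function.Injective T') (hG'T : ∀ j, G' (T' j) = 0) (hXT : ∀ j, Xd (T' j) = 0)
    (f : F) (hf0 : f ≠ 0)
    (hfV : f ∈ riemannRochSpace (m • G' + Xd)) (hford : ∀ j, (m : ℤ) ≤ (T' j).ord f) :
    Divisor.degree ((∑ j, Finsupp.single (T' j) (1 : ℤ)) - G') = 0 ∧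
      m • ((∑ j, Finsupp.single (T' j) (1 : ℤ)) - G') - Xd ∈
        Divisor.principal (K := K) (F := F) := by
  classical
  have hdeg0 : Divisor.degree ((∑ j, Finsupp.single (T' j) (1 : ℤ)) - G') = 0 := by
    rw [map_sub, map_sum, hG'deg]
    simp only [Divisor.degree_single, h75_deg_eq_one hxK, Nat.cast_one, mul_one,
      Finset.sum_const, Finset.card_univ, Fintype.card_fin]
    simp
  refine ⟨hdeg0, ?_⟩
  have hsum : ∀ P : Place K F, (∑ j, Finsupp.single (T' j) (1 : ℤ)) P =
      if ∃ j, T' j = P then 1 else 0 := by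
    intro P
    rw [Finsupp.finsetSum_apply]
    split_ifs with h
    · obtain ⟨j, rfl⟩ := h
      rw [Finset.sum_eq_single j]
      · simp
      · intro i _ hij
        rw [Finsupp.single_apply, if_neg (fun h => hij (hT' h))]
      · intro h
        exact absurd (Finset.mem_univ j) h
    · refine Finset.sum_eq_zero fun i _ => ?_
      rw [Finsupp.single_apply, if_neg (fun hi => h ⟨i, hi⟩)]
  have hle : ∀ P : Place K F,
      (m • ((∑ j, Finsupp.single (T' j) (1 : ℤ)) - G') - Xd) P ≤ P.ord f := by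
    intro P
    rw [Finsupp.sub_apply, Finsupp.smul_apply, Finsupp.sub_apply, hsum P, nsmul_eq_mul]
    split_ifs with h
    · obtain ⟨j, rfl⟩ := h
      rw [hG'T j, hXT j, sub_zero, sub_zero, mul_one]
      exact hford j
    · rcases (mem_riemannRochSpace_iff.mp hfV) P with h1 | h1
      · exact absurd h1 hf0
      · rw [Finsupp.add_apply, Finsupp.smul_apply, nsmul_eq_mul] at h1
        linarith
  have hD0 : Divisor.degree (m • ((∑ j, Finsupp.single (T' j) (1 : ℤ)) - G') - Xd) = 0 := by
    rw [map_sub, map_nsmul, hdeg0, smul_zero, hXdeg, sub_zero]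
  have heq := h64_ord_eq_of_le_of_degree hxK f hf0 _ hle hD0
  exact ⟨f, hf0, fun v => (heq v).symm⟩

/-! ### Clearing the poles on the chart -/

/-- a linear polynomial over `A` with nonzero reduction vanishing at a given point. -/
theorem h2_div_factor (R : h39_RedDatum K F k Fb) (ξ : K) :
    ∃ u : Polynomial R.A, u.map R.res ≠ 0 ∧ ∃ a : K, a ≠ 0 ∧
      ∀ x : F, aeval x (u.map R.A.subtype) = algebraMap K F a * (x - algebraMap K F ξ) := by
  by_cases hξ : ξ ∈ R.A
  · refine ⟨X - C ⟨ξ, hξ⟩, ?_, 1, one_ne_zero, fun x => ?_⟩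
    · rw [Polynomial.map_sub, Polynomial.map_X, Polynomial.map_C]
      exact Polynomial.X_sub_C_ne_zero _
    · rw [Polynomial.map_sub, Polynomial.map_X, Polynomial.map_C, map_sub, aeval_X, aeval_C,
        map_one, one_mul]
      rfl
  · have hξ' : ξ⁻¹ ∈ R.A := (R.A.mem_or_inv_mem ξ).resolve_left hξ
    have hξ0 : ξ ≠ 0 := by
      rintro rfl
      exact hξ (zero_mem _)
    refine ⟨C ⟨ξ⁻¹, hξ'⟩ * X - 1, ?_, ξ⁻¹, inv_ne_zero hξ0, fun x => ?_⟩
    · intro h
      have h1 := congrArg (fun p => p.coeff 0) h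
      simp at h1
    · rw [Polynomial.map_sub, Polynomial.map_mul, Polynomial.map_X, Polynomial.map_C,
        Polynomial.map_one, map_sub, map_mul, aeval_X, aeval_C, map_one, mul_sub,
        ← map_mul]
      have h1 : ξ⁻¹ * ξ = 1 := inv_mul_cancel₀ hξ0
      rw [h1, map_one]
      rfl

/-- a polynomial in `x` over `A`, with nonzero reduction, vanishing to the order prescribed by
a divisor at every place of the chart. -/
theorem h2_div_clear [IsAlgClosed K] (R : h39_RedDatum K F k Fb) {x : F}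
    (hxK : h75_IsChart K x) (Xd : Divisor K F) :
    ∃ w : Polynomial R.A, w.map R.res ≠ 0 ∧
      ∀ P : Place K F, x ∈ P.toValuationSubring →
        Xd P ≤ P.ord (aeval x (w.map R.A.subtype)) := by
  classical
  have hxne : ∀ a : K, x ≠ algebraMap K F a := by
    intro a h
    exact hxK.tr (h ▸ isAlgebraic_algebraMap a)
  have hne : ∀ w : Polynomial R.A, w.map R.res ≠ 0 → aeval x (w.map R.A.subtype) ≠ 0 := by
    intro w hw h
    have h1 : w.map R.A.subtype = 0 := (transcendental_iff.mp hxK.tr) _ h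
    have h2 : w = 0 :=
      Polynomial.map_injective R.A.subtype Subtype.val_injective (by rw [h1, Polynomial.map_zero])
    exact hw (by rw [h2, Polynomial.map_zero])
  have hnonneg : ∀ (w : Polynomial R.A) (P : Place K F), x ∈ P.toValuationSubring →
      0 ≤ P.ord (aeval x (w.map R.A.subtype)) := by
    intro w P hP
    obtain ⟨ξ, hξ⟩ := h39_exists_val hxK P hP
    exact Fermat.Agent.S24.h24_ord_nonneg_of_mem P
      (h39_val_mem P (h2_asm_val_aeval P hξ (w.map R.A.subtype)))
  induction Xd using Finsupp.induction_linear with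
  | zero =>
    refine ⟨1, ?_, fun P hP => ?_⟩
    · rw [Polynomial.map_one]
      exact one_ne_zero
    · rw [Finsupp.zero_apply]
      exact hnonneg 1 P hP
  | add X₁ X₂ h₁ h₂ =>
    obtain ⟨w₁, hw₁, hX₁⟩ := h₁
    obtain ⟨w₂, hw₂, hX₂⟩ := h₂
    refine ⟨w₁ * w₂, ?_, fun P hP => ?_⟩
    · rw [Polynomial.map_mul]
      exact mul_ne_zero hw₁ hw₂
    · rw [Polynomial.map_mul, map_mul, P.ord_mul (hne w₁ hw₁) (hne w₂ hw₂), Finsupp.add_apply]
      exact add_le_add (hX₁ P hP) (hX₂ P hP)
  | single P₀ n =>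
    by_cases hP₀ : x ∈ P₀.toValuationSubring
    · obtain ⟨ξ, hξ⟩ := h39_exists_val hxK P₀ hP₀
      obtain ⟨u, hu, a, ha, hua⟩ := h2_div_factor R ξ
      have hpos : 0 < P₀.ord (x - algebraMap K F ξ) := by
        rcases hξ with h | h
        · exact absurd h (hxne _)
        · exact h
      have hxξ : x - algebraMap K F ξ ≠ 0 := fun h => hxne ξ (sub_eq_zero.mp h)
      have ha' : algebraMap K F a ≠ 0 := (_root_.map_ne_zero (algebraMap K F)).mpr ha
      have hordu : 0 < P₀.ord (aeval x (u.map R.A.subtype)) := by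
        rw [hua x, P₀.ord_mul ha' hxξ, Fermat.Agent.S24.h24_ord_algebraMap P₀ a, zero_add]
        exact hpos
      refine ⟨u ^ n.toNat, ?_, fun P hP => ?_⟩
      · rw [Polynomial.map_pow]
        exact pow_ne_zero _ hu
      · by_cases hPP : P = P₀
        · subst hPP
          have hpow := P.ord_zpow (aeval x (u.map R.A.subtype)) (n.toNat : ℤ)
          rw [zpow_natCast] at hpow
          rw [Finsupp.single_eq_same, Polynomial.map_pow, map_pow, hpow]
          have h1 : n ≤ (n.toNat : ℤ) := Int.self_le_toNat n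
          have h2 : (0 : ℤ) ≤ (n.toNat : ℤ) := Int.natCast_nonneg _
          nlinarith
        · rw [Finsupp.single_eq_of_ne (fun h => hPP h)]
          exact hnonneg _ P hP
    · refine ⟨1, ?_, fun P hP => ?_⟩
      · rw [Polynomial.map_one]
        exact one_ne_zero
      · have hPP : P ≠ P₀ := fun h => hP₀ (h ▸ hP)
        rw [Finsupp.single_eq_of_ne (fun h => hPP h)]
        exact hnonneg 1 P hP

/-! ### The assembly -/

/-- DIVLIFT, core: `X` of degree zero with reduction `0` (as a divisor), given the plane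
coordinates of COORD with a denominator `d` for all functions of `O` whose poles on the chart
are bounded by `X`. -/
theorem h2_divlift_core [IsAlgClosed K] [CharZero K] [IsAlgClosed k]
    (R : h39_RedDatum K F k Fb) {x : F} (hx : h39_Chart R x) (S : h39_PlaceRed R)
    (hS1 : ∃ r : Place K F → Place k Fb, h39_IsChartRed R x r ∧
        ∀ P : Place K F, h39_InDisc R x P → S.r0 P = r P)
    (m : ℕ) (hm2 : 2 ≤ m) (hm : (m : k) ≠ 0) (Xd : Divisor K F)
    (hXdeg : Divisor.degree Xd = 0) (hX0 : Finsupp.mapDomain S.r0 Xd = 0)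
    (y : F) (Φ : Polynomial (Polynomial R.A)) (d : Polynomial R.A)
    (hyO : y ∈ R.O) (hyreg : h39_Reg K x y) (hybreg : h39_Reg k (R.redF x) (R.redF y))
    (hΦ : h15_ev2 x y (Φ.map (Polynomial.mapRingHom R.A.subtype)) = 0)
    (hd0 : d.map R.res ≠ 0)
    (hdenX : ∀ f : F, f ∈ R.O →
        (∀ P : Place K F, x ∈ P.toValuationSubring → f = 0 ∨ -Xd P ≤ P.ord f) →
        ∃ H : Polynomial (Polynomial R.A),
          h15_ev2 x y (H.map (Polynomial.mapRingHom R.A.subtype)) =
            aeval x (d.map R.A.subtype) * f)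
    (hpt : ∀ ξ η : R.A, (Φ.eval (C η)).eval ξ = 0 →
        ∃ P : Place K F, h39_Val P x (ξ : K) ∧ h39_Val P y (η : K))
    (hgood : ∀ (Q : Place k Fb) (b c : k), h39_Val Q (R.redF x) b → h39_Val Q (R.redF y) c →
        (d.map R.res).eval b ≠ 0 →
          Q.ord (R.redF x - algebraMap k Fb b) = 1 ∧
          ((Φ.map (Polynomial.mapRingHom R.res)).derivative.eval (C c)).eval b ≠ 0 ∧
          ∀ Q' : Place k Fb, h39_Val Q' (R.redF x) b → h39_Val Q' (R.redF y) c → Q' = Q) :
    ∃ D : Divisor K F, Divisor.degree D = 0 ∧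
      m • D - Xd ∈ Divisor.principal (K := K) (F := F) ∧
      Finsupp.mapDomain S.r0 D ∈ Divisor.principal (K := k) (F := Fb) := by
  classical
  have hw := hx.toh39_WeakChart
  have hxK : h75_IsChart K x := h39_weakChart_isChart R hw
  have hxk : h75_IsChart k (R.redF x) := h39_weakChart_isChart_red R hw
  have := h75_hasPrincipalDivisors hxK
  have := h75_hasPrincipalDivisors hxk
  have hm0 : 0 < m := by omega
  obtain ⟨Z, hZA, hZinj, hZ⟩ := hx.branch
  set xb := R.redF x with hxbdef
  set yb := R.redF y with hybdef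
  set Φb := Φ.map (Polynomial.mapRingHom R.res) with hΦbdef
  set db := d.map R.res with hdbdef
  -- MOVE
  obtain ⟨T, Gp, E, hTinj, hTbad0, hGp0, hGpsupp, hE0, hET, hdegG, hprinc, hl⟩ :=
    h15_move hxk (0 : Divisor k Fb) (map_zero _) _
      ((h2_asm_bad_finite hxk db hd0 (R.resK '' (Z : Set K)) (Z.finite_toSet.image _)).union
        ((Xd.support.finite_toSet).image S.r0))
  have hTbad : ∀ j, T j ∉ ({Q : Place k Fb | xb ∉ Q.toValuationSubring} ∪
      {Q | ∃ b : k, h39_Val Q xb b ∧ (db.eval b = 0 ∨ b ∈ R.resK '' (Z : Set K))}) :=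
    fun j h => hTbad0 j (Or.inl h)
  have hTX : ∀ j, T j ∉ S.r0 '' (Xd.support : Set (Place K F)) :=
    fun j h => hTbad0 j (Or.inr h)
  have hTmem : ∀ j, xb ∈ (T j).toValuationSubring := by
    intro j
    by_contra h
    exact hTbad j (Or.inl h)
  choose ξb hξb using fun j => h39_exists_val hxk (T j) (hTmem j)
  have hdξ : ∀ j, db.eval (ξb j) ≠ 0 :=
    fun j h => hTbad j (Or.inr ⟨ξb j, hξb j, Or.inl h⟩)
  have hZξ : ∀ j, ξb j ∉ R.resK '' (Z : Set K) :=
    fun j h => hTbad j (Or.inr ⟨ξb j, hξb j, Or.inr h⟩)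
  have hybmem : ∀ j, yb ∈ (T j).toValuationSubring := fun j => hybreg (T j) (hTmem j)
  choose ηb hηb using fun j => h39_exists_val hxk (T j) (hybmem j)
  have hord : ∀ j, (T j).ord (xb - algebraMap k Fb (ξb j)) = 1 :=
    fun j => (hgood (T j) (ξb j) (ηb j) (hξb j) (hηb j) (hdξ j)).1
  have hsmb : ∀ j, (Φb.derivative.eval (C (ηb j))).eval (ξb j) ≠ 0 :=
    fun j => (hgood (T j) (ξb j) (ηb j) (hξb j) (hηb j) (hdξ j)).2.1
  have huniq : ∀ j, ∀ Q' : Place k Fb, h39_Val Q' xb (ξb j) → h39_Val Q' yb (ηb j) →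
      Q' = T j :=
    fun j => (hgood (T j) (ξb j) (ηb j) (hξb j) (hηb j) (hdξ j)).2.2
  have hGpT : ∀ j, Gp (T j) = 0 := by
    intro j
    by_contra h
    exact hGpsupp (T j) h (hTmem j)
  have hsumT : ∀ j, (∑ i, Finsupp.single (T i) (1 : ℤ)) (T j) = 1 := by
    intro j
    rw [Finsupp.finsetSum_apply, Finset.sum_eq_single j]
    · simp
    · intro i _ hij
      rw [Finsupp.single_apply, if_neg (fun h => hij (hTinj h))]
    · intro h
      exact absurd (Finset.mem_univ j) h
  -- linear data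
  obtain ⟨GpK, EK, hGpKsupp, hEK0, hEKsupp, hmap, hdim, -⟩ :=
    h2_asm_linear R hx S m hm2 Gp E hGpsupp hE0 hdegG
  rw [← hxbdef] at hdim
  -- the function `f0b` with divisor `m (∑ T_j - (Gp - E))`
  have hprinc0 : (∑ j, Finsupp.single (T j) (1 : ℤ)) - (Gp - E) ∈
      Divisor.principal (K := k) (F := Fb) := by
    rw [sub_zero] at hprinc
    exact hprinc
  have hprinc2 : m • ((∑ j, Finsupp.single (T j) (1 : ℤ)) - (Gp - E)) ∈
      Divisor.principal (K := k) (F := Fb) := nsmul_mem hprinc0 m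
  obtain ⟨f0b, hf0b0, hf0bdiv⟩ := Divisor.mem_principal.mp hprinc2
  have hdivf0 : ∀ P : Place k Fb, P.ord f0b =
      m * ((∑ j, Finsupp.single (T j) (1 : ℤ)) P - (Gp - E) P) := by
    intro P
    rw [← hf0bdiv P, Finsupp.smul_apply, Finsupp.sub_apply, nsmul_eq_mul]
  have hf0bV : f0b ∈ riemannRochSpace (m • (Gp - E)) := by
    rw [mem_riemannRochSpace_iff]
    intro P
    right
    rw [hdivf0 P, Finsupp.smul_apply, nsmul_eq_mul]
    have h1 : (0 : ℤ) ≤ (∑ j, Finsupp.single (T j) (1 : ℤ)) P := by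
      rw [Finsupp.finsetSum_apply]
      refine Finset.sum_nonneg fun i _ => ?_
      rw [Finsupp.single_apply]
      split_ifs <;> norm_num
    have h2 : (0 : ℤ) ≤ m := Nat.cast_nonneg m
    nlinarith
  -- the basis
  obtain ⟨M, hM⟩ : ∃ M : ℕ, M + h75_genus k xb = m * h75_genus k xb :=
    ⟨m * h75_genus k xb - h75_genus k xb, by
      have : h75_genus k xb ≤ m * h75_genus k xb := Nat.le_mul_of_pos_left _ hm0
      omega⟩
  have : FiniteDimensional k (riemannRochSpace (m • (Gp - E))) := (h75_riemann hxk _).1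
  have hfinrank : Module.finrank k (riemannRochSpace (m • (Gp - E))) = M + 1 := by omega
  have hgen : h75_genus k xb = h75_genus K x := h39_genus_eq R hx
  have hdegK : Divisor.degree (GpK - EK) = (h75_genus k xb : ℕ) := by
    rw [← h64_degree_mapDomain_r0 R S hxK hxk, hmap, hdegG]
  have hmapm : Finsupp.mapDomain S.r0 (m • (GpK - EK) + Xd) = m • (Gp - E) := by
    rw [Finsupp.mapDomain_add, Finsupp.mapDomain_smul, hmap, hX0, add_zero]
  have : FiniteDimensional K (riemannRochSpace (m • (GpK - EK) + Xd)) := (h75_riemann hxK _).1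
  have hfinrankK : Module.finrank K (riemannRochSpace (m • (GpK - EK) + Xd)) = M + 1 := by
    have hm2' : (2 : ℤ) ≤ m := by exact_mod_cast hm2
    have hg0 : (0 : ℤ) ≤ h75_genus K x := Nat.cast_nonneg _
    have h0 : Divisor.degree (m • (GpK - EK) + Xd) = m * h75_genus K x := by
      rw [map_add, map_nsmul, hdegK, hgen, hXdeg, add_zero, nsmul_eq_mul]
    have h3 := h15_finrank_rr_of_deg hxK (m • (GpK - EK) + Xd) (by rw [h0]; nlinarith)
    rw [h0] at h3
    have h4 : (M : ℤ) + h75_genus K x = m * h75_genus K x := by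
      rw [← hgen]
      exact_mod_cast hM
    have h5 : (Module.finrank K (riemannRochSpace (m • (GpK - EK) + Xd)) : ℤ) =
        ((M + 1 : ℕ) : ℤ) := by
      rw [h3]
      push_cast
      linarith
    exact_mod_cast h5
  -- the basis and its lifts
  obtain ⟨f0, e, hf0V, hf0O, hf0red, heV, heO, hebV0, hli0, -, -⟩ :=
    h82_exists_on_cons R hw (riemannRochSpace (m • (GpK - EK) + Xd))
      (riemannRochSpace (m • (Gp - E)))
      (fun f hf hfO => by
        have h3 := h64_red_mem_rr R S.r0 S.compat (m • (GpK - EK) + Xd) hf hfO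
        rwa [hmapm] at h3) hfinrankK hfinrank f0b hf0bV hf0b0
  obtain ⟨eb, hebdef⟩ : ∃ eb : Fin M → Fb, eb = fun l => R.redF (e l) := ⟨_, rfl⟩
  have hered : ∀ l, R.redF (e l) = eb l := fun l => by rw [hebdef]
  have hli : LinearIndependent k (Fin.cons f0b eb : Fin (M + 1) → Fb) := by
    rw [hebdef]
    exact hli0
  have hebV : ∀ l, eb l ∈ riemannRochSpace (m • (Gp - E)) := fun l => by
    rw [← hered l]
    exact hebV0 l
  have hVX : ∀ f ∈ riemannRochSpace (m • (GpK - EK) + Xd), ∀ P : Place K F,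
      x ∈ P.toValuationSubring → f = 0 ∨ -Xd P ≤ P.ord f := by
    intro f hf P hP
    rcases (mem_riemannRochSpace_iff.mp hf) P with h | h
    · exact Or.inl h
    · right
      rw [Finsupp.add_apply, Finsupp.smul_apply, Finsupp.sub_apply, nsmul_eq_mul] at h
      have h1 : GpK P = 0 := by
        by_contra h1
        exact hGpKsupp P h1 hP
      have h2 := hEK0 P
      have h3 : (0 : ℤ) ≤ m := Nat.cast_nonneg m
      rw [h1] at h
      nlinarith
  obtain ⟨H0, hH0⟩ := hdenX f0 hf0O (hVX f0 hf0V)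
  choose H hH using fun l => hdenX (e l) (heO l) (hVX _ (heV l))
  -- reduced polynomial identities
  have hΦb : h15_ev2 xb yb Φb = 0 := by
    have h1 := (h2_asm_ev2_red R hx.mem hyO Φ).2
    rw [hΦ, h39_redF_zero] at h1
    exact h1.symm
  have hdred : R.redF (aeval x (d.map R.A.subtype)) = aeval xb db := h89_gauss_red R hx.mem d
  have hdO : aeval x (d.map R.A.subtype) ∈ R.O := h89_gauss_red_mem R hx.mem d
  have hH0b : h15_ev2 xb yb (H0.map (Polynomial.mapRingHom R.res)) = aeval xb db * f0b := by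
    have h1 := (h2_asm_ev2_red R hx.mem hyO H0).2
    rw [hH0, h39_redF_mul R hdO hf0O, hdred, hf0red] at h1
    exact h1.symm
  have hHb : ∀ l, h15_ev2 xb yb ((H l).map (Polynomial.mapRingHom R.res)) =
      aeval xb db * eb l := by
    intro l
    have h1 := (h2_asm_ev2_red R hx.mem hyO (H l)).2
    rw [hH l, h39_redF_mul R hdO (heO l), hdred, hered l] at h1
    exact h1.symm
  -- truncated expansions on the reduced curve
  choose θb hθbdeg hθb using
    fun j => h15_exists_trunc hxk (T j) xb yb (ξb j) (hord j) (hybmem j) m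
  have hθb0 : ∀ j, (θb j).eval 0 = ηb j := by
    intro j
    have h1 : 0 < (T j).ord (xb - algebraMap k Fb (ξb j)) := by
      rw [hord j]
      norm_num
    exact h39_val_unique (T j) (h2_asm_val_of_trunc (T j) h1 hm0 (θb j) (hθb j)) (hηb j)
  have hdivΦb : ∀ j, X ^ m ∣ h15_sub2 Φb (ξb j) (θb j) := by
    intro j
    refine (h15_ord_ge_iff_trunc (T j) xb yb (ξb j) (hord j) m (θb j) (hθb j) Φb).mp ?_
    rw [hΦb, map_zero]
    exact zero_le
  have hdb_ne : aeval xb db ≠ 0 := fun h => hd0 ((transcendental_iff.mp hxk.tr) db h)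
  have hordf0 : ∀ j, (T j).ord f0b = m := by
    intro j
    rw [hdivf0, hsumT j, Finsupp.sub_apply, hGpT j, hET j]
    ring
  have hdivH0b : ∀ j, X ^ m ∣
      h15_sub2 (H0.map (Polynomial.mapRingHom R.res)) (ξb j) (θb j) := by
    intro j
    refine (h15_ord_ge_iff_trunc (T j) xb yb (ξb j) (hord j) m (θb j) (hθb j) _).mp ?_
    rw [hH0b, (T j).adicValuation_le_exp_iff]
    right
    rw [(T j).ord_mul hdb_ne hf0b0, hordf0 j,
      h39_ord_eq_zero_of_val (T j) (h2_asm_val_aeval (T j) (hξb j) db) (hdξ j)]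
    simp
  -- approximate solution over `A`
  choose ξ0 hξ0 using fun j => R.res_surjective (ξb j)
  choose θ0 hθ0map hθ0deg using fun j => h2_asm_lift_poly R.res R.res_surjective (θb j)
  have hθ0deg' : ∀ j, (θ0 j).degree < m := fun j => by
    rw [hθ0deg j]
    exact hθbdeg j
  have h1 : ∀ j, ∀ i < m,
      (h15_sub2 Φ (ξ0 j) (θ0 j)).coeff i ∈ IsLocalRing.maximalIdeal R.A := by
    intro j
    rw [h2_asm_coeff_mem_iff, h69_sub2_map, hξ0 j, hθ0map j]
    exact hdivΦb j
  have h2 : ∀ j, ∀ i < m,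
      (h15_sub2 H0 (ξ0 j) (θ0 j)).coeff i ∈ IsLocalRing.maximalIdeal R.A := by
    intro j
    rw [h2_asm_coeff_mem_iff, h69_sub2_map, hξ0 j, hθ0map j]
    exact hdivH0b j
  -- the tangent space is trivial
  have hTan : ∀ (δξ : Fin (h75_genus k xb) → R.A)
      (δθ : Fin (h75_genus k xb) → Polynomial R.A) (δc : Fin M → R.A),
      (∀ j, (δθ j).degree < m) →
      (∀ j, ∀ i < m, (C (δξ j) * h15_sub2 (h15_dX Φ) (ξ0 j) (θ0 j) +
          δθ j * h15_sub2 (derivative Φ) (ξ0 j) (θ0 j)).coeff i ∈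
            IsLocalRing.maximalIdeal R.A) →
      (∀ j, ∀ i < m, (C (δξ j) * h15_sub2 (h15_dX H0) (ξ0 j) (θ0 j) +
          δθ j * h15_sub2 (derivative H0) (ξ0 j) (θ0 j) +
          ∑ l, C (δc l) * h15_sub2 (H l) (ξ0 j) (θ0 j)).coeff i ∈
            IsLocalRing.maximalIdeal R.A) →
      (∀ j, δξ j ∈ IsLocalRing.maximalIdeal R.A) ∧
        (∀ j i, (δθ j).coeff i ∈ IsLocalRing.maximalIdeal R.A) ∧
        ∀ l, δc l ∈ IsLocalRing.maximalIdeal R.A := by
    intro δξ δθ δc hδθ hh1 hh2
    have hh1' : ∀ j, X ^ m ∣ C (R.res (δξ j)) * h15_sub2 (h15_dX Φb) (ξb j) (θb j) +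
        (δθ j).map R.res * h15_sub2 (derivative Φb) (ξb j) (θb j) := by
      intro j
      have h3 := (h2_asm_coeff_mem_iff R _ m).mp (hh1 j)
      rw [Polynomial.map_add, Polynomial.map_mul, Polynomial.map_mul, Polynomial.map_C,
        h69_sub2_map, h69_sub2_map, hξ0 j, hθ0map j, h69_dX_map,
        ← Polynomial.derivative_map] at h3
      exact h3
    have hh2' : ∀ j, X ^ m ∣
        C (R.res (δξ j)) *
            h15_sub2 (h15_dX (H0.map (Polynomial.mapRingHom R.res))) (ξb j) (θb j) +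
          (δθ j).map R.res *
            h15_sub2 (derivative (H0.map (Polynomial.mapRingHom R.res))) (ξb j) (θb j) +
          ∑ l, C (R.res (δc l)) *
            h15_sub2 ((H l).map (Polynomial.mapRingHom R.res)) (ξb j) (θb j) := by
      intro j
      have h3 := (h2_asm_coeff_mem_iff R _ m).mp (hh2 j)
      rw [Polynomial.map_add, Polynomial.map_add, Polynomial.map_mul, Polynomial.map_mul,
        Polynomial.map_C, h69_sub2_map, h69_sub2_map, hξ0 j, hθ0map j, h69_dX_map,
        ← Polynomial.derivative_map, Polynomial.map_sum] at h3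
      simp only [Polynomial.map_mul, Polynomial.map_C, h69_sub2_map, hξ0 j, hθ0map j] at h3
      exact h3
    obtain ⟨t1, t2, t3⟩ := h15_tangent hxk xb yb Φb hΦb (h75_genus k xb) m M hm T hTinj ξb θb
      hord hθb (fun j => by rw [hθb0 j]; exact hsmb j) db hdξ (Gp - E)
      (fun j => by rw [Finsupp.sub_apply, hGpT j, hET j, sub_zero]) hl f0b hf0b0 hdivf0 eb
      hebV hli (H0.map (Polynomial.mapRingHom R.res))
      (fun l => (H l).map (Polynomial.mapRingHom R.res)) hH0b hHb
      (fun j => R.res (δξ j)) (fun j => (δθ j).map R.res) (fun l => R.res (δc l))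
      (fun j => lt_of_le_of_lt (Polynomial.degree_map_le) (hδθ j)) hh1' hh2'
    refine ⟨fun j => ?_, fun j i => ?_, fun l => ?_⟩
    · rw [← h2_asm_res_eq_zero_iff]
      exact congrFun t1 j
    · rw [← h2_asm_res_eq_zero_iff, ← Polynomial.coeff_map]
      have h4 := congrFun t2 j
      simp only [Pi.zero_apply] at h4
      rw [h4, Polynomial.coeff_zero]
    · rw [← h2_asm_res_eq_zero_iff]
      exact congrFun t3 l
  -- HENSEL
  obtain ⟨ξ, θ, c, hθdeg, hξξ0, hθθ0, hc, hsolΦ, hsolH⟩ :=
    h15_hensel_system R.A (h75_genus k xb) m M hM Φ H0 H ξ0 θ0 hθ0deg' h1 h2 hTan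
  have hresξ : ∀ j, R.res (ξ j) = ξb j := by
    intro j
    have h3 := (h2_asm_res_eq_zero_iff R _).mpr (hξξ0 j)
    rw [map_sub, sub_eq_zero] at h3
    rw [h3, hξ0 j]
  have hresθ : ∀ j, (θ j).map R.res = θb j := by
    intro j
    rw [← hθ0map j]
    ext i
    rw [Polynomial.coeff_map, Polynomial.coeff_map]
    have h3 := (h2_asm_res_eq_zero_iff R _).mpr (hθθ0 j i)
    rw [Polynomial.coeff_sub, map_sub, sub_eq_zero] at h3
    exact h3
  have hresc : ∀ l, R.res (c l) = 0 := fun l => (h2_asm_res_eq_zero_iff R _).mpr (hc l)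
  have hηres : ∀ j, R.res ((θ j).eval 0) = ηb j := by
    intro j
    rw [← hθb0 j, ← hresθ j, Polynomial.eval_zero_map]
  -- the points `T' j`
  have hroot : ∀ j, (Φ.eval (C ((θ j).eval 0))).eval (ξ j) = 0 := by
    intro j
    rw [← h69_sub2_eval_zero]
    obtain ⟨q, hq⟩ := hsolΦ j
    rw [hq, Polynomial.eval_mul, Polynomial.eval_pow, Polynomial.eval_X,
      zero_pow (by omega), zero_mul]
  choose T' hT'x hT'y using fun j => hpt (ξ j) ((θ j).eval 0) (hroot j)
  have hresKξ : ∀ j, R.resK ((ξ j : R.A) : K) = ξb j := fun j => by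
    rw [R.resK_of_mem (ξ j).2]
    exact hresξ j
  have hresKη : ∀ j, R.resK (((θ j).eval 0 : R.A) : K) = ηb j := fun j => by
    rw [R.resK_of_mem ((θ j).eval 0).2]
    exact hηres j
  have hxreg : h39_Reg K x x := fun P hP => hP
  have hdisc : ∀ j, h39_InDisc R x (T' j) :=
    fun j => ⟨((ξ j : R.A) : K), (ξ j).2, hT'x j⟩
  have hr0 : ∀ j, S.r0 (T' j) = T j := by
    intro j
    refine huniq j _ ?_ ?_
    · have h3 := h64_r0_val_of_inDisc R S hS1 (T' j) (hdisc j) x hx.mem hxreg _ (hT'x j)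
      rwa [hresKξ j] at h3
    · have h3 := h64_r0_val_of_inDisc R S hS1 (T' j) (hdisc j) y hyO hyreg _ (hT'y j)
      rwa [hresKη j] at h3
  have hT'inj : Function.Injective T' := by
    intro i j hij
    apply hTinj
    rw [← hr0 i, ← hr0 j, hij]
  have hxne : ∀ a : K, x ≠ algebraMap K F a := by
    intro a h
    exact hxK.tr (h ▸ isAlgebraic_algebraMap a)
  have hposK : ∀ j, 0 < (T' j).ord (x - algebraMap K F ((ξ j : R.A) : K)) := by
    intro j
    rcases hT'x j with h | h
    · exact absurd h (hxne _)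
    · exact h
  have hordK : ∀ j, (T' j).ord (x - algebraMap K F ((ξ j : R.A) : K)) = 1 := by
    intro j
    have h3 := hposK j
    by_contra h4
    have h5 : 2 ≤ (T' j).ord (x - algebraMap K F ((ξ j : R.A) : K)) := by omega
    exact hZξ j ⟨_, Finset.mem_coe.mpr (hZ (T' j) _ h5), hresKξ j⟩
  -- smoothness of the lifted points
  have hsmK : ∀ j, ((Φ.map (Polynomial.mapRingHom R.A.subtype)).derivative.eval
      (C (((θ j).eval 0 : R.A) : K))).eval ((ξ j : R.A) : K) ≠ 0 := by
    intro j
    rw [Polynomial.derivative_map]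
    have h3 := h2_asm_eval2_map R.A.subtype (derivative Φ) (ξ j) ((θ j).eval 0)
    intro h4
    have h5 : R.A.subtype (((derivative Φ).eval (C ((θ j).eval 0))).eval (ξ j)) = 0 := by
      rw [← h3]
      exact h4
    have h6 : ((derivative Φ).eval (C ((θ j).eval 0))).eval (ξ j) = 0 := Subtype.ext h5
    have h7 := h2_asm_eval2_map R.res (derivative Φ) (ξ j) ((θ j).eval 0)
    rw [h6, map_zero, hresξ j, hηres j, ← Polynomial.derivative_map] at h7
    exact hsmb j h7
  have hθ0K : ∀ j, ((θ j).map R.A.subtype).eval 0 = (((θ j).eval 0 : R.A) : K) :=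
    fun j => Polynomial.eval_zero_map R.A.subtype (θ j)
  have hmapdvd : ∀ p : Polynomial R.A, X ^ m ∣ p → X ^ m ∣ p.map R.A.subtype := by
    intro p hp
    have h3 := Polynomial.map_dvd R.A.subtype hp
    rwa [Polynomial.map_pow, Polynomial.map_X] at h3
  have hθK : ∀ j, (T' j).adicValuation
      (y - aeval (x - algebraMap K F ((ξ j : R.A) : K)) ((θ j).map R.A.subtype)) ≤
        WithZero.exp (-(m : ℤ)) := by
    intro j
    refine h15_trunc_of_root (T' j) x y _ hΦ _ _ (hposK j) (hT'y j) (hsmK j) m _ (hθ0K j) ?_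
    have h3 := hmapdvd _ (hsolΦ j)
    rwa [h69_sub2_map] at h3
  -- the function `f`
  have hcO : ∀ l, algebraMap K F ((c l : R.A) : K) ∈ R.O := fun l => (R.mem_iff _).mp (c l).2
  have hsumO : ∑ l, algebraMap K F ((c l : R.A) : K) * e l ∈ R.O :=
    sum_mem fun l _ => R.O.mul_mem _ _ (hcO l) (heO l)
  have hfO : f0 + ∑ l, algebraMap K F ((c l : R.A) : K) * e l ∈ R.O :=
    R.O.add_mem _ _ hf0O hsumO
  have hfV : f0 + ∑ l, algebraMap K F ((c l : R.A) : K) * e l ∈
      riemannRochSpace (m • (GpK - EK) + Xd) := by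
    refine Submodule.add_mem _ hf0V (Submodule.sum_mem _ fun l _ => ?_)
    rw [← Algebra.smul_def]
    exact Submodule.smul_mem _ _ (heV l)
  have hfred : R.redF (f0 + ∑ l, algebraMap K F ((c l : R.A) : K) * e l) = f0b := by
    rw [h39_redF_add R hf0O hsumO,
      h39_redF_sum R _ _ (fun l _ => R.O.mul_mem _ _ (hcO l) (heO l)), hf0red]
    have h3 : ∀ l ∈ Finset.univ,
        R.redF (algebraMap K F ((c l : R.A) : K) * e l) = 0 := by
      intro l _
      rw [h39_redF_mul R (hcO l) (heO l), h39_redF_algebraMap R (c l).2,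
        R.resK_of_mem (c l).2]
      have h4 : R.res ⟨((c l : R.A) : K), (c l).2⟩ = 0 := hresc l
      rw [h4, map_zero, zero_mul]
    rw [Finset.sum_eq_zero h3, add_zero]
  have hf0 : f0 + ∑ l, algebraMap K F ((c l : R.A) : K) * e l ≠ 0 := by
    intro h
    rw [h, h39_redF_zero] at hfred
    exact hf0b0 hfred.symm
  have hevf : h15_ev2 x y
      ((H0 + ∑ l, C (C (c l)) * H l).map (Polynomial.mapRingHom R.A.subtype)) =
      aeval x (d.map R.A.subtype) * (f0 + ∑ l, algebraMap K F ((c l : R.A) : K) * e l) := by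
    rw [Polynomial.map_add, Polynomial.map_sum, h69_ev2_add, h69_ev2_sum, hH0, mul_add,
      Finset.mul_sum]
    congr 1
    refine Finset.sum_congr rfl fun l _ => ?_
    rw [Polynomial.map_mul, h69_ev2_mul, hH l, Polynomial.map_C, Polynomial.coe_mapRingHom,
      Polynomial.map_C, h69_ev2_C_C]
    show algebraMap K F ((c l : R.A) : K) * _ = _
    ring
  have hdKval : ∀ j, h39_Val (T' j) (aeval x (d.map R.A.subtype))
      ((d.map R.A.subtype).eval ((ξ j : R.A) : K)) :=
    fun j => h2_asm_val_aeval (T' j) (hT'x j) _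
  have hdKne : ∀ j, (d.map R.A.subtype).eval ((ξ j : R.A) : K) ≠ 0 := by
    intro j h
    have h3 : (d.map R.A.subtype).eval (R.A.subtype (ξ j)) = R.A.subtype (d.eval (ξ j)) := by
      rw [Polynomial.eval_map, Polynomial.eval₂_at_apply]
    have h5 : d.eval (ξ j) = 0 := Subtype.ext (h3.symm.trans h)
    have h6 : (d.map R.res).eval (R.res (ξ j)) = R.res (d.eval (ξ j)) := by
      rw [Polynomial.eval_map, Polynomial.eval₂_at_apply]
    rw [h5, map_zero, hresξ j] at h6
    exact hdξ j h6
  have hford : ∀ j, (m : ℤ) ≤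
      (T' j).ord (f0 + ∑ l, algebraMap K F ((c l : R.A) : K) * e l) := by
    intro j
    have h3 : (T' j).adicValuation (h15_ev2 x y
        ((H0 + ∑ l, C (C (c l)) * H l).map (Polynomial.mapRingHom R.A.subtype))) ≤
        WithZero.exp (-(m : ℤ)) := by
      refine (h15_ord_ge_iff_trunc (T' j) x y _ (hordK j) m _ (hθK j) _).mpr ?_
      have h4 := hmapdvd _ (hsolH j)
      rwa [h69_sub2_map] at h4
    rw [hevf, (T' j).adicValuation_le_exp_iff] at h3
    have hdne : aeval x (d.map R.A.subtype) ≠ 0 :=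
      h2_asm_ne_zero_of_val (T' j) (hdKval j) (hdKne j)
    rcases h3 with h3 | h3
    · exact absurd h3 (mul_ne_zero hdne hf0)
    · rw [(T' j).ord_mul hdne hf0,
        h39_ord_eq_zero_of_val (T' j) (hdKval j) (hdKne j)] at h3
      linarith
  -- conclusion
  have hG'T : ∀ j, (GpK - EK) (T' j) = 0 := by
    intro j
    have h3 : GpK (T' j) = 0 := by
      by_contra h3
      exact hGpKsupp _ h3 (h39_val_mem (T' j) (hT'x j))
    have h4 : EK (T' j) = 0 := by
      by_contra h4
      exact hEKsupp _ h4 (by rw [hr0 j]; exact hET j)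
    rw [Finsupp.sub_apply, h3, h4, sub_zero]
  have hXT : ∀ j, Xd (T' j) = 0 := by
    intro j
    by_contra h3
    exact hTX j ⟨T' j, Finset.mem_coe.mpr (Finsupp.mem_support_iff.mpr h3), hr0 j⟩
  obtain ⟨hD0, hDprinc⟩ := h2_div_conclude hxK m (h75_genus k xb) (GpK - EK) hdegK Xd hXdeg T'
    hT'inj hG'T hXT _ hf0 hfV hford
  refine ⟨_, hD0, hDprinc, ?_⟩
  have hmapD : Finsupp.mapDomain S.r0 ((∑ j, Finsupp.single (T' j) (1 : ℤ)) - (GpK - EK)) =
      (∑ j, Finsupp.single (T j) (1 : ℤ)) - (Gp - E) := by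
    rw [h2_asm_mapDomain_sub, hmap, Finsupp.mapDomain_finsetSum]
    congr 1
    refine Finset.sum_congr rfl fun j _ => ?_
    rw [Finsupp.mapDomain_single, hr0 j]
  rw [hmapD]
  exact hprinc0

/-- DIVLIFT for a divisor whose reduction is `0` as a divisor. -/
theorem h2_divlift_zero [IsAlgClosed K] [CharZero K] [IsAlgClosed k]
    (R : h39_RedDatum K F k Fb) {x : F} (hx : h39_Chart R x) (S : h39_PlaceRed R)
    (hS1 : ∃ r : Place K F → Place k Fb, h39_IsChartRed R x r ∧
        ∀ P : Place K F, h39_InDisc R x P → S.r0 P = r P)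
    (m : ℕ) (hm2 : 2 ≤ m) (hm : (m : k) ≠ 0) (Xd : Divisor K F)
    (hXdeg : Divisor.degree Xd = 0) (hX0 : Finsupp.mapDomain S.r0 Xd = 0) :
    ∃ D : Divisor K F, Divisor.degree D = 0 ∧
      m • D - Xd ∈ Divisor.principal (K := K) (F := F) ∧
      Finsupp.mapDomain S.r0 D ∈ Divisor.principal (K := k) (F := Fb) := by
  have hw := hx.toh39_WeakChart
  have hxK : h75_IsChart K x := h39_weakChart_isChart R hw
  obtain ⟨y, Φ, d, hyO, hyreg, hybreg, hΦ, hd0, hden, hpt, hgood⟩ :=
    h82_coord_of R hx (fun hM => h2_model_denom R hx hM)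
  obtain ⟨w, hw0, hwX⟩ := h2_div_clear R hxK Xd
  have hwne : aeval x (w.map R.A.subtype) ≠ 0 := by
    intro h
    have h1 : w.map R.A.subtype = 0 := (transcendental_iff.mp hxK.tr) _ h
    have h2 : w = 0 :=
      Polynomial.map_injective R.A.subtype Subtype.val_injective (by rw [h1, Polynomial.map_zero])
    exact hw0 (by rw [h2, Polynomial.map_zero])
  have hwO : aeval x (w.map R.A.subtype) ∈ R.O := h89_gauss_red_mem R hx.mem w
  refine h2_divlift_core R hx S hS1 m hm2 hm Xd hXdeg hX0 y Φ (d * w) hyO hyreg hybreg hΦ ?_ ?_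
    hpt ?_
  · rw [Polynomial.map_mul]
    exact mul_ne_zero hd0 hw0
  · intro f hfO hfX
    have hreg : h39_Reg K x (aeval x (w.map R.A.subtype) * f) := by
      intro P hP
      by_cases hf0 : f = 0
      · rw [hf0, mul_zero]
        exact zero_mem _
      · rcases hfX P hP with h | h
        · exact absurd h hf0
        · refine Fermat.Agent.S24.h24_mem_of_ord_nonneg P ?_
          rw [P.ord_mul hwne hf0]
          have h1 := hwX P hP
          linarith
    obtain ⟨H, hH⟩ := hden _ (R.O.mul_mem _ _ hwO hfO) hreg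
    refine ⟨H, ?_⟩
    rw [hH, Polynomial.map_mul, map_mul, mul_assoc]
  · intro Q b c hb hc hdd
    refine hgood Q b c hb hc fun h => hdd ?_
    rw [Polynomial.map_mul, Polynomial.eval_mul, h, zero_mul]

/-- **DIVLIFT**: the kernel of the reduction on degree-zero divisor classes is `m`-divisible
(`m` invertible in the residue field; any valuation ring).  Hypotheses as in
`Fermat.Agent.S27.h15_lift`. -/
theorem h2_divlift [IsAlgClosed K] [CharZero K] [IsAlgClosed k] (R : h39_RedDatum K F k Fb)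
    {x : F} (hx : h39_Chart R x) (S : h39_PlaceRed R)
    (hS : (∃ r : Place K F → Place k Fb, h39_IsChartRed R x r ∧
        ∀ P : Place K F, h39_InDisc R x P → S.r0 P = r P) ∧
      (∃ r' : Place K F → Place k Fb, h39_IsChartRed R x⁻¹ r' ∧
        ∀ P : Place K F, ¬ h39_InDisc R x P → S.r0 P = r' P))
    (m : ℕ) (hm : (m : k) ≠ 0) (Xd : Divisor K F) (hdeg : Divisor.degree Xd = 0)
    (h0 : Finsupp.mapDomain S.r0 Xd ∈ Divisor.principal (K := k) (F := Fb)) :
    ∃ D : Divisor K F, Divisor.degree D = 0 ∧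
      m • D - Xd ∈ Divisor.principal (K := K) (F := F) ∧
      Finsupp.mapDomain S.r0 D ∈ Divisor.principal (K := k) (F := Fb) := by
  have hm0 : m ≠ 0 := by
    rintro rfl
    exact hm (by simp)
  rcases Nat.lt_or_ge m 2 with hm2 | hm2
  · have hm1 : m = 1 := by omega
    subst hm1
    refine ⟨Xd, hdeg, ?_, h0⟩
    rw [one_smul, sub_self]
    exact zero_mem _
  · have hw := hx.toh39_WeakChart
    have hxK : h75_IsChart K x := h39_weakChart_isChart R hw
    have := h75_hasPrincipalDivisors hxK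
    -- normalise `X` by the divisor of a lift of the reduced function
    obtain ⟨hb, hb0, hbdiv⟩ := Divisor.mem_principal.mp h0
    obtain ⟨⟨h, hhO⟩, hred⟩ := R.red_surjective hb
    have hh0 : h ≠ 0 := by
      rintro rfl
      apply hb0
      rw [← hred]
      exact map_zero R.red
    obtain ⟨Dh, hDh, hDhdeg⟩ := HasPrincipalDivisors.exists_divisor (K := K) h hh0
    have hcompat := S.compat h hhO (by rw [hred]; exact hb0) Dh hDh
    have hX0 : Finsupp.mapDomain S.r0 (Xd - Dh) = 0 := by
      rw [h2_asm_mapDomain_sub]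
      ext Q
      rw [Finsupp.sub_apply, hcompat Q, hred, hbdiv Q, sub_self, Finsupp.zero_apply]
    obtain ⟨D, hD0, hDprinc, hDred⟩ := h2_divlift_zero R hx S hS.1 m hm2 hm (Xd - Dh)
      (by rw [map_sub, hdeg, hDhdeg, sub_zero]) hX0
    refine ⟨D, hD0, ?_, hDred⟩
    have h1 : Dh ∈ Divisor.principal (K := K) (F := F) := ⟨h, hh0, hDh⟩
    have h2 := sub_mem hDprinc h1
    have h3 : m • D - (Xd - Dh) - Dh = m • D - Xd := by abel
    rwa [h3] at h2

end Fermat.Agent.S17

end
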