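import Fermat.Agent.S17.h80_Pencil
import Fermat.Agent.S27.ChartEx
import Fermat.Agent.S18.GR_ChartPt
import Fermat.Agent.S27.h92_Eval

/-!
# S17 / R55 row C3 (PROJ): the zero set of the homogeneous relations of `L(M₀ · P∞)` is the curve

Generic curve layer (`K` algebraically closed of characteristic zero, `x` a chart of `F / K`,
`g = h75_genus K x`, `P∞` any place, `4 g ≤ M₀`, `1 ≤ M₀`).  `b : ι → F` is any finite family
spanning `V = L(M₀ · P∞)` (no independence needed) and `y : ι → K` a point.

* `h33_proj` : if `y ≠ 0` kills every homogeneous relation of `b`, there is a place `R` with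
  `∑ c i * y i = 0 ↔ ∑ c i • b i ∈ L(M₀ · P∞ - R)` (so `y` is proportional to "evaluation at
  `R`"; `R = P∞` is allowed and then the kernel is `L((M₀ - 1) · P∞)`);
* `h33_proj_affine` / `h33_proj_infty` : the two cases, according to the value `s = ∑ c1 i * y i`
  of the linear form of `1 = ∑ c1 i • b i`: if `s ≠ 0` then `R ≠ P∞` and `b i (R) = y i / s`;
  if `s = 0` then `R = P∞`;
* `h33_rel_of_val`, `h33_rel_of_val_infty` : conversely every place gives a point of the zero
  set (values at `R ≠ P∞`; values of `b i / w` at `P∞`);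
* `h33_span_forms` : the forms `y k • b l - y l • b k` span `{∑ c i • b i | ∑ c i * y i = 0}`.
-/

set_option autoImplicit false

noncomputable section

open AlgebraicCurve IntermediateField

namespace Fermat.Agent.S17

open Fermat.Agent.S18 Fermat.Agent.S27 Fermat.Agent.S24

variable {K F : Type*} [Field K] [Field F] [Algebra K F]

/-! ### Linear forms and homogeneous polynomials -/

section Alg

variable {ι : Type*} [Fintype ι]

/-- the linear form `∑ c i X i`. -/
def h33_lin (c : ι → K) : MvPolynomial ι K := ∑ i, MvPolynomial.C (c i) * MvPolynomial.X i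

theorem h33_lin_isHomogeneous (c : ι → K) : (h33_lin c).IsHomogeneous 1 :=
  MvPolynomial.IsHomogeneous.sum _ _ _ fun _ _ => MvPolynomial.isHomogeneous_C_mul_X _ _

theorem h33_lin_aeval {A : Type*} [CommRing A] [Algebra K A] (c : ι → K) (b : ι → A) :
    MvPolynomial.aeval b (h33_lin c) = ∑ i, c i • b i := by
  simp [h33_lin, Algebra.smul_def]

theorem h33_lin_eval (c : ι → K) (y : ι → K) :
    MvPolynomial.eval y (h33_lin c) = ∑ i, c i * y i := by
  simp [h33_lin]

/-- scaling the point scales a homogeneous polynomial by the power of the factor. -/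
theorem h33_aeval_smul {A : Type*} [CommRing A] [Algebra K A] {d : ℕ} {G : MvPolynomial ι K}
    (hG : G.IsHomogeneous d) (a : A) (b : ι → A) :
    MvPolynomial.aeval (fun i => a * b i) G = a ^ d * MvPolynomial.aeval b G := by
  rw [MvPolynomial.aeval_def, MvPolynomial.aeval_def, MvPolynomial.eval₂_eq',
    MvPolynomial.eval₂_eq', Finset.mul_sum]
  refine Finset.sum_congr rfl fun m hm => ?_
  have hdeg : ∑ i, m i = d := by
    have h := hG (MvPolynomial.mem_support_iff.mp hm)
    rw [← h]
    simp [Finsupp.weight_apply, Finsupp.sum_fintype]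
  simp_rw [mul_pow, Finset.prod_mul_distrib, Finset.prod_pow_eq_pow_sum, hdeg]
  ring

theorem h33_eval_smul {d : ℕ} {G : MvPolynomial ι K} (hG : G.IsHomogeneous d) (a : K)
    (y : ι → K) :
    MvPolynomial.eval (fun i => a * y i) G = a ^ d * MvPolynomial.eval y G := by
  have h := h33_aeval_smul (A := K) hG a y
  simpa [MvPolynomial.aeval_eq_eval] using h

/-- elements of the `d`-th power of the span of `b` are values of homogeneous polynomials of
degree `d`. -/
theorem h33_exists_homog (b : ι → F) (d : ℕ) {z : F}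
    (hz : z ∈ (Submodule.span K (Set.range b)) ^ d) :
    ∃ G : MvPolynomial ι K, G.IsHomogeneous d ∧ MvPolynomial.aeval b G = z := by
  induction d generalizing z with
  | zero =>
    rw [pow_zero, Submodule.one_eq_span, Submodule.mem_span_singleton] at hz
    obtain ⟨a, rfl⟩ := hz
    exact ⟨MvPolynomial.C a, MvPolynomial.isHomogeneous_C _ _, by simp [Algebra.smul_def]⟩
  | succ d ih =>
    rw [pow_succ] at hz
    refine Submodule.mul_induction_on hz ?_ ?_
    · intro m hm n hn
      obtain ⟨G, hG, rfl⟩ := ih hm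
      obtain ⟨c, rfl⟩ := (Submodule.mem_span_range_iff_exists_fun K).mp hn
      exact ⟨G * h33_lin c, hG.mul (h33_lin_isHomogeneous c), by rw [map_mul, h33_lin_aeval]⟩
    · rintro u v ⟨G, hG, rfl⟩ ⟨G', hG', rfl⟩
      exact ⟨G + G', hG.add hG', map_add _ _ _⟩

/-- the forms `y k • b l - y l • b k` span the kernel of `c ↦ ∑ c i * y i`. -/
theorem h33_span_forms {M : Type*} [AddCommGroup M] [Module K M] (b : ι → M) (y : ι → K)
    (hy : y ≠ 0) (c : ι → K) (hc : ∑ i, c i * y i = 0) :
    ∑ i, c i • b i ∈ Submodule.span K (Set.range fun p : ι × ι => y p.1 • b p.2 - y p.2 • b p.1) := by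
  classical
  obtain ⟨k, hk⟩ : ∃ k, y k ≠ 0 := by
    by_contra h
    push Not at h
    exact hy (funext h)
  have key : ∑ i, c i • b i = ∑ l, (c l / y k) • (y k • b l - y l • b k) := by
    have h1 : ∀ l, (c l / y k) • (y k • b l - y l • b k) =
        c l • b l - ((c l * y l) / y k) • b k := by
      intro l
      rw [smul_sub, smul_smul, smul_smul, div_mul_cancel₀ _ hk]
      congr 2
      ring
    simp_rw [h1]
    rw [Finset.sum_sub_distrib, ← Finset.sum_smul, ← Finset.sum_div, hc, zero_div, zero_smul,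
      sub_zero]
  rw [key]
  exact Submodule.sum_mem _ fun l _ =>
    Submodule.smul_mem _ _ (Submodule.subset_span ⟨(k, l), rfl⟩)

end Alg

/-! ### The spaces `L(m · P)` -/

section V

/-- `L(m · P)`: functions with a pole of order at most `m` at `P` and no other pole. -/
abbrev h33_V (P : Place K F) (m : ℕ) : Submodule K F :=
  riemannRochSpace (Finsupp.single P (m : ℤ) : Divisor K F)

theorem h33_mem_V {P : Place K F} {m : ℕ} {f : F} :
    f ∈ h33_V P m ↔ f = 0 ∨ (-(m : ℤ) ≤ P.ord f ∧ ∀ Q : Place K F, Q ≠ P → 0 ≤ Q.ord f) := by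
  classical
  rw [mem_riemannRochSpace_iff]
  constructor
  · intro h
    by_cases hf : f = 0
    · exact Or.inl hf
    · right
      refine ⟨?_, fun Q hQ => ?_⟩
      · have := (h P).resolve_left hf
        rwa [Finsupp.single_apply, if_pos rfl] at this
      · have := (h Q).resolve_left hf
        rwa [Finsupp.single_apply, if_neg (Ne.symm hQ), neg_zero] at this
  · rintro (hf | ⟨h1, h2⟩) v
    · exact Or.inl hf
    · right
      rw [Finsupp.single_apply]
      split_ifs with hv
      · subst hv
        exact h1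
      · rw [neg_zero]
        exact h2 v (Ne.symm hv)

theorem h33_V_mono (P : Place K F) {m n : ℕ} (h : m ≤ n) : h33_V P m ≤ h33_V P n := by
  intro f hf
  rw [h33_mem_V] at hf ⊢
  rcases hf with hf | ⟨h1, h2⟩
  · exact Or.inl hf
  · exact Or.inr ⟨by omega, h2⟩

theorem h33_V_mul_le (P : Place K F) (a b : ℕ) : h33_V P a * h33_V P b ≤ h33_V P (a + b) := by
  have h := h80_rr_mul_le (Finsupp.single P (a : ℤ) : Divisor K F) (Finsupp.single P (b : ℤ))
  rwa [← Finsupp.single_add, ← Nat.cast_add] at h

theorem h33_pow_mem_V (P : Place K F) {m : ℕ} {f : F} (hf : f ∈ h33_V P m) (n : ℕ) :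
    f ^ n ∈ h33_V P (n * m) := by
  induction n with
  | zero =>
    rw [pow_zero, zero_mul, h33_mem_V]
    right
    refine ⟨by simp [Place.ord_one], fun Q _ => by simp [Place.ord_one]⟩
  | succ n ih =>
    rw [pow_succ, Nat.succ_mul]
    exact h33_V_mul_le P _ _ (Submodule.mul_mem_mul ih hf)

variable [IsAlgClosed K]

theorem h33_degree_single {x : F} (hx : h75_IsChart K x) (P : Place K F) (a : ℕ) :
    Divisor.degree (Finsupp.single P (a : ℤ) : Divisor K F) = a := by
  have hdeg1 : (P.deg : ℤ) = 1 := by exact_mod_cast h75_deg_eq_one hx P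
  rw [Divisor.degree_single, hdeg1, mul_one]

theorem h33_V_mul_eq {x : F} (hx : h75_IsChart K x) (P : Place K F) (a b : ℕ)
    (ha : 2 * h75_genus K x ≤ a) (hb : a + 2 * h75_genus K x ≤ b + 1) :
    h33_V P a * h33_V P b = h33_V P (a + b) := by
  have h := h80_rr_mul_eq hx (Finsupp.single P (a : ℤ) : Divisor K F) (Finsupp.single P (b : ℤ))
    (by rw [h33_degree_single hx]; exact_mod_cast ha)
    (by rw [h33_degree_single hx, h33_degree_single hx]; omega)
  rwa [← Finsupp.single_add, ← Nat.cast_add] at h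

/-- `L(((d + 1) M₀ + 2 g) P) ≤ L(M₀ P) ^ (d + 2)` for `4 g ≤ M₀`. -/
theorem h33_V_le_pow {x : F} (hx : h75_IsChart K x) (P : Place K F) (M0 : ℕ)
    (hM0 : 4 * h75_genus K x ≤ M0) (d : ℕ) :
    h33_V P ((d + 1) * M0 + 2 * h75_genus K x) ≤ (h33_V P M0) ^ (d + 2) := by
  induction d with
  | zero =>
    have h1 : h33_V P (2 * h75_genus K x) * h33_V P M0 = h33_V P (2 * h75_genus K x + M0) :=
      h33_V_mul_eq hx P _ _ le_rfl (by omega)
    have h2 : (0 + 1) * M0 + 2 * h75_genus K x = 2 * h75_genus K x + M0 := by ring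
    rw [h2, ← h1, pow_two]
    exact mul_le_mul' (h33_V_mono P (by omega)) le_rfl
  | succ d ih =>
    have h1 : h33_V P M0 * h33_V P ((d + 1) * M0 + 2 * h75_genus K x) =
        h33_V P (M0 + ((d + 1) * M0 + 2 * h75_genus K x)) :=
      h33_V_mul_eq hx P _ _ (by omega) (by nlinarith)
    have h2 : (d + 1 + 1) * M0 + 2 * h75_genus K x =
        M0 + ((d + 1) * M0 + 2 * h75_genus K x) := by ring
    rw [h2, ← h1, pow_succ' _ (d + 2)]
    exact mul_le_mul' le_rfl ih

end V

/-! ### The point at infinity -/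

section Proj

variable [IsAlgClosed K] {ι : Type*} [Fintype ι]

omit [IsAlgClosed K] in
theorem h33_sum_sub_single {M : Type*} [AddCommGroup M] [Module K M] (b : ι → M) (c : ι → K)
    (lam : K) (i0 : ι) [DecidableEq ι] :
    ∑ i, (c i - lam * (if i = i0 then 1 else 0)) • b i = ∑ i, c i • b i - lam • b i0 := by
  simp_rw [sub_smul, mul_smul]
  rw [Finset.sum_sub_distrib, ← Finset.smul_sum]
  congr 2
  rw [Finset.sum_eq_single i0]
  · simp
  · intro j _ hj
    simp [hj]
  · intro h
    exact absurd (Finset.mem_univ i0) h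

/-- (at infinity, key step) a point killed by the form of `1` kills `L((M₀ - 1) P)`. -/
theorem h33_infty_kill {x : F} (hx : h75_IsChart K x) (P : Place K F) (m : ℕ)
    (hM0 : 4 * h75_genus K x ≤ m + 1) (b : ι → F)
    (hb : Submodule.span K (Set.range b) = h33_V P (m + 1)) (y : ι → K)
    (hrel : ∀ (d : ℕ) (G : MvPolynomial ι K), G.IsHomogeneous d →
      MvPolynomial.aeval b G = 0 → MvPolynomial.eval y G = 0)
    (c1 : ι → K) (h1 : ∑ i, c1 i • b i = 1) (hs : ∑ i, c1 i * y i = 0)
    (c : ι → K) (hc : ∑ i, c i • b i ∈ h33_V P m) : ∑ i, c i * y i = 0 := by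
  have h1' : (∑ i, c i • b i) ^ (2 * m + 3) ∈ h33_V P ((2 * m + 3) * m) := h33_pow_mem_V P hc _
  have h2 : h33_V P ((2 * m + 3) * m) ≤
      h33_V P ((2 * m + 1) * (m + 1) + 2 * h75_genus K x) :=
    h33_V_mono P (by nlinarith)
  have h3 := h33_V_le_pow hx P (m + 1) hM0 (2 * m)
  have h4 : (∑ i, c i • b i) ^ (2 * m + 3) ∈ (Submodule.span K (Set.range b)) ^ (2 * m + 2) := by
    rw [hb]
    exact h3 (h2 h1')
  obtain ⟨Q, hQ, hQf⟩ := h33_exists_homog b _ h4
  have hG : ((h33_lin c) ^ (2 * m + 3) - h33_lin c1 * Q).IsHomogeneous (2 * m + 3) := by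
    refine MvPolynomial.IsHomogeneous.sub ?_ ?_
    · have := (h33_lin_isHomogeneous c).pow (2 * m + 3)
      rwa [one_mul] at this
    · have := (h33_lin_isHomogeneous c1).mul hQ
      rwa [show 1 + (2 * m + 2) = 2 * m + 3 by ring] at this
  have h0 : MvPolynomial.aeval b ((h33_lin c) ^ (2 * m + 3) - h33_lin c1 * Q) = 0 := by
    rw [map_sub, map_pow, map_mul, h33_lin_aeval, h33_lin_aeval, h1, one_mul, hQf, sub_self]
  have h5 := hrel _ _ hG h0
  rw [map_sub, map_pow, map_mul, h33_lin_eval, h33_lin_eval, hs, zero_mul, sub_zero] at h5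
  exact (pow_eq_zero_iff (by omega)).mp h5

/-- **(PROJ) at infinity.** If the form of `1` vanishes at `y ≠ 0`, then `y` is proportional to
the point at infinity: its kernel is `L((M₀ - 1) P)`. -/
theorem h33_proj_infty {x : F} (hx : h75_IsChart K x) (P : Place K F) (M0 : ℕ)
    (hM0 : 4 * h75_genus K x ≤ M0) (hM1 : 1 ≤ M0) (b : ι → F)
    (hb : Submodule.span K (Set.range b) =
      riemannRochSpace (Finsupp.single P (M0 : ℤ) : Divisor K F))
    (y : ι → K) (hy : y ≠ 0)
    (hrel : ∀ (d : ℕ) (G : MvPolynomial ι K), G.IsHomogeneous d →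
      MvPolynomial.aeval b G = 0 → MvPolynomial.eval y G = 0)
    (c1 : ι → K) (h1 : ∑ i, c1 i • b i = 1) (hs : ∑ i, c1 i * y i = 0) (c : ι → K) :
    ∑ i, c i * y i = 0 ↔ ∑ i, c i • b i ∈
      riemannRochSpace (Finsupp.single P (M0 : ℤ) - Finsupp.single P 1 : Divisor K F) := by
  classical
  obtain ⟨m, rfl⟩ : ∃ m, M0 = m + 1 := ⟨M0 - 1, by omega⟩
  have hD : (Finsupp.single P ((m + 1 : ℕ) : ℤ) - Finsupp.single P 1 : Divisor K F) =
      Finsupp.single P (m : ℤ) := by
    rw [← Finsupp.single_sub]
    congr 1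
    push_cast
    ring
  rw [hD]
  have hb' : Submodule.span K (Set.range b) = h33_V P (m + 1) := hb
  refine ⟨fun hc => ?_, fun hc => h33_infty_kill hx P m hM0 b hb' y hrel c1 h1 hs c hc⟩
  obtain ⟨i0, hi0⟩ : ∃ i0, y i0 ≠ 0 := by
    by_contra h
    push Not at h
    exact hy (funext h)
  have hbV : ∀ i, b i ∈ h33_V P (m + 1) := fun i => by
    rw [← hb']
    exact Submodule.subset_span ⟨i, rfl⟩
  have hkill := h33_infty_kill hx P m hM0 b hb' y hrel c1 h1 hs
  -- `w := b i0` has a pole of exact order `m + 1`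
  have hw : b i0 ∉ h33_V P m := by
    intro h
    have h' := hkill (fun i => 0 - (-1 : K) * (if i = i0 then 1 else 0)) (by
      rw [h33_sum_sub_single]
      simpa using h)
    have h'' : ∑ i, (0 - (-1 : K) * (if i = i0 then 1 else 0)) * y i = y i0 := by
      have := h33_sum_sub_single (K := K) (M := K) y (fun _ => 0) (-1) i0
      simp only [smul_eq_mul] at this
      rw [this]
      simp
    rw [h''] at h'
    exact hi0 h'
  have hw0 : b i0 ≠ 0 := by
    intro h
    rw [h] at hw
    exact hw (Submodule.zero_mem _)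
  have hwV := (h33_mem_V.mp (hbV i0)).resolve_left hw0
  have hword : P.ord (b i0) = -((m : ℤ) + 1) := by
    have hlt : ¬ (-(m : ℤ) ≤ P.ord (b i0)) := fun h => hw (h33_mem_V.mpr (Or.inr ⟨h, hwV.2⟩))
    have := hwV.1
    push_cast at this
    omega
  set f := ∑ i, c i • b i with hf
  have hfV : f ∈ h33_V P (m + 1) :=
    Submodule.sum_mem _ fun i _ => Submodule.smul_mem _ _ (hbV i)
  by_cases hf0 : f = 0
  · rw [hf0]
    exact Submodule.zero_mem _
  have hfV' := (h33_mem_V.mp hfV).resolve_left hf0
  have hq : f / b i0 ∈ P.toValuationSubring := by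
    apply h24_mem_of_ord_nonneg
    rw [h35_ord_div P hf0 hw0, hword]
    have := hfV'.1
    push_cast at this
    omega
  obtain ⟨lam, hlam⟩ := h39_exists_val hx P hq
  -- `f - lam • w ∈ V_m`
  have hdV : f - lam • b i0 ∈ h33_V P m := by
    by_cases hd0 : f - lam • b i0 = 0
    · rw [hd0]
      exact Submodule.zero_mem _
    have hdV1 : f - lam • b i0 ∈ h33_V P (m + 1) :=
      Submodule.sub_mem _ hfV (Submodule.smul_mem _ _ (hbV i0))
    have hdV' := (h33_mem_V.mp hdV1).resolve_left hd0
    refine h33_mem_V.mpr (Or.inr ⟨?_, hdV'.2⟩)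
    have hquot : f / b i0 - algebraMap K F lam = (f - lam • b i0) / b i0 := by
      rw [Algebra.smul_def]
      field_simp
    rcases hlam with h | h
    · exfalso
      apply hd0
      rw [div_eq_iff hw0] at h
      rw [h, Algebra.smul_def, sub_self]
    · rw [hquot, h35_ord_div P hd0 hw0, hword] at h
      omega
  have h6 := hkill (fun i => c i - lam * (if i = i0 then 1 else 0)) (by
    rw [h33_sum_sub_single]
    exact hdV)
  have h7 : ∑ i, (c i - lam * (if i = i0 then 1 else 0)) * y i = ∑ i, c i * y i - lam * y i0 := by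
    have := h33_sum_sub_single (K := K) (M := K) y c lam i0
    simpa using this
  rw [h7, hc, zero_sub, neg_eq_zero, mul_eq_zero] at h6
  have hlam0 : lam = 0 := h6.resolve_right hi0
  rw [hlam0, zero_smul, sub_zero] at hdV
  exact hdV

/-! ### The affine points -/

/-- **(PROJ), affine points.** If the form of `1` does not vanish at `y`, then `y` is the point
of a place `R ≠ P`: every linear form has at `R` the value given by `y` (normalised). -/
theorem h33_proj_affine_val [CharZero K] {x : F} (hx : h75_IsChart K x) (P : Place K F)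
    (M0 : ℕ) (hM0 : 4 * h75_genus K x ≤ M0) (hM1 : 1 ≤ M0) (b : ι → F)
    (hb : Submodule.span K (Set.range b) =
      riemannRochSpace (Finsupp.single P (M0 : ℤ) : Divisor K F))
    (y : ι → K)
    (hrel : ∀ (d : ℕ) (G : MvPolynomial ι K), G.IsHomogeneous d →
      MvPolynomial.aeval b G = 0 → MvPolynomial.eval y G = 0)
    (c1 : ι → K) (h1 : ∑ i, c1 i • b i = 1) (hs : ∑ i, c1 i * y i ≠ 0) :
    ∃ R : Place K F, R ≠ P ∧ ∀ c : ι → K,
      h39_Val R (∑ i, c i • b i) ((∑ i, c i * y i) / ∑ i, c1 i * y i) := by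
  classical
  have hb' : Submodule.span K (Set.range b) = h33_V P M0 := hb
  set s := ∑ i, c1 i * y i with hsdef
  let y' : ι → K := fun i => s⁻¹ * y i
  have hrel' : ∀ (d : ℕ) (G : MvPolynomial ι K), G.IsHomogeneous d →
      MvPolynomial.aeval b G = 0 → MvPolynomial.eval y' G = 0 := by
    intro d G hG h0
    rw [h33_eval_smul hG, hrel d G hG h0, mul_zero]
  have hsum' : ∀ c : ι → K, ∑ i, c i * y' i = (∑ i, c i * y i) / s := by
    intro c
    rw [div_eq_inv_mul, Finset.mul_sum]
    refine Finset.sum_congr rfl fun i _ => ?_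
    show c i * (s⁻¹ * y i) = s⁻¹ * (c i * y i)
    ring
  have hs' : ∑ i, c1 i * y' i = 1 := by
    rw [hsum', div_self hs]
  -- every relation (homogeneous or not) vanishes at the normalised point
  have hker : ∀ G : MvPolynomial ι K, MvPolynomial.aeval b G = 0 →
      MvPolynomial.eval y' G = 0 := by
    intro G h0
    set N := G.totalDegree with hN
    let Gh : MvPolynomial ι K := ∑ d ∈ Finset.range (N + 1),
      MvPolynomial.homogeneousComponent d G * (h33_lin c1) ^ (N - d)
    have hGh : Gh.IsHomogeneous N := by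
      refine MvPolynomial.IsHomogeneous.sum _ _ _ fun d hd => ?_
      have h2 := (MvPolynomial.homogeneousComponent_isHomogeneous d G).mul
        ((h33_lin_isHomogeneous c1).pow (N - d))
      have h3 : d + 1 * (N - d) = N := by
        have := Finset.mem_range.mp hd
        omega
      rwa [h3] at h2
    have e1 : MvPolynomial.aeval b Gh = MvPolynomial.aeval b G := by
      simp only [Gh, map_sum, map_mul, map_pow, h33_lin_aeval, h1, one_pow, mul_one]
      rw [← map_sum, hN, MvPolynomial.sum_homogeneousComponent]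
    have e2 : MvPolynomial.eval y' Gh = MvPolynomial.eval y' G := by
      simp only [Gh, map_sum, map_mul, map_pow, h33_lin_eval, hs', one_pow, mul_one]
      rw [← map_sum, hN, MvPolynomial.sum_homogeneousComponent]
    rw [← e2]
    exact hrel' N Gh hGh (e1.trans h0)
  -- a chart with its only pole at `P`
  obtain ⟨k, rfl⟩ : ∃ k, M0 = k + 1 := ⟨M0 - 1, by omega⟩
  obtain ⟨t, -, htord, htreg⟩ := h19_exists_pole hx P k (by omega)
  obtain ⟨hxt, -⟩ := h19_isChart_of_pole hx P t (k + 1) (by omega)
    (by rw [htord]; push_cast; ring) htreg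
  have hP : ∀ Q : Place K F, t ∈ Q.toValuationSubring → Q ≠ P := by
    rintro Q hQ rfl
    have := h24_ord_nonneg_of_mem Q hQ
    rw [htord] at this
    omega
  have hVC : ∀ (n : ℕ) (f : F), f ∈ h33_V P n → h39_Reg K t f := by
    intro n f hf Q hQ
    rcases h33_mem_V.mp hf with rfl | ⟨-, h2⟩
    · exact zero_mem _
    · exact h24_mem_of_ord_nonneg Q (h2 Q (hP Q hQ))
  have hbC : ∀ i, b i ∈ h39_chartRing K t := fun i =>
    hVC (k + 1) _ (by rw [← hb']; exact Submodule.subset_span ⟨i, rfl⟩)
  have hCV : ∀ f : F, h39_Reg K t f → ∃ G : MvPolynomial ι K, MvPolynomial.aeval b G = f := by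
    intro f hf
    have hfV : f ∈ h33_V P (Int.toNat (-(P.ord f))) := by
      rw [h33_mem_V]
      by_cases hf0 : f = 0
      · exact Or.inl hf0
      right
      refine ⟨?_, fun Q hQ => ?_⟩
      · have := Int.self_le_toNat (-(P.ord f))
        omega
      · have htQ : t ∈ Q.toValuationSubring := h24_mem_of_ord_nonneg Q (htreg Q hQ)
        exact h24_ord_nonneg_of_mem Q (hf Q htQ)
    have h3 := h33_V_le_pow hx P (k + 1) hM0 (Int.toNat (-(P.ord f)))
    have h4 : f ∈ (Submodule.span K (Set.range b)) ^ (Int.toNat (-(P.ord f)) + 2) := by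
      rw [hb']
      exact h3 (h33_V_mono P (by nlinarith) hfV)
    obtain ⟨G, -, hG⟩ := h33_exists_homog b _ h4
    exact ⟨G, hG⟩
  -- the two algebra homomorphisms
  let φ' : MvPolynomial ι K →ₐ[K] h39_chartRing K t :=
    MvPolynomial.aeval (fun i => (⟨b i, hbC i⟩ : h39_chartRing K t))
  have hφ' : ∀ G : MvPolynomial ι K, ((φ' G : h39_chartRing K t) : F) =
      MvPolynomial.aeval b G := by
    intro G
    have hcomp : (h39_chartRing K t).val.comp φ' = MvPolynomial.aeval b := by
      apply MvPolynomial.algHom_ext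
      intro i
      simp [φ']
    exact DFunLike.congr_fun hcomp G
  have hsurj : Function.Surjective φ' := by
    intro f
    obtain ⟨G, hG⟩ := hCV (f : F) f.2
    exact ⟨G, Subtype.ext ((hφ' G).trans hG)⟩
  let ev : MvPolynomial ι K →ₐ[K] K := MvPolynomial.aeval y'
  have hev : ∀ G : MvPolynomial ι K, ev G = MvPolynomial.eval y' G := by
    intro G
    simp [ev, MvPolynomial.aeval_eq_eval]
  have H : RingHom.ker φ'.toRingHom ≤ RingHom.ker ev.toRingHom := by
    intro G hG
    rw [RingHom.mem_ker] at hG ⊢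
    have hG' : φ' G = 0 := hG
    have h0 : MvPolynomial.aeval b G = 0 := by
      rw [← hφ' G, hG']
      rfl
    exact (hev G).trans (hker G h0)
  obtain ⟨R, hR, hval⟩ := h39_exists_place_of_algHom hxt (AlgHom.liftOfSurjective φ' hsurj ev H)
  refine ⟨R, hP R hR, fun c => ?_⟩
  have h5 := hval (φ' (h33_lin c))
  rw [hφ', h33_lin_aeval, AlgHom.liftOfSurjective_apply, hev, h33_lin_eval, hsum'] at h5
  exact h5

/-! ### Kernels of evaluation -/

omit [IsAlgClosed K] [Fintype ι] in
theorem h33_mem_sub_single_iff {P R : Place K F} (hR : R ≠ P) {M0 : ℕ} {f : F}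
    (hf : f ∈ h33_V P M0) :
    f ∈ riemannRochSpace (Finsupp.single P (M0 : ℤ) - Finsupp.single R 1 : Divisor K F) ↔
      h39_Val R f 0 := by
  classical
  rw [h39_val_zero_iff, mem_riemannRochSpace_iff]
  constructor
  · intro h
    by_cases hf0 : f = 0
    · exact Or.inl hf0
    · right
      have := (h R).resolve_left hf0
      rw [Finsupp.sub_apply, Finsupp.single_apply, Finsupp.single_apply, if_neg (Ne.symm hR),
        if_pos rfl] at this
      omega
  · intro h v
    by_cases hf0 : f = 0
    · exact Or.inl hf0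
    · right
      have hV := (h33_mem_V.mp hf).resolve_left hf0
      have hpos := h.resolve_left hf0
      rw [Finsupp.sub_apply, Finsupp.single_apply, Finsupp.single_apply]
      by_cases h1 : P = v
      · subst h1
        rw [if_pos rfl, if_neg hR]
        have := hV.1
        omega
      · by_cases h2 : R = v
        · subst h2
          rw [if_neg h1, if_pos rfl]
          omega
        · rw [if_neg h1, if_neg h2]
          have := hV.2 v (Ne.symm h1)
          omega

omit [IsAlgClosed K] [Fintype ι] in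
theorem h33_mem_sub_self_iff {P : Place K F} {M0 : ℕ} {f : F} (hf : f ∈ h33_V P M0) :
    f ∈ riemannRochSpace (Finsupp.single P (M0 : ℤ) - Finsupp.single P 1 : Divisor K F) ↔
      f = 0 ∨ -(M0 : ℤ) < P.ord f := by
  classical
  rw [mem_riemannRochSpace_iff]
  constructor
  · intro h
    by_cases hf0 : f = 0
    · exact Or.inl hf0
    · right
      have := (h P).resolve_left hf0
      simp only [Finsupp.sub_apply, Finsupp.single_eq_same] at this
      omega
  · intro h v
    by_cases hf0 : f = 0
    · exact Or.inl hf0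
    · right
      have hV := (h33_mem_V.mp hf).resolve_left hf0
      have hlt := h.resolve_left hf0
      by_cases h1 : P = v
      · subst h1
        simp only [Finsupp.sub_apply, Finsupp.single_eq_same]
        omega
      · simp only [Finsupp.sub_apply, Finsupp.single_apply, if_neg h1]
        have := hV.2 v (Ne.symm h1)
        omega

omit [IsAlgClosed K] [Fintype ι] in
/-- values of polynomial expressions. -/
theorem h33_val_aeval (R : Place K F) (b : ι → F) (y : ι → K)
    (hv : ∀ i, h39_Val R (b i) (y i)) (G : MvPolynomial ι K) :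
    h39_Val R (MvPolynomial.aeval b G) (MvPolynomial.eval y G) := by
  induction G using MvPolynomial.induction_on with
  | C a =>
    rw [MvPolynomial.aeval_C, MvPolynomial.eval_C]
    exact h39_val_algebraMap R a
  | add p q hp hq =>
    rw [map_add, map_add]
    exact h39_val_add R hp hq
  | mul_X p i hp =>
    rw [map_mul, map_mul, MvPolynomial.aeval_X, MvPolynomial.eval_X]
    exact h39_val_mul R hp (hv i)

omit [IsAlgClosed K] [Fintype ι] in
/-- **converse of (PROJ), affine points**: the vector of values of `b` at a place satisfies every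
relation of `b`. -/
theorem h33_rel_of_val (R : Place K F) (b : ι → F) (y : ι → K)
    (hv : ∀ i, h39_Val R (b i) (y i)) (G : MvPolynomial ι K)
    (h0 : MvPolynomial.aeval b G = 0) : MvPolynomial.eval y G = 0 := by
  have h := h33_val_aeval R b y hv G
  rw [h0] at h
  exact h39_val_unique R h (Or.inl (map_zero _).symm)

omit [IsAlgClosed K] in
/-- **converse of (PROJ), the point at infinity**: the vector of values of `b i / w` at a place
satisfies every homogeneous relation of `b`. -/
theorem h33_rel_of_val_infty (R : Place K F) (b : ι → F) (w : F) (y : ι → K)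
    (hv : ∀ i, h39_Val R (b i / w) (y i)) (d : ℕ) (G : MvPolynomial ι K)
    (hG : G.IsHomogeneous d) (h0 : MvPolynomial.aeval b G = 0) :
    MvPolynomial.eval y G = 0 := by
  have h1 : MvPolynomial.aeval (fun i => w⁻¹ * b i) G = 0 := by
    rw [h33_aeval_smul hG, h0, mul_zero]
  exact h33_rel_of_val R (fun i => w⁻¹ * b i) y
    (fun i => by rw [inv_mul_eq_div]; exact hv i) G h1

omit [IsAlgClosed K] in
/-- the kernel of the vector of values of `b` at `R ≠ P` is `L(M₀ P - R)`. -/
theorem h33_ker_of_val {P R : Place K F} (hR : R ≠ P) (M0 : ℕ) (b : ι → F)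
    (hb : Submodule.span K (Set.range b) =
      riemannRochSpace (Finsupp.single P (M0 : ℤ) : Divisor K F))
    (y : ι → K) (hv : ∀ i, h39_Val R (b i) (y i)) (c : ι → K) :
    ∑ i, c i * y i = 0 ↔ ∑ i, c i • b i ∈
      riemannRochSpace (Finsupp.single P (M0 : ℤ) - Finsupp.single R 1 : Divisor K F) := by
  have hfV : ∑ i, c i • b i ∈ h33_V P M0 :=
    Submodule.sum_mem _ fun i _ => Submodule.smul_mem _ _ (by
      show b i ∈ riemannRochSpace (Finsupp.single P (M0 : ℤ) : Divisor K F)
      rw [← hb]
      exact Submodule.subset_span ⟨i, rfl⟩)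
  have h := h33_val_aeval R b y hv (h33_lin c)
  rw [h33_lin_aeval, h33_lin_eval] at h
  rw [h33_mem_sub_single_iff hR hfV]
  constructor
  · intro h0
    rwa [h0] at h
  · intro h0
    exact h39_val_unique R h h0

omit [IsAlgClosed K] in
/-- the kernel of the vector of values of `b i / w` at `P` (`w` of exact pole order `M₀`) is
`L((M₀ - 1) P)`. -/
theorem h33_ker_of_val_infty {P : Place K F} (M0 : ℕ) (b : ι → F)
    (hb : Submodule.span K (Set.range b) =
      riemannRochSpace (Finsupp.single P (M0 : ℤ) : Divisor K F))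
    (w : F) (hw : P.ord w = -(M0 : ℤ)) (hw0 : w ≠ 0)
    (y : ι → K) (hv : ∀ i, h39_Val P (b i / w) (y i)) (c : ι → K) :
    ∑ i, c i * y i = 0 ↔ ∑ i, c i • b i ∈
      riemannRochSpace (Finsupp.single P (M0 : ℤ) - Finsupp.single P 1 : Divisor K F) := by
  have hfV : ∑ i, c i • b i ∈ h33_V P M0 :=
    Submodule.sum_mem _ fun i _ => Submodule.smul_mem _ _ (by
      show b i ∈ riemannRochSpace (Finsupp.single P (M0 : ℤ) : Divisor K F)
      rw [← hb]
      exact Submodule.subset_span ⟨i, rfl⟩)
  have h := h33_val_aeval P (fun i => b i / w) y hv (h33_lin c)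
  rw [h33_lin_aeval, h33_lin_eval] at h
  have hsum : ∑ i, c i • (b i / w) = (∑ i, c i • b i) / w := by
    rw [Finset.sum_div]
    refine Finset.sum_congr rfl fun i _ => ?_
    rw [Algebra.smul_def, Algebra.smul_def, mul_div_assoc]
  rw [hsum] at h
  rw [h33_mem_sub_self_iff hfV]
  constructor
  · intro h0
    rw [h0, h39_val_zero_iff] at h
    rcases h with h | h
    · left
      rcases div_eq_zero_iff.mp h with h | h
      · exact h
      · exact absurd h hw0
    · by_cases hf0 : ∑ i, c i • b i = 0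
      · exact Or.inl hf0
      · right
        rw [h35_ord_div P hf0 hw0, hw] at h
        omega
  · intro h0
    refine h39_val_unique P h ?_
    rw [h39_val_zero_iff]
    rcases h0 with h0 | h0
    · left
      rw [h0, zero_div]
    · by_cases hf0 : ∑ i, c i • b i = 0
      · left
        rw [hf0, zero_div]
      · right
        rw [h35_ord_div P hf0 hw0, hw]
        omega

/-! ### The main statements -/

/-- **(PROJ), affine points, full form.** -/
theorem h33_proj_affine [CharZero K] {x : F} (hx : h75_IsChart K x) (P : Place K F)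
    (M0 : ℕ) (hM0 : 4 * h75_genus K x ≤ M0) (hM1 : 1 ≤ M0) (b : ι → F)
    (hb : Submodule.span K (Set.range b) =
      riemannRochSpace (Finsupp.single P (M0 : ℤ) : Divisor K F))
    (y : ι → K)
    (hrel : ∀ (d : ℕ) (G : MvPolynomial ι K), G.IsHomogeneous d →
      MvPolynomial.aeval b G = 0 → MvPolynomial.eval y G = 0)
    (c1 : ι → K) (h1 : ∑ i, c1 i • b i = 1) (hs : ∑ i, c1 i * y i ≠ 0) :
    ∃ R : Place K F, R ≠ P ∧ (∀ i, h39_Val R (b i) (y i / ∑ j, c1 j * y j)) ∧
      ∀ c : ι → K, (∑ i, c i * y i = 0 ↔ ∑ i, c i • b i ∈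
        riemannRochSpace (Finsupp.single P (M0 : ℤ) - Finsupp.single R 1 : Divisor K F)) := by
  classical
  obtain ⟨R, hR, hval⟩ := h33_proj_affine_val hx P M0 hM0 hM1 b hb y hrel c1 h1 hs
  have hvb : ∀ i, h39_Val R (b i) (y i / ∑ j, c1 j * y j) := by
    intro i
    have h := hval (fun j => if j = i then 1 else 0)
    have e1 : ∑ j, (if j = i then (1 : K) else 0) • b j = b i := by
      simp [ite_smul]
    have e2 : ∑ j, (if j = i then (1 : K) else 0) * y j = y i := by
      simp [ite_mul]
    rwa [e1, e2] at h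
  refine ⟨R, hR, hvb, fun c => ?_⟩
  have h := h33_ker_of_val hR M0 b hb (fun i => y i / ∑ j, c1 j * y j) hvb c
  rw [← h]
  have e : ∑ i, c i * (y i / ∑ j, c1 j * y j) = (∑ i, c i * y i) / ∑ j, c1 j * y j := by
    rw [Finset.sum_div]
    refine Finset.sum_congr rfl fun i _ => ?_
    rw [mul_div_assoc]
  rw [e, div_eq_zero_iff]
  constructor
  · intro h0
    exact Or.inl h0
  · rintro (h0 | h0)
    · exact h0
    · exact absurd h0 hs

/-- **(PROJ).** A nonzero point `y` killing all homogeneous relations of a spanning family `b`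
of `L(M₀ P)` (`4 g ≤ M₀`, `1 ≤ M₀`) is proportional to the evaluation at a place `R`
(`R = P` allowed): the linear forms vanishing at `y` are exactly those of `L(M₀ P - R)`. -/
theorem h33_proj [CharZero K] {x : F} (hx : h75_IsChart K x) (P : Place K F)
    (M0 : ℕ) (hM0 : 4 * h75_genus K x ≤ M0) (hM1 : 1 ≤ M0) (b : ι → F)
    (hb : Submodule.span K (Set.range b) =
      riemannRochSpace (Finsupp.single P (M0 : ℤ) : Divisor K F))
    (y : ι → K) (hy : y ≠ 0)
    (hrel : ∀ (d : ℕ) (G : MvPolynomial ι K), G.IsHomogeneous d →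
      MvPolynomial.aeval b G = 0 → MvPolynomial.eval y G = 0) :
    ∃ R : Place K F, ∀ c : ι → K, (∑ i, c i * y i = 0 ↔ ∑ i, c i • b i ∈
      riemannRochSpace (Finsupp.single P (M0 : ℤ) - Finsupp.single R 1 : Divisor K F)) := by
  have h1V : (1 : F) ∈ h33_V P M0 := by
    rw [h33_mem_V]
    right
    refine ⟨?_, fun Q _ => ?_⟩
    · rw [Place.ord_one]
      omega
    · rw [Place.ord_one]
  have h1span : (1 : F) ∈ Submodule.span K (Set.range b) := by
    rw [hb]
    exact h1V
  obtain ⟨c1, h1⟩ := (Submodule.mem_span_range_iff_exists_fun K).mp h1span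
  by_cases hs : ∑ i, c1 i * y i = 0
  · exact ⟨P, fun c => h33_proj_infty hx P M0 hM0 hM1 b hb y hy hrel c1 h1 hs c⟩
  · obtain ⟨R, -, -, hR⟩ := h33_proj_affine hx P M0 hM0 hM1 b hb y hrel c1 h1 hs
    exact ⟨R, hR⟩

end Proj

/-! ### Finitely many relations suffice; the spelling of the frame `h55_Frame` -/

section Frame

variable {ι : Type*}

/-- **finitely many homogeneous relations** cut out the zero set of all of them
(`MvPolynomial ι K` is noetherian). -/
theorem h33_exists_finite_relations [Finite ι] (b : ι → F) :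
    ∃ (m : ℕ) (Fm : Fin m → MvPolynomial ι K),
      (∀ j, ∃ d : ℕ, (Fm j).IsHomogeneous d ∧ MvPolynomial.aeval b (Fm j) = 0) ∧
      ∀ y : ι → K, (∀ j, MvPolynomial.eval y (Fm j) = 0) →
        ∀ (d : ℕ) (G : MvPolynomial ι K), G.IsHomogeneous d →
          MvPolynomial.aeval b G = 0 → MvPolynomial.eval y G = 0 := by
  classical
  set S : Set (MvPolynomial ι K) :=
    {G | ∃ d : ℕ, G.IsHomogeneous d ∧ MvPolynomial.aeval b G = 0} with hS
  have hfg : (Ideal.span S).FG := IsNoetherian.noetherian _
  obtain ⟨T, hTS, hT⟩ := (Submodule.fg_span_iff_fg_span_finset_subset S).mp hfg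
  refine ⟨T.card, fun j => ((T.equivFin.symm j : T) : MvPolynomial ι K), fun j => ?_, ?_⟩
  · exact hTS (T.equivFin.symm j).2
  · intro y hy d G hG h0
    have hGI : G ∈ Ideal.span S := Ideal.subset_span ⟨d, hG, h0⟩
    have hle : Ideal.span (T : Set (MvPolynomial ι K)) ≤
        RingHom.ker (MvPolynomial.eval y) := by
      rw [Ideal.span_le]
      intro G' hG'
      have h := hy (T.equivFin ⟨G', hG'⟩)
      simp only [Equiv.symm_apply_apply] at h
      exact h
    have hGT : G ∈ Ideal.span (T : Set (MvPolynomial ι K)) := by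
      have : Ideal.span S = Ideal.span (T : Set (MvPolynomial ι K)) := hT
      rw [← this]
      exact hGI
    exact hle hGT

theorem h33_smul_single (P : Place K F) (M0 : ℕ) :
    ((M0 : ℤ) • Finsupp.single P (1 : ℤ) : Divisor K F) = Finsupp.single P (M0 : ℤ) := by
  rw [Finsupp.smul_single, smul_eq_mul, mul_one]

variable [Fintype ι] [IsAlgClosed K]

/-- **(PROJ)** in the spelling of `h55_Frame` (`V_M = L((M : ℤ) • single inf 1)`). -/
theorem h33_proj_frame [CharZero K] {x : F} (hx : h75_IsChart K x) (P : Place K F)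
    (M0 : ℕ) (hM0 : 4 * h75_genus K x ≤ M0) (hM1 : 1 ≤ M0) (b : ι → F)
    (hb : Submodule.span K (Set.range b) =
      riemannRochSpace ((M0 : ℤ) • Finsupp.single P (1 : ℤ) : Divisor K F))
    (y : ι → K) (hy : y ≠ 0)
    (hrel : ∀ (d : ℕ) (G : MvPolynomial ι K), G.IsHomogeneous d →
      MvPolynomial.aeval b G = 0 → MvPolynomial.eval y G = 0) :
    ∃ R : Place K F, ∀ c : ι → K, (∑ i, c i * y i = 0 ↔ ∑ i, c i • b i ∈
      riemannRochSpace ((M0 : ℤ) • Finsupp.single P (1 : ℤ) - Finsupp.single R 1 :
        Divisor K F)) := by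
  rw [h33_smul_single] at hb ⊢
  exact h33_proj hx P M0 hM0 hM1 b hb y hy hrel

/-- **(PROJ), affine points, evaluation form**: if the form of `1` does not vanish at `y`, then
`y = s • (b i (R))_i` for a place `R ≠ P` (`s` the value of the form of `1`). -/
theorem h33_proj_affine_ev [CharZero K] {x : F} (hx : h75_IsChart K x) (P : Place K F)
    (M0 : ℕ) (hM0 : 4 * h75_genus K x ≤ M0) (hM1 : 1 ≤ M0) (b : ι → F)
    (hb : Submodule.span K (Set.range b) =
      riemannRochSpace ((M0 : ℤ) • Finsupp.single P (1 : ℤ) : Divisor K F))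
    (y : ι → K)
    (hrel : ∀ (d : ℕ) (G : MvPolynomial ι K), G.IsHomogeneous d →
      MvPolynomial.aeval b G = 0 → MvPolynomial.eval y G = 0)
    (c1 : ι → K) (h1 : ∑ i, c1 i • b i = 1) (hs : ∑ i, c1 i * y i ≠ 0) :
    ∃ R : Place K F, R ≠ P ∧ ∀ i, y i = (∑ j, c1 j * y j) * h92_ev R (b i) := by
  rw [h33_smul_single] at hb
  obtain ⟨R, hR, hval, -⟩ := h33_proj_affine hx P M0 hM0 hM1 b hb y hrel c1 h1 hs
  refine ⟨R, hR, fun i => ?_⟩
  rw [h92_ev_eq (hval i), mul_div_cancel₀ _ hs]

/-- **(PROJ), the point at infinity, frame spelling.** -/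
theorem h33_proj_infty_frame {x : F} (hx : h75_IsChart K x) (P : Place K F) (M0 : ℕ)
    (hM0 : 4 * h75_genus K x ≤ M0) (hM1 : 1 ≤ M0) (b : ι → F)
    (hb : Submodule.span K (Set.range b) =
      riemannRochSpace ((M0 : ℤ) • Finsupp.single P (1 : ℤ) : Divisor K F))
    (y : ι → K) (hy : y ≠ 0)
    (hrel : ∀ (d : ℕ) (G : MvPolynomial ι K), G.IsHomogeneous d →
      MvPolynomial.aeval b G = 0 → MvPolynomial.eval y G = 0)
    (c1 : ι → K) (h1 : ∑ i, c1 i • b i = 1) (hs : ∑ i, c1 i * y i = 0) (c : ι → K) :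
    ∑ i, c i * y i = 0 ↔ ∑ i, c i • b i ∈
      riemannRochSpace ((M0 : ℤ) • Finsupp.single P (1 : ℤ) - Finsupp.single P 1 :
        Divisor K F) := by
  rw [h33_smul_single] at hb ⊢
  exact h33_proj_infty hx P M0 hM0 hM1 b hb y hy hrel c1 h1 hs c

omit [Fintype ι] [IsAlgClosed K] in
/-- the members of `L(M₀ P)` are regular away from `P`. -/
theorem h33_mem_of_span {P R : Place K F} (hR : R ≠ P) (M0 : ℕ) (b : ι → F)
    (hb : Submodule.span K (Set.range b) =
      riemannRochSpace ((M0 : ℤ) • Finsupp.single P (1 : ℤ) : Divisor K F)) (i : ι) :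
    b i ∈ R.toValuationSubring := by
  rw [h33_smul_single] at hb
  have hbV : b i ∈ h33_V P M0 := by
    show b i ∈ riemannRochSpace (Finsupp.single P (M0 : ℤ) : Divisor K F)
    rw [← hb]
    exact Submodule.subset_span ⟨i, rfl⟩
  rcases h33_mem_V.mp hbV with h | ⟨-, h⟩
  · rw [h]
    exact zero_mem _
  · exact h24_mem_of_ord_nonneg R (h R hR)

omit [Fintype ι] in
/-- **converse of (PROJ), evaluation form**: the point `(b i (R))_i` of a place `R ≠ P`
satisfies every relation of `b`. -/
theorem h33_rel_of_pt {x : F} (hx : h75_IsChart K x) {P R : Place K F} (hR : R ≠ P) (M0 : ℕ)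
    (b : ι → F)
    (hb : Submodule.span K (Set.range b) =
      riemannRochSpace ((M0 : ℤ) • Finsupp.single P (1 : ℤ) : Divisor K F))
    (G : MvPolynomial ι K) (h0 : MvPolynomial.aeval b G = 0) :
    MvPolynomial.eval (fun i => h92_ev R (b i)) G = 0 :=
  h33_rel_of_val R b _ (fun i => h92_val_ev hx R (h33_mem_of_span hR M0 b hb i)) G h0

/-- the linear forms vanishing at the point of `R ≠ P` are those of `L(M₀ P - R)`. -/
theorem h33_ker_of_pt {x : F} (hx : h75_IsChart K x) {P R : Place K F} (hR : R ≠ P) (M0 : ℕ)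
    (b : ι → F)
    (hb : Submodule.span K (Set.range b) =
      riemannRochSpace ((M0 : ℤ) • Finsupp.single P (1 : ℤ) : Divisor K F)) (c : ι → K) :
    ∑ i, c i * h92_ev R (b i) = 0 ↔ ∑ i, c i • b i ∈
      riemannRochSpace ((M0 : ℤ) • Finsupp.single P (1 : ℤ) - Finsupp.single R 1 :
        Divisor K F) := by
  have hv := fun i => h92_val_ev hx R (h33_mem_of_span hR M0 b hb i)
  rw [h33_smul_single] at hb ⊢
  exact h33_ker_of_val hR M0 b hb _ hv c

end Frame

end Fermat.Agent.S17

end
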