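import Fermat.Agent.S17.h33_Proj
import Fermat.Agent.S17.h80_Proj

/-!
# S17 / R55: the curve side of the rank condition (RK) of the local Vandermonde core

Generic curve layer (`K` algebraically closed of characteristic zero, chart `x`,
`g = h75_genus K x`, a place `P`, `4 g ≤ M₀`, `1 ≤ M₀`, `b : ι → F` a spanning family of
`V_{M₀} = L(M₀ P)`).  For points `y j : ι → K` (`j : Fin a`) of the zero set of the homogeneous
relations of `b`, with all `y j ≠ 0` (coincidences and the point at infinity allowed):

* `h33_span_forms_eq` : the span of the forms `y k • b l - y l • b k` is `L(M₀ P - R)` for the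
  place `R` of the point `y` (given by `h33_proj_frame`);
* `h33_rk_curve` : there are places `R j` with `span{forms of y j} = L(M₀ P - R j)`,
  `(∏ j, span{forms of y j}) * L(M₂ P) = L((a M₀ + M₂) P - ∑ R j)` and
  `dim L((a M₀ + M₂) P - ∑ R j) = a M₀ + M₂ - a + 1 - g` (`M₂ ≥ M₀ + 2 g - 2`).
-/

set_option autoImplicit false

noncomputable section

open AlgebraicCurve IntermediateField

namespace Fermat.Agent.S17

open Fermat.Agent.S18 Fermat.Agent.S27 Fermat.Agent.S24

variable {K F : Type*} [Field K] [Field F] [Algebra K F]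

section

variable {ι : Type*} [Fintype ι]

/-- the span of the forms `y k • b l - y l • b k` at a point `y ≠ 0` whose vanishing linear
forms are those of `L(M₀ P - R)` is `L(M₀ P - R)`. -/
theorem h33_span_forms_eq {M0 : ℕ} (P R : Place K F) (b : ι → F)
    (hb : Submodule.span K (Set.range b) =
      riemannRochSpace ((M0 : ℤ) • Finsupp.single P (1 : ℤ) : Divisor K F))
    (y : ι → K) (hy : y ≠ 0)
    (hR : ∀ c : ι → K, (∑ i, c i * y i = 0 ↔ ∑ i, c i • b i ∈
      riemannRochSpace ((M0 : ℤ) • Finsupp.single P (1 : ℤ) - Finsupp.single R 1 :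
        Divisor K F))) :
    Submodule.span K (Set.range fun p : ι × ι => y p.1 • b p.2 - y p.2 • b p.1) =
      riemannRochSpace ((M0 : ℤ) • Finsupp.single P (1 : ℤ) - Finsupp.single R 1 :
        Divisor K F) := by
  classical
  apply le_antisymm
  · rw [Submodule.span_le]
    rintro _ ⟨⟨k, l⟩, rfl⟩
    have e1 : ∑ i, (y k * (if i = l then 1 else 0) - y l * (if i = k then 1 else 0)) • b i =
        y k • b l - y l • b k := by
      simp_rw [sub_smul, mul_smul, ite_smul, one_smul, zero_smul]
      rw [Finset.sum_sub_distrib, ← Finset.smul_sum, ← Finset.smul_sum]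
      simp
    have e2 : ∑ i, (y k * (if i = l then 1 else 0) - y l * (if i = k then 1 else 0)) * y i =
        0 := by
      simp_rw [sub_mul, mul_assoc, ite_mul, one_mul, zero_mul]
      rw [Finset.sum_sub_distrib, ← Finset.mul_sum, ← Finset.mul_sum]
      simp [mul_comm]
    have h := (hR _).mp e2
    rw [e1] at h
    exact h
  · intro f hf
    have hfV : f ∈ Submodule.span K (Set.range b) := by
      rw [hb]
      exact h68_rr_mono (h80_sub_single_le _ R) hf
    obtain ⟨c, rfl⟩ := (Submodule.mem_span_range_iff_exists_fun K).mp hfV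
    exact h33_span_forms b y hy c ((hR c).mpr hf)

variable [IsAlgClosed K] [CharZero K]

/-- **(RK), curve side.** At every tuple of nonzero points of the zero set of the homogeneous
relations of `b` (coincidences and points at infinity allowed) the product of the spans of the
forms with `L(M₂ P)` is `L((a M₀ + M₂) P - ∑ R j)`, of dimension `a M₀ + M₂ - a + 1 - g`. -/
theorem h33_rk_curve {x : F} (hx : h75_IsChart K x) (P : Place K F) (M0 M2 : ℕ)
    (hM0 : 4 * h75_genus K x ≤ M0) (hM1 : 1 ≤ M0) (hM2 : M0 + 2 * h75_genus K x ≤ M2 + 2)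
    (b : ι → F)
    (hb : Submodule.span K (Set.range b) =
      riemannRochSpace ((M0 : ℤ) • Finsupp.single P (1 : ℤ) : Divisor K F))
    {a : ℕ} (y : Fin a → ι → K) (hy : ∀ j, y j ≠ 0)
    (hrel : ∀ j, ∀ (d : ℕ) (G : MvPolynomial ι K), G.IsHomogeneous d →
      MvPolynomial.aeval b G = 0 → MvPolynomial.eval (y j) G = 0) :
    ∃ R : Fin a → Place K F,
      (∀ j, Submodule.span K (Set.range fun p : ι × ι => y j p.1 • b p.2 - y j p.2 • b p.1) =
        riemannRochSpace ((M0 : ℤ) • Finsupp.single P (1 : ℤ) - Finsupp.single (R j) 1 :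
          Divisor K F)) ∧
      (∏ j, Submodule.span K (Set.range fun p : ι × ι => y j p.1 • b p.2 - y j p.2 • b p.1)) *
          riemannRochSpace ((M2 : ℤ) • Finsupp.single P (1 : ℤ) : Divisor K F) =
        riemannRochSpace (((a * M0 + M2 : ℕ) : ℤ) • Finsupp.single P (1 : ℤ) -
          ∑ j, Finsupp.single (R j) 1 : Divisor K F) ∧
      (Module.finrank K (riemannRochSpace (((a * M0 + M2 : ℕ) : ℤ) • Finsupp.single P (1 : ℤ) -
          ∑ j, Finsupp.single (R j) 1 : Divisor K F)) : ℤ) =
        (a : ℤ) * M0 + M2 - a + 1 - h75_genus K x := by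
  classical
  choose R hR using fun j => h33_proj_frame hx P M0 hM0 hM1 b hb (y j) (hy j) (hrel j)
  have hspan : ∀ j,
      Submodule.span K (Set.range fun p : ι × ι => y j p.1 • b p.2 - y j p.2 • b p.1) =
        riemannRochSpace ((M0 : ℤ) • Finsupp.single P (1 : ℤ) - Finsupp.single (R j) 1 :
          Divisor K F) :=
    fun j => h33_span_forms_eq P (R j) b hb (y j) (hy j) (hR j)
  refine ⟨R, hspan, ?_, ?_⟩
  · have h := h80_prod_W hx P (M0 : ℤ) (M2 : ℤ) (by omega) (by omega)
      (Finset.univ : Finset (Fin a)) R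
    rw [Finset.card_univ, Fintype.card_fin] at h
    simp_rw [hspan, h33_smul_single]
    rw [h]
    congr 2
  · have hdeg : Divisor.degree (((a * M0 + M2 : ℕ) : ℤ) • Finsupp.single P (1 : ℤ) -
        ∑ j, Finsupp.single (R j) 1 : Divisor K F) = (a : ℤ) * M0 + M2 - a := by
      rw [map_sub, h33_smul_single, h33_degree_single hx, map_sum]
      simp_rw [h80_degree_single hx]
      simp
    have h := h15_finrank_rr_of_deg hx (((a * M0 + M2 : ℕ) : ℤ) • Finsupp.single P (1 : ℤ) -
        ∑ j, Finsupp.single (R j) 1 : Divisor K F) (by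
      rw [hdeg]
      have h1 : (0 : ℤ) ≤ (a : ℤ) * ((M0 : ℤ) - 1) :=
        mul_nonneg (Int.natCast_nonneg _) (by omega)
      nlinarith)
    rw [hdeg] at h
    rw [h]

end

end Fermat.Agent.S17

end
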