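import Mathlib
import Fermat.Agent.S17.R55_FB
import Fermat.Agent.S17.h32_GalDescent
import Fermat.Agent.S17.h35_GalDescent

/-!
# S17 (route R55): Galois descent for `L(D)` in a generic frame

For a frame `fr : h55_Frame F` and a Galois-stable divisor `D`, the space `L(D)` has a basis of
Galois-fixed functions (`h35_frame_desc_basis`), in particular it is spanned by its Galois-fixed
elements (`h35_frame_desc`).  No smoothness hypothesis on the action is needed: the fixed bases
`fr.b M` of the spaces `V_M = L(M·inf)` are enough.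

Proof: let `E = |D|` and `M ≥ deg E + g`.  `L(M·inf - E)` is a nonzero Galois-stable subspace of
`V_M`, so (`h35_descent_coords_abs`) it contains a nonzero function `v` with rational coordinates
in `fr.b M`, which is Galois-fixed.  Then `v·L(D)` is a Galois-stable subspace of `V_M`, hence
spanned by fixed functions `u_j`, and the `u_j / v` are a fixed basis of `L(D)`.
-/

set_option autoImplicit false

open AlgebraicCurve

namespace Fermat.Agent.S17

open Fermat.Agent.S18 Fermat.Agent.S27 Fermat.Agent.S19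

local notation "Qbar" => AlgebraicClosure ℚ
local notation "GQ" => (AlgebraicClosure ℚ ≃ₐ[ℚ] AlgebraicClosure ℚ)

section AbsDiv

variable {K F : Type*} [Field K] [Field F] [Algebra K F]

/-- the divisor `|D|` -/
noncomputable def h35_absDiv (D : Divisor K F) : Divisor K F :=
  Finsupp.mapRange (fun n : ℤ => abs n) abs_zero D

theorem h35_absDiv_apply (D : Divisor K F) (P : Place K F) : h35_absDiv D P = |D P| :=
  Finsupp.mapRange_apply (hf := abs_zero)

theorem h35_absDiv_nonneg (D : Divisor K F) : 0 ≤ h35_absDiv D := by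
  rw [Finsupp.le_def]
  intro P
  rw [h35_absDiv_apply]
  exact abs_nonneg _

theorem h35_le_absDiv (D : Divisor K F) : D ≤ h35_absDiv D := by
  rw [Finsupp.le_def]
  intro P
  rw [h35_absDiv_apply]
  exact le_abs_self _

theorem h35_absDiv_smul (g : SemilinearAut K F) (D : Divisor K F) (hD : g • D = D) :
    g • h35_absDiv D = h35_absDiv D := by
  ext P
  rw [SemilinearAut.divisor_smul_apply, h35_absDiv_apply, h35_absDiv_apply,
    ← SemilinearAut.divisor_smul_apply, hD]

end AbsDiv

variable {F : Type} [Field F] [Algebra Qbar F] (fr : h55_Frame F)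

theorem h35_frame_act_semilinear (σ : GQ) (a : Qbar) (f : F) :
    fr.act σ • (a • f) = σ a • (fr.act σ • f) := by
  rw [h82_smul_smul_semilinear, fr.base σ]
  rfl

/-- rational combinations of the frame basis are Galois-fixed -/
theorem h35_frame_rat_fixed (M : ℕ) (c : Fin (fr.n M) → ℚ) (σ : GQ) :
    fr.act σ • (∑ i, algebraMap ℚ Qbar (c i) • fr.b M i) =
      ∑ i, algebraMap ℚ Qbar (c i) • fr.b M i := by
  rw [h82_smul_sum_smul_of_fixed (fr.act σ) Finset.univ _ (fr.b M) (fun i => fr.b_fix M i σ)]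
  refine Finset.sum_congr rfl fun i _ => ?_
  rw [fr.base σ]
  show σ (algebraMap ℚ Qbar (c i)) • fr.b M i = _
  rw [σ.commutes]

/-- **Descent inside `V_M`**: a Galois-stable subspace of `V_M` has a basis of rational
combinations of the frame basis `fr.b M` (which are Galois-fixed, `h35_frame_rat_fixed`). -/
theorem h35_frame_desc_V (M : ℕ) (W : Submodule Qbar F) (hWV : W ≤ fr.V M)
    (hW : ∀ σ : GQ, ∀ w ∈ W, fr.act σ • w ∈ W) :
    ∃ c : Fin (Module.finrank Qbar W) → Fin (fr.n M) → ℚ,
      LinearIndependent Qbar (fun j => ∑ i, algebraMap ℚ Qbar (c j i) • fr.b M i) ∧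
      Submodule.span Qbar (Set.range fun j => ∑ i, algebraMap ℚ Qbar (c j i) • fr.b M i) = W := by
  have hgal : IsGalois ℚ Qbar := h32_isGaloisQbar
  exact h35_descent_coords_abs (k := ℚ) (K := Qbar) (fun σ f => fr.act σ • f)
    (fun σ x y => smul_add _ x y) (fun σ a x => h35_frame_act_semilinear fr σ a x)
    (fr.b M) (fr.b_li M) (fun j σ => fr.b_fix M j σ) W (by rw [fr.b_span M]; exact hWV) hW

/-- **Galois descent for `L(D)` in a frame** (basis form): for a Galois-stable divisor `D`, the
space `L(D)` has a basis of Galois-fixed functions. -/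
theorem h35_frame_desc_basis (D : Divisor Qbar F) (hD : ∀ σ : GQ, fr.act σ • D = D) :
    ∃ w : Fin (Module.finrank Qbar (riemannRochSpace D)) → F,
      (∀ j, w j ∈ riemannRochSpace D) ∧ (∀ j (σ : GQ), fr.act σ • w j = w j) ∧
      LinearIndependent Qbar w ∧ Submodule.span Qbar (Set.range w) = riemannRochSpace D := by
  classical
  obtain ⟨E, hE0, hED, hEfix⟩ : ∃ E : Divisor Qbar F, 0 ≤ E ∧ D ≤ E ∧
      ∀ σ : GQ, fr.act σ • E = E :=
    ⟨h35_absDiv D, h35_absDiv_nonneg D, h35_le_absDiv D,
      fun σ => h35_absDiv_smul (fr.act σ) D (hD σ)⟩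
  obtain ⟨M, hM⟩ : ∃ M : ℕ, Divisor.degree E + (fr.g : ℤ) ≤ M :=
    ⟨(Divisor.degree E + fr.g).toNat, Int.self_le_toNat _⟩
  obtain ⟨A, hA⟩ : ∃ A : Divisor Qbar F,
      A = (M : ℤ) • Finsupp.single fr.inf (1 : ℤ) - E := ⟨_, rfl⟩
  have hAfix : ∀ σ : GQ, fr.act σ • A = A := by
    intro σ
    rw [hA, smul_sub, hEfix σ, h56_smul_single_inf fr M, SemilinearAut.smul_single, fr.inf_fix σ]
  have hAV : riemannRochSpace A ≤ fr.V M :=
    h68_rr_mono (by rw [hA]; exact sub_le_self _ hE0)
  have hAstable : ∀ σ : GQ, ∀ w ∈ riemannRochSpace A, fr.act σ • w ∈ riemannRochSpace A :=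
    fun σ w hw => h82_smul_mem_rr_of_fixed (fr.act σ) (hAfix σ) hw
  obtain ⟨c, hcli, hcspan⟩ := h35_frame_desc_V fr M (riemannRochSpace A) hAV hAstable
  have hpos : 0 < Module.finrank Qbar (riemannRochSpace A) := by
    have h := (h75_riemann fr.chart A).2
    have hdeg : Divisor.degree A = M - Divisor.degree E := by
      rw [hA, map_sub, h56_degree_smul_inf]
    rw [hdeg] at h
    unfold h55_Frame.g at hM
    omega
  obtain ⟨v, hv⟩ : ∃ v : F, v = ∑ i, algebraMap ℚ Qbar (c ⟨0, hpos⟩ i) • fr.b M i := ⟨_, rfl⟩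
  have hv0 : v ≠ 0 := by rw [hv]; exact hcli.ne_zero ⟨0, hpos⟩
  have hvA : v ∈ riemannRochSpace A := by
    rw [hv]
    exact hcspan.le (Submodule.subset_span ⟨⟨0, hpos⟩, rfl⟩)
  have hvfix : ∀ σ : GQ, fr.act σ • v = v := fun σ => by
    rw [hv]; exact h35_frame_rat_fixed fr M _ σ
  obtain ⟨W', hW'⟩ : ∃ W' : Submodule Qbar F,
      W' = (riemannRochSpace D).map (LinearMap.mulLeft Qbar v) := ⟨_, rfl⟩
  have hmemW' : ∀ u : F, u ∈ W' ↔ ∃ w ∈ riemannRochSpace D, v * w = u := by
    intro u
    rw [hW', Submodule.mem_map]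
    rfl
  have hW'V : W' ≤ fr.V M := by
    intro u hu
    obtain ⟨w, hw, rfl⟩ := (hmemW' u).mp hu
    have h1 : v * w ∈ riemannRochSpace (A + D) := h80_mul_mem hvA hw
    refine h68_rr_mono ?_ h1
    calc A + D ≤ A + E := by gcongr
      _ = (M : ℤ) • Finsupp.single fr.inf (1 : ℤ) := by rw [hA, sub_add_cancel]
  have hW'stable : ∀ σ : GQ, ∀ u ∈ W', fr.act σ • u ∈ W' := by
    intro σ u hu
    obtain ⟨w, hw, rfl⟩ := (hmemW' u).mp hu
    refine (hmemW' _).mpr ⟨fr.act σ • w, h82_smul_mem_rr_of_fixed (fr.act σ) (hD σ) hw, ?_⟩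
    rw [smul_mul', hvfix σ]
  obtain ⟨c', hc'li, hc'span⟩ := h35_frame_desc_V fr M W' hW'V hW'stable
  have hinj : Function.Injective (LinearMap.mulLeft Qbar v) := fun a b h =>
    mul_left_cancel₀ hv0 h
  have hfr : Module.finrank Qbar W' = Module.finrank Qbar (riemannRochSpace D) := by
    rw [hW']
    exact (Submodule.equivMapOfInjective _ hinj _).finrank_eq.symm
  have hu : ∀ j, ∃ w ∈ riemannRochSpace D,
      v * w = ∑ i, algebraMap ℚ Qbar (c' j i) • fr.b M i := by
    intro j
    exact (hmemW' _).mp (hc'span.le (Submodule.subset_span ⟨j, rfl⟩))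
  choose w hwD hwv using hu
  have hwfix : ∀ j (σ : GQ), fr.act σ • w j = w j := by
    intro j σ
    apply mul_left_cancel₀ hv0
    calc v * (fr.act σ • w j) = fr.act σ • (v * w j) := by rw [smul_mul', hvfix σ]
      _ = v * w j := by rw [hwv, h35_frame_rat_fixed fr M _ σ]
  have hwli : LinearIndependent Qbar w := by
    have h1 : LinearIndependent Qbar (⇑(LinearMap.mulLeft Qbar v) ∘ w) := by
      have h2 : (⇑(LinearMap.mulLeft Qbar v) ∘ w) =
          fun j => ∑ i, algebraMap ℚ Qbar (c' j i) • fr.b M i := funext fun j => hwv j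
      rw [h2]
      exact hc'li
    exact LinearIndependent.of_comp _ h1
  have hwspan : Submodule.span Qbar (Set.range w) = riemannRochSpace D := by
    apply Submodule.map_injective_of_injective hinj
    have h2 : (⇑(LinearMap.mulLeft Qbar v) ∘ w) =
        fun j => ∑ i, algebraMap ℚ Qbar (c' j i) • fr.b M i := funext fun j => hwv j
    rw [Submodule.map_span, ← Set.range_comp, h2, hc'span]
    exact hW'
  refine ⟨fun j => w (Fin.cast hfr.symm j), fun j => hwD _, fun j σ => hwfix _ σ,
    hwli.comp _ (Fin.cast_injective _), ?_⟩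
  refine Eq.trans ?_ hwspan
  congr 1
  exact (Fin.castOrderIso hfr.symm).surjective.range_comp w

/-- **Galois descent for `L(D)` in a frame**: for a Galois-stable divisor `D`, the space `L(D)`
is spanned by its Galois-fixed elements. -/
theorem h35_frame_desc (D : Divisor Qbar F) (hD : ∀ σ : GQ, fr.act σ • D = D) :
    riemannRochSpace D ≤ Submodule.span Qbar
      {f | f ∈ riemannRochSpace D ∧ ∀ σ : GQ, fr.act σ • f = f} := by
  obtain ⟨w, hw, hfix, -, hspan⟩ := h35_frame_desc_basis fr D hD
  refine hspan.symm.le.trans (Submodule.span_mono ?_)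
  rintro _ ⟨j, rfl⟩
  exact ⟨hw j, hfix j⟩

end Fermat.Agent.S17
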