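import Mathlib
import Fermat.Prelude.Def_ModularCurve_ArithmeticGalois

/-!
# S17: the `q`-expansion cusp as a place of `laurentBaseChange K F₀` (helper46)

The function fields of the modular curves are subfields `F = laurentBaseChange K F₀` of
`LaurentSeries K`.  The order of a Laurent series is a discrete valuation on `F`; as soon as `F`
contains an element of order `1` its valuation subring is a place of `F`:

* `h46_cuspPlace F₀ hπ : Place K (laurentBaseChange K F₀)`;
* `h46_cuspPlace_ord` : its `ord` is the order of the Laurent series;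
* `h46_cuspPlace_smul` : it is fixed by the arithmetic Galois action (coefficientwise);
* `h46_modular_cuspPlace N` : the instance for `modularFunctionFieldBar N` (uniformiser `1 / j`).
-/

set_option autoImplicit false

noncomputable section

namespace Fermat.Agent.S17

open ModularCurve AlgebraicCurve HahnSeries

section Laurent

variable {K : Type*} [Field K]

/-- The order of a Laurent series is invariant under an injective change of coefficients. -/
theorem h46_order_coeffMap {R S : Type*} [CommRing R] [CommRing S] (f : R →+* S)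
    (hf : Function.Injective f) (x : LaurentSeries R) : (coeffMap f x).order = x.order := by
  rcases eq_or_ne x 0 with rfl | hx
  · simp
  · have hx' : coeffMap f x ≠ 0 := by
      intro h
      apply hx
      ext k
      have := congrArg (fun z : LaurentSeries S => z.coeff k) h
      simp only [coeffMap_coeff, HahnSeries.coeff_zero] at this
      simpa using hf (by simpa using this)
    apply le_antisymm
    · apply HahnSeries.order_le_of_coeff_ne_zero
      rw [coeffMap_coeff]
      intro h
      exact hx (HahnSeries.coeff_order_eq_zero.1 (hf (by simpa using h)))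
    · apply HahnSeries.order_le_of_coeff_ne_zero
      intro h
      apply hx'
      apply HahnSeries.coeff_order_eq_zero.1
      rw [coeffMap_coeff, h, map_zero]

theorem h46_order_inv (x : LaurentSeries K) : x⁻¹.order = -x.order := by
  rcases eq_or_ne x 0 with rfl | hx
  · simp
  · have h := HahnSeries.order_mul hx (inv_ne_zero hx)
    rw [mul_inv_cancel₀ hx, HahnSeries.order_one] at h
    linarith

/-- The order as a homomorphism on the units. -/
def h46_orderHom (K : Type*) [Field K] : (LaurentSeries K)ˣ →* Multiplicative ℤ where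
  toFun u := Multiplicative.ofAdd (u : LaurentSeries K).order
  map_one' := by simp [HahnSeries.order_one]
  map_mul' u w := by
    rw [Units.val_mul, HahnSeries.order_mul u.ne_zero w.ne_zero]
    rfl

theorem h46_order_zpow (x : LaurentSeries K) (hx : x ≠ 0) (n : ℤ) :
    (x ^ n).order = n * x.order := by
  have h := map_zpow (h46_orderHom K) (Units.mk0 x hx) n
  have h2 : Multiplicative.toAdd (h46_orderHom K (Units.mk0 x hx ^ n)) = (x ^ n).order := by
    simp [h46_orderHom]
  have h3 : Multiplicative.toAdd (h46_orderHom K (Units.mk0 x hx) ^ n) = n * x.order := by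
    simp [h46_orderHom]
  rw [← h2, h, h3]

/-- The valuation subring of Laurent series of nonnegative order. -/
def h46_laurentVS (K : Type*) [Field K] : ValuationSubring (LaurentSeries K) where
  carrier := {x | 0 ≤ x.order}
  mul_mem' := by
    intro a b ha hb
    simp only [Set.mem_ofPred_eq] at ha hb ⊢
    rcases eq_or_ne a 0 with rfl | ha0
    · simp
    rcases eq_or_ne b 0 with rfl | hb0
    · simp
    rw [HahnSeries.order_mul ha0 hb0]
    exact add_nonneg ha hb
  one_mem' := by simp [HahnSeries.order_one]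
  add_mem' := by
    intro a b ha hb
    simp only [Set.mem_ofPred_eq] at ha hb ⊢
    rcases eq_or_ne (a + b) 0 with h | h
    · rw [h]; simp
    · exact le_trans (le_min ha hb) (HahnSeries.min_order_le_order_add h)
  zero_mem' := by simp
  neg_mem' := by
    intro a ha
    simp only [Set.mem_ofPred_eq] at ha ⊢
    rwa [HahnSeries.order_neg]
  mem_or_inv_mem' := by
    intro x
    simp only [Set.mem_ofPred_eq]
    rw [h46_order_inv]
    rcases le_total 0 x.order with h | h
    · exact Or.inl h
    · exact Or.inr (by linarith)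

theorem h46_mem_laurentVS (x : LaurentSeries K) : x ∈ h46_laurentVS K ↔ 0 ≤ x.order := Iff.rfl

end Laurent

section Cusp

variable {K : Type*} [Field K] [Algebra ℚ K] (F₀ : IntermediateField ℚ (LaurentSeries ℚ))

/-- The order of an element of `laurentBaseChange K F₀` as a Laurent series. -/
def h46_qord (x : laurentBaseChange K F₀) : ℤ := (x : LaurentSeries K).order

theorem h46_qord_mul {x y : laurentBaseChange K F₀} (hx : x ≠ 0) (hy : y ≠ 0) :
    h46_qord F₀ (x * y) = h46_qord F₀ x + h46_qord F₀ y := by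
  unfold h46_qord
  rw [MulMemClass.coe_mul]
  exact HahnSeries.order_mul (by simpa using hx) (by simpa using hy)

theorem h46_qord_inv (x : laurentBaseChange K F₀) : h46_qord F₀ x⁻¹ = -h46_qord F₀ x := by
  unfold h46_qord
  rw [IntermediateField.coe_inv]
  exact h46_order_inv _

theorem h46_qord_zpow (x : laurentBaseChange K F₀) (hx : x ≠ 0) (n : ℤ) :
    h46_qord F₀ (x ^ n) = n * h46_qord F₀ x := by
  unfold h46_qord
  have h : ((x ^ n : laurentBaseChange K F₀) : LaurentSeries K) = (x : LaurentSeries K) ^ n :=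
    map_zpow₀ (algebraMap (laurentBaseChange K F₀) (LaurentSeries K)) x n
  rw [h]
  exact h46_order_zpow _ (by simpa using hx) n

theorem h46_qord_one : h46_qord F₀ (1 : laurentBaseChange K F₀) = 0 := by
  unfold h46_qord
  simp [HahnSeries.order_one]

/-- The valuation subring of `laurentBaseChange K F₀` of elements of nonnegative order. -/
def h46_cuspVS : ValuationSubring (laurentBaseChange K F₀) :=
  (h46_laurentVS K).comap (algebraMap (laurentBaseChange K F₀) (LaurentSeries K))

theorem h46_mem_cuspVS (x : laurentBaseChange K F₀) :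
    x ∈ h46_cuspVS (K := K) F₀ ↔ 0 ≤ h46_qord F₀ x := Iff.rfl

theorem h46_isUnit_cuspVS (a : h46_cuspVS (K := K) F₀)
    (ha : h46_qord F₀ (a : laurentBaseChange K F₀) = 0) (ha0 : a ≠ 0) : IsUnit a := by
  have hmem : (a : laurentBaseChange K F₀)⁻¹ ∈ h46_cuspVS (K := K) F₀ := by
    rw [h46_mem_cuspVS, h46_qord_inv, ha, neg_zero]
  refine IsUnit.of_mul_eq_one ⟨_, hmem⟩ (Subtype.ext ?_)
  have ha0' : (a : laurentBaseChange K F₀) ≠ 0 := by simpa using ha0
  simp [mul_inv_cancel₀ ha0']

theorem h46_qord_of_isUnit (a : h46_cuspVS (K := K) F₀) (ha : IsUnit a) :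
    h46_qord F₀ (a : laurentBaseChange K F₀) = 0 := by
  obtain ⟨u, rfl⟩ := ha
  have h1 : 0 ≤ h46_qord F₀ ((u : h46_cuspVS (K := K) F₀) : laurentBaseChange K F₀) :=
    (h46_mem_cuspVS F₀ _).1 (u : h46_cuspVS (K := K) F₀).2
  have h2 : 0 ≤ h46_qord F₀ ((↑u⁻¹ : h46_cuspVS (K := K) F₀) : laurentBaseChange K F₀) :=
    (h46_mem_cuspVS F₀ _).1 (↑u⁻¹ : h46_cuspVS (K := K) F₀).2
  have hu0 : ((u : h46_cuspVS (K := K) F₀) : laurentBaseChange K F₀) ≠ 0 := by
    simp
  have hinv0 : ((↑u⁻¹ : h46_cuspVS (K := K) F₀) : laurentBaseChange K F₀) ≠ 0 := by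
    simp
  have h3 := h46_qord_mul F₀ hu0 hinv0
  have h4 : ((u : h46_cuspVS (K := K) F₀) : laurentBaseChange K F₀) *
      ((↑u⁻¹ : h46_cuspVS (K := K) F₀) : laurentBaseChange K F₀) = 1 := by
    have := congrArg (fun z : h46_cuspVS (K := K) F₀ => (z : laurentBaseChange K F₀))
      (Units.mul_inv u)
    exact this
  rw [h4, h46_qord_one] at h3
  linarith

end Cusp

section PlaceDef

open scoped Pointwise

variable {K : Type*} [Field K] [Algebra ℚ K] (F₀ : IntermediateField ℚ (LaurentSeries ℚ))

theorem h46_pi_ne_zero (π : laurentBaseChange K F₀) (hπ : h46_qord F₀ π = 1) : π ≠ 0 := by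
  rintro rfl
  simp [h46_qord] at hπ

theorem h46_pi_mem (π : laurentBaseChange K F₀) (hπ : h46_qord F₀ π = 1) :
    π ∈ h46_cuspVS (K := K) F₀ := by
  rw [h46_mem_cuspVS, hπ]
  exact zero_le_one

theorem h46_irreducible_pi (π : laurentBaseChange K F₀) (hπ : h46_qord F₀ π = 1) :
    Irreducible (⟨π, h46_pi_mem F₀ π hπ⟩ : h46_cuspVS (K := K) F₀) := by
  rw [irreducible_iff]
  constructor
  · intro hu
    have h := h46_qord_of_isUnit F₀ _ hu
    simp only [hπ] at h
    exact one_ne_zero h
  · intro a b hab
    have hπ0 := h46_pi_ne_zero F₀ π hπ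
    have hab' : π = (a : laurentBaseChange K F₀) * (b : laurentBaseChange K F₀) := by
      have := congrArg (fun z : h46_cuspVS (K := K) F₀ => (z : laurentBaseChange K F₀)) hab
      exact this
    have ha0 : (a : laurentBaseChange K F₀) ≠ 0 := by
      rintro h
      rw [h, zero_mul] at hab'
      exact hπ0 hab'
    have hb0 : (b : laurentBaseChange K F₀) ≠ 0 := by
      rintro h
      rw [h, mul_zero] at hab'
      exact hπ0 hab'
    have h1 := h46_qord_mul F₀ ha0 hb0
    rw [← hab', hπ] at h1
    have ha := (h46_mem_cuspVS F₀ _).1 a.2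
    have hb := (h46_mem_cuspVS F₀ _).1 b.2
    rcases Nat.eq_zero_or_pos (h46_qord F₀ (a : laurentBaseChange K F₀)).toNat with h | h
    · left
      refine h46_isUnit_cuspVS F₀ a (by omega) ?_
      intro h0
      exact ha0 (by rw [h0]; rfl)
    · right
      refine h46_isUnit_cuspVS F₀ b (by omega) ?_
      intro h0
      exact hb0 (by rw [h0]; rfl)

/-- Every nonzero element of `F` is a unit of the cusp ring times a power of `π`. -/
theorem h46_exists_unit_mul_zpow (π : laurentBaseChange K F₀) (hπ : h46_qord F₀ π = 1)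
    (f : laurentBaseChange K F₀) (hf : f ≠ 0) :
    ∃ u : (h46_cuspVS (K := K) F₀)ˣ,
      f = ((u : h46_cuspVS (K := K) F₀) : laurentBaseChange K F₀) * π ^ (h46_qord F₀ f) := by
  have hπ0 := h46_pi_ne_zero F₀ π hπ
  have hpn : π ^ (h46_qord F₀ f) ≠ 0 := zpow_ne_zero _ hπ0
  have hg0 : f * (π ^ (h46_qord F₀ f))⁻¹ ≠ 0 := mul_ne_zero hf (inv_ne_zero hpn)
  have hq : h46_qord F₀ (f * (π ^ (h46_qord F₀ f))⁻¹) = 0 := by
    rw [h46_qord_mul F₀ hf (inv_ne_zero hpn), h46_qord_inv, h46_qord_zpow F₀ π hπ0, hπ]
    ring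
  have hmem : f * (π ^ (h46_qord F₀ f))⁻¹ ∈ h46_cuspVS (K := K) F₀ := by
    rw [h46_mem_cuspVS, hq]
  have hu : IsUnit (⟨_, hmem⟩ : h46_cuspVS (K := K) F₀) := by
    refine h46_isUnit_cuspVS F₀ _ hq ?_
    intro h0
    exact hg0 (congrArg (fun z : h46_cuspVS (K := K) F₀ => (z : laurentBaseChange K F₀)) h0)
  refine ⟨hu.unit, ?_⟩
  rw [IsUnit.unit_spec]
  show f = f * (π ^ (h46_qord F₀ f))⁻¹ * π ^ (h46_qord F₀ f)
  rw [mul_assoc, inv_mul_cancel₀ hpn, mul_one]

theorem h46_hasFactorization (π : laurentBaseChange K F₀) (hπ : h46_qord F₀ π = 1) :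
    IsDiscreteValuationRing.HasUnitMulPowIrreducibleFactorization (h46_cuspVS (K := K) F₀) := by
  refine ⟨⟨π, h46_pi_mem F₀ π hπ⟩, h46_irreducible_pi F₀ π hπ, ?_⟩
  intro x hx
  have hx0 : (x : laurentBaseChange K F₀) ≠ 0 := by
    intro h
    exact hx (Subtype.ext h)
  obtain ⟨u, hu⟩ := h46_exists_unit_mul_zpow F₀ π hπ (x : laurentBaseChange K F₀) hx0
  have hn : 0 ≤ h46_qord F₀ (x : laurentBaseChange K F₀) := (h46_mem_cuspVS F₀ _).1 x.2
  obtain ⟨m, hm⟩ := Int.eq_ofNat_of_zero_le hn
  refine ⟨m, u, Subtype.ext ?_⟩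
  rw [hm, zpow_natCast] at hu
  rw [hu]
  push_cast
  ring

/-- **The cusp place**: elements of nonnegative `q`-order. -/
def h46_cuspPlace (π : laurentBaseChange K F₀) (hπ : h46_qord F₀ π = 1) :
    Place K (laurentBaseChange K F₀) where
  toValuationSubring := h46_cuspVS F₀
  algebraMap_mem' := fun a => by
    rw [h46_mem_cuspVS]
    unfold h46_qord
    have h : ((algebraMap K (laurentBaseChange K F₀) a : laurentBaseChange K F₀) :
        LaurentSeries K) = HahnSeries.single 0 a := by
      rw [← algebraMap_laurentSeries_eq_single]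
      rfl
    rw [h]
    rcases eq_or_ne a 0 with rfl | ha
    · simp
    · rw [HahnSeries.order_single ha]
  ne_top' := fun h => by
    have hmem : π⁻¹ ∈ h46_cuspVS (K := K) F₀ := by
      rw [h]
      exact ValuationSubring.mem_top _
    rw [h46_mem_cuspVS, h46_qord_inv, hπ] at hmem
    norm_num at hmem
  isPrincipalIdealRing' := by
    have := IsDiscreteValuationRing.ofHasUnitMulPowIrreducibleFactorization
      (h46_hasFactorization F₀ π hπ)
    infer_instance

@[simp]
theorem h46_cuspPlace_toValuationSubring (π : laurentBaseChange K F₀)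
    (hπ : h46_qord F₀ π = 1) :
    (h46_cuspPlace F₀ π hπ).toValuationSubring = h46_cuspVS F₀ := rfl

/-- **The order at the cusp place is the order of the Laurent series.** -/
theorem h46_cuspPlace_ord (π : laurentBaseChange K F₀) (hπ : h46_qord F₀ π = 1)
    (f : laurentBaseChange K F₀) :
    (h46_cuspPlace F₀ π hπ).ord f = h46_qord F₀ f := by
  rcases eq_or_ne f 0 with rfl | hf
  · simp [h46_qord]
  obtain ⟨u, hu⟩ := h46_exists_unit_mul_zpow F₀ π hπ f hf
  have h := (h46_cuspPlace F₀ π hπ).ord_unit_smul_zpow u (h46_irreducible_pi F₀ π hπ)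
    (h46_qord F₀ f)
  rw [← hu] at h
  exact h

/-- **The cusp place is fixed by the arithmetic Galois action.** -/
theorem h46_cuspPlace_smul (π : laurentBaseChange K F₀) (hπ : h46_qord F₀ π = 1)
    (σ : K ≃ₐ[ℚ] K) :
    arithmeticGalois F₀ σ • h46_cuspPlace F₀ π hπ = h46_cuspPlace F₀ π hπ := by
  apply Place.ext
  rw [SemilinearAut.smul_toValuationSubring]
  ext x
  rw [ValuationSubring.mem_pointwise_smul_iff_inv_smul_mem, h46_cuspPlace_toValuationSubring,
    h46_mem_cuspVS, h46_mem_cuspVS, ← map_inv]
  unfold h46_qord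
  rw [coe_arithmeticGalois_smul, h46_order_coeffMap _ (RingHom.injective _)]

end PlaceDef

section Modular

variable (K : Type*) [Field K] [Algebra ℚ K]

theorem h46_order_jq : jq.order = -1 := by
  apply le_antisymm
  · apply HahnSeries.order_le_of_coeff_ne_zero
    rw [coeff_jq_neg_one]
    exact one_ne_zero
  · by_contra h
    push Not at h
    exact jq_ne_zero (HahnSeries.coeff_order_eq_zero.1 (coeff_jq_of_lt h))

/-- `j` as an element of `laurentBaseChange K F₀` when `jq ∈ F₀`. -/
def h46_jK (F₀ : IntermediateField ℚ (LaurentSeries ℚ)) (hj : jq ∈ F₀) :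
    laurentBaseChange K F₀ :=
  ⟨coeffEmb K jq, coeffEmb_mem_laurentBaseChange K hj⟩

theorem h46_qord_jK (F₀ : IntermediateField ℚ (LaurentSeries ℚ)) (hj : jq ∈ F₀) :
    h46_qord F₀ (h46_jK K F₀ hj) = -1 := by
  unfold h46_qord h46_jK
  show (coeffEmb K jq).order = -1
  rw [coeffEmb, h46_order_coeffMap _ (algebraMap ℚ K).injective, h46_order_jq]

theorem h46_qord_jK_inv (F₀ : IntermediateField ℚ (LaurentSeries ℚ)) (hj : jq ∈ F₀) :
    h46_qord F₀ (h46_jK K F₀ hj)⁻¹ = 1 := by
  rw [h46_qord_inv, h46_qord_jK]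
  norm_num

theorem h46_jq_mem_full (N : ℕ) [NeZero N] : jq ∈ modularFunctionFieldFull N := by
  have h := jqd_mem_full N (one_dvd N)
  rwa [qExpand_one_apply] at h

/-- **The cusp `∞` of `X₀(N)` over `K`** as a place of the function field. -/
def h46_modularCusp (N : ℕ) [NeZero N] :
    Place K (laurentBaseChange K (modularFunctionFieldFull N)) :=
  h46_cuspPlace (modularFunctionFieldFull N) (h46_jK K _ (h46_jq_mem_full N))⁻¹
    (h46_qord_jK_inv K _ (h46_jq_mem_full N))

theorem h46_mem_modularCusp (N : ℕ) [NeZero N]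
    (f : laurentBaseChange K (modularFunctionFieldFull N)) :
    f ∈ (h46_modularCusp K N).toValuationSubring ↔ 0 ≤ (f : LaurentSeries K).order :=
  Iff.rfl

/-- The order at the cusp is the order of the `q`-expansion. -/
theorem h46_modularCusp_ord (N : ℕ) [NeZero N]
    (f : laurentBaseChange K (modularFunctionFieldFull N)) :
    (h46_modularCusp K N).ord f = (f : LaurentSeries K).order :=
  h46_cuspPlace_ord _ _ _ f

/-- The cusp is fixed by the arithmetic Galois action. -/
theorem h46_modularCusp_smul (N : ℕ) [NeZero N] (σ : K ≃ₐ[ℚ] K) :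
    arithmeticGalois (modularFunctionFieldFull N) σ • h46_modularCusp K N
      = h46_modularCusp K N :=
  h46_cuspPlace_smul _ _ _ σ

/-- The divisor `n • ∞` is fixed by the arithmetic Galois action. -/
theorem h46_modularCusp_divisor_smul (N : ℕ) [NeZero N] (σ : K ≃ₐ[ℚ] K) (n : ℤ) :
    arithmeticGalois (modularFunctionFieldFull N) σ •
        (Finsupp.single (h46_modularCusp K N) n :
          Divisor K (laurentBaseChange K (modularFunctionFieldFull N)))
      = Finsupp.single (h46_modularCusp K N) n := by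
  rw [SemilinearAut.smul_single, h46_modularCusp_smul]

end Modular

end Fermat.Agent.S17

end
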