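import Mathlib
import Fermat.Agent.S17.h55_Frame
import Fermat.Agent.S17.h46_CuspPlace
import Fermat.Agent.S17.h35_GalDescent
import Fermat.Agent.S18.h54_ModLevel

/-!
# S17 (route R55), row MF: the frame of `X₀(N)`

`h35_modularFrame N : h55_Frame (modularFunctionFieldBar N)`:

* chart `j` (`h59_jbar N`, `h54_isChart_jbar N`);
* action `arithmeticGalois (modularFunctionFieldFull N)` (coefficientwise on `q`-expansions);
* `inf` = the cusp `∞` (`h46_modularCusp`), Galois-fixed;
* `b M` = a basis of `L(M·∞)` consisting of functions with RATIONAL `q`-expansions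
  (Galois descent `h35_rr_rational_basis`; no smoothness hypothesis needed).

Also: the descent statement `L(D)` is spanned by its Galois-fixed elements for every Galois-stable
divisor `D` (for every frame on `modularFunctionFieldBar N` whose action is the arithmetic one),
and the comparison of `fr.IsFixed` with the fixed points of the prelude action on `JZero N`.
-/

set_option autoImplicit false

open ModularCurve AlgebraicCurve

namespace Fermat.Agent.S17

open Fermat.Agent.S18 Fermat.Agent.S24 Fermat.Agent.S27

local notation "Qbar" => AlgebraicClosure ℚ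
local notation "GQ" => (AlgebraicClosure ℚ ≃ₐ[ℚ] AlgebraicClosure ℚ)

/-- `ℚ ⊂ AlgebraicClosure ℚ` is Galois. -/
theorem h35_isGaloisQbar : IsGalois ℚ (AlgebraicClosure ℚ) := by
  have h1 : Algebra.IsAlgebraic ℚ (AlgebraicClosure ℚ) := AlgebraicClosure.isAlgebraic ℚ
  have h2 : IsAlgClosure ℚ (AlgebraicClosure ℚ) := ⟨inferInstance, inferInstance⟩
  have h3 : Normal ℚ (AlgebraicClosure ℚ) := IsAlgClosure.normal ℚ (AlgebraicClosure ℚ)
  exact { }

/-- The divisor `M • ∞` on `X₀(N)` is fixed by the arithmetic Galois action. -/
theorem h35_modFrame_div_fix (N : ℕ) [NeZero N] (M : ℕ) (σ : GQ) :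
    arithmeticGalois (modularFunctionFieldFull N) σ •
      ((M : ℤ) • Finsupp.single (h46_modularCusp Qbar N) (1 : ℤ) :
        Divisor Qbar (modularFunctionFieldBar N)) =
      (M : ℤ) • Finsupp.single (h46_modularCusp Qbar N) (1 : ℤ) := by
  rw [Finsupp.smul_single, smul_eq_mul, mul_one]
  exact h46_modularCusp_divisor_smul Qbar N σ M

/-- Riemann–Roch spaces on `X₀(N)` are finite-dimensional. -/
theorem h35_modFrame_finiteDimensional (N : ℕ) [NeZero N]
    (D : Divisor Qbar (modularFunctionFieldBar N)) :
    FiniteDimensional Qbar (riemannRochSpace D) :=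
  (h75_riemann (h54_isChart_jbar N) D).1

/-- **Galois descent for `L(D)` on `X₀(N)`**: a Galois-stable divisor has a basis of `L(D)` made
of Galois-fixed functions with rational `q`-expansions. -/
theorem h35_modFrame_exists_basis (N : ℕ) [NeZero N]
    (D : Divisor Qbar (modularFunctionFieldBar N))
    (hD : ∀ σ : GQ, arithmeticGalois (modularFunctionFieldFull N) σ • D = D) :
    ∃ b : Fin (Module.finrank Qbar (riemannRochSpace D)) → modularFunctionFieldBar N,
      (∀ j, b j ∈ riemannRochSpace D) ∧
      (∀ j (σ : GQ), arithmeticGalois (modularFunctionFieldFull N) σ • b j = b j) ∧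
      (∀ j, ∃ z : LaurentSeries ℚ, ((b j : modularFunctionFieldBar N) : LaurentSeries Qbar) =
        coeffEmb Qbar z) ∧
      LinearIndependent Qbar b ∧ Submodule.span Qbar (Set.range b) = riemannRochSpace D := by
  have hfd : FiniteDimensional Qbar (riemannRochSpace D) := h35_modFrame_finiteDimensional N D
  have hgal : IsGalois ℚ Qbar := h35_isGaloisQbar
  exact h35_rr_rational_basis (modularFunctionFieldFull N) D hD

/-- **The frame of `X₀(N)`** (route R55, row MF). -/
noncomputable def h35_modularFrame (N : ℕ) [NeZero N] :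
    h55_Frame (modularFunctionFieldBar N) where
  x := h59_jbar N
  chart := h54_isChart_jbar N
  act := arithmeticGalois (modularFunctionFieldFull N)
  base := fun _ => rfl
  inf := h46_modularCusp Qbar N
  inf_fix := h46_modularCusp_smul Qbar N
  n := fun M => Module.finrank Qbar (riemannRochSpace
    ((M : ℤ) • Finsupp.single (h46_modularCusp Qbar N) (1 : ℤ) :
      Divisor Qbar (modularFunctionFieldBar N)))
  b := fun M => Classical.choose
    (h35_modFrame_exists_basis N _ (h35_modFrame_div_fix N M))
  b_fix := fun M i σ => (Classical.choose_spec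
    (h35_modFrame_exists_basis N _ (h35_modFrame_div_fix N M))).2.1 i σ
  b_li := fun M => (Classical.choose_spec
    (h35_modFrame_exists_basis N _ (h35_modFrame_div_fix N M))).2.2.2.1
  b_span := fun M => (Classical.choose_spec
    (h35_modFrame_exists_basis N _ (h35_modFrame_div_fix N M))).2.2.2.2

theorem h35_modularFrame_act (N : ℕ) [NeZero N] (σ : GQ) :
    (h35_modularFrame N).act σ = arithmeticGalois (modularFunctionFieldFull N) σ := rfl

theorem h35_modularFrame_inf (N : ℕ) [NeZero N] :
    (h35_modularFrame N).inf = h46_modularCusp Qbar N := rfl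

theorem h35_modularFrame_x (N : ℕ) [NeZero N] : (h35_modularFrame N).x = h59_jbar N := rfl

/-- The basis functions of the frame of `X₀(N)` have rational `q`-expansions. -/
theorem h35_modularFrame_b_rational (N : ℕ) [NeZero N] (M : ℕ)
    (i : Fin ((h35_modularFrame N).n M)) :
    ∃ z : LaurentSeries ℚ,
      (((h35_modularFrame N).b M i : modularFunctionFieldBar N) : LaurentSeries Qbar) =
        coeffEmb Qbar z :=
  (Classical.choose_spec
    (h35_modFrame_exists_basis N _ (h35_modFrame_div_fix N M))).2.2.1 i

/-- **Row MF in the skeleton's form** (no hypothesis on `N` is needed). -/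
theorem h35_exists_frame (N : ℕ) [NeZero N] :
    ∃ fr : h55_Frame (modularFunctionFieldBar N),
      ∀ σ : GQ, fr.act σ = arithmeticGalois (modularFunctionFieldFull N) σ :=
  ⟨h35_modularFrame N, fun _ => rfl⟩

/-- **Descent for every arithmetic frame on `X₀(N)`**: for a Galois-stable divisor `D`, the space
`L(D)` is spanned by its Galois-fixed elements. -/
theorem h35_modFrame_desc (N : ℕ) [NeZero N] (fr : h55_Frame (modularFunctionFieldBar N))
    (hact : ∀ σ : GQ, fr.act σ = arithmeticGalois (modularFunctionFieldFull N) σ)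
    (D : Divisor Qbar (modularFunctionFieldBar N)) (hD : ∀ σ : GQ, fr.act σ • D = D) :
    riemannRochSpace D ≤ Submodule.span Qbar
      {f | f ∈ riemannRochSpace D ∧ ∀ σ : GQ, fr.act σ • f = f} := by
  obtain ⟨b, hb, hfix, -, -, hspan⟩ :=
    h35_modFrame_exists_basis N D (fun σ => by rw [← hact σ]; exact hD σ)
  refine hspan.symm.le.trans (Submodule.span_mono ?_)
  rintro _ ⟨j, rfl⟩
  exact ⟨hb j, fun σ => by rw [hact σ]; exact hfix j σ⟩

/-- The frame action on classes is the prelude Galois action on `JZero N`. -/
theorem h35_modFrame_smul_pic0 (N : ℕ) [NeZero N] (fr : h55_Frame (modularFunctionFieldBar N))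
    (hact : ∀ σ : GQ, fr.act σ = arithmeticGalois (modularFunctionFieldFull N) σ)
    (σ : GQ) (c : JZero N) : fr.act σ • c = σ • c := by
  rw [hact σ, galois_smul_pic0_def]

/-- `fr.IsFixed` is membership in the group of `ℚ`-rational points of `J₀(N)`. -/
theorem h35_modFrame_isFixed_iff (N : ℕ) [NeZero N] (fr : h55_Frame (modularFunctionFieldBar N))
    (hact : ∀ σ : GQ, fr.act σ = arithmeticGalois (modularFunctionFieldFull N) σ)
    (c : JZero N) : fr.IsFixed c ↔ c ∈ FixedPoints.addSubgroup GQ (JZero N) := by
  constructor
  · intro h σ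
    rw [← h35_modFrame_smul_pic0 N fr hact σ c]
    exact h σ
  · intro h σ
    rw [h35_modFrame_smul_pic0 N fr hact σ c]
    exact h σ

end Fermat.Agent.S17
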