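import Mathlib
import Fermat.Prelude.Def_GroupCohomology_ContinuousUnramified
import Fermat.Agent.S55.h46_FinH1

/-!
# S17, weak Mordell–Weil: the Kummer step (abstract form)

`GQ = Gal(ℚ̄/ℚ)` acts on an abelian group `J` (`DistribMulAction`), `p` is a prime, `S` a finite set
of primes containing `p`, `Γ = J^GQ`.

* `h3_kummer_core` : a finite set `C` and a map `y ↦ c_y` on `{y : p • y ∈ Γ}` such that
  `c_y = c_y'` forces `y - y' ∈ Γ` (`c_y(σ) = σ y - y` is an `S`-level `1`-cocycle of `J[p]`;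
  such cocycles form a finite set by helper46's `h46_finite_levelCocyclesS₁`).
* `h3_kummer_relIndex` : `pΓ` has finite index in `Γ ∩ pJ`.
* `h3_kummer_finiteIndex` : if `Γ ∩ pJ` has finite index in `Γ` then `pΓ` has finite index in `Γ`
  (the hypothesis `H₁` of Mathlib's `AddCommGroup.fg_of_descent`).
* `h3_kummer_finiteIndex_of_div` : the same when every class of `Γ` is `p`-divisible in `J`.
-/

set_option autoImplicit false

open groupCohomology ExtCitation

noncomputable section

namespace Fermat.Agent.S17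

local notation "Qbar" => AlgebraicClosure ℚ
local notation "GQ" => (AlgebraicClosure ℚ ≃ₐ[ℚ] AlgebraicClosure ℚ)

section TorsDef

variable (J : Type) [AddCommGroup J] (p : ℕ)

/-- The `p`-torsion subgroup of `J`. -/
def h3_tors : AddSubgroup J := (nsmulAddMonoidHom (α := J) p).ker

variable {J p}

theorem h3_mem_tors {x : J} : x ∈ h3_tors J p ↔ p • x = 0 := Iff.rfl

instance h3_torsModule : Module (ZMod p) (h3_tors J p) :=
  AddCommGroup.zmodModule fun x => Subtype.ext (by
    change ((p • x : h3_tors J p) : J) = 0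
    rw [AddSubgroupClass.coe_nsmul]
    exact h3_mem_tors.mp x.2)

end TorsDef

section Tors

variable {J : Type} [AddCommGroup J] [DistribMulAction GQ J] {p : ℕ}

theorem h3_smul_nsmul (g : GQ) (n : ℕ) (x : J) : g • (n • x) = n • (g • x) :=
  map_nsmul (DistribSMul.toAddMonoidHom J g) n x

instance h3_torsSMul : SMul GQ (h3_tors J p) :=
  ⟨fun g x => ⟨g • (x : J), by
    rw [h3_mem_tors, ← h3_smul_nsmul, h3_mem_tors.mp x.2, smul_zero]⟩⟩

@[simp] theorem h3_coe_tors_smul (g : GQ) (x : h3_tors J p) :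
    ((g • x : h3_tors J p) : J) = g • (x : J) := rfl

instance h3_torsAction : DistribMulAction GQ (h3_tors J p) where
  one_smul x := Subtype.ext (one_smul _ (x : J))
  mul_smul g h x := Subtype.ext (mul_smul g h (x : J))
  smul_zero g := Subtype.ext (smul_zero g)
  smul_add g x y := Subtype.ext (smul_add g (x : J) (y : J))

instance h3_torsSMulComm : SMulCommClass GQ (ZMod p) (h3_tors J p) where
  smul_comm g c x := ZMod.map_smul (DistribSMul.toAddMonoidHom (h3_tors J p) g) c x

variable (J p)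

/-- The Galois action on `J[p]` as a `ZMod p`-linear representation. -/
def h3_torsRho : GQ →* Module.End (ZMod p) (h3_tors J p) :=
  DistribMulAction.toModuleEnd (ZMod p) (h3_tors J p)

/-- `J[p]` as an object of `Rep (ZMod p) GQ`. -/
abbrev h3_torsRep : Rep.{0, 0, 0} (ZMod p) GQ := Rep.of (h3_torsRho J p)

variable {J p}

@[simp] theorem h3_torsRho_apply (g : GQ) (x : h3_tors J p) : h3_torsRho J p g x = g • x := rfl

/-- The Kummer cochain `σ ↦ σ y - y` of a `p`-th root `y` of a Galois-fixed class. -/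
def h3_kumFun (y : J) (hy : ∀ σ : GQ, σ • (p • y) = p • y) : GQ → h3_tors J p :=
  fun σ => ⟨σ • y - y, by
    rw [h3_mem_tors, nsmul_sub, ← h3_smul_nsmul, hy σ, sub_self]⟩

@[simp] theorem h3_coe_kumFun (y : J) (hy : ∀ σ : GQ, σ • (p • y) = p • y) (σ : GQ) :
    ((h3_kumFun y hy σ : h3_tors J p) : J) = σ • y - y := rfl

theorem h3_kumFun_mul (y : J) (hy : ∀ σ : GQ, σ • (p • y) = p • y) (g h : GQ) :
    h3_kumFun y hy (g * h) = g • h3_kumFun y hy h + h3_kumFun y hy g := by
  apply Subtype.ext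
  rw [AddSubgroup.coe_add, h3_coe_tors_smul, h3_coe_kumFun, h3_coe_kumFun, h3_coe_kumFun,
    mul_smul, smul_sub]
  abel

end Tors

section Level

variable {J : Type} [AddCommGroup J] [DistribMulAction GQ J] {p : ℕ}
  (S : Finset Nat.Primes)

/-- The Kummer cochain of a `p`-th root of a fixed class is an `S`-level cocycle, provided the
stabiliser of `y` contains the group of a number field and all inertia groups outside `S`. -/
theorem h3_kumFun_level (y : J) (hy : ∀ σ : GQ, σ • (p • y) = p • y)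
    (hsm : ∃ F : IntermediateField ℚ Qbar, FiniteDimensional ℚ F ∧
      ∀ s ∈ F.fixingSubgroup, s • y = y)
    (hur : ∀ q : Nat.Primes, q ∉ S → ∀ A : ValuationSubring Qbar, A.LiesOverPrime (q : ℕ) →
      ∀ g ∈ A.inertiaSubgroupIn ℚ, g • y = y) :
    IsLevelConstantS₁ S (h3_kumFun y hy) := by
  have hgalQ : IsGalois ℚ Qbar := Fermat.Agent.S13.h24_isGalois_Qbar
  obtain ⟨E, hE, hEfix⟩ := hsm
  have hle : E.fixingSubgroup ≤ MulAction.stabilizer GQ y := fun s hs =>
    MulAction.mem_stabilizer_iff.mpr (hEfix s hs)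
  have hopen : IsOpen ((MulAction.stabilizer GQ y : Subgroup GQ) : Set GQ) :=
    Subgroup.isOpen_mono hle (IntermediateField.fixingSubgroup_isOpen E)
  have hclosed : IsClosed ((MulAction.stabilizer GQ y : Subgroup GQ) : Set GQ) :=
    Subgroup.isClosed_of_isOpen _ hopen
  let H : ClosedSubgroup GQ := ⟨MulAction.stabilizer GQ y, hclosed⟩
  have hfix : (IntermediateField.fixedField (H : Subgroup GQ)).fixingSubgroup
      = MulAction.stabilizer GQ y := InfiniteGalois.fixingSubgroup_fixedField H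
  have hFE : IntermediateField.fixedField (H : Subgroup GQ) ≤ E := by
    intro x hx
    rw [← InfiniteGalois.fixedField_fixingSubgroup E, IntermediateField.mem_fixedField_iff]
    intro s hs
    exact (IntermediateField.mem_fixedField_iff _ x).mp hx s (hle hs)
  refine ⟨IntermediateField.fixedField (H : Subgroup GQ), ⟨?_, ?_⟩, ?_⟩
  · exact FiniteDimensional.of_injective (IntermediateField.inclusion hFE).toLinearMap
      (IntermediateField.inclusion_injective hFE)
  · intro q hq A hA g hg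
    rw [hfix]
    exact MulAction.mem_stabilizer_iff.mpr (hur q hq A hA g hg)
  · intro g s hs
    rw [hfix] at hs
    apply Subtype.ext
    rw [h3_coe_kumFun, h3_coe_kumFun, mul_smul, MulAction.mem_stabilizer_iff.mp hs]

end Level

section Core

variable {J : Type} [AddCommGroup J] [DistribMulAction GQ J] {p : ℕ} [Fact p.Prime]
  (S : Finset Nat.Primes)

/-- **Kummer core.** -/
theorem h3_kummer_core (hpS : pPrime p ∈ S)
    (hfin : Finite (h3_tors J p))
    (hsm : ∀ y : J, (∀ σ : GQ, σ • (p • y) = p • y) →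
      ∃ F : IntermediateField ℚ Qbar, FiniteDimensional ℚ F ∧ ∀ s ∈ F.fixingSubgroup, s • y = y)
    (hur : ∀ q : Nat.Primes, q ∉ S → ∀ A : ValuationSubring Qbar, A.LiesOverPrime (q : ℕ) →
      ∀ g ∈ A.inertiaSubgroupIn ℚ, ∀ y : J, (∀ σ : GQ, σ • (p • y) = p • y) → g • y = y) :
    ∃ (C : Type) (_ : Finite C) (f : {y : J // ∀ σ : GQ, σ • (p • y) = p • y} → C),
      ∀ y y', f y = f y' → ∀ σ : GQ, σ • (y.1 - y'.1) = y.1 - y'.1 := by
  have h0 : ∀ m : h3_tors J p, ∀ σ : GQ, σ • (p • (m : J)) = p • (m : J) := by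
    intro m σ
    rw [h3_mem_tors.mp m.2, smul_zero]
  have hfd : FiniteDimensional (ZMod p) (h3_torsRep J p) := Module.Finite.of_finite
  have hC : Finite (levelCocyclesS₁ S (h3_torsRep J p)) := by
    refine Fermat.Agent.S55.h46_finite_levelCocyclesS₁ S hpS (h3_torsRep J p) ?_ ?_
    · intro m
      obtain ⟨F, hF, hFfix⟩ := hsm (m : J) (h0 m)
      exact ⟨F, hF, fun s hs => Subtype.ext (hFfix s hs)⟩
    · intro q hq A hA g hg
      ext m
      exact hur q hq A hA g hg (m : J) (h0 m)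
  have hcoc : ∀ y : {y : J // ∀ σ : GQ, σ • (p • y) = p • y},
      (h3_kumFun y.1 y.2 : GQ → h3_torsRep J p) ∈ cocycles₁ (h3_torsRep J p) := by
    intro y
    rw [mem_cocycles₁_iff]
    intro g h
    exact h3_kumFun_mul y.1 y.2 g h
  refine ⟨levelCocyclesS₁ S (h3_torsRep J p), hC, fun y =>
    ⟨⟨(h3_kumFun y.1 y.2 : GQ → h3_torsRep J p), hcoc y⟩,
      h3_kumFun_level S y.1 y.2 (hsm y.1 y.2)
        (fun q hq A hA g hg => hur q hq A hA g hg y.1 y.2)⟩, ?_⟩
  intro y y' hyy' σ
  have h1 : (h3_kumFun y.1 y.2 : GQ → h3_tors J p) = h3_kumFun y'.1 y'.2 :=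
    congrArg (fun c : levelCocyclesS₁ S (h3_torsRep J p) =>
      ((c : cocycles₁ (h3_torsRep J p)) : GQ → h3_tors J p)) hyy'
  have h2 : σ • y.1 - y.1 = σ • y'.1 - y'.1 :=
    congrArg (fun c : GQ → h3_tors J p => ((c σ : h3_tors J p) : J)) h1
  rw [smul_sub]
  exact sub_eq_sub_iff_sub_eq_sub.mp h2

end Core

section Index

variable (J : Type) [AddCommGroup J] [DistribMulAction GQ J] (p : ℕ)

/-- `Γ ∩ pJ` as a subgroup of `Γ = J^GQ`. -/
def h3_divSub : AddSubgroup (FixedPoints.addSubgroup GQ J) :=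
  (nsmulAddMonoidHom (α := J) p).range.comap (FixedPoints.addSubgroup GQ J).subtype

variable {J p}

theorem h3_mem_divSub {x : FixedPoints.addSubgroup GQ J} :
    x ∈ h3_divSub J p ↔ ∃ y : J, p • y = (x : J) := by
  rw [h3_divSub, AddSubgroup.mem_comap, AddMonoidHom.mem_range]
  rfl

theorem h3_nsmul_range_le :
    (nsmulAddMonoidHom (α := ↥(FixedPoints.addSubgroup GQ J)) p).range ≤ h3_divSub J p := by
  rintro x ⟨z, rfl⟩
  exact h3_mem_divSub.mpr ⟨(z : J), rfl⟩

variable [Fact p.Prime] (S : Finset Nat.Primes)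

/-- **Kummer**: `pΓ` has finite index in `Γ ∩ pJ`. -/
theorem h3_kummer_relIndex (hpS : pPrime p ∈ S)
    (hfin : Finite (h3_tors J p))
    (hsm : ∀ y : J, (∀ σ : GQ, σ • (p • y) = p • y) →
      ∃ F : IntermediateField ℚ Qbar, FiniteDimensional ℚ F ∧ ∀ s ∈ F.fixingSubgroup, s • y = y)
    (hur : ∀ q : Nat.Primes, q ∉ S → ∀ A : ValuationSubring Qbar, A.LiesOverPrime (q : ℕ) →
      ∀ g ∈ A.inertiaSubgroupIn ℚ, ∀ y : J, (∀ σ : GQ, σ • (p • y) = p • y) → g • y = y) :
    ((nsmulAddMonoidHom (α := ↥(FixedPoints.addSubgroup GQ J)) p).range).relIndex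
      (h3_divSub J p) ≠ 0 := by
  obtain ⟨C, hC, f, hf⟩ := h3_kummer_core S hpS hfin hsm hur
  set P := (nsmulAddMonoidHom (α := ↥(FixedPoints.addSubgroup GQ J)) p).range with hP
  have hch : ∀ d : h3_divSub J p, ∃ y : J, p • y = ((d : FixedPoints.addSubgroup GQ J) : J) :=
    fun d => h3_mem_divSub.mp d.2
  choose yy hyy using hch
  have hfixd : ∀ d : h3_divSub J p, ∀ σ : GQ, σ • (p • yy d) = p • yy d := by
    intro d σ
    rw [hyy d]
    exact (d : FixedPoints.addSubgroup GQ J).2 σ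
  let φ : (h3_divSub J p) ⧸ (P.addSubgroupOf (h3_divSub J p)) → C :=
    fun q => f ⟨yy (Quotient.out q), hfixd _⟩
  have hφ : Function.Injective φ := by
    intro q q' hqq'
    have h1 := hf _ _ hqq'
    rw [← QuotientAddGroup.out_eq' q, ← QuotientAddGroup.out_eq' q', QuotientAddGroup.eq,
      AddSubgroup.mem_addSubgroupOf]
    have h2 : ∀ σ : GQ, σ • (yy (Quotient.out q') - yy (Quotient.out q))
        = yy (Quotient.out q') - yy (Quotient.out q) := by
      intro σ
      have := h1 σ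
      simp only at this
      rw [← neg_sub, smul_neg, this]
    refine ⟨⟨yy (Quotient.out q') - yy (Quotient.out q), h2⟩, ?_⟩
    apply Subtype.ext
    simp only [nsmulAddMonoidHom_apply, AddSubgroup.coe_nsmul, AddSubgroup.coe_add,
      NegMemClass.coe_neg, nsmul_sub, hyy]
    abel
  have hfinq : Finite ((h3_divSub J p) ⧸ (P.addSubgroupOf (h3_divSub J p))) :=
    Finite.of_injective φ hφ
  exact AddSubgroup.index_ne_zero_of_finite


/-- **Kummer step of weak Mordell–Weil.** If `Γ ∩ pJ` has finite index in `Γ = J^GQ`, then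
`pΓ` has finite index in `Γ`. -/
theorem h3_kummer_finiteIndex (hpS : pPrime p ∈ S)
    (hfin : Finite (h3_tors J p))
    (hsm : ∀ y : J, (∀ σ : GQ, σ • (p • y) = p • y) →
      ∃ F : IntermediateField ℚ Qbar, FiniteDimensional ℚ F ∧ ∀ s ∈ F.fixingSubgroup, s • y = y)
    (hur : ∀ q : Nat.Primes, q ∉ S → ∀ A : ValuationSubring Qbar, A.LiesOverPrime (q : ℕ) →
      ∀ g ∈ A.inertiaSubgroupIn ℚ, ∀ y : J, (∀ σ : GQ, σ • (p • y) = p • y) → g • y = y)
    (hdiv : (h3_divSub J p).FiniteIndex) :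
    (nsmulAddMonoidHom (α := ↥(FixedPoints.addSubgroup GQ J)) p).range.FiniteIndex := by
  refine ⟨?_⟩
  rw [← AddSubgroup.relIndex_mul_index (h3_nsmul_range_le (J := J) (p := p))]
  exact Nat.mul_ne_zero (h3_kummer_relIndex S hpS hfin hsm hur) hdiv.index_ne_zero

/-- **Kummer step of weak Mordell–Weil**, when every Galois-fixed class is `p`-divisible
in `J`. -/
theorem h3_kummer_finiteIndex_of_div (hpS : pPrime p ∈ S)
    (hfin : Finite (h3_tors J p))
    (hsm : ∀ y : J, (∀ σ : GQ, σ • (p • y) = p • y) →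
      ∃ F : IntermediateField ℚ Qbar, FiniteDimensional ℚ F ∧ ∀ s ∈ F.fixingSubgroup, s • y = y)
    (hur : ∀ q : Nat.Primes, q ∉ S → ∀ A : ValuationSubring Qbar, A.LiesOverPrime (q : ℕ) →
      ∀ g ∈ A.inertiaSubgroupIn ℚ, ∀ y : J, (∀ σ : GQ, σ • (p • y) = p • y) → g • y = y)
    (hdiv : ∀ x : J, (∀ σ : GQ, σ • x = x) → ∃ y : J, p • y = x) :
    (nsmulAddMonoidHom (α := ↥(FixedPoints.addSubgroup GQ J)) p).range.FiniteIndex := by
  refine h3_kummer_finiteIndex S hpS hfin hsm hur ?_
  have htop : h3_divSub J p = ⊤ := by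
    rw [eq_top_iff]
    intro x _
    exact h3_mem_divSub.mpr (hdiv (x : J) x.2)
  rw [htop]
  infer_instance

end Index

end Fermat.Agent.S17
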