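import Mathlib

/-!
# S17 (O1), group-theoretic part: divisibility from torsion counts

Let `A` be an additive commutative group, `T n = A[n]` its `n`-torsion.

* `h56_smul_surj_of_card`: if `#A[ℓ^j] = ℓ^(r j)` for all `j`, every element of `A[ℓ^j]` is
  `ℓ`-divisible.
* `h56_prime_divisible_of_torsion`: a torsion group with these counts at `ℓ` is `ℓ`-divisible.
* `h56_divisible_of_torsion_card`: a torsion group with these counts at every prime dividing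
  `m` is `m`-divisible.

Mathlib only.
-/

set_option autoImplicit false

namespace Fermat.Agent.S17

variable {A : Type*} [AddCommGroup A]

/-- If `#A[ℓ^j] = ℓ^(r j)` for all `j`, multiplication by `ℓ` maps `A[ℓ^(j+1)]` onto `A[ℓ^j]`. -/
theorem h56_smul_surj_of_card (ℓ : ℕ) (hℓ : ℓ.Prime) (r : ℕ) (T : ℕ → AddSubgroup A)
    (hT : ∀ (n : ℕ) (x : A), x ∈ T n ↔ (n : ℤ) • x = 0)
    (hcard : ∀ j : ℕ, Nat.card (T (ℓ ^ j)) = ℓ ^ (r * j)) (j : ℕ) (c : A) (hc : c ∈ T (ℓ ^ j)) :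
    ∃ γ : A, ℓ • γ = c := by
  classical
  have hpos : ∀ i : ℕ, 0 < ℓ ^ (r * i) := fun i => pow_pos hℓ.pos _
  have hfin : ∀ i : ℕ, Finite (T (ℓ ^ i)) := fun i =>
    Nat.finite_of_card_ne_zero (by rw [hcard i]; exact (hpos i).ne')
  -- the homomorphism `ℓ : A[ℓ^(j+1)] → A[ℓ^j]`
  have key : ∀ a : A, ((ℓ ^ j : ℕ) : ℤ) • ℓ • a = ((ℓ ^ (j + 1) : ℕ) : ℤ) • a := by
    intro a
    rw [← natCast_zsmul a ℓ, smul_smul]
    congr 1
  have hmap : ∀ x : T (ℓ ^ (j + 1)), ℓ • (x : A) ∈ T (ℓ ^ j) := by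
    intro x
    have hx := (hT _ _).mp x.2
    rw [hT, key, hx]
  let φ : T (ℓ ^ (j + 1)) →+ T (ℓ ^ j) :=
    { toFun := fun x => ⟨ℓ • (x : A), hmap x⟩
      map_zero' := by
        apply Subtype.ext
        simp
      map_add' := fun x y => by
        apply Subtype.ext
        simp [smul_add] }
  -- the kernel is `A[ℓ]`, of order `ℓ ^ r`
  have hker : Nat.card φ.ker = ℓ ^ r := by
    have h1 : Nat.card (T (ℓ ^ 1)) = ℓ ^ r := by rw [hcard 1, mul_one]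
    rw [← h1]
    refine Nat.card_congr
      { toFun := fun x => ⟨((x : T (ℓ ^ (j + 1))) : A), ?_⟩
        invFun := fun y => ⟨⟨(y : A), ?_⟩, ?_⟩
        left_inv := fun x => rfl
        right_inv := fun y => rfl }
    · have hx : φ (x : T (ℓ ^ (j + 1))) = 0 := x.2
      have hx' : ℓ • ((x : T (ℓ ^ (j + 1))) : A) = 0 := congrArg Subtype.val hx
      rw [hT, pow_one, natCast_zsmul]
      exact hx'
    · have hy : ℓ • (y : A) = 0 := by
        have h := (hT _ _).mp y.2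
        simpa using h
      rw [hT, ← key, hy, smul_zero]
    · have hy : ℓ • (y : A) = 0 := by
        have h := (hT _ _).mp y.2
        simpa using h
      show φ ⟨(y : A), _⟩ = 0
      apply Subtype.ext
      exact hy
  -- count
  have hfin1 : Finite (T (ℓ ^ (j + 1))) := hfin (j + 1)
  have hfin0 : Finite (T (ℓ ^ j)) := hfin j
  have hcount : Nat.card (T (ℓ ^ (j + 1))) = Nat.card φ.ker * Nat.card φ.range := by
    have h1 := AddSubgroup.card_eq_card_quotient_mul_card_addSubgroup φ.ker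
    rw [h1, Nat.card_congr (QuotientAddGroup.quotientKerEquivRange φ).toEquiv, mul_comm]
  have hrange : Nat.card φ.range = ℓ ^ (r * j) := by
    rw [hcard (j + 1), hker] at hcount
    have h2 : ℓ ^ (r * (j + 1)) = ℓ ^ r * ℓ ^ (r * j) := by
      rw [← pow_add]
      congr 1
      ring
    rw [h2] at hcount
    exact (Nat.eq_of_mul_eq_mul_left (pow_pos hℓ.pos r) hcount).symm
  have htop : φ.range = ⊤ := by
    refine AddSubgroup.eq_top_of_card_eq _ ?_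
    rw [hrange, hcard j]
  have hmem : (⟨c, hc⟩ : T (ℓ ^ j)) ∈ φ.range := by
    rw [htop]
    exact AddSubgroup.mem_top _
  obtain ⟨x, hx⟩ := hmem
  exact ⟨(x : A), congrArg Subtype.val hx⟩

/-- A torsion group with `#A[ℓ^j] = ℓ^(r j)` for all `j` is `ℓ`-divisible. -/
theorem h56_prime_divisible_of_torsion (htors : ∀ x : A, ∃ n : ℕ, 0 < n ∧ n • x = 0)
    (ℓ : ℕ) (hℓ : ℓ.Prime) (r : ℕ) (T : ℕ → AddSubgroup A)
    (hT : ∀ (n : ℕ) (x : A), x ∈ T n ↔ (n : ℤ) • x = 0)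
    (hcard : ∀ j : ℕ, Nat.card (T (ℓ ^ j)) = ℓ ^ (r * j)) (c : A) :
    ∃ γ : A, ℓ • γ = c := by
  obtain ⟨n, hn, hnc⟩ := htors c
  obtain ⟨a, n', hn', rfl⟩ := Nat.exists_eq_pow_mul_and_not_dvd hn.ne' ℓ hℓ.ne_one
  -- `n' • c ∈ A[ℓ^a]`
  have h1 : n' • c ∈ T (ℓ ^ a) := by
    rw [hT, natCast_zsmul, smul_smul]
    exact hnc
  obtain ⟨γ, hγ⟩ := h56_smul_surj_of_card ℓ hℓ r T hT hcard a (n' • c) h1
  -- Bezout
  have hcop : Nat.Coprime ℓ n' := (Nat.Prime.coprime_iff_not_dvd hℓ).mpr hn'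
  have hbez : (ℓ : ℤ) * Nat.gcdA ℓ n' + (n' : ℤ) * Nat.gcdB ℓ n' = 1 := by
    have := Nat.gcd_eq_gcd_ab ℓ n'
    rw [hcop.gcd_eq_one] at this
    exact_mod_cast this.symm
  refine ⟨Nat.gcdA ℓ n' • c + Nat.gcdB ℓ n' • γ, ?_⟩
  have h2 : c = ((ℓ : ℤ) * Nat.gcdA ℓ n' + (n' : ℤ) * Nat.gcdB ℓ n') • c := by
    rw [hbez, one_smul]
  have h3 : ((n' : ℤ) * Nat.gcdB ℓ n') • c = Nat.gcdB ℓ n' • ℓ • γ := by
    rw [hγ, mul_comm, mul_smul, natCast_zsmul]
  rw [smul_add, smul_comm ℓ (Nat.gcdB ℓ n') γ]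
  conv_rhs => rw [h2, add_smul, h3]
  congr 1
  rw [mul_smul, natCast_zsmul]

/-- **Divisibility from torsion counts.** A torsion group `A` with `#A[ℓ^j] = ℓ^(r_ℓ j)` for
all `j` and every prime `ℓ ∣ m` is `m`-divisible. -/
theorem h56_divisible_of_torsion_card (htors : ∀ x : A, ∃ n : ℕ, 0 < n ∧ n • x = 0)
    (T : ℕ → AddSubgroup A) (hT : ∀ (n : ℕ) (x : A), x ∈ T n ↔ (n : ℤ) • x = 0)
    (m : ℕ) (hm : m ≠ 0)
    (hcard : ∀ ℓ : ℕ, ℓ.Prime → ℓ ∣ m → ∃ r : ℕ, ∀ j : ℕ, Nat.card (T (ℓ ^ j)) = ℓ ^ (r * j))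
    (c : A) : ∃ γ : A, m • γ = c := by
  induction m using Nat.strong_induction_on generalizing c with
  | _ m ih =>
    by_cases h1 : m = 1
    · exact ⟨c, by rw [h1, one_smul]⟩
    · obtain ⟨ℓ, hℓ, hdvd⟩ := Nat.exists_prime_and_dvd h1
      obtain ⟨m', rfl⟩ := hdvd
      have hm' : m' ≠ 0 := fun h => hm (by rw [h, mul_zero])
      have hlt : m' < ℓ * m' := by
        have := hℓ.one_lt
        have hpos : 0 < m' := Nat.pos_of_ne_zero hm'
        nlinarith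
      obtain ⟨r, hr⟩ := hcard ℓ hℓ (dvd_mul_right ℓ m')
      obtain ⟨γ₁, hγ₁⟩ := h56_prime_divisible_of_torsion htors ℓ hℓ r T hT hr c
      obtain ⟨γ₂, hγ₂⟩ := ih m' hlt hm'
        (fun q hq hqm => hcard q hq (Dvd.dvd.mul_left hqm ℓ)) γ₁
      exact ⟨γ₂, by rw [mul_smul, hγ₂, hγ₁]⟩

end Fermat.Agent.S17
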