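import Fermat.Agent.S17.h56_DivGroup
import Fermat.Agent.S27.FrobEx
import Fermat.Agent.S27.FrobZeta
import Fermat.Agent.S27.h15_DefsAny

/-!
# S17 (O1): `Pic⁰` of a function field over a field algebraic over `𝔽_p` is torsion, and
`m`-divisible for `p ∤ m` (given the count of `ℓ`-power torsion, `ℓ ≠ p`)

* `h56_pic0_torsion_charp`: every class is fixed by a power of a Frobenius structure, and the
  classes fixed by it are finite in number (B6 of S27), hence every class has finite order.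
* `h56_pic0_divisible_charp`: with the count `#Pic⁰[ℓ^j] = ℓ^(2 g j)` (`h15_GoodAny`, the output
  of COUNT-CHARP of S27) for the primes `ℓ ∣ m`, `Pic⁰` is `m`-divisible.
-/

set_option autoImplicit false

open AlgebraicCurve Fermat.Agent.S18 Fermat.Agent.S27

namespace Fermat.Agent.S17

/-- `Pic⁰` over a field algebraic over `𝔽_p` is a torsion group. -/
theorem h56_pic0_torsion_charp (p : ℕ) [Fact p.Prime] {k F : Type*} [Field k] [IsAlgClosed k]
    [CharP k p] (halg : ∀ a : k, ∃ n : ℕ, 0 < n ∧ a ^ (p ^ n) = a) [Field F] [Algebra k F]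
    {x : F} (hx : h75_IsChart k x) (c : Pic0 k F) : ∃ n : ℕ, 0 < n ∧ n • c = 0 := by
  obtain ⟨e, he, σ, P₀, hσ, hper, -, hP₀⟩ := h73_exists_frob p halg hx
  obtain ⟨n, hn, hc⟩ := h73_pic_periodic hx σ hper c
  have hσn : h57_IsFrob (p ^ (e * n)) (σ ^ n) := by
    rw [pow_mul]
    exact hσ.pow n
  have hfin : Finite {c' : Pic0 k F // (σ ^ n) • c' = c'} :=
    h73_finite_inv_class hx (Nat.mul_pos he hn) (σ ^ n) hσn (hper.pow n) P₀
      (h73_pow_smul_fixed σ P₀ hP₀ n)
  -- the multiples of `c` are fixed by `σ ^ n`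
  have hfix : ∀ j : ℕ, (σ ^ n) • (j • c) = j • c := by
    intro j
    have h1 := map_nsmul (DistribSMul.toAddMonoidHom (Pic0 k F) (σ ^ n)) j c
    rw [DistribSMul.toAddMonoidHom_apply, DistribSMul.toAddMonoidHom_apply, hc] at h1
    exact h1
  obtain ⟨i, j, hij, h⟩ := Finite.exists_ne_map_eq_of_infinite
    (fun j : ℕ => (⟨j • c, hfix j⟩ : {c' : Pic0 k F // (σ ^ n) • c' = c'}))
  have h' : i • c = j • c := congrArg Subtype.val h
  rcases Nat.lt_or_gt_of_ne hij with hlt | hlt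
  · refine ⟨j - i, Nat.sub_pos_of_lt hlt, ?_⟩
    rw [sub_nsmul c hlt.le, h', add_neg_cancel]
  · refine ⟨i - j, Nat.sub_pos_of_lt hlt, ?_⟩
    rw [sub_nsmul c hlt.le, h', add_neg_cancel]

/-- `Pic⁰` over a field algebraic over `𝔽_p` is `m`-divisible for `p ∤ m`, given the count of
`ℓ`-power torsion for the primes `ℓ ∣ m`. -/
theorem h56_pic0_divisible_charp (p : ℕ) [Fact p.Prime] {k F : Type*} [Field k] [IsAlgClosed k]
    [CharP k p] (halg : ∀ a : k, ∃ n : ℕ, 0 < n ∧ a ^ (p ^ n) = a) [Field F] [Algebra k F]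
    {x : F} (hx : h75_IsChart k x) (m : ℕ) (hm : m ≠ 0)
    (hcount : ∀ ℓ : ℕ, ℓ.Prime → ℓ ∣ m → h15_GoodAny k F ℓ) (c : Pic0 k F) :
    ∃ γ : Pic0 k F, m • γ = c := by
  refine h56_divisible_of_torsion_card (h56_pic0_torsion_charp p halg hx)
    (fun n => Pic0.torsion k F n) (fun n y => Pic0.mem_torsion) m hm ?_ c
  intro ℓ hℓ hdvd
  exact ⟨2 * h75_genus k x, fun j => hcount ℓ hℓ hdvd x hx j⟩

end Fermat.Agent.S17
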