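import Mathlib
import Fermat.Agent.S17.h58_VF

/-!
# S17 / R55 row VDM (helper58): the image of `h58_T` as a product of subspaces, frame-free

`F` a field extension of `K`; `vec0`, `vec2`, `vecM` the linear maps "coordinate vector ↦
function" for `V_{M0}`, `V_{M''}`, `V_M`, and `mu` the product in coordinates:
`vecM (mu f τ) = (∏ j, vec0 (f j)) * vec2 τ`.  Then

* `h58_range_T_map` : `vecM '' range (h58_T mu y) = (∏ j, span {y_j k • b l - y_j l • b k}) * V_{M''}`
  with `b i = vec0 (Pi.single i 1)` (the left factor is the span of `h33_rk_curve`);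
* `h58_finrank_range_T` : the dimensions agree (`vecM` injective), so (RK) is a statement about
  products of subspaces of `F`;
* `h58_surj_of_mul` : (SURJ) from `V_{M0}^a * V_{M''} = V_M`.
-/

set_option autoImplicit false

noncomputable section

namespace Fermat.Agent.S17

open Matrix

variable {K : Type*} [Field K] {F : Type*} [Field F] [Algebra K F] {a n0 n2 n : ℕ}
  (mu : MultilinearMap K (fun _ : Fin a => Fin n0 → K) ((Fin n2 → K) →ₗ[K] (Fin n → K)))
  (vec0 : (Fin n0 → K) →ₗ[K] F) (vec2 : (Fin n2 → K) →ₗ[K] F) (vecM : (Fin n → K) →ₗ[K] F)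

omit [Field F] in
theorem h58_lf_eq (y : Fin n0 → K) (κ : Fin n0 × Fin n0) :
    h58_lf y κ = y κ.1 • (Pi.single κ.2 (1 : K) : Fin n0 → K) -
      y κ.2 • (Pi.single κ.1 (1 : K) : Fin n0 → K) := by
  funext s
  simp [h58_lf, Pi.single_apply]

theorem h58_vec_lf (y : Fin n0 → K) (κ : Fin n0 × Fin n0) :
    vec0 (h58_lf y κ) = y κ.1 • vec0 (Pi.single κ.2 1) - y κ.2 • vec0 (Pi.single κ.1 1) := by
  rw [h58_lf_eq, map_sub, map_smul, map_smul]

theorem h58_prod_mem_prod {ι : Type*} (s : Finset ι) (P : ι → Submodule K F) (x : ι → F)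
    (h : ∀ i ∈ s, x i ∈ P i) : ∏ i ∈ s, x i ∈ ∏ i ∈ s, P i := by
  classical
  induction s using Finset.induction with
  | empty =>
    rw [Finset.prod_empty, Finset.prod_empty, Submodule.one_eq_span]
    exact Submodule.subset_span rfl
  | insert i s hi ih =>
    rw [Finset.prod_insert hi, Finset.prod_insert hi]
    exact Submodule.mul_mem_mul (h i (Finset.mem_insert_self i s))
      (ih fun j hj => h j (Finset.mem_insert_of_mem hj))

/-- the image of `T` is the product of the spans of the linear forms through the `y j` times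
`V_{M''}`. -/
theorem h58_range_T_map (hmu : ∀ f τ, vecM (mu f τ) = (∏ j, vec0 (f j)) * vec2 τ)
    (y : Fin a → Fin n0 → K) :
    (LinearMap.range (h58_T mu y)).map vecM =
      (∏ j : Fin a, Submodule.span K (Set.range fun p : Fin n0 × Fin n0 =>
        y j p.1 • vec0 (Pi.single p.2 1) - y j p.2 • vec0 (Pi.single p.1 1))) *
        LinearMap.range vec2 := by
  apply le_antisymm
  · rintro _ ⟨_, ⟨τ, rfl⟩, rfl⟩
    rw [h58_T_apply, map_sum]
    refine Submodule.sum_mem _ fun κ _ => ?_
    rw [hmu]
    refine Submodule.mul_mem_mul ?_ (LinearMap.mem_range_self _ _)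
    refine h58_prod_mem_prod Finset.univ _ _ fun j _ => ?_
    rw [h58_vec_lf]
    exact Submodule.subset_span ⟨κ j, rfl⟩
  · rw [Submodule.prod_span, ← Submodule.span_eq (LinearMap.range vec2), Submodule.span_mul_span,
      Submodule.span_le]
    rintro _ ⟨u, hu, _, ⟨τ, rfl⟩, rfl⟩
    rw [Set.mem_finsetProd] at hu
    obtain ⟨g, hg, rfl⟩ := hu
    choose κ hκ using fun j => hg (Finset.mem_univ j)
    refine ⟨h58_T mu y (Pi.single κ τ), LinearMap.mem_range_self _ _, ?_⟩
    rw [h58_T_single, hmu]
    show (∏ j, vec0 (h58_lf (y j) (κ j))) * vec2 τ = (∏ j, g j) * vec2 τ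
    congr 1
    refine Finset.prod_congr rfl fun j _ => ?_
    rw [h58_vec_lf]
    exact hκ j

theorem h58_finrank_range_T (hinj : Function.Injective vecM)
    (hmu : ∀ f τ, vecM (mu f τ) = (∏ j, vec0 (f j)) * vec2 τ) (y : Fin a → Fin n0 → K) :
    Module.finrank K (LinearMap.range (h58_T mu y)) =
      Module.finrank K ↥((∏ j : Fin a, Submodule.span K (Set.range fun p : Fin n0 × Fin n0 =>
        y j p.1 • vec0 (Pi.single p.2 1) - y j p.2 • vec0 (Pi.single p.1 1))) *
        LinearMap.range vec2) := by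
  rw [← h58_range_T_map mu vec0 vec2 vecM hmu y]
  exact (Submodule.equivMapOfInjective vecM hinj _).finrank_eq

/-- (SURJ) from `V_{M0}^a * V_{M''} = V_M`. -/
theorem h58_surj_of_mul (hinj : Function.Injective vecM)
    (hmu : ∀ f τ, vecM (mu f τ) = (∏ j, vec0 (f j)) * vec2 τ)
    (hprod : LinearMap.range vecM ≤ (LinearMap.range vec0) ^ a * LinearMap.range vec2) :
    Submodule.span K (Set.range fun p : (Fin a → Fin n0) × Fin n2 =>
      mu (fun m => Pi.single (p.1 m) 1) (Pi.single p.2 1)) = ⊤ := by
  set S : Submodule K (Fin n → K) := Submodule.span K (Set.range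
    fun p : (Fin a → Fin n0) × Fin n2 => mu (fun m => Pi.single (p.1 m) 1) (Pi.single p.2 1))
    with hS
  -- every value of `mu` is in `S`
  have hmem : ∀ f τ, mu f τ ∈ S := by
    intro f τ
    rw [h58_mu_expand mu f τ]
    refine Submodule.sum_mem _ fun s _ => Submodule.sum_mem _ fun j _ => ?_
    exact Submodule.smul_mem _ _ (Submodule.subset_span ⟨(s, j), rfl⟩)
  -- the product of subspaces is inside `vecM '' S`
  have hle : (LinearMap.range vec0) ^ a * LinearMap.range vec2 ≤ S.map vecM := by
    have e : (LinearMap.range vec0) ^ a = ∏ _j : Fin a, LinearMap.range vec0 := by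
      rw [Finset.prod_const, Finset.card_univ, Fintype.card_fin]
    rw [e]
    have e2 : ∀ j : Fin a, LinearMap.range vec0 =
        Submodule.span K ((fun _ : Fin a => ((LinearMap.range vec0 : Submodule K F) : Set F)) j) :=
      fun j => (Submodule.span_eq _).symm
    rw [Finset.prod_congr rfl fun j _ => e2 j, Submodule.prod_span,
      ← Submodule.span_eq (LinearMap.range vec2), Submodule.span_mul_span, Submodule.span_le]
    rintro _ ⟨u, hu, _, ⟨τ, rfl⟩, rfl⟩
    rw [Set.mem_finsetProd] at hu
    obtain ⟨g, hg, rfl⟩ := hu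
    choose f hf using fun j => hg (Finset.mem_univ j)
    refine ⟨mu f τ, hmem f τ, ?_⟩
    rw [hmu]
    congr 1
    exact Finset.prod_congr rfl fun j _ => hf j
  rw [eq_top_iff]
  intro t _
  obtain ⟨t', ht', he⟩ := hle (hprod (LinearMap.mem_range_self vecM t))
  rw [← hinj he]
  exact ht'

end Fermat.Agent.S17
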