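import Mathlib
import Fermat.Agent.S17.h58_VDM
import Fermat.Agent.S17.h55_Frame

/-!
# S17 / R55 row VDM (helper58): from the two-sided product bound to the logarithmic form

* `h58_wedge_eq_mnorm` : the wedge norm is the max-norm of the `2 × n0` matrix `![y, η]`;
* `h58_log_form` : the abstract translation
  `R ≤ c m`, `m ≤ c R`  ⟹  `|log m - ∑ log ‖β_j‖ - ∑_{i<j} log d(η_i, η_j)| ≤ log c`;
* `h58_vdm_frame_of` : the same for a frame `fr : h55_Frame F`, in exactly the shape of the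
  skeleton statement `h55_vdm` (the two-sided bounds for the point data
  `⟨fr.pt M0 P, η2 P, fr.pt M P⟩` are a hypothesis).
-/

set_option autoImplicit false

noncomputable section

open AlgebraicCurve

namespace Fermat.Agent.S17

open Fermat.Agent.S18 Fermat.Agent.S27 Matrix

section abstract

variable {K : Type*} [Field K]

theorem h58_wedge_eq_mnorm (v : AbsoluteValue K ℝ) {n0 : ℕ} (y η : Fin n0 → K) :
    h58_wedge v y η = h86_mnorm v (Matrix.of ![y, η]) := by
  have hdet : ∀ f : Fin 2 → Fin n0, ((Matrix.of ![y, η]).submatrix id f).det =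
      y (f 0) * η (f 1) - y (f 1) * η (f 0) := by
    intro f
    rw [Matrix.det_fin_two]
    simp [Matrix.submatrix_apply]
  apply le_antisymm
  · refine h58_wedge_le v y η (h86_mnorm_nonneg v _) fun κ => ?_
    have h := h86_le_mnorm v (Matrix.of ![y, η]) ![κ.1, κ.2]
    rw [hdet] at h
    simpa using h
  · refine h86_mnorm_le v _ (h58_wedge_nonneg v y η) fun f => ?_
    rw [hdet]
    exact h58_le_wedge v y η (f 0, f 1)

theorem h58_log_form (v : AbsoluteValue K ℝ) {n0 n : ℕ} {n2 : ℕ → ℕ} {a : ℕ}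
    (P : Fin a → h58_Pt K n0 n n2) {c : ℝ} (hc : 1 ≤ c)
    (hβ : ∀ j, 0 < h86_vnorm v (P j).β)
    (hd : ∀ i j, i < j → 0 < h58_dist v (P i).η (P j).η)
    (hl : h58_R v P ≤ c * h86_mnorm v (h58_E P))
    (hu : h86_mnorm v (h58_E P) ≤ c * h58_R v P) :
    |Real.log (h86_mnorm v (h58_E P)) - ∑ j, Real.log (h86_vnorm v (P j).β)
      - ∑ i, ∑ j, (if i < j then Real.log (h58_dist v (P i).η (P j).η) else 0)| ≤ Real.log c := by
  have hc0 : 0 < c := lt_of_lt_of_le zero_lt_one hc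
  have hterm : ∀ i j : Fin a, (if i < j then h58_dist v (P i).η (P j).η else 1) ≠ 0 := by
    intro i j
    split_ifs with h
    · exact (hd i j h).ne'
    · exact one_ne_zero
  have hpp : h58_pairProd (fun p q : h58_Pt K n0 n n2 => h58_dist v p.η q.η) P ≠ 0 := by
    unfold h58_pairProd
    exact Finset.prod_ne_zero_iff.mpr fun i _ => Finset.prod_ne_zero_iff.mpr fun j _ => hterm i j
  have hpb : ∏ j, h86_vnorm v (P j).β ≠ 0 := Finset.prod_ne_zero_iff.mpr fun j _ => (hβ j).ne'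
  have hR : Real.log (h58_R v P) = ∑ j, Real.log (h86_vnorm v (P j).β)
      + ∑ i, ∑ j, (if i < j then Real.log (h58_dist v (P i).η (P j).η) else 0) := by
    unfold h58_R
    rw [Real.log_mul hpb hpp, Real.log_prod (fun j _ => (hβ j).ne')]
    congr 1
    unfold h58_pairProd
    rw [Real.log_prod (fun i _ => Finset.prod_ne_zero_iff.mpr fun j _ => hterm i j)]
    refine Finset.sum_congr rfl fun i _ => ?_
    rw [Real.log_prod (fun j _ => hterm i j)]
    refine Finset.sum_congr rfl fun j _ => ?_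
    split_ifs
    · rfl
    · exact Real.log_one
  have hRpos : 0 < h58_R v P := lt_of_le_of_ne (h58_R_nonneg v P) (Ne.symm (mul_ne_zero hpb hpp))
  have hmpos : 0 < h86_mnorm v (h58_E P) := by
    by_contra h
    push Not at h
    have : c * h86_mnorm v (h58_E P) ≤ 0 := mul_nonpos_of_nonneg_of_nonpos hc0.le h
    linarith
  have h1 : Real.log (h58_R v P) ≤ Real.log c + Real.log (h86_mnorm v (h58_E P)) := by
    rw [← Real.log_mul hc0.ne' hmpos.ne']
    exact Real.log_le_log hRpos hl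
  have h2 : Real.log (h86_mnorm v (h58_E P)) ≤ Real.log c + Real.log (h58_R v P) := by
    rw [← Real.log_mul hc0.ne' hRpos.ne']
    exact Real.log_le_log hmpos hu
  rw [sub_sub, ← hR, abs_le]
  constructor <;> linarith

end abstract

section frame

local notation "Qbar" => AlgebraicClosure ℚ

variable {F : Type} [Field F] [Algebra Qbar F] (fr : h55_Frame F)

/-- the point data of a place in the frame. -/
def h58_framePt (M0 M : ℕ) (n2 : ℕ → ℕ) (η2 : ∀ a : ℕ, Place Qbar F → Fin (n2 a) → Qbar)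
    (P : Place Qbar F) : h58_Pt Qbar (fr.n M0) (fr.n M) n2 :=
  ⟨fr.pt M0 P, fun a => η2 a P, fr.pt M P⟩

theorem h58_E_framePt (M0 M : ℕ) (n2 : ℕ → ℕ) (η2 : ∀ a : ℕ, Place Qbar F → Fin (n2 a) → Qbar)
    {a : ℕ} (P : Fin a → Place Qbar F) :
    h58_E (fun j => h58_framePt fr M0 M n2 η2 (P j)) = fr.E M P := rfl

theorem h58_dist_frame (M0 : ℕ) (w : h55_Pl) (P Q : Place Qbar F) :
    h58_dist (h55_av w) (fr.pt M0 P) (fr.pt M0 Q) = fr.dist M0 w P Q := by
  unfold h58_dist h55_Frame.dist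
  rw [h58_wedge_eq_mnorm]
  have e : (Matrix.of ![fr.pt M0 P, fr.pt M0 Q] : Matrix (Fin 2) (Fin (fr.n M0)) Qbar) =
      fr.E M0 ![P, Q] := by
    ext i j
    fin_cases i <;> rfl
  rw [e]
  rfl

/-- **Row VDM, formal half**: the two-sided product bound of `h58_vdm` for the point data of
the frame gives the statement of `h55_vdm`. -/
theorem h58_vdm_frame_of (M0 M amax : ℕ) (n2 : ℕ → ℕ)
    (η2 : ∀ a : ℕ, Place Qbar F → Fin (n2 a) → Qbar)
    (hpt : ∀ P : Place Qbar F, P ≠ fr.inf → fr.pt M P ≠ 0)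
    (hpt0 : ∀ P : Place Qbar F, P ≠ fr.inf → fr.pt M0 P ≠ 0)
    (hsep : ∀ P Q : Place Qbar F, fr.IsAdm ![P, Q] →
      ∃ f : Fin 2 → Fin (fr.n M0), ((fr.E M0 ![P, Q]).submatrix id f).det ≠ 0)
    (c : h55_Pl → ℝ) (hc1 : ∀ w, 1 ≤ c w)
    (hvdm : ∀ (w : h55_Pl) (a : ℕ), a ≤ amax → ∀ P : Fin a → Place Qbar F, fr.IsAdm P →
      h58_R (h55_av w) (fun j => h58_framePt fr M0 M n2 η2 (P j)) ≤
          c w * h86_mnorm (h55_av w) (h58_E fun j => h58_framePt fr M0 M n2 η2 (P j)) ∧
        h86_mnorm (h55_av w) (h58_E fun j => h58_framePt fr M0 M n2 η2 (P j)) ≤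
          c w * h58_R (h55_av w) (fun j => h58_framePt fr M0 M n2 η2 (P j)))
    (w : h55_Pl) (a : ℕ) (P : Fin a → Place Qbar F) (ha : a ≤ amax) (hP : fr.IsAdm P) :
    |fr.Gloc M w P - ∑ j, Real.log (h55_nrm w (fr.pt M (P j)))
      - ∑ i, ∑ j, (if i < j then Real.log (fr.dist M0 w (P i) (P j)) else 0)|
      ≤ Real.log (c w) := by
  obtain ⟨hl, hu⟩ := hvdm w a ha P hP
  have hβ : ∀ j, 0 < h86_vnorm (h55_av w) (h58_framePt fr M0 M n2 η2 (P j)).β :=
    fun j => h58_vnorm_pos _ (hpt _ (hP.2 j))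
  have hd : ∀ i j, i < j → 0 < h58_dist (h55_av w) (h58_framePt fr M0 M n2 η2 (P i)).η
      (h58_framePt fr M0 M n2 η2 (P j)).η := by
    intro i j hij
    have hadm : fr.IsAdm ![P i, P j] := by
      refine ⟨?_, ?_⟩
      · intro x y hxy
        fin_cases x <;> fin_cases y
        · rfl
        · exact absurd (hP.1 hxy) (ne_of_lt hij)
        · exact absurd (hP.1 hxy) (ne_of_gt hij)
        · rfl
      · intro k
        fin_cases k
        · exact hP.2 i
        · exact hP.2 j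
    show 0 < h58_dist (h55_av w) (fr.pt M0 (P i)) (fr.pt M0 (P j))
    unfold h58_dist
    refine div_pos ?_ (mul_pos (h58_vnorm_pos _ (hpt0 _ (hP.2 i)))
      (h58_vnorm_pos _ (hpt0 _ (hP.2 j))))
    rw [h58_wedge_eq_mnorm]
    have e : (Matrix.of ![fr.pt M0 (P i), fr.pt M0 (P j)] :
        Matrix (Fin 2) (Fin (fr.n M0)) Qbar) = fr.E M0 ![P i, P j] := by
      ext x y
      fin_cases x <;> rfl
    rw [e]
    exact h86_mnorm_pos _ _ (hsep _ _ hadm)
  have h := h58_log_form (h55_av w) (fun j => h58_framePt fr M0 M n2 η2 (P j)) (hc1 w) hβ hd hl hu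
  have e1 : ∀ i j : Fin a, h58_dist (h55_av w) (h58_framePt fr M0 M n2 η2 (P i)).η
      (h58_framePt fr M0 M n2 η2 (P j)).η = fr.dist M0 w (P i) (P j) :=
    fun i j => h58_dist_frame fr M0 w (P i) (P j)
  simp only [e1] at h
  exact h

end frame

end Fermat.Agent.S17
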