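import Mathlib
import Fermat.Agent.S17.h55_Places
import Fermat.Agent.S17.h59_Cramer

/-!
# S17 (helper59): CERT / CHART / CRAMER at the places `h55_av` of `ℚ̄`

The generic statements of `h59_Cert.lean` and `h59_Cramer.lean`, instantiated at helper55's
family `h55_av : h55_Pl → AbsoluteValue (AlgebraicClosure ℚ) ℝ` (one absolute value of `ℚ̄` per
place of `ℚ`).
-/

set_option autoImplicit false

noncomputable section

namespace Fermat.Agent.S17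

open MvPolynomial Matrix

/-- every nonzero algebraic number is a unit at almost all places. -/
theorem h59_h55_aa : ∀ α : AlgebraicClosure ℚ, α ≠ 0 → {w : h55_Pl | h55_av w α ≠ 1}.Finite :=
  fun _ hα => h55_finite_ne_one hα

/-- all places but the archimedean one are nonarchimedean. -/
theorem h59_h55_nonarch : {w : h55_Pl | ¬ IsNonarchimedean (h55_av w)}.Finite := by
  refine (Set.finite_singleton (none : h55_Pl)).subset fun w hw => ?_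
  cases w with
  | none => rfl
  | some p => exact absurd (h55_av_nonarch p) hw

variable {σ : Type*} [Finite σ]

/-- (CERT) at the places of `ℚ̄`. -/
theorem h59_cert_h55 {ι : Type*} [Fintype ι]
    (F : ι → MvPolynomial σ (AlgebraicClosure ℚ)) (G : MvPolynomial σ (AlgebraicClosure ℚ))
    (hG : ∀ y : σ → AlgebraicClosure ℚ, (∀ i, eval y (F i) = 0) → eval y G = 0) :
    ∃ e : ℕ, 0 < e ∧ ∃ c : h55_Pl → ℝ, (∀ w, 1 ≤ c w) ∧ {w | c w ≠ 1}.Finite ∧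
      ∀ (w : h55_Pl) (y : σ → AlgebraicClosure ℚ), (∀ s, h55_av w (y s) ≤ 1) → ∀ B : ℝ, 0 ≤ B →
        (∀ i, h55_av w (eval y (F i)) ≤ B) → h55_av w (eval y G) ^ e ≤ c w * B :=
  h59_cert h55_av h59_h55_aa h59_h55_nonarch F G hG

/-- (CERT1) at the places of `ℚ̄`. -/
theorem h59_cert_one_h55 {ι : Type*} [Fintype ι]
    (F : ι → MvPolynomial σ (AlgebraicClosure ℚ))
    (hF : ∀ y : σ → AlgebraicClosure ℚ, ∃ i, eval y (F i) ≠ 0) :
    ∃ c : h55_Pl → ℝ, (∀ w, 1 ≤ c w) ∧ {w | c w ≠ 1}.Finite ∧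
      ∀ (w : h55_Pl) (y : σ → AlgebraicClosure ℚ), (∀ s, h55_av w (y s) ≤ 1) →
        ∃ i, 1 ≤ c w * h55_av w (eval y (F i)) :=
  h59_cert_one h55_av h59_h55_aa h59_h55_nonarch F hF

/-- (CHART) at the places of `ℚ̄`. -/
theorem h59_cert_chart_h55 {β : Type*} (ν : σ → β) {ι κ : Type*} [Fintype ι] [Fintype κ]
    (F : ι → MvPolynomial σ (AlgebraicClosure ℚ)) (G : κ → MvPolynomial σ (AlgebraicClosure ℚ))
    (hFG : ∀ y : σ → AlgebraicClosure ℚ, (∀ s₀, ∃ s, ν s = ν s₀ ∧ y s ≠ 0) →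
      (∀ i, eval y (F i) = 0) → ∃ k, eval y (G k) ≠ 0) :
    ∃ c : h55_Pl → ℝ, (∀ w, 1 ≤ c w) ∧ {w | c w ≠ 1}.Finite ∧
      ∀ (w : h55_Pl) (y : σ → AlgebraicClosure ℚ), (∀ s, h55_av w (y s) ≤ 1) →
        (∀ s₀, ∃ s, ν s = ν s₀ ∧ y s = 1) → (∀ i, eval y (F i) = 0) →
        ∃ k, 1 ≤ c w * h55_av w (eval y (G k)) :=
  h59_cert_chart h55_av h59_h55_aa h59_h55_nonarch ν F G hFG

/-- (CRAMER) at the places of `ℚ̄`. -/
theorem h59_cramer_h55 {β : Type*} (ν : σ → β) {ι : Type*} [Fintype ι]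
    (F : ι → MvPolynomial σ (AlgebraicClosure ℚ))
    {m n : Type*} [Fintype m] [Fintype n] (T : Matrix m n (MvPolynomial σ (AlgebraicClosure ℚ)))
    (ρ : ℕ)
    (hT : ∀ y : σ → AlgebraicClosure ℚ, (∀ s₀, ∃ s, ν s = ν s₀ ∧ y s ≠ 0) →
      (∀ i, eval y (F i) = 0) → (T.map (eval y)).rank = ρ) :
    ∃ c : h55_Pl → ℝ, (∀ w, 1 ≤ c w) ∧ {w | c w ≠ 1}.Finite ∧
      ∀ (w : h55_Pl) (y : σ → AlgebraicClosure ℚ), (∀ s, h55_av w (y s) ≤ 1) →
        (∀ s₀, ∃ s, ν s = ν s₀ ∧ y s = 1) → (∀ i, eval y (F i) = 0) →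
        ∀ τ₀ : n → AlgebraicClosure ℚ, ∃ τ : n → AlgebraicClosure ℚ,
          (T.map (eval y)) *ᵥ τ = (T.map (eval y)) *ᵥ τ₀ ∧
          ∀ B : ℝ, 0 ≤ B → (∀ i, h55_av w (((T.map (eval y)) *ᵥ τ₀) i) ≤ B) →
            ∀ j, h55_av w (τ j) ≤ c w * B :=
  h59_cramer h55_av h59_h55_aa h59_h55_nonarch ν F T ρ hT

end Fermat.Agent.S17
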