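import Fermat.Agent.S17.h59_MvGauss

/-!
# S17 foundation (helper59): heights of multivariate polynomials

For a field `K` with an admissible family of absolute values (Mathlib's `Height`), the height
`h59_mulHt p` of a nonzero polynomial `p : MvPolynomial σ K` is the projective height of its
coefficient vector.  Global Gauss / Gelfond:

* `h59_mulHt_mul_le` : `H(p q) ≤ #supp(p) ^ w * H(p) * H(q)`;
* `h59_mulHt_mul_ge` : `H(p) * H(q) ≤ C(S, S') ^ w * H(p q)` for `p`, `q` supported in the finite
  sets of monomials `S`, `S'` (`w` the number of archimedean absolute values with multiplicity),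
  when the archimedean absolute values are induced by ring homomorphisms to `ℂ`
  (`h59_arch_hom` : true for number fields);
* logarithmic forms `h59_logHt_mul_le`, `h59_logHt_mul_ge`.
-/

set_option autoImplicit false

noncomputable section

namespace Fermat.Agent.S17

open MvPolynomial Height AdmissibleAbsValues

section Ht

variable {K : Type*} [Field K] [AdmissibleAbsValues K] {σ : Type*}

/-- The multiplicative height of a polynomial: the product over all places of its Gauss norms
(for `p ≠ 0` this is the projective height of the coefficient vector). -/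
def h59_mulHt (p : MvPolynomial σ K) : ℝ :=
  ((archAbsVal (K := K)).map fun v => h59_gnorm v p).prod *
    ∏ᶠ v : nonarchAbsVal (K := K), h59_gnorm v.val p

/-- The logarithmic height of a polynomial. -/
def h59_logHt (p : MvPolynomial σ K) : ℝ := Real.log (h59_mulHt p)

theorem h59_hasFiniteMulSupport_gnorm {p : MvPolynomial σ K} (hp : p ≠ 0) :
    (fun v : nonarchAbsVal (K := K) => h59_gnorm v.val p).HasFiniteMulSupport := by
  have hfin : (⋃ m ∈ p.support,
      Function.mulSupport fun v : nonarchAbsVal (K := K) => v.val (coeff m p)).Finite := by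
    refine Set.Finite.biUnion p.support.finite_toSet fun m hm => ?_
    exact hasFiniteMulSupport (MvPolynomial.mem_support_iff.mp hm)
  refine hfin.subset fun v hv => ?_
  rw [Function.mem_mulSupport] at hv
  by_contra hnot
  apply hv
  obtain ⟨m, hm, h⟩ := h59_exists_eq_gnorm v.val hp
  rw [← h]
  by_contra h1
  exact hnot (Set.mem_biUnion hm (Function.mem_mulSupport.mpr h1))

theorem h59_mulHt_pos {p : MvPolynomial σ K} (hp : p ≠ 0) : 0 < h59_mulHt p := by
  unfold h59_mulHt
  refine mul_pos (Multiset.prod_pos ?_) ?_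
  · intro a ha
    obtain ⟨v, -, rfl⟩ := Multiset.mem_map.mp ha
    exact h59_gnorm_pos v hp
  · exact finprod_induction (fun x : ℝ => 0 < x) zero_lt_one (fun _ _ => mul_pos)
      fun v => h59_gnorm_pos v.val hp

/-- the height of a polynomial is the height of its coefficient vector on any finite set of
monomials containing the support. -/
theorem h59_mulHt_eq_mulHeight {p : MvPolynomial σ K} (hp : p ≠ 0) (S : Finset (σ →₀ ℕ))
    (hS : p.support ⊆ S) :
    h59_mulHt p = Height.mulHeight (fun i : S => coeff (i : σ →₀ ℕ) p) := by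
  have hx : (fun i : S => coeff (i : σ →₀ ℕ) p) ≠ 0 := by
    obtain ⟨m, hm⟩ := MvPolynomial.ne_zero_iff.mp hp
    intro h0
    have hmS : m ∈ S := hS (MvPolynomial.mem_support_iff.mpr hm)
    exact hm (congrFun h0 ⟨m, hmS⟩)
  have key : ∀ v : AbsoluteValue K ℝ, h59_gnorm v p = ⨆ i : S, v (coeff (i : σ →₀ ℕ) p) := by
    intro v
    apply le_antisymm
    · obtain ⟨m, hm, h⟩ := h59_exists_eq_gnorm v hp
      rw [← h]
      exact Finite.le_ciSup_of_le (⟨m, hS hm⟩ : S) le_rfl
    · exact Real.iSup_le (fun i => h59_le_gnorm v p i) (h59_gnorm_nonneg v p)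
  rw [Height.mulHeight_eq hx, h59_mulHt]
  simp only [key]

theorem h59_mulHt_mul_le (p q : MvPolynomial σ K) (hp : p ≠ 0) (hq : q ≠ 0) :
    h59_mulHt (p * q) ≤ (p.support.card : ℝ) ^ totalWeight K * (h59_mulHt p * h59_mulHt q) := by
  have hpq : p * q ≠ 0 := mul_ne_zero hp hq
  unfold h59_mulHt
  have hna : ∏ᶠ v : nonarchAbsVal (K := K), h59_gnorm v.val (p * q)
      = (∏ᶠ v : nonarchAbsVal (K := K), h59_gnorm v.val p) *
        ∏ᶠ v : nonarchAbsVal (K := K), h59_gnorm v.val q := by
    rw [← finprod_mul_distrib (h59_hasFiniteMulSupport_gnorm hp)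
      (h59_hasFiniteMulSupport_gnorm hq)]
    exact finprod_congr fun v => h59_gnorm_mul_of_nonarch v.val (isNonarchimedean v.val v.2) p q
  have harch : ((archAbsVal (K := K)).map fun v => h59_gnorm v (p * q)).prod
      ≤ (p.support.card : ℝ) ^ totalWeight K *
        (((archAbsVal (K := K)).map fun v => h59_gnorm v p).prod *
          ((archAbsVal (K := K)).map fun v => h59_gnorm v q).prod) := by
    have h1 := Multiset.prod_map_le_prod_map₀ (s := archAbsVal (K := K))
      (fun v => h59_gnorm v (p * q))
      (fun v => (p.support.card : ℝ) * (h59_gnorm v p * h59_gnorm v q))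
      (fun v _ => h59_gnorm_nonneg v _) (fun v _ => h59_gnorm_mul_le v p q)
    rw [Multiset.prod_map_mul, Multiset.prod_map_mul, Multiset.map_const',
      Multiset.prod_replicate] at h1
    exact h1
  have hnn : 0 ≤ ∏ᶠ v : nonarchAbsVal (K := K), h59_gnorm v.val (p * q) :=
    finprod_nonneg fun v => h59_gnorm_nonneg v.val _
  calc ((archAbsVal (K := K)).map fun v => h59_gnorm v (p * q)).prod *
        ∏ᶠ v : nonarchAbsVal (K := K), h59_gnorm v.val (p * q)
      ≤ ((p.support.card : ℝ) ^ totalWeight K *
        (((archAbsVal (K := K)).map fun v => h59_gnorm v p).prod *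
          ((archAbsVal (K := K)).map fun v => h59_gnorm v q).prod)) *
        ∏ᶠ v : nonarchAbsVal (K := K), h59_gnorm v.val (p * q) :=
        mul_le_mul_of_nonneg_right harch hnn
    _ = _ := by
        rw [hna]
        unfold totalWeight
        ring

theorem h59_mulHt_mul_ge
    (harch : ∀ v ∈ archAbsVal (K := K), ∃ φ : K →+* ℂ, ∀ x, v x = ‖φ x‖)
    (S S' : Finset (σ →₀ ℕ)) (p q : MvPolynomial σ K) (hp0 : p ≠ 0) (hq0 : q ≠ 0)
    (hp : p.support ⊆ S) (hq : q.support ⊆ S') :
    h59_mulHt p * h59_mulHt q ≤ h59_gelfondConst S S' ^ totalWeight K * h59_mulHt (p * q) := by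
  have hpq : p * q ≠ 0 := mul_ne_zero hp0 hq0
  unfold h59_mulHt
  have hna : ∏ᶠ v : nonarchAbsVal (K := K), h59_gnorm v.val (p * q)
      = (∏ᶠ v : nonarchAbsVal (K := K), h59_gnorm v.val p) *
        ∏ᶠ v : nonarchAbsVal (K := K), h59_gnorm v.val q := by
    rw [← finprod_mul_distrib (h59_hasFiniteMulSupport_gnorm hp0)
      (h59_hasFiniteMulSupport_gnorm hq0)]
    exact finprod_congr fun v => h59_gnorm_mul_of_nonarch v.val (isNonarchimedean v.val v.2) p q
  have ha : ((archAbsVal (K := K)).map fun v => h59_gnorm v p).prod *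
        ((archAbsVal (K := K)).map fun v => h59_gnorm v q).prod
      ≤ h59_gelfondConst S S' ^ totalWeight K *
        ((archAbsVal (K := K)).map fun v => h59_gnorm v (p * q)).prod := by
    have h1 := Multiset.prod_map_le_prod_map₀ (s := archAbsVal (K := K))
      (fun v => h59_gnorm v p * h59_gnorm v q)
      (fun v => h59_gelfondConst S S' * h59_gnorm v (p * q))
      (fun v _ => mul_nonneg (h59_gnorm_nonneg v _) (h59_gnorm_nonneg v _))
      (fun v hv => by
        obtain ⟨φ, hφ⟩ := harch v hv
        exact h59_gelfond_of_hom v φ hφ S S' p q hp hq)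
    rw [Multiset.prod_map_mul, Multiset.prod_map_mul, Multiset.map_const',
      Multiset.prod_replicate] at h1
    exact h1
  have hnn : 0 ≤ ∏ᶠ v : nonarchAbsVal (K := K), h59_gnorm v.val (p * q) :=
    finprod_nonneg fun v => h59_gnorm_nonneg v.val _
  calc ((archAbsVal (K := K)).map fun v => h59_gnorm v p).prod *
          (∏ᶠ v : nonarchAbsVal (K := K), h59_gnorm v.val p) *
        (((archAbsVal (K := K)).map fun v => h59_gnorm v q).prod *
          ∏ᶠ v : nonarchAbsVal (K := K), h59_gnorm v.val q)
      = (((archAbsVal (K := K)).map fun v => h59_gnorm v p).prod *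
          ((archAbsVal (K := K)).map fun v => h59_gnorm v q).prod) *
        ∏ᶠ v : nonarchAbsVal (K := K), h59_gnorm v.val (p * q) := by
        rw [hna]
        ring
    _ ≤ (h59_gelfondConst S S' ^ totalWeight K *
          ((archAbsVal (K := K)).map fun v => h59_gnorm v (p * q)).prod) *
        ∏ᶠ v : nonarchAbsVal (K := K), h59_gnorm v.val (p * q) :=
        mul_le_mul_of_nonneg_right ha hnn
    _ = _ := by ring

theorem h59_logHt_mul_le (p q : MvPolynomial σ K) (hp : p ≠ 0) (hq : q ≠ 0) :
    h59_logHt (p * q) ≤ totalWeight K * Real.log p.support.card + h59_logHt p + h59_logHt q := by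
  have hpq : p * q ≠ 0 := mul_ne_zero hp hq
  have hcard : (0 : ℝ) < p.support.card := by
    exact_mod_cast Finset.card_pos.mpr (MvPolynomial.support_nonempty.mpr hp)
  have h := Real.log_le_log (h59_mulHt_pos hpq) (h59_mulHt_mul_le p q hp hq)
  rw [Real.log_mul (pow_pos hcard _).ne' (mul_pos (h59_mulHt_pos hp) (h59_mulHt_pos hq)).ne',
    Real.log_mul (h59_mulHt_pos hp).ne' (h59_mulHt_pos hq).ne', Real.log_pow] at h
  unfold h59_logHt
  linarith

theorem h59_logHt_mul_ge
    (harch : ∀ v ∈ archAbsVal (K := K), ∃ φ : K →+* ℂ, ∀ x, v x = ‖φ x‖)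
    (S S' : Finset (σ →₀ ℕ)) (p q : MvPolynomial σ K) (hp0 : p ≠ 0) (hq0 : q ≠ 0)
    (hp : p.support ⊆ S) (hq : q.support ⊆ S') :
    h59_logHt p + h59_logHt q
      ≤ totalWeight K * Real.log (h59_gelfondConst S S') + h59_logHt (p * q) := by
  have hpq : p * q ≠ 0 := mul_ne_zero hp0 hq0
  have hC := h59_gelfondConst_pos S S'
  have h := Real.log_le_log (mul_pos (h59_mulHt_pos hp0) (h59_mulHt_pos hq0))
    (h59_mulHt_mul_ge harch S S' p q hp0 hq0 hp hq)
  rw [Real.log_mul (h59_mulHt_pos hp0).ne' (h59_mulHt_pos hq0).ne',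
    Real.log_mul (pow_pos hC _).ne' (h59_mulHt_pos hpq).ne', Real.log_pow] at h
  unfold h59_logHt
  linarith

end Ht

section NF

/-- the archimedean absolute values of a number field are induced by its complex embeddings. -/
theorem h59_arch_hom (K : Type*) [Field K] [NumberField K] :
    ∀ v ∈ archAbsVal (K := K), ∃ φ : K →+* ℂ, ∀ x, v x = ‖φ x‖ := by
  intro v hv
  have hv' : NumberField.IsInfinitePlace v := NumberField.mem_multisetInfinitePlace.mp hv
  obtain ⟨φ, rfl⟩ := hv'
  exact ⟨φ, fun x => NumberField.place_apply φ x⟩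

end NF

end Fermat.Agent.S17
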