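import Fermat.Agent.S17.h59_MvHeight

/-!
# S17 foundation (helper59): heights of univariate polynomials, explicit constants

`h59_pnorm v p` : the Gauss norm (maximum of `v` over the coefficients) of `p : K[X]`;
`h59_pmulHt p`, `h59_plogHt p` : the height of the coefficient vector.

* `h59_pnorm_mul_of_nonarch` : Gauss lemma;
* `h59_pnorm_mul_le` : `‖p q‖ ≤ (deg p + 1) ‖p‖ ‖q‖` for any absolute value;
* `h59_pnorm_mul_ge` : Gelfond, `‖p‖ ‖q‖ ≤ 4 ^ (deg p + deg q) ‖p q‖` for an absolute value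
  induced by a ring homomorphism to `ℂ` (Mahler measure);
* `h59_plogHt_mul_le`, `h59_plogHt_mul_ge` :
  `|h(p q) - h(p) - h(q)| ≤ w * (deg p + deg q) * log 4`.
-/

set_option autoImplicit false

noncomputable section

namespace Fermat.Agent.S17

open Polynomial Height AdmissibleAbsValues

section Local

variable {K : Type*} [Field K]

/-- the Gauss norm of a univariate polynomial: the maximum of `v` over its coefficients. -/
def h59_pnorm (v : AbsoluteValue K ℝ) (p : K[X]) : ℝ := p.gaussNorm v 1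

theorem h59_pnorm_nonneg (v : AbsoluteValue K ℝ) (p : K[X]) : 0 ≤ h59_pnorm v p :=
  p.gaussNorm_nonneg v zero_le_one

theorem h59_le_pnorm (v : AbsoluteValue K ℝ) (p : K[X]) (i : ℕ) :
    v (p.coeff i) ≤ h59_pnorm v p := by
  have := p.le_gaussNorm v zero_le_one i
  rwa [one_pow, mul_one] at this

theorem h59_exists_eq_pnorm (v : AbsoluteValue K ℝ) (p : K[X]) :
    ∃ i, h59_pnorm v p = v (p.coeff i) := by
  obtain ⟨i, hi⟩ := p.exists_eq_gaussNorm v 1
  exact ⟨i, by rw [h59_pnorm, hi, one_pow, mul_one]⟩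

theorem h59_pnorm_le (v : AbsoluteValue K ℝ) (p : K[X]) {B : ℝ}
    (h : ∀ i, v (p.coeff i) ≤ B) : h59_pnorm v p ≤ B := by
  obtain ⟨i, hi⟩ := h59_exists_eq_pnorm v p
  rw [hi]
  exact h i

@[simp]
theorem h59_pnorm_zero (v : AbsoluteValue K ℝ) : h59_pnorm v (0 : K[X]) = 0 := by
  simp [h59_pnorm]

theorem h59_pnorm_pos (v : AbsoluteValue K ℝ) {p : K[X]} (hp : p ≠ 0) : 0 < h59_pnorm v p := by
  refine lt_of_le_of_ne (h59_pnorm_nonneg v p) fun h => hp ?_
  exact (p.gaussNorm_eq_zero_iff v (fun x hx => v.eq_zero.mp hx) one_pos).mp h.symm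

/-- **Gauss lemma**. -/
theorem h59_pnorm_mul_of_nonarch (v : AbsoluteValue K ℝ) (hv : IsNonarchimedean v) (p q : K[X]) :
    h59_pnorm v (p * q) = h59_pnorm v p * h59_pnorm v q :=
  Polynomial.gaussNorm_mul hv one_pos p q

/-- the trivial direction, any absolute value. -/
theorem h59_pnorm_mul_le (v : AbsoluteValue K ℝ) (p q : K[X]) :
    h59_pnorm v (p * q) ≤ ((p.natDegree : ℝ) + 1) * (h59_pnorm v p * h59_pnorm v q) := by
  classical
  have hB : 0 ≤ h59_pnorm v p * h59_pnorm v q :=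
    mul_nonneg (h59_pnorm_nonneg v p) (h59_pnorm_nonneg v q)
  refine h59_pnorm_le v _ fun n => ?_
  rw [coeff_mul]
  set s := (Finset.HasAntidiagonal.antidiagonal n).filter (fun x => x.1 ≤ p.natDegree) with hs
  have hsum : ∑ x ∈ Finset.HasAntidiagonal.antidiagonal n, p.coeff x.1 * q.coeff x.2
      = ∑ x ∈ s, p.coeff x.1 * q.coeff x.2 := by
    rw [hs, Finset.sum_filter]
    refine Finset.sum_congr rfl fun x _ => ?_
    split_ifs with h
    · rfl
    · rw [coeff_eq_zero_of_natDegree_lt (not_le.mp h), zero_mul]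
  rw [hsum]
  have hcard : s.card ≤ p.natDegree + 1 := by
    have : s.card ≤ (Finset.range (p.natDegree + 1)).card := by
      refine Finset.card_le_card_of_injOn (fun x => x.1) (fun x hx => ?_) ?_
      · exact Finset.mem_coe.mpr (Finset.mem_range.mpr
          (Nat.lt_succ_of_le (Finset.mem_filter.mp hx).2))
      · intro x hx y hy hxy
        have hx' := Finset.HasAntidiagonal.mem_antidiagonal.mp
          (Finset.mem_filter.mp (Finset.mem_coe.mp hx)).1
        have hy' := Finset.HasAntidiagonal.mem_antidiagonal.mp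
          (Finset.mem_filter.mp (Finset.mem_coe.mp hy)).1
        simp only at hxy
        exact Prod.ext hxy (by omega)
    rwa [Finset.card_range] at this
  calc v (∑ x ∈ s, p.coeff x.1 * q.coeff x.2)
      ≤ ∑ x ∈ s, v (p.coeff x.1 * q.coeff x.2) := v.sum_le _ _
    _ ≤ ∑ _x ∈ s, h59_pnorm v p * h59_pnorm v q := by
        refine Finset.sum_le_sum fun x _ => ?_
        rw [v.map_mul]
        exact mul_le_mul (h59_le_pnorm v p _) (h59_le_pnorm v q _) (v.nonneg _)
          (h59_pnorm_nonneg v p)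
    _ = (s.card : ℝ) * (h59_pnorm v p * h59_pnorm v q) := by
        rw [Finset.sum_const, nsmul_eq_mul]
    _ ≤ ((p.natDegree : ℝ) + 1) * (h59_pnorm v p * h59_pnorm v q) := by
        refine mul_le_mul_of_nonneg_right ?_ hB
        exact_mod_cast hcard

/-- the Gauss norm through a ring homomorphism to `ℂ` inducing the absolute value. -/
theorem h59_pnorm_eq_supNorm (v : AbsoluteValue K ℝ) (φ : K →+* ℂ) (hφ : ∀ x, v x = ‖φ x‖)
    (p : K[X]) : h59_pnorm v p = (p.map φ).supNorm := by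
  apply le_antisymm
  · refine h59_pnorm_le v p fun i => ?_
    rw [hφ, ← coeff_map]
    exact (p.map φ).le_supNorm i
  · obtain ⟨i, hi⟩ := (p.map φ).exists_eq_supNorm
    rw [hi, coeff_map, ← hφ]
    exact h59_le_pnorm v p i

/-- Gelfond's inequality over `ℂ` with an explicit constant (Mahler measure). -/
theorem h59_supNorm_mul_ge (P Q : ℂ[X]) :
    P.supNorm * Q.supNorm ≤ (4 : ℝ) ^ (P.natDegree + Q.natDegree) * (P * Q).supNorm := by
  set n := P.natDegree with hn
  set m := Q.natDegree with hm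
  have h1 := P.supNorm_le_choose_natDegree_div_two_mul_mahlerMeasure
  have h2 := Q.supNorm_le_choose_natDegree_div_two_mul_mahlerMeasure
  have h3 := (P * Q).mahlerMeasure_le_sqrt_natDegree_add_one_mul_supNorm
  rw [mahlerMeasure_mul] at h3
  have hc1 : ((n.choose (n / 2) : ℕ) : ℝ) ≤ (2 : ℝ) ^ n := by
    exact_mod_cast Nat.choose_le_two_pow n (n / 2)
  have hc2 : ((m.choose (m / 2) : ℕ) : ℝ) ≤ (2 : ℝ) ^ m := by
    exact_mod_cast Nat.choose_le_two_pow m (m / 2)
  have hdeg : (P * Q).natDegree ≤ n + m := natDegree_mul_le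
  have hsq : √(((P * Q).natDegree : ℝ) + 1) ≤ (2 : ℝ) ^ (n + m) := by
    rw [Real.sqrt_le_left (by positivity)]
    have h4 : (((P * Q).natDegree : ℝ) + 1) ≤ ((n + m : ℕ) : ℝ) + 1 := by
      have : ((P * Q).natDegree : ℝ) ≤ ((n + m : ℕ) : ℝ) := by exact_mod_cast hdeg
      linarith
    have h5 : (((n + m : ℕ) : ℝ) + 1) ≤ (2 : ℝ) ^ (n + m) := by
      have : (n + m) + 1 ≤ 2 ^ (n + m) := Nat.lt_two_pow_self
      exact_mod_cast this
    have h6 : (2 : ℝ) ^ (n + m) ≤ ((2 : ℝ) ^ (n + m)) ^ 2 := by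
      have h7 : (1 : ℝ) ≤ (2 : ℝ) ^ (n + m) := one_le_pow₀ (by norm_num)
      nlinarith
    linarith
  have hMP := P.mahlerMeasure_nonneg
  have hMQ := Q.mahlerMeasure_nonneg
  have hS := (P * Q).supNorm_nonneg
  have e4 : (4 : ℝ) ^ (n + m) = (2 : ℝ) ^ n * (2 : ℝ) ^ m * (2 : ℝ) ^ (n + m) := by
    rw [show (4 : ℝ) = 2 * 2 by norm_num, mul_pow, pow_add]
  calc P.supNorm * Q.supNorm
      ≤ ((n.choose (n / 2) : ℕ) * P.mahlerMeasure) * ((m.choose (m / 2) : ℕ) * Q.mahlerMeasure) :=
        mul_le_mul h1 h2 Q.supNorm_nonneg (mul_nonneg (Nat.cast_nonneg _) hMP)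
    _ ≤ ((2 : ℝ) ^ n * P.mahlerMeasure) * ((2 : ℝ) ^ m * Q.mahlerMeasure) := by
        refine mul_le_mul (mul_le_mul_of_nonneg_right hc1 hMP)
          (mul_le_mul_of_nonneg_right hc2 hMQ) (mul_nonneg (Nat.cast_nonneg _) hMQ)
          (mul_nonneg (by positivity) hMP)
    _ = (2 : ℝ) ^ n * (2 : ℝ) ^ m * (P.mahlerMeasure * Q.mahlerMeasure) := by ring
    _ ≤ (2 : ℝ) ^ n * (2 : ℝ) ^ m * (√(((P * Q).natDegree : ℝ) + 1) * (P * Q).supNorm) :=
        mul_le_mul_of_nonneg_left h3 (by positivity)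
    _ ≤ (2 : ℝ) ^ n * (2 : ℝ) ^ m * ((2 : ℝ) ^ (n + m) * (P * Q).supNorm) := by
        refine mul_le_mul_of_nonneg_left (mul_le_mul_of_nonneg_right hsq hS) (by positivity)
    _ = (4 : ℝ) ^ (n + m) * (P * Q).supNorm := by rw [e4]; ring

/-- **Gelfond's inequality** for an absolute value induced by a ring homomorphism to `ℂ`. -/
theorem h59_pnorm_mul_ge (v : AbsoluteValue K ℝ) (φ : K →+* ℂ) (hφ : ∀ x, v x = ‖φ x‖)
    (p q : K[X]) :
    h59_pnorm v p * h59_pnorm v q ≤ (4 : ℝ) ^ (p.natDegree + q.natDegree) * h59_pnorm v (p * q) := by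
  have h := h59_supNorm_mul_ge (p.map φ) (q.map φ)
  rw [natDegree_map_eq_of_injective φ.injective, natDegree_map_eq_of_injective φ.injective,
    ← Polynomial.map_mul, ← h59_pnorm_eq_supNorm v φ hφ, ← h59_pnorm_eq_supNorm v φ hφ,
    ← h59_pnorm_eq_supNorm v φ hφ] at h
  exact h

end Local

section Global

variable {K : Type*} [Field K] [AdmissibleAbsValues K]

/-- the multiplicative height of a univariate polynomial (of its coefficient vector). -/
def h59_pmulHt (p : K[X]) : ℝ :=
  ((archAbsVal (K := K)).map fun v => h59_pnorm v p).prod *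
    ∏ᶠ v : nonarchAbsVal (K := K), h59_pnorm v.val p

/-- the logarithmic height of a univariate polynomial. -/
def h59_plogHt (p : K[X]) : ℝ := Real.log (h59_pmulHt p)

theorem h59_hasFiniteMulSupport_pnorm {p : K[X]} (hp : p ≠ 0) :
    (fun v : nonarchAbsVal (K := K) => h59_pnorm v.val p).HasFiniteMulSupport := by
  have hfin : (⋃ i ∈ p.support,
      Function.mulSupport fun v : nonarchAbsVal (K := K) => v.val (p.coeff i)).Finite := by
    refine Set.Finite.biUnion p.support.finite_toSet fun i hi => ?_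
    exact hasFiniteMulSupport (Polynomial.mem_support_iff.mp hi)
  refine hfin.subset fun v hv => ?_
  rw [Function.mem_mulSupport] at hv
  by_contra hnot
  apply hv
  obtain ⟨i, hi⟩ := h59_exists_eq_pnorm v.val p
  have hi0 : p.coeff i ≠ 0 := by
    intro h0
    rw [h0, map_zero] at hi
    exact (h59_pnorm_pos v.val hp).ne' hi
  rw [hi]
  by_contra h1
  exact hnot (Set.mem_biUnion (Polynomial.mem_support_iff.mpr hi0)
    (Function.mem_mulSupport.mpr h1))

theorem h59_pmulHt_pos {p : K[X]} (hp : p ≠ 0) : 0 < h59_pmulHt p := by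
  unfold h59_pmulHt
  refine mul_pos (Multiset.prod_pos ?_) ?_
  · intro a ha
    obtain ⟨v, -, rfl⟩ := Multiset.mem_map.mp ha
    exact h59_pnorm_pos v hp
  · exact finprod_induction (fun x : ℝ => 0 < x) zero_lt_one (fun _ _ => mul_pos)
      fun v => h59_pnorm_pos v.val hp

/-- the height of a polynomial is the height of its vector of coefficients up to any bound for
the degree. -/
theorem h59_pmulHt_eq_mulHeight {p : K[X]} (hp : p ≠ 0) (n : ℕ) (hn : p.natDegree ≤ n) :
    h59_pmulHt p = Height.mulHeight (fun i : Fin (n + 1) => p.coeff (i : ℕ)) := by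
  have hx : (fun i : Fin (n + 1) => p.coeff (i : ℕ)) ≠ 0 := by
    intro h0
    apply hp
    ext i
    by_cases hi : i ≤ n
    · exact congrFun h0 ⟨i, Nat.lt_succ_of_le hi⟩
    · rw [coeff_zero]
      exact coeff_eq_zero_of_natDegree_lt (by omega)
  have key : ∀ v : AbsoluteValue K ℝ,
      h59_pnorm v p = ⨆ i : Fin (n + 1), v (p.coeff (i : ℕ)) := by
    intro v
    apply le_antisymm
    · obtain ⟨i, hi⟩ := h59_exists_eq_pnorm v p
      rw [hi]
      by_cases hin : i ≤ n
      · exact Finite.le_ciSup_of_le (⟨i, Nat.lt_succ_of_le hin⟩ : Fin (n + 1)) le_rfl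
      · rw [coeff_eq_zero_of_natDegree_lt (by omega), map_zero]
        exact Real.iSup_nonneg fun _ => v.nonneg _
    · exact Real.iSup_le (fun i => h59_le_pnorm v p i) (h59_pnorm_nonneg v p)
  rw [Height.mulHeight_eq hx, h59_pmulHt]
  simp only [key]

theorem h59_pmulHt_mul_le (p q : K[X]) (hp : p ≠ 0) (hq : q ≠ 0) :
    h59_pmulHt (p * q)
      ≤ ((p.natDegree : ℝ) + 1) ^ totalWeight K * (h59_pmulHt p * h59_pmulHt q) := by
  unfold h59_pmulHt
  have hna : ∏ᶠ v : nonarchAbsVal (K := K), h59_pnorm v.val (p * q)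
      = (∏ᶠ v : nonarchAbsVal (K := K), h59_pnorm v.val p) *
        ∏ᶠ v : nonarchAbsVal (K := K), h59_pnorm v.val q := by
    rw [← finprod_mul_distrib (h59_hasFiniteMulSupport_pnorm hp)
      (h59_hasFiniteMulSupport_pnorm hq)]
    exact finprod_congr fun v => h59_pnorm_mul_of_nonarch v.val (isNonarchimedean v.val v.2) p q
  have harch : ((archAbsVal (K := K)).map fun v => h59_pnorm v (p * q)).prod
      ≤ ((p.natDegree : ℝ) + 1) ^ totalWeight K *
        (((archAbsVal (K := K)).map fun v => h59_pnorm v p).prod *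
          ((archAbsVal (K := K)).map fun v => h59_pnorm v q).prod) := by
    have h1 := Multiset.prod_map_le_prod_map₀ (s := archAbsVal (K := K))
      (fun v => h59_pnorm v (p * q))
      (fun v => ((p.natDegree : ℝ) + 1) * (h59_pnorm v p * h59_pnorm v q))
      (fun v _ => h59_pnorm_nonneg v _) (fun v _ => h59_pnorm_mul_le v p q)
    rw [Multiset.prod_map_mul, Multiset.prod_map_mul, Multiset.map_const',
      Multiset.prod_replicate] at h1
    exact h1
  have hnn : 0 ≤ ∏ᶠ v : nonarchAbsVal (K := K), h59_pnorm v.val (p * q) :=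
    finprod_nonneg fun v => h59_pnorm_nonneg v.val _
  calc ((archAbsVal (K := K)).map fun v => h59_pnorm v (p * q)).prod *
        ∏ᶠ v : nonarchAbsVal (K := K), h59_pnorm v.val (p * q)
      ≤ (((p.natDegree : ℝ) + 1) ^ totalWeight K *
        (((archAbsVal (K := K)).map fun v => h59_pnorm v p).prod *
          ((archAbsVal (K := K)).map fun v => h59_pnorm v q).prod)) *
        ∏ᶠ v : nonarchAbsVal (K := K), h59_pnorm v.val (p * q) :=
        mul_le_mul_of_nonneg_right harch hnn
    _ = _ := by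
        rw [hna]
        unfold totalWeight
        ring

theorem h59_pmulHt_mul_ge
    (harch : ∀ v ∈ archAbsVal (K := K), ∃ φ : K →+* ℂ, ∀ x, v x = ‖φ x‖)
    (p q : K[X]) (hp : p ≠ 0) (hq : q ≠ 0) :
    h59_pmulHt p * h59_pmulHt q
      ≤ ((4 : ℝ) ^ (p.natDegree + q.natDegree)) ^ totalWeight K * h59_pmulHt (p * q) := by
  unfold h59_pmulHt
  have hna : ∏ᶠ v : nonarchAbsVal (K := K), h59_pnorm v.val (p * q)
      = (∏ᶠ v : nonarchAbsVal (K := K), h59_pnorm v.val p) *
        ∏ᶠ v : nonarchAbsVal (K := K), h59_pnorm v.val q := by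
    rw [← finprod_mul_distrib (h59_hasFiniteMulSupport_pnorm hp)
      (h59_hasFiniteMulSupport_pnorm hq)]
    exact finprod_congr fun v => h59_pnorm_mul_of_nonarch v.val (isNonarchimedean v.val v.2) p q
  have ha : ((archAbsVal (K := K)).map fun v => h59_pnorm v p).prod *
        ((archAbsVal (K := K)).map fun v => h59_pnorm v q).prod
      ≤ ((4 : ℝ) ^ (p.natDegree + q.natDegree)) ^ totalWeight K *
        ((archAbsVal (K := K)).map fun v => h59_pnorm v (p * q)).prod := by
    have h1 := Multiset.prod_map_le_prod_map₀ (s := archAbsVal (K := K))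
      (fun v => h59_pnorm v p * h59_pnorm v q)
      (fun v => (4 : ℝ) ^ (p.natDegree + q.natDegree) * h59_pnorm v (p * q))
      (fun v _ => mul_nonneg (h59_pnorm_nonneg v _) (h59_pnorm_nonneg v _))
      (fun v hv => by
        obtain ⟨φ, hφ⟩ := harch v hv
        exact h59_pnorm_mul_ge v φ hφ p q)
    rw [Multiset.prod_map_mul, Multiset.prod_map_mul, Multiset.map_const',
      Multiset.prod_replicate] at h1
    exact h1
  have hnn : 0 ≤ ∏ᶠ v : nonarchAbsVal (K := K), h59_pnorm v.val (p * q) :=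
    finprod_nonneg fun v => h59_pnorm_nonneg v.val _
  calc ((archAbsVal (K := K)).map fun v => h59_pnorm v p).prod *
          (∏ᶠ v : nonarchAbsVal (K := K), h59_pnorm v.val p) *
        (((archAbsVal (K := K)).map fun v => h59_pnorm v q).prod *
          ∏ᶠ v : nonarchAbsVal (K := K), h59_pnorm v.val q)
      = (((archAbsVal (K := K)).map fun v => h59_pnorm v p).prod *
          ((archAbsVal (K := K)).map fun v => h59_pnorm v q).prod) *
        ∏ᶠ v : nonarchAbsVal (K := K), h59_pnorm v.val (p * q) := by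
        rw [hna]
        ring
    _ ≤ (((4 : ℝ) ^ (p.natDegree + q.natDegree)) ^ totalWeight K *
          ((archAbsVal (K := K)).map fun v => h59_pnorm v (p * q)).prod) *
        ∏ᶠ v : nonarchAbsVal (K := K), h59_pnorm v.val (p * q) :=
        mul_le_mul_of_nonneg_right ha hnn
    _ = _ := by ring

theorem h59_plogHt_mul_le (p q : K[X]) (hp : p ≠ 0) (hq : q ≠ 0) :
    h59_plogHt (p * q)
      ≤ totalWeight K * Real.log ((p.natDegree : ℝ) + 1) + h59_plogHt p + h59_plogHt q := by
  have hpq : p * q ≠ 0 := mul_ne_zero hp hq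
  have hcard : (0 : ℝ) < (p.natDegree : ℝ) + 1 := by positivity
  have h := Real.log_le_log (h59_pmulHt_pos hpq) (h59_pmulHt_mul_le p q hp hq)
  rw [Real.log_mul (pow_pos hcard _).ne' (mul_pos (h59_pmulHt_pos hp) (h59_pmulHt_pos hq)).ne',
    Real.log_mul (h59_pmulHt_pos hp).ne' (h59_pmulHt_pos hq).ne', Real.log_pow] at h
  unfold h59_plogHt
  linarith

theorem h59_plogHt_mul_ge
    (harch : ∀ v ∈ archAbsVal (K := K), ∃ φ : K →+* ℂ, ∀ x, v x = ‖φ x‖)
    (p q : K[X]) (hp : p ≠ 0) (hq : q ≠ 0) :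
    h59_plogHt p + h59_plogHt q
      ≤ totalWeight K * ((p.natDegree + q.natDegree : ℕ) * Real.log 4) + h59_plogHt (p * q) := by
  have hpq : p * q ≠ 0 := mul_ne_zero hp hq
  have hC : (0 : ℝ) < (4 : ℝ) ^ (p.natDegree + q.natDegree) := by positivity
  have h := Real.log_le_log (mul_pos (h59_pmulHt_pos hp) (h59_pmulHt_pos hq))
    (h59_pmulHt_mul_ge harch p q hp hq)
  rw [Real.log_mul (h59_pmulHt_pos hp).ne' (h59_pmulHt_pos hq).ne',
    Real.log_mul (pow_pos hC _).ne' (h59_pmulHt_pos hpq).ne', Real.log_pow, Real.log_pow] at h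
  unfold h59_plogHt
  linarith

end Global

end Fermat.Agent.S17
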