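import Mathlib
import Fermat.Prelude.Def_ModularCurve_ArithmeticGalois
import Fermat.Agent.S24.h56_Count

/-!
# S17: the cusp place of an arithmetic function field

For a subfield `F` of `LaurentSeries L` containing the constants and a series of order `-1`,
the order of Laurent series is a place `h6_ordPlace F hu` of `F / L`:
* `h6_ordPlace_ord`  : its `ord` is the order of the Laurent series;
* `h6_ordPlace_deg`  : it has degree one (residue field `= L`, via the constant coefficient);
* `h6_ordPlace_val`  : `f - c` vanishes at it iff `c` is the constant coefficient of `f`.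
For `F = laurentBaseChange L F₀` the place `h6_cusp F₀ hu` is fixed by the arithmetic Galois
action (`h6_cusp_smul`).
-/

set_option autoImplicit false

noncomputable section

namespace Fermat.Agent.S17

open AlgebraicCurve ModularCurve Fermat.Agent.S24

section Generic

variable {L : Type*} [Field L] (F : IntermediateField L (LaurentSeries L))

/-- The order of the Laurent series, as a function on the subfield `F`. -/
def h6_ordL (f : F) : ℤ := (f : LaurentSeries L).order

theorem h6_ordL_def (f : F) : h6_ordL F f = (f : LaurentSeries L).order := rfl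

theorem h6_coe_ne_zero {f : F} (hf : f ≠ 0) : (f : LaurentSeries L) ≠ 0 := fun h =>
  hf (Subtype.ext h)

omit F in
theorem h6_coeff_order_ne_zero {x : LaurentSeries L} (hx : x ≠ 0) : x.coeff x.order ≠ 0 :=
  fun h => hx (HahnSeries.coeff_order_eq_zero.mp h)

theorem h6_isOrd : h56_IsOrd L (h6_ordL F) where
  map_mul f g hf hg := by
    show ((f * g : F) : LaurentSeries L).order = _
    rw [MulMemClass.coe_mul]
    exact HahnSeries.order_mul (h6_coe_ne_zero F hf) (h6_coe_ne_zero F hg)
  map_add f g _ _ hfg := by
    show min (f : LaurentSeries L).order (g : LaurentSeries L).order ≤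
      ((f + g : F) : LaurentSeries L).order
    rw [AddMemClass.coe_add]
    exact HahnSeries.min_order_le_order_add (by
      rw [← AddMemClass.coe_add]; exact h6_coe_ne_zero F hfg)
  map_algebraMap c hc := by
    show ((algebraMap L F c : F) : LaurentSeries L).order = 0
    have h1 : ((algebraMap L F c : F) : LaurentSeries L) = algebraMap L (LaurentSeries L) c :=
      rfl
    rw [h1, algebraMap_laurentSeries_eq_single]
    exact HahnSeries.order_single hc

theorem h6_nontrivial (hu : ∃ u : F, (u : LaurentSeries L).order = -1) :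
    ∃ f : F, f ≠ 0 ∧ h6_ordL F f ≠ 0 := by
  obtain ⟨u, hu⟩ := hu
  refine ⟨u, ?_, ?_⟩
  · rintro rfl
    rw [ZeroMemClass.coe_zero, HahnSeries.order_zero] at hu
    omega
  · rw [h6_ordL_def, hu]
    omega

/-- **The order place**: the place of `F / L` whose valuation ring consists of the series of
nonnegative order. -/
def h6_ordPlace (hu : ∃ u : F, (u : LaurentSeries L).order = -1) : Place L F :=
  h56_placeOfOrd (h6_ordL F) (h6_isOrd F) (h6_nontrivial F hu)

theorem h6_mem_ordPlace (hu : ∃ u : F, (u : LaurentSeries L).order = -1) (f : F) :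
    f ∈ (h6_ordPlace F hu).toValuationSubring ↔ 0 ≤ (f : LaurentSeries L).order := by
  show (f = 0 ∨ 0 ≤ h6_ordL F f) ↔ _
  constructor
  · rintro (rfl | h)
    · rw [ZeroMemClass.coe_zero, HahnSeries.order_zero]
    · exact h
  · exact fun h => Or.inr h

/-- The normalised order at the order place is the order of the Laurent series. -/
theorem h6_ordPlace_ord (hu : ∃ u : F, (u : LaurentSeries L).order = -1) (f : F) :
    (h6_ordPlace F hu).ord f = (f : LaurentSeries L).order := by
  rcases eq_or_ne f 0 with rfl | hf
  · rw [Place.ord_zero, ZeroMemClass.coe_zero, HahnSeries.order_zero]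
  obtain ⟨m, hm, -, hmf⟩ := h56_placeOfOrd_ord (h6_isOrd F) (h6_nontrivial F hu)
  obtain ⟨u, hu1⟩ := hu
  have hu0 : u ≠ 0 := by
    rintro rfl
    rw [ZeroMemClass.coe_zero, HahnSeries.order_zero] at hu1
    omega
  have h1 := hmf u hu0
  rw [h6_ordL_def, hu1] at h1
  have hm1 : m = 1 := by
    have hdvd : m ∣ 1 := ⟨-(h56_placeOfOrd (h6_ordL F) (h6_isOrd F) _).ord u, by
      rw [mul_neg, ← h1]; norm_num⟩
    exact Int.eq_one_of_dvd_one hm.le hdvd
  have h2 := hmf f hf
  rw [hm1, one_mul, h6_ordL_def] at h2
  exact h2.symm

/-- Elements of positive order are non-units of the valuation ring. -/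
theorem h6_not_isUnit_of_order_pos (hu : ∃ u : F, (u : LaurentSeries L).order = -1)
    (x : (h6_ordPlace F hu).toValuationSubring)
    (hx : 0 < ((x : F) : LaurentSeries L).order) : ¬ IsUnit x := by
  intro hunit
  obtain ⟨y, hy⟩ := hunit.exists_right_inv
  have hxy : (x : F) * (y : F) = 1 := congrArg Subtype.val hy
  have hx0 : (x : F) ≠ 0 := by
    intro h
    rw [h, zero_mul] at hxy
    exact zero_ne_one hxy
  have hy0 : (y : F) ≠ 0 := by
    intro h
    rw [h, mul_zero] at hxy
    exact zero_ne_one hxy
  have h1 := (h6_isOrd F).map_mul _ _ hx0 hy0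
  rw [hxy, (h6_isOrd F).map_one, h6_ordL_def, h6_ordL_def] at h1
  have h2 := (h6_mem_ordPlace F hu (y : F)).mp y.2
  omega

/-- A series of nonnegative order minus its constant coefficient has positive order
(or vanishes). -/
theorem h6_order_sub_const {x : LaurentSeries L} (hx : 0 ≤ x.order) :
    x - algebraMap L (LaurentSeries L) (x.coeff 0) = 0 ∨
      0 < (x - algebraMap L (LaurentSeries L) (x.coeff 0)).order := by
  by_cases h0 : x - algebraMap L (LaurentSeries L) (x.coeff 0) = 0
  · exact Or.inl h0
  refine Or.inr ?_
  by_contra hneg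
  have hle : (x - algebraMap L (LaurentSeries L) (x.coeff 0)).order ≤ 0 := not_lt.mp hneg
  have hc := h6_coeff_order_ne_zero h0
  apply hc
  generalize (x - algebraMap L (LaurentSeries L) (x.coeff 0)).order = n at hle ⊢
  rw [HahnSeries.coeff_sub, algebraMap_laurentSeries_eq_single]
  rcases hle.lt_or_eq with hlt | heq
  · rw [HahnSeries.coeff_eq_zero_of_lt_order (lt_of_lt_of_le hlt hx),
      HahnSeries.coeff_single_of_ne hlt.ne, sub_zero]
  · rw [heq, HahnSeries.coeff_single_same, sub_self]

/-- **The order place has degree one.** -/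
theorem h6_ordPlace_deg (hu : ∃ u : F, (u : LaurentSeries L).order = -1) :
    (h6_ordPlace F hu).deg = 1 := by
  set P := h6_ordPlace F hu with hP
  show Module.finrank L P.ResidueField = 1
  rw [finrank_eq_one_iff_of_nonzero' (1 : P.ResidueField) one_ne_zero]
  intro w
  obtain ⟨x, rfl⟩ := IsLocalRing.residue_surjective w
  have hx0 : 0 ≤ ((x : F) : LaurentSeries L).order := (h6_mem_ordPlace F hu (x : F)).mp x.2
  refine ⟨((x : F) : LaurentSeries L).coeff 0, ?_⟩
  rw [Algebra.smul_def, mul_one, IsScalarTower.algebraMap_apply L P.toValuationSubring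
    P.ResidueField]
  symm
  show IsLocalRing.residue P.toValuationSubring x = IsLocalRing.residue P.toValuationSubring
    (algebraMap L P.toValuationSubring (((x : F) : LaurentSeries L).coeff 0))
  rw [← sub_eq_zero, ← map_sub, IsLocalRing.residue_eq_zero_iff]
  rw [IsLocalRing.mem_maximalIdeal, mem_nonunits_iff]
  rcases h6_order_sub_const hx0 with h | h
  · have : x - algebraMap L P.toValuationSubring (((x : F) : LaurentSeries L).coeff 0) = 0 := by
      apply Subtype.ext
      apply Subtype.ext
      exact h
    rw [this]
    exact not_isUnit_zero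
  · exact h6_not_isUnit_of_order_pos F hu _ h

/-- **Value at the order place**: `f - c` vanishes there iff `f` has nonnegative order and
constant coefficient `c`. -/
theorem h6_ordPlace_val (hu : ∃ u : F, (u : LaurentSeries L).order = -1) (f : F) (c : L)
    (hf : 0 ≤ (f : LaurentSeries L).order) (hc : (f : LaurentSeries L).coeff 0 = c)
    (hne : f ≠ algebraMap L F c) :
    0 < (h6_ordPlace F hu).ord (f - algebraMap L F c) := by
  rw [h6_ordPlace_ord]
  subst hc
  rcases h6_order_sub_const hf with h | h
  · exact absurd (sub_eq_zero.mp (Subtype.ext h : f - algebraMap L F _ = 0)) hne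
  · exact h

end Generic

section Arithmetic

variable {L : Type*} [Field L] [Algebra ℚ L] (F₀ : IntermediateField ℚ (LaurentSeries ℚ))

/-- The coefficientwise action of a field automorphism preserves the order. -/
theorem h6_order_coeffMap (σ : L ≃ₐ[ℚ] L) (x : LaurentSeries L) :
    (coeffMap (σ : L →+* L) x).order = x.order := by
  rcases eq_or_ne x 0 with rfl | hx
  · rw [map_zero]
  have hne : coeffMap (σ : L →+* L) x ≠ 0 := by
    intro h
    apply hx
    ext k
    have := congrArg (fun y : LaurentSeries L => y.coeff k) h
    simp only [coeffMap_coeff, HahnSeries.coeff_zero] at this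
    rw [HahnSeries.coeff_zero]
    exact (map_eq_zero_iff (σ : L →+* L) σ.injective).mp this
  apply le_antisymm
  · apply HahnSeries.order_le_of_coeff_ne_zero
    rw [coeffMap_coeff]
    intro h
    exact h6_coeff_order_ne_zero hx ((map_eq_zero_iff (σ : L →+* L) σ.injective).mp h)
  · apply HahnSeries.order_le_of_coeff_ne_zero
    have := h6_coeff_order_ne_zero hne
    rw [coeffMap_coeff] at this
    intro h
    apply this
    rw [h, map_zero]

/-- **The cusp place** of the arithmetic function field `laurentBaseChange L F₀`. -/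
def h6_cusp (hu : ∃ u : laurentBaseChange L F₀, (u : LaurentSeries L).order = -1) :
    Place L (laurentBaseChange L F₀) :=
  h6_ordPlace (laurentBaseChange L F₀) hu

theorem h6_cusp_ord (hu : ∃ u : laurentBaseChange L F₀, (u : LaurentSeries L).order = -1)
    (f : laurentBaseChange L F₀) :
    (h6_cusp F₀ hu).ord f = (f : LaurentSeries L).order :=
  h6_ordPlace_ord _ hu f

theorem h6_cusp_deg (hu : ∃ u : laurentBaseChange L F₀, (u : LaurentSeries L).order = -1) :
    (h6_cusp F₀ hu).deg = 1 :=
  h6_ordPlace_deg _ hu

theorem h6_mem_cusp (hu : ∃ u : laurentBaseChange L F₀, (u : LaurentSeries L).order = -1)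
    (f : laurentBaseChange L F₀) :
    f ∈ (h6_cusp F₀ hu).toValuationSubring ↔ 0 ≤ (f : LaurentSeries L).order :=
  h6_mem_ordPlace _ hu f

/-- **The cusp is fixed by the arithmetic Galois action.** -/
theorem h6_cusp_smul (hu : ∃ u : laurentBaseChange L F₀, (u : LaurentSeries L).order = -1)
    (σ : L ≃ₐ[ℚ] L) :
    arithmeticGalois F₀ σ • h6_cusp F₀ hu = h6_cusp F₀ hu := by
  apply Place.ext
  ext x
  rw [SemilinearAut.smul_toValuationSubring,
    ValuationSubring.mem_pointwise_smul_iff_inv_smul_mem, h6_mem_cusp, h6_mem_cusp,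
    ← map_inv, coe_arithmeticGalois_smul, h6_order_coeffMap]

end Arithmetic

end Fermat.Agent.S17
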