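import Mathlib
import Fermat.Agent.S17.h6_Cusp
import Fermat.Agent.S24.h59_Gen

/-!
# S17: the rational cusp `∞` of `X₀(N)` as a place of `modularFunctionFieldBar N`

`h6_cuspN N` is the place of the function field of `X₀(N)` over `ℚ̄` given by the order of the
`q`-expansion.  It is fixed by the Galois action, has degree one, and `j` has a simple pole
there.
-/

set_option autoImplicit false

noncomputable section

namespace Fermat.Agent.S17

open AlgebraicCurve ModularCurve Fermat.Agent.S24

/-- the `q`-expansion of `j` over any field has order `-1` -/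
theorem h6_order_coeffEmb_jq (L : Type*) [Field L] [Algebra ℚ L] :
    (coeffEmb L jq).order = -1 := by
  have h1 : (coeffEmb L jq).coeff (-1) = 1 := by
    have := h59_coeff_coeffEmb_jq_pow_self L 1
    rwa [pow_one] at this
  have hne : coeffEmb L jq ≠ 0 := by
    intro h
    rw [h, HahnSeries.coeff_zero] at h1
    exact zero_ne_one h1
  apply le_antisymm
  · apply HahnSeries.order_le_of_coeff_ne_zero
    rw [h1]
    exact one_ne_zero
  · by_contra hlt
    have hlt' : (coeffEmb L jq).order < -((1 : ℕ) : ℤ) := by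
      push_cast
      exact not_le.mp hlt
    have h2 := h59_coeff_coeffEmb_jq_pow_of_lt L hlt'
    rw [pow_one] at h2
    exact h6_coeff_order_ne_zero hne h2

theorem h6_order_jbar (N : ℕ) :
    ((h59_jbar N : ↥(modularFunctionFieldBar N)) : LaurentSeries (AlgebraicClosure ℚ)).order
      = -1 := by
  rw [h59_coe_jbar]
  exact h6_order_coeffEmb_jq _

theorem h6_exists_order_neg_one (N : ℕ) :
    ∃ u : laurentBaseChange (AlgebraicClosure ℚ) (modularFunctionFieldFull N),
      (u : LaurentSeries (AlgebraicClosure ℚ)).order = -1 :=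
  ⟨h59_jbar N, h6_order_jbar N⟩

/-- **The rational cusp `∞` of `X₀(N)`**, as a place of the function field over `ℚ̄`. -/
def h6_cuspN (N : ℕ) : Place (AlgebraicClosure ℚ) (modularFunctionFieldBar N) :=
  h6_cusp (modularFunctionFieldFull N) (h6_exists_order_neg_one N)

/-- the order at the cusp is the order of the `q`-expansion -/
theorem h6_cuspN_ord (N : ℕ) (f : modularFunctionFieldBar N) :
    (h6_cuspN N).ord f = (f : LaurentSeries (AlgebraicClosure ℚ)).order :=
  h6_cusp_ord _ _ f

theorem h6_mem_cuspN (N : ℕ) (f : modularFunctionFieldBar N) :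
    f ∈ (h6_cuspN N).toValuationSubring ↔ 0 ≤ (f : LaurentSeries (AlgebraicClosure ℚ)).order :=
  h6_mem_cusp _ _ f

/-- the cusp has degree one -/
theorem h6_cuspN_deg (N : ℕ) : (h6_cuspN N).deg = 1 :=
  h6_cusp_deg _ _

/-- **the cusp is fixed by `Gal(ℚ̄/ℚ)`** -/
theorem h6_cuspN_smul (N : ℕ) (σ : AlgebraicClosure ℚ ≃ₐ[ℚ] AlgebraicClosure ℚ) :
    arithmeticGalois (modularFunctionFieldFull N) σ • h6_cuspN N = h6_cuspN N :=
  h6_cusp_smul _ _ σ

/-- `j` has a simple pole at the cusp -/
theorem h6_cuspN_ord_jbar (N : ℕ) : (h6_cuspN N).ord (h59_jbar N) = -1 := by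
  rw [h6_cuspN_ord, h6_order_jbar]

end Fermat.Agent.S17
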