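import Mathlib
import Fermat.Agent.S17.h6_CuspN
import Fermat.Agent.S17.h6_Canon
import Fermat.Agent.S18.h54_ModLevel

/-!
# S17: Galois-stable effective representatives of rational classes on `J₀(N)`

`h6_exists_stable_repN`: a class `c : JZero N` fixed by `Gal(ℚ̄/ℚ)` is `[A - i ∞]` with `A` an
effective divisor of degree `i ≤ g` fixed by the Galois action, `∞ = h6_cuspN N` the rational
cusp.  `h6_exists_unique_repN` is the underlying existence-and-uniqueness statement (no Galois
hypothesis).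
-/

set_option autoImplicit false

noncomputable section

namespace Fermat.Agent.S17

open AlgebraicCurve ModularCurve Fermat.Agent.S18 Fermat.Agent.S24

local notation "Qb" => AlgebraicClosure ℚ

/-- the canonical effective representative of a class of `J₀(N)` relative to the cusp `∞` -/
theorem h6_exists_unique_repN (N : ℕ) [NeZero N] (c : JZero N) :
    ∃ (i : ℕ) (A : Divisor Qb (modularFunctionFieldBar N)),
      i ≤ h75_genus Qb (h59_jbar N) ∧ (∀ v, 0 ≤ A v) ∧ Divisor.degree A = i ∧
      (∃ h : A - (i : ℤ) • Finsupp.single (h6_cuspN N) 1 ∈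
          Divisor.degZero (K := Qb) (F := modularFunctionFieldBar N),
        Pic0.mk ⟨A - (i : ℤ) • Finsupp.single (h6_cuspN N) 1, h⟩ = c) ∧
      ∀ A' : Divisor Qb (modularFunctionFieldBar N), (∀ v, 0 ≤ A' v) →
        ∀ h' : A' - (i : ℤ) • Finsupp.single (h6_cuspN N) 1 ∈
            Divisor.degZero (K := Qb) (F := modularFunctionFieldBar N),
          Pic0.mk ⟨A' - (i : ℤ) • Finsupp.single (h6_cuspN N) 1, h'⟩ = c → A' = A :=
  h6_exists_unique_rep (h54_isChart_jbar N) (h6_cuspN N) c

/-- **Galois-stable representatives**: a `Gal(ℚ̄/ℚ)`-fixed class of `J₀(N)` is `[A - i ∞]` with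
`A` effective, of degree `i ≤ g`, and fixed by the Galois action on divisors. -/
theorem h6_exists_stable_repN (N : ℕ) [NeZero N] (c : JZero N)
    (hc : ∀ σ : Qb ≃ₐ[ℚ] Qb, σ • c = c) :
    ∃ (i : ℕ) (A : Divisor Qb (modularFunctionFieldBar N)),
      i ≤ h75_genus Qb (h59_jbar N) ∧ (∀ v, 0 ≤ A v) ∧ Divisor.degree A = i ∧
      (∀ σ : Qb ≃ₐ[ℚ] Qb, arithmeticGalois (modularFunctionFieldFull N) σ • A = A) ∧
      ∃ h : A - (i : ℤ) • Finsupp.single (h6_cuspN N) 1 ∈
          Divisor.degZero (K := Qb) (F := modularFunctionFieldBar N),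
        Pic0.mk ⟨A - (i : ℤ) • Finsupp.single (h6_cuspN N) 1, h⟩ = c := by
  obtain ⟨i, A, hig, hA, hdeg, hstab, h, hmk⟩ :=
    h6_exists_stable_rep (h54_isChart_jbar N) (h6_cuspN N)
      (Set.range (arithmeticGalois (modularFunctionFieldFull N) (L := Qb)))
      (by
        rintro _ ⟨σ, rfl⟩
        exact h6_cuspN_smul N σ) c
      (by
        rintro _ ⟨σ, rfl⟩
        have := hc σ
        rwa [galois_smul_pic0_def] at this)
  exact ⟨i, A, hig, hA, hdeg, fun σ => hstab _ ⟨σ, rfl⟩, h, hmk⟩

end Fermat.Agent.S17
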