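import Mathlib
import Fermat.Agent.S17.h6_CuspN
import Fermat.Agent.S17.h46_CuspPlace

/-!
# S17: the two cusp places on main agree

`h6_cuspN N` (this seat) and `h46_modularCusp (AlgebraicClosure ℚ) N` (helper46) are the same
place of `modularFunctionFieldBar N`; `h6_modularCusp_deg` records that it has degree one.
-/

set_option autoImplicit false

noncomputable section

namespace Fermat.Agent.S17

open AlgebraicCurve ModularCurve

theorem h6_cuspN_eq (N : ℕ) [NeZero N] :
    h6_cuspN N = h46_modularCusp (AlgebraicClosure ℚ) N := by
  apply Place.ext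
  ext f
  rw [h6_mem_cuspN, h46_mem_modularCusp]

/-- the cusp place `h46_modularCusp` has degree one -/
theorem h6_modularCusp_deg (N : ℕ) [NeZero N] :
    (h46_modularCusp (AlgebraicClosure ℚ) N).deg = 1 := by
  rw [← h6_cuspN_eq]
  exact h6_cuspN_deg N

end Fermat.Agent.S17
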