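import Fermat.Agent.S17.h7_Siegel
import Fermat.Agent.S17.h59_CertQbar

/-!
# S17 height block (route R55, section 1 "PRODUCTS"): (E2) and (E1), helper7

Generic setting as in `h59_Cert`: a field `K`, a family `av : W → AbsoluteValue K ℝ` with the
"almost all" properties `h1`, `h2`, and a multiplication table
`mu : (Fin a → K) →ₗ[K] (Fin b → K) →ₗ[K] (Fin c → K)` WITHOUT ZERO DIVISORS.

* (E2) `h7_prod_norm` : `‖mu s u‖_w ~ ‖s‖_w ‖u‖_w` (max-norms), constants `C w ≥ 1`, `= 1` a.a.;
* (E1) `h7_prod_minors` : for an `r × b` matrix `B`, with `h7_rowMul mu s B` the matrix of the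
  rows of `B` multiplied by `s`:  `‖B M_s‖_w ~ ‖B‖_w ‖s‖_w ^ r` (max of the maximal minors,
  minors indexed by all `f : Fin r → Fin n`);
* the same at the places of `ℚ̄` (`h7_prod_norm_h55`, `h7_prod_minors_h55`; `h55_mn w E` of
  `h55_Frame` is by definition `h55_nrm w fun f => (E.submatrix id f).det`);
* global corollaries `h7_hgt_mul` (`h(su) = h(s) + h(u) + O(1)`) and `h7_hgt_rowMul`
  (`h(sW) = h(W) + r h(s) + O(1)`), with `h55_hgt`.

Upper bounds: structure constants + `h7_det_mul_expand`.  Lower bounds: `h59_cert` at the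
normalised point (`s` divided by its largest coordinate, `B` row-reduced on its largest minor).
-/

set_option autoImplicit false

noncomputable section

namespace Fermat.Agent.S17

open Matrix MvPolynomial

section Basics

variable {K : Type*} [Field K]

theorem h7_le_sup {ι : Type*} [Finite ι] (v : AbsoluteValue K ℝ) (s : ι → K) (i : ι) :
    v (s i) ≤ ⨆ i, v (s i) :=
  le_ciSup (f := fun i => v (s i)) (Finite.bddAbove_range _) i

theorem h7_sup_le {ι : Type*} (v : AbsoluteValue K ℝ) (s : ι → K) {B : ℝ} (hB : 0 ≤ B)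
    (h : ∀ i, v (s i) ≤ B) : ⨆ i, v (s i) ≤ B :=
  Real.iSup_le h hB

theorem h7_sup_nonneg {ι : Type*} (v : AbsoluteValue K ℝ) (s : ι → K) : 0 ≤ ⨆ i, v (s i) :=
  Real.iSup_nonneg fun _ => v.nonneg _

theorem h7_exists_sup {ι : Type*} [Finite ι] [Nonempty ι] (v : AbsoluteValue K ℝ) (s : ι → K) :
    ∃ i, v (s i) = ⨆ i, v (s i) :=
  exists_eq_ciSup_of_finite (f := fun i => v (s i))

/-- ultrametric bound for finite sums -/
theorem h7_nonarch_sum_le {ι : Type*} (v : AbsoluteValue K ℝ) (hv : IsNonarchimedean v)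
    (t : Finset ι) (g : ι → K) {B : ℝ} (hB : 0 ≤ B) (h : ∀ i ∈ t, v (g i) ≤ B) :
    v (∑ i ∈ t, g i) ≤ B := by
  classical
  induction t using Finset.induction_on with
  | empty => simpa using hB
  | insert a t ha ih =>
    rw [Finset.sum_insert ha]
    refine (hv (g a) (∑ i ∈ t, g i)).trans (max_le (h a (Finset.mem_insert_self a t)) ?_)
    exact ih fun i hi => h i (Finset.mem_insert_of_mem hi)

/-- archimedean bound for finite sums -/
theorem h7_arch_sum_le {ι : Type*} (v : AbsoluteValue K ℝ) (t : Finset ι) (g : ι → K) {B : ℝ}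
    (h : ∀ i ∈ t, v (g i) ≤ B) : v (∑ i ∈ t, g i) ≤ t.card * B := by
  calc v (∑ i ∈ t, g i) ≤ ∑ i ∈ t, v (g i) := v.sum_le t g
    _ ≤ ∑ _i ∈ t, B := Finset.sum_le_sum h
    _ = t.card * B := by rw [Finset.sum_const, nsmul_eq_mul]

variable {W : Type*} (av : W → AbsoluteValue K ℝ)

/-- The places that are archimedean or at which one of finitely many given elements is not
integral form a finite set. -/
theorem h7_bad_finite (h1 : ∀ α : K, α ≠ 0 → {w | av w α ≠ 1}.Finite)
    (h2 : {w | ¬ IsNonarchimedean (av w)}.Finite) {ι : Type*} [Finite ι] (t : ι → K) :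
    {w | ¬ (IsNonarchimedean (av w) ∧ ∀ x, av w (t x) ≤ 1)}.Finite := by
  classical
  have hsub : {w | ¬ (IsNonarchimedean (av w) ∧ ∀ x, av w (t x) ≤ 1)} ⊆
      {w | ¬ IsNonarchimedean (av w)} ∪
        ⋃ x : ι, (if t x = 0 then (∅ : Set W) else {w | av w (t x) ≠ 1}) := by
    intro w hw
    have hw : IsNonarchimedean (av w) → ∃ x, 1 < av w (t x) := by
      intro hna
      by_contra hcon
      push Not at hcon
      exact hw ⟨hna, hcon⟩
    by_cases hna : IsNonarchimedean (av w)
    · obtain ⟨x, hx⟩ := hw hna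
      right
      refine Set.mem_iUnion.mpr ⟨x, ?_⟩
      have hx0 : t x ≠ 0 := by
        intro h0
        rw [h0, map_zero] at hx
        linarith
      rw [if_neg hx0]
      intro (h : av w (t x) = 1)
      linarith
    · left; exact hna
  refine Set.Finite.subset (h2.union (Set.finite_iUnion fun x => ?_)) hsub
  split_ifs with h0
  · exact Set.finite_empty
  · exact h1 _ h0

end Basics

section Table

variable {K : Type*} [Field K] {a b c : ℕ}

/-- structure constants of a multiplication table -/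
def h7_sc (mu : (Fin a → K) →ₗ[K] (Fin b → K) →ₗ[K] (Fin c → K)) (i : Fin a) (j : Fin b)
    (k : Fin c) : K :=
  mu (fun i' => if i = i' then 1 else 0) (fun j' => if j = j' then 1 else 0) k

theorem h7_mu_expand (mu : (Fin a → K) →ₗ[K] (Fin b → K) →ₗ[K] (Fin c → K)) (s : Fin a → K)
    (u : Fin b → K) (k : Fin c) :
    mu s u k = ∑ i, ∑ j, s i * u j * h7_sc mu i j k := by
  rw [LinearMap.pi_apply_eq_sum_univ mu s]
  simp only [LinearMap.sum_apply, LinearMap.smul_apply, Finset.sum_apply, Pi.smul_apply,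
    smul_eq_mul]
  refine Finset.sum_congr rfl fun i _ => ?_
  rw [LinearMap.pi_apply_eq_sum_univ (mu fun j => if i = j then 1 else 0) u]
  simp only [Finset.sum_apply, Pi.smul_apply, smul_eq_mul, Finset.mul_sum]
  refine Finset.sum_congr rfl fun j _ => ?_
  rw [h7_sc]; ring

end Table


section Products

variable {K : Type*} [Field K] {W : Type*} (av : W → AbsoluteValue K ℝ) {a b c : ℕ}

/-- The certificate statement (Nullstellensatz with local constants), in the shape of
`h59_cert`; it is a hypothesis here. -/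
def h7_CertHyp : Prop :=
  ∀ (σ ι : Type) [Finite σ] [Finite ι] (F : ι → MvPolynomial σ K) (G : MvPolynomial σ K),
    (∀ y : σ → K, (∀ i, eval y (F i) = 0) → eval y G = 0) →
    ∃ e : ℕ, 0 < e ∧ ∃ cc : W → ℝ, (∀ w, 1 ≤ cc w) ∧ {w | cc w ≠ 1}.Finite ∧
      ∀ w (y : σ → K), (∀ x, av w (y x) ≤ 1) → ∀ B : ℝ, 0 ≤ B →
        (∀ i, av w (eval y (F i)) ≤ B) → av w (eval y G) ^ e ≤ cc w * B

/-- (E2), upper bound: `‖mu s u‖ ≤ C ‖s‖ ‖u‖`. -/
theorem h7_prod_norm_le (h1 : ∀ α : K, α ≠ 0 → {w | av w α ≠ 1}.Finite)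
    (h2 : {w | ¬ IsNonarchimedean (av w)}.Finite)
    (mu : (Fin a → K) →ₗ[K] (Fin b → K) →ₗ[K] (Fin c → K)) :
    ∃ C : W → ℝ, (∀ w, 1 ≤ C w) ∧ {w | C w ≠ 1}.Finite ∧ ∀ w (s : Fin a → K) (u : Fin b → K),
      (⨆ k, av w (mu s u k)) ≤ C w * ((⨆ i, av w (s i)) * ⨆ j, av w (u j)) := by
  classical
  let t : Fin a × Fin b × Fin c → K := fun x => h7_sc mu x.1 x.2.1 x.2.2
  let good : W → Prop := fun w => IsNonarchimedean (av w) ∧ ∀ x, av w (t x) ≤ 1
  let Mw : W → ℝ := fun w => ⨆ x, av w (t x)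
  refine ⟨fun w => if good w then 1 else max 1 (a * b * Mw w), fun w => ?_, ?_, ?_⟩
  · show (1 : ℝ) ≤ if good w then 1 else max 1 (a * b * Mw w)
    split_ifs
    · exact le_rfl
    · exact le_max_left _ _
  · refine Set.Finite.subset (h7_bad_finite av h1 h2 t) ?_
    intro w hw hg
    apply hw
    show (if good w then (1 : ℝ) else max 1 (a * b * Mw w)) = 1
    rw [if_pos hg]
  · intro w s u
    show (⨆ k, av w (mu s u k)) ≤
      (if good w then (1 : ℝ) else max 1 (a * b * Mw w)) * ((⨆ i, av w (s i)) * ⨆ j, av w (u j))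
    set S := ⨆ i, av w (s i) with hS
    set U := ⨆ j, av w (u j) with hU
    have hS0 : 0 ≤ S := h7_sup_nonneg _ _
    have hU0 : 0 ≤ U := h7_sup_nonneg _ _
    have hM0 : 0 ≤ Mw w := h7_sup_nonneg _ _
    have hterm : ∀ i j k, av w (s i * u j * h7_sc mu i j k) ≤ S * U * av w (h7_sc mu i j k) := by
      intro i j k
      rw [map_mul, map_mul]
      exact mul_le_mul_of_nonneg_right
        (mul_le_mul (h7_le_sup _ _ i) (h7_le_sup _ _ j) ((av w).nonneg _) hS0) ((av w).nonneg _)
    by_cases hg : good w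
    · rw [if_pos hg, one_mul]
      apply h7_sup_le _ _ (mul_nonneg hS0 hU0)
      intro k
      rw [h7_mu_expand]
      apply h7_nonarch_sum_le _ hg.1 _ _ (mul_nonneg hS0 hU0)
      intro i _
      apply h7_nonarch_sum_le _ hg.1 _ _ (mul_nonneg hS0 hU0)
      intro j _
      refine (hterm i j k).trans ?_
      have := hg.2 (i, j, k)
      calc S * U * av w (h7_sc mu i j k) ≤ S * U * 1 :=
            mul_le_mul_of_nonneg_left this (mul_nonneg hS0 hU0)
        _ = S * U := mul_one _
    · rw [if_neg hg]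
      have hC0 : (0 : ℝ) ≤ max 1 (a * b * Mw w) := le_trans zero_le_one (le_max_left _ _)
      apply h7_sup_le _ _ (mul_nonneg hC0 (mul_nonneg hS0 hU0))
      intro k
      rw [h7_mu_expand]
      have hin : ∀ i, av w (∑ j, s i * u j * h7_sc mu i j k) ≤ b * (S * U * Mw w) := by
        intro i
        have := h7_arch_sum_le (av w) Finset.univ (fun j => s i * u j * h7_sc mu i j k)
          (B := S * U * Mw w) (fun j _ => (hterm i j k).trans
            (mul_le_mul_of_nonneg_left (h7_le_sup (av w) t (i, j, k)) (mul_nonneg hS0 hU0)))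
        simpa using this
      have hout := h7_arch_sum_le (av w) Finset.univ (fun i => ∑ j, s i * u j * h7_sc mu i j k)
        (B := b * (S * U * Mw w)) (fun i _ => hin i)
      simp only [Finset.card_univ, Fintype.card_fin] at hout
      calc av w (∑ i, ∑ j, s i * u j * h7_sc mu i j k) ≤ a * (b * (S * U * Mw w)) := hout
        _ = (a * b * Mw w) * (S * U) := by ring
        _ ≤ max 1 (a * b * Mw w) * (S * U) :=
            mul_le_mul_of_nonneg_right (le_max_right _ _) (mul_nonneg hS0 hU0)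

/-- (E2), lower bound: `‖s‖ ‖u‖ ≤ C ‖mu s u‖` for a table without zero divisors. -/
theorem h7_prod_norm_ge (hc : h7_CertHyp av)
    (mu : (Fin a → K) →ₗ[K] (Fin b → K) →ₗ[K] (Fin c → K))
    (hmu : ∀ s u, mu s u = 0 → s = 0 ∨ u = 0) :
    ∃ C : W → ℝ, (∀ w, 1 ≤ C w) ∧ {w | C w ≠ 1}.Finite ∧ ∀ w (s : Fin a → K) (u : Fin b → K),
      (⨆ i, av w (s i)) * (⨆ j, av w (u j)) ≤ C w * ⨆ k, av w (mu s u k) := by
  classical
  let F : Fin c → MvPolynomial (Fin a ⊕ Fin b) K := fun k =>
    ∑ i, ∑ j, C (h7_sc mu i j k) * X (Sum.inl i) * X (Sum.inr j)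
  have hF : ∀ (y : Fin a ⊕ Fin b → K) k,
      eval y (F k) = mu (fun i => y (Sum.inl i)) (fun j => y (Sum.inr j)) k := by
    intro y k
    rw [h7_mu_expand]
    simp only [F, map_sum, map_mul, eval_C, eval_X]
    exact Finset.sum_congr rfl fun i _ => Finset.sum_congr rfl fun j _ => by ring
  have hG : ∀ (x : Fin a × Fin b) (y : Fin a ⊕ Fin b → K), (∀ k, eval y (F k) = 0) →
      eval y (X (Sum.inl x.1) * X (Sum.inr x.2) : MvPolynomial (Fin a ⊕ Fin b) K) = 0 := by
    intro x y hy
    have h0 : mu (fun i => y (Sum.inl i)) (fun j => y (Sum.inr j)) = 0 :=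
      funext fun k => by rw [← hF]; exact hy k
    rcases hmu _ _ h0 with h | h
    · simp [show y (Sum.inl x.1) = 0 from congrFun h x.1]
    · simp [show y (Sum.inr x.2) = 0 from congrFun h x.2]
  choose e he cc hcc1 hccfin hccb using fun (x : Fin a × Fin b) =>
    hc (Fin a ⊕ Fin b) (Fin c) F _ (hG x)
  have hsum0 : ∀ w, 0 ≤ ∑ x, (cc x w - 1) := fun w =>
    Finset.sum_nonneg fun x _ => by linarith [hcc1 x w]
  refine ⟨fun w => 1 + ∑ x, (cc x w - 1), fun w => by linarith [hsum0 w], ?_, ?_⟩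
  · refine Set.Finite.subset (Set.finite_iUnion fun x => hccfin x) ?_
    intro w hw
    by_contra hcon
    apply hw
    have hall : ∀ x, cc x w = 1 := by
      intro x
      by_contra h
      exact hcon (Set.mem_iUnion.mpr ⟨x, h⟩)
    show 1 + ∑ x, (cc x w - 1) = 1
    simp [hall]
  · intro w s u
    show (⨆ i, av w (s i)) * (⨆ j, av w (u j)) ≤ (1 + ∑ x, (cc x w - 1)) * ⨆ k, av w (mu s u k)
    set S := ⨆ i, av w (s i) with hS
    set U := ⨆ j, av w (u j) with hU
    set P := ⨆ k, av w (mu s u k) with hP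
    have hS0 : 0 ≤ S := h7_sup_nonneg _ _
    have hU0 : 0 ≤ U := h7_sup_nonneg _ _
    have hP0 : 0 ≤ P := h7_sup_nonneg _ _
    have hCge : ∀ x, cc x w ≤ 1 + ∑ x, (cc x w - 1) := fun x => by
      have := Finset.single_le_sum (f := fun x => cc x w - 1)
        (fun x _ => by linarith [hcc1 x w]) (Finset.mem_univ x)
      linarith
    have hC0 : 0 ≤ 1 + ∑ x, (cc x w - 1) := by linarith [hsum0 w]
    by_cases hSz : S = 0
    · rw [hSz, zero_mul]; exact mul_nonneg hC0 hP0
    by_cases hUz : U = 0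
    · rw [hUz, mul_zero]; exact mul_nonneg hC0 hP0
    have hSpos : 0 < S := lt_of_le_of_ne hS0 (Ne.symm hSz)
    have hUpos : 0 < U := lt_of_le_of_ne hU0 (Ne.symm hUz)
    have hne_a : Nonempty (Fin a) := by
      by_contra h
      rw [not_nonempty_iff] at h
      exact hSz (Real.iSup_of_isEmpty _)
    have hne_b : Nonempty (Fin b) := by
      by_contra h
      rw [not_nonempty_iff] at h
      exact hUz (Real.iSup_of_isEmpty _)
    obtain ⟨i0, hi0⟩ := h7_exists_sup (av w) s
    obtain ⟨j0, hj0⟩ := h7_exists_sup (av w) u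
    rw [← hS] at hi0
    rw [← hU] at hj0
    have hsi0 : s i0 ≠ 0 := by
      intro h
      rw [h, map_zero] at hi0
      exact hSz hi0.symm
    have huj0 : u j0 ≠ 0 := by
      intro h
      rw [h, map_zero] at hj0
      exact hUz hj0.symm
    let y : Fin a ⊕ Fin b → K := Sum.elim (fun i => s i / s i0) (fun j => u j / u j0)
    have hy1 : ∀ x, av w (y x) ≤ 1 := by
      rintro (i | j)
      · simp only [y, Sum.elim_inl, map_div₀]
        rw [hi0, div_le_one hSpos]
        exact h7_le_sup _ _ _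
      · simp only [y, Sum.elim_inr, map_div₀]
        rw [hj0, div_le_one hUpos]
        exact h7_le_sup _ _ _
    have hmuy : mu (fun i => y (Sum.inl i)) (fun j => y (Sum.inr j)) =
        ((s i0)⁻¹ * (u j0)⁻¹) • mu s u := by
      have e1 : (fun i => y (Sum.inl i)) = (s i0)⁻¹ • s := by
        funext i; simp [y, div_eq_inv_mul]
      have e2 : (fun j => y (Sum.inr j)) = (u j0)⁻¹ • u := by
        funext j; simp [y, div_eq_inv_mul]
      rw [e1, e2]
      simp only [map_smul, LinearMap.smul_apply, smul_smul]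
      rw [mul_comm]
    have hFy : ∀ k, av w (eval y (F k)) ≤ P / (S * U) := by
      intro k
      rw [hF, hmuy, Pi.smul_apply, smul_eq_mul, map_mul, map_mul, map_inv₀, map_inv₀, hi0, hj0,
        div_eq_inv_mul, mul_inv]
      exact mul_le_mul_of_nonneg_left (h7_le_sup _ _ k) (by positivity)
    have hval : eval y (X (Sum.inl i0) * X (Sum.inr j0) : MvPolynomial (Fin a ⊕ Fin b) K) = 1 := by
      simp [y, div_self hsi0, div_self huj0]
    have hcert := hccb (i0, j0) w y hy1 (P / (S * U)) (by positivity) hFy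
    rw [hval, map_one, one_pow] at hcert
    have hSU : 0 < S * U := mul_pos hSpos hUpos
    calc S * U = 1 * (S * U) := (one_mul _).symm
      _ ≤ (cc (i0, j0) w * (P / (S * U))) * (S * U) := mul_le_mul_of_nonneg_right hcert hSU.le
      _ = cc (i0, j0) w * P := by field_simp
      _ ≤ (1 + ∑ x, (cc x w - 1)) * P := mul_le_mul_of_nonneg_right (hCge _) hP0


/-- The rows of `B` multiplied by `s` (through the table `mu`). -/
def h7_rowMul {r : ℕ} (mu : (Fin a → K) →ₗ[K] (Fin b → K) →ₗ[K] (Fin c → K)) (s : Fin a → K)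
    (B : Matrix (Fin r) (Fin b) K) : Matrix (Fin r) (Fin c) K :=
  Matrix.of fun ρ k => mu s (B ρ) k

theorem h7_rowMul_submatrix {r : ℕ} (mu : (Fin a → K) →ₗ[K] (Fin b → K) →ₗ[K] (Fin c → K))
    (s : Fin a → K) (B : Matrix (Fin r) (Fin b) K) (f : Fin r → Fin c) :
    (h7_rowMul mu s B).submatrix id f =
      B * (Matrix.of fun (j : Fin b) (ρ' : Fin r) => ∑ i, s i * h7_sc mu i j (f ρ')) := by
  ext ρ ρ'
  simp only [h7_rowMul, Matrix.submatrix_apply, Matrix.of_apply, id, Matrix.mul_apply]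
  rw [h7_mu_expand, Finset.sum_comm]
  refine Finset.sum_congr rfl fun j _ => ?_
  rw [Finset.mul_sum]
  exact Finset.sum_congr rfl fun i _ => by ring

/-- (E1), upper bound: `‖B M_s‖ ≤ C ‖B‖ ‖s‖ ^ r` (max-norms of maximal minors). -/
theorem h7_prod_minors_le (h1 : ∀ α : K, α ≠ 0 → {w | av w α ≠ 1}.Finite)
    (h2 : {w | ¬ IsNonarchimedean (av w)}.Finite)
    (mu : (Fin a → K) →ₗ[K] (Fin b → K) →ₗ[K] (Fin c → K)) (r : ℕ) :
    ∃ C : W → ℝ, (∀ w, 1 ≤ C w) ∧ {w | C w ≠ 1}.Finite ∧
      ∀ w (B : Matrix (Fin r) (Fin b) K) (s : Fin a → K),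
        (⨆ f : Fin r → Fin c, av w (((h7_rowMul mu s B).submatrix id f).det)) ≤
          C w * ((⨆ f : Fin r → Fin b, av w ((B.submatrix id f).det)) *
            (⨆ i, av w (s i)) ^ r) := by
  classical
  let t : Fin a × Fin b × Fin c → K := fun x => h7_sc mu x.1 x.2.1 x.2.2
  let good : W → Prop := fun w => IsNonarchimedean (av w) ∧ ∀ x, av w (t x) ≤ 1
  let Mw : W → ℝ := fun w => ⨆ x, av w (t x)
  refine ⟨fun w => if good w then 1 else max 1 ((b : ℝ) ^ r * (a * Mw w) ^ r), fun w => ?_, ?_, ?_⟩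
  · show (1 : ℝ) ≤ if good w then 1 else max 1 ((b : ℝ) ^ r * (a * Mw w) ^ r)
    split_ifs
    · exact le_rfl
    · exact le_max_left _ _
  · refine Set.Finite.subset (h7_bad_finite av h1 h2 t) ?_
    intro w hw hg
    apply hw
    show (if good w then (1 : ℝ) else max 1 ((b : ℝ) ^ r * (a * Mw w) ^ r)) = 1
    rw [if_pos hg]
  · intro w B s
    show (⨆ f : Fin r → Fin c, av w (((h7_rowMul mu s B).submatrix id f).det)) ≤
      (if good w then (1 : ℝ) else max 1 ((b : ℝ) ^ r * (a * Mw w) ^ r)) *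
        ((⨆ f : Fin r → Fin b, av w ((B.submatrix id f).det)) * (⨆ i, av w (s i)) ^ r)
    set S := ⨆ i, av w (s i) with hS
    set mB := ⨆ f : Fin r → Fin b, av w ((B.submatrix id f).det) with hmB
    have hS0 : 0 ≤ S := h7_sup_nonneg _ _
    have hmB0 : 0 ≤ mB := h7_sup_nonneg (av w) fun f : Fin r → Fin b => (B.submatrix id f).det
    have hM0 : 0 ≤ Mw w := h7_sup_nonneg _ _
    have hminor : ∀ f' : Fin r → Fin b, av w ((B.submatrix id f').det) ≤ mB := fun f' =>
      h7_le_sup (av w) (fun f : Fin r → Fin b => (B.submatrix id f).det) f'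
    by_cases hg : good w
    · rw [if_pos hg, one_mul]
      apply h7_sup_le (av w) (fun f : Fin r → Fin c => ((h7_rowMul mu s B).submatrix id f).det)
        (mul_nonneg hmB0 (pow_nonneg hS0 r))
      intro f
      rw [h7_rowMul_submatrix, h7_det_mul_expand]
      apply h7_nonarch_sum_le _ hg.1 _ _ (mul_nonneg hmB0 (pow_nonneg hS0 r))
      intro f' _
      rw [map_mul, map_prod, mul_comm]
      apply mul_le_mul (hminor f') _ (Finset.prod_nonneg fun _ _ => (av w).nonneg _) hmB0
      calc ∏ ρ : Fin r, av w (∑ i, s i * h7_sc mu i (f' ρ) (f ρ)) ≤ ∏ _ρ : Fin r, S := by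
            apply Finset.prod_le_prod (fun _ _ => (av w).nonneg _)
            intro ρ _
            apply h7_nonarch_sum_le _ hg.1 _ _ hS0
            intro i _
            rw [map_mul]
            calc av w (s i) * av w (h7_sc mu i (f' ρ) (f ρ)) ≤ S * 1 :=
                  mul_le_mul (h7_le_sup _ _ i) (hg.2 (i, f' ρ, f ρ)) ((av w).nonneg _) hS0
              _ = S := mul_one _
        _ = S ^ r := by simp
    · rw [if_neg hg]
      have hC0 : (0 : ℝ) ≤ max 1 ((b : ℝ) ^ r * (a * Mw w) ^ r) :=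
        le_trans zero_le_one (le_max_left _ _)
      apply h7_sup_le (av w) (fun f : Fin r → Fin c => ((h7_rowMul mu s B).submatrix id f).det)
        (mul_nonneg hC0 (mul_nonneg hmB0 (pow_nonneg hS0 r)))
      intro f
      rw [h7_rowMul_submatrix, h7_det_mul_expand]
      have hent : ∀ (j : Fin b) (ρ : Fin r), av w (∑ i, s i * h7_sc mu i j (f ρ)) ≤ a * (S * Mw w) := by
        intro j ρ
        have := h7_arch_sum_le (av w) Finset.univ (fun i => s i * h7_sc mu i j (f ρ))
          (B := S * Mw w) (fun i _ => by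
            rw [map_mul]
            exact mul_le_mul (h7_le_sup _ _ i) (h7_le_sup (av w) t (i, j, f ρ))
              ((av w).nonneg _) hS0)
        simpa using this
      have hterm : ∀ f' : Fin r → Fin b,
          av w ((∏ ρ, (Matrix.of fun (j : Fin b) (ρ' : Fin r) =>
            ∑ i, s i * h7_sc mu i j (f ρ')) (f' ρ) ρ) * (B.submatrix id f').det) ≤
            (a * (S * Mw w)) ^ r * mB := by
        intro f'
        rw [map_mul, map_prod]
        apply mul_le_mul _ (hminor f') ((av w).nonneg _)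
          (pow_nonneg (mul_nonneg (Nat.cast_nonneg a) (mul_nonneg hS0 hM0)) r)
        calc ∏ ρ : Fin r, av w ((Matrix.of fun (j : Fin b) (ρ' : Fin r) =>
                ∑ i, s i * h7_sc mu i j (f ρ')) (f' ρ) ρ) ≤ ∏ _ρ : Fin r, (a * (S * Mw w)) := by
              apply Finset.prod_le_prod (fun _ _ => (av w).nonneg _)
              intro ρ _
              exact hent (f' ρ) ρ
          _ = (a * (S * Mw w)) ^ r := by simp
      have hsum := h7_arch_sum_le (av w) Finset.univ
        (fun f' : Fin r → Fin b => (∏ ρ, (Matrix.of fun (j : Fin b) (ρ' : Fin r) =>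
            ∑ i, s i * h7_sc mu i j (f ρ')) (f' ρ) ρ) * (B.submatrix id f').det)
        (B := (a * (S * Mw w)) ^ r * mB) (fun f' _ => hterm f')
      simp only [Finset.card_univ, Fintype.card_pi, Finset.prod_const, Fintype.card_fin,
        Nat.cast_pow] at hsum
      calc _ ≤ (b : ℝ) ^ r * ((a * (S * Mw w)) ^ r * mB) := hsum
        _ = ((b : ℝ) ^ r * (a * Mw w) ^ r) * (mB * S ^ r) := by
            rw [show (a : ℝ) * (S * Mw w) = (a * Mw w) * S by ring, mul_pow]; ring
        _ ≤ max 1 ((b : ℝ) ^ r * (a * Mw w) ^ r) * (mB * S ^ r) :=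
            mul_le_mul_of_nonneg_right (le_max_right _ _) (mul_nonneg hmB0 (pow_nonneg hS0 r))

/-- Row reduction on the columns `f0`: the entries of `E_f0⁻¹ * E` are ratios of minors. -/
theorem h7_rowred_entry {r : ℕ} (B : Matrix (Fin r) (Fin b) K) (f0 : Fin r → Fin b)
    (hdet : (B.submatrix id f0).det ≠ 0) (ρ : Fin r) (j : Fin b) :
    (B.submatrix id f0).det * ((B.submatrix id f0)⁻¹ * B) ρ j =
      (B.submatrix id (Function.update f0 ρ j)).det := by
  classical
  set A := B.submatrix id f0 with hA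
  have h1 : (A⁻¹ * B) ρ j = (A.det)⁻¹ * Matrix.cramer A (fun ρ' => B ρ' j) ρ := by
    rw [Matrix.inv_def, Ring.inverse_eq_inv', Matrix.cramer_eq_adjugate_mulVec]
    simp [Matrix.mul_apply, Matrix.mulVec, dotProduct, Finset.mul_sum, mul_assoc]
  rw [h1, ← mul_assoc, mul_inv_cancel₀ hdet, one_mul, Matrix.cramer_apply]
  congr 1
  ext x y
  by_cases hy : y = ρ
  · subst hy; simp [hA]
  · simp [hA, hy]

/-- (E1), lower bound: `‖B‖ ‖s‖ ^ r ≤ C ‖B M_s‖` for a table without zero divisors. -/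
theorem h7_prod_minors_ge (hc : h7_CertHyp av)
    (mu : (Fin a → K) →ₗ[K] (Fin b → K) →ₗ[K] (Fin c → K))
    (hmu : ∀ s u, mu s u = 0 → s = 0 ∨ u = 0) (r : ℕ) :
    ∃ C : W → ℝ, (∀ w, 1 ≤ C w) ∧ {w | C w ≠ 1}.Finite ∧
      ∀ w (B : Matrix (Fin r) (Fin b) K) (s : Fin a → K),
        (⨆ f : Fin r → Fin b, av w ((B.submatrix id f).det)) * (⨆ i, av w (s i)) ^ r ≤
          C w * ⨆ f : Fin r → Fin c, av w (((h7_rowMul mu s B).submatrix id f).det) := by
  classical
  rcases Nat.eq_zero_or_pos r with rfl | hr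
  · refine ⟨fun _ => 1, fun _ => le_rfl, by simp, ?_⟩
    intro w B s
    simp [Matrix.det_fin_zero, ciSup_unique]
  let Bp : Matrix (Fin r) (Fin b) (MvPolynomial ((Fin r × Fin b) ⊕ Fin a) K) :=
    Matrix.of fun ρ j => X (Sum.inl (ρ, j))
  let BMp : Matrix (Fin r) (Fin c) (MvPolynomial ((Fin r × Fin b) ⊕ Fin a) K) :=
    Matrix.of fun ρ k => ∑ i, ∑ j, C (h7_sc mu i j k) * X (Sum.inr i) * X (Sum.inl (ρ, j))
  let F : (Fin r → Fin c) → MvPolynomial ((Fin r × Fin b) ⊕ Fin a) K := fun f =>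
    (BMp.submatrix id f).det
  let G : Fin a × (Fin r → Fin b) → MvPolynomial ((Fin r × Fin b) ⊕ Fin a) K := fun x =>
    X (Sum.inr x.1) * (Bp.submatrix id x.2).det
  let sy : ((Fin r × Fin b) ⊕ Fin a → K) → Fin a → K := fun y i => y (Sum.inr i)
  let By : ((Fin r × Fin b) ⊕ Fin a → K) → Matrix (Fin r) (Fin b) K := fun y =>
    Matrix.of fun ρ j => y (Sum.inl (ρ, j))
  have hF : ∀ (y : (Fin r × Fin b) ⊕ Fin a → K) (f : Fin r → Fin c),
      eval y (F f) = ((h7_rowMul mu (sy y) (By y)).submatrix id f).det := by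
    intro y f
    simp only [F]
    rw [RingHom.map_det]
    congr 1
    ext ρ ρ'
    simp only [RingHom.mapMatrix_apply, Matrix.map_apply, Matrix.submatrix_apply, id, BMp,
      Matrix.of_apply, h7_rowMul, sy, By]
    rw [h7_mu_expand]
    simp only [map_sum, map_mul, eval_C, eval_X, Matrix.of_apply]
    exact Finset.sum_congr rfl fun i _ => Finset.sum_congr rfl fun j _ => by ring
  have hGe : ∀ (y : (Fin r × Fin b) ⊕ Fin a → K) (x : Fin a × (Fin r → Fin b)),
      eval y (G x) = sy y x.1 * ((By y).submatrix id x.2).det := by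
    intro y x
    simp only [G, map_mul, eval_X]
    rw [RingHom.map_det]
    congr 2
    ext ρ ρ'
    simp [Bp, By]
  have hG : ∀ (x : Fin a × (Fin r → Fin b)) (y : (Fin r × Fin b) ⊕ Fin a → K),
      (∀ f, eval y (F f) = 0) → eval y (G x) = 0 := by
    intro x y hy
    rw [hGe]
    by_contra hne
    have hs : sy y x.1 ≠ 0 := left_ne_zero_of_mul hne
    have hd : ((By y).submatrix id x.2).det ≠ 0 := right_ne_zero_of_mul hne
    have hdep : ¬ ∀ cv : Fin r → K, cv ᵥ* (h7_rowMul mu (sy y) (By y)) = 0 → cv = 0 := by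
      intro hind
      obtain ⟨f, hf⟩ := h7_exists_minor_ne_zero _ hind
      exact hf (by rw [← hF]; exact hy f)
    push Not at hdep
    obtain ⟨cv, hcv, hcv0⟩ := hdep
    have hmu0 : mu (sy y) (cv ᵥ* By y) = 0 := by
      have hvm : cv ᵥ* By y = ∑ ρ, cv ρ • (By y) ρ := by
        ext j; simp [Matrix.vecMul, dotProduct, Finset.sum_apply]
      rw [hvm, map_sum]
      funext k
      have hk := congrFun hcv k
      simp only [Matrix.vecMul, dotProduct, h7_rowMul, Matrix.of_apply, Pi.zero_apply] at hk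
      simp only [map_smul, Finset.sum_apply, Pi.smul_apply, smul_eq_mul, Pi.zero_apply]
      exact hk
    rcases hmu _ _ hmu0 with h | h
    · exact hs (congrFun h x.1)
    · apply hd
      apply Matrix.exists_vecMul_eq_zero_iff.mp
      refine ⟨cv, hcv0, ?_⟩
      ext ρ'
      have := congrFun h (x.2 ρ')
      simpa [Matrix.vecMul, dotProduct] using this
  choose e he cc hcc1 hccfin hccb using fun (x : Fin a × (Fin r → Fin b)) =>
    hc ((Fin r × Fin b) ⊕ Fin a) (Fin r → Fin c) F (G x) (hG x)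
  have hsum0 : ∀ w, 0 ≤ ∑ x, (cc x w - 1) := fun w =>
    Finset.sum_nonneg fun x _ => by linarith [hcc1 x w]
  refine ⟨fun w => 1 + ∑ x, (cc x w - 1), fun w => by linarith [hsum0 w], ?_, ?_⟩
  · refine Set.Finite.subset (Set.finite_iUnion fun x => hccfin x) ?_
    intro w hw
    by_contra hcon
    apply hw
    have hall : ∀ x, cc x w = 1 := by
      intro x
      by_contra h
      exact hcon (Set.mem_iUnion.mpr ⟨x, h⟩)
    show 1 + ∑ x, (cc x w - 1) = 1
    simp [hall]
  · intro w B s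
    show (⨆ f : Fin r → Fin b, av w ((B.submatrix id f).det)) * (⨆ i, av w (s i)) ^ r ≤
      (1 + ∑ x, (cc x w - 1)) *
        ⨆ f : Fin r → Fin c, av w (((h7_rowMul mu s B).submatrix id f).det)
    set S := ⨆ i, av w (s i) with hS
    set mB := ⨆ f : Fin r → Fin b, av w ((B.submatrix id f).det) with hmB
    set mBM := ⨆ f : Fin r → Fin c, av w (((h7_rowMul mu s B).submatrix id f).det) with hmBM
    have hS0 : 0 ≤ S := h7_sup_nonneg _ _
    have hmB0 : 0 ≤ mB := h7_sup_nonneg (av w) fun f : Fin r → Fin b => (B.submatrix id f).det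
    have hmBM0 : 0 ≤ mBM := h7_sup_nonneg (av w)
      fun f : Fin r → Fin c => ((h7_rowMul mu s B).submatrix id f).det
    have hCge : ∀ x, cc x w ≤ 1 + ∑ x, (cc x w - 1) := fun x => by
      have := Finset.single_le_sum (f := fun x => cc x w - 1)
        (fun x _ => by linarith [hcc1 x w]) (Finset.mem_univ x)
      linarith
    have hC0 : 0 ≤ 1 + ∑ x, (cc x w - 1) := by linarith [hsum0 w]
    by_cases hmBz : mB = 0
    · rw [hmBz, zero_mul]; exact mul_nonneg hC0 hmBM0
    by_cases hSr : S ^ r = 0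
    · rw [hSr, mul_zero]; exact mul_nonneg hC0 hmBM0
    have hmBpos : 0 < mB := lt_of_le_of_ne hmB0 (Ne.symm hmBz)
    have hSrpos : 0 < S ^ r := lt_of_le_of_ne (pow_nonneg hS0 r) (Ne.symm hSr)
    have hne_f : Nonempty (Fin r → Fin b) := by
      by_contra h
      rw [not_nonempty_iff] at h
      exact hmBz (Real.iSup_of_isEmpty _)
    obtain ⟨f0, hf0⟩ := h7_exists_sup (av w) (fun f : Fin r → Fin b => (B.submatrix id f).det)
    rw [← hmB] at hf0
    have hdet : (B.submatrix id f0).det ≠ 0 := by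
      intro h
      rw [h, map_zero] at hf0
      exact hmBz hf0.symm
    set A := B.submatrix id f0 with hA
    have hAunit : IsUnit A.det := isUnit_iff_ne_zero.mpr hdet
    -- the normalised point
    have hSz : S ≠ 0 := by
      intro h
      rw [h, zero_pow hr.ne'] at hSr
      exact hSr rfl
    have hSpos : 0 < S := lt_of_le_of_ne hS0 (Ne.symm hSz)
    have hne_a : Nonempty (Fin a) := by
      by_contra h
      rw [not_nonempty_iff] at h
      exact hSz (Real.iSup_of_isEmpty _)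
    obtain ⟨i0, hi0⟩ := h7_exists_sup (av w) s
    rw [← hS] at hi0
    have hsi0 : s i0 ≠ 0 := by
      intro h
      rw [h, map_zero] at hi0
      exact hSz hi0.symm
    let y : (Fin r × Fin b) ⊕ Fin a → K :=
      Sum.elim (fun x : Fin r × Fin b => (A⁻¹ * B) x.1 x.2) (fun i => s i / s i0)
    have hy1 : ∀ x, av w (y x) ≤ 1 := by
      rintro (⟨ρ, j⟩ | i)
      · simp only [y, Sum.elim_inl]
        have h1 := h7_rowred_entry B f0 hdet ρ j
        have h2 : av w A.det * av w ((A⁻¹ * B) ρ j) ≤ av w A.det * 1 := by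
          rw [← map_mul, h1, mul_one, hf0]
          exact h7_le_sup (av w) (fun f : Fin r → Fin b => (B.submatrix id f).det) _
        rw [hf0] at h2
        exact le_of_mul_le_mul_left h2 hmBpos
      · simp only [y, Sum.elim_inr, map_div₀]
        rw [hi0, div_le_one hSpos]
        exact h7_le_sup _ _ _
    have hsy : sy y = (s i0)⁻¹ • s := by
      funext i; simp [sy, y, div_eq_inv_mul]
    have hBy : By y = A⁻¹ * B := by
      ext ρ j; simp [By, y]
    have hrow : h7_rowMul mu ((s i0)⁻¹ • s) (A⁻¹ * B) = (s i0)⁻¹ • (A⁻¹ * h7_rowMul mu s B) := by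
      ext ρ k
      have hrowB : (A⁻¹ * B) ρ = ∑ ρ', A⁻¹ ρ ρ' • B ρ' := by
        ext j; simp [Matrix.mul_apply, Finset.sum_apply]
      simp only [h7_rowMul, Matrix.of_apply, Matrix.smul_apply, Matrix.mul_apply, smul_eq_mul]
      rw [hrowB, map_smul, LinearMap.smul_apply, map_sum]
      simp only [map_smul, Pi.smul_apply, Finset.sum_apply, smul_eq_mul]
    have hFy : ∀ f, av w (eval y (F f)) ≤ mBM / (mB * S ^ r) := by
      intro f
      have hsub : ((s i0)⁻¹ • (A⁻¹ * h7_rowMul mu s B)).submatrix id f =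
          (s i0)⁻¹ • (A⁻¹ * (h7_rowMul mu s B).submatrix id f) := by
        ext ρ ρ'; simp [Matrix.mul_apply]
      rw [hF, hsy, hBy, hrow, hsub, Matrix.det_smul, Matrix.det_mul, Matrix.det_nonsing_inv,
        Ring.inverse_eq_inv', Fintype.card_fin, map_mul, map_mul, map_pow, map_inv₀, map_inv₀,
        hi0, hf0]
      have hle : av w (((h7_rowMul mu s B).submatrix id f).det) ≤ mBM :=
        h7_le_sup (av w) (fun f : Fin r → Fin c => ((h7_rowMul mu s B).submatrix id f).det) f
      rw [div_eq_inv_mul, mul_inv, inv_pow, mul_comm (mB⁻¹) ((S ^ r)⁻¹), mul_assoc]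
      exact mul_le_mul_of_nonneg_left
        (mul_le_mul_of_nonneg_left hle (inv_nonneg.mpr hmB0)) (by positivity)
    have hval : eval y (G (i0, f0)) = 1 := by
      rw [hGe, hsy, hBy]
      have h1 : (A⁻¹ * B).submatrix id f0 = 1 := by
        have : (A⁻¹ * B).submatrix id f0 = A⁻¹ * A := by
          ext ρ ρ'; simp [Matrix.mul_apply, hA]
        rw [this, Matrix.nonsing_inv_mul _ hAunit]
      rw [h1, Matrix.det_one, mul_one]
      simp [inv_mul_cancel₀ hsi0]
    have hcert := hccb (i0, f0) w y hy1 (mBM / (mB * S ^ r)) (by positivity) hFy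
    rw [hval, map_one, one_pow] at hcert
    have hpos : 0 < mB * S ^ r := mul_pos hmBpos hSrpos
    calc mB * S ^ r = 1 * (mB * S ^ r) := (one_mul _).symm
      _ ≤ (cc (i0, f0) w * (mBM / (mB * S ^ r))) * (mB * S ^ r) :=
          mul_le_mul_of_nonneg_right hcert hpos.le
      _ = cc (i0, f0) w * mBM := by field_simp
      _ ≤ (1 + ∑ x, (cc x w - 1)) * mBM := mul_le_mul_of_nonneg_right (hCge _) hmBM0

/-- The certificate hypothesis holds over an algebraically closed field (`h59_cert`). -/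
theorem h7_certHyp_of [IsAlgClosed K] (h1 : ∀ α : K, α ≠ 0 → {w | av w α ≠ 1}.Finite)
    (h2 : {w | ¬ IsNonarchimedean (av w)}.Finite) : h7_CertHyp av := by
  intro σ ι _ _ F G hG
  have := Fintype.ofFinite ι
  exact h59_cert av h1 h2 F G hG

/-- combining two families of local constants -/
theorem h7_const_mul (C1 C2 : W → ℝ) (hC1 : ∀ w, 1 ≤ C1 w) (hC2 : ∀ w, 1 ≤ C2 w)
    (f1 : {w | C1 w ≠ 1}.Finite) (f2 : {w | C2 w ≠ 1}.Finite) :
    (∀ w, 1 ≤ C1 w * C2 w) ∧ {w | C1 w * C2 w ≠ 1}.Finite ∧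
      ∀ w, C1 w ≤ C1 w * C2 w ∧ C2 w ≤ C1 w * C2 w := by
  refine ⟨fun w => ?_, ?_, fun w => ⟨?_, ?_⟩⟩
  · nlinarith [hC1 w, hC2 w]
  · refine (f1.union f2).subset ?_
    intro w hw
    by_contra hcon
    simp only [Set.mem_union, not_or] at hcon
    apply hw
    have e1 : C1 w = 1 := by_contra fun h => hcon.1 h
    have e2 : C2 w = 1 := by_contra fun h => hcon.2 h
    show C1 w * C2 w = 1
    rw [e1, e2, one_mul]
  · nlinarith [hC1 w, hC2 w]
  · nlinarith [hC1 w, hC2 w]

/-- **(E2)** two-sided: `‖mu s u‖_w ~ ‖s‖_w ‖u‖_w`. -/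
theorem h7_prod_norm [IsAlgClosed K] (h1 : ∀ α : K, α ≠ 0 → {w | av w α ≠ 1}.Finite)
    (h2 : {w | ¬ IsNonarchimedean (av w)}.Finite)
    (mu : (Fin a → K) →ₗ[K] (Fin b → K) →ₗ[K] (Fin c → K))
    (hmu : ∀ s u, mu s u = 0 → s = 0 ∨ u = 0) :
    ∃ C : W → ℝ, (∀ w, 1 ≤ C w) ∧ {w | C w ≠ 1}.Finite ∧ ∀ w (s : Fin a → K) (u : Fin b → K),
      (⨆ k, av w (mu s u k)) ≤ C w * ((⨆ i, av w (s i)) * ⨆ j, av w (u j)) ∧
      (⨆ i, av w (s i)) * (⨆ j, av w (u j)) ≤ C w * ⨆ k, av w (mu s u k) := by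
  obtain ⟨C1, hC1, f1, b1⟩ := h7_prod_norm_le av h1 h2 mu
  obtain ⟨C2, hC2, f2, b2⟩ := h7_prod_norm_ge av (h7_certHyp_of av h1 h2) mu hmu
  obtain ⟨g1, g2, g3⟩ := h7_const_mul C1 C2 hC1 hC2 f1 f2
  refine ⟨fun w => C1 w * C2 w, g1, g2, fun w s u => ⟨?_, ?_⟩⟩
  · refine (b1 w s u).trans (mul_le_mul_of_nonneg_right (g3 w).1 ?_)
    exact mul_nonneg (h7_sup_nonneg _ _) (h7_sup_nonneg _ _)
  · refine (b2 w s u).trans (mul_le_mul_of_nonneg_right (g3 w).2 ?_)
    exact h7_sup_nonneg _ _

/-- **(E1)** two-sided: `‖B M_s‖_w ~ ‖B‖_w ‖s‖_w ^ r`. -/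
theorem h7_prod_minors [IsAlgClosed K] (h1 : ∀ α : K, α ≠ 0 → {w | av w α ≠ 1}.Finite)
    (h2 : {w | ¬ IsNonarchimedean (av w)}.Finite)
    (mu : (Fin a → K) →ₗ[K] (Fin b → K) →ₗ[K] (Fin c → K))
    (hmu : ∀ s u, mu s u = 0 → s = 0 ∨ u = 0) (r : ℕ) :
    ∃ C : W → ℝ, (∀ w, 1 ≤ C w) ∧ {w | C w ≠ 1}.Finite ∧
      ∀ w (B : Matrix (Fin r) (Fin b) K) (s : Fin a → K),
        (⨆ f : Fin r → Fin c, av w (((h7_rowMul mu s B).submatrix id f).det)) ≤
          C w * ((⨆ f : Fin r → Fin b, av w ((B.submatrix id f).det)) *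
            (⨆ i, av w (s i)) ^ r) ∧
        (⨆ f : Fin r → Fin b, av w ((B.submatrix id f).det)) * (⨆ i, av w (s i)) ^ r ≤
          C w * ⨆ f : Fin r → Fin c, av w (((h7_rowMul mu s B).submatrix id f).det) := by
  obtain ⟨C1, hC1, f1, b1⟩ := h7_prod_minors_le av h1 h2 mu r
  obtain ⟨C2, hC2, f2, b2⟩ := h7_prod_minors_ge av (h7_certHyp_of av h1 h2) mu hmu r
  obtain ⟨g1, g2, g3⟩ := h7_const_mul C1 C2 hC1 hC2 f1 f2
  refine ⟨fun w => C1 w * C2 w, g1, g2, fun w B s => ⟨?_, ?_⟩⟩
  · refine (b1 w B s).trans (mul_le_mul_of_nonneg_right (g3 w).1 ?_)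
    exact mul_nonneg
      (h7_sup_nonneg (av w) fun f : Fin r → Fin b => (B.submatrix id f).det)
      (pow_nonneg (h7_sup_nonneg _ _) r)
  · refine (b2 w B s).trans (mul_le_mul_of_nonneg_right (g3 w).2 ?_)
    exact h7_sup_nonneg (av w) fun f : Fin r → Fin c => ((h7_rowMul mu s B).submatrix id f).det

end Products

section QbarPlaces

local notation "Qbar" => AlgebraicClosure ℚ

variable {a b c : ℕ}

/-- **(E2) at the places of `ℚ̄`.** -/
theorem h7_prod_norm_h55 (mu : (Fin a → Qbar) →ₗ[Qbar] (Fin b → Qbar) →ₗ[Qbar] (Fin c → Qbar))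
    (hmu : ∀ s u, mu s u = 0 → s = 0 ∨ u = 0) :
    ∃ C : h55_Pl → ℝ, (∀ w, 1 ≤ C w) ∧ {w | C w ≠ 1}.Finite ∧
      ∀ w (s : Fin a → Qbar) (u : Fin b → Qbar),
        h55_nrm w (mu s u) ≤ C w * (h55_nrm w s * h55_nrm w u) ∧
        h55_nrm w s * h55_nrm w u ≤ C w * h55_nrm w (mu s u) :=
  h7_prod_norm h55_av h59_h55_aa h59_h55_nonarch mu hmu

/-- **(E1) at the places of `ℚ̄`.**  (`h55_nrm w fun f => (E.submatrix id f).det` is `h55_mn w E`
of `h55_Frame`, by definition.) -/
theorem h7_prod_minors_h55 (mu : (Fin a → Qbar) →ₗ[Qbar] (Fin b → Qbar) →ₗ[Qbar] (Fin c → Qbar))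
    (hmu : ∀ s u, mu s u = 0 → s = 0 ∨ u = 0) (r : ℕ) :
    ∃ C : h55_Pl → ℝ, (∀ w, 1 ≤ C w) ∧ {w | C w ≠ 1}.Finite ∧
      ∀ w (B : Matrix (Fin r) (Fin b) Qbar) (s : Fin a → Qbar),
        h55_nrm w (fun f : Fin r → Fin c => ((h7_rowMul mu s B).submatrix id f).det) ≤
          C w * (h55_nrm w (fun f : Fin r → Fin b => (B.submatrix id f).det) *
            h55_nrm w s ^ r) ∧
        h55_nrm w (fun f : Fin r → Fin b => (B.submatrix id f).det) * h55_nrm w s ^ r ≤
          C w * h55_nrm w (fun f : Fin r → Fin c => ((h7_rowMul mu s B).submatrix id f).det) :=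
  h7_prod_minors h55_av h59_h55_aa h59_h55_nonarch mu hmu r

/-- the sum over the places of the logarithms of a family of local constants -/
theorem h7_log_const_support (C : h55_Pl → ℝ) (hC : {w | C w ≠ 1}.Finite) :
    (Function.support fun w => Real.log (C w)).Finite := by
  refine hC.subset ?_
  intro w hw h1
  simp only [Function.mem_support, ne_eq] at hw
  exact hw (by rw [h1, Real.log_one])

/-- **Global (E2):** `h(su) = h(s) + h(u) + O(1)`. -/
theorem h7_hgt_mul (mu : (Fin a → Qbar) →ₗ[Qbar] (Fin b → Qbar) →ₗ[Qbar] (Fin c → Qbar))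
    (hmu : ∀ s u, mu s u = 0 → s = 0 ∨ u = 0) :
    ∃ Cg : ℝ, ∀ (s : Fin a → Qbar) (u : Fin b → Qbar), s ≠ 0 → u ≠ 0 →
      |h55_hgt (mu s u) - (h55_hgt s + h55_hgt u)| ≤ Cg := by
  obtain ⟨C, hC1, hCfin, hb⟩ := h7_prod_norm_h55 mu hmu
  refine ⟨∑ᶠ w, Real.log (C w), fun s u hs hu => ?_⟩
  have hsu : mu s u ≠ 0 := fun h => (hmu s u h).elim hs hu
  have hCpos : ∀ w, 0 < C w := fun w => lt_of_lt_of_le zero_lt_one (hC1 w)
  have hsum : h55_hgt s + h55_hgt u =
      ∑ᶠ w, (Real.log (h55_nrm w s) + Real.log (h55_nrm w u)) := by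
    unfold h55_hgt
    rw [finsum_add_distrib (h55_finite_support_log_nrm s) (h55_finite_support_log_nrm u)]
  have hsupp : (Function.support fun w : h55_Pl =>
      Real.log (h55_nrm w s) + Real.log (h55_nrm w u)).Finite :=
    ((h55_finite_support_log_nrm s).union (h55_finite_support_log_nrm u)).subset
      (Function.support_add _ _)
  rw [abs_le]
  constructor
  · -- h(s) + h(u) ≤ h(su) + Σ log C
    have h := h55_finsum_le_add (f := fun w => Real.log (h55_nrm w s) + Real.log (h55_nrm w u))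
      (g := fun w => Real.log (h55_nrm w (mu s u))) (c := C) hsupp
      (h55_finite_support_log_nrm _) hCfin (fun w => by
        have h2 := (hb w s u).2
        have hp : 0 < h55_nrm w s * h55_nrm w u := mul_pos (h55_nrm_pos w hs) (h55_nrm_pos w hu)
        have := Real.log_le_log hp h2
        rw [Real.log_mul (h55_nrm_pos w hs).ne' (h55_nrm_pos w hu).ne',
          Real.log_mul (hCpos w).ne' (h55_nrm_pos w hsu).ne'] at this
        linarith)
    rw [← hsum] at h
    unfold h55_hgt at h ⊢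
    linarith
  · have h := h55_finsum_le_add (f := fun w => Real.log (h55_nrm w (mu s u)))
      (g := fun w => Real.log (h55_nrm w s) + Real.log (h55_nrm w u)) (c := C)
      (h55_finite_support_log_nrm _) hsupp hCfin (fun w => by
        have h2 := (hb w s u).1
        have := Real.log_le_log (h55_nrm_pos w hsu) h2
        rw [Real.log_mul (hCpos w).ne'
            (mul_pos (h55_nrm_pos w hs) (h55_nrm_pos w hu)).ne',
          Real.log_mul (h55_nrm_pos w hs).ne' (h55_nrm_pos w hu).ne'] at this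
        linarith)
    rw [← hsum] at h
    unfold h55_hgt at h ⊢
    linarith

/-- **Global (E1):** `h(sW) = h(W) + r h(s) + O(1)`, where `h(W) = ∑_w log ‖B‖_w` for a matrix
`B` whose rows span `W`. -/
theorem h7_hgt_rowMul (mu : (Fin a → Qbar) →ₗ[Qbar] (Fin b → Qbar) →ₗ[Qbar] (Fin c → Qbar))
    (hmu : ∀ s u, mu s u = 0 → s = 0 ∨ u = 0) (r : ℕ) :
    ∃ Cg : ℝ, ∀ (B : Matrix (Fin r) (Fin b) Qbar) (s : Fin a → Qbar), s ≠ 0 →
      (∃ f : Fin r → Fin b, (B.submatrix id f).det ≠ 0) →
      |h55_hgt (fun f : Fin r → Fin c => ((h7_rowMul mu s B).submatrix id f).det) -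
        (h55_hgt (fun f : Fin r → Fin b => (B.submatrix id f).det) + r * h55_hgt s)| ≤ Cg := by
  obtain ⟨C, hC1, hCfin, hb⟩ := h7_prod_minors_h55 mu hmu r
  refine ⟨∑ᶠ w, Real.log (C w), fun B s hs hB => ?_⟩
  have hCpos : ∀ w, 0 < C w := fun w => lt_of_lt_of_le zero_lt_one (hC1 w)
  have hB0 : (fun f : Fin r → Fin b => (B.submatrix id f).det) ≠ 0 := by
    obtain ⟨f, hf⟩ := hB
    exact fun h => hf (congrFun h f)
  have hmBpos : ∀ w, 0 < h55_nrm w (fun f : Fin r → Fin b => (B.submatrix id f).det) :=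
    fun w => h55_nrm_pos w hB0
  have hSpos : ∀ w, 0 < h55_nrm w s := fun w => h55_nrm_pos w hs
  have hBMpos : ∀ w, 0 < h55_nrm w
      (fun f : Fin r → Fin c => ((h7_rowMul mu s B).submatrix id f).det) := by
    intro w
    have h2 := (hb w B s).2
    have hp : 0 < h55_nrm w (fun f : Fin r → Fin b => (B.submatrix id f).det) *
        h55_nrm w s ^ r := mul_pos (hmBpos w) (pow_pos (hSpos w) r)
    by_contra hcon
    have hz : h55_nrm w (fun f : Fin r → Fin c =>
        ((h7_rowMul mu s B).submatrix id f).det) = 0 :=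
      le_antisymm (not_lt.mp hcon) (h55_nrm_nonneg w _)
    rw [hz, mul_zero] at h2
    linarith
  have hsr : (Function.support fun w : h55_Pl => (r : ℝ) * Real.log (h55_nrm w s)).Finite :=
    (h55_finite_support_log_nrm s).subset (Function.support_mul_subset_right _ _)
  have hsum : h55_hgt (fun f : Fin r → Fin b => (B.submatrix id f).det) + r * h55_hgt s =
      ∑ᶠ w, (Real.log (h55_nrm w (fun f : Fin r → Fin b => (B.submatrix id f).det)) +
        r * Real.log (h55_nrm w s)) := by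
    unfold h55_hgt
    rw [mul_finsum (fun w => Real.log (h55_nrm w s)) (r : ℝ),
      ← finsum_add_distrib (h55_finite_support_log_nrm _) hsr]
  have hsupp : (Function.support fun w : h55_Pl =>
      Real.log (h55_nrm w (fun f : Fin r → Fin b => (B.submatrix id f).det)) +
        r * Real.log (h55_nrm w s)).Finite :=
    ((h55_finite_support_log_nrm _).union hsr).subset (Function.support_add _ _)
  rw [abs_le]
  constructor
  · have h := h55_finsum_le_add
      (f := fun w => Real.log (h55_nrm w (fun f : Fin r → Fin b => (B.submatrix id f).det)) +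
        r * Real.log (h55_nrm w s))
      (g := fun w => Real.log (h55_nrm w
        (fun f : Fin r → Fin c => ((h7_rowMul mu s B).submatrix id f).det))) (c := C) hsupp
      (h55_finite_support_log_nrm _) hCfin (fun w => by
        have h2 := (hb w B s).2
        have hp : 0 < h55_nrm w (fun f : Fin r → Fin b => (B.submatrix id f).det) *
            h55_nrm w s ^ r := mul_pos (hmBpos w) (pow_pos (hSpos w) r)
        have := Real.log_le_log hp h2
        rw [Real.log_mul (hmBpos w).ne' (pow_pos (hSpos w) r).ne', Real.log_pow,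
          Real.log_mul (hCpos w).ne' (hBMpos w).ne'] at this
        linarith)
    rw [← hsum] at h
    unfold h55_hgt at h ⊢
    linarith
  · have h := h55_finsum_le_add
      (f := fun w => Real.log (h55_nrm w
        (fun f : Fin r → Fin c => ((h7_rowMul mu s B).submatrix id f).det)))
      (g := fun w => Real.log (h55_nrm w (fun f : Fin r → Fin b => (B.submatrix id f).det)) +
        r * Real.log (h55_nrm w s)) (c := C)
      (h55_finite_support_log_nrm _) hsupp hCfin (fun w => by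
        have h2 := (hb w B s).1
        have := Real.log_le_log (hBMpos w) h2
        rw [Real.log_mul (hCpos w).ne'
            (mul_pos (hmBpos w) (pow_pos (hSpos w) r)).ne',
          Real.log_mul (hmBpos w).ne' (pow_pos (hSpos w) r).ne', Real.log_pow] at this
        linarith)
    rw [← hsum] at h
    unfold h55_hgt at h ⊢
    linarith

end QbarPlaces

end Fermat.Agent.S17
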