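import Fermat.Agent.S17.h80_Proj
import Fermat.Agent.S18.GR_ChartPt

/-!
# S17 / C3 (PROJ): the points of the projective model of a curve

`K` algebraically closed (any characteristic), `x` a chart of `F / K`, `g = h75_genus K x`,
`P₀` a place ("`∞`").

* `h80_regAway P₀` : the `K`-algebra `⋃ₙ L(n P₀)` of the functions regular away from `P₀`;
* `h80_hom_place` (HOM-PLACE) : every `K`-algebra map `h80_regAway P₀ → K` is the evaluation at a
  place `P ≠ P₀`;
* `h80_proj_full`, `h80_proj` (PROJ) : let `b` span `L(M0 P₀)` (`M0 ≥ 4g`, `M0 ≥ 2`).  Every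
  nonzero point `y` of the zero set of the homogeneous relations of `b` is "evaluation at a place
  `R`" (`R = P₀` allowed): the linear forms vanishing at `y` are the sections of `M0 P₀ - R`.
-/

set_option autoImplicit false

open AlgebraicCurve IntermediateField

namespace Fermat.Agent.S17

open Fermat.Agent.S18 Fermat.Agent.S27

variable {K F : Type*} [Field K] [Field F] [Algebra K F]

section RegAway

/-- The `K`-algebra of the functions regular away from `P₀`: `⋃ₙ L(n P₀)`. -/
def h80_regAway (P₀ : Place K F) : Subalgebra K F where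
  carrier := {f | ∃ n : ℕ, f ∈ riemannRochSpace (Finsupp.single P₀ (n : ℤ) : Divisor K F)}
  mul_mem' := by
    rintro f g ⟨n, hf⟩ ⟨m, hg⟩
    refine ⟨n + m, ?_⟩
    have := h80_mul_mem hf hg
    rwa [← Finsupp.single_add, ← Nat.cast_add] at this
  one_mem' := ⟨0, h80_one_mem P₀ 0⟩
  add_mem' := by
    rintro f g ⟨n, hf⟩ ⟨m, hg⟩
    exact ⟨max n m, Submodule.add_mem _
      (h80_V_mono P₀ (by exact_mod_cast le_max_left n m) hf)
      (h80_V_mono P₀ (by exact_mod_cast le_max_right n m) hg)⟩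
  zero_mem' := ⟨0, Submodule.zero_mem _⟩
  algebraMap_mem' := by
    intro a
    refine ⟨0, ?_⟩
    rw [Algebra.algebraMap_eq_smul_one]
    exact Submodule.smul_mem _ a (h80_one_mem P₀ 0)

theorem h80_mem_regAway {P₀ : Place K F} {f : F} :
    f ∈ h80_regAway P₀ ↔
      ∃ n : ℕ, f ∈ riemannRochSpace (Finsupp.single P₀ (n : ℤ) : Divisor K F) :=
  Iff.rfl

theorem h80_mem_regAway_of_mem {P₀ : Place K F} {f : F} {n : ℕ}
    (hf : f ∈ riemannRochSpace (Finsupp.single P₀ (n : ℤ) : Divisor K F)) :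
    f ∈ h80_regAway P₀ :=
  ⟨n, hf⟩

/-- a section of `D` with an extra zero at `P` is a section of `D - P`. -/
theorem h80_mem_sub_single {D : Divisor K F} {P : Place K F} {f : F}
    (hf : f ∈ riemannRochSpace D) (h : f = 0 ∨ -D P + 1 ≤ P.ord f) :
    f ∈ riemannRochSpace (D - Finsupp.single P 1) := by
  classical
  rw [mem_riemannRochSpace_iff] at hf ⊢
  intro v
  by_cases hf0 : f = 0
  · exact Or.inl hf0
  right
  have h1 := (hf v).resolve_left hf0
  have h2 := h.resolve_left hf0
  rw [Finsupp.sub_apply, Finsupp.single_apply]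
  split_ifs with hv
  · subst hv
    omega
  · omega

theorem h80_ord_of_mem_sub_single {D : Divisor K F} {P : Place K F} {f : F}
    (hf : f ∈ riemannRochSpace (D - Finsupp.single P 1)) : f = 0 ∨ -D P + 1 ≤ P.ord f := by
  classical
  rw [mem_riemannRochSpace_iff] at hf
  rcases hf P with h | h
  · exact Or.inl h
  · right
    rw [Finsupp.sub_apply, Finsupp.single_eq_same] at h
    omega

/-- powers of sections of `m P₀`. -/
theorem h80_pow_mem_single (P₀ : Place K F) {m : ℕ} {f : F}
    (hf : f ∈ riemannRochSpace (Finsupp.single P₀ (m : ℤ) : Divisor K F)) (k : ℕ) :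
    f ^ k ∈ riemannRochSpace (Finsupp.single P₀ ((k * m : ℕ) : ℤ) : Divisor K F) := by
  induction k with
  | zero =>
    rw [pow_zero, zero_mul]
    exact h80_one_mem P₀ 0
  | succ k ih =>
    have := h80_mul_mem ih hf
    rw [← Finsupp.single_add, ← Nat.cast_add] at this
    rw [pow_succ, Nat.succ_mul]
    exact this

end RegAway

variable [IsAlgClosed K]

section HomPlace

/-- a subspace which is not contained in any of the `L(D - P)`, `P ∈ T`, has an element outside
all of them. -/
theorem h80_exists_avoid_of_sub (W : Submodule K F) (D : Divisor K F) (T : Finset (Place K F))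
    (h0 : ∃ f ∈ W, f ≠ 0)
    (h : ∀ P ∈ T, ∃ f ∈ W, f ∉ riemannRochSpace (D - Finsupp.single P 1)) :
    ∃ f ∈ W, f ≠ 0 ∧ ∀ P ∈ T, f ∉ riemannRochSpace (D - Finsupp.single P 1) := by
  classical
  let V : Place K F → Submodule K ↥W := fun P =>
    Submodule.comap W.subtype (riemannRochSpace (D - Finsupp.single P 1))
  let s : Finset (Submodule K ↥W) := insert ⊥ (T.image V)
  have hs : (⊤ : Submodule K ↥W) ∉ s := by
    intro h'
    rcases Finset.mem_insert.mp h' with h' | h'
    · obtain ⟨f, hf, hf0⟩ := h0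
      have hmem : (⟨f, hf⟩ : ↥W) ∈ (⊥ : Submodule K ↥W) := by
        rw [← h']
        exact Submodule.mem_top
      rw [Submodule.mem_bot] at hmem
      exact hf0 (congrArg Subtype.val hmem)
    · obtain ⟨P, hP, hPV⟩ := Finset.mem_image.mp h'
      obtain ⟨f, hf, hfP⟩ := h P hP
      have hmem : (⟨f, hf⟩ : ↥W) ∈ V P := by
        rw [hPV]
        exact Submodule.mem_top
      exact hfP hmem
  have hne := Subspace.biUnion_ne_univ_of_top_notMem hs
  obtain ⟨e, he⟩ : ∃ e : ↥W, e ∉ ⋃ p ∈ s, (p : Set ↥W) := by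
    by_contra hcon
    push Not at hcon
    exact hne (Set.eq_univ_of_forall hcon)
  simp only [Set.mem_iUnion, not_exists] at he
  have he0 : (e : F) ≠ 0 := by
    intro h0'
    refine he ⊥ (Finset.mem_insert_self _ _) ?_
    rw [SetLike.mem_coe, Submodule.mem_bot]
    exact Subtype.ext h0'
  refine ⟨e, e.2, he0, fun P hP => ?_⟩
  exact fun hmem => he (V P) (Finset.mem_insert_of_mem (Finset.mem_image_of_mem V hP)) hmem

/-- (COMMON ZERO) for `n ≥ 2g + 1` the kernel of a `K`-algebra map `φ` on `L(n P₀)` has a base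
point `P ≠ P₀`. -/
theorem h80_hom_base_point {x : F} (hx : h75_IsChart K x) (P₀ : Place K F) (φ : F → K)
    (halg : ∀ a : K, φ (algebraMap K F a) = a)
    (hadd : ∀ f g : F, f ∈ h80_regAway P₀ → g ∈ h80_regAway P₀ → φ (f + g) = φ f + φ g)
    (hmul : ∀ f g : F, f ∈ h80_regAway P₀ → g ∈ h80_regAway P₀ → φ (f * g) = φ f * φ g)
    (n : ℕ) (hn : 2 * h75_genus K x + 1 ≤ n) :
    ∃ P : Place K F, P ≠ P₀ ∧
      ∀ f ∈ riemannRochSpace (Finsupp.single P₀ (n : ℤ) : Divisor K F), φ f = 0 →
        f ∈ riemannRochSpace (Finsupp.single P₀ (n : ℤ) - Finsupp.single P 1) := by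
  classical
  set D₁ : Divisor K F := Finsupp.single P₀ (n : ℤ) with hD₁
  have hone : φ 1 = 1 := by
    have := halg 1
    rwa [map_one] at this
  have hsmul : ∀ (a : K) (f : F), f ∈ h80_regAway P₀ → φ (a • f) = a * φ f := by
    intro a f hf
    rw [Algebra.smul_def, hmul _ _ ((h80_regAway P₀).algebraMap_mem a) hf, halg]
  -- the kernel of `φ` on `L(n P₀)`
  let W : Submodule K F :=
    { carrier := {f | f ∈ riemannRochSpace D₁ ∧ φ f = 0}
      add_mem' := by
        rintro f g ⟨hf, hf0⟩ ⟨hg, hg0⟩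
        exact ⟨Submodule.add_mem _ hf hg, by rw [hadd f g ⟨n, hf⟩ ⟨n, hg⟩, hf0, hg0, add_zero]⟩
      zero_mem' := by
        refine ⟨Submodule.zero_mem _, ?_⟩
        have := hsmul 0 1 (Subalgebra.one_mem _)
        rwa [zero_smul, zero_mul] at this
      smul_mem' := by
        rintro a f ⟨hf, hf0⟩
        exact ⟨Submodule.smul_mem _ a hf, by rw [hsmul a f ⟨n, hf⟩, hf0, mul_zero]⟩ }
  have hdeg : Divisor.degree D₁ = n := h80_degree_single hx P₀ n
  have hdeg' : 2 * (h75_genus K x : ℤ) ≤ Divisor.degree D₁ := by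
    rw [hdeg]
    exact_mod_cast (by omega : 2 * h75_genus K x ≤ n)
  -- an element of the kernel with a pole of exact order `n`
  obtain ⟨f₀, hf₀, hf₀0, hf₀P⟩ := h80_exists_ord_eq hx D₁ hdeg' P₀
  have hsub1 : D₁ - Finsupp.single P₀ 1 = Finsupp.single P₀ ((n - 1 : ℕ) : ℤ) := by
    rw [hD₁, ← Finsupp.single_sub]
    congr 1
    have : 1 ≤ n := by omega
    push_cast [Nat.cast_sub this]
    ring
  have hone_mem : (1 : F) ∈ riemannRochSpace (D₁ - Finsupp.single P₀ 1) := by
    rw [hsub1]
    exact h80_one_mem P₀ (n - 1)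
  have hone_mem' : (1 : F) ∈ riemannRochSpace D₁ := h80_one_mem P₀ n
  set s₁ : F := f₀ - φ f₀ • 1 with hs₁def
  have hs₁ : s₁ ∈ riemannRochSpace D₁ :=
    Submodule.sub_mem _ hf₀ (Submodule.smul_mem _ _ hone_mem')
  have hφs₁ : φ s₁ = 0 := by
    have h1 : s₁ = f₀ + (-φ f₀) • 1 := by rw [hs₁def, neg_smul, sub_eq_add_neg]
    rw [h1, hadd _ _ ⟨n, hf₀⟩ ⟨n, Submodule.smul_mem _ _ hone_mem'⟩,
      hsmul _ _ (Subalgebra.one_mem _), hone]
    ring
  have hs₁n : s₁ ∉ riemannRochSpace (D₁ - Finsupp.single P₀ 1) := by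
    intro hmem
    apply h80_notMem_of_ord_eq hf₀0 hf₀P
    have := Submodule.add_mem _ hmem (Submodule.smul_mem _ (φ f₀) hone_mem)
    rwa [hs₁def, sub_add_cancel] at this
  obtain ⟨hs₁0, -⟩ := h80_ord_eq_of_notMem hs₁ hs₁n
  by_contra hcon
  push Not at hcon
  have hall : ∀ P : Place K F, ∃ f ∈ W, f ∉ riemannRochSpace (D₁ - Finsupp.single P 1) := by
    intro P
    by_cases hP : P = P₀
    · rw [hP]
      exact ⟨s₁, ⟨hs₁, hφs₁⟩, hs₁n⟩
    · obtain ⟨f, hf, hf0, hfn⟩ := hcon P hP
      exact ⟨f, ⟨hf, hf0⟩, hfn⟩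
  obtain ⟨Df, hDf⟩ := h7_exists_div hx s₁ hs₁0
  obtain ⟨s₂, hs₂W, hs₂0, hs₂T⟩ := h80_exists_avoid_of_sub W D₁ (Df + D₁).support
    ⟨s₁, ⟨hs₁, hφs₁⟩, hs₁0⟩ (fun P _ => hall P)
  have hs₂ : s₂ ∈ riemannRochSpace D₁ := hs₂W.1
  have hφs₂ : φ s₂ = 0 := hs₂W.2
  have hmin : ∀ P : Place K F, min (P.ord s₁) (P.ord s₂) = -D₁ P := by
    intro P
    have h1 := ((mem_riemannRochSpace_iff.mp hs₁) P).resolve_left hs₁0
    have h2 := ((mem_riemannRochSpace_iff.mp hs₂) P).resolve_left hs₂0
    by_cases hP : P ∈ (Df + D₁).support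
    · rw [(h80_ord_eq_of_notMem hs₂ (hs₂T P hP)).2]
      exact min_eq_right h1
    · have h0 : (Df + D₁) P = 0 := Finsupp.notMem_support_iff.mp hP
      rw [Finsupp.add_apply, hDf] at h0
      have h3 : P.ord s₁ = -D₁ P := by omega
      rw [h3]
      exact min_eq_left h2
  -- decompose `1`
  have hdeg2 : Divisor.degree (Finsupp.single P₀ ((n + 2 * h75_genus K x : ℕ) : ℤ) :
      Divisor K F) = ((n + 2 * h75_genus K x : ℕ) : ℤ) := h80_degree_single hx P₀ _
  have h1mem : (1 : F) ∈ riemannRochSpace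
      (D₁ + Finsupp.single P₀ ((n + 2 * h75_genus K x : ℕ) : ℤ)) := by
    rw [hD₁, ← Finsupp.single_add, ← Nat.cast_add]
    exact h80_one_mem P₀ _
  obtain ⟨a, ha, b, hb, hab⟩ := h80_pencil_decomp hx D₁
    (Finsupp.single P₀ ((n + 2 * h75_genus K x : ℕ) : ℤ)) hdeg'
    (by rw [hdeg, hdeg2]; push_cast; omega) hs₁ hs₂ hs₁0 hs₂0 hmin 1 h1mem
  have hφ1 : φ (a * s₁ + b * s₂) = 0 := by
    rw [hadd _ _ ((h80_regAway P₀).mul_mem ⟨_, ha⟩ ⟨n, hs₁⟩)
      ((h80_regAway P₀).mul_mem ⟨_, hb⟩ ⟨n, hs₂⟩),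
      hmul _ _ ⟨_, ha⟩ ⟨n, hs₁⟩, hmul _ _ ⟨_, hb⟩ ⟨n, hs₂⟩, hφs₁, hφs₂]
    ring
  rw [← hab, hone] at hφ1
  exact one_ne_zero hφ1

/-- (HOM-PLACE) every `K`-algebra map on the ring `⋃ₙ L(n P₀)` of the functions regular away
from `P₀` is the evaluation at a place `P ≠ P₀`.  (`φ` is a function on `F`; only its values on
`h80_regAway P₀` matter.) -/
theorem h80_hom_place {x : F} (hx : h75_IsChart K x) (P₀ : Place K F) (φ : F → K)
    (halg : ∀ a : K, φ (algebraMap K F a) = a)
    (hadd : ∀ f g : F, f ∈ h80_regAway P₀ → g ∈ h80_regAway P₀ → φ (f + g) = φ f + φ g)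
    (hmul : ∀ f g : F, f ∈ h80_regAway P₀ → g ∈ h80_regAway P₀ → φ (f * g) = φ f * φ g) :
    ∃ P : Place K F, P ≠ P₀ ∧ ∀ f ∈ h80_regAway P₀, h39_Val P f (φ f) := by
  classical
  have hone : φ 1 = 1 := by
    have := halg 1
    rwa [map_one] at this
  have hsmul : ∀ (a : K) (f : F), f ∈ h80_regAway P₀ → φ (a • f) = a * φ f := by
    intro a f hf
    rw [Algebra.smul_def, hmul _ _ ((h80_regAway P₀).algebraMap_mem a) hf, halg]
  -- a base point of the kernel on `L(n P₀)` computes the values on `L(n P₀)`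
  have hval : ∀ (n : ℕ) (P : Place K F), P ≠ P₀ →
      (∀ f ∈ riemannRochSpace (Finsupp.single P₀ (n : ℤ) : Divisor K F), φ f = 0 →
        f ∈ riemannRochSpace (Finsupp.single P₀ (n : ℤ) - Finsupp.single P 1)) →
      ∀ f ∈ riemannRochSpace (Finsupp.single P₀ (n : ℤ) : Divisor K F), h39_Val P f (φ f) := by
    intro n P hP hbase f hf
    have h1mem : (1 : F) ∈ riemannRochSpace (Finsupp.single P₀ (n : ℤ) : Divisor K F) :=
      h80_one_mem P₀ n
    have h1 : f - φ f • 1 ∈ riemannRochSpace (Finsupp.single P₀ (n : ℤ) : Divisor K F) :=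
      Submodule.sub_mem _ hf (Submodule.smul_mem _ _ h1mem)
    have h2 : φ (f - φ f • 1) = 0 := by
      have h3 : f - φ f • 1 = f + (-φ f) • 1 := by rw [neg_smul, sub_eq_add_neg]
      rw [h3, hadd _ _ ⟨n, hf⟩ ⟨n, Submodule.smul_mem _ _ h1mem⟩,
        hsmul _ _ (Subalgebra.one_mem _), hone]
      ring
    have h4 := h80_ord_of_mem_sub_single (hbase _ h1 h2)
    rw [Finsupp.single_apply, if_neg (Ne.symm hP)] at h4
    rw [h39_Val, Algebra.algebraMap_eq_smul_one]
    rcases h4 with h4 | h4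
    · exact Or.inl (sub_eq_zero.mp h4)
    · right
      omega
  obtain ⟨P, hP, hbase⟩ := h80_hom_base_point hx P₀ φ halg hadd hmul
    (2 * h75_genus K x + 1) (le_refl _)
  refine ⟨P, hP, ?_⟩
  rintro f ⟨n, hf⟩
  have hf' : f ∈ riemannRochSpace (Finsupp.single P₀
      ((max n (2 * h75_genus K x + 1) : ℕ) : ℤ) : Divisor K F) :=
    h80_V_mono P₀ (by exact_mod_cast le_max_left n _) hf
  obtain ⟨P', hP', hbase'⟩ := h80_hom_base_point hx P₀ φ halg hadd hmul
    (max n (2 * h75_genus K x + 1)) (le_max_right n _)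
  have hPP' : P' = P := by
    by_contra hne
    have hdeg : Divisor.degree (Finsupp.single P₀ ((2 * h75_genus K x + 1 : ℕ) : ℤ) -
        Finsupp.single P 1 : Divisor K F) = ((2 * h75_genus K x + 1 : ℕ) : ℤ) - 1 := by
      rw [h80_degree_sub_single hx, h80_degree_single hx]
    obtain ⟨f₁, hf₁, hf₁0, hf₁P'⟩ := h80_exists_ord_eq hx
      (Finsupp.single P₀ ((2 * h75_genus K x + 1 : ℕ) : ℤ) - Finsupp.single P 1)
      (by rw [hdeg]; push_cast; omega) P'
    have h0 : P'.ord f₁ = 0 := by
      rw [hf₁P', Finsupp.sub_apply, Finsupp.single_apply, Finsupp.single_apply,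
        if_neg (Ne.symm hP'), if_neg (Ne.symm hne)]
      simp
    have hf₁V : f₁ ∈ riemannRochSpace (Finsupp.single P₀
        ((2 * h75_genus K x + 1 : ℕ) : ℤ) : Divisor K F) :=
      h68_rr_mono (h80_sub_single_le _ P) hf₁
    have hv0 : h39_Val P f₁ 0 := by
      rw [h39_val_zero_iff]
      right
      have := (h80_ord_of_mem_sub_single hf₁).resolve_left hf₁0
      rw [Finsupp.single_apply, if_neg (Ne.symm hP)] at this
      omega
    have hv1 : h39_Val P f₁ (φ f₁) := hval _ P hP hbase f₁ hf₁V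
    have hφ0 : φ f₁ = 0 := (h39_val_unique P hv0 hv1).symm
    have hv2 : h39_Val P' f₁ (φ f₁) := hval _ P' hP' hbase' f₁
      (h80_V_mono P₀ (by exact_mod_cast le_max_right n _) hf₁V)
    rw [hφ0, h39_val_zero_iff] at hv2
    rcases hv2 with h | h
    · exact hf₁0 h
    · omega
  rw [hPP'] at hbase'
  exact hval _ P hP hbase' f hf'

end HomPlace

section Homog

variable {ι : Type*}

omit [IsAlgClosed K] in
/-- every element of the `k`-th power of `span (range b)` is a homogeneous form of degree `k`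
in the `b i`. -/
theorem h80_exists_homog (b : ι → F) (k : ℕ) {f : F}
    (hf : f ∈ Submodule.span K (Set.range b) ^ k) :
    ∃ G : MvPolynomial ι K, G.IsHomogeneous k ∧ MvPolynomial.aeval b G = f := by
  have key : ∀ k : ℕ, Submodule.span K (Set.range b) ^ k ≤
      (MvPolynomial.homogeneousSubmodule ι K k).map (MvPolynomial.aeval b).toLinearMap := by
    intro k
    induction k with
    | zero =>
      rw [pow_zero, Submodule.one_le]
      exact ⟨1, (MvPolynomial.mem_homogeneousSubmodule 0 1).mpr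
        (MvPolynomial.isHomogeneous_one ι K), by simp⟩
    | succ k ih =>
      rw [pow_succ, Submodule.mul_le]
      intro m hm n hn
      obtain ⟨G, hG, rfl⟩ := ih hm
      have hn' : n ∈ (MvPolynomial.homogeneousSubmodule ι K 1).map
          (MvPolynomial.aeval b).toLinearMap := by
        refine Submodule.span_le.mpr ?_ hn
        rintro _ ⟨i, rfl⟩
        exact ⟨MvPolynomial.X i, (MvPolynomial.mem_homogeneousSubmodule 1 _).mpr
          (MvPolynomial.isHomogeneous_X K i), by simp⟩
      obtain ⟨L, hL, rfl⟩ := hn'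
      refine ⟨G * L, (MvPolynomial.mem_homogeneousSubmodule _ _).mpr
        (((MvPolynomial.mem_homogeneousSubmodule _ _).mp hG).mul
          ((MvPolynomial.mem_homogeneousSubmodule _ _).mp hL)), by simp⟩
  obtain ⟨G, hG, hGf⟩ := key k hf
  exact ⟨G, (MvPolynomial.mem_homogeneousSubmodule _ _).mp hG, hGf⟩

/-- the linear form with coefficients `a`. -/
noncomputable def h80_lin [Fintype ι] (a : ι → K) : MvPolynomial ι K :=
  ∑ i, MvPolynomial.C (a i) * MvPolynomial.X i

omit [IsAlgClosed K] in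
theorem h80_lin_homog [Fintype ι] (a : ι → K) : (h80_lin a).IsHomogeneous 1 :=
  MvPolynomial.IsHomogeneous.sum _ _ _ (fun i _ => MvPolynomial.isHomogeneous_C_mul_X (a i) i)

omit [IsAlgClosed K] in
theorem h80_aeval_lin [Fintype ι] (b : ι → F) (a : ι → K) :
    MvPolynomial.aeval b (h80_lin a) = ∑ i, a i • b i := by
  simp [h80_lin, Algebra.smul_def]

omit [IsAlgClosed K] in
theorem h80_eval_lin [Fintype ι] (y : ι → K) (a : ι → K) :
    MvPolynomial.eval y (h80_lin a) = ∑ i, a i * y i := by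
  simp [h80_lin]

/-- The graded evaluation: `f = G(b)` with `G` homogeneous of degree `k` is sent to
`G(y) / s ^ k`. -/
noncomputable def h80_gradedEval (b : ι → F) (y : ι → K) (s : K) (f : F) : K :=
  open Classical in
  if h : ∃ p : ℕ × MvPolynomial ι K, p.2.IsHomogeneous p.1 ∧ MvPolynomial.aeval b p.2 = f then
    MvPolynomial.eval y h.choose.2 / s ^ h.choose.1
  else 0

omit [IsAlgClosed K] in
/-- the graded evaluation is well defined as soon as `y` kills the homogeneous relations of `b`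
and `s = E(y) ≠ 0` for a linear form `E` with `E(b) = 1`. -/
theorem h80_gradedEval_eq (b : ι → F) (y : ι → K)
    (hrel : ∀ (d : ℕ) (G : MvPolynomial ι K), G.IsHomogeneous d → MvPolynomial.aeval b G = 0 →
      MvPolynomial.eval y G = 0)
    (E : MvPolynomial ι K) (hE : E.IsHomogeneous 1) (hE1 : MvPolynomial.aeval b E = 1)
    (hs : MvPolynomial.eval y E ≠ 0) (k : ℕ) (G : MvPolynomial ι K) (hG : G.IsHomogeneous k) :
    h80_gradedEval b y (MvPolynomial.eval y E) (MvPolynomial.aeval b G) =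
      MvPolynomial.eval y G / MvPolynomial.eval y E ^ k := by
  classical
  have hEpow : ∀ j : ℕ, (E ^ j).IsHomogeneous j := fun j => by simpa using hE.pow j
  have h : ∃ p : ℕ × MvPolynomial ι K, p.2.IsHomogeneous p.1 ∧
      MvPolynomial.aeval b p.2 = MvPolynomial.aeval b G := ⟨(k, G), hG, rfl⟩
  rw [h80_gradedEval, dif_pos h]
  obtain ⟨hG', hGG'⟩ := h.choose_spec
  have h1 := hrel (h.choose.1 + k) (h.choose.2 * E ^ k - G * E ^ h.choose.1)
    ((hG'.mul (hEpow k)).sub (by rw [add_comm]; exact hG.mul (hEpow _)))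
    (by simp [hGG', hE1])
  rw [map_sub, map_mul, map_mul, map_pow, map_pow] at h1
  rw [div_eq_div_iff (pow_ne_zero _ hs) (pow_ne_zero _ hs)]
  linear_combination h1

end Homog

section Proj

/-- (PROJ), full form.  Let `b` span `L(M0 P₀)`, `M0 ≥ 4g`, `M0 ≥ 2`, let `∑ e i • b i = 1`, and
let `y ≠ 0` be a zero of all homogeneous relations of `b`.  Then `y` is "the evaluation at a
place `R`" : the linear forms vanishing at `y` are exactly the sections of `M0 P₀ - R`.  With
`s = ∑ e i * y i` ("the value of `1`"): if `s ≠ 0` then `R ≠ P₀` and `y i / s` is the value of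
`b i` at `R`; if `s = 0` then `R = P₀`. -/
theorem h80_proj_full {x : F} (hx : h75_IsChart K x) (P₀ : Place K F) (M0 : ℕ)
    (hM0 : 4 * h75_genus K x ≤ M0) (hM0' : 2 ≤ M0) {ι : Type*} [Fintype ι] (b : ι → F)
    (hb : Submodule.span K (Set.range b) =
      riemannRochSpace ((M0 : ℤ) • Finsupp.single P₀ (1 : ℤ) : Divisor K F))
    (y : ι → K) (hy : y ≠ 0)
    (hrel : ∀ (d : ℕ) (G : MvPolynomial ι K), G.IsHomogeneous d → MvPolynomial.aeval b G = 0 →
      MvPolynomial.eval y G = 0)
    (e : ι → K) (he : ∑ i, e i • b i = 1) :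
    ∃ R : Place K F,
      (∀ c : ι → K, (∑ i, c i * y i = 0 ↔
        ∑ i, c i • b i ∈ riemannRochSpace ((M0 : ℤ) • Finsupp.single P₀ (1 : ℤ) -
          Finsupp.single R 1 : Divisor K F))) ∧
      (∑ i, e i * y i ≠ 0 → R ≠ P₀ ∧ ∀ i, h39_Val R (b i) (y i / ∑ i, e i * y i)) ∧
      (∑ i, e i * y i = 0 → R = P₀) := by
  classical
  have hD0 : ((M0 : ℤ) • Finsupp.single P₀ (1 : ℤ) : Divisor K F) =
      Finsupp.single P₀ (M0 : ℤ) := by
    rw [Finsupp.smul_single, smul_eq_mul, mul_one]
  rw [hD0] at hb ⊢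
  -- the linear form of `1`
  have hE : (h80_lin e).IsHomogeneous 1 := h80_lin_homog e
  have hE1 : MvPolynomial.aeval b (h80_lin e) = 1 := by rw [h80_aeval_lin, he]
  have hEy : MvPolynomial.eval y (h80_lin e) = ∑ i, e i * y i := h80_eval_lin y e
  -- linear forms are sections
  have hsec : ∀ c : ι → K, ∑ i, c i • b i ∈
      riemannRochSpace (Finsupp.single P₀ (M0 : ℤ) : Divisor K F) := by
    intro c
    rw [← hb]
    exact Submodule.sum_mem _ (fun i _ => Submodule.smul_mem _ _ (Submodule.subset_span ⟨i, rfl⟩))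
  by_cases hs : ∑ i, e i * y i = 0
  · -- the point at infinity
    refine ⟨P₀, ?_, fun h => absurd hs h, fun _ => rfl⟩
    have hsub1 : (Finsupp.single P₀ (M0 : ℤ) : Divisor K F) - Finsupp.single P₀ 1 =
        Finsupp.single P₀ ((M0 - 1 : ℕ) : ℤ) := by
      rw [← Finsupp.single_sub]
      congr 1
      have : 1 ≤ M0 := by omega
      push_cast [Nat.cast_sub this]
      ring
    rw [hsub1]
    -- sections with a pole of order `< M0` are killed
    have key : ∀ c : ι → K, ∑ i, c i • b i ∈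
        riemannRochSpace (Finsupp.single P₀ ((M0 - 1 : ℕ) : ℤ) : Divisor K F) →
        ∑ i, c i * y i = 0 := by
      intro c hc
      have h1 := h80_pow_mem_single P₀ hc M0
      have h2 : M0 * (M0 - 1) = (M0 - 2 + 1) * M0 := by
        have : M0 - 2 + 1 = M0 - 1 := by omega
        rw [this, mul_comm]
      rw [h2, ← h80_V_pow hx P₀ M0 hM0 (M0 - 2), ← hb] at h1
      obtain ⟨G, hG, hGf⟩ := h80_exists_homog b _ h1
      have hH1 : (h80_lin c ^ M0).IsHomogeneous M0 := by simpa using (h80_lin_homog c).pow M0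
      have hH2 : (h80_lin e * G).IsHomogeneous M0 := by
        have := hE.mul hG
        rwa [show 1 + (M0 - 2 + 1) = M0 by omega] at this
      have h3 := hrel M0 (h80_lin c ^ M0 - h80_lin e * G) (hH1.sub hH2)
        (by rw [map_sub, map_mul, map_pow, hE1, hGf, h80_aeval_lin, one_mul, sub_self])
      rw [map_sub, map_mul, map_pow, hEy, hs, zero_mul, sub_zero, h80_eval_lin] at h3
      exact (pow_eq_zero_iff (by omega : M0 ≠ 0)).mp h3
    -- a section with a pole of exact order `M0`
    obtain ⟨w, hw, hw0, hwP⟩ := h80_exists_ord_eq hx (Finsupp.single P₀ (M0 : ℤ))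
      (by rw [h80_degree_single hx]; exact_mod_cast (by omega : 2 * h75_genus K x ≤ M0)) P₀
    obtain ⟨cw, hcw⟩ := (Submodule.mem_span_range_iff_exists_fun K).mp (hb ▸ hw)
    have hdecomp : ∀ c : ι → K, ∃ t : K, ∑ i, c i * y i = t * ∑ i, cw i * y i ∧
        ∑ i, c i • b i - t • w ∈
          riemannRochSpace (Finsupp.single P₀ ((M0 - 1 : ℕ) : ℤ) : Divisor K F) := by
      intro c
      obtain ⟨t, ht⟩ := h80_exists_sub_smul_mem hx hw hw0 hwP (hsec c)
      rw [hsub1] at ht
      refine ⟨t, ?_, ht⟩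
      have h1 : ∑ i, (c i - t * cw i) • b i = ∑ i, c i • b i - t • w := by
        rw [← hcw, Finset.smul_sum, ← Finset.sum_sub_distrib]
        refine Finset.sum_congr rfl (fun i _ => ?_)
        rw [sub_smul, mul_smul]
      have h2 := key (fun i => c i - t * cw i) (by rw [h1]; exact ht)
      have h3 : ∑ i, (c i - t * cw i) * y i = ∑ i, c i * y i - t * ∑ i, cw i * y i := by
        rw [Finset.mul_sum, ← Finset.sum_sub_distrib]
        refine Finset.sum_congr rfl (fun i _ => ?_)
        ring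
      rw [h3] at h2
      exact sub_eq_zero.mp h2
    have hw_ne : ∑ i, cw i * y i ≠ 0 := by
      intro h0
      obtain ⟨i₁, hi₁⟩ := Function.ne_iff.mp hy
      obtain ⟨t, ht, -⟩ := hdecomp (Pi.single i₁ 1)
      rw [h0, mul_zero] at ht
      apply hi₁
      have h4 : ∑ i, (Pi.single i₁ 1 : ι → K) i * y i = y i₁ := by
        rw [Finset.sum_eq_single i₁]
        · simp
        · intro j _ hj
          simp [Pi.single_eq_of_ne hj]
        · intro h
          exact absurd (Finset.mem_univ _) h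
      rw [h4] at ht
      exact ht
    intro c
    constructor
    · intro hc
      obtain ⟨t, ht, hmem⟩ := hdecomp c
      rw [hc] at ht
      have ht0 : t = 0 := by
        rcases mul_eq_zero.mp ht.symm with h | h
        · exact h
        · exact absurd h hw_ne
      rwa [ht0, zero_smul, sub_zero] at hmem
    · exact key c
  · -- a finite point
    set s : K := ∑ i, e i * y i with hsdef
    have hs' : MvPolynomial.eval y (h80_lin e) ≠ 0 := by rw [hEy]; exact hs
    set Φ : F → K := h80_gradedEval b y (MvPolynomial.eval y (h80_lin e)) with hΦdef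
    have hΦ : ∀ (k : ℕ) (G : MvPolynomial ι K), G.IsHomogeneous k →
        Φ (MvPolynomial.aeval b G) = MvPolynomial.eval y G / s ^ k := by
      intro k G hG
      rw [hΦdef, h80_gradedEval_eq b y hrel _ hE hE1 hs' k G hG, hEy]
    have hEpow : ∀ j : ℕ, (h80_lin e ^ j).IsHomogeneous j := fun j => by simpa using hE.pow j
    -- every regular function is a form
    have hrepr : ∀ f ∈ h80_regAway P₀, ∃ (k : ℕ) (G : MvPolynomial ι K),
        G.IsHomogeneous k ∧ MvPolynomial.aeval b G = f := by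
      rintro f ⟨n, hf⟩
      have h1 : f ∈ riemannRochSpace (Finsupp.single P₀ (((n + 1) * M0 : ℕ) : ℤ) :
          Divisor K F) := by
        refine h80_V_mono P₀ ?_ hf
        have : n ≤ (n + 1) * M0 := by nlinarith
        exact_mod_cast this
      rw [← h80_V_pow hx P₀ M0 hM0 n, ← hb] at h1
      obtain ⟨G, hG, hGf⟩ := h80_exists_homog b _ h1
      exact ⟨n + 1, G, hG, hGf⟩
    have halg : ∀ a : K, Φ (algebraMap K F a) = a := by
      intro a
      have h1 : algebraMap K F a = MvPolynomial.aeval b (MvPolynomial.C a * h80_lin e) := by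
        rw [map_mul, hE1, MvPolynomial.aeval_C, mul_one]
      rw [h1, hΦ 1 _ (hE.C_mul a), map_mul, MvPolynomial.eval_C, hEy, pow_one]
      field_simp
    have hadd : ∀ f g : F, f ∈ h80_regAway P₀ → g ∈ h80_regAway P₀ →
        Φ (f + g) = Φ f + Φ g := by
      intro f g hf hg
      obtain ⟨k, G, hG, rfl⟩ := hrepr f hf
      obtain ⟨k', G', hG', rfl⟩ := hrepr g hg
      have h1 : MvPolynomial.aeval b G + MvPolynomial.aeval b G' =
          MvPolynomial.aeval b (G * h80_lin e ^ k' + G' * h80_lin e ^ k) := by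
        simp [hE1]
      rw [h1, hΦ (k + k') _ ((hG.mul (hEpow k')).add (by rw [add_comm]; exact hG'.mul (hEpow k))),
        hΦ k G hG, hΦ k' G' hG', map_add, map_mul, map_mul, map_pow, map_pow, hEy, pow_add]
      field_simp
    have hmul : ∀ f g : F, f ∈ h80_regAway P₀ → g ∈ h80_regAway P₀ →
        Φ (f * g) = Φ f * Φ g := by
      intro f g hf hg
      obtain ⟨k, G, hG, rfl⟩ := hrepr f hf
      obtain ⟨k', G', hG', rfl⟩ := hrepr g hg
      rw [← map_mul, hΦ (k + k') _ (hG.mul hG'), hΦ k G hG, hΦ k' G' hG', map_mul, pow_add]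
      field_simp
    obtain ⟨R, hR, hval⟩ := h80_hom_place hx P₀ Φ halg hadd hmul
    have hlinval : ∀ c : ι → K, h39_Val R (∑ i, c i • b i) ((∑ i, c i * y i) / s) := by
      intro c
      have h1 := hval _ (h80_mem_regAway_of_mem (hsec c))
      rw [← h80_aeval_lin b c, hΦ 1 _ (h80_lin_homog c), h80_eval_lin, pow_one] at h1
      rwa [h80_aeval_lin] at h1
    refine ⟨R, ?_, fun _ => ⟨hR, ?_⟩, fun h => absurd h hs⟩
    · intro c
      constructor
      · intro hc
        have h1 := hlinval c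
        rw [hc, zero_div, h39_val_zero_iff] at h1
        refine h80_mem_sub_single (hsec c) ?_
        rw [Finsupp.single_apply, if_neg (Ne.symm hR)]
        rcases h1 with h1 | h1
        · exact Or.inl h1
        · right
          omega
      · intro hc
        have h1 := h80_ord_of_mem_sub_single hc
        rw [Finsupp.single_apply, if_neg (Ne.symm hR)] at h1
        have h2 : h39_Val R (∑ i, c i • b i) 0 := by
          rw [h39_val_zero_iff]
          rcases h1 with h1 | h1
          · exact Or.inl h1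
          · right
            omega
        have h3 := h39_val_unique R h2 (hlinval c)
        rcases div_eq_zero_iff.mp h3.symm with h | h
        · exact h
        · exact absurd h hs
    · intro i
      have h1 := hlinval (Pi.single i 1)
      have h2 : ∑ j, (Pi.single i 1 : ι → K) j • b j = b i := by
        rw [Finset.sum_eq_single i]
        · simp
        · intro j _ hj
          simp [Pi.single_eq_of_ne hj]
        · intro h
          exact absurd (Finset.mem_univ _) h
      have h3 : ∑ j, (Pi.single i 1 : ι → K) j * y j = y i := by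
        rw [Finset.sum_eq_single i]
        · simp
        · intro j _ hj
          simp [Pi.single_eq_of_ne hj]
        · intro h
          exact absurd (Finset.mem_univ _) h
      rwa [h2, h3] at h1

/-- (PROJ) Let `b` span `L(M0 P₀)`, `M0 ≥ 4g`, `M0 ≥ 2`.  Every nonzero zero `y` of the
homogeneous relations of `b` is "the evaluation at a place `R`" (`R = P₀` allowed): the linear
forms vanishing at `y` are exactly the sections of `M0 P₀ - R`. -/
theorem h80_proj {x : F} (hx : h75_IsChart K x) (P₀ : Place K F) (M0 : ℕ)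
    (hM0 : 4 * h75_genus K x ≤ M0) (hM0' : 2 ≤ M0) {ι : Type*} [Fintype ι] (b : ι → F)
    (hb : Submodule.span K (Set.range b) =
      riemannRochSpace ((M0 : ℤ) • Finsupp.single P₀ (1 : ℤ) : Divisor K F))
    (y : ι → K) (hy : y ≠ 0)
    (hrel : ∀ (d : ℕ) (G : MvPolynomial ι K), G.IsHomogeneous d → MvPolynomial.aeval b G = 0 →
      MvPolynomial.eval y G = 0) :
    ∃ R : Place K F, ∀ c : ι → K, (∑ i, c i * y i = 0 ↔
      ∑ i, c i • b i ∈ riemannRochSpace ((M0 : ℤ) • Finsupp.single P₀ (1 : ℤ) -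
        Finsupp.single R 1 : Divisor K F)) := by
  have h1 : (1 : F) ∈ Submodule.span K (Set.range b) := by
    rw [hb, Finsupp.smul_single, smul_eq_mul, mul_one]
    exact h80_one_mem P₀ M0
  obtain ⟨e, he⟩ := (Submodule.mem_span_range_iff_exists_fun K).mp h1
  obtain ⟨R, hR, -⟩ := h80_proj_full hx P₀ M0 hM0 hM0' b hb y hy hrel e he
  exact ⟨R, hR⟩

end Proj

end Fermat.Agent.S17
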