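import Fermat.Agent.S17.h55_Frame
import Fermat.Agent.S17.h33_Proj
import Fermat.Agent.S17.h80_Proj

/-!
# S17 / R55 row VDM (helper84): the frame side of the local Vandermonde estimate, part 1

Coordinates in the bases `fr.b M`, products `V_M₁ · V_M₂ ⊆ V_(M₁+M₂)`, evaluation at places
`P ≠ inf` in coordinates, and the multilinear product map
`h84_mu : (V_M₀)^a × V_M'' → V_M` in coordinates, with its multiplicativity under evaluation.
-/

set_option autoImplicit false

open AlgebraicCurve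

namespace Fermat.Agent.S17

open Fermat.Agent.S18 Fermat.Agent.S27 Fermat.Agent.S24

local notation "Qbar" => AlgebraicClosure ℚ

variable {F : Type} [Field F] [Algebra Qbar F] (fr : h55_Frame F)

/-! ### coordinates -/

theorem h84_V_eq_span (M : ℕ) : fr.V M = Submodule.span Qbar (Set.range (fr.b M)) :=
  (fr.b_span M).symm

theorem h84_V_eq_single (M : ℕ) :
    fr.V M = riemannRochSpace (Finsupp.single fr.inf (M : ℤ) : Divisor Qbar F) := by
  unfold h55_Frame.V
  rw [h33_smul_single]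

/-- `fr.vec M` as a linear map. -/
noncomputable def h84_vecL (M : ℕ) : (Fin (fr.n M) → Qbar) →ₗ[Qbar] F :=
  Fintype.linearCombination Qbar (fr.b M)

theorem h84_vecL_apply (M : ℕ) (c : Fin (fr.n M) → Qbar) : h84_vecL fr M c = fr.vec M c := by
  unfold h84_vecL h55_Frame.vec
  rw [Fintype.linearCombination_apply]

theorem h84_vec_mem (M : ℕ) (c : Fin (fr.n M) → Qbar) : fr.vec M c ∈ fr.V M := by
  rw [h84_V_eq_span]
  unfold h55_Frame.vec
  exact Submodule.sum_mem _ fun i _ => Submodule.smul_mem _ _ (Submodule.subset_span ⟨i, rfl⟩)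

theorem h84_exists_vec (M : ℕ) {f : F} (hf : f ∈ fr.V M) : ∃ c, fr.vec M c = f := by
  rw [h84_V_eq_span] at hf
  obtain ⟨c, hc⟩ := (Submodule.mem_span_range_iff_exists_fun Qbar).mp hf
  exact ⟨c, hc⟩

theorem h84_vec_injective (M : ℕ) : Function.Injective (fr.vec M) := by
  have h := (fr.b_li M).fintypeLinearCombination_injective
  intro c c' hcc
  apply h
  rw [Fintype.linearCombination_apply, Fintype.linearCombination_apply]
  exact hcc

theorem h84_vec_add (M : ℕ) (c c' : Fin (fr.n M) → Qbar) :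
    fr.vec M (c + c') = fr.vec M c + fr.vec M c' := by
  rw [← h84_vecL_apply, ← h84_vecL_apply, ← h84_vecL_apply, map_add]

theorem h84_vec_smul (M : ℕ) (r : Qbar) (c : Fin (fr.n M) → Qbar) :
    fr.vec M (r • c) = r • fr.vec M c := by
  rw [← h84_vecL_apply, ← h84_vecL_apply, map_smul]

theorem h84_vec_single (M : ℕ) (i : Fin (fr.n M)) :
    fr.vec M (Pi.single i 1) = fr.b M i := by
  classical
  unfold h55_Frame.vec
  rw [Finset.sum_eq_single i]
  · rw [Pi.single_eq_same, one_smul]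
  · intro j _ hj
    rw [Pi.single_eq_of_ne hj, zero_smul]
  · intro h
    exact absurd (Finset.mem_univ i) h

theorem h84_b_mem (M : ℕ) (i : Fin (fr.n M)) : fr.b M i ∈ fr.V M := by
  rw [h84_V_eq_span]
  exact Submodule.subset_span ⟨i, rfl⟩

/-- a linear coordinate map: a left inverse of `fr.vec M`, defined on all of `F`. -/
noncomputable def h84_crdL (M : ℕ) : F →ₗ[Qbar] (Fin (fr.n M) → Qbar) :=
  (LinearMap.exists_leftInverse_of_injective (h84_vecL fr M)
    (LinearMap.ker_eq_bot.mpr (by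
      intro c c' h
      rw [h84_vecL_apply, h84_vecL_apply] at h
      exact h84_vec_injective fr M h))).choose

theorem h84_crdL_vec (M : ℕ) (c : Fin (fr.n M) → Qbar) : h84_crdL fr M (fr.vec M c) = c := by
  have h := (LinearMap.exists_leftInverse_of_injective (h84_vecL fr M)
    (LinearMap.ker_eq_bot.mpr (by
      intro c c' h
      rw [h84_vecL_apply, h84_vecL_apply] at h
      exact h84_vec_injective fr M h))).choose_spec
  have h2 := LinearMap.congr_fun h c
  rw [LinearMap.comp_apply, LinearMap.id_apply, h84_vecL_apply] at h2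
  exact h2

theorem h84_vec_crdL (M : ℕ) {f : F} (hf : f ∈ fr.V M) : fr.vec M (h84_crdL fr M f) = f := by
  obtain ⟨c, rfl⟩ := h84_exists_vec fr M hf
  rw [h84_crdL_vec]

/-! ### the spaces `V_M` -/

theorem h84_one_mem (M : ℕ) : (1 : F) ∈ fr.V M := by
  rw [h84_V_eq_single]
  exact h80_one_mem fr.inf M

theorem h84_V_mono {M M' : ℕ} (h : M ≤ M') : fr.V M ≤ fr.V M' := by
  rw [h84_V_eq_single, h84_V_eq_single]
  exact h33_V_mono fr.inf h

theorem h84_V_mul_le (M M' : ℕ) : fr.V M * fr.V M' ≤ fr.V (M + M') := by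
  rw [h84_V_eq_single, h84_V_eq_single, h84_V_eq_single]
  exact h33_V_mul_le fr.inf M M'

theorem h84_mul_mem {M M' : ℕ} {f h : F} (hf : f ∈ fr.V M) (hh : h ∈ fr.V M') :
    f * h ∈ fr.V (M + M') :=
  h84_V_mul_le fr M M' (Submodule.mul_mem_mul hf hh)

theorem h84_V_mul (M M' : ℕ) (hM : 4 * fr.g ≤ M) (hM' : 4 * fr.g ≤ M') :
    fr.V M * fr.V M' = fr.V (M + M') := by
  rw [h84_V_eq_single, h84_V_eq_single, h84_V_eq_single]
  exact h80_V_mul fr.chart fr.inf M M' hM hM'

theorem h84_prod_mem (M0 : ℕ) {a : ℕ} (f : Fin a → F) (hf : ∀ j, f j ∈ fr.V M0) :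
    ∏ j, f j ∈ fr.V (a * M0) := by
  induction a with
  | zero =>
    rw [Finset.univ_eq_empty, Finset.prod_empty]
    exact h84_one_mem fr _
  | succ a ih =>
    rw [Fin.prod_univ_castSucc, Nat.succ_mul]
    exact h84_mul_mem fr (ih (fun j => f j.castSucc) fun j => hf _) (hf _)

theorem h84_mem_valuationSubring (M : ℕ) {f : F} (hf : f ∈ fr.V M) {P : Place Qbar F}
    (hP : P ≠ fr.inf) : f ∈ P.toValuationSubring := by
  rw [h84_V_eq_single] at hf
  rcases h33_mem_V.mp hf with h | ⟨-, h⟩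
  · rw [h]
    exact zero_mem _
  · exact h24_mem_of_ord_nonneg P (h P hP)

/-! ### evaluation in coordinates -/

theorem h84_ev_sum {x : F} (hx : h75_IsChart Qbar x) {P : Place Qbar F} {ι : Type*}
    (s : Finset ι) (f : ι → F)
    (hf : ∀ i ∈ s, f i ∈ P.toValuationSubring) :
    h92_ev P (∑ i ∈ s, f i) = ∑ i ∈ s, h92_ev P (f i) := by
  classical
  induction s using Finset.induction_on with
  | empty => simp
  | insert i s hi ih =>
    rw [Finset.sum_insert hi, Finset.sum_insert hi,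
      h92_ev_add hx P (hf i (Finset.mem_insert_self i s))
        (Subring.sum_mem _ fun j hj => hf j (Finset.mem_insert_of_mem hj)),
      ih fun j hj => hf j (Finset.mem_insert_of_mem hj)]

theorem h84_ev_prod {x : F} (hx : h75_IsChart Qbar x) {P : Place Qbar F} {ι : Type*}
    (s : Finset ι) (f : ι → F)
    (hf : ∀ i ∈ s, f i ∈ P.toValuationSubring) :
    h92_ev P (∏ i ∈ s, f i) = ∏ i ∈ s, h92_ev P (f i) := by
  classical
  induction s using Finset.induction_on with
  | empty => simp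
  | insert i s hi ih =>
    rw [Finset.prod_insert hi, Finset.prod_insert hi,
      h92_ev_mul hx P (hf i (Finset.mem_insert_self i s))
        (Subring.prod_mem _ fun j hj => hf j (Finset.mem_insert_of_mem hj)),
      ih fun j hj => hf j (Finset.mem_insert_of_mem hj)]

theorem h84_algebraMap_mem (P : Place Qbar F) (c : Qbar) :
    algebraMap Qbar F c ∈ P.toValuationSubring :=
  h24_mem_of_ord_nonneg P (by rw [h24_ord_algebraMap])

theorem h84_smul_mem (P : Place Qbar F) (c : Qbar) {f : F} (hf : f ∈ P.toValuationSubring) :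
    c • f ∈ P.toValuationSubring := by
  rw [Algebra.smul_def]
  exact mul_mem (h84_algebraMap_mem P c) hf

theorem h84_ev_smul {x : F} (hx : h75_IsChart Qbar x) {P : Place Qbar F} (c : Qbar) {f : F}
    (hf : f ∈ P.toValuationSubring) : h92_ev P (c • f) = c * h92_ev P f := by
  rw [Algebra.smul_def, h92_ev_mul hx P (h84_algebraMap_mem P c) hf, h92_ev_algebraMap]

theorem h84_ev_vec (M : ℕ) (c : Fin (fr.n M) → Qbar) {P : Place Qbar F} (hP : P ≠ fr.inf) :
    h92_ev P (fr.vec M c) = ∑ i, c i * fr.pt M P i := by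
  unfold h55_Frame.vec
  rw [h84_ev_sum fr.chart]
  · refine Finset.sum_congr rfl fun i _ => ?_
    rw [h84_ev_smul fr.chart _ (h84_mem_valuationSubring fr M (h84_b_mem fr M i) hP)]
    rfl
  · intro i _
    exact h84_smul_mem P _ (h84_mem_valuationSubring fr M (h84_b_mem fr M i) hP)

theorem h84_ev_eq_dot (M : ℕ) {f : F} (hf : f ∈ fr.V M) {P : Place Qbar F} (hP : P ≠ fr.inf) :
    h92_ev P f = ∑ i, h84_crdL fr M f i * fr.pt M P i := by
  rw [← h84_ev_vec fr M _ hP, h84_vec_crdL fr M hf]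

theorem h84_pt_ne_zero (M : ℕ) {P : Place Qbar F} (hP : P ≠ fr.inf) : fr.pt M P ≠ 0 := by
  intro h0
  have h1 := h84_ev_eq_dot fr M (h84_one_mem fr M) hP
  rw [h92_ev_one, h0] at h1
  simp at h1

theorem h84_pt_apply (M : ℕ) (P : Place Qbar F) (i : Fin (fr.n M)) :
    fr.pt M P i = h92_ev P (fr.b M i) := rfl

/-! ### the dimension of `V_M` -/

theorem h84_finrank_V (M : ℕ) : Module.finrank Qbar (fr.V M) = fr.n M := by
  rw [h84_V_eq_span, finrank_span_eq_card (fr.b_li M), Fintype.card_fin]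

theorem h84_n_eq (M : ℕ) (hM : 2 * fr.g ≤ M + 1) : (fr.n M : ℤ) = M + 1 - fr.g := by
  rw [← h84_finrank_V fr M]
  have h := h15_finrank_rr_of_deg fr.chart (Finsupp.single fr.inf (M : ℤ) : Divisor Qbar F)
    (by rw [h80_degree_single fr.chart]; unfold h55_Frame.g at hM; omega)
  rw [h80_degree_single fr.chart] at h
  rw [h84_V_eq_single]
  exact h

/-! ### the multilinear product map in coordinates -/

/-- `z ↦ (τ ↦ coordinates in `b M` of `z * vec M2 τ`)`. -/
noncomputable def h84_mulL (M2 M : ℕ) :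
    F →ₗ[Qbar] ((Fin (fr.n M2) → Qbar) →ₗ[Qbar] (Fin (fr.n M) → Qbar)) :=
  ((LinearMap.mul Qbar F).compr₂ (h84_crdL fr M)).compl₂ (h84_vecL fr M2)

theorem h84_mulL_apply (M2 M : ℕ) (z : F) (τ : Fin (fr.n M2) → Qbar) :
    h84_mulL fr M2 M z τ = h84_crdL fr M (z * fr.vec M2 τ) := by
  unfold h84_mulL
  rw [LinearMap.compl₂_apply, LinearMap.compr₂_apply, LinearMap.mul_apply', h84_vecL_apply]

/-- the product map `(V_M0)^a × V_M2 → V_M` in the coordinates `b M0`, `b M2`, `b M`
(meaningful for `a * M0 + M2 = M`). -/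
noncomputable def h84_mu (M0 M2 M a : ℕ) :
    MultilinearMap Qbar (fun _ : Fin a => Fin (fr.n M0) → Qbar)
      ((Fin (fr.n M2) → Qbar) →ₗ[Qbar] (Fin (fr.n M) → Qbar)) :=
  (h84_mulL fr M2 M).compMultilinearMap
    ((MultilinearMap.mkPiAlgebra Qbar (Fin a) F).compLinearMap fun _ => h84_vecL fr M0)

theorem h84_mu_apply (M0 M2 M a : ℕ) (f : Fin a → Fin (fr.n M0) → Qbar)
    (τ : Fin (fr.n M2) → Qbar) :
    h84_mu fr M0 M2 M a f τ = h84_crdL fr M ((∏ j, fr.vec M0 (f j)) * fr.vec M2 τ) := by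
  unfold h84_mu
  rw [LinearMap.compMultilinearMap_apply, MultilinearMap.compLinearMap_apply,
    MultilinearMap.mkPiAlgebra_apply, h84_mulL_apply]
  simp_rw [h84_vecL_apply]

theorem h84_prod_mul_mem (M0 M2 M a : ℕ) (hM : a * M0 + M2 = M)
    (f : Fin a → Fin (fr.n M0) → Qbar) (τ : Fin (fr.n M2) → Qbar) :
    (∏ j, fr.vec M0 (f j)) * fr.vec M2 τ ∈ fr.V M := by
  rw [← hM]
  exact h84_mul_mem fr (h84_prod_mem fr M0 _ fun j => h84_vec_mem fr M0 (f j))
    (h84_vec_mem fr M2 τ)

theorem h84_vec_mu (M0 M2 M a : ℕ) (hM : a * M0 + M2 = M)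
    (f : Fin a → Fin (fr.n M0) → Qbar) (τ : Fin (fr.n M2) → Qbar) :
    fr.vec M (h84_mu fr M0 M2 M a f τ) = (∏ j, fr.vec M0 (f j)) * fr.vec M2 τ := by
  rw [h84_mu_apply, h84_vec_crdL fr M (h84_prod_mul_mem fr M0 M2 M a hM f τ)]

/-- **(MULT)**: evaluation at a place `P ≠ inf` is multiplicative. -/
theorem h84_pt_mu (M0 M2 M a : ℕ) (hM : a * M0 + M2 = M)
    (f : Fin a → Fin (fr.n M0) → Qbar) (τ : Fin (fr.n M2) → Qbar) {P : Place Qbar F}
    (hP : P ≠ fr.inf) :
    ∑ i, h84_mu fr M0 M2 M a f τ i * fr.pt M P i =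
      (∏ j, ∑ i, f j i * fr.pt M0 P i) * ∑ i, τ i * fr.pt M2 P i := by
  rw [← h84_ev_vec fr M _ hP, h84_vec_mu fr M0 M2 M a hM,
    h92_ev_mul fr.chart P
      (Subring.prod_mem _ fun j _ => h84_mem_valuationSubring fr M0 (h84_vec_mem fr M0 (f j)) hP)
      (h84_mem_valuationSubring fr M2 (h84_vec_mem fr M2 τ) hP),
    h84_ev_prod fr.chart _ _
      (fun j _ => h84_mem_valuationSubring fr M0 (h84_vec_mem fr M0 (f j)) hP),
    h84_ev_vec fr M2 _ hP]
  congr 1
  exact Finset.prod_congr rfl fun j _ => h84_ev_vec fr M0 _ hP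

end Fermat.Agent.S17
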