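import Fermat.Agent.S17.h84_VdmFrame
import Fermat.Agent.S17.h33_RkCurve
import Fermat.Agent.S17.h58_VDM

/-!
# S17 / R55 row VDM (helper84): the frame side of the local Vandermonde estimate, part 2

The hypotheses of helper58's abstract core `h58_vdm_of_BRI` for a frame:

* `h84_Z fr M0` : the cone (zero set of all homogeneous relations of `fr.b M0`); it is the zero
  set of a finite family (`h84_Z_finite`), a cone (`h84_Z_cone`), contains the points of the
  places `≠ inf` (`h84_pt_mem_Z`);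
* `h84_isPt` : the points of the places `≠ inf` are `h58_IsPt`;
* `h84_RK` : the rank condition (from `h33_rk_curve`);
* `h84_SURJ` : products of basis vectors span.
-/

set_option autoImplicit false

open AlgebraicCurve

namespace Fermat.Agent.S17

open Fermat.Agent.S18 Fermat.Agent.S27 Fermat.Agent.S24

local notation "Qbar" => AlgebraicClosure ℚ

variable {F : Type} [Field F] [Algebra Qbar F] (fr : h55_Frame F)

/-! ### the cone -/

/-- the zero set of all homogeneous relations of `fr.b M0`. -/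
def h84_Z (M0 : ℕ) : Set (Fin (fr.n M0) → Qbar) :=
  {y | ∀ (d : ℕ) (G : MvPolynomial (Fin (fr.n M0)) Qbar), G.IsHomogeneous d →
    MvPolynomial.aeval (fr.b M0) G = 0 → MvPolynomial.eval y G = 0}

theorem h84_Z_cone (M0 : ℕ) (y : Fin (fr.n M0) → Qbar) (hy : y ∈ h84_Z fr M0) (c : Qbar)
    (_hc : c ≠ 0) : c • y ∈ h84_Z fr M0 := by
  intro d G hG h0
  have h := h33_eval_smul hG c y
  have e : (c • y) = fun i => c * y i := rfl
  rw [e, h, hy d G hG h0, mul_zero]

theorem h84_Z_finite (M0 : ℕ) :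
    ∃ (m : ℕ) (Fm : Fin m → MvPolynomial (Fin (fr.n M0)) Qbar),
      ∀ y : Fin (fr.n M0) → Qbar, y ∈ h84_Z fr M0 ↔ ∀ j, MvPolynomial.eval y (Fm j) = 0 := by
  obtain ⟨m, Fm, hFm, hFm'⟩ := h33_exists_finite_relations (K := Qbar) (fr.b M0)
  refine ⟨m, Fm, fun y => ⟨fun hy j => ?_, fun hy => hFm' y hy⟩⟩
  obtain ⟨d, hd, h0⟩ := hFm j
  exact hy d (Fm j) hd h0

theorem h84_pt_mem_Z (M0 : ℕ) {P : Place Qbar F} (hP : P ≠ fr.inf) :
    fr.pt M0 P ∈ h84_Z fr M0 := by
  intro d G _ h0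
  exact h33_rel_of_pt fr.chart hP M0 (fr.b M0) (fr.b_span M0) G h0

/-! ### points -/

theorem h84_dot_eq (M : ℕ) (P : Place Qbar F) (c : Fin (fr.n M) → Qbar) :
    fr.pt M P ⬝ᵥ c = ∑ i, c i * fr.pt M P i := by
  unfold dotProduct
  exact Finset.sum_congr rfl fun i _ => mul_comm _ _

/-- **(MULT)** in the shape of `h58_IsPt`. -/
theorem h84_pt_mu' (M0 M2 M a : ℕ) (hM : a * M0 + M2 = M)
    (f : Fin a → Fin (fr.n M0) → Qbar) (τ : Fin (fr.n M2) → Qbar) {P : Place Qbar F}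
    (hP : P ≠ fr.inf) :
    fr.pt M P ⬝ᵥ h84_mu fr M0 M2 M a f τ =
      (∏ j, fr.pt M0 P ⬝ᵥ f j) * (fr.pt M2 P ⬝ᵥ τ) := by
  rw [h84_dot_eq, h84_dot_eq, h84_pt_mu fr M0 M2 M a hM f τ hP]
  congr 1
  exact Finset.prod_congr rfl fun j _ => (h84_dot_eq fr M0 P (f j)).symm

/-- the point data of a place. -/
noncomputable def h84_Pt (M0 M : ℕ) (P : Place Qbar F) :
    h58_Pt Qbar (fr.n M0) (fr.n M) (fun a => fr.n (M - a * M0)) where
  η := fr.pt M0 P
  η2 := fun a => fr.pt (M - a * M0) P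
  β := fr.pt M P

theorem h84_isPt (M0 M amax : ℕ) (hM : amax * M0 ≤ M) {P : Place Qbar F} (hP : P ≠ fr.inf) :
    h58_IsPt amax (fun a => h84_mu fr M0 (M - a * M0) M a) (h84_Z fr M0)
      (h84_Pt fr M0 M P) := by
  refine ⟨h84_pt_ne_zero fr M0 hP, h84_pt_mem_Z fr M0 hP, fun a ha f τ => ?_⟩
  have h1 : a * M0 ≤ amax * M0 := Nat.mul_le_mul_right M0 ha.le
  exact h84_pt_mu' fr M0 (M - a * M0) M a (by omega) f τ hP

/-! ### products of spans -/

theorem h84_prod_span_mul_le {a : ℕ} {ι : Type*} (g : Fin a → ι → F)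
    (S N : Submodule Qbar F)
    (h : ∀ κ : Fin a → ι, ∀ v ∈ S, (∏ j, g j (κ j)) * v ∈ N) :
    (∏ j, Submodule.span Qbar (Set.range (g j))) * S ≤ N := by
  rw [Submodule.prod_span, Submodule.mul_le]
  intro m hm v hv
  induction hm using Submodule.span_induction with
  | mem x hx =>
    obtain ⟨gg, hgg, rfl⟩ := (Set.mem_fintype_prod _ _).mp hx
    choose κ hκ using hgg
    have e : ∏ i, gg i = ∏ j, g j (κ j) := Finset.prod_congr rfl fun j _ => (hκ j).symm
    rw [e]
    exact h κ v hv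
  | zero => rw [zero_mul]; exact zero_mem _
  | add x y _ _ hx hy => rw [add_mul]; exact add_mem hx hy
  | smul c x _ hx => rw [smul_mul_assoc]; exact Submodule.smul_mem _ _ hx

theorem h84_prod_mem_prod {a : ℕ} (W : Fin a → Submodule Qbar F) (f : Fin a → F)
    (hf : ∀ j, f j ∈ W j) : ∏ j, f j ∈ ∏ j, W j := by
  induction a with
  | zero =>
    rw [Finset.univ_eq_empty, Finset.prod_empty, Finset.prod_empty]
    exact Submodule.one_le.mp le_rfl
  | succ a ih =>
    rw [Fin.prod_univ_castSucc, Fin.prod_univ_castSucc]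
    exact Submodule.mul_mem_mul (ih (fun j => W j.castSucc) (fun j => f j.castSucc)
      fun j => hf _) (hf _)

/-! ### the rank condition -/

theorem h84_vec_lf (M0 : ℕ) (y : Fin (fr.n M0) → Qbar) (κ : Fin (fr.n M0) × Fin (fr.n M0)) :
    fr.vec M0 (h58_lf y κ) = y κ.1 • fr.b M0 κ.2 - y κ.2 • fr.b M0 κ.1 := by
  classical
  unfold h55_Frame.vec h58_lf
  simp_rw [sub_smul, ite_smul, zero_smul]
  rw [Finset.sum_sub_distrib]
  simp

theorem h84_map_range_T (M0 M2 M a : ℕ) (hM : a * M0 + M2 = M)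
    (y : Fin a → Fin (fr.n M0) → Qbar) :
    Submodule.map (h84_vecL fr M) (LinearMap.range (h58_T (h84_mu fr M0 M2 M a) y)) =
      (∏ j, Submodule.span Qbar (Set.range fun p : Fin (fr.n M0) × Fin (fr.n M0) =>
        y j p.1 • fr.b M0 p.2 - y j p.2 • fr.b M0 p.1)) * fr.V M2 := by
  apply le_antisymm
  · rintro _ ⟨_, ⟨τ, rfl⟩, rfl⟩
    rw [h84_vecL_apply, h58_T_apply, ← h84_vecL_apply, map_sum]
    refine Submodule.sum_mem _ fun κ _ => ?_
    rw [h84_vecL_apply, h84_vec_mu fr M0 M2 M a hM]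
    refine Submodule.mul_mem_mul (h84_prod_mem_prod _ _ fun j => ?_) (h84_vec_mem fr M2 _)
    rw [h84_vec_lf]
    exact Submodule.subset_span ⟨κ j, rfl⟩
  · refine h84_prod_span_mul_le _ _ _ fun κ v hv => ?_
    obtain ⟨τ, rfl⟩ := h84_exists_vec fr M2 hv
    refine ⟨h58_T (h84_mu fr M0 M2 M a) y (Pi.single κ τ), ⟨_, rfl⟩, ?_⟩
    rw [h58_T_single, h84_vecL_apply, h84_vec_mu fr M0 M2 M a hM]
    congr 1
    exact Finset.prod_congr rfl fun j _ => h84_vec_lf fr M0 (y j) (κ j)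

theorem h84_vecL_injective (M : ℕ) : Function.Injective (h84_vecL fr M) := by
  intro c c' h
  rw [h84_vecL_apply, h84_vecL_apply] at h
  exact h84_vec_injective fr M h

/-- **(RK)** for a frame. -/
theorem h84_RK (M0 M2 M a : ℕ) (hM0 : 4 * fr.g + 2 ≤ M0) (hM2 : M0 + 2 * fr.g ≤ M2 + 2)
    (hM : a * M0 + M2 = M) (y : Fin a → Fin (fr.n M0) → Qbar) (hy : ∀ j, y j ≠ 0)
    (hyZ : ∀ j, y j ∈ h84_Z fr M0) :
    Module.finrank Qbar (LinearMap.range (h58_T (h84_mu fr M0 M2 M a) y)) = fr.n M - a := by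
  have hg : fr.g = h75_genus Qbar fr.x := rfl
  obtain ⟨R, -, hprod, hrk⟩ := h33_rk_curve fr.chart fr.inf M0 M2 (by omega) (by omega)
    (by omega) (fr.b M0) (fr.b_span M0) y hy hyZ
  have h1 := h84_map_range_T fr M0 M2 M a hM y
  have h2 : Module.finrank Qbar (LinearMap.range (h58_T (h84_mu fr M0 M2 M a) y)) =
      Module.finrank Qbar (Submodule.map (h84_vecL fr M)
        (LinearMap.range (h58_T (h84_mu fr M0 M2 M a) y))) :=
    (LinearEquiv.finrank_eq (Submodule.equivMapOfInjective _ (h84_vecL_injective fr M) _))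
  have h3 : fr.V M2 = riemannRochSpace ((M2 : ℤ) • Finsupp.single fr.inf (1 : ℤ) :
      Divisor Qbar F) := rfl
  rw [h3, hprod] at h1
  rw [h2, h1]
  have hn := h84_n_eq fr M (by omega)
  rw [← hg] at hrk
  have h4 : (a : ℤ) * M0 + M2 = M := by exact_mod_cast hM
  omega

/-! ### (SURJ) -/

theorem h84_V_pow_mul (M0 M2 a : ℕ) (hM0 : 4 * fr.g ≤ M0) (hM2 : 4 * fr.g ≤ M2) :
    (∏ _j : Fin a, fr.V M0) * fr.V M2 = fr.V (a * M0 + M2) := by
  rw [Finset.prod_const, Finset.card_univ, Fintype.card_fin]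
  rcases Nat.eq_zero_or_pos a with ha | ha
  · subst ha
    rw [pow_zero, one_mul, zero_mul, zero_add]
  · obtain ⟨k, rfl⟩ : ∃ k, a = k + 1 := ⟨a - 1, by omega⟩
    have h1 : fr.V M0 ^ (k + 1) = fr.V ((k + 1) * M0) := by
      rw [h84_V_eq_single, h84_V_eq_single]
      exact h80_V_pow fr.chart fr.inf M0 hM0 k
    rw [h1]
    exact h84_V_mul fr _ _ (le_trans hM0 (Nat.le_mul_of_pos_left M0 (Nat.succ_pos k))) hM2

/-- **(SURJ)** for a frame: the products of basis vectors span. -/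
theorem h84_SURJ (M0 M2 M a : ℕ) (hM0 : 4 * fr.g ≤ M0) (hM2 : 4 * fr.g ≤ M2)
    (hM : a * M0 + M2 = M) :
    Submodule.span Qbar (Set.range fun p : (Fin a → Fin (fr.n M0)) × Fin (fr.n M2) =>
      h84_mu fr M0 M2 M a (fun m => Pi.single (p.1 m) 1) (Pi.single p.2 1)) = ⊤ := by
  classical
  rw [eq_top_iff]
  intro t _
  set N := Submodule.span Qbar (Set.range fun p : (Fin a → Fin (fr.n M0)) × Fin (fr.n M2) =>
      h84_mu fr M0 M2 M a (fun m => Pi.single (p.1 m) 1) (Pi.single p.2 1)) with hN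
  have hle : (∏ _j : Fin a, Submodule.span Qbar (Set.range (fr.b M0))) * fr.V M2 ≤
      Submodule.map (h84_vecL fr M) N := by
    refine h84_prod_span_mul_le (fun _ => fr.b M0) _ _ fun κ v hv => ?_
    rw [h84_V_eq_span] at hv
    induction hv using Submodule.span_induction with
    | mem x hx =>
      obtain ⟨l, rfl⟩ := hx
      refine ⟨_, Submodule.subset_span ⟨(κ, l), rfl⟩, ?_⟩
      rw [h84_vecL_apply, h84_vec_mu fr M0 M2 M a hM, h84_vec_single]
      congr 1
      exact Finset.prod_congr rfl fun j _ => h84_vec_single fr M0 (κ j)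
    | zero => rw [mul_zero]; exact zero_mem _
    | add x y _ _ hx hy => rw [mul_add]; exact add_mem hx hy
    | smul c x _ hx => rw [mul_smul_comm]; exact Submodule.smul_mem _ _ hx
  have hV : (∏ _j : Fin a, Submodule.span Qbar (Set.range (fr.b M0))) * fr.V M2 = fr.V M := by
    have := h84_V_pow_mul fr M0 M2 a hM0 hM2
    rw [hM] at this
    rw [← this]
    congr 1
    exact Finset.prod_congr rfl fun j _ => (h84_V_eq_span fr M0).symm
  rw [hV] at hle
  obtain ⟨t', ht', he⟩ := hle (h84_vec_mem fr M t)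
  rw [h84_vecL_apply] at he
  rw [← h84_vec_injective fr M he]
  exact ht'

end Fermat.Agent.S17
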