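import Fermat.Agent.S17.h86_Minors

/-!
# S17 / row VDM: the Vandermonde induction (curve-free, one absolute value)

Given evaluation vectors `β : Pt → Fin n → K` of abstract points, a "distance" `d : Pt → Pt → ℝ`
and the two halves of (VF) for the TOP point of every admissible tuple against the other points,
the max-norm of the evaluation matrix of an admissible tuple `P` is, up to explicit constants,

`h86_vdmProd v β d P = (∏ j, ‖β (P j)‖) * ∏ i, ∏ j, if i < j then d (P i) (P j) else 1`.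

The induction step is the chain rule of `h86_Minors` (`h86_chain_le`, `h86_chain_ge`,
`h86_chain_ge_nonarch`).
-/

set_option autoImplicit false
set_option linter.unusedSectionVars false

namespace Fermat.Agent.S17

open Matrix

section vdm

variable {K : Type*} [Field K] (v : AbsoluteValue K ℝ) {n : ℕ} {Pt : Type*}

theorem h86_vnorm_pos {t : Fin n → K} (ht : t ≠ 0) : 0 < h86_vnorm v t := by
  obtain ⟨i, hi⟩ : ∃ i, t i ≠ 0 := by
    by_contra h
    apply ht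
    funext i
    by_contra hi
    exact h ⟨i, hi⟩
  exact lt_of_lt_of_le (v.pos hi) (h86_le_vnorm v t i)

/-- The evaluation matrix of a tuple of points: the rows are the vectors `β (P j)`. -/
def h86_evalMat (β : Pt → Fin n → K) {a : ℕ} (P : Fin a → Pt) : Matrix (Fin a) (Fin n) K :=
  Matrix.of fun j => β (P j)

theorem h86_evalMat_apply (β : Pt → Fin n → K) {a : ℕ} (P : Fin a → Pt) (j : Fin a)
    (i : Fin n) : h86_evalMat β P j i = β (P j) i := rfl

theorem h86_evalMat_succ (β : Pt → Fin n → K) {a : ℕ} (P : Fin (a + 1) → Pt) :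
    h86_evalMat β P = h86_consRow (β (P 0)) (h86_evalMat β (fun j : Fin a => P j.succ)) := by
  ext i j
  refine Fin.cases ?_ (fun i' => ?_) i <;> rfl

/-- The Vandermonde-type product `(∏ j, ‖β (P j)‖) * ∏_{i < j} d (P i) (P j)`. -/
noncomputable def h86_vdmProd (β : Pt → Fin n → K) (d : Pt → Pt → ℝ) {a : ℕ} (P : Fin a → Pt) :
    ℝ :=
  (∏ j, h86_vnorm v (β (P j))) * ∏ i, ∏ j, if i < j then d (P i) (P j) else 1

theorem h86_vdmProd_zero (β : Pt → Fin n → K) (d : Pt → Pt → ℝ) (P : Fin 0 → Pt) :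
    h86_vdmProd v β d P = 1 := by
  simp [h86_vdmProd]

theorem h86_vdmProd_succ (β : Pt → Fin n → K) (d : Pt → Pt → ℝ) {a : ℕ}
    (P : Fin (a + 1) → Pt) :
    h86_vdmProd v β d P =
      (h86_vnorm v (β (P 0)) * ∏ j : Fin a, d (P 0) (P j.succ)) *
        h86_vdmProd v β d (fun j : Fin a => P j.succ) := by
  unfold h86_vdmProd
  rw [Fin.prod_univ_succ,
    Fin.prod_univ_succ (fun i : Fin (a + 1) => ∏ j, if i < j then d (P i) (P j) else 1)]
  have h0 : (∏ j : Fin (a + 1), if (0 : Fin (a + 1)) < j then d (P 0) (P j) else 1) =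
      ∏ j : Fin a, d (P 0) (P j.succ) := by
    rw [Fin.prod_univ_succ]
    simp [Fin.succ_pos]
  have h1 : ∀ i : Fin a, (∏ j : Fin (a + 1), if i.succ < j then d (P i.succ) (P j) else 1) =
      ∏ j : Fin a, if i < j then d (P i.succ) (P j.succ) else 1 := by
    intro i
    rw [Fin.prod_univ_succ]
    simp [Fin.succ_lt_succ_iff]
  rw [h0]
  simp only [h1]
  ring

theorem h86_vdmProd_nonneg (β : Pt → Fin n → K) (d : Pt → Pt → ℝ) (hd : ∀ p q, 0 ≤ d p q)
    {a : ℕ} (P : Fin a → Pt) : 0 ≤ h86_vdmProd v β d P := by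
  unfold h86_vdmProd
  refine mul_nonneg (Finset.prod_nonneg fun j _ => h86_vnorm_nonneg v _) ?_
  refine Finset.prod_nonneg fun i _ => Finset.prod_nonneg fun j _ => ?_
  split_ifs
  · exact hd _ _
  · exact zero_le_one

/-- **Vandermonde induction, core**, with the constant `κ` of the lower chain rule as a
parameter. -/
theorem h86_vdm_core (β : Pt → Fin n → K) (d : Pt → Pt → ℝ) (hd : ∀ p q, 0 ≤ d p q)
    (adm : (a : ℕ) → (Fin a → Pt) → Prop)
    (hadm : ∀ (a : ℕ) (P : Fin (a + 1) → Pt), adm (a + 1) P → adm a (fun j => P j.succ))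
    (amax : ℕ) (C₁ C₂ κ : ℝ) (hC₁ : 0 ≤ C₁) (hC₂ : 0 ≤ C₂) (hκ : 0 ≤ κ)
    (hchain : ∀ (r : ℕ) (E : Matrix (Fin r) (Fin n) K) (lam t : Fin n → K), E.mulVec t = 0 →
      v (lam ⬝ᵥ t) * h86_mnorm v E ≤ κ * h86_mnorm v (h86_consRow lam E) * h86_vnorm v t)
    (hup : ∀ (a : ℕ) (P : Fin (a + 1) → Pt), a + 1 ≤ amax → adm (a + 1) P →
      ∀ t : Fin n → K, (h86_evalMat β (fun j : Fin a => P j.succ)).mulVec t = 0 →
        v (β (P 0) ⬝ᵥ t) ≤
          C₁ * (h86_vnorm v (β (P 0)) * ∏ j : Fin a, d (P 0) (P j.succ)) * h86_vnorm v t)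
    (hlow : ∀ (a : ℕ) (P : Fin (a + 1) → Pt), a + 1 ≤ amax → adm (a + 1) P →
      ∃ t : Fin n → K, t ≠ 0 ∧ (h86_evalMat β (fun j : Fin a => P j.succ)).mulVec t = 0 ∧
        h86_vnorm v (β (P 0)) * (∏ j : Fin a, d (P 0) (P j.succ)) * h86_vnorm v t ≤
          C₂ * v (β (P 0) ⬝ᵥ t)) :
    ∀ (a : ℕ) (P : Fin a → Pt), a ≤ amax → adm a P →
      h86_mnorm v (h86_evalMat β P) ≤ C₁ ^ a * h86_vdmProd v β d P ∧
      h86_vdmProd v β d P ≤ (C₂ * κ) ^ a * h86_mnorm v (h86_evalMat β P) := by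
  intro a
  induction a with
  | zero =>
    intro P _ _
    rw [h86_vdmProd_zero, h86_mnorm_zero_rows]
    simp
  | succ a ih =>
    intro P ha hP
    obtain ⟨ih1, ih2⟩ := ih (fun j => P j.succ) (by omega) (hadm a P hP)
    set E' := h86_evalMat β (fun j : Fin a => P j.succ) with hE'
    set N0 := h86_vnorm v (β (P 0)) with hN0
    set D0 := ∏ j : Fin a, d (P 0) (P j.succ) with hD0
    have hN0nn : 0 ≤ N0 := h86_vnorm_nonneg v _
    have hD0nn : 0 ≤ D0 := Finset.prod_nonneg fun j _ => hd _ _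
    have hR'nn : 0 ≤ h86_vdmProd v β d (fun j : Fin a => P j.succ) :=
      h86_vdmProd_nonneg v β d hd _
    rw [h86_evalMat_succ, h86_vdmProd_succ]
    constructor
    · -- upper bound
      have h1 := h86_chain_le v E' (β (P 0)) (C₁ * (N0 * D0))
        (mul_nonneg hC₁ (mul_nonneg hN0nn hD0nn)) (hup a P ha hP)
      calc h86_mnorm v (h86_consRow (β (P 0)) E')
          ≤ C₁ * (N0 * D0) * h86_mnorm v E' := h1
        _ ≤ C₁ * (N0 * D0) * (C₁ ^ a * h86_vdmProd v β d (fun j : Fin a => P j.succ)) :=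
            mul_le_mul_of_nonneg_left ih1 (mul_nonneg hC₁ (mul_nonneg hN0nn hD0nn))
        _ = C₁ ^ (a + 1) * (N0 * D0 * h86_vdmProd v β d (fun j : Fin a => P j.succ)) := by
            ring
    · -- lower bound
      obtain ⟨t, ht0, htker, htlow⟩ := hlow a P ha hP
      have htpos : 0 < h86_vnorm v t := h86_vnorm_pos v ht0
      have h2 := hchain a E' (β (P 0)) t htker
      have h3 : N0 * D0 * h86_mnorm v E' * h86_vnorm v t ≤
          C₂ * κ * h86_mnorm v (h86_consRow (β (P 0)) E') * h86_vnorm v t := by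
        calc N0 * D0 * h86_mnorm v E' * h86_vnorm v t
            = (N0 * D0 * h86_vnorm v t) * h86_mnorm v E' := by ring
          _ ≤ (C₂ * v (β (P 0) ⬝ᵥ t)) * h86_mnorm v E' :=
              mul_le_mul_of_nonneg_right htlow (h86_mnorm_nonneg v E')
          _ = C₂ * (v (β (P 0) ⬝ᵥ t) * h86_mnorm v E') := by ring
          _ ≤ C₂ * (κ * h86_mnorm v (h86_consRow (β (P 0)) E') * h86_vnorm v t) :=
              mul_le_mul_of_nonneg_left h2 hC₂
          _ = C₂ * κ * h86_mnorm v (h86_consRow (β (P 0)) E') * h86_vnorm v t := by ring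
      have h4 : N0 * D0 * h86_mnorm v E' ≤
          C₂ * κ * h86_mnorm v (h86_consRow (β (P 0)) E') :=
        le_of_mul_le_mul_right h3 htpos
      have hpow : 0 ≤ (C₂ * κ) ^ a := pow_nonneg (mul_nonneg hC₂ hκ) a
      calc N0 * D0 * h86_vdmProd v β d (fun j : Fin a => P j.succ)
          ≤ N0 * D0 * ((C₂ * κ) ^ a * h86_mnorm v E') :=
            mul_le_mul_of_nonneg_left ih2 (mul_nonneg hN0nn hD0nn)
        _ = (C₂ * κ) ^ a * (N0 * D0 * h86_mnorm v E') := by ring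
        _ ≤ (C₂ * κ) ^ a * (C₂ * κ * h86_mnorm v (h86_consRow (β (P 0)) E')) :=
            mul_le_mul_of_nonneg_left h4 hpow
        _ = (C₂ * κ) ^ (a + 1) * h86_mnorm v (h86_consRow (β (P 0)) E') := by ring

/-- **Vandermonde induction**, any absolute value: lower constant `(C₂ * n) ^ a`. -/
theorem h86_vdm_induction (β : Pt → Fin n → K) (d : Pt → Pt → ℝ) (hd : ∀ p q, 0 ≤ d p q)
    (adm : (a : ℕ) → (Fin a → Pt) → Prop)
    (hadm : ∀ (a : ℕ) (P : Fin (a + 1) → Pt), adm (a + 1) P → adm a (fun j => P j.succ))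
    (amax : ℕ) (C₁ C₂ : ℝ) (hC₁ : 0 ≤ C₁) (hC₂ : 0 ≤ C₂)
    (hup : ∀ (a : ℕ) (P : Fin (a + 1) → Pt), a + 1 ≤ amax → adm (a + 1) P →
      ∀ t : Fin n → K, (h86_evalMat β (fun j : Fin a => P j.succ)).mulVec t = 0 →
        v (β (P 0) ⬝ᵥ t) ≤
          C₁ * (h86_vnorm v (β (P 0)) * ∏ j : Fin a, d (P 0) (P j.succ)) * h86_vnorm v t)
    (hlow : ∀ (a : ℕ) (P : Fin (a + 1) → Pt), a + 1 ≤ amax → adm (a + 1) P →
      ∃ t : Fin n → K, t ≠ 0 ∧ (h86_evalMat β (fun j : Fin a => P j.succ)).mulVec t = 0 ∧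
        h86_vnorm v (β (P 0)) * (∏ j : Fin a, d (P 0) (P j.succ)) * h86_vnorm v t ≤
          C₂ * v (β (P 0) ⬝ᵥ t)) :
    ∀ (a : ℕ) (P : Fin a → Pt), a ≤ amax → adm a P →
      h86_mnorm v (h86_evalMat β P) ≤ C₁ ^ a * h86_vdmProd v β d P ∧
      h86_vdmProd v β d P ≤ (C₂ * n) ^ a * h86_mnorm v (h86_evalMat β P) :=
  h86_vdm_core v β d hd adm hadm amax C₁ C₂ n hC₁ hC₂ (Nat.cast_nonneg n)
    (fun _ E lam t ht => h86_chain_ge v E lam t ht) hup hlow

/-- **Vandermonde induction**, non-archimedean absolute value: lower constant `C₂ ^ a`. -/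
theorem h86_vdm_induction_nonarch (hv : IsNonarchimedean v) (β : Pt → Fin n → K)
    (d : Pt → Pt → ℝ) (hd : ∀ p q, 0 ≤ d p q)
    (adm : (a : ℕ) → (Fin a → Pt) → Prop)
    (hadm : ∀ (a : ℕ) (P : Fin (a + 1) → Pt), adm (a + 1) P → adm a (fun j => P j.succ))
    (amax : ℕ) (C₁ C₂ : ℝ) (hC₁ : 0 ≤ C₁) (hC₂ : 0 ≤ C₂)
    (hup : ∀ (a : ℕ) (P : Fin (a + 1) → Pt), a + 1 ≤ amax → adm (a + 1) P →
      ∀ t : Fin n → K, (h86_evalMat β (fun j : Fin a => P j.succ)).mulVec t = 0 →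
        v (β (P 0) ⬝ᵥ t) ≤
          C₁ * (h86_vnorm v (β (P 0)) * ∏ j : Fin a, d (P 0) (P j.succ)) * h86_vnorm v t)
    (hlow : ∀ (a : ℕ) (P : Fin (a + 1) → Pt), a + 1 ≤ amax → adm (a + 1) P →
      ∃ t : Fin n → K, t ≠ 0 ∧ (h86_evalMat β (fun j : Fin a => P j.succ)).mulVec t = 0 ∧
        h86_vnorm v (β (P 0)) * (∏ j : Fin a, d (P 0) (P j.succ)) * h86_vnorm v t ≤
          C₂ * v (β (P 0) ⬝ᵥ t)) :
    ∀ (a : ℕ) (P : Fin a → Pt), a ≤ amax → adm a P →
      h86_mnorm v (h86_evalMat β P) ≤ C₁ ^ a * h86_vdmProd v β d P ∧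
      h86_vdmProd v β d P ≤ C₂ ^ a * h86_mnorm v (h86_evalMat β P) := by
  have h := h86_vdm_core v β d hd adm hadm amax C₁ C₂ 1 hC₁ hC₂ zero_le_one
    (fun _ E lam t ht => by
      have := h86_chain_ge_nonarch v hv E lam t ht
      rwa [one_mul]) hup hlow
  intro a P ha hP
  have := h a P ha hP
  rwa [mul_one] at this

theorem h86_vdmProd_pos (β : Pt → Fin n → K) (d : Pt → Pt → ℝ) {a : ℕ} (P : Fin a → Pt)
    (hN : ∀ j, 0 < h86_vnorm v (β (P j))) (hdpos : ∀ i j, i < j → 0 < d (P i) (P j)) :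
    0 < h86_vdmProd v β d P := by
  unfold h86_vdmProd
  refine mul_pos (Finset.prod_pos fun j _ => hN j) ?_
  refine Finset.prod_pos fun i _ => Finset.prod_pos fun j _ => ?_
  split_ifs with h
  · exact hdpos i j h
  · exact zero_lt_one

theorem h86_log_vdmProd (β : Pt → Fin n → K) (d : Pt → Pt → ℝ) {a : ℕ} (P : Fin a → Pt)
    (hN : ∀ j, 0 < h86_vnorm v (β (P j))) (hdpos : ∀ i j, i < j → 0 < d (P i) (P j)) :
    Real.log (h86_vdmProd v β d P) = ∑ j, Real.log (h86_vnorm v (β (P j))) +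
      ∑ i, ∑ j, (if i < j then Real.log (d (P i) (P j)) else 0) := by
  have hfac : ∀ i j : Fin a, (if i < j then d (P i) (P j) else 1) ≠ 0 := by
    intro i j
    split_ifs with h
    · exact (hdpos i j h).ne'
    · exact one_ne_zero
  unfold h86_vdmProd
  rw [Real.log_mul (Finset.prod_ne_zero_iff.mpr fun j _ => (hN j).ne')
    (Finset.prod_ne_zero_iff.mpr fun i _ => Finset.prod_ne_zero_iff.mpr fun j _ => hfac i j),
    Real.log_prod (fun j _ => (hN j).ne'),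
    Real.log_prod (fun i _ => Finset.prod_ne_zero_iff.mpr fun j _ => hfac i j)]
  congr 1
  refine Finset.sum_congr rfl fun i _ => ?_
  rw [Real.log_prod (fun j _ => hfac i j)]
  refine Finset.sum_congr rfl fun j _ => ?_
  split_ifs
  · rfl
  · exact Real.log_one

/-- **Log form** of a two-sided Vandermonde bound (the shape of the frame statement). -/
theorem h86_vdm_log (β : Pt → Fin n → K) (d : Pt → Pt → ℝ) {a : ℕ} (P : Fin a → Pt) (c : ℝ)
    (hc : 0 < c) (hN : ∀ j, 0 < h86_vnorm v (β (P j)))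
    (hdpos : ∀ i j, i < j → 0 < d (P i) (P j))
    (hle : h86_mnorm v (h86_evalMat β P) ≤ c * h86_vdmProd v β d P)
    (hge : h86_vdmProd v β d P ≤ c * h86_mnorm v (h86_evalMat β P)) :
    |Real.log (h86_mnorm v (h86_evalMat β P)) - ∑ j, Real.log (h86_vnorm v (β (P j)))
      - ∑ i, ∑ j, (if i < j then Real.log (d (P i) (P j)) else 0)| ≤ Real.log c := by
  have hRpos := h86_vdmProd_pos v β d P hN hdpos
  have hmpos : 0 < h86_mnorm v (h86_evalMat β P) := by
    by_contra h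
    have h0 : h86_mnorm v (h86_evalMat β P) ≤ 0 := not_lt.mp h
    have h2 : c * h86_mnorm v (h86_evalMat β P) ≤ 0 := mul_nonpos_of_nonneg_of_nonpos hc.le h0
    exact absurd (lt_of_lt_of_le hRpos (hge.trans h2)) (lt_irrefl _)
  have hlog := h86_log_vdmProd v β d P hN hdpos
  have h1 := Real.log_le_log hmpos hle
  rw [Real.log_mul hc.ne' hRpos.ne'] at h1
  have h2 := Real.log_le_log hRpos hge
  rw [Real.log_mul hc.ne' hmpos.ne'] at h2
  rw [abs_le]
  constructor <;> linarith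

/-- Uniform constant: if `1 ≤ c₀`, `C₁ ≤ c₀`, `C₂' ≤ c₀` and `a ≤ amax`, both constants of the
induction are at most `c₀ ^ amax`. -/
theorem h86_vdm_log_of_bounds (β : Pt → Fin n → K) (d : Pt → Pt → ℝ) {a : ℕ} (P : Fin a → Pt)
    (amax : ℕ) (ha : a ≤ amax) (C₁ C₂' c₀ : ℝ) (hC₁ : 0 ≤ C₁) (hC₂' : 0 ≤ C₂') (hc₀ : 1 ≤ c₀)
    (h1 : C₁ ≤ c₀) (h2 : C₂' ≤ c₀)
    (hN : ∀ j, 0 < h86_vnorm v (β (P j))) (hdpos : ∀ i j, i < j → 0 < d (P i) (P j))
    (hle : h86_mnorm v (h86_evalMat β P) ≤ C₁ ^ a * h86_vdmProd v β d P)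
    (hge : h86_vdmProd v β d P ≤ C₂' ^ a * h86_mnorm v (h86_evalMat β P)) :
    |Real.log (h86_mnorm v (h86_evalMat β P)) - ∑ j, Real.log (h86_vnorm v (β (P j)))
      - ∑ i, ∑ j, (if i < j then Real.log (d (P i) (P j)) else 0)| ≤ Real.log (c₀ ^ amax) := by
  have hRpos := h86_vdmProd_pos v β d P hN hdpos
  have hpow1 : C₁ ^ a ≤ c₀ ^ amax :=
    (pow_le_pow_left₀ hC₁ h1 a).trans (pow_le_pow_right₀ hc₀ ha)
  have hpow2 : C₂' ^ a ≤ c₀ ^ amax :=
    (pow_le_pow_left₀ hC₂' h2 a).trans (pow_le_pow_right₀ hc₀ ha)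
  refine h86_vdm_log v β d P (c₀ ^ amax) (pow_pos (lt_of_lt_of_le zero_lt_one hc₀) _) hN hdpos
    (hle.trans (mul_le_mul_of_nonneg_right hpow1 hRpos.le))
    (hge.trans (mul_le_mul_of_nonneg_right hpow2 (h86_mnorm_nonneg v _)))

end vdm

end Fermat.Agent.S17
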