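import Fermat.Agent.S17.h84_VdmRank
import Fermat.Agent.S17.h86_VdmInd

/-!
# S17 / R55 row VDM (helper84): wiring of the local Vandermonde estimate for a frame

* `h84_sep` : distinct places `≠ inf` have non-proportional coordinate vectors in `V_M0`
  (`M0 ≥ 2g + 1`);
* `h84_mn_two`, `h84_dist_eq` : the chordal distance of the frame is helper58's `h58_dist`;
* `h84_vdm_of_BRI` : the statement of `h55_vdm` from the bounded right inverses (BRI) of
  helper58's abstract core.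
-/

set_option autoImplicit false

open AlgebraicCurve

namespace Fermat.Agent.S17

open Fermat.Agent.S18 Fermat.Agent.S27 Fermat.Agent.S24

local notation "Qbar" => AlgebraicClosure ℚ

variable {F : Type} [Field F] [Algebra Qbar F] (fr : h55_Frame F)

/-! ### separation of points -/

theorem h84_sep (M0 : ℕ) (hM0 : 2 * fr.g + 1 ≤ M0) {P Q : Place Qbar F} (hP : P ≠ fr.inf)
    (hQ : Q ≠ fr.inf) (hPQ : P ≠ Q) :
    ∃ κ : Fin (fr.n M0) × Fin (fr.n M0),
      fr.pt M0 P κ.1 * fr.pt M0 Q κ.2 - fr.pt M0 P κ.2 * fr.pt M0 Q κ.1 ≠ 0 := by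
  classical
  by_contra hcon
  push Not at hcon
  have hg : fr.g = h75_genus Qbar fr.x := rfl
  -- a function of `L(M0 inf - P)` which is a unit at `Q`
  obtain ⟨f, hfD, hf0, hfQ⟩ := h80_exists_ord_eq fr.chart
    ((M0 : ℤ) • Finsupp.single fr.inf (1 : ℤ) - Finsupp.single P 1 : Divisor Qbar F)
    (by
      rw [h80_degree_sub_single fr.chart, h33_smul_single, h80_degree_single fr.chart]
      rw [← hg]
      omega) Q
  have hDQ : ((M0 : ℤ) • Finsupp.single fr.inf (1 : ℤ) - Finsupp.single P 1 :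
      Divisor Qbar F) Q = 0 := by
    rw [Finsupp.sub_apply, Finsupp.smul_apply, Finsupp.single_apply, Finsupp.single_apply,
      if_neg (Ne.symm hQ), if_neg hPQ]
    simp
  rw [hDQ, neg_zero] at hfQ
  have hfV : f ∈ fr.V M0 := h68_rr_mono (h80_sub_single_le _ P) hfD
  obtain ⟨c, rfl⟩ := h84_exists_vec fr M0 hfV
  have hcP : ∑ i, c i * fr.pt M0 P i = 0 :=
    (h33_ker_of_pt fr.chart hP M0 (fr.b M0) (fr.b_span M0) c).mpr hfD
  have hcQ : ∑ i, c i * fr.pt M0 Q i ≠ 0 := by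
    intro h0
    have hm := (h33_ker_of_pt fr.chart hQ M0 (fr.b M0) (fr.b_span M0) c).mp h0
    rw [mem_riemannRochSpace_iff] at hm
    have h1 := (hm Q).resolve_left hf0
    rw [Finsupp.sub_apply, Finsupp.smul_apply, Finsupp.single_apply, Finsupp.single_apply,
      if_neg (Ne.symm hQ), if_pos rfl] at h1
    have h2 : Q.ord (fr.vec M0 c) = 0 := hfQ
    have h3 : Q.ord (∑ i, c i • fr.b M0 i) = 0 := h2
    rw [h3] at h1
    simp at h1
  obtain ⟨l, hl⟩ : ∃ l, fr.pt M0 Q l ≠ 0 := by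
    by_contra h
    push Not at h
    exact h84_pt_ne_zero fr M0 hQ (funext h)
  have hprop : ∀ k, fr.pt M0 P k * fr.pt M0 Q l = fr.pt M0 P l * fr.pt M0 Q k := fun k =>
    sub_eq_zero.mp (hcon (k, l))
  have h4 : fr.pt M0 P l * ∑ i, c i * fr.pt M0 Q i = 0 := by
    rw [Finset.mul_sum]
    have : ∀ i, fr.pt M0 P l * (c i * fr.pt M0 Q i) = (c i * fr.pt M0 P i) * fr.pt M0 Q l := by
      intro i
      rw [mul_left_comm, ← hprop i]
      ring
    simp_rw [this]
    rw [← Finset.sum_mul, hcP, zero_mul]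
  have hyl : fr.pt M0 P l = 0 := (mul_eq_zero.mp h4).resolve_right hcQ
  refine h84_pt_ne_zero fr M0 hP (funext fun k => ?_)
  have h5 := hprop k
  rw [hyl, zero_mul] at h5
  exact (mul_eq_zero.mp h5).resolve_right hl

/-! ### the chordal distance -/

theorem h84_mn_two (M0 : ℕ) (w : h55_Pl) (P Q : Place Qbar F) :
    h55_mn w (fr.E M0 ![P, Q]) = h58_wedge (h55_av w) (fr.pt M0 P) (fr.pt M0 Q) := by
  have hdet : ∀ f : Fin 2 → Fin (fr.n M0), ((fr.E M0 ![P, Q]).submatrix id f).det =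
      fr.pt M0 P (f 0) * fr.pt M0 Q (f 1) - fr.pt M0 P (f 1) * fr.pt M0 Q (f 0) := by
    intro f
    rw [Matrix.det_fin_two]
    rfl
  apply le_antisymm
  · refine h86_mnorm_le (h55_av w) _ (h58_wedge_nonneg _ _ _) fun f => ?_
    rw [hdet]
    exact h58_le_wedge (h55_av w) (fr.pt M0 P) (fr.pt M0 Q) (f 0, f 1)
  · refine h58_wedge_le _ _ _ (h86_mnorm_nonneg (h55_av w) _) fun κ => ?_
    have h := h86_le_mnorm (h55_av w) (fr.E M0 ![P, Q]) ![κ.1, κ.2]
    rw [hdet] at h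
    exact h

theorem h84_dist_eq (M0 : ℕ) (w : h55_Pl) (P Q : Place Qbar F) :
    fr.dist M0 w P Q = h58_dist (h55_av w) (fr.pt M0 P) (fr.pt M0 Q) := by
  unfold h55_Frame.dist h58_dist
  rw [h84_mn_two]
  rfl

theorem h84_dist_pos (M0 : ℕ) (hM0 : 2 * fr.g + 1 ≤ M0) (w : h55_Pl) {P Q : Place Qbar F}
    (hP : P ≠ fr.inf) (hQ : Q ≠ fr.inf) (hPQ : P ≠ Q) : 0 < fr.dist M0 w P Q := by
  rw [h84_dist_eq]
  unfold h58_dist
  obtain ⟨κ, hκ⟩ := h84_sep fr M0 hM0 hP hQ hPQ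
  exact div_pos (lt_of_lt_of_le ((h55_av w).pos hκ) (h58_le_wedge _ _ _ κ))
    (mul_pos (h58_vnorm_pos _ (h84_pt_ne_zero fr M0 hP)) (h58_vnorm_pos _ (h84_pt_ne_zero fr M0 hQ)))

/-! ### the wiring -/

theorem h84_finite_not_nonarch : {w : h55_Pl | ¬ IsNonarchimedean (h55_av w)}.Finite := by
  refine (Set.finite_singleton none).subset fun w hw => ?_
  rcases w with _ | p
  · rfl
  · exact absurd (h55_av_nonarch p) hw

theorem h84_R_eq (M0 M : ℕ) (w : h55_Pl) {a : ℕ} (P : Fin a → Place Qbar F) :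
    h58_R (h55_av w) (fun j => h84_Pt fr M0 M (P j)) =
      h86_vdmProd (h55_av w) (fr.pt M) (fr.dist M0 w) P := by
  unfold h58_R h86_vdmProd h58_pairProd
  congr 1
  refine Finset.prod_congr rfl fun i _ => Finset.prod_congr rfl fun j _ => ?_
  rw [h84_dist_eq]
  rfl

/-- the statement of `h55_vdm`, from the bounded right inverses of the abstract core. -/
theorem h84_vdm_of_BRI (M0 M amax : ℕ) (hM0 : 4 * fr.g + 2 ≤ M0)
    (hM : (amax + 1) * M0 + 2 * fr.g ≤ M)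
    (hBRI : ∀ a, a < amax → ∃ c : h55_Pl → ℝ, h58_AA c ∧
      ∀ w, h58_BRI (h84_mu fr M0 (M - a * M0) M a) (h55_av w) (h84_Z fr M0) (c w)) :
    ∃ c : h55_Pl → ℝ, (∀ w, 1 ≤ c w) ∧ {w | c w ≠ 1}.Finite ∧
      ∀ (w : h55_Pl) (a : ℕ) (P : Fin a → Place Qbar F), a ≤ amax → fr.IsAdm P →
        |fr.Gloc M w P - ∑ j, Real.log (h55_nrm w (fr.pt M (P j)))
          - ∑ i, ∑ j, (if i < j then Real.log (fr.dist M0 w (P i) (P j)) else 0)|
          ≤ Real.log (c w) := by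
  have hsucc : (amax + 1) * M0 = amax * M0 + M0 := Nat.succ_mul amax M0
  have hlt : ∀ a, a < amax → a * M0 + M0 ≤ amax * M0 := by
    intro a ha
    have h1 : (a + 1) * M0 ≤ amax * M0 := Nat.mul_le_mul_right M0 ha
    rwa [Nat.succ_mul] at h1
  obtain ⟨c, hc, hcP⟩ := h58_vdm_of_BRI h55_av (fun α hα => h55_finite_ne_one hα)
    h84_finite_not_nonarch amax (fun a => fr.n (M - a * M0))
    (fun a => h84_mu fr M0 (M - a * M0) M a) (h84_Z fr M0) (h84_Z_cone fr M0)
    (fun a ha y hy hyZ => h84_RK fr M0 (M - a * M0) M a hM0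
      (by have := hlt a ha; omega) (by have := hlt a ha; omega) y hy hyZ)
    (fun a ha => h84_SURJ fr M0 (M - a * M0) M a (by omega)
      (by have := hlt a ha; omega) (by have := hlt a ha; omega))
    hBRI
  refine ⟨c, hc.1, hc.2, fun w a P ha hP => ?_⟩
  obtain ⟨k1, k2⟩ := hcP w a ha (fun j => h84_Pt fr M0 M (P j))
    (fun j => h84_isPt fr M0 M amax (by omega) (hP.2 j))
  rw [h84_R_eq] at k1 k2
  exact h86_vdm_log (h55_av w) (fr.pt M) (fr.dist M0 w) P (c w) (hc.pos w)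
    (fun j => h58_vnorm_pos _ (h84_pt_ne_zero fr M (hP.2 j)))
    (fun i j hij => h84_dist_pos fr M0 (by omega) w (hP.2 i) (hP.2 j)
      (fun h => (ne_of_lt hij) (hP.1 h)))
    k2 k1

end Fermat.Agent.S17
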