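import Fermat.Agent.S17.h86_Minors
import Fermat.Agent.S17.h55_Places
import Fermat.Agent.S17.h7_Siegel
import Fermat.Agent.S17.h32_GalDescent

/-!
# S17 / G3 + G5 (curve-free core): Plücker heights of `ℚ̄`-matrices

* `h86_plk E` : the Plücker vector (all maximal minors) of a matrix;
* `h86_mht E := ∑_w log ‖E‖_w` : the Plücker height of a `ℚ̄`-matrix (one absolute value of `ℚ̄`
  per place of `ℚ`, `h55_av`);
* `h86_GalStable E` : the Galois group permutes the rows of `E`;
* for Galois-stable `E`: rational minor ratios, the square of a minor is rational, product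
  formula, `h86_mht E` is the height of the rational ratio vector;
* `h86_schmidt_eq` : the Schmidt height of the rational kernel of `E` (Plücker height of a
  rational basis matrix) equals `h86_mht E`;
* `h86_siegel` : a small nonzero integer vector in the kernel of `E`;
* `h86_mht_of_local` : summation of local two-sided bounds.
-/

set_option autoImplicit false

namespace Fermat.Agent.S17

open Matrix

local notation "Qbar" => AlgebraicClosure ℚ

section plk

variable {K : Type*} [Field K] {a n : ℕ}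

/-- The Plücker vector of a matrix: all maximal minors, indexed by ALL column selections. -/
def h86_plk (E : Matrix (Fin a) (Fin n) K) : (Fin a → Fin n) → K :=
  fun f => (E.submatrix id f).det

theorem h86_plk_apply (E : Matrix (Fin a) (Fin n) K) (f : Fin a → Fin n) :
    h86_plk E f = (E.submatrix id f).det := rfl

theorem h86_mnorm_eq_vnorm_plk (v : AbsoluteValue K ℝ) (E : Matrix (Fin a) (Fin n) K) :
    h86_mnorm v E = h86_vnorm v (h86_plk E) := rfl

theorem h86_plk_ne_zero_iff (E : Matrix (Fin a) (Fin n) K) :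
    h86_plk E ≠ 0 ↔ ∃ f : Fin a → Fin n, (E.submatrix id f).det ≠ 0 := by
  constructor
  · intro h
    by_contra hcon
    apply h
    funext f
    by_contra hf
    exact hcon ⟨f, hf⟩
  · rintro ⟨f, hf⟩ h
    exact hf (congrFun h f)

/-- Minors commute with a ring homomorphism. -/
theorem h86_plk_map {L : Type*} [Field L] (φ : K →+* L) (E : Matrix (Fin a) (Fin n) K)
    (f : Fin a → Fin n) : h86_plk (E.map φ) f = φ (h86_plk E f) := by
  unfold h86_plk
  rw [RingHom.map_det]
  rfl

end plk

section mht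

variable {a n : ℕ}

/-- The Plücker height `∑_w log ‖E‖_w` of a matrix over `ℚ̄`. -/
noncomputable def h86_mht (E : Matrix (Fin a) (Fin n) Qbar) : ℝ :=
  ∑ᶠ w : h55_Pl, Real.log (h86_mnorm (h55_av w) E)

theorem h86_mht_eq_hgt (E : Matrix (Fin a) (Fin n) Qbar) : h86_mht E = h55_hgt (h86_plk E) := rfl

theorem h86_mht_support (E : Matrix (Fin a) (Fin n) Qbar) :
    (Function.support fun w : h55_Pl => Real.log (h86_mnorm (h55_av w) E)).Finite :=
  h55_finite_support_log_nrm (h86_plk E)

theorem h86_mnorm_finite_ne_one (E : Matrix (Fin a) (Fin n) Qbar)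
    (hE : ∃ f : Fin a → Fin n, (E.submatrix id f).det ≠ 0) :
    {w : h55_Pl | h86_mnorm (h55_av w) E ≠ 1}.Finite :=
  h55_finite_nrm_ne_one (x := h86_plk E) ((h86_plk_ne_zero_iff E).mpr hE)

/-- If `‖B‖_w = |c|_w ‖E‖_w` at every place, the Plücker heights differ by `∑_w log |c|_w`. -/
theorem h86_mht_of_mnorm_eq {m : ℕ} (E : Matrix (Fin a) (Fin n) Qbar)
    (B : Matrix (Fin m) (Fin n) Qbar)
    (hE : ∃ f : Fin a → Fin n, (E.submatrix id f).det ≠ 0) (c : Qbar) (hc0 : c ≠ 0)
    (hc : ∀ w : h55_Pl, h86_mnorm (h55_av w) B = h55_av w c * h86_mnorm (h55_av w) E) :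
    h86_mht B = h55_gl c + h86_mht E := by
  unfold h86_mht h55_gl
  rw [← finsum_add_distrib (h55_finite_support_lg hc0) (h86_mht_support E)]
  refine finsum_congr fun w => ?_
  rw [hc w, Real.log_mul ((h55_av w).pos hc0).ne' (h86_mnorm_pos _ E hE).ne']
  rfl

/-- Left multiplication by an invertible matrix changes the Plücker height by the global sum of
its determinant. -/
theorem h86_mht_mul (G : Matrix (Fin a) (Fin a) Qbar) (E : Matrix (Fin a) (Fin n) Qbar)
    (hG : G.det ≠ 0) (hE : ∃ f : Fin a → Fin n, (E.submatrix id f).det ≠ 0) :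
    h86_mht (G * E) = h55_gl G.det + h86_mht E :=
  h86_mht_of_mnorm_eq E (G * E) hE G.det hG fun w => h86_mnorm_mul (h55_av w) G E

/-- **Summation of local bounds**: two-sided local bounds with constants `c w` (`≥ 1`, `= 1` for
almost all `w`) give a global identity up to `∑_w log c_w`. -/
theorem h86_mht_of_local (E : Matrix (Fin a) (Fin n) Qbar) (R c : h55_Pl → ℝ)
    (hc1 : ∀ w, 1 ≤ c w) (hcfin : {w | c w ≠ 1}.Finite) (hRpos : ∀ w, 0 < R w)
    (hRfin : (Function.support fun w => Real.log (R w)).Finite)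
    (hle : ∀ w, h86_mnorm (h55_av w) E ≤ c w * R w)
    (hge : ∀ w, R w ≤ c w * h86_mnorm (h55_av w) E) :
    |h86_mht E - ∑ᶠ w, Real.log (R w)| ≤ ∑ᶠ w, Real.log (c w) := by
  have hcpos : ∀ w, 0 < c w := fun w => lt_of_lt_of_le zero_lt_one (hc1 w)
  have hmpos : ∀ w, 0 < h86_mnorm (h55_av w) E := by
    intro w
    by_contra h
    have h0 : h86_mnorm (h55_av w) E ≤ 0 := not_lt.mp h
    have := hge w
    have h2 : c w * h86_mnorm (h55_av w) E ≤ 0 := mul_nonpos_of_nonneg_of_nonpos (hcpos w).le h0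
    exact absurd (lt_of_lt_of_le (hRpos w) (this.trans h2)) (lt_irrefl _)
  have hcsupp : (Function.support fun w => Real.log (c w)).Finite := by
    refine hcfin.subset ?_
    intro w hw h1
    simp only [Function.mem_support, ne_eq] at hw
    exact hw (by rw [h1, Real.log_one])
  have hsub : h86_mht E - ∑ᶠ w, Real.log (R w) =
      ∑ᶠ w, (Real.log (h86_mnorm (h55_av w) E) - Real.log (R w)) := by
    unfold h86_mht
    rw [finsum_sub_distrib (h86_mht_support E) hRfin]
  have hdsupp : (Function.support fun w : h55_Pl =>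
      Real.log (h86_mnorm (h55_av w) E) - Real.log (R w)).Finite := by
    refine ((h86_mht_support E).union hRfin).subset ?_
    intro w hw
    simp only [Function.mem_support, ne_eq, Set.mem_union] at hw ⊢
    by_contra hcon
    push Not at hcon
    exact hw (by rw [hcon.1, hcon.2, sub_zero])
  have h1 : ∀ w, Real.log (h86_mnorm (h55_av w) E) - Real.log (R w) ≤ Real.log (c w) := by
    intro w
    have := Real.log_le_log (hmpos w) (hle w)
    rw [Real.log_mul (hcpos w).ne' (hRpos w).ne'] at this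
    linarith
  have h2 : ∀ w, -(Real.log (h86_mnorm (h55_av w) E) - Real.log (R w)) ≤ Real.log (c w) := by
    intro w
    have := Real.log_le_log (hRpos w) (hge w)
    rw [Real.log_mul (hcpos w).ne' (hmpos w).ne'] at this
    linarith
  rw [hsub, abs_le]
  constructor
  · have hnsupp : (Function.support fun w : h55_Pl =>
        -(Real.log (h86_mnorm (h55_av w) E) - Real.log (R w))).Finite := by
      refine hdsupp.subset ?_
      intro w hw
      simp only [Function.mem_support, ne_eq, neg_eq_zero] at hw ⊢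
      exact hw
    have h3 := finsum_le_finsum' (f := fun w : h55_Pl =>
      -(Real.log (h86_mnorm (h55_av w) E) - Real.log (R w))) (g := fun w => Real.log (c w))
      hnsupp hcsupp h2
    rw [finsum_neg_distrib] at h3
    linarith
  · exact finsum_le_finsum' hdsupp hcsupp h1

end mht

section galois

variable {a n : ℕ}

/-- The Galois group of `ℚ̄ / ℚ` permutes the rows of `E` (e.g. the rows are the evaluation
vectors, in a `ℚ`-rational basis, of a Galois-stable finite set of points). -/
def h86_GalStable (E : Matrix (Fin a) (Fin n) Qbar) : Prop :=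
  ∀ σ : Qbar ≃ₐ[ℚ] Qbar, ∃ π : Equiv.Perm (Fin a), ∀ i j, σ (E i j) = E (π i) j

theorem h86_intUnit_sq (s : ℤˣ) : (((s : ℤ) : Qbar)) ^ 2 = 1 := by
  rcases Int.units_eq_one_or s with h | h
  · rw [h]; simp
  · rw [h]; simp

theorem h86_intUnit_ne_zero (s : ℤˣ) : (((s : ℤ) : Qbar)) ≠ 0 := by
  intro h
  have := h86_intUnit_sq s
  rw [h] at this
  simp at this

/-- For a Galois-stable matrix, every automorphism multiplies all maximal minors by ONE sign. -/
theorem h86_galStable_minor {E : Matrix (Fin a) (Fin n) Qbar} (hE : h86_GalStable E)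
    (σ : Qbar ≃ₐ[ℚ] Qbar) :
    ∃ s : ℤˣ, ∀ f : Fin a → Fin n,
      σ ((E.submatrix id f).det) = ((s : ℤ) : Qbar) * (E.submatrix id f).det := by
  obtain ⟨π, hπ⟩ := hE σ
  refine ⟨Equiv.Perm.sign π, fun f => ?_⟩
  have h1 : σ ((E.submatrix id f).det) = ((E.submatrix id f).map σ).det := by
    have := RingHom.map_det (σ : Qbar →+* Qbar) (E.submatrix id f)
    exact this
  have h2 : (E.submatrix id f).map σ = (E.submatrix id f).submatrix π id := by
    ext i j
    exact hπ i (f j)
  rw [h1, h2, Matrix.det_permute]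

/-- An element of `ℚ̄` fixed by the whole Galois group is rational. -/
theorem h86_rat_of_fixed (x : Qbar) (hx : ∀ σ : Qbar ≃ₐ[ℚ] Qbar, σ x = x) :
    ∃ q : ℚ, x = (q : Qbar) := by
  have := h32_isGaloisQbar
  obtain ⟨q, hq⟩ := (InfiniteGalois.mem_range_algebraMap_iff_fixed (k := ℚ) (K := Qbar) x).mpr hx
  exact ⟨q, by rw [← hq]; simp⟩

/-- Rational minor ratios of a Galois-stable matrix (the hypothesis `hr` of `h7_siegel_field`). -/
theorem h86_galStable_ratio {E : Matrix (Fin a) (Fin n) Qbar} (hE : h86_GalStable E)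
    (f0 : Fin a → Fin n) (h0 : (E.submatrix id f0).det ≠ 0) :
    ∃ ρ : (Fin a → Fin n) → ℚ, ∀ f : Fin a → Fin n,
      (E.submatrix id f).det = (ρ f : Qbar) * (E.submatrix id f0).det := by
  have key : ∀ f : Fin a → Fin n, ∃ q : ℚ,
      (E.submatrix id f).det / (E.submatrix id f0).det = (q : Qbar) := by
    intro f
    apply h86_rat_of_fixed
    intro σ
    obtain ⟨s, hs⟩ := h86_galStable_minor hE σ
    rw [map_div₀, hs f, hs f0, mul_div_mul_left _ _ (h86_intUnit_ne_zero s)]
  choose ρ hρ using key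
  exact ⟨ρ, fun f => by rw [← hρ f, div_mul_cancel₀ _ h0]⟩

/-- The square of a maximal minor of a Galois-stable matrix is rational. -/
theorem h86_galStable_sq {E : Matrix (Fin a) (Fin n) Qbar} (hE : h86_GalStable E)
    (f : Fin a → Fin n) : ∃ q : ℚ, ((E.submatrix id f).det) ^ 2 = (q : Qbar) := by
  apply h86_rat_of_fixed
  intro σ
  obtain ⟨s, hs⟩ := h86_galStable_minor hE σ
  rw [map_pow, hs f, mul_pow, h86_intUnit_sq, one_mul]

/-- Product formula for a nonzero maximal minor of a Galois-stable matrix. -/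
theorem h86_galStable_gl {E : Matrix (Fin a) (Fin n) Qbar} (hE : h86_GalStable E)
    (f0 : Fin a → Fin n) (h0 : (E.submatrix id f0).det ≠ 0) :
    h55_gl ((E.submatrix id f0).det) = 0 := by
  obtain ⟨q, hq⟩ := h86_galStable_sq hE f0
  exact h55_product_formula_pow h0 two_ne_zero hq

theorem h86_ratio_ne_zero {E : Matrix (Fin a) (Fin n) Qbar}
    (f0 : Fin a → Fin n) (h0 : (E.submatrix id f0).det ≠ 0) (ρ : (Fin a → Fin n) → ℚ)
    (hρ : ∀ f : Fin a → Fin n, (E.submatrix id f).det = (ρ f : Qbar) * (E.submatrix id f0).det) :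
    ρ ≠ 0 := by
  intro h
  have := hρ f0
  rw [h, Pi.zero_apply, Rat.cast_zero, zero_mul] at this
  exact h0 this

/-- The Plücker height of a Galois-stable matrix is the height of its rational ratio vector. -/
theorem h86_mht_eq_ht_ratio {E : Matrix (Fin a) (Fin n) Qbar} (hE : h86_GalStable E)
    (f0 : Fin a → Fin n) (h0 : (E.submatrix id f0).det ≠ 0) (ρ : (Fin a → Fin n) → ℚ)
    (hρ : ∀ f : Fin a → Fin n, (E.submatrix id f).det = (ρ f : Qbar) * (E.submatrix id f0).det) :
    h86_mht E = h55_ht ρ := by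
  have h1 : h86_plk E = (E.submatrix id f0).det • (fun f => (ρ f : Qbar)) := by
    funext f
    rw [h86_plk_apply, hρ f, Pi.smul_apply, smul_eq_mul, mul_comm]
  have hρ0 : (fun f => (ρ f : Qbar)) ≠ 0 := by
    intro h
    apply h86_ratio_ne_zero f0 h0 ρ hρ
    funext f
    have := congrFun h f
    simpa using this
  rw [h86_mht_eq_hgt, h1, h55_hgt_smul h0 hρ0, h86_galStable_gl hE f0 h0, zero_add]
  rfl

theorem h86_mht_eq_logHeight_ratio {E : Matrix (Fin a) (Fin n) Qbar} (hE : h86_GalStable E)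
    (f0 : Fin a → Fin n) (h0 : (E.submatrix id f0).det ≠ 0) (ρ : (Fin a → Fin n) → ℚ)
    (hρ : ∀ f : Fin a → Fin n, (E.submatrix id f).det = (ρ f : Qbar) * (E.submatrix id f0).det) :
    h86_mht E = Height.logHeight ρ := by
  rw [h86_mht_eq_ht_ratio hE f0 h0 ρ hρ, h55_ht_eq_logHeight ρ (h86_ratio_ne_zero f0 h0 ρ hρ)]

/-- **Siegel's lemma for a Galois-stable system**: a nonzero integer vector in the kernel of `E`
of height at most `log (n - a) + h86_mht E / (n - a)`. -/
theorem h86_siegel (E : Matrix (Fin a) (Fin n) Qbar) (han : a < n) (hgal : h86_GalStable E)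
    (hE : ∃ f : Fin a → Fin n, (E.submatrix id f).det ≠ 0) :
    ∃ x : Fin n → ℤ, x ≠ 0 ∧ E.mulVec (fun j => ((x j : ℤ) : Qbar)) = 0 ∧
      ((n - a : ℕ) : ℝ) * h55_ht (fun j => (x j : ℚ)) ≤
        ((n - a : ℕ) : ℝ) * Real.log ((n - a : ℕ) : ℝ) + h86_mht E := by
  obtain ⟨f0, h0⟩ := hE
  obtain ⟨ρ, hρ⟩ := h86_galStable_ratio hgal f0 h0
  obtain ⟨x, hx0, hker, hb⟩ := h7_siegel_field_log han E f0 h0 ρ hρ
  refine ⟨x, hx0, hker, ?_⟩
  have hx0' : (fun j => (x j : ℚ)) ≠ 0 := by
    intro h
    apply hx0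
    funext j
    have := congrFun h j
    simpa using this
  rw [h86_mht_eq_logHeight_ratio hgal f0 h0 ρ hρ, h55_ht_eq_logHeight _ hx0']
  exact hb

/-- **Schmidt height = Plücker height.**  If `E` is Galois-stable of full rank and `Bq` is a
rational matrix of full rank whose rows span the kernel of `E` (`E * Bᵀ = 0`, `a + m = n`), then
the height of the Plücker vector of `Bq` is `∑_w log ‖E‖_w`. -/
theorem h86_schmidt_eq {m : ℕ} (E : Matrix (Fin a) (Fin n) Qbar) (hgal : h86_GalStable E)
    (Bq : Matrix (Fin m) (Fin n) ℚ) (hEB : E * (Bq.map (algebraMap ℚ Qbar))ᵀ = 0)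
    (hE : ∃ f : Fin a → Fin n, (E.submatrix id f).det ≠ 0)
    (hB : ∃ h : Fin m → Fin n, (Bq.submatrix id h).det ≠ 0) (hn : a + m = n) :
    h55_ht (h86_plk Bq) = h86_mht E := by
  set B : Matrix (Fin m) (Fin n) Qbar := Bq.map (algebraMap ℚ Qbar) with hBdef
  have hminor : ∀ h : Fin m → Fin n,
      (B.submatrix id h).det = algebraMap ℚ Qbar ((Bq.submatrix id h).det) :=
    fun h => h86_plk_map (algebraMap ℚ Qbar) Bq h
  have hB' : ∃ h : Fin m → Fin n, (B.submatrix id h).det ≠ 0 := by
    obtain ⟨h, hh⟩ := hB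
    refine ⟨h, ?_⟩
    rw [hminor h]
    exact (map_ne_zero (algebraMap ℚ Qbar)).mpr hh
  let e₀ : Fin a ⊕ Fin m ≃ Fin n := finSumFinEquiv.trans (finCongr hn)
  obtain ⟨c, hc0, hc⟩ := h86_compl_minors E B hEB hE hB' e₀
  -- `c ^ 2` is rational
  obtain ⟨f0, h0⟩ := hE
  have hinj : Function.Injective f0 := by
    by_contra hni
    exact h0 (h86_minor_eq_zero_of_not_injective E f0 hni)
  obtain ⟨e, he⟩ := h86_exists_equiv_inl (m := m) hn f0 hinj
  have he' : e ∘ Sum.inl = f0 := funext he
  have hce := hc e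
  rw [he'] at hce
  have hsq : ∃ q : ℚ, c ^ 2 = (q : Qbar) := by
    apply h86_rat_of_fixed
    intro σ
    obtain ⟨s, hs⟩ := h86_galStable_minor hgal σ
    have h1 := congrArg σ hce
    rw [hminor, AlgEquiv.commutes, ← hminor, hce, map_mul, map_mul, map_intCast, hs f0] at h1
    -- h1 : c * sgn * D = σ c * sgn * (s * D)
    have hsgn := h86_intUnit_ne_zero (Equiv.Perm.sign (e.trans e₀.symm))
    have h2 : c = σ c * ((s : ℤ) : Qbar) := by
      have h3 : c * ((((Equiv.Perm.sign (e.trans e₀.symm) : ℤˣ) : ℤ) : Qbar) *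
          (E.submatrix id f0).det) =
          (σ c * ((s : ℤ) : Qbar)) * ((((Equiv.Perm.sign (e.trans e₀.symm) : ℤˣ) : ℤ) : Qbar) *
          (E.submatrix id f0).det) := by
        rw [← mul_assoc, h1]; ring
      exact mul_right_cancel₀ (mul_ne_zero hsgn h0) h3
    rw [map_pow]
    conv_rhs => rw [h2]
    rw [mul_pow, h86_intUnit_sq, mul_one]
  obtain ⟨q, hq⟩ := hsq
  have hgl : h55_gl c = 0 := h55_product_formula_pow hc0 two_ne_zero hq
  have h1 : h86_mht B = h55_gl c + h86_mht E :=
    h86_mht_of_mnorm_eq E B ⟨f0, h0⟩ c hc0 fun w => h86_mnorm_eq_of_compl E B c e₀ hc (h55_av w)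
  rw [hgl, zero_add] at h1
  rw [← h1, h86_mht_eq_hgt]
  unfold h55_ht
  congr 1
  funext h
  show (((Bq.submatrix id h).det : ℚ) : Qbar) = (B.submatrix id h).det
  rw [hminor h]
  simp

end galois

section more

variable {a n : ℕ}

/-- Lower bound for the Plücker height of a Galois-stable system from a lower bound for the
heights of the integer vectors of its kernel. -/
theorem h86_mht_ge (E : Matrix (Fin a) (Fin n) Qbar) (han : a < n) (hgal : h86_GalStable E)
    (hE : ∃ f : Fin a → Fin n, (E.submatrix id f).det ≠ 0) (m : ℝ)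
    (hm : ∀ x : Fin n → ℤ, x ≠ 0 → E.mulVec (fun j => ((x j : ℤ) : Qbar)) = 0 →
      m ≤ h55_ht (fun j => (x j : ℚ))) :
    ((n - a : ℕ) : ℝ) * m ≤ ((n - a : ℕ) : ℝ) * Real.log ((n - a : ℕ) : ℝ) + h86_mht E := by
  obtain ⟨x, hx0, hker, hb⟩ := h86_siegel E han hgal hE
  exact (mul_le_mul_of_nonneg_left (hm x hx0 hker) (Nat.cast_nonneg _)).trans hb

/-- **Summation of local bounds, product form**: if `‖E‖_w` is, up to `c w`, a finite product of
local factors `g i w`, then `h86_mht E` is, up to `∑_w log c_w`, the sum of the global sums of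
the `log g i`. -/
theorem h86_mht_of_local_prod {ι : Type*} (s : Finset ι) (E : Matrix (Fin a) (Fin n) Qbar)
    (g : ι → h55_Pl → ℝ) (c : h55_Pl → ℝ)
    (hc1 : ∀ w, 1 ≤ c w) (hcfin : {w | c w ≠ 1}.Finite)
    (hgpos : ∀ i ∈ s, ∀ w, 0 < g i w)
    (hgfin : ∀ i ∈ s, (Function.support fun w => Real.log (g i w)).Finite)
    (hle : ∀ w, h86_mnorm (h55_av w) E ≤ c w * ∏ i ∈ s, g i w)
    (hge : ∀ w, ∏ i ∈ s, g i w ≤ c w * h86_mnorm (h55_av w) E) :
    |h86_mht E - ∑ i ∈ s, ∑ᶠ w, Real.log (g i w)| ≤ ∑ᶠ w, Real.log (c w) := by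
  have hlog : ∀ w, Real.log (∏ i ∈ s, g i w) = ∑ i ∈ s, Real.log (g i w) :=
    fun w => Real.log_prod (fun i hi => (hgpos i hi w).ne')
  have hRfin : (Function.support fun w => Real.log (∏ i ∈ s, g i w)).Finite := by
    have hU : (⋃ i ∈ s, Function.support fun w => Real.log (g i w)).Finite :=
      s.finite_toSet.biUnion fun i hi => hgfin i hi
    refine hU.subset ?_
    intro w hw
    simp only [Function.mem_support, ne_eq] at hw
    rw [hlog w] at hw
    by_contra hcon
    apply hw
    refine Finset.sum_eq_zero fun i hi => ?_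
    by_contra hne
    exact hcon (Set.mem_biUnion hi hne)
  have h := h86_mht_of_local E (fun w => ∏ i ∈ s, g i w) c hc1 hcfin
    (fun w => Finset.prod_pos fun i hi => hgpos i hi w) hRfin hle hge
  have hswap : ∑ᶠ w, Real.log (∏ i ∈ s, g i w) = ∑ i ∈ s, ∑ᶠ w, Real.log (g i w) := by
    simp only [hlog]
    exact finsum_sum_comm s (fun w i => Real.log (g i w)) hgfin
  rw [← hswap]
  exact h

end more

end Fermat.Agent.S17
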