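import Fermat.Agent.S17.h55_Frame
import Fermat.Agent.S17.h86_Plucker
import Fermat.Agent.S18.RR_Riemann

/-!
# S17 height block (route R55), row SG: Siegel, lower bound and Northcott for `qraw`

Hypothesis forms `h89_lower_of` / `h89_northcott_pair_of`: the statements of the rows FB, WC, PR
that are used are taken verbatim as hypotheses (`hn` = `h55_n_eq`, `hexv` = `h55_exists_vec`,
`hact` = `h55_act_vec`, `hpt` = `h55_pt_smul`, `hmulrat` = `h55_exists_mul_rat`,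
`hrat` = `h55_vec_rat_of_fixed`, `hW` = `h55_mem_W_iff`, `hminor` = `h55_exists_minor`,
`hhtmul` = `h55_ht_mul`).

Proof.  Siegel (`h86_siegel`) on `ker E_M(A)` and `ker E_M(B)` gives rational `t ∈ L(M·inf - A)`,
`t' ∈ L(M·inf - B)` of height `≤ G_M(·)/(n M - e) + log (n M - e)`; `t·t' = s·u` with
`u ∈ V_(2M-2e)` Galois-fixed, hence rational, and `h(u) = h(t) + h(t') - h(s) + O(1)`.
`h(u) ≥ 0` is the lower bound; for Northcott, `c = -[A'' - (M-e)·inf]` with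
`0 ≤ A'' ≤ div(u) + (2M-2e)·inf`, `A'' := div(t) + M·inf - A`.
-/

set_option autoImplicit false

open AlgebraicCurve

namespace Fermat.Agent.S17

open Fermat.Agent.S18 Fermat.Agent.S27

local notation "Qbar" => AlgebraicClosure ℚ
local notation "GQ" => (AlgebraicClosure ℚ ≃ₐ[ℚ] AlgebraicClosure ℚ)

variable {F : Type} [Field F] [Algebra Qbar F] (fr : h55_Frame F)

/-! ### small frame facts -/

theorem h89_vec_zero (M : ℕ) : fr.vec M (0 : Fin (fr.n M) → Qbar) = 0 := by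
  simp [h55_Frame.vec]

theorem h89_vec_smul (M : ℕ) (a : Qbar) (c : Fin (fr.n M) → Qbar) :
    fr.vec M (a • c) = a • fr.vec M c := by
  simp [h55_Frame.vec, Finset.smul_sum, smul_smul]

theorem h89_adm_left {a b : ℕ} {A : Fin a → Place Qbar F} {B : Fin b → Place Qbar F}
    (h : fr.IsAdm (Fin.append A B)) : fr.IsAdm A := by
  refine ⟨fun i j hij => ?_, fun j => ?_⟩
  · have h1 := h.1 (a₁ := Fin.castAdd b i) (a₂ := Fin.castAdd b j) (by simpa using hij)
    exact Fin.castAdd_injective a b h1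
  · have h1 := h.2 (Fin.castAdd b j)
    simpa using h1

theorem h89_adm_right {a b : ℕ} {A : Fin a → Place Qbar F} {B : Fin b → Place Qbar F}
    (h : fr.IsAdm (Fin.append A B)) : fr.IsAdm B := by
  refine ⟨fun i j hij => ?_, fun j => ?_⟩
  · have h1 := h.1 (a₁ := Fin.natAdd a i) (a₂ := Fin.natAdd a j) (by simpa using hij)
    exact Fin.natAdd_injective b a h1
  · have h1 := h.2 (Fin.natAdd a j)
    simpa using h1

theorem h89_dv_append {a b : ℕ} (A : Fin a → Place Qbar F) (B : Fin b → Place Qbar F) :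
    h55_dv (Fin.append A B) = h55_dv A + h55_dv B := by
  unfold h55_dv
  rw [Fin.sum_univ_add]
  simp

theorem h89_G_eq (M : ℕ) {a : ℕ} (A : Fin a → Place Qbar F) :
    h86_mht (fr.E M A) = fr.G M A := rfl

theorem h89_galStable
    (hpt : ∀ (M : ℕ) {P : Place Qbar F} (_ : P ≠ fr.inf) (σ : GQ),
      fr.pt M (fr.act σ • P) = fun i => σ (fr.pt M P i))
    (M : ℕ) {a : ℕ} {A : Fin a → Place Qbar F} (hA : fr.IsAdm A) (hst : fr.IsStable A) :
    h86_GalStable (fr.E M A) := by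
  intro σ
  obtain ⟨π, hπ⟩ := hst σ
  refine ⟨π, fun i j => ?_⟩
  have h1 := congrFun (hpt M (hA.2 i) σ) j
  rw [hπ i] at h1
  exact h1.symm

/-- **Siegel** for the space `L(M·inf - A)` of a Galois-stable admissible tuple. -/
theorem h89_siegel
    (hn : ∀ (M : ℕ) (_ : 2 * fr.g ≤ M + 1), (fr.n M : ℤ) = M + 1 - fr.g)
    (hpt : ∀ (M : ℕ) {P : Place Qbar F} (_ : P ≠ fr.inf) (σ : GQ),
      fr.pt M (fr.act σ • P) = fun i => σ (fr.pt M P i))
    (hW : ∀ (M : ℕ) {a : ℕ} (P : Fin a → Place Qbar F) (_ : fr.IsAdm P)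
      (c : Fin (fr.n M) → Qbar),
      fr.vec M c ∈ riemannRochSpace ((M : ℤ) • Finsupp.single fr.inf (1 : ℤ) - h55_dv P) ↔
        (fr.E M P).mulVec c = 0)
    (hminor : ∀ (M : ℕ) {a : ℕ} (P : Fin a → Place Qbar F) (_ : fr.IsAdm P)
      (_ : a + 2 * fr.g ≤ M + 1),
      ∃ f : Fin a → Fin (fr.n M), ((fr.E M P).submatrix id f).det ≠ 0)
    (e M : ℕ) (hM : e + 2 * fr.g + 1 ≤ M) {A : Fin e → Place Qbar F} (hA : fr.IsAdm A)
    (hst : fr.IsStable A) :
    ∃ x : Fin (fr.n M) → ℚ, x ≠ 0 ∧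
      fr.vec M (fun i => (x i : Qbar)) ∈
        riemannRochSpace ((M : ℤ) • Finsupp.single fr.inf (1 : ℤ) - h55_dv A) ∧
      ((fr.n M : ℝ) - e) * h55_ht x ≤
        ((fr.n M : ℝ) - e) * Real.log ((fr.n M : ℝ) - e) + fr.G M A := by
  have hnM := hn M (by omega)
  have hlt : e < fr.n M := by omega
  obtain ⟨x, hx0, hker, hb⟩ := h86_siegel (fr.E M A) hlt (h89_galStable fr hpt M hA hst)
    (hminor M A hA (by omega))
  refine ⟨fun j => (x j : ℚ), ?_, ?_, ?_⟩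
  · intro h
    apply hx0
    funext j
    have := congrFun h j
    simpa using this
  · rw [hW M A hA]
    have h2 : (fun i => (((x i : ℤ) : ℚ) : Qbar)) = fun j => ((x j : ℤ) : Qbar) := by
      funext j
      exact Rat.cast_intCast _
    rw [h2]
    exact hker
  · rw [h89_G_eq, Nat.cast_sub hlt.le] at hb
    exact hb

/-! ### the quotient `u = t·t'/s` -/

theorem h89_vec_ne_zero (M : ℕ) {c : Fin (fr.n M) → Qbar} (hc : c ≠ 0) : fr.vec M c ≠ 0 := by
  intro h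
  apply hc
  funext i
  exact (Fintype.linearIndependent_iff.mp (fr.b_li M)) c h i

theorem h89_ratvec_ne_zero {n : ℕ} {x : Fin n → ℚ} (hx : x ≠ 0) :
    (fun i => (x i : Qbar)) ≠ 0 := by
  intro h
  apply hx
  funext i
  have := congrFun h i
  simpa using this

/-- transport of a rational coordinate vector along an equality of indices -/
theorem h89_cast {N N' : ℕ} (h : N = N') (p : Fin (fr.n N) → ℚ) :
    ∃ p' : Fin (fr.n N') → ℚ,
      fr.vec N' (fun i => (p' i : Qbar)) = fr.vec N (fun i => (p i : Qbar)) ∧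
        h55_ht p' = h55_ht p := by
  subst h
  exact ⟨p, rfl, rfl⟩

theorem h89_ord_ge {D : Divisor Qbar F} {f : F} (hf : f ∈ riemannRochSpace D) (hf0 : f ≠ 0)
    (v : Place Qbar F) : -D v ≤ v.ord f :=
  (mem_riemannRochSpace_iff.mp hf v).resolve_left hf0

theorem h89_int1 (M K e δ a b ot ot' os : ℤ) (hK : e + e + K = M + M)
    (h1 : -(M * δ - a) ≤ ot) (h2 : -(M * δ - b) ≤ ot') (h3 : os = a + b - (e + e) * δ) :
    -(K * δ) ≤ ot + ot' - os := by
  have hK' : K = M + M - (e + e) := by linarith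
  subst hK'
  subst h3
  linarith

theorem h89_int2 (M K e δ a b ot ot' os : ℤ) (hK : e + e + K = M + M)
    (h2 : -(M * δ - b) ≤ ot') (h3 : os = a + b - (e + e) * δ) :
    ot + M * δ - a ≤ ot + ot' - os + K * δ := by
  have hK' : K = M + M - (e + e) := by linarith
  subst hK'
  subst h3
  linarith

/-- **Core of row SG.**  For every pair `(A, B, s)` of the class `c` there is a nonzero rational
`u ∈ V_K` (`K = 2M - 2e`) with `(n M - e)·h(u) ≤ qraw + C`, and `c = -[A'' - (M-e)·inf]` for a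
divisor `0 ≤ A'' ≤ div(u) + K·inf`. -/
theorem h89_core
    (hn : ∀ (M : ℕ) (_ : 2 * fr.g ≤ M + 1), (fr.n M : ℤ) = M + 1 - fr.g)
    (hexv : ∀ (M : ℕ) {f : F} (_ : f ∈ fr.V M), ∃ c, fr.vec M c = f)
    (hact : ∀ (M : ℕ) (c : Fin (fr.n M) → Qbar) (σ : GQ),
      fr.act σ • fr.vec M c = fr.vec M (fun i => σ (c i)))
    (hpt : ∀ (M : ℕ) {P : Place Qbar F} (_ : P ≠ fr.inf) (σ : GQ),
      fr.pt M (fr.act σ • P) = fun i => σ (fr.pt M P i))
    (hmulrat : ∀ (M M' : ℕ) (s : Fin (fr.n M) → ℚ) (u : Fin (fr.n M') → ℚ),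
      ∃ t : Fin (fr.n (M + M')) → ℚ, fr.vec (M + M') (fun l => (t l : Qbar)) =
        fr.vec M (fun i => (s i : Qbar)) * fr.vec M' (fun j => (u j : Qbar)))
    (hrat : ∀ (M : ℕ) (c : Fin (fr.n M) → Qbar)
      (_ : ∀ σ : GQ, fr.act σ • fr.vec M c = fr.vec M c),
      ∃ q : Fin (fr.n M) → ℚ, c = fun i => (q i : Qbar))
    (hW : ∀ (M : ℕ) {a : ℕ} (P : Fin a → Place Qbar F) (_ : fr.IsAdm P)
      (c : Fin (fr.n M) → Qbar),
      fr.vec M c ∈ riemannRochSpace ((M : ℤ) • Finsupp.single fr.inf (1 : ℤ) - h55_dv P) ↔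
        (fr.E M P).mulVec c = 0)
    (hminor : ∀ (M : ℕ) {a : ℕ} (P : Fin a → Place Qbar F) (_ : fr.IsAdm P)
      (_ : a + 2 * fr.g ≤ M + 1),
      ∃ f : Fin a → Fin (fr.n M), ((fr.E M P).submatrix id f).det ≠ 0)
    (hhtmul : ∀ (M M' : ℕ),
      ∃ C : ℝ, ∀ (s : Fin (fr.n M) → ℚ) (u : Fin (fr.n M') → ℚ) (t : Fin (fr.n (M + M')) → ℚ),
        s ≠ 0 → u ≠ 0 →
        fr.vec (M + M') (fun l => (t l : Qbar)) =
          fr.vec M (fun i => (s i : Qbar)) * fr.vec M' (fun j => (u j : Qbar)) →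
        |h55_ht t - h55_ht s - h55_ht u| ≤ C)
    (e M K : ℕ) (hM : e + 2 * fr.g + 1 ≤ M) (hK : (e + e) + K = M + M) :
    ∃ C : ℝ, ∀ (c : Pic0 Qbar F) (A B : Fin e → Place Qbar F) (s : Fin (fr.n (e + e)) → ℚ),
      fr.IsPair e c A B s →
      ∃ q : Fin (fr.n K) → ℚ, fr.vec K (fun i => (q i : Qbar)) ≠ 0 ∧
        ((fr.n M : ℝ) - e) * h55_ht q ≤ fr.qraw M A B s + C ∧
        ∃ (A'' : Divisor Qbar F)
          (h : A'' - ((M - e : ℕ) : ℤ) • Finsupp.single fr.inf (1 : ℤ) ∈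
            Divisor.degZero (K := Qbar) (F := F)),
          0 ≤ A'' ∧
          (∀ v : Place Qbar F, A'' v ≤
            v.ord (fr.vec K (fun i => (q i : Qbar))) +
              (K : ℤ) * Finsupp.single fr.inf (1 : ℤ) v) ∧
          c = -Pic0.mk ⟨_, h⟩ := by
  obtain ⟨C1, hC1⟩ := hhtmul M M
  obtain ⟨C2, hC2⟩ := hhtmul (e + e) K
  have hnM := hn M (by omega)
  have hlt : e < fr.n M := by omega
  have hpos : (0 : ℝ) < (fr.n M : ℝ) - e := by
    have : (e : ℝ) < fr.n M := by exact_mod_cast hlt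
    linarith
  refine ⟨((fr.n M : ℝ) - e) * (2 * Real.log ((fr.n M : ℝ) - e) + C1 + C2), ?_⟩
  intro c A B s hp
  have hA := h89_adm_left fr hp.adm
  have hB := h89_adm_right fr hp.adm
  obtain ⟨x, hx0, hxW, hxb⟩ := h89_siegel fr hn hpt hW hminor e M hM hA hp.stA
  obtain ⟨x', hx'0, hx'W, hx'b⟩ := h89_siegel fr hn hpt hW hminor e M hM hB hp.stB
  obtain ⟨hsF0, hsord⟩ := hp.cuts
  have ht0 : fr.vec M (fun i => (x i : Qbar)) ≠ 0 :=
    h89_vec_ne_zero fr M (h89_ratvec_ne_zero hx0)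
  have ht'0 : fr.vec M (fun i => (x' i : Qbar)) ≠ 0 :=
    h89_vec_ne_zero fr M (h89_ratvec_ne_zero hx'0)
  have hs0 : s ≠ 0 := by
    rintro rfl
    apply hsF0
    have : (fun i : Fin (fr.n (e + e)) => (((0 : Fin (fr.n (e + e)) → ℚ) i : ℚ) : Qbar)) = 0 := by
      funext i; simp
    rw [this]
    exact h89_vec_zero fr _
  -- the quotient
  obtain ⟨u, hu⟩ : ∃ u : F, u = fr.vec M (fun i => (x i : Qbar)) *
      fr.vec M (fun i => (x' i : Qbar)) * (fr.vec (e + e) (fun i => (s i : Qbar)))⁻¹ := ⟨_, rfl⟩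
  have hsu : fr.vec (e + e) (fun i => (s i : Qbar)) * u =
      fr.vec M (fun i => (x i : Qbar)) * fr.vec M (fun i => (x' i : Qbar)) := by
    rw [hu]
    field_simp
  have hu0 : u ≠ 0 := by
    rw [hu]
    exact mul_ne_zero (mul_ne_zero ht0 ht'0) (inv_ne_zero hsF0)
  have hordu : ∀ v : Place Qbar F, v.ord u = v.ord (fr.vec M (fun i => (x i : Qbar))) +
      v.ord (fr.vec M (fun i => (x' i : Qbar))) -
        v.ord (fr.vec (e + e) (fun i => (s i : Qbar))) := by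
    intro v
    rw [hu, v.ord_mul (mul_ne_zero ht0 ht'0) (inv_ne_zero hsF0), v.ord_mul ht0 ht'0, v.ord_inv]
    ring
  have hKZ : ((e : ℤ) + e) + K = M + M := by exact_mod_cast hK
  have h1 : ∀ v : Place Qbar F,
      -((M : ℤ) * Finsupp.single fr.inf (1 : ℤ) v - h55_dv A v) ≤
        v.ord (fr.vec M (fun i => (x i : Qbar))) := by
    intro v
    have := h89_ord_ge hxW ht0 v
    rwa [Finsupp.sub_apply, Finsupp.smul_apply, smul_eq_mul] at this
  have h2 : ∀ v : Place Qbar F,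
      -((M : ℤ) * Finsupp.single fr.inf (1 : ℤ) v - h55_dv B v) ≤
        v.ord (fr.vec M (fun i => (x' i : Qbar))) := by
    intro v
    have := h89_ord_ge hx'W ht'0 v
    rwa [Finsupp.sub_apply, Finsupp.smul_apply, smul_eq_mul] at this
  have h3 : ∀ v : Place Qbar F, v.ord (fr.vec (e + e) (fun i => (s i : Qbar))) =
      h55_dv A v + h55_dv B v - ((e : ℤ) + e) * Finsupp.single fr.inf (1 : ℤ) v := by
    intro v
    rw [hsord v, h89_dv_append, Finsupp.sub_apply, Finsupp.add_apply, Finsupp.smul_apply,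
      smul_eq_mul]
    push_cast
    ring
  have huV : u ∈ fr.V K := by
    refine mem_riemannRochSpace_iff.mpr fun v => Or.inr ?_
    rw [Finsupp.smul_apply, smul_eq_mul, hordu v]
    exact h89_int1 M K e _ _ _ _ _ _ hKZ (h1 v) (h2 v) (h3 v)
  obtain ⟨cu, hcu⟩ := hexv K huV
  have hfixvec : ∀ (N : ℕ) (y : Fin (fr.n N) → ℚ) (σ : GQ),
      fr.act σ • fr.vec N (fun i => (y i : Qbar)) = fr.vec N (fun i => (y i : Qbar)) := by
    intro N y σ
    rw [hact]
    congr 1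
    funext i
    exact map_ratCast σ (y i)
  have hfix : ∀ σ : GQ, fr.act σ • fr.vec K cu = fr.vec K cu := by
    intro σ
    rw [hcu]
    have h := congrArg (fun z => fr.act σ • z) hsu
    simp only [smul_mul'] at h
    rw [hfixvec, hfixvec, hfixvec] at h
    exact mul_left_cancel₀ hsF0 (h.trans hsu.symm)
  obtain ⟨q, hq⟩ := hrat K cu hfix
  subst hq
  have hq0 : q ≠ 0 := by
    rintro rfl
    apply hu0
    rw [← hcu]
    have : (fun i : Fin (fr.n K) => (((0 : Fin (fr.n K) → ℚ) i : ℚ) : Qbar)) = 0 := by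
      funext i; simp
    rw [this]
    exact h89_vec_zero fr _
  -- heights
  obtain ⟨p, hp1⟩ := hmulrat M M x x'
  have hht1 := hC1 x x' p hx0 hx'0 hp1
  obtain ⟨p', hp'1, hp'2⟩ := h89_cast fr hK.symm p
  have hht2 := hC2 s q p' hs0 hq0 (by rw [hp'1, hp1, hcu]; exact hsu.symm)
  have hq_le : h55_ht q ≤ h55_ht x + h55_ht x' - h55_ht s + C1 + C2 := by
    have h4 := abs_le.mp hht1
    have h5 := abs_le.mp hht2
    rw [hp'2] at h5
    linarith [h4.1, h4.2, h5.1, h5.2]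
  refine ⟨q, by rw [hcu]; exact hu0, ?_, ?_⟩
  · have h6 := mul_le_mul_of_nonneg_left hq_le hpos.le
    unfold h55_Frame.qraw
    linarith [hxb, hx'b, h6]
  · -- the divisor part
    obtain ⟨Dt, hDt⟩ := h7_exists_div fr.chart (fr.vec M (fun i => (x i : Qbar))) ht0
    have hDt0 : Divisor.degree Dt = 0 := h7_degree_div fr.chart ht0 Dt hDt
    obtain ⟨D, hD, hDc⟩ := hp.repA
    have heM : ((M - e : ℕ) : ℤ) = (M : ℤ) - e := by omega
    have heq : (Dt + (M : ℤ) • Finsupp.single fr.inf (1 : ℤ) - h55_dv A) -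
        ((M - e : ℕ) : ℤ) • Finsupp.single fr.inf (1 : ℤ) = Dt - (D : Divisor Qbar F) := by
      rw [hD, heM, sub_smul]
      abel
    have hmem : (Dt + (M : ℤ) • Finsupp.single fr.inf (1 : ℤ) - h55_dv A) -
        ((M - e : ℕ) : ℤ) • Finsupp.single fr.inf (1 : ℤ) ∈
          Divisor.degZero (K := Qbar) (F := F) := by
      rw [heq, Divisor.mem_degZero, map_sub, hDt0, Divisor.mem_degZero.mp D.2, sub_zero]
    refine ⟨Dt + (M : ℤ) • Finsupp.single fr.inf (1 : ℤ) - h55_dv A, hmem, ?_, ?_, ?_⟩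
    · refine Finsupp.le_def.mpr fun v => ?_
      rw [Finsupp.sub_apply, Finsupp.add_apply, Finsupp.smul_apply, smul_eq_mul, hDt v,
        Finsupp.zero_apply]
      linarith [h1 v]
    · intro v
      rw [Finsupp.sub_apply, Finsupp.add_apply, Finsupp.smul_apply, smul_eq_mul, hDt v, hcu,
        hordu v]
      exact h89_int2 M K e _ _ _ _ _ _ hKZ (h2 v) (h3 v)
    · have hDt_mem : Dt ∈ Divisor.degZero (K := Qbar) (F := F) := hDt0
      have hsub : (⟨_, hmem⟩ : Divisor.degZero (K := Qbar) (F := F)) = ⟨Dt, hDt_mem⟩ - D :=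
        Subtype.ext heq
      have hz : Pic0.mk (⟨Dt, hDt_mem⟩ : Divisor.degZero (K := Qbar) (F := F)) = 0 := by
        refine (QuotientAddGroup.eq_zero_iff _).mpr ?_
        rw [AddSubgroup.mem_addSubgroupOf]
        exact ⟨_, ht0, hDt⟩
      have hms : Pic0.mk (⟨Dt, hDt_mem⟩ - D) = Pic0.mk ⟨Dt, hDt_mem⟩ - Pic0.mk D := rfl
      rw [hsub, hms, hz, zero_sub, neg_neg, hDc]

/-! ### the two statements of row SG, hypothesis form -/

/-- HYPOTHESIS FORM of `h55_lower`: `hn` = `h55_n_eq`, `hexv` = `h55_exists_vec`,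
`hact` = `h55_act_vec`, `hpt` = `h55_pt_smul`, `hmulrat` = `h55_exists_mul_rat`,
`hrat` = `h55_vec_rat_of_fixed` (row FB), `hW` = `h55_mem_W_iff`, `hminor` = `h55_exists_minor`
(row WC), `hhtmul` = `h55_ht_mul` (row PR). -/
theorem h55_lower_of
    (hn : ∀ (M : ℕ) (_ : 2 * fr.g ≤ M + 1), (fr.n M : ℤ) = M + 1 - fr.g)
    (hexv : ∀ (M : ℕ) {f : F} (_ : f ∈ fr.V M), ∃ c, fr.vec M c = f)
    (hact : ∀ (M : ℕ) (c : Fin (fr.n M) → Qbar) (σ : GQ),
      fr.act σ • fr.vec M c = fr.vec M (fun i => σ (c i)))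
    (hpt : ∀ (M : ℕ) {P : Place Qbar F} (_ : P ≠ fr.inf) (σ : GQ),
      fr.pt M (fr.act σ • P) = fun i => σ (fr.pt M P i))
    (hmulrat : ∀ (M M' : ℕ) (s : Fin (fr.n M) → ℚ) (u : Fin (fr.n M') → ℚ),
      ∃ t : Fin (fr.n (M + M')) → ℚ, fr.vec (M + M') (fun l => (t l : Qbar)) =
        fr.vec M (fun i => (s i : Qbar)) * fr.vec M' (fun j => (u j : Qbar)))
    (hrat : ∀ (M : ℕ) (c : Fin (fr.n M) → Qbar)
      (_ : ∀ σ : GQ, fr.act σ • fr.vec M c = fr.vec M c),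
      ∃ q : Fin (fr.n M) → ℚ, c = fun i => (q i : Qbar))
    (hW : ∀ (M : ℕ) {a : ℕ} (P : Fin a → Place Qbar F) (_ : fr.IsAdm P)
      (c : Fin (fr.n M) → Qbar),
      fr.vec M c ∈ riemannRochSpace ((M : ℤ) • Finsupp.single fr.inf (1 : ℤ) - h55_dv P) ↔
        (fr.E M P).mulVec c = 0)
    (hminor : ∀ (M : ℕ) {a : ℕ} (P : Fin a → Place Qbar F) (_ : fr.IsAdm P)
      (_ : a + 2 * fr.g ≤ M + 1),
      ∃ f : Fin a → Fin (fr.n M), ((fr.E M P).submatrix id f).det ≠ 0)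
    (hhtmul : ∀ (M M' : ℕ),
      ∃ C : ℝ, ∀ (s : Fin (fr.n M) → ℚ) (u : Fin (fr.n M') → ℚ) (t : Fin (fr.n (M + M')) → ℚ),
        s ≠ 0 → u ≠ 0 →
        fr.vec (M + M') (fun l => (t l : Qbar)) =
          fr.vec M (fun i => (s i : Qbar)) * fr.vec M' (fun j => (u j : Qbar)) →
        |h55_ht t - h55_ht s - h55_ht u| ≤ C)
    (e M : ℕ) (_he : 2 * fr.g + 1 ≤ e) (hM : e + 2 * fr.g + 1 ≤ M) :
    ∃ C : ℝ, ∀ (c : Pic0 Qbar F) (A B : Fin e → Place Qbar F) (s : Fin (fr.n (e + e)) → ℚ),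
      fr.IsPair e c A B s → -C ≤ fr.qraw M A B s := by
  obtain ⟨K, hK⟩ : ∃ K, (e + e) + K = M + M := ⟨M + M - (e + e), by omega⟩
  obtain ⟨C, hC⟩ := h89_core fr hn hexv hact hpt hmulrat hrat hW hminor hhtmul e M K hM hK
  have hnM := hn M (by omega)
  have hlt : e < fr.n M := by omega
  have hpos : (0 : ℝ) < (fr.n M : ℝ) - e := by
    have : (e : ℝ) < fr.n M := by exact_mod_cast hlt
    linarith
  refine ⟨C, fun c A B s hp => ?_⟩
  obtain ⟨q, -, hq, -⟩ := hC c A B s hp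
  have h0 := mul_nonneg hpos.le (h55_hgt_nonneg_of_rat q)
  linarith

/-- HYPOTHESIS FORM of `h55_northcott_pair` (same hypotheses as `h55_lower_of`). -/
theorem h55_northcott_pair_of
    (hn : ∀ (M : ℕ) (_ : 2 * fr.g ≤ M + 1), (fr.n M : ℤ) = M + 1 - fr.g)
    (hexv : ∀ (M : ℕ) {f : F} (_ : f ∈ fr.V M), ∃ c, fr.vec M c = f)
    (hact : ∀ (M : ℕ) (c : Fin (fr.n M) → Qbar) (σ : GQ),
      fr.act σ • fr.vec M c = fr.vec M (fun i => σ (c i)))
    (hpt : ∀ (M : ℕ) {P : Place Qbar F} (_ : P ≠ fr.inf) (σ : GQ),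
      fr.pt M (fr.act σ • P) = fun i => σ (fr.pt M P i))
    (hmulrat : ∀ (M M' : ℕ) (s : Fin (fr.n M) → ℚ) (u : Fin (fr.n M') → ℚ),
      ∃ t : Fin (fr.n (M + M')) → ℚ, fr.vec (M + M') (fun l => (t l : Qbar)) =
        fr.vec M (fun i => (s i : Qbar)) * fr.vec M' (fun j => (u j : Qbar)))
    (hrat : ∀ (M : ℕ) (c : Fin (fr.n M) → Qbar)
      (_ : ∀ σ : GQ, fr.act σ • fr.vec M c = fr.vec M c),
      ∃ q : Fin (fr.n M) → ℚ, c = fun i => (q i : Qbar))
    (hW : ∀ (M : ℕ) {a : ℕ} (P : Fin a → Place Qbar F) (_ : fr.IsAdm P)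
      (c : Fin (fr.n M) → Qbar),
      fr.vec M c ∈ riemannRochSpace ((M : ℤ) • Finsupp.single fr.inf (1 : ℤ) - h55_dv P) ↔
        (fr.E M P).mulVec c = 0)
    (hminor : ∀ (M : ℕ) {a : ℕ} (P : Fin a → Place Qbar F) (_ : fr.IsAdm P)
      (_ : a + 2 * fr.g ≤ M + 1),
      ∃ f : Fin a → Fin (fr.n M), ((fr.E M P).submatrix id f).det ≠ 0)
    (hhtmul : ∀ (M M' : ℕ),
      ∃ C : ℝ, ∀ (s : Fin (fr.n M) → ℚ) (u : Fin (fr.n M') → ℚ) (t : Fin (fr.n (M + M')) → ℚ),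
        s ≠ 0 → u ≠ 0 →
        fr.vec (M + M') (fun l => (t l : Qbar)) =
          fr.vec M (fun i => (s i : Qbar)) * fr.vec M' (fun j => (u j : Qbar)) →
        |h55_ht t - h55_ht s - h55_ht u| ≤ C)
    (e M : ℕ) (_he : 2 * fr.g + 1 ≤ e) (hM : e + 2 * fr.g + 1 ≤ M) (X : ℝ) :
    {c : Pic0 Qbar F | ∃ (A B : Fin e → Place Qbar F) (s : Fin (fr.n (e + e)) → ℚ),
      fr.IsPair e c A B s ∧ fr.qraw M A B s ≤ X}.Finite := by
  classical
  obtain ⟨K, hK⟩ : ∃ K, (e + e) + K = M + M := ⟨M + M - (e + e), by omega⟩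
  obtain ⟨C, hC⟩ := h89_core fr hn hexv hact hpt hmulrat hrat hW hminor hhtmul e M K hM hK
  have hnM := hn M (by omega)
  have hlt : e < fr.n M := by omega
  have hpos : (0 : ℝ) < (fr.n M : ℝ) - e := by
    have : (e : ℝ) < fr.n M := by exact_mod_cast hlt
    linarith
  obtain ⟨S, hS⟩ := h55_northcott (ι := Fin (fr.n K)) ((X + C) / ((fr.n M : ℝ) - e))
  -- the bounding divisor attached to a rational vector, and the class of a sub-divisor
  let Dy : (Fin (fr.n K) → ℚ) → Divisor Qbar F := fun y =>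
    if h : ∃ D : Divisor Qbar F,
        ∀ v : Place Qbar F, D v = v.ord (fr.vec K (fun i => (y i : Qbar))) then
      h.choose + (K : ℤ) • Finsupp.single fr.inf (1 : ℤ) else 0
  let φ : Divisor Qbar F → Pic0 Qbar F := fun D' =>
    if h : D' - ((M - e : ℕ) : ℤ) • Finsupp.single fr.inf (1 : ℤ) ∈
        Divisor.degZero (K := Qbar) (F := F) then -Pic0.mk ⟨_, h⟩ else 0
  refine Set.Finite.subset (Set.Finite.biUnion S.finite_toSet fun y _ =>
    (Set.finite_Icc (0 : Divisor Qbar F) (Dy y)).image φ) ?_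
  rintro c ⟨A, B, s, hp, hX⟩
  obtain ⟨q, hq0, hq, A'', hmem, hA0, hAle, hc⟩ := hC c A B s hp
  have hqne : q ≠ 0 := by
    rintro rfl
    apply hq0
    have : (fun i : Fin (fr.n K) => (((0 : Fin (fr.n K) → ℚ) i : ℚ) : Qbar)) = 0 := by
      funext i; simp
    rw [this]
    exact h89_vec_zero fr _
  have hht : h55_ht q ≤ (X + C) / ((fr.n M : ℝ) - e) := by
    rw [le_div_iff₀ hpos]
    linarith
  obtain ⟨y, hyS, c0, hc0, hqy⟩ := hS q hqne hht
  have hvq : fr.vec K (fun i => (q i : Qbar)) =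
      (c0 : Qbar) • fr.vec K (fun i => (y i : Qbar)) := by
    rw [← h89_vec_smul]
    congr 1
    funext i
    rw [hqy]
    simp
  have hvy0 : fr.vec K (fun i => (y i : Qbar)) ≠ 0 := by
    intro h
    rw [hvq, h, smul_zero] at hq0
    exact hq0 rfl
  have hc0' : algebraMap Qbar F (c0 : Qbar) ≠ 0 := by
    rw [Ne, map_eq_zero]
    exact_mod_cast hc0
  have hord : ∀ v : Place Qbar F, v.ord (fr.vec K (fun i => (q i : Qbar))) =
      v.ord (fr.vec K (fun i => (y i : Qbar))) := by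
    intro v
    rw [hvq, Algebra.smul_def, v.ord_mul hc0' hvy0, Fermat.Agent.S24.h35_ord_algebraMap, zero_add]
  have hex : ∃ D : Divisor Qbar F,
      ∀ v : Place Qbar F, D v = v.ord (fr.vec K (fun i => (y i : Qbar))) :=
    h7_exists_div fr.chart _ hvy0
  have hDy : Dy y = hex.choose + (K : ℤ) • Finsupp.single fr.inf (1 : ℤ) := dif_pos hex
  rw [Set.mem_iUnion₂]
  refine ⟨y, hyS, A'', ⟨hA0, ?_⟩, ?_⟩
  · rw [hDy]
    refine Finsupp.le_def.mpr fun v => ?_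
    rw [Finsupp.add_apply, Finsupp.smul_apply, smul_eq_mul, hex.choose_spec v, ← hord v]
    exact hAle v
  · show φ A'' = c
    simp only [φ]
    rw [dif_pos hmem]
    exact hc.symm

end Fermat.Agent.S17
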