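import Fermat.Agent.S27.CountCharp

/-!
# S17 / DIV-(B) (helper94): `Pic⁰` is divisible over an algebraic closure of `𝔽_p`

`k` algebraically closed of characteristic `p`, every element of which lies in a finite field,
`Fb / k` a function field with a chart.  Then `Pic⁰(Fb)` is a torsion group
(`h94_pic0_torsion`) and it is `m`-divisible for every `m` prime to `p`
(`h94_pic0_divisible_charp`).  Inputs: the Frobenius structure, the finiteness of the invariant
classes and the count `#Pic⁰[ℓ^j] = ℓ^(2gj)` of S27.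

Abstract part (Mathlib only): `h94_div_of_count`, `h94_div_of_torsion`, `h94_divisible_of_primes`.
-/

set_option autoImplicit false

open AlgebraicCurve Fermat.Agent.S18 Fermat.Agent.S27

namespace Fermat.Agent.S17

section Abstract

variable {A : Type*} [AddCommGroup A]

/-- If `#A[ℓ^j] = ℓ^(c j)` for all `j`, then `ℓ : A[ℓ^(j+1)] → A[ℓ^j]` is onto. -/
theorem h94_div_of_count (ℓ : ℕ) (hℓ : 0 < ℓ) (c : ℕ)
    (hcard : ∀ j : ℕ, Nat.card {a : A // ℓ ^ j • a = 0} = ℓ ^ (c * j))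
    (j : ℕ) (a : A) (ha : ℓ ^ j • a = 0) : ∃ b : A, ℓ • b = a ∧ ℓ ^ (j + 1) • b = 0 := by
  classical
  -- the torsion subgroups
  let T : ℕ → AddSubgroup A := fun i => (nsmulAddMonoidHom (α := A) (ℓ ^ i)).ker
  have hT : ∀ i (b : A), b ∈ T i ↔ ℓ ^ i • b = 0 := fun i b => by
    show (nsmulAddMonoidHom (α := A) (ℓ ^ i)) b = 0 ↔ _
    rw [nsmulAddMonoidHom_apply]
  have hTcard : ∀ i, Nat.card (T i) = ℓ ^ (c * i) := by
    intro i
    rw [← hcard i]
    exact Nat.card_congr (Equiv.subtypeEquivRight (hT i))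
  have hTfin : ∀ i, Finite (T i) := fun i =>
    Nat.finite_of_card_ne_zero (by rw [hTcard i]; exact (pow_pos hℓ _).ne')
  -- multiplication by `ℓ` on `T (j + 1)`
  let g : T (j + 1) →+ A := (nsmulAddMonoidHom (α := A) ℓ).comp (T (j + 1)).subtype
  have hg : ∀ b : T (j + 1), g b = ℓ • (b : A) := fun b => rfl
  have hrange : g.range ≤ T j := by
    rintro _ ⟨b, rfl⟩
    rw [hT, hg, ← mul_nsmul, ← pow_succ']
    exact (hT (j + 1) b).mp b.2
  -- the kernel is `T 1`
  have hker : Nat.card g.ker = Nat.card (T 1) := by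
    refine Nat.card_congr
      { toFun := fun b => ⟨(b.1 : A), by
          rw [hT, pow_one]
          exact b.2⟩
        invFun := fun b => ⟨⟨(b : A), by
          rw [hT, pow_succ', mul_nsmul]
          have h1 := (hT 1 b).mp b.2
          rw [pow_one] at h1
          rw [h1, nsmul_zero]⟩, by
          have h1 := (hT 1 b).mp b.2
          rw [pow_one] at h1
          exact h1⟩
        left_inv := fun b => rfl
        right_inv := fun b => rfl }
  have hcount : Nat.card g.ker * Nat.card g.range = Nat.card (T (j + 1)) := by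
    rw [← AddSubgroup.index_ker]
    exact AddSubgroup.card_mul_index g.ker
  rw [hker, hTcard, hTcard, mul_one] at hcount
  have hcr : Nat.card g.range = ℓ ^ (c * j) := by
    have h2 : ℓ ^ (c * (j + 1)) = ℓ ^ c * ℓ ^ (c * j) := by
      rw [← pow_add]
      congr 1
      ring
    rw [h2] at hcount
    exact Nat.eq_of_mul_eq_mul_left (pow_pos hℓ c) hcount
  have := hTfin j
  have heq : g.range = T j :=
    AddSubgroup.eq_of_le_of_card_ge hrange (by rw [hcr, hTcard])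
  have hmem : a ∈ g.range := by
    rw [heq, hT]
    exact ha
  obtain ⟨b, hb⟩ := hmem
  exact ⟨(b : A), hb, (hT (j + 1) b).mp b.2⟩

/-- A torsion element is `ℓ`-divisible as soon as the `ℓ`-power torsion is. -/
theorem h94_div_of_torsion (ℓ : ℕ) (hℓ : ℓ.Prime)
    (hdiv : ∀ (j : ℕ) (a : A), ℓ ^ j • a = 0 → ∃ b : A, ℓ • b = a)
    (a : A) (n : ℕ) (hn : 0 < n) (ha : n • a = 0) : ∃ b : A, ℓ • b = a := by
  obtain ⟨j, n', hn', rfl⟩ := Nat.exists_eq_pow_mul_and_not_dvd hn.ne' ℓ hℓ.ne_one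
  have h1 : ℓ ^ j • (n' • a) = 0 := by
    rw [← mul_nsmul']
    exact ha
  obtain ⟨b, hb⟩ := hdiv j (n' • a) h1
  have hcop : IsCoprime (ℓ : ℤ) (n' : ℤ) :=
    Nat.isCoprime_iff_coprime.mpr ((Nat.Prime.coprime_iff_not_dvd hℓ).mpr hn')
  obtain ⟨u, v, huv⟩ := hcop
  refine ⟨u • a + v • b, ?_⟩
  have h2 : a = (u * ℓ + v * n') • a := by rw [huv, one_smul]
  conv_rhs => rw [h2]
  rw [add_smul, mul_smul, mul_smul, natCast_zsmul, natCast_zsmul, ← hb, nsmul_add]
  congr 1
  · rw [← natCast_zsmul (u • a) ℓ, ← natCast_zsmul a ℓ, smul_comm]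
  · rw [← natCast_zsmul (v • b) ℓ, ← natCast_zsmul b ℓ, smul_comm]

/-- A group which is `ℓ`-divisible for every prime `ℓ ∣ m` is `m`-divisible (`m ≠ 0`). -/
theorem h94_divisible_of_primes (m : ℕ) (hm : m ≠ 0)
    (hdiv : ∀ ℓ : ℕ, ℓ.Prime → ℓ ∣ m → ∀ a : A, ∃ b : A, ℓ • b = a) (a : A) :
    ∃ b : A, m • b = a := by
  induction m using Nat.recOnMul generalizing a with
  | zero => exact absurd rfl hm
  | one => exact ⟨a, one_nsmul a⟩
  | prime ℓ hℓ => exact hdiv ℓ hℓ dvd_rfl a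
  | mul m n ihm ihn =>
    have hm0 : m ≠ 0 := fun h => hm (by rw [h, zero_mul])
    have hn0 : n ≠ 0 := fun h => hm (by rw [h, mul_zero])
    obtain ⟨b, hb⟩ := ihm hm0 (fun ℓ hℓ hd => hdiv ℓ hℓ (hd.mul_right n)) a
    obtain ⟨d, hd⟩ := ihn hn0 (fun ℓ hℓ hd => hdiv ℓ hℓ (hd.mul_left m)) b
    exact ⟨d, by rw [mul_nsmul', hd, hb]⟩

end Abstract

section Pic

variable (p : ℕ) [Fact p.Prime] {k Fb : Type*} [Field k] [IsAlgClosed k] [CharP k p]
  [Field Fb] [Algebra k Fb]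

/-- Over an algebraic closure of `𝔽_p`, `Pic⁰` is a torsion group. -/
theorem h94_pic0_torsion (halg : ∀ a : k, ∃ n : ℕ, 0 < n ∧ a ^ (p ^ n) = a) {x : Fb}
    (hx : h75_IsChart k x) (c : Pic0 k Fb) : ∃ n : ℕ, 0 < n ∧ n • c = 0 := by
  obtain ⟨e, he, σ, P₀, hσ, hper, -, hP₀⟩ := h73_exists_frob p halg hx
  obtain ⟨r, hr, hc⟩ := h73_pic_periodic hx σ hper c
  have hσr : h57_IsFrob (p ^ (e * r)) (σ ^ r) := by
    rw [pow_mul]
    exact hσ.pow r
  have hfin : Finite {c : Pic0 k Fb // σ ^ r • c = c} :=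
    h73_finite_inv_class (p := p) (e := e * r) hx (Nat.mul_pos he hr) (σ ^ r) hσr
      (hper.pow r) P₀ (h73_pow_smul_fixed σ P₀ hP₀ r)
  -- the multiples of `c` are invariant
  have hinv : ∀ n : ℕ, σ ^ r • (n • c) = n • c := fun n => by
    have h := map_nsmul (DistribMulAction.toAddMonoidHom (Pic0 k Fb) (σ ^ r)) n c
    rw [DistribMulAction.toAddMonoidHom_apply, DistribMulAction.toAddMonoidHom_apply, hc] at h
    exact h
  let f : ℕ → {c : Pic0 k Fb // σ ^ r • c = c} := fun n => ⟨n • c, hinv n⟩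
  obtain ⟨a, b, hab, hfab⟩ := Finite.exists_ne_map_eq_of_infinite f
  have h1 : a • c = b • c := congrArg Subtype.val hfab
  rcases Nat.lt_or_gt_of_ne hab with hlt | hlt
  · refine ⟨b - a, Nat.sub_pos_of_lt hlt, ?_⟩
    have h2 : b • c = (b - a) • c + a • c := by
      rw [← add_nsmul, Nat.sub_add_cancel hlt.le]
    rw [← h1] at h2
    exact (add_eq_right.mp h2.symm)
  · refine ⟨a - b, Nat.sub_pos_of_lt hlt, ?_⟩
    have h2 : a • c = (a - b) • c + b • c := by
      rw [← add_nsmul, Nat.sub_add_cancel hlt.le]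
    rw [h1] at h2
    exact (add_eq_right.mp h2.symm)

/-- Over an algebraic closure of `𝔽_p`, `Pic⁰` is `m`-divisible for `m` prime to `p`. -/
theorem h94_pic0_divisible_charp (halg : ∀ a : k, ∃ n : ℕ, 0 < n ∧ a ^ (p ^ n) = a) {x : Fb}
    (hx : h75_IsChart k x) (m : ℕ) (hm : ¬ p ∣ m) (c : Pic0 k Fb) :
    ∃ d : Pic0 k Fb, m • d = c := by
  have hm0 : m ≠ 0 := fun h => hm (by rw [h]; exact dvd_zero p)
  refine h94_divisible_of_primes m hm0 (fun ℓ hℓ hℓm a => ?_) c
  have hℓp : ℓ ≠ p := fun h => hm (h ▸ hℓm)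
  haveI : Fact ℓ.Prime := ⟨hℓ⟩
  have hcount := h15_count_charp_any p k Fb halg ℓ hℓp x hx
  obtain ⟨n, hn, hna⟩ := h94_pic0_torsion p halg hx a
  refine h94_div_of_torsion ℓ hℓ (fun j a' ha' => ?_) a n hn hna
  obtain ⟨b, hb, -⟩ := h94_div_of_count (A := Pic0 k Fb) ℓ hℓ.pos (2 * h75_genus k x)
    (fun i => by
      rw [← hcount i]
      refine Nat.card_congr (Equiv.subtypeEquivRight fun y => ?_)
      rw [Pic0.mem_torsion, natCast_zsmul]) j a' ha'
  exact ⟨b, hb⟩

end Pic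

end Fermat.Agent.S17
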