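import Fermat.Agent.S17.h94_ExistsRep
import Fermat.Agent.S17.R55_FB
import Fermat.Agent.S17.R55_FB2

/-!
# S17 route R55, row MV (2): the rational section cutting out a complementary pair

`h94_exists_cut` (= row statement `h55_exists_cut`, re-exported in `R55_MV2.lean`): if `A`
represents `c` and `B` represents `-c` (both Galois-stable), there is a rational coordinate vector
`s` in `V_(e+e)` with `div(s) = A + B - (e+e)·inf`.
-/

set_option autoImplicit false

open AlgebraicCurve

namespace Fermat.Agent.S17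

open Fermat.Agent.S18 Fermat.Agent.S24 Fermat.Agent.S27

local notation "Qbar" => AlgebraicClosure ℚ
local notation "GQ" => (AlgebraicClosure ℚ ≃ₐ[ℚ] AlgebraicClosure ℚ)

variable {F : Type} [Field F] [Algebra Qbar F] (fr : h55_Frame F)

/-- the divisor of a Galois-stable tuple is Galois-fixed -/
theorem h94_act_dv {a : ℕ} {P : Fin a → Place Qbar F} (hP : fr.IsStable P) (σ : GQ) :
    fr.act σ • h55_dv P = h55_dv P := by
  obtain ⟨π, hπ⟩ := hP σ
  unfold h55_dv
  rw [Finset.smul_sum]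
  simp only [SemilinearAut.smul_single, hπ]
  exact Equiv.sum_comp π (fun j => Finsupp.single (P j) (1 : ℤ))

theorem h94_dv_nonneg {a : ℕ} (P : Fin a → Place Qbar F) : 0 ≤ h55_dv P := by
  unfold h55_dv
  exact Finset.sum_nonneg fun j _ => Finsupp.single_nonneg.mpr zero_le_one

/-- **The cut** (row MV (2)); the admissibility hypothesis of the row statement is not needed. -/
theorem h94_exists_cut (e : ℕ) (c : Pic0 Qbar F) (A B : Fin e → Place Qbar F)
    (hA : fr.Rep A c) (hB : fr.Rep B (-c)) (stA : fr.IsStable A) (stB : fr.IsStable B) :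
    ∃ s : Fin (fr.n (e + e)) → ℚ, fr.Cuts s (Fin.append A B) := by
  obtain ⟨DA, hDA, hmkA⟩ := hA
  obtain ⟨DB, hDB, hmkB⟩ := hB
  have hzero : Pic0.mk (DA + DB) = 0 := by rw [Pic0.mk_add, hmkA, hmkB, add_neg_cancel]
  have hprin : ((DA + DB : Divisor.degZero (K := Qbar) (F := F)) : Divisor Qbar F) ∈
      Divisor.principal (K := Qbar) (F := F) := by
    have := (QuotientAddGroup.eq_zero_iff _).mp hzero
    rwa [AddSubgroup.mem_addSubgroupOf] at this
  obtain ⟨s0, hs0, hs0ord⟩ := hprin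
  set Δ : Divisor Qbar F :=
    h55_dv (Fin.append A B) - ((e + e : ℕ) : ℤ) • Finsupp.single fr.inf (1 : ℤ) with hΔ
  have hΔeq : ((DA + DB : Divisor.degZero (K := Qbar) (F := F)) : Divisor Qbar F) = Δ := by
    rw [hΔ, h55_dv_append, AddSubgroup.coe_add, hDA, hDB]
    push_cast
    module
  have hs0Δ : ∀ v : Place Qbar F, v.ord s0 = Δ v := fun v => by
    rw [← hΔeq]
    exact (hs0ord v).symm
  have hWeq : ((e + e : ℕ) : ℤ) • Finsupp.single fr.inf (1 : ℤ) - h55_dv (Fin.append A B) = -Δ := by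
    rw [hΔ]
    abel
  have hWV : riemannRochSpace (((e + e : ℕ) : ℤ) • Finsupp.single fr.inf (1 : ℤ)
      - h55_dv (Fin.append A B)) ≤ fr.V (e + e) :=
    h68_rr_mono (sub_le_self _ (h94_dv_nonneg _))
  have hstab : ∀ σ : GQ, fr.act σ • (((e + e : ℕ) : ℤ) • Finsupp.single fr.inf (1 : ℤ)
      - h55_dv (Fin.append A B)) = ((e + e : ℕ) : ℤ) • Finsupp.single fr.inf (1 : ℤ)
      - h55_dv (Fin.append A B) := by
    intro σ
    rw [smul_sub, h94_act_inf_smul, h94_act_dv fr (h55_isStable_append fr stA stB) σ]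
  have hs0W : s0 ∈ riemannRochSpace (((e + e : ℕ) : ℤ) • Finsupp.single fr.inf (1 : ℤ)
      - h55_dv (Fin.append A B)) := by
    rw [mem_riemannRochSpace_iff]
    intro v
    right
    rw [hWeq, Finsupp.neg_apply, neg_neg, hs0Δ v]
  have hne : riemannRochSpace (((e + e : ℕ) : ℤ) • Finsupp.single fr.inf (1 : ℤ)
      - h55_dv (Fin.append A B)) ≠ ⊥ := fun hbot =>
    hs0 (by rw [hbot] at hs0W; exact (Submodule.mem_bot _).mp hs0W)
  obtain ⟨h, hhW, hh0, hfix⟩ := h94_frame_exists_fixed fr (e + e) _ hWV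
    (fun σ w hw => h94_act_mem_rr fr _ hstab σ hw) hne
  have hg : h * s0⁻¹ ∈ riemannRochSpace (0 : Divisor Qbar F) := by
    rw [mem_riemannRochSpace_iff]
    intro v
    right
    rw [v.ord_mul hh0 (inv_ne_zero hs0), v.ord_inv, hs0Δ v]
    have h1 := (mem_riemannRochSpace_iff.mp hhW v).resolve_left hh0
    rw [hWeq, Finsupp.neg_apply, neg_neg] at h1
    simp only [Finsupp.zero_apply, neg_zero]
    linarith
  rw [h7_rr_zero_eq fr.chart, Submodule.mem_span_singleton] at hg
  obtain ⟨a, ha⟩ := hg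
  have ha' : h = algebraMap Qbar F a * s0 := by
    have h2 : h = (h * s0⁻¹) * s0 := by rw [mul_assoc, inv_mul_cancel₀ hs0, mul_one]
    rw [h2, ← ha, Algebra.smul_def, mul_one]
  have ha0 : algebraMap Qbar F a ≠ 0 := fun h0 => hh0 (by rw [ha', h0, zero_mul])
  have hord : ∀ v : Place Qbar F, v.ord h = Δ v := by
    intro v
    rw [ha', v.ord_mul ha0 hs0, h24_ord_algebraMap, zero_add, hs0Δ v]
  obtain ⟨q, hq⟩ := h56_exists_rat_of_fixed fr (e + e) (hWV hhW) hfix
  refine ⟨q, ?_, ?_⟩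
  · rw [hq]
    exact hh0
  · intro P
    rw [hq]
    exact hord P

end Fermat.Agent.S17
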