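import Fermat.Agent.S17.h55_Frame

/-!
# S17 route R55, row PI: the pairing identity (hypothesis form) and bi-additivity of the pairing

* `h55_pair_append_left`, `h55_pair_comm` : unconditional;
* `h55_G_append_of` : `G_M(A ⊔ B) = G_M(A) + G_M(B) - ⟨A, B⟩ + O(1)` from the conclusion of the
  Vandermonde row `h55_vdm` (taken as the hypothesis `hvdm`).

The finite supports needed here (`Gloc`, `log dist`, `pairLoc`) are proved directly from
`h55_finite_support_log_nrm`.
-/

set_option autoImplicit false

open AlgebraicCurve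

namespace Fermat.Agent.S17

open Fermat.Agent.S18 Fermat.Agent.S27

local notation "Qbar" => AlgebraicClosure ℚ
local notation "GQ" => (AlgebraicClosure ℚ ≃ₐ[ℚ] AlgebraicClosure ℚ)

variable {F : Type} [Field F] [Algebra Qbar F] (fr : h55_Frame F)

/-! ### finite supports -/

theorem h94_finite_support_log_mn {r n : ℕ} (E : Matrix (Fin r) (Fin n) Qbar) :
    (Function.support fun w : h55_Pl => Real.log (h55_mn w E)).Finite :=
  h55_finite_support_log_nrm (fun f : Fin r → Fin n => (E.submatrix id f).det)

theorem h94_finite_support_Gloc (M : ℕ) {a : ℕ} (P : Fin a → Place Qbar F) :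
    (Function.support fun w => fr.Gloc M w P).Finite :=
  h94_finite_support_log_mn (fr.E M P)

theorem h94_finite_support_log_dist (M0 : ℕ) (P Q : Place Qbar F) :
    (Function.support fun w => Real.log (fr.dist M0 w P Q)).Finite := by
  refine ((h94_finite_support_log_mn (fr.E M0 ![P, Q])).union
    ((h55_finite_support_log_nrm (fr.pt M0 P)).union
      (h55_finite_support_log_nrm (fr.pt M0 Q)))).subset ?_
  intro w hw
  by_contra hcon
  simp only [Set.mem_union, Function.mem_support, not_or, not_not] at hcon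
  obtain ⟨h1, h2, h3⟩ := hcon
  apply hw
  show Real.log (fr.dist M0 w P Q) = 0
  unfold h55_Frame.dist
  by_cases hx : h55_mn w (fr.E M0 ![P, Q]) = 0
  · rw [hx, zero_div, Real.log_zero]
  by_cases hy : h55_nrm w (fr.pt M0 P) = 0
  · rw [hy, zero_mul, div_zero, Real.log_zero]
  by_cases hz : h55_nrm w (fr.pt M0 Q) = 0
  · rw [hz, mul_zero, div_zero, Real.log_zero]
  rw [Real.log_div hx (mul_ne_zero hy hz), Real.log_mul hy hz, h1, h2, h3]
  ring

theorem h94_finite_support_pairLoc (M0 : ℕ) {a b : ℕ} (A : Fin a → Place Qbar F)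
    (B : Fin b → Place Qbar F) : (Function.support fun w => fr.pairLoc M0 w A B).Finite := by
  have hfin : (⋃ i : Fin a, ⋃ j : Fin b,
      Function.support fun w => Real.log (fr.dist M0 w (A i) (B j))).Finite :=
    Set.finite_iUnion fun i => Set.finite_iUnion fun j =>
      h94_finite_support_log_dist fr M0 (A i) (B j)
  refine hfin.subset ?_
  intro w hw
  by_contra hcon
  simp only [Set.mem_iUnion, Function.mem_support, not_exists, not_not] at hcon
  apply hw
  show fr.pairLoc M0 w A B = 0
  unfold h55_Frame.pairLoc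
  simp [hcon]

/-! ### bi-additivity and symmetry of the pairing -/

theorem h94_pairLoc_append_left (M0 : ℕ) (w : h55_Pl) {a a' b : ℕ}
    (A : Fin a → Place Qbar F) (A' : Fin a' → Place Qbar F) (B : Fin b → Place Qbar F) :
    fr.pairLoc M0 w (Fin.append A A') B = fr.pairLoc M0 w A B + fr.pairLoc M0 w A' B := by
  unfold h55_Frame.pairLoc
  rw [Fin.sum_univ_add]
  simp only [Fin.append_left, Fin.append_right]
  ring

theorem h55_pair_append_left (M0 : ℕ) {a a' b : ℕ}
    (A : Fin a → Place Qbar F) (A' : Fin a' → Place Qbar F) (B : Fin b → Place Qbar F) :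
    fr.pair M0 (Fin.append A A') B = fr.pair M0 A B + fr.pair M0 A' B := by
  unfold h55_Frame.pair
  rw [← finsum_add_distrib (h94_finite_support_pairLoc fr M0 A B)
    (h94_finite_support_pairLoc fr M0 A' B)]
  exact finsum_congr fun w => h94_pairLoc_append_left fr M0 w A A' B

theorem h94_mn_swap (M0 : ℕ) (w : h55_Pl) (P Q : Place Qbar F) :
    h55_mn w (fr.E M0 ![P, Q]) = h55_mn w (fr.E M0 ![Q, P]) := by
  unfold h55_mn
  congr 1
  funext f
  have h : ((fr.E M0 ![P, Q]).submatrix id f).det = -((fr.E M0 ![Q, P]).submatrix id f).det := by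
    rw [Matrix.det_fin_two, Matrix.det_fin_two]
    simp only [Matrix.submatrix_apply, id, h55_Frame.E, Matrix.of_apply, Matrix.cons_val_zero,
      Matrix.cons_val_one]
    ring
  rw [h, AbsoluteValue.map_neg]

theorem h94_dist_comm (M0 : ℕ) (w : h55_Pl) (P Q : Place Qbar F) :
    fr.dist M0 w P Q = fr.dist M0 w Q P := by
  unfold h55_Frame.dist
  rw [h94_mn_swap fr M0 w P Q, mul_comm]

theorem h94_pairLoc_comm (M0 : ℕ) (w : h55_Pl) {a b : ℕ} (A : Fin a → Place Qbar F)
    (B : Fin b → Place Qbar F) : fr.pairLoc M0 w A B = fr.pairLoc M0 w B A := by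
  unfold h55_Frame.pairLoc
  rw [Finset.sum_comm]
  simp only [h94_dist_comm fr M0 w]

theorem h55_pair_comm (M0 : ℕ) {a b : ℕ} (A : Fin a → Place Qbar F) (B : Fin b → Place Qbar F) :
    fr.pair M0 A B = fr.pair M0 B A := by
  unfold h55_Frame.pair
  exact finsum_congr fun w => h94_pairLoc_comm fr M0 w A B

theorem h94_pair_append_right (M0 : ℕ) {a b b' : ℕ}
    (A : Fin a → Place Qbar F) (B : Fin b → Place Qbar F) (B' : Fin b' → Place Qbar F) :
    fr.pair M0 A (Fin.append B B') = fr.pair M0 A B + fr.pair M0 A B' := by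
  rw [h55_pair_comm, h55_pair_append_left, h55_pair_comm fr M0 B A, h55_pair_comm fr M0 B' A]

/-! ### the pairing identity -/

/-- splitting a sum over pairs `i < j` of `Fin (a + b)` -/
theorem h94_sum_lt_append {a b : ℕ} (f : Fin (a + b) → Fin (a + b) → ℝ) :
    ∑ i, ∑ j, (if i < j then f i j else 0) =
      (∑ i : Fin a, ∑ j : Fin a, (if i < j then f (Fin.castAdd b i) (Fin.castAdd b j) else 0))
      + (∑ i : Fin b, ∑ j : Fin b, (if i < j then f (Fin.natAdd a i) (Fin.natAdd a j) else 0))
      + ∑ i : Fin a, ∑ j : Fin b, f (Fin.castAdd b i) (Fin.natAdd a j) := by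
  have h1 : ∀ (i j : Fin a), (Fin.castAdd b i < Fin.castAdd b j) ↔ i < j := by
    intro i j; simp only [Fin.lt_def, Fin.val_castAdd]
  have h2 : ∀ (i : Fin a) (j : Fin b), Fin.castAdd b i < Fin.natAdd a j := by
    intro i j; simp only [Fin.lt_def, Fin.val_castAdd, Fin.val_natAdd]; omega
  have h3 : ∀ (i : Fin b) (j : Fin a), ¬ (Fin.natAdd a i < Fin.castAdd b j) := by
    intro i j; simp only [Fin.lt_def, Fin.val_castAdd, Fin.val_natAdd]; omega
  have h4 : ∀ (i j : Fin b), (Fin.natAdd a i < Fin.natAdd a j) ↔ i < j := by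
    intro i j; simp only [Fin.lt_def, Fin.val_natAdd]; omega
  rw [Fin.sum_univ_add]
  simp only [Fin.sum_univ_add, h1, h2, h3, h4, if_true, if_false, Finset.sum_add_distrib,
    Finset.sum_const_zero, zero_add]
  ring

theorem h94_isAdm_left {a b : ℕ} {A : Fin a → Place Qbar F} {B : Fin b → Place Qbar F}
    (h : fr.IsAdm (Fin.append A B)) : fr.IsAdm A := by
  refine ⟨fun i j hij => ?_, fun j => ?_⟩
  · have := h.1 (a₁ := Fin.castAdd b i) (a₂ := Fin.castAdd b j) (by
      rw [Fin.append_left, Fin.append_left]; exact hij)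
    exact Fin.castAdd_injective a b this
  · have := h.2 (Fin.castAdd b j)
    rwa [Fin.append_left] at this

theorem h94_isAdm_right {a b : ℕ} {A : Fin a → Place Qbar F} {B : Fin b → Place Qbar F}
    (h : fr.IsAdm (Fin.append A B)) : fr.IsAdm B := by
  refine ⟨fun i j hij => ?_, fun j => ?_⟩
  · have := h.1 (a₁ := Fin.natAdd a i) (a₂ := Fin.natAdd a j) (by
      rw [Fin.append_right, Fin.append_right]; exact hij)
    exact Fin.natAdd_injective b a this
  · have := h.2 (Fin.natAdd a j)
    rwa [Fin.append_right] at this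

/-- the local pairing identity: exact decomposition of the three Vandermonde defects -/
theorem h94_local_identity (M0 M : ℕ) (w : h55_Pl) {a b : ℕ}
    (A : Fin a → Place Qbar F) (B : Fin b → Place Qbar F) :
    fr.Gloc M w (Fin.append A B) - fr.Gloc M w A - fr.Gloc M w B + fr.pairLoc M0 w A B =
      (fr.Gloc M w (Fin.append A B)
        - ∑ j, Real.log (h55_nrm w (fr.pt M (Fin.append A B j)))
        - ∑ i, ∑ j, (if i < j then
            Real.log (fr.dist M0 w (Fin.append A B i) (Fin.append A B j)) else 0))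
      - (fr.Gloc M w A - ∑ j, Real.log (h55_nrm w (fr.pt M (A j)))
        - ∑ i, ∑ j, (if i < j then Real.log (fr.dist M0 w (A i) (A j)) else 0))
      - (fr.Gloc M w B - ∑ j, Real.log (h55_nrm w (fr.pt M (B j)))
        - ∑ i, ∑ j, (if i < j then Real.log (fr.dist M0 w (B i) (B j)) else 0)) := by
  rw [h94_sum_lt_append, Fin.sum_univ_add]
  simp only [Fin.append_left, Fin.append_right]
  unfold h55_Frame.pairLoc
  ring

/-- **Pairing identity**, from the conclusion of the Vandermonde row `h55_vdm`. -/
theorem h55_G_append_of (M0 M amax : ℕ)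
    (hvdm : ∃ c : h55_Pl → ℝ, (∀ w, 1 ≤ c w) ∧ {w | c w ≠ 1}.Finite ∧
      ∀ (w : h55_Pl) (a : ℕ) (P : Fin a → Place Qbar F), a ≤ amax → fr.IsAdm P →
        |fr.Gloc M w P - ∑ j, Real.log (h55_nrm w (fr.pt M (P j)))
          - ∑ i, ∑ j, (if i < j then Real.log (fr.dist M0 w (P i) (P j)) else 0)|
          ≤ Real.log (c w)) :
    ∃ C : ℝ, ∀ (a b : ℕ) (A : Fin a → Place Qbar F) (B : Fin b → Place Qbar F), a + b ≤ amax →
      fr.IsAdm (Fin.append A B) →
      |fr.G M (Fin.append A B) - fr.G M A - fr.G M B + fr.pair M0 A B| ≤ C := by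
  obtain ⟨c, hc1, hcfin, hc⟩ := hvdm
  have hc3 : (Function.support fun w => 3 * Real.log (c w)).Finite := by
    refine hcfin.subset ?_
    intro w hw h1
    simp only [Function.mem_support, ne_eq] at hw
    exact hw (by rw [h1, Real.log_one, mul_zero])
  refine ⟨∑ᶠ w, 3 * Real.log (c w), ?_⟩
  intro a b A B hab hadm
  have hA := h94_isAdm_left fr hadm
  have hB := h94_isAdm_right fr hadm
  -- the local estimate
  have hloc : ∀ w, |fr.Gloc M w (Fin.append A B) - fr.Gloc M w A - fr.Gloc M w B
      + fr.pairLoc M0 w A B| ≤ 3 * Real.log (c w) := by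
    intro w
    rw [h94_local_identity]
    have e1 := hc w (a + b) (Fin.append A B) hab hadm
    have e2 := hc w a A (by omega) hA
    have e3 := hc w b B (by omega) hB
    rw [abs_le] at e1 e2 e3 ⊢
    constructor <;> linarith [e1.1, e1.2, e2.1, e2.2, e3.1, e3.2]
  -- the global sum
  have s1 := h94_finite_support_Gloc fr M (Fin.append A B)
  have s2 := h94_finite_support_Gloc fr M A
  have s3 := h94_finite_support_Gloc fr M B
  have s4 := h94_finite_support_pairLoc fr M0 A B
  have s12 : (Function.support fun w => fr.Gloc M w (Fin.append A B) - fr.Gloc M w A).Finite :=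
    (s1.union s2).subset (Function.support_sub _ _)
  have s123 : (Function.support fun w => fr.Gloc M w (Fin.append A B) - fr.Gloc M w A
      - fr.Gloc M w B).Finite :=
    (s12.union s3).subset (Function.support_sub _ _)
  have s1234 : (Function.support fun w => fr.Gloc M w (Fin.append A B) - fr.Gloc M w A
      - fr.Gloc M w B + fr.pairLoc M0 w A B).Finite :=
    (s123.union s4).subset (Function.support_add _ _)
  have hsum : fr.G M (Fin.append A B) - fr.G M A - fr.G M B + fr.pair M0 A B =
      ∑ᶠ w, (fr.Gloc M w (Fin.append A B) - fr.Gloc M w A - fr.Gloc M w B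
        + fr.pairLoc M0 w A B) := by
    unfold h55_Frame.G h55_Frame.pair
    rw [finsum_add_distrib s123 s4, finsum_sub_distrib s12 s3, finsum_sub_distrib s1 s2]
  rw [hsum, abs_le]
  constructor
  · rw [← finsum_neg_distrib]
    refine finsum_le_finsum' ?_ s1234 fun w => ?_
    · refine hc3.subset ?_
      intro w hw
      simp only [Function.mem_support, ne_eq, neg_eq_zero] at hw ⊢
      exact hw
    · have := (abs_le.mp (hloc w)).1
      linarith
  · exact finsum_le_finsum' s1234 hc3 fun w => (abs_le.mp (hloc w)).2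

end Fermat.Agent.S17
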